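/-
S36 (wave 8), forms side (A1): Kolchin's theorem in the only form needed.

`exists_fixed_of_sq_zero` : a group acting on a nonzero finite-dimensional vector space over a
field of characteristic zero such that `(ρ g - 1)² = 0` for EVERY `g` has a nonzero fixed vector.

Proof.  (i) For `a = ρ g - 1`, `b = ρ h - 1` (so `a² = b² = 0`, `ρ h⁻¹ = 1 - b`) the relations
`(ρ (g h) - 1)² = (a + b + ab)² = 0` and `(ρ (g h⁻¹) - 1)² = (a - b - ab)² = 0` give
`ab = -ba` (`anticomm_of_sq_zero`).  (ii) Descending induction on the dimension of a nonzero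
subspace `U` stable under all `ρ g - 1`: if some `a_g` does not kill `U`, the subspace `a_g U` is
nonzero, strictly smaller (as `a_g² = 0`) and again stable (as `a_h a_g = - a_g a_h`).
-/
import Mathlib

set_option autoImplicit false

namespace Fermat.Agent.S36.Kolchin

/-- Two square-zero elements `a`, `b` of a ring without `2`-torsion such that `a + b + ab` and
`a - b - ab` are square-zero as well anticommute. -/
theorem anticomm_of_sq_zero {R : Type*} [Ring R] (h2 : ∀ x : R, x + x = 0 → x = 0) (a b : R)
    (ha : a * a = 0) (hb : b * b = 0) (hc : (a + b + a * b) * (a + b + a * b) = 0)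
    (hd : (a - b - a * b) * (a - b - a * b) = 0) : a * b = -(b * a) := by
  have e1 : (a + b + a * b) * (a + b + a * b) =
      (a * b + b * a + a * b * a + b * a * b + a * b * a * b) +
        (a * a + b * b + a * a * b + a * (b * b)) := by noncomm_ring
  have e2 : (a - b - a * b) * (a - b - a * b) =
      (-(a * b) - b * a - a * b * a + b * a * b + a * b * a * b) +
        (a * a + b * b - a * a * b + a * (b * b)) := by noncomm_ring
  rw [hc, ha, hb, zero_mul, mul_zero, add_zero, add_zero, add_zero, add_zero] at e1
  rw [hd, ha, hb, zero_mul, mul_zero, add_zero, sub_zero, add_zero, add_zero] at e2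
  -- `bab + abab = 0`
  have h3 : b * a * b + a * b * a * b = 0 := by
    apply h2
    have : b * a * b + a * b * a * b + (b * a * b + a * b * a * b) =
        (a * b + b * a + a * b * a + b * a * b + a * b * a * b) +
          (-(a * b) - b * a - a * b * a + b * a * b + a * b * a * b) := by abel
    rw [this, ← e1, ← e2, add_zero]
  -- `abab = 0`
  have h5 : a * b * a * b = 0 := by
    have : a * (b * a * b + a * b * a * b) = a * b * a * b + a * a * (b * a * b) := by
      noncomm_ring
    rw [h3, mul_zero, ha, zero_mul, add_zero] at this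
    exact this.symm
  -- `bab = 0`
  have h4 : b * a * b = 0 := by
    rw [h5, add_zero] at h3
    exact h3
  -- `ab + ba + aba = 0`
  have h6 : a * b + b * a + a * b * a = 0 := by
    rw [h4, h5, add_zero, add_zero] at e1
    exact e1.symm
  -- `aba = 0`
  have h7 : a * b * a = 0 := by
    have : a * (a * b + b * a + a * b * a) = a * b * a + (a * a * b + a * a * (b * a)) := by
      noncomm_ring
    rw [h6, mul_zero, ha, zero_mul, zero_mul, add_zero, add_zero] at this
    exact this.symm
  rw [h7, add_zero] at h6
  exact eq_neg_of_add_eq_zero_left h6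

section Main

variable {K V G : Type*} [Field K] [CharZero K] [AddCommGroup V] [Module K V]
  [FiniteDimensional K V] [Group G]

omit [FiniteDimensional K V] in
/-- the operators `ρ g - 1` anticommute -/
theorem sub_one_anticomm (ρ : G →* Module.End K V)
    (h : ∀ g : G, (ρ g - 1) * (ρ g - 1) = 0) (g g' : G) :
    (ρ g - 1) * (ρ g' - 1) = -((ρ g' - 1) * (ρ g - 1)) := by
  have h2 : ∀ x : Module.End K V, x + x = 0 → x = 0 := by
    intro x hx
    have h1 : (2 : K) • x = 0 := by rw [two_smul]; exact hx
    exact (smul_eq_zero.mp h1).resolve_left two_ne_zero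
  set a : Module.End K V := ρ g - 1 with ha
  set b : Module.End K V := ρ g' - 1 with hb
  have hρg : ρ g = 1 + a := by rw [ha]; abel
  have hρg' : ρ g' = 1 + b := by rw [hb]; abel
  have hbb : b * b = 0 := h g'
  -- `ρ g'⁻¹ = 1 - b`
  have hinv : ρ g'⁻¹ = 1 - b := by
    have e1 : ρ g' * (1 - b) = 1 := by
      rw [hρg']
      have : (1 + b) * (1 - b) = 1 - b * b := by noncomm_ring
      rw [this, hbb, sub_zero]
    have e2 : ρ g'⁻¹ * ρ g' = 1 := by rw [← map_mul, inv_mul_cancel, map_one]
    calc ρ g'⁻¹ = ρ g'⁻¹ * (ρ g' * (1 - b)) := by rw [e1, mul_one]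
      _ = (ρ g'⁻¹ * ρ g') * (1 - b) := by rw [mul_assoc]
      _ = 1 - b := by rw [e2, one_mul]
  have hc : (a + b + a * b) * (a + b + a * b) = 0 := by
    have e : ρ (g * g') - 1 = a + b + a * b := by
      rw [map_mul, hρg, hρg']
      noncomm_ring
    rw [← e]
    exact h (g * g')
  have hd : (a - b - a * b) * (a - b - a * b) = 0 := by
    have e : ρ (g * g'⁻¹) - 1 = a - b - a * b := by
      rw [map_mul, hρg, hinv]
      noncomm_ring
    rw [← e]
    exact h (g * g'⁻¹)
  exact anticomm_of_sq_zero h2 a b (h g) hbb hc hd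

/-- the inductive statement: a nonzero subspace stable under all `ρ g - 1` contains a nonzero
vector killed by all of them -/
theorem exists_killed (ρ : G →* Module.End K V)
    (h : ∀ g : G, (ρ g - 1) * (ρ g - 1) = 0) :
    ∀ (n : ℕ) (U : Submodule K V), Module.finrank K U = n → U ≠ ⊥ →
      (∀ g : G, ∀ u ∈ U, (ρ g - 1) u ∈ U) →
      ∃ v ∈ U, v ≠ 0 ∧ ∀ g : G, (ρ g - 1) v = 0 := by
  intro n
  induction n using Nat.strong_induction_on with
  | _ n ih =>
    intro U hn hU hst
    by_cases hall : ∀ g : G, ∀ u ∈ U, (ρ g - 1) u = 0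
    · obtain ⟨v, hvU, hv0⟩ := Submodule.exists_mem_ne_zero_of_ne_bot hU
      exact ⟨v, hvU, hv0, fun g => hall g v hvU⟩
    · push Not at hall
      obtain ⟨g, u, huU, hgu⟩ := hall
      let U' : Submodule K V := U.map (ρ g - 1)
      have hU'le : U' ≤ U := by
        rintro _ ⟨x, hx, rfl⟩
        exact hst g x hx
      have hU'0 : U' ≠ ⊥ := by
        intro h0
        have h1 : (ρ g - 1) u ∈ U' := Submodule.mem_map_of_mem huU
        rw [h0, Submodule.mem_bot] at h1
        exact hgu h1
      have hU'st : ∀ g' : G, ∀ x ∈ U', (ρ g' - 1) x ∈ U' := by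
        rintro g' _ ⟨x, hx, rfl⟩
        have e : (ρ g' - 1) ((ρ g - 1) x) = (ρ g - 1) (-((ρ g' - 1) x)) := by
          have e1 := congrArg (fun f : Module.End K V => f x) (sub_one_anticomm ρ h g' g)
          simp only [Module.End.mul_apply, LinearMap.neg_apply] at e1
          rw [e1, map_neg]
        rw [e]
        exact Submodule.mem_map_of_mem (U.neg_mem (hst g' x hx))
      have hU'ne : U' ≠ U := by
        intro heq
        -- then `ρ g - 1` kills `U = U'`
        have h1 : (ρ g - 1) u ∈ U' := Submodule.mem_map_of_mem huU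
        have h2 : u ∈ U' := by rw [heq]; exact huU
        obtain ⟨x, hx, hxu⟩ := h2
        apply hgu
        rw [← hxu]
        have e1 := congrArg (fun f : Module.End K V => f x) (h g)
        simpa only [Module.End.mul_apply, LinearMap.zero_apply] using e1
      have hlt : Module.finrank K U' < n := by
        rw [← hn]
        exact Submodule.finrank_lt_finrank_of_lt (lt_of_le_of_ne hU'le hU'ne)
      obtain ⟨v, hvU', hv0, hv⟩ := ih _ hlt U' rfl hU'0 hU'st
      exact ⟨v, hU'le hvU', hv0, hv⟩

/-- **Kolchin (square-zero form).**  If `(ρ g - 1)² = 0` for every `g`, there is a nonzero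
vector fixed by the whole group. -/
theorem exists_fixed_of_sq_zero [Nontrivial V] (ρ : G →* Module.End K V)
    (h : ∀ g : G, (ρ g - 1) * (ρ g - 1) = 0) : ∃ v : V, v ≠ 0 ∧ ∀ g : G, ρ g v = v := by
  obtain ⟨v, -, hv0, hv⟩ := exists_killed ρ h _ (⊤ : Submodule K V) rfl
    (by
      intro h0
      obtain ⟨x, hx⟩ := exists_ne (0 : V)
      have : x ∈ (⊤ : Submodule K V) := Submodule.mem_top
      rw [h0, Submodule.mem_bot] at this
      exact hx this)
    (fun _ _ _ => Submodule.mem_top)
  refine ⟨v, hv0, fun g => ?_⟩
  have h1 := hv g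
  rw [LinearMap.sub_apply, Module.End.one_apply, sub_eq_zero] at h1
  exact h1

end Main

end Fermat.Agent.S36.Kolchin
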