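/-
S36 (wave 8), forms side, package (A4): the assembly of S30 with the scalar `t(σ)` exposed.

`s36_of_matrix_data` : a variant of `S30Asm.s30_of_matrix_data` (same route: eigenspace `W` of
`χ` in `K̄ʳ`, minimal stable subspace, lattice, `LatAdic.exists_rep_of_minimal`).  The
representation `ρ` produced there satisfies, for EVERY `σ ∈ G_ℚ`,

  `charpoly (ρ σ) = X² - t(σ) X + ε(σ)`,

where `t(σ)` is the scalar by which `R σ + ε(σ) R σ⁻¹` acts on the whole eigenspace `W`.  Hence,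
if `ρ` is unipotent on the inertia group of a place `A` over `q ≠ p`, then `(R τ - 1)² = 0` on `W`
for every `τ` in that inertia group, and Kolchin (`Kolchin.exists_fixed_of_sq_zero`) gives a
nonzero inertia-fixed eigenvector in `W`.  The hypothesis `hNoFix` ("no inertia-fixed eigenvector
at the bad primes") therefore implies that `ρ` is not unipotent on inertia at those primes.
-/
import Mathlib
import Fermat.Agent.S30.S30Asm
import Fermat.Prelude.Def_GaloisRep_LocalConditions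
import Fermat.Agent.S36.Kolchin

set_option autoImplicit false
set_option linter.unusedSectionVars false
set_option linter.style.haveILetI false
set_option linter.unusedVariables false

noncomputable section

namespace Fermat.Agent.S36.AsmX

open Polynomial Matrix Fermat.Agent.S30

/-- the coefficient comparison: `(X - 1)² = X² - t X + e` forces `t = 2`, `e = 1`. -/
theorem eq_two_of_charpoly {B K : Type*} [CommRing B] [Field K] [Algebra B K] (t e : K)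
    (h : ((X - 1) ^ 2 : B[X]).map (algebraMap B K) = X ^ 2 - C t * X + C e) : t = 2 ∧ e = 1 := by
  have h' : (X ^ 2 - C (2 : K) * X + C (1 : K) : K[X]) = X ^ 2 - C t * X + C e := by
    rw [← h, Polynomial.map_pow, Polynomial.map_sub, Polynomial.map_X, Polynomial.map_one]
    simp only [map_ofNat, map_one]
    ring
  have h1 := congrArg (fun P : K[X] => P.coeff 1) h'
  have h0 := congrArg (fun P : K[X] => P.coeff 0) h'
  simp only [coeff_add, coeff_sub, coeff_X_pow, coeff_C_mul, coeff_X_one, coeff_C,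
    coeff_X_zero] at h1 h0
  norm_num at h1 h0
  exact ⟨h1.symm, h0.symm⟩

/-- **S36 from the matrix form of the Tate module and the absence of inertia-fixed
eigenvectors.** -/
theorem s36_of_matrix_data (p : ℕ) [Fact p.Prime] (N : ℕ) [NeZero N] (S : Finset ℕ)
    {r : ℕ} (R : GQ →* Matrix (Fin r) (Fin r) ℤ_[p])
    (Tm : Nat.Primes → Matrix (Fin r) (Fin r) ℤ_[p])
    (hcomm : ∀ (ℓ : Nat.Primes) (σ : GQ), Tm ℓ * R σ = R σ * Tm ℓ)
    (hcont : ∀ n : ℕ, ∃ L : IntermediateField ℚ Qb, FiniteDimensional ℚ L ∧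
      ∀ σ : GQ, (∀ x ∈ L, σ x = x) →
        ∃ W : Matrix (Fin r) (Fin r) ℤ_[p], R σ = 1 + (p : ℤ_[p]) ^ n • W)
    (hfrob : ∀ (ℓ : ℕ) (hℓ : ℓ.Prime), ¬ ℓ ∣ N → ℓ ≠ p → ∀ A : ValuationSubring Qb,
      A.LiesOverPrime ℓ → ∀ σ : GQ, A.IsFrobeniusAt σ ℓ →
        R σ * R σ - Tm ⟨ℓ, hℓ⟩ * R σ + (ℓ : Matrix (Fin r) (Fin r) ℤ_[p]) = 0)
    (heig : ∀ (K : Type) [Field K] [CharZero K] (f : ℤ_[p] →+* K)
      (χ : CuspForm.heckeAlgebra N 2 (↑S : Set ℕ) →+* K),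
      ∃ v : Fin r → K, v ≠ 0 ∧ ∀ (ℓ : ℕ) (hℓ : ℓ.Prime) (hℓN : ¬ ℓ ∣ N)
        (hℓS : ℓ ∉ (↑S : Set ℕ)),
        ((Tm ⟨ℓ, hℓ⟩).map f).mulVec v = χ (CuspForm.heckeAlgebra.T hℓ hℓN hℓS) • v)
    (hQuad : ∀ (ε : GQ →* ℤ_[p]ˣ)
      (_ : ∀ n : ℕ, ∃ L : IntermediateField ℚ Qb, FiniteDimensional ℚ L ∧
        ∀ σ : GQ, (∀ x ∈ L, σ x = x) →
          ∃ w : ℤ_[p], ((ε σ : ℤ_[p]ˣ) : ℤ_[p]) = 1 + (p : ℤ_[p]) ^ n * w)
      (_ : ∀ ℓ : ℕ, ℓ.Prime → ℓ ≠ p → ∀ A : ValuationSubring Qb, A.LiesOverPrime ℓ →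
        ∀ s : GQ, A.IsFrobeniusAt s ℓ → ((ε s : ℤ_[p]ˣ) : ℤ_[p]) = (ℓ : ℤ_[p]))
      {O : Type} [CommRing O] [IsLocalRing O] [IsNoetherianRing O] (ι : ℤ_[p] →+* O)
      (_ : ι (p : ℤ_[p]) ∈ IsLocalRing.maximalIdeal O)
      {K : Type} [Field K] [Algebra O K]
      (χ : CuspForm.heckeAlgebra N 2 (↑S : Set ℕ) →+* O) (g : GQ),
      ∃ t : K, ∀ v : Fin r → K,
        (∀ (ℓ : ℕ) (hℓ : ℓ.Prime) (hℓN : ¬ ℓ ∣ N) (hℓS : ℓ ∉ (↑S : Set ℕ)),
          ((Tm ⟨ℓ, hℓ⟩).map ((algebraMap O K).comp ι)).mulVec v =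
            algebraMap O K (χ (CuspForm.heckeAlgebra.T hℓ hℓN hℓS)) • v) →
        ((R g).map ((algebraMap O K).comp ι)).mulVec v +
            ((algebraMap O K).comp ι) ((ε g : ℤ_[p]ˣ) : ℤ_[p]) •
              ((R g⁻¹).map ((algebraMap O K).comp ι)).mulVec v = t • v)
    (hDVR : ∀ (O : Type) [CommRing O] [IsDomain O] [IsDiscreteValuationRing O]
      [IsAdicComplete (IsLocalRing.maximalIdeal O) O] [Finite (IsLocalRing.ResidueField O)]
      [CharZero O] (K : Type) [Field K] [Algebra O K]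
      (_ : Function.Injective (algebraMap O K)) (_ : ∀ x : K, IsAlgebraic O x) (s : Finset K),
      ∃ B : Subalgebra O K, ∃ (_ : IsDiscreteValuationRing B)
        (_ : IsAdicComplete (IsLocalRing.maximalIdeal B) B)
        (_ : Finite (IsLocalRing.ResidueField B)) (_ : Module.Finite O B)
        (_ : IsLocalHom (algebraMap O B)),
        ∀ x ∈ s, ∃ a b : B, b ≠ 0 ∧ x * (b : K) = (a : K))
    (hcyc : CycPadic p) (hpS : p ∈ S)
    (𝒪' : Type) [CommRing 𝒪'] [IsDomain 𝒪'] [IsDiscreteValuationRing 𝒪']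
    [IsAdicComplete (IsLocalRing.maximalIdeal 𝒪') 𝒪'] [Finite (IsLocalRing.ResidueField 𝒪')]
    [CharZero 𝒪'] (hp𝒪' : (p : 𝒪') ∈ IsLocalRing.maximalIdeal 𝒪')
    (χ : CuspForm.heckeAlgebra N 2 (↑S : Set ℕ) →+* 𝒪')
    (Bad : ℕ → Prop)
    (hNoFix : ∀ q : ℕ, q.Prime → q ≠ p → Bad q →
      ∃ A : ValuationSubring Qb, A.LiesOverPrime q ∧
        ∀ (K : Type) [Field K] [CharZero K] (f : ℤ_[p] →+* K) (g : 𝒪' →+* K),
          Function.Injective g → ∀ w : Fin r → K,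
          (∀ (ℓ : ℕ) (hℓ : ℓ.Prime) (hℓN : ¬ ℓ ∣ N) (hℓS : ℓ ∉ (↑S : Set ℕ)),
            ((Tm ⟨ℓ, hℓ⟩).map f).mulVec w =
              g (χ (CuspForm.heckeAlgebra.T hℓ hℓN hℓS)) • w) →
          (∀ τ ∈ A.inertiaSubgroupIn ℚ, ((R τ).map f).mulVec w = w) → w = 0) :
    ∃ (𝒪'' : Type) (_ : CommRing 𝒪'') (_ : IsDomain 𝒪'') (_ : IsDiscreteValuationRing 𝒪'')
      (_ : IsAdicComplete (IsLocalRing.maximalIdeal 𝒪'') 𝒪'')
      (_ : Finite (IsLocalRing.ResidueField 𝒪'')) (_ : CharZero 𝒪'')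
      (_ : Algebra 𝒪' 𝒪'') (_ : Module.Finite 𝒪' 𝒪'') (_ : IsLocalHom (algebraMap 𝒪' 𝒪'')),
    Function.Injective (algebraMap 𝒪' 𝒪'') ∧
    ∃ ρ : GaloisRepAdic 𝒪'',
      (∀ (ℓ : ℕ) (hℓ : ℓ.Prime) (hℓN : ¬ ℓ ∣ N) (hℓS : ℓ ∉ (↑S : Set ℕ)),
        ∀ A : ValuationSubring (AlgebraicClosure ℚ), A.LiesOverPrime ℓ →
          ∀ σ : AlgebraicClosure ℚ ≃ₐ[ℚ] AlgebraicClosure ℚ, A.IsFrobeniusAt σ ℓ →
            LinearMap.charpoly (ρ.ρ σ) =
              X ^ 2 - C (algebraMap 𝒪' 𝒪'' (χ (CuspForm.heckeAlgebra.T hℓ hℓN hℓS))) * X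
                + C ((ℓ : 𝒪''))) ∧
      (∀ q : ℕ, q.Prime → q ≠ p → Bad q → ¬ ρ.IsUnipotentOnInertiaAt q) := by
  classical
  obtain ⟨ε, hε_level, hε_loc⟩ := hcyc
  obtain ⟨ι⟩ := PadicLift.exists_ringHom p 𝒪' hp𝒪'
  have hιp : ι (p : ℤ_[p]) ∈ IsLocalRing.maximalIdeal 𝒪' := by rw [map_natCast]; exact hp𝒪'
  haveI : CharZero (FractionRing 𝒪') :=
    charZero_of_injective_algebraMap (IsFractionRing.injective 𝒪' (FractionRing 𝒪'))
  let Kb : Type := AlgebraicClosure (FractionRing 𝒪')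
  have hinjK : Function.Injective (algebraMap 𝒪' Kb) := by
    rw [IsScalarTower.algebraMap_eq 𝒪' (FractionRing 𝒪') Kb]
    exact (algebraMap (FractionRing 𝒪') Kb).injective.comp
      (IsFractionRing.injective 𝒪' (FractionRing 𝒪'))
  let fK : ℤ_[p] →+* Kb := (algebraMap 𝒪' Kb).comp ι
  let χK : CuspForm.heckeAlgebra N 2 (↑S : Set ℕ) →+* Kb := (algebraMap 𝒪' Kb).comp χ
  obtain ⟨v₀, hv₀, hv₀eig⟩ := heig Kb fK χK
  -- the eigenspace
  let W : Submodule Kb (Fin r → Kb) :=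
    { carrier := {v | ∀ (ℓ : ℕ) (hℓ : ℓ.Prime) (hℓN : ¬ ℓ ∣ N) (hℓS : ℓ ∉ (↑S : Set ℕ)),
        ((Tm ⟨ℓ, hℓ⟩).map fK).mulVec v =
          algebraMap 𝒪' Kb (χ (CuspForm.heckeAlgebra.T hℓ hℓN hℓS)) • v}
      add_mem' := fun {a b} ha hb ℓ hℓ hℓN hℓS => by
        rw [Matrix.mulVec_add, ha ℓ hℓ hℓN hℓS, hb ℓ hℓ hℓN hℓS, smul_add]
      zero_mem' := fun ℓ hℓ hℓN hℓS => by rw [Matrix.mulVec_zero, smul_zero]
      smul_mem' := fun c {a} ha ℓ hℓ hℓN hℓS => by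
        rw [Matrix.mulVec_smul, ha ℓ hℓ hℓN hℓS, smul_comm] }
  have hv₀W : v₀ ∈ W := fun ℓ hℓ hℓN hℓS => hv₀eig ℓ hℓ hℓN hℓS
  have hW0 : W ≠ ⊥ := fun h => hv₀ (by rw [h] at hv₀W; exact (Submodule.mem_bot Kb).mp hv₀W)
  have hWst : ∀ g : GQ, ∀ x ∈ W, (R g).map fK *ᵥ x ∈ W := by
    intro g x hx ℓ hℓ hℓN hℓS
    rw [Matrix.mulVec_mulVec, ← Matrix.map_mul, hcomm ⟨ℓ, hℓ⟩ g, Matrix.map_mul,
      ← Matrix.mulVec_mulVec, hx ℓ hℓ hℓN hℓS, Matrix.mulVec_smul]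
  -- the quadratic relation on the eigenspace
  have hq0 : ∀ g : GQ, ∃ t : Kb, ∀ v : Fin r → Kb,
      (∀ (ℓ : ℕ) (hℓ : ℓ.Prime) (hℓN : ¬ ℓ ∣ N) (hℓS : ℓ ∉ (↑S : Set ℕ)),
          ((Tm ⟨ℓ, hℓ⟩).map fK).mulVec v =
            algebraMap 𝒪' Kb (χ (CuspForm.heckeAlgebra.T hℓ hℓN hℓS)) • v) →
        ((R g).map fK).mulVec v + fK ((ε g : ℤ_[p]ˣ) : ℤ_[p]) • ((R g⁻¹).map fK).mulVec v
          = t • v := fun g =>
    hQuad ε hε_level (fun ℓ hℓ hℓp A hA s hs => (hε_loc ℓ hℓ hℓp A hA).2 s hs) ι hιp χ g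
  choose t ht using hq0
  -- a minimal stable subspace
  obtain ⟨U, hUW, hU0, hUst, hUmin⟩ :=
    S30Asm.exists_minimal (fun g : GQ => (R g).map fK) W hW0 hWst
  -- coordinates of a basis
  let bU := Module.finBasis Kb U
  let u : Fin (Module.finrank Kb U) → Fin r → Kb := fun k => (bU k : Fin r → Kb)
  have hspanU : Submodule.span Kb (Set.range u) = U := by
    have h1 := bU.span_eq
    have h2 : Set.range u = U.subtype '' Set.range bU := by
      rw [← Set.range_comp]; rfl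
    rw [h2, ← Submodule.map_span, h1, Submodule.map_subtype_top]
  let s : Finset Kb :=
    Finset.univ.image (fun ki : Fin (Module.finrank Kb U) × Fin r => u ki.1 ki.2)
  have halg : ∀ x : Kb, IsAlgebraic 𝒪' x := fun x =>
    (IsFractionRing.isAlgebraic_iff 𝒪' (FractionRing 𝒪') Kb).mpr
      (Algebra.IsAlgebraic.isAlgebraic x)
  obtain ⟨B, hdvr, hcompl, hfin, hmodfin, hloc, hB⟩ := hDVR 𝒪' Kb hinjK halg s
  have hinjB : Function.Injective (algebraMap B Kb) := fun a b h => Subtype.ext h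
  let ιB : ℤ_[p] →+* B := (algebraMap 𝒪' B).comp ι
  have hf : ∀ a, algebraMap B Kb (ιB a) = fK a := fun a => rfl
  have hpB : (p : B) ∈ IsLocalRing.maximalIdeal B := by
    rw [IsLocalRing.mem_maximalIdeal, mem_nonunits_iff]
    intro hu
    have h1 : IsUnit (algebraMap 𝒪' B (p : 𝒪')) := by rwa [map_natCast]
    exact (IsLocalRing.mem_maximalIdeal _).mp hp𝒪' (isUnit_of_map_unit (algebraMap 𝒪' B) _ h1)
  have hp0 : (p : B) ≠ 0 := by
    intro h
    have h1 : algebraMap B Kb (p : B) = 0 := by rw [h, map_zero]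
    rw [map_natCast] at h1
    exact (Nat.cast_ne_zero.mpr (Fact.out : p.Prime).ne_zero) h1
  have hUB : ∃ s' : Set (Fin r → B),
      U = Submodule.span Kb ((fun x i => algebraMap B Kb (x i)) '' s') := by
    obtain ⟨s', hs'⟩ := S30Asm.exists_spanning_set hinjB u (fun k i => by
      obtain ⟨a, b, hb, hab⟩ := hB (u k i) (Finset.mem_image.mpr ⟨(k, i), Finset.mem_univ _, rfl⟩)
      exact ⟨a, b, hb, hab⟩)
    exact ⟨s', by rw [← hs', hspanU]⟩
  obtain ⟨ρ, hρchar, hρtriv⟩ := LatAdic.exists_rep_of_minimal hinjB ιB fK hf hpB hp0 R hcont ε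
    hε_level U hU0 hUB hUst hUmin t (fun g x hx => ht g x (hUW hx))
  have hinj𝒪'B : Function.Injective (algebraMap 𝒪' B) := fun a b h =>
    hinjK (congrArg (algebraMap B Kb) h)
  haveI : CharZero B := ⟨fun m n h => by
    have h1 := congrArg (algebraMap B Kb) h
    rw [map_natCast, map_natCast] at h1
    exact Nat.cast_injective h1⟩
  refine ⟨B, inferInstance, inferInstance, hdvr, hcompl, hfin, inferInstance, inferInstance,
    hmodfin, hloc, hinj𝒪'B, ρ, ?_, ?_⟩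
  · intro ℓ hℓ hℓN hℓS A hA σ hσ
    have hℓp : ℓ ≠ p := fun h => hℓS (by rw [h]; exact Finset.mem_coe.mpr hpS)
    have hε_frob : fK ((ε σ : ℤ_[p]ˣ) : ℤ_[p]) = (ℓ : Kb) := by
      rw [(hε_loc ℓ hℓ hℓp A hA).2 σ hσ, map_natCast]
    have ht_frob : t σ = algebraMap 𝒪' Kb (χ (CuspForm.heckeAlgebra.T hℓ hℓN hℓS)) := by
      have h1 := hfrob ℓ hℓ hℓN hℓp A hA σ hσ
      have h3 := congrArg (fun M => M * R σ⁻¹) h1
      simp only [add_mul, sub_mul, zero_mul, mul_assoc] at h3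
      rw [← map_mul, mul_inv_cancel, map_one, mul_one, mul_one] at h3
      have h4 : (ℓ : Matrix (Fin r) (Fin r) ℤ_[p]) * R σ⁻¹ = (ℓ : ℤ_[p]) • R σ⁻¹ := by
        rw [Nat.cast_smul_eq_nsmul, nsmul_eq_mul]
      rw [h4] at h3
      have h2 : R σ + (ℓ : ℤ_[p]) • R σ⁻¹ = Tm ⟨ℓ, hℓ⟩ := by
        calc R σ + (ℓ : ℤ_[p]) • R σ⁻¹
            = (R σ - Tm ⟨ℓ, hℓ⟩ + (ℓ : ℤ_[p]) • R σ⁻¹) + Tm ⟨ℓ, hℓ⟩ := by abel
          _ = Tm ⟨ℓ, hℓ⟩ := by rw [h3, zero_add]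
      have h5 : (R σ).map fK + (ℓ : Kb) • (R σ⁻¹).map fK = (Tm ⟨ℓ, hℓ⟩).map fK := by
        rw [← h2]
        ext i j
        simp [Matrix.map_apply, Matrix.add_apply, Matrix.smul_apply]
      have h6 : (R σ).map fK *ᵥ v₀ + (ℓ : Kb) • ((R σ⁻¹).map fK *ᵥ v₀) =
          algebraMap 𝒪' Kb (χ (CuspForm.heckeAlgebra.T hℓ hℓN hℓS)) • v₀ := by
        rw [← Matrix.smul_mulVec, ← Matrix.add_mulVec, h5]
        exact hv₀W ℓ hℓ hℓN hℓS
      have h7 := ht σ v₀ hv₀W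
      rw [hε_frob, h6] at h7
      have h8 : (t σ - algebraMap 𝒪' Kb (χ (CuspForm.heckeAlgebra.T hℓ hℓN hℓS))) • v₀ = 0 := by
        rw [sub_smul, ← h7, sub_self]
      rcases smul_eq_zero.mp h8 with h | h
      · exact sub_eq_zero.mp h
      · exact absurd h hv₀
    apply Polynomial.map_injective (algebraMap B Kb) hinjB
    rw [hρchar σ, Polynomial.map_add, Polynomial.map_sub, Polynomial.map_mul, Polynomial.map_pow,
      Polynomial.map_X, Polynomial.map_C, Polynomial.map_C, map_natCast, ht_frob, hε_frob]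
    rfl
  · -- not unipotent on inertia at the bad primes
    intro q hq hqp hbad hunip
    obtain ⟨A, hA, hno⟩ := hNoFix q hq hqp hbad
    -- `t τ = 2` and `ε τ = 1` on inertia
    have ht2 : ∀ τ ∈ A.inertiaSubgroupIn ℚ, t τ = 2 ∧ fK ((ε τ : ℤ_[p]ˣ) : ℤ_[p]) = 1 := by
      intro τ hτ
      have h1 := hρchar τ
      rw [hunip A hA τ hτ] at h1
      exact eq_two_of_charpoly _ _ h1
    -- the matrices as endomorphisms of `W`
    have hmul : ∀ g h : GQ, ∀ x : Fin r → Kb,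
        (R (g * h)).map fK *ᵥ x = (R g).map fK *ᵥ ((R h).map fK *ᵥ x) := by
      intro g h x
      rw [map_mul, Matrix.map_mul, Matrix.mulVec_mulVec]
    have hone : ∀ x : Fin r → Kb, (R 1).map fK *ᵥ x = x := by
      intro x
      rw [map_one, Matrix.map_one _ (map_zero fK) (map_one fK), Matrix.one_mulVec]
    let H : Subgroup GQ := A.inertiaSubgroupIn ℚ
    let ρW : H →* Module.End Kb W :=
      { toFun := fun τ => (Matrix.toLin' ((R (τ : GQ)).map fK)).restrict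
          (fun x hx => by rw [Matrix.toLin'_apply]; exact hWst (τ : GQ) x hx)
        map_one' := by
          apply LinearMap.ext
          intro x
          apply Subtype.ext
          rw [LinearMap.coe_restrict_apply, Matrix.toLin'_apply]
          exact hone x
        map_mul' := fun τ τ' => by
          apply LinearMap.ext
          intro x
          apply Subtype.ext
          rw [Module.End.mul_apply, LinearMap.coe_restrict_apply, LinearMap.coe_restrict_apply,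
            LinearMap.coe_restrict_apply, Matrix.toLin'_apply, Matrix.toLin'_apply,
            Matrix.toLin'_apply]
          exact hmul (τ : GQ) (τ' : GQ) x }
    have hρW : ∀ (τ : H) (x : W), ((ρW τ x : W) : Fin r → Kb) = (R (τ : GQ)).map fK *ᵥ (x : Fin r → Kb) := by
      intro τ x
      change (Matrix.toLin' ((R (τ : GQ)).map fK)) (x : Fin r → Kb) = _
      rw [Matrix.toLin'_apply]
    have hsq : ∀ τ : H, (ρW τ - 1) * (ρW τ - 1) = 0 := by
      intro τ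
      apply LinearMap.ext
      intro x
      apply Subtype.ext
      obtain ⟨h2, h1⟩ := ht2 (τ : GQ) τ.2
      have hx' : (R (τ : GQ)).map fK *ᵥ (x : Fin r → Kb) ∈ W := hWst (τ : GQ) x x.2
      have h3 := ht (τ : GQ) _ hx'
      have hinv : (R (τ : GQ)⁻¹).map fK *ᵥ ((R (τ : GQ)).map fK *ᵥ (x : Fin r → Kb)) =
          (x : Fin r → Kb) := by
        rw [← hmul, inv_mul_cancel, hone]
      rw [h1, h2, one_smul, hinv] at h3
      simp only [Module.End.mul_apply, LinearMap.sub_apply, Module.End.one_apply,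
        LinearMap.zero_apply, map_sub, Submodule.coe_sub, hρW, ZeroMemClass.coe_zero]
      rw [two_smul] at h3
      rw [← sub_eq_zero] at h3
      rw [← h3]
      abel
    haveI : Nontrivial W := (Submodule.nontrivial_iff_ne_bot).mpr hW0
    obtain ⟨v, hv0, hvfix⟩ := Kolchin.exists_fixed_of_sq_zero ρW hsq
    apply hv0
    apply Subtype.ext
    rw [ZeroMemClass.coe_zero]
    refine hno Kb fK (algebraMap 𝒪' Kb) hinjK (v : Fin r → Kb) (fun ℓ hℓ hℓN hℓS => v.2 ℓ hℓ hℓN hℓS)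
      (fun τ hτ => ?_)
    have := hvfix ⟨τ, hτ⟩
    rw [← hρW ⟨τ, hτ⟩ v, this]

end Fermat.Agent.S36.AsmX
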