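/-
S36 (wave 8): the interface between the geometry and the forms / Galois side.

`FixedNewBound N q p` : for every place `A` of `ℚ̄` over `q` there is a constant `c ≠ 0`
(independent of `n`) such that every `p ^ n`-torsion class `x ∈ J₀(N q)(ℚ̄)` which is fixed by the
inertia group of `A` and killed by the two degeneracy push-forwards `α_*`, `β_* : J₀(N q) → J₀(N)`
satisfies `c • x = 0`.

It is used with `N = M' * q`, `q ∤ M'`, `q ≠ p` (level `M' q²`): the inertia-fixed part of the
`p`-power torsion of the `q`-new part of `J₀(M' q²)` is bounded.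
-/
import Mathlib
import Fermat.Agent.S35.Push

set_option autoImplicit false

namespace Fermat.Agent.S36.Contract

open ModularCurve Fermat.Agent.S35.Push

local notation "Qb" => AlgebraicClosure ℚ

/-- **(G36)** The inertia-fixed `p`-power torsion of `ker α_* ∩ ker β_* ⊆ J₀(N q)(ℚ̄)` is killed
by a constant `c ≠ 0` depending only on the place `A` over `q` (not on the exponent `n`). -/
def FixedNewBound (N q p : ℕ) [NeZero N] [NeZero q] : Prop :=
  ∀ A : ValuationSubring Qb, A.LiesOverPrime q → ∃ c : ℕ, c ≠ 0 ∧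
    ∀ (n : ℕ) (x : JZero (N * q)), p ^ n • x = 0 →
      (∀ τ ∈ A.inertiaSubgroupIn ℚ, τ • x = x) →
      pushAlpha N q x = 0 → pushBeta N q x = 0 → c • x = 0

/-- The contract in the shape consumed by the forms side: all levels `M' q²` with `q ∤ M'`. -/
def FixedNewBoundAll (p : ℕ) : Prop :=
  ∀ (M' q : ℕ) [NeZero M'] [NeZero q], q.Prime → ¬ q ∣ M' → q ≠ p →
    FixedNewBound (M' * q) q p

/-- A weaker constant works as well. -/
theorem FixedNewBound.mono {N q p : ℕ} [NeZero N] [NeZero q]
    (h : ∀ A : ValuationSubring Qb, A.LiesOverPrime q → ∃ c : ℕ, c ≠ 0 ∧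
      ∀ (n : ℕ) (x : JZero (N * q)), p ^ n • x = 0 →
        (∀ τ ∈ A.inertiaSubgroupIn ℚ, τ • x = x) →
        pushAlpha N q x = 0 → pushBeta N q x = 0 → c • x = 0) :
    FixedNewBound N q p := h

end Fermat.Agent.S36.Contract
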