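import Fermat.Agent.S30.Defs

/-!
# S36 (A3): Hecke-compatible endomorphisms of the Galois module of a geometric input

For a geometric input `I : GeomInput p N S`, every integral polynomial in the Hecke operators
`T_ℓ` of the prelude Hecke algebra is matched by an endomorphism `F` of `I.X` which commutes
with the Galois action, is compatible with the Kummer maps `I.θ n`, and acts on every
simultaneous eigenvector of the `I.T ℓ` (in any matrix model of `AddMonoid.End I.X`) through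
the corresponding value of the eigencharacter.
-/

set_option autoImplicit false

namespace Fermat.Agent.S36.HeckePair

open Matrix Fermat.Agent.S30

variable {p N : ℕ} [NeZero N] {S : Finset ℕ}

/-- `t` (in the Hecke algebra) and `F` (an endomorphism of `I.X`) are compatible. -/
def Pair (I : GeomInput p N S) (t : CuspForm.heckeAlgebra N 2 (↑S : Set ℕ))
    (F : AddMonoid.End I.X) : Prop :=
  (∀ (σ : GQ) (x : I.X), F (σ • x) = σ • F x) ∧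
  (∀ (n : ℕ) (v : I.Λ), I.θ n (I.hecke t v) = F (I.θ n v)) ∧
  (∀ (K : Type) [Field K] (r : ℕ) (Φ : AddMonoid.End I.X →+* Matrix (Fin r) (Fin r) K)
    (χK : CuspForm.heckeAlgebra N 2 (↑S : Set ℕ) →+* K) (w : Fin r → K),
    (∀ (ℓ : ℕ) (hℓ : ℓ.Prime) (hℓN : ¬ ℓ ∣ N) (hℓS : ℓ ∉ (↑S : Set ℕ)),
      Φ (I.T ⟨ℓ, hℓ⟩) *ᵥ w = χK (CuspForm.heckeAlgebra.T hℓ hℓN hℓS) • w) →
    Φ F *ᵥ w = χK t • w)

theorem pair_T (I : GeomInput p N S) (ℓ : ℕ) (hℓ : ℓ.Prime) (hℓN : ¬ ℓ ∣ N)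
    (hℓS : ℓ ∉ (↑S : Set ℕ)) :
    Pair I (CuspForm.heckeAlgebra.T hℓ hℓN hℓS) (I.T ⟨ℓ, hℓ⟩) := by
  refine ⟨fun σ x => (I.comm ⟨ℓ, hℓ⟩ σ x).symm, fun n v => I.θ_hecke n ℓ hℓ hℓN hℓS v, ?_⟩
  intro K _ r Φ χK w hw
  exact hw ℓ hℓ hℓN hℓS

theorem pair_one (I : GeomInput p N S) : Pair I 1 1 := by
  refine ⟨fun σ x => rfl, fun n v => ?_, ?_⟩
  · rw [map_one]
    rfl
  · intro K _ r Φ χK w _
    rw [map_one, map_one, Matrix.one_mulVec, one_smul]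

theorem pair_add (I : GeomInput p N S) {t₁ t₂ : CuspForm.heckeAlgebra N 2 (↑S : Set ℕ)}
    {F₁ F₂ : AddMonoid.End I.X} (h₁ : Pair I t₁ F₁) (h₂ : Pair I t₂ F₂) :
    Pair I (t₁ + t₂) (F₁ + F₂) := by
  refine ⟨fun σ x => ?_, fun n v => ?_, ?_⟩
  · show F₁ (σ • x) + F₂ (σ • x) = σ • (F₁ x + F₂ x)
    rw [h₁.1, h₂.1, smul_add]
  · rw [map_add]
    show I.θ n (I.hecke t₁ v + I.hecke t₂ v) = F₁ (I.θ n v) + F₂ (I.θ n v)
    rw [map_add, h₁.2.1, h₂.2.1]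
  · intro K _ r Φ χK w hw
    rw [map_add, map_add, Matrix.add_mulVec, add_smul, h₁.2.2 K r Φ χK w hw,
      h₂.2.2 K r Φ χK w hw]

theorem pair_mul (I : GeomInput p N S) {t₁ t₂ : CuspForm.heckeAlgebra N 2 (↑S : Set ℕ)}
    {F₁ F₂ : AddMonoid.End I.X} (h₁ : Pair I t₁ F₁) (h₂ : Pair I t₂ F₂) :
    Pair I (t₁ * t₂) (F₁ * F₂) := by
  refine ⟨fun σ x => ?_, fun n v => ?_, ?_⟩
  · show F₁ (F₂ (σ • x)) = σ • F₁ (F₂ x)
    rw [h₂.1, h₁.1]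
  · rw [map_mul]
    show I.θ n (I.hecke t₁ (I.hecke t₂ v)) = F₁ (F₂ (I.θ n v))
    rw [h₁.2.1, h₂.2.1]
  · intro K _ r Φ χK w hw
    rw [map_mul, map_mul, ← Matrix.mulVec_mulVec, h₂.2.2 K r Φ χK w hw, Matrix.mulVec_smul,
      h₁.2.2 K r Φ χK w hw, smul_smul, mul_comm]

theorem pair_zsmul (I : GeomInput p N S) (c : ℤ) {t : CuspForm.heckeAlgebra N 2 (↑S : Set ℕ)}
    {F : AddMonoid.End I.X} (h : Pair I t F) : Pair I (c • t) (c • F) := by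
  refine ⟨fun σ x => ?_, fun n v => ?_, ?_⟩
  · show c • F (σ • x) = σ • (c • F x)
    rw [h.1]
    exact (map_zsmul (DistribSMul.toAddMonoidHom I.X σ) c (F x)).symm
  · rw [map_zsmul]
    show I.θ n (c • I.hecke t v) = c • F (I.θ n v)
    rw [map_zsmul, h.2.1]
  · intro K _ r Φ χK w hw
    rw [map_zsmul, map_zsmul, Matrix.smul_mulVec, h.2.2 K r Φ χK w hw, smul_assoc]

theorem exists_endo_of_poly {p N : ℕ} [NeZero N] {S : Finset ℕ} (I : GeomInput p N S) (c : ℤ)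
    (s : MvPolynomial {ℓ : Nat.Primes // ¬ (ℓ : ℕ) ∣ N ∧ (ℓ : ℕ) ∉ (↑S : Set ℕ)} ℤ) :
    ∃ F : AddMonoid.End I.X, (∀ (σ : GQ) (x : I.X), F (σ • x) = σ • F x) ∧
      (∀ (n : ℕ) (v : I.Λ), I.θ n (I.hecke (c • MvPolynomial.aeval
        (fun ℓ : {ℓ : Nat.Primes // ¬ (ℓ : ℕ) ∣ N ∧ (ℓ : ℕ) ∉ (↑S : Set ℕ)} =>
          (CuspForm.heckeAlgebra.T ℓ.1.2 ℓ.2.1 ℓ.2.2 : CuspForm.heckeAlgebra N 2 (↑S : Set ℕ)))
        s) v) = F (I.θ n v)) ∧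
      (∀ (K : Type) [Field K] (r : ℕ) (Φ : AddMonoid.End I.X →+* Matrix (Fin r) (Fin r) K)
        (χK : CuspForm.heckeAlgebra N 2 (↑S : Set ℕ) →+* K) (w : Fin r → K),
        (∀ (ℓ : ℕ) (hℓ : ℓ.Prime) (hℓN : ¬ ℓ ∣ N) (hℓS : ℓ ∉ (↑S : Set ℕ)),
          Φ (I.T ⟨ℓ, hℓ⟩) *ᵥ w = χK (CuspForm.heckeAlgebra.T hℓ hℓN hℓS) • w) →
        Φ F *ᵥ w = χK (c • MvPolynomial.aeval
          (fun ℓ : {ℓ : Nat.Primes // ¬ (ℓ : ℕ) ∣ N ∧ (ℓ : ℕ) ∉ (↑S : Set ℕ)} =>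
            (CuspForm.heckeAlgebra.T ℓ.1.2 ℓ.2.1 ℓ.2.2 : CuspForm.heckeAlgebra N 2 (↑S : Set ℕ)))
          s) • w) := by
  have key : ∀ s : MvPolynomial {ℓ : Nat.Primes // ¬ (ℓ : ℕ) ∣ N ∧ (ℓ : ℕ) ∉ (↑S : Set ℕ)} ℤ,
      ∃ F : AddMonoid.End I.X, Pair I (MvPolynomial.aeval
        (fun ℓ : {ℓ : Nat.Primes // ¬ (ℓ : ℕ) ∣ N ∧ (ℓ : ℕ) ∉ (↑S : Set ℕ)} =>
          (CuspForm.heckeAlgebra.T ℓ.1.2 ℓ.2.1 ℓ.2.2 : CuspForm.heckeAlgebra N 2 (↑S : Set ℕ)))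
        s) F := by
    intro s
    induction s using MvPolynomial.induction_on with
    | C a =>
      refine ⟨a • 1, ?_⟩
      rw [MvPolynomial.aeval_C, Algebra.algebraMap_eq_smul_one]
      exact pair_zsmul I a (pair_one I)
    | add s₁ s₂ h₁ h₂ =>
      obtain ⟨F₁, hF₁⟩ := h₁
      obtain ⟨F₂, hF₂⟩ := h₂
      refine ⟨F₁ + F₂, ?_⟩
      rw [map_add]
      exact pair_add I hF₁ hF₂
    | mul_X s ℓ h =>
      obtain ⟨F, hF⟩ := h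
      have h2 := pair_mul I hF (pair_T I (ℓ.1 : ℕ) ℓ.1.2 ℓ.2.1 ℓ.2.2)
      rw [map_mul, MvPolynomial.aeval_X]
      exact ⟨_, h2⟩
  obtain ⟨F, hF⟩ := key s
  exact ⟨c • F, pair_zsmul I c hF⟩

end Fermat.Agent.S36.HeckePair
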