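/-
S36 (wave 8), forms side: the Tate module of a geometric input in coordinates, with the link to
the torsion points EXPOSED.

`exists_matrix_data_exposed` : for `I : GeomInput p N S` (compatible Kummer maps, finite
`p`-torsion) there are `r`, a ring homomorphism `mat : End(I.X) → M_r(ℤ_p)` and additive maps
`pr n : ℤ_p ^ r → I.X` (the `n`-th component of a Tate vector) such that

* `pr n y` is `p ^ n`-torsion, the `pr n` separate points, and `pr n (mat F *ᵥ y) = F (pr n y)`;
* continuity of `σ ↦ mat (σ • ·)`, the Eichler–Shimura relation for `mat (σ • ·)`, `mat (I.T ℓ)`;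
* an eigenvector in `K ^ r` of the matrices `mat (I.T ℓ)` for every character of the Hecke
  algebra with values in a field `K` of characteristic zero receiving `ℤ_p`.

This is `Tate.tateInput_of_module` + `TateMat.exists_matrix_data` (S30) for the explicit Tate
module `TateMod.exists_tate p I.X`, read in `Module.finBasis`, without forgetting `proj`/`map`.
-/
import Mathlib
import Fermat.Agent.S30.Tate
import Fermat.Agent.S30.TateMat

set_option autoImplicit false
set_option linter.style.haveILetI false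
set_option linter.unusedVariables false

open scoped TensorProduct

namespace Fermat.Agent.S36.TateExp

open Matrix Fermat.Agent.S30

/-- **The Tate module of `I.X` in coordinates, with the projections to the torsion points.** -/
theorem exists_matrix_data_exposed {p : ℕ} [Fact p.Prime] {N : ℕ} [NeZero N] {S : Finset ℕ}
    (I : GeomInput p N S) (hc : I.Compat) (hf : I.FiniteTors) :
    ∃ (r : ℕ) (mat : AddMonoid.End I.X →+* Matrix (Fin r) (Fin r) ℤ_[p])
      (pr : ℕ → (Fin r → ℤ_[p]) →+ I.X),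
      (∀ (n : ℕ) (y : Fin r → ℤ_[p]), p ^ n • pr n y = 0) ∧
      (∀ y : Fin r → ℤ_[p], (∀ n, pr n y = 0) → y = 0) ∧
      (∀ (F : AddMonoid.End I.X) (n : ℕ) (y : Fin r → ℤ_[p]), pr n (mat F *ᵥ y) = F (pr n y)) ∧
      (∀ n : ℕ, ∃ L : IntermediateField ℚ Qb, FiniteDimensional ℚ L ∧
        ∀ σ : GQ, (∀ x ∈ L, σ x = x) →
          ∃ W : Matrix (Fin r) (Fin r) ℤ_[p],
            mat (DistribMulAction.toAddMonoidEnd GQ I.X σ) = 1 + (p : ℤ_[p]) ^ n • W) ∧
      (∀ (ℓ : ℕ) (hℓ : ℓ.Prime), ¬ ℓ ∣ N → ℓ ≠ p → ∀ A : ValuationSubring Qb,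
        A.LiesOverPrime ℓ → ∀ σ : GQ, A.IsFrobeniusAt σ ℓ →
          mat (DistribMulAction.toAddMonoidEnd GQ I.X σ) *
              mat (DistribMulAction.toAddMonoidEnd GQ I.X σ) -
            mat (I.T ⟨ℓ, hℓ⟩) * mat (DistribMulAction.toAddMonoidEnd GQ I.X σ) +
            (ℓ : Matrix (Fin r) (Fin r) ℤ_[p]) = 0) ∧
      (∀ (K : Type) [Field K] [CharZero K] (f : ℤ_[p] →+* K)
        (χ : CuspForm.heckeAlgebra N 2 (↑S : Set ℕ) →+* K),
        ∃ v : Fin r → K, v ≠ 0 ∧ ∀ (ℓ : ℕ) (hℓ : ℓ.Prime) (hℓN : ¬ ℓ ∣ N)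
          (hℓS : ℓ ∉ (↑S : Set ℕ)),
          ((mat (I.T ⟨ℓ, hℓ⟩)).map f).mulVec v = χ (CuspForm.heckeAlgebra.T hℓ hℓN hℓS) • v) := by
  classical
  obtain ⟨M, _, _, _, _, proj, map, h_tors, -, h_sep, h_ker, h_smul, h_map, h_lift⟩ :=
    TateMod.exists_tate p I.X hf
  -- the Galois action and the Hecke operators on `M`
  let gal : GQ →* AddMonoid.End I.X := DistribMulAction.toAddMonoidEnd GQ I.X
  have hρ : ∀ (σ : GQ) (n : ℕ) (x : M), proj n (map (gal σ) x) = σ • proj n x :=
    fun σ n x => h_map (gal σ) n x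
  have hT : ∀ (ℓ : Nat.Primes) (n : ℕ) (x : M), proj n (map (I.T ℓ) x) = I.T ℓ (proj n x) :=
    fun ℓ n x => h_map (I.T ℓ) n x
  -- coordinates
  let b := Module.finBasis ℤ_[p] M
  let e : Module.End ℤ_[p] M ≃ₐ[ℤ_[p]]
      Matrix (Fin (Module.finrank ℤ_[p] M)) (Fin (Module.finrank ℤ_[p] M)) ℤ_[p] :=
    LinearMap.toMatrixAlgEquiv b
  let mat : AddMonoid.End I.X →+*
      Matrix (Fin (Module.finrank ℤ_[p] M)) (Fin (Module.finrank ℤ_[p] M)) ℤ_[p] :=
    (e : Module.End ℤ_[p] M →+* _).comp map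
  have hmat : ∀ F : AddMonoid.End I.X, mat F = e (map F) := fun F => rfl
  let pr : ℕ → (Fin (Module.finrank ℤ_[p] M) → ℤ_[p]) →+ I.X := fun n =>
    (proj n).comp (b.equivFun.symm.toLinearMap.toAddMonoidHom)
  have hpr : ∀ (n : ℕ) (y : Fin (Module.finrank ℤ_[p] M) → ℤ_[p]),
      pr n y = proj n (b.equivFun.symm y) := fun n y => rfl
  have hkey : ∀ (F : AddMonoid.End I.X) (y : Fin (Module.finrank ℤ_[p] M) → ℤ_[p]),
      b.equivFun.symm (mat F *ᵥ y) = map F (b.equivFun.symm y) := by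
    intro F y
    apply b.equivFun.injective
    rw [LinearEquiv.apply_symm_apply]
    have h1 := LinearMap.toMatrix_mulVec_repr b b (map F) (b.equivFun.symm y)
    have h2 : (b.repr (b.equivFun.symm y) : Fin (Module.finrank ℤ_[p] M) → ℤ_[p]) = y := by
      rw [← Module.Basis.equivFun_apply, LinearEquiv.apply_symm_apply]
    rw [h2] at h1
    rw [Module.Basis.equivFun_apply, ← h1]
    rfl
  refine ⟨Module.finrank ℤ_[p] M, mat, pr, ?_, ?_, ?_, ?_, ?_, ?_⟩
  · -- torsion
    intro n y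
    rw [hpr]
    exact h_tors n _
  · -- separation
    intro y hy
    have h1 : b.equivFun.symm y = 0 := h_sep _ (fun n => by rw [← hpr]; exact hy n)
    exact (LinearEquiv.map_eq_zero_iff b.equivFun.symm).mp h1
  · -- compatibility with endomorphisms
    intro F n y
    rw [hpr, hkey, h_map, hpr]
  · -- continuity
    intro n
    obtain ⟨s, hs⟩ := (Module.Finite.fg_top : (⊤ : Submodule ℤ_[p] M).FG)
    obtain ⟨L, hL, hfix⟩ := Tate.exists_level I (s.image (proj n))
    refine ⟨L, hL, fun σ hσ => ?_⟩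
    have hdiv : ∀ v : M, ∃ w : M, map (gal σ) v - v = (p : ℤ_[p]) ^ n • w := by
      intro v
      refine h_ker n _ ?_
      let W : Submodule ℤ_[p] M :=
        { carrier := {v | proj n (map (gal σ) v - v) = 0}
          zero_mem' := by simp
          add_mem' := by
            intro a b ha hb
            simp only [Set.mem_ofPred_eq] at ha hb ⊢
            rw [map_add, add_sub_add_comm, map_add, ha, hb, add_zero]
          smul_mem' := by
            intro c a ha
            simp only [Set.mem_ofPred_eq] at ha ⊢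
            rw [map_smul, ← smul_sub, h_smul, ha, smul_zero] }
      have hsW : (s : Set M) ⊆ W := by
        intro m hm
        change proj n (map (gal σ) m - m) = 0
        rw [map_sub, hρ, hfix σ hσ _ (Finset.mem_image_of_mem _ hm), sub_self]
      have hW : W = ⊤ := top_le_iff.mp (hs ▸ Submodule.span_le.mpr hsW)
      have : v ∈ W := hW ▸ Submodule.mem_top
      exact this
    obtain ⟨g, hg⟩ := TateMat.exists_eq_smul_of_forall b ((p : ℤ_[p]) ^ n) (map (gal σ) - 1)
      (fun v => by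
        obtain ⟨w, hw⟩ := hdiv v
        exact ⟨w, by rw [LinearMap.sub_apply, Module.End.one_apply, hw]⟩)
    refine ⟨e g, ?_⟩
    show e (map (gal σ)) = 1 + (p : ℤ_[p]) ^ n • e g
    rw [← map_smul, ← hg, map_sub, map_one]
    abel
  · -- Eichler–Shimura
    intro ℓ hℓ hℓN hℓp A hA σ hσ
    have hfr : map (gal σ) * map (gal σ) - map (I.T ⟨ℓ, hℓ⟩) * map (gal σ) +
        (ℓ : Module.End ℤ_[p] M) = 0 := by
      refine LinearMap.ext (fun v => h_sep _ (fun n => ?_))
      have h1 := hT ⟨ℓ, hℓ⟩ n (map (gal σ) v)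
      simp only [LinearMap.add_apply, LinearMap.sub_apply, Module.End.mul_apply, map_add, map_sub,
        Module.End.natCast_apply, map_nsmul, hρ, h1]
      exact I.frob ℓ hℓ hℓN hℓp A hA σ hσ n (proj n v) (h_tors n v)
    show e (map (gal σ)) * e (map (gal σ)) - e (map (I.T ⟨ℓ, hℓ⟩)) * e (map (gal σ)) +
      (ℓ : Matrix _ _ ℤ_[p]) = 0
    have h := congrArg e hfr
    rw [map_add, map_sub, map_mul, map_mul, map_natCast, map_zero] at h
    exact h
  · -- eigenvectors
    intro K _ _ f χ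
    letI : Algebra ℤ_[p] K := f.toAlgebra
    -- the lattice map
    have hθ0 : ∀ v : I.Λ, I.θ 0 v = 0 := fun v => by simpa using I.θ_tors 0 v
    have hj : ∀ v : I.Λ, ∃ x : M, ∀ n, proj n x = I.θ n v :=
      fun v => h_lift (fun n => I.θ n v) (hθ0 v) (fun n => hc n v)
    choose j0 hj0 using hj
    let j : I.Λ →+ M := AddMonoidHom.mk' j0 (fun a b => sub_eq_zero.mp (h_sep _ (fun n => by
      rw [map_sub, map_add, hj0, hj0, hj0, map_add, sub_self])))
    have hjp : ∀ (n : ℕ) (v : I.Λ), proj n (j v) = I.θ n v := fun n v => hj0 v n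
    have hsat : ∀ (v : I.Λ) (y : M), j v = (p : ℤ_[p]) • y → ∃ w : I.Λ, v = p • w := by
      intro v y hvy
      have h1 : I.θ 1 v = 0 := by
        rw [← hjp 1 v, hvy, Nat.cast_smul_eq_nsmul, map_nsmul]
        simpa using h_tors 1 y
      obtain ⟨w, hw⟩ := I.θ_ker 1 v h1
      exact ⟨w, by simpa using hw⟩
    have hjT : ∀ (ℓ : ℕ) (hℓ : ℓ.Prime) (hℓN : ¬ ℓ ∣ N) (hℓS : ℓ ∉ (↑S : Set ℕ)) (v : I.Λ),
        j (I.hecke (CuspForm.heckeAlgebra.T hℓ hℓN hℓS) v) = map (I.T ⟨ℓ, hℓ⟩) (j v) := by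
      intro ℓ hℓ hℓN hℓS v
      refine sub_eq_zero.mp (h_sep _ (fun n => ?_))
      have h1 := hT ⟨ℓ, hℓ⟩ n (j v)
      rw [map_sub, hjp, h1, hjp, I.θ_hecke, sub_self]
    obtain ⟨v₀, hv₀, hev⟩ := Eigen.exists_eigenvector I.hecke I.hecke_injective χ
    have hv0 : Tate.ext p j K v₀ ≠ 0 :=
      fun h => hv₀ (Tate.ext_injective p j hsat K (h.trans (map_zero _).symm))
    have hv : ∀ (ℓ : ℕ) (hℓ : ℓ.Prime) (hℓN : ¬ ℓ ∣ N) (hℓS : ℓ ∉ (↑S : Set ℕ)),
        (map (I.T ⟨ℓ, hℓ⟩)).baseChange K (Tate.ext p j K v₀) =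
          χ (CuspForm.heckeAlgebra.T hℓ hℓN hℓS) • Tate.ext p j K v₀ := by
      intro ℓ hℓ hℓN hℓS
      have hcomm : ∀ v : K ⊗[ℤ] I.Λ, (map (I.T ⟨ℓ, hℓ⟩)).baseChange K (Tate.ext p j K v) =
          Tate.ext p j K ((I.hecke (CuspForm.heckeAlgebra.T hℓ hℓN hℓS)).baseChange K v) := by
        intro v
        induction v using TensorProduct.induction_on with
        | zero => simp
        | tmul c x =>
          rw [Tate.ext_tmul, LinearMap.baseChange_tmul, LinearMap.baseChange_tmul, Tate.ext_tmul,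
            hjT]
        | add a b ha hb => rw [map_add, map_add, ha, hb, map_add, map_add]
      rw [hcomm, hev, map_smul]
    -- coordinates
    let bK := Algebra.TensorProduct.basis K b
    refine ⟨fun i => bK.repr (Tate.ext p j K v₀) i, ?_, ?_⟩
    · intro h0
      apply hv0
      apply bK.repr.injective
      rw [map_zero]
      exact Finsupp.ext fun i => congrFun h0 i
    · intro ℓ hℓ hℓN hℓS
      have h1 := LinearMap.toMatrix_mulVec_repr bK bK ((map (I.T ⟨ℓ, hℓ⟩)).baseChange K)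
        (Tate.ext p j K v₀)
      rw [LinearMap.toMatrix_baseChange, hv ℓ hℓ hℓN hℓS, map_smul] at h1
      funext i
      have h2 := congrFun h1 i
      rw [Finsupp.smul_apply] at h2
      rw [Pi.smul_apply, ← h2]
      rfl

end Fermat.Agent.S36.TateExp
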