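/-
S36 (wave 8), forms side, package (A5): the matrix form of the Tate module of `J₀(M)(ℚ̄)` and the
absence of inertia-fixed eigenvectors of a newform at the primes `q` with `q² ∥ M`.

`exists_matrix_data_noFix` : from the geometric contract `Contract.FixedNewBoundAll p` there are
matrix data `(r, R, Tm)` of the Tate module (commutation, continuity, Eichler–Shimura,
eigenvectors: the inputs of `AsmX.s36_of_matrix_data`) such that for every prime `q ≠ p` with
`M.factorization q = 2`, every place `A` over `q`, every field `K` of characteristic zero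
receiving `ℤ_p` and every character `χK` of the Hecke algebra which does not kill the elements
not killed by the eigencharacter `chig` of the newform `g`:

  a `χK`-eigenvector `w ∈ Kʳ` fixed by the inertia group of `A` is zero.

Proof: `M = M' q²`, `q ∤ M'`.  Let `t_s = c' • s(T)` be the separator of `g` from the level `M' q`
(`CharOccurs.exists_separator_chig`, times the KS constant of the lower level) and `F` the additive
endomorphism of the Galois module attached to it (`HeckePair.exists_endo_of_poly`).  For an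
inertia-fixed `y` in the Tate module the points `F (c₁ • pr n y) = θ_n (t_s v)` are inertia-fixed,
`p ^ n`-torsion and killed by both degeneracy push-forwards (`GT.map_theta_hecke_eq_zero`), hence
killed by the constant of `FixedNewBound`; so `mat F · y = 0` (separation, torsion-freeness).
`Descent.mulVec_map_eq_zero_of_forall` transports this to `Kʳ`, where `mat F` acts on the
eigenvector `w` by `χK t_s ≠ 0`.
-/
import Mathlib
import Fermat.Agent.S36.Contract
import Fermat.Agent.S36.Descent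
import Fermat.Agent.S36.HeckePair
import Fermat.Agent.S36.TateExp
import Fermat.Agent.S35.KS
import Fermat.Agent.S35.CharOccurs
import Fermat.Agent.S35.GT

set_option autoImplicit false
set_option linter.unusedVariables false
set_option linter.style.haveILetI false

namespace Fermat.Agent.S36.NoFix

open Matrix Fermat.Agent.S30 Fermat.Agent.S35.Push CuspForm

/-- `M.factorization q = 2` means `M = M' q²` with `q ∤ M'`. -/
theorem exists_eq_mul_sq {M q : ℕ} (hM : M ≠ 0) (hq : q.Prime) (h : M.factorization q = 2) :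
    ∃ M' : ℕ, M = M' * q * q ∧ ¬ q ∣ M' := by
  have h1 : q ^ M.factorization q * (M / q ^ M.factorization q) = M :=
    Nat.ordProj_mul_ordCompl_eq_self M q
  have h2 : ¬ q ∣ M / q ^ M.factorization q := Nat.not_dvd_ordCompl hq hM
  rw [h] at h1 h2
  refine ⟨M / q ^ 2, ?_, h2⟩
  rw [mul_assoc, ← sq, mul_comm]
  exact h1.symm

/-- **The matrix data of the Tate module without inertia-fixed eigenvectors at `q² ∥ M`.** -/
theorem exists_matrix_data_noFix (p : ℕ) [Fact p.Prime] (M : ℕ) [NeZero M] (S : Finset ℕ)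
    (hpS : p ∈ S) (hMS : ∀ q : ℕ, q.Prime → q ∣ M → q ∈ S)
    {g : CuspForm (CongruenceSubgroup.Gamma0 M) 2} (hg : g.IsNewform)
    (chig : CuspForm.heckeAlgebra M 2 (↑S : Set ℕ) →+* ℂ)
    (hchig : ∀ (ℓ : ℕ) (hℓ : ℓ.Prime) (hℓM : ¬ ℓ ∣ M) (hℓS : ℓ ∉ (↑S : Set ℕ)),
      chig (CuspForm.heckeAlgebra.T hℓ hℓM hℓS) = ModularFormClass.qCoeff g ℓ)
    (hgeo : Contract.FixedNewBoundAll p) :
    ∃ (r : ℕ) (R : GQ →* Matrix (Fin r) (Fin r) ℤ_[p])
      (Tm : Nat.Primes → Matrix (Fin r) (Fin r) ℤ_[p]),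
      (∀ (ℓ : Nat.Primes) (σ : GQ), Tm ℓ * R σ = R σ * Tm ℓ) ∧
      (∀ n : ℕ, ∃ L : IntermediateField ℚ Qb, FiniteDimensional ℚ L ∧
        ∀ σ : GQ, (∀ x ∈ L, σ x = x) →
          ∃ W : Matrix (Fin r) (Fin r) ℤ_[p], R σ = 1 + (p : ℤ_[p]) ^ n • W) ∧
      (∀ (ℓ : ℕ) (hℓ : ℓ.Prime), ¬ ℓ ∣ M → ℓ ≠ p → ∀ A : ValuationSubring Qb,
        A.LiesOverPrime ℓ → ∀ σ : GQ, A.IsFrobeniusAt σ ℓ →
          R σ * R σ - Tm ⟨ℓ, hℓ⟩ * R σ + (ℓ : Matrix (Fin r) (Fin r) ℤ_[p]) = 0) ∧
      (∀ (K : Type) [Field K] [CharZero K] (f : ℤ_[p] →+* K)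
        (χ : CuspForm.heckeAlgebra M 2 (↑S : Set ℕ) →+* K),
        ∃ v : Fin r → K, v ≠ 0 ∧ ∀ (ℓ : ℕ) (hℓ : ℓ.Prime) (hℓN : ¬ ℓ ∣ M)
          (hℓS : ℓ ∉ (↑S : Set ℕ)),
          ((Tm ⟨ℓ, hℓ⟩).map f).mulVec v = χ (CuspForm.heckeAlgebra.T hℓ hℓN hℓS) • v) ∧
      ∀ q : ℕ, q.Prime → q ≠ p → M.factorization q = 2 →
        ∀ A : ValuationSubring Qb, A.LiesOverPrime q →
        ∀ (K : Type) [Field K] [CharZero K] (f : ℤ_[p] →+* K)
          (χK : CuspForm.heckeAlgebra M 2 (↑S : Set ℕ) →+* K),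
          (∀ t, chig t ≠ 0 → χK t ≠ 0) → ∀ w : Fin r → K,
          (∀ (ℓ : ℕ) (hℓ : ℓ.Prime) (hℓN : ¬ ℓ ∣ M) (hℓS : ℓ ∉ (↑S : Set ℕ)),
            ((Tm ⟨ℓ, hℓ⟩).map f).mulVec w =
              χK (CuspForm.heckeAlgebra.T hℓ hℓN hℓS) • w) →
          (∀ τ ∈ A.inertiaSubgroupIn ℚ, ((R τ).map f).mulVec w = w) → w = 0 := by
  classical
  obtain ⟨I, hc, hf, e, he, -, c₁, hc₁, hks⟩ :=
    Fermat.Agent.S35.KS.exists_geomInput_ks p M S hMS
  obtain ⟨r, mat, pr, hpr_tors, hpr_sep, hpr_map, hcont, hfrob, heig⟩ :=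
    TateExp.exists_matrix_data_exposed I hc hf
  let gal : GQ →* AddMonoid.End I.X := DistribMulAction.toAddMonoidEnd GQ I.X
  let R : GQ →* Matrix (Fin r) (Fin r) ℤ_[p] :=
    (mat : AddMonoid.End I.X →* Matrix (Fin r) (Fin r) ℤ_[p]).comp gal
  have hRdef : ∀ σ : GQ, R σ = mat (gal σ) := fun σ => rfl
  let TT : Nat.Primes → AddMonoid.End I.X := fun ℓ => I.T ℓ
  refine ⟨r, R, fun ℓ => mat (TT ℓ), ?_, hcont, hfrob, heig, ?_⟩
  · -- commutation
    intro ℓ σ
    have h : TT ℓ * gal σ = gal σ * TT ℓ := by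
      ext x
      exact (I.comm ℓ σ x).symm
    calc mat (TT ℓ) * R σ = mat (TT ℓ * gal σ) := (map_mul mat (TT ℓ) (gal σ)).symm
      _ = mat (gal σ * TT ℓ) := by rw [h]
      _ = R σ * mat (TT ℓ) := map_mul mat (gal σ) (TT ℓ)
  · intro q hq hqp hfac A hA K _ _ f χK hχK w hweig hwfix
    obtain ⟨M', hM', hqM'⟩ := exists_eq_mul_sq (NeZero.ne M) hq hfac
    subst hM'
    haveI : NeZero q := ⟨hq.ne_zero⟩
    haveI : NeZero M' := ⟨fun h => NeZero.ne (M' * q * q) (by rw [h, zero_mul, zero_mul])⟩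
    haveI : NeZero (M' * q) := ⟨Nat.mul_ne_zero (NeZero.ne M') (NeZero.ne q)⟩
    have hdiv : M' * q ∣ M' * q * q := dvd_mul_right (M' * q) q
    have hne : M' * q ≠ M' * q * q := by
      intro h
      have h1 : M' * q * 1 = M' * q * q := by rw [mul_one]; exact h
      have h2 : 1 = q := Nat.eq_of_mul_eq_mul_left (Nat.pos_of_ne_zero (NeZero.ne (M' * q))) h1
      exact hq.one_lt.ne h2
    -- KS at the lower level
    obtain ⟨I', -, -, e', he', -, c', hc', hks'⟩ :=
      Fermat.Agent.S35.KS.exists_geomInput_ks p (M' * q) S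
        (fun r hr h => hMS r hr (h.trans hdiv))
    -- the two degeneracy maps in `GeomInput` currency
    let a : I.X →+ I'.X :=
      (e'.symm.toAddMonoidHom.comp (pushAlpha (M' * q) q)).comp e.toAddMonoidHom
    let b : I.X →+ I'.X :=
      (e'.symm.toAddMonoidHom.comp (pushBeta (M' * q) q)).comp e.toAddMonoidHom
    have ha_def : ∀ x : I.X, a x = e'.symm (pushAlpha (M' * q) q (e x)) := fun x => rfl
    have hb_def : ∀ x : I.X, b x = e'.symm (pushBeta (M' * q) q (e x)) := fun x => rfl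
    have he'symm : ∀ (σ : GQ) (y : ModularCurve.JZero (M' * q)),
        e'.symm (σ • y) = σ • e'.symm y := by
      intro σ y
      apply e'.injective
      rw [he', e'.apply_symm_apply, e'.apply_symm_apply]
    have ha : ∀ (σ : GQ) (x : I.X), a (σ • x) = σ • a x := by
      intro σ x
      rw [ha_def, ha_def, he, pushAlpha_smul, he'symm]
    have hb : ∀ (σ : GQ) (x : I.X), b (σ • x) = σ • b x := by
      intro σ x
      rw [hb_def, hb_def, he, pushBeta_smul, he'symm]
    -- the separator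
    obtain ⟨s, hs0, hs⟩ := Fermat.Agent.S35.CharOccurs.exists_separator_chig hg S hMS chig hchig
      hdiv hne
    have hks'' : ∀ (n : ℕ) (y : I'.X), p ^ n • y = 0 →
        ∃ v' : I'.Λ, (c' : ℤ) • y = I'.θ n v' := by
      intro n y hy
      obtain ⟨v', hv'⟩ := hks' n y hy
      exact ⟨v', by rw [natCast_zsmul]; exact hv'⟩
    obtain ⟨F, hFgal, hFθ, hFeig⟩ := HeckePair.exists_endo_of_poly I (c' : ℤ) s
    -- the `ℤ_p`-level statement
    have hZ : ∀ y : Fin r → ℤ_[p],
        (∀ τ : ↥(A.inertiaSubgroupIn ℚ), (R (τ : GQ) - 1) *ᵥ y = 0) → mat F *ᵥ y = 0 := by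
      intro y hy
      obtain ⟨c₂, hc₂, hbound⟩ := hgeo M' q hq hqM' hqp A hA
      have key : ∀ n : ℕ, (c₂ * c₁) • pr n (mat F *ᵥ y) = 0 := by
        intro n
        have hxt : p ^ n • pr n y = 0 := hpr_tors n y
        have hxfix : ∀ τ ∈ A.inertiaSubgroupIn ℚ, τ • pr n y = pr n y := by
          intro τ hτ
          have h1 := hpr_map (gal τ) n y
          have h2 : mat (gal τ) *ᵥ y = y := by
            have h3 := hy ⟨τ, hτ⟩
            rw [Matrix.sub_mulVec, Matrix.one_mulVec, sub_eq_zero] at h3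
            exact h3
          rw [h2] at h1
          exact h1.symm
        obtain ⟨v, hv⟩ := hks n (pr n y) hxt
        have hzF : I.θ n (I.hecke ((c' : ℤ) • MvPolynomial.aeval
            (fun ℓ : {ℓ : Nat.Primes // ¬ (ℓ : ℕ) ∣ M' * q * q ∧ (ℓ : ℕ) ∉ (↑S : Set ℕ)} =>
              (heckeAlgebra.T ℓ.1.2 ℓ.2.1 ℓ.2.2 : heckeAlgebra (M' * q * q) 2 (↑S : Set ℕ))) s) v)
            = F (c₁ • pr n y) := by
          rw [hFθ n v, hv]
        have hza := Fermat.Agent.S35.GT.map_theta_hecke_eq_zero I I' a ha hdiv hpS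
          (c' : ℤ) hks'' s hs0 n v
        have hzb := Fermat.Agent.S35.GT.map_theta_hecke_eq_zero I I' b hb hdiv hpS
          (c' : ℤ) hks'' s hs0 n v
        rw [hzF] at hza hzb
        have hzt : p ^ n • F (c₁ • pr n y) = 0 := by
          rw [← hzF]
          exact I.θ_tors n _
        have hzfix : ∀ τ ∈ A.inertiaSubgroupIn ℚ, τ • F (c₁ • pr n y) = F (c₁ • pr n y) := by
          intro τ hτ
          have h1 : τ • (c₁ • pr n y) = c₁ • pr n y := by
            have h2 := map_nsmul (DistribSMul.toAddMonoidHom I.X τ) c₁ (pr n y)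
            exact h2.trans (by rw [show (DistribSMul.toAddMonoidHom I.X τ) (pr n y) = τ • pr n y
              from rfl, hxfix τ hτ])
          rw [← hFgal τ (c₁ • pr n y), h1]
        -- transport to `J₀`
        have h1 : p ^ n • e (F (c₁ • pr n y)) = 0 := by rw [← map_nsmul, hzt, map_zero]
        have h2 : ∀ τ ∈ A.inertiaSubgroupIn ℚ, τ • e (F (c₁ • pr n y)) = e (F (c₁ • pr n y)) := by
          intro τ hτ
          rw [← he, hzfix τ hτ]
        have h3 : pushAlpha (M' * q) q (e (F (c₁ • pr n y))) = 0 := by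
          rw [ha_def] at hza
          exact (AddEquiv.map_eq_zero_iff e'.symm).mp hza
        have h4 : pushBeta (M' * q) q (e (F (c₁ • pr n y))) = 0 := by
          rw [hb_def] at hzb
          exact (AddEquiv.map_eq_zero_iff e'.symm).mp hzb
        have h5 : c₂ • e (F (c₁ • pr n y)) = 0 := hbound n _ h1 h2 h3 h4
        have h6 : c₂ • F (c₁ • pr n y) = 0 := by
          apply e.injective
          rw [map_nsmul, h5, map_zero]
        rw [hpr_map F n y, mul_smul, ← map_nsmul F]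
        exact h6
      have hsep : (c₂ * c₁) • (mat F *ᵥ y) = 0 :=
        hpr_sep _ (fun n => by rw [map_nsmul]; exact key n)
      exact (smul_eq_zero_iff_right (Nat.mul_ne_zero hc₂ hc₁)).mp hsep
    -- descent to `K`
    have hB0 : (mat F).map f *ᵥ w = 0 :=
      Descent.mulVec_map_eq_zero_of_forall f
        (fun τ : ↥(A.inertiaSubgroupIn ℚ) => R (τ : GQ) - 1) (mat F) hZ w (fun τ => by
          have h1 : (R (τ : GQ) - 1).map f = (R (τ : GQ)).map f - 1 := by
            have h2 := map_sub (RingHom.mapMatrix f) (R (τ : GQ)) 1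
            rw [map_one] at h2
            exact h2
          rw [h1, Matrix.sub_mulVec, Matrix.one_mulVec, hwfix τ τ.2, sub_self])
    have hBeig := hFeig K r ((RingHom.mapMatrix f).comp mat) χK w
      (fun ℓ hℓ hℓN hℓS => hweig ℓ hℓ hℓN hℓS)
    have hχ : χK ((c' : ℤ) • MvPolynomial.aeval
        (fun ℓ : {ℓ : Nat.Primes // ¬ (ℓ : ℕ) ∣ M' * q * q ∧ (ℓ : ℕ) ∉ (↑S : Set ℕ)} =>
          (heckeAlgebra.T ℓ.1.2 ℓ.2.1 ℓ.2.2 : heckeAlgebra (M' * q * q) 2 (↑S : Set ℕ))) s) ≠ 0 := by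
      apply hχK
      rw [map_zsmul, zsmul_eq_mul]
      exact mul_ne_zero (by exact_mod_cast hc') hs
    have hB1 : (mat F).map f *ᵥ w = χK ((c' : ℤ) • MvPolynomial.aeval
        (fun ℓ : {ℓ : Nat.Primes // ¬ (ℓ : ℕ) ∣ M' * q * q ∧ (ℓ : ℕ) ∉ (↑S : Set ℕ)} =>
          (heckeAlgebra.T ℓ.1.2 ℓ.2.1 ℓ.2.2 : heckeAlgebra (M' * q * q) 2 (↑S : Set ℕ))) s) • w :=
      hBeig
    rw [hB1] at hB0
    exact (smul_eq_zero.mp hB0).resolve_left hχ

end Fermat.Agent.S36.NoFix
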