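/-
S36 (wave 8), forms side, package (A6): the frozen statement S36 from the SINGLE geometric
contract `Contract.FixedNewBoundAll lam`
(the inertia-fixed `lam`-power torsion of the `q`-new part of `J₀(M' q²)(ℚ̄)` is bounded).

`s36_of_fixedNewBound` : the conclusion of the frozen statement S36.  The representation is the
one of S30 (lattice in a minimal stable subspace of the eigenspace of the Tate module); the
hypothesis `hres` of the frozen statement is not needed.

Ingredients: `NoFix.exists_matrix_data_noFix` (matrix data of the Tate module, no inertia-fixed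
eigenvector at `q² ∥ M`), `AsmX.s36_of_matrix_data` (the S30 assembly with the scalar `t(σ)`
exposed + Kolchin), `QuadAllB.exists_scalar`, `DVRExt.exists_finite_dvr`, `PadicLift.cycPadic`,
`S29.WeakCheb.exists_frobenius_pow`, `S22.result`, `Common.exists_liesOverPrime`.
-/
import Mathlib
import Fermat.Agent.S36.AsmX
import Fermat.Agent.S36.NoFix
import Fermat.Agent.S30.QuadAllB
import Fermat.Agent.S30.DVRExt
import Fermat.Agent.S30.PadicLift
import Fermat.Agent.S29.WeakCheb
import Fermat.Agent.S22
import Fermat.Agent.Common.Frobenius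

set_option autoImplicit false

open Polynomial

namespace Fermat.Agent.S36.S36Of

open Fermat.Agent.S30 CuspForm

/-- A ring homomorphism from the image of a character of a ring that is finite over `ℤ` to a
domain of characteristic zero is injective. -/
theorem injective_of_range' {R : Type} [CommRing R] [Module.Finite ℤ R] (chi : R →+* ℂ)
    {O : Type} [CommRing O] [IsDomain O] [CharZero O] (iota : chi.range →+* O) :
    Function.Injective iota := by
  have hint : Algebra.IsIntegral ℤ chi.range := by
    refine ⟨fun y => ?_⟩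
    obtain ⟨x, hx⟩ := chi.rangeRestrict_surjective y
    have hxi : IsIntegral ℤ x := Algebra.IsIntegral.isIntegral x
    rw [← hx]
    exact hxi.map (chi.rangeRestrict.toIntAlgHom)
  have hker : (RingHom.ker iota).comap (algebraMap ℤ chi.range) = ⊥ := by
    rw [eq_bot_iff]
    intro n hn
    rw [Ideal.mem_comap, RingHom.mem_ker, eq_intCast, map_intCast] at hn
    rw [Ideal.mem_bot]
    exact_mod_cast hn
  have hbot : RingHom.ker iota = ⊥ := Ideal.eq_bot_of_comap_eq_bot hker
  exact (RingHom.injective_iff_ker_eq_bot iota).mpr hbot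

/-- **S36 from the geometric contract.** -/
theorem s36_of_fixedNewBound
    {M : ℕ} [NeZero M] {g : CuspForm (CongruenceSubgroup.Gamma0 M) 2} (hg : g.IsNewform)
    (lam : ℕ) [Fact lam.Prime]
    (S : Finset ℕ)
    (O' : Type) [CommRing O'] [IsDomain O'] [IsDiscreteValuationRing O']
    [IsAdicComplete (IsLocalRing.maximalIdeal O') O'] [Finite (IsLocalRing.ResidueField O')]
    [CharZero O'] (hlamO' : (lam : O') ∈ IsLocalRing.maximalIdeal O')
    (chig : CuspForm.heckeAlgebra M 2 (↑S : Set ℕ) →+* ℂ)
    (hchig : ∀ (ℓ : ℕ) (hℓ : ℓ.Prime) (hℓM : ¬ ℓ ∣ M) (hℓS : ℓ ∉ (↑S : Set ℕ)),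
      chig (CuspForm.heckeAlgebra.T hℓ hℓM hℓS) = ModularFormClass.qCoeff g ℓ)
    (iota : chig.range →+* O')
    (hlamS : lam ∈ S) (hMS : ∀ q : ℕ, q.Prime → q ∣ M → q ∈ S)
    (hgeo : Contract.FixedNewBoundAll lam) :
    ∃ (O'' : Type) (_ : CommRing O'') (_ : IsDomain O'') (_ : IsDiscreteValuationRing O'')
      (_ : IsAdicComplete (IsLocalRing.maximalIdeal O'') O'')
      (_ : Finite (IsLocalRing.ResidueField O''))
      (_ : CharZero O'') (_ : Algebra O' O'') (_ : Module.Finite O' O'')
      (_ : IsLocalHom (algebraMap O' O'')),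
      Function.Injective (algebraMap O' O'') ∧
      ∃ ρ : GaloisRepAdic O'',
        (∀ (ℓ : ℕ) (hℓ : ℓ.Prime) (hℓM : ¬ ℓ ∣ M) (hℓS : ℓ ∉ (↑S : Set ℕ)),
          ∀ A : ValuationSubring (AlgebraicClosure ℚ), A.LiesOverPrime ℓ →
            ∀ σ : AlgebraicClosure ℚ ≃ₐ[ℚ] AlgebraicClosure ℚ, A.IsFrobeniusAt σ ℓ →
              LinearMap.charpoly (ρ.ρ σ) =
                X ^ 2 - C (algebraMap O' O'' ((iota.comp chig.rangeRestrict)
                  (CuspForm.heckeAlgebra.T hℓ hℓM hℓS))) * X + C ((ℓ : O''))) ∧
        (∀ q : ℕ, q.Prime → q ≠ lam → M.factorization q = 2 →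
          ¬ ρ.IsUnipotentOnInertiaAt q) := by
  obtain ⟨r, R, Tm, hcomm, hcont, hfrob, heig, hno⟩ :=
    NoFix.exists_matrix_data_noFix lam M S hlamS hMS hg chig hchig hgeo
  have hfin : Module.Finite ℤ (CuspForm.heckeAlgebra M 2 (↑S : Set ℕ)) :=
    Fermat.Agent.S22.result M 2 (↑S : Set ℕ)
  have hiota : Function.Injective iota := injective_of_range' chig iota
  exact AsmX.s36_of_matrix_data lam M S R Tm hcomm hcont hfrob heig
    (fun ε hε_level hε_frob _ _ _ _ ι hιp _ _ _ χ' g =>
      QuadAllB.exists_scalar lam M S hlamS hMS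
        (fun L _ S' σ => Fermat.Agent.S29.WeakCheb.exists_frobenius_pow L S' σ)
        ε hε_level hε_frob R Tm hcomm hcont hfrob ι hιp χ' g)
    (fun O _ _ _ _ _ _ K _ _ hinj halg s => DVRExt.exists_finite_dvr O K hinj halg s)
    (PadicLift.cycPadic lam) hlamS O' hlamO' (iota.comp chig.rangeRestrict)
    (fun q => M.factorization q = 2)
    (fun q hq hqlam hbad => by
      obtain ⟨A, hA⟩ := Fermat.Agent.Common.exists_liesOverPrime q hq
      refine ⟨A, hA, fun K _ _ f g' hg' w hweig hwfix => ?_⟩
      refine hno q hq hqlam hbad A hA K f (g'.comp (iota.comp chig.rangeRestrict))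
        (fun t ht h0 => ?_) w hweig hwfix
      have h1 : iota (chig.rangeRestrict t) = 0 := by
        apply hg'
        rw [map_zero]
        exact h0
      have h2 : chig.rangeRestrict t = 0 := by
        apply hiota
        rw [map_zero]
        exact h1
      exact ht (congrArg Subtype.val h2))

end Fermat.Agent.S36.S36Of
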