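import Mathlib
import Fermat.Agent.S37.AtkinLehner
import Fermat.Agent.S35.NormLevel

/-!
# S36, package (V-W): the Atkin–Lehner involution `W_{q²}` of the function field of `X₀(N q²)`

For a prime `q ∤ N` the polynomial relations among the `q`-expansions `j(q^e)`, `e ∣ N q²`, are
stable under the exchange `d qⁱ ↔ d q^{2-i}` (`d ∣ N`, `i ≤ 2`): the Atkin–Lehner substitution
`τ ↦ γ₀ (q² τ)`, `γ₀ = [[u, -v], [N, q²]]`, exchanges `j(d τ)` and `j(d q² τ)` and FIXES
`j(d q τ)` up to `SL(2, ℤ)`.  Consequently there is an involution `W` of `FF L (N * q * q)` with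

* `W ∘ α₂ ∘ α₁ = β₂ ∘ β₁`, `W ∘ β₂ ∘ β₁ = α₂ ∘ α₁`, `W ∘ α₂ ∘ β₁ = α₂ ∘ β₁`;
* `W ∘ α₂ = β₂ ∘ w₁`, `W ∘ β₂ = α₂ ∘ w₁` for every Atkin–Lehner automorphism `w₁` of level `N q`
  (`w₁ ∘ α₁ = β₁`, `w₁ ∘ β₁ = α₁`);
* `W ∘ W = id`.

Here `α₁, β₁ : FF L N → FF L (N q)` and `α₂, β₂ : FF L (N q) → FF L (N q q)` are the degeneracy
embeddings (`heckeAlphaBar`, `heckeBetaBar`).
-/

set_option autoImplicit false
set_option linter.style.haveILetI false
set_option linter.unusedSectionVars false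

open UpperHalfPlane hiding I
open Complex
open scoped MatrixGroups

namespace Fermat.Agent.S36.AtkinSq

open ModularCurve Fermat.Agent.S24 Fermat.Agent.S20 Fermat.Agent.S37.AtkinLehner

/-! ### The analytic core: the middle generators are fixed -/

theorem jFun_dilH_mid_atk (N q : ℕ) (hq : 0 < q) (u v : ℤ)
    (huv : u * ((q * q : ℕ) : ℤ) + v * N = 1)
    (d : ℕ) (hd : 0 < d) (hdN : d ∣ N) (z : ℍ) :
    jFun (dilH (d * q) (Nat.mul_pos hd hq) (atk N (q * q) (Nat.mul_pos hq hq) u v huv z)) =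
      jFun (dilH (d * q) (Nat.mul_pos hd hq) z) := by
  obtain ⟨c, rfl⟩ := hdN
  have hdet : (u * q) * (q : ℤ) - (-(d * v)) * (c : ℤ) = 1 := by
    push_cast at huv; linarith
  have key : dilH (d * q) (Nat.mul_pos hd hq)
      (atk (d * c) (q * q) (Nat.mul_pos hq hq) u v huv z) =
      mkSL (u * q) (-(d * v)) c q hdet • dilH (d * q) (Nat.mul_pos hd hq) z := by
    apply UpperHalfPlane.ext
    rw [coe_dilH, atk, coe_mkSL_smul, coe_mkSL_smul, coe_dilH, coe_dilH]
    have h1 := mkSL_denom_ne_zero u (-v) ((d * c : ℕ) : ℤ) ((q * q : ℕ) : ℤ) (by linarith)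
      (dilH (q * q) (Nat.mul_pos hq hq) z)
    have h2 := mkSL_denom_ne_zero (u * q) (-(d * v)) c q hdet
      (dilH (d * q) (Nat.mul_pos hd hq) z)
    rw [coe_dilH] at h1 h2
    rw [← mul_div_assoc, div_eq_div_iff h1 h2]
    push_cast
    ring
  rw [key, jFun_smul]

/-- **Analytic swap at `q²`.**  A polynomial relation among the series `j(q^(e i))` over `ℂ`
remains valid after exchanging `d ↔ d q²` and fixing `d q` for the divisors `d` of `N`
(`q` coprime to `N`). -/
theorem swap_rel_complex_sq (N q : ℕ) (hq : 0 < q) (hcop : Nat.Coprime (q * q) N)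
    {ι : Type*} (e e' : ι → ℕ) (he : ∀ i, 0 < e i) (he' : ∀ i, 0 < e' i)
    (H : ∀ i, (e i ∣ N ∧ e' i = e i * (q * q)) ∨ (e' i ∣ N ∧ e i = e' i * (q * q)) ∨
      (∃ d, d ∣ N ∧ e i = d * q ∧ e' i = d * q))
    (p : MvPolynomial ι ℂ)
    (hp : MvPolynomial.aeval (fun i => jser ℂ (e i)) p = 0) :
    MvPolynomial.aeval (fun i => jser ℂ (e' i)) p = 0 := by
  have hl : 0 < q * q := Nat.mul_pos hq hq
  obtain ⟨u, v, huv⟩ := (Nat.isCoprime_iff_coprime.mpr hcop)
  have h1 : MvPolynomial.aeval (fun i => jPM (e i) (he i)) p = 0 := by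
    apply qLaurent_injective
    rw [MvPolynomial.comp_aeval_apply, map_zero]
    simp only [qLaurent_jPM]
    exact hp
  have h2 : ∀ z : ℍ, MvPolynomial.aeval (fun i => jFun (dilH (e i) (he i) z)) p = 0 := by
    intro z
    have := congrArg (evalPM z) h1
    rw [MvPolynomial.comp_aeval_apply, map_zero] at this
    exact this
  have h3 : ∀ z : ℍ, MvPolynomial.aeval (fun i => jFun (dilH (e' i) (he' i) z)) p = 0 := by
    intro z
    have h := h2 (atk N (q * q) hl u v huv z)
    have hfun : (fun i => jFun (dilH (e i) (he i) (atk N (q * q) hl u v huv z))) =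
        fun i => jFun (dilH (e' i) (he' i) z) := by
      funext i
      rcases H i with ⟨hdvd, heq⟩ | ⟨hdvd, heq⟩ | ⟨d, hdvd, heq, heq'⟩
      · rw [jFun_dilH_atk N (q * q) hl u v huv (e i) (he i) hdvd z]
        exact congrArg jFun (dilH_congr heq.symm _ _ z)
      · rw [dilH_congr heq (he i) (Nat.mul_pos (he' i) hl),
          jFun_dilH_mul_atk N (q * q) hl u v huv (e' i) (he' i) hdvd z]
      · have hd : 0 < d := by
          rcases Nat.eq_zero_or_pos d with h0 | h0
          · have := he i; rw [heq, h0, zero_mul] at this; exact absurd this (lt_irrefl 0)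
          · exact h0
        rw [dilH_congr heq (he i) (Nat.mul_pos hd hq),
          jFun_dilH_mid_atk N q hq u v huv d hd hdvd z]
        exact congrArg jFun (dilH_congr heq'.symm _ _ z)
    rw [hfun] at h
    exact h
  have h4 : MvPolynomial.aeval (fun i => jPM (e' i) (he' i)) p = 0 := by
    apply Subtype.ext
    funext z
    have := h3 z
    rw [← evalPM_apply, MvPolynomial.comp_aeval_apply]
    exact this
  have h5 := congrArg qLaurent h4
  rw [MvPolynomial.comp_aeval_apply, map_zero] at h5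
  simp only [qLaurent_jPM] at h5
  exact h5

/-- **Swap of relations at `q²`** over any field `L ⊆ ℂ`. -/
theorem swap_rel_sq {L : Type*} [Field L] [Algebra ℚ L] (ι₀ : L →+* ℂ)
    (N q : ℕ) (hq : 0 < q) (hcop : Nat.Coprime (q * q) N)
    {ι : Type*} (e e' : ι → ℕ) (he : ∀ i, 0 < e i) (he' : ∀ i, 0 < e' i)
    (H : ∀ i, (e i ∣ N ∧ e' i = e i * (q * q)) ∨ (e' i ∣ N ∧ e i = e' i * (q * q)) ∨
      (∃ d, d ∣ N ∧ e i = d * q ∧ e' i = d * q))
    (p : MvPolynomial ι L)
    (hp : MvPolynomial.aeval (fun i => jser L (e i)) p = 0) :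
    MvPolynomial.aeval (fun i => jser L (e' i)) p = 0 := by
  apply coeffMap_injective' ι₀ ι₀.injective
  rw [coeffMap_aeval, map_zero]
  simp only [coeffMap_jser]
  apply swap_rel_complex_sq N q hq hcop e e' he he' H
  have := congrArg (coeffMap ι₀) hp
  rw [coeffMap_aeval, map_zero] at this
  simpa only [coeffMap_jser] using this

/-! ### The generators `j(q^(d qⁱ))`, `d ∣ N`, `i ≤ 2` -/

/-- the index set: three copies of the divisors of `N` -/
abbrev Idx3 (N : ℕ) : Type := {d : ℕ // d ∣ N} × Fin 3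

/-- the level of a generator -/
def lev3 (N q : ℕ) (i : Idx3 N) : ℕ := i.1.1 * q ^ (i.2 : ℕ)

/-- the exchange `i ↔ 2 - i` -/
def swap3 (N : ℕ) (i : Idx3 N) : Idx3 N := (i.1, Fin.rev i.2)

theorem swap3_swap3 (N : ℕ) (i : Idx3 N) : swap3 N (swap3 N i) = i := by
  simp [swap3]

theorem lev3_dvd (N q : ℕ) (i : Idx3 N) : lev3 N q i ∣ N * q * q := by
  rw [lev3, mul_assoc, ← pow_two]
  exact Nat.mul_dvd_mul i.1.2 (pow_dvd_pow q (by have := i.2.2; omega))

theorem lev3_pos (N q : ℕ) (hN : N ≠ 0) (hq : 0 < q) (i : Idx3 N) : 0 < lev3 N q i :=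
  Nat.mul_pos (Nat.pos_of_dvd_of_pos i.1.2 (Nat.pos_of_ne_zero hN)) (pow_pos hq _)

/-- the generators of the function field of `X₀(N q²)` -/
noncomputable def gen3 (L : Type*) [Field L] [Algebra ℚ L] (N q : ℕ) (hN : N ≠ 0) (hq : q ≠ 0)
    (i : Idx3 N) : FF L (N * q * q) :=
  ⟨jser L (lev3 N q i), jser_mem L (N * q * q) _
    (Nat.mul_ne_zero (Nat.mul_ne_zero hN hq) hq) (lev3_dvd N q i)⟩

theorem coe_gen3 (L : Type*) [Field L] [Algebra ℚ L] (N q : ℕ) (hN : N ≠ 0) (hq : q ≠ 0)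
    (i : Idx3 N) :
    ((gen3 L N q hN hq i : FF L (N * q * q)) : LaurentSeries L) = jser L (lev3 N q i) := rfl

/-- every divisor of `N q²` is `d qⁱ` with `d ∣ N`, `i ≤ 2` (`q ∤ N` prime) -/
theorem exists_idx3 (N q : ℕ) (hq : q.Prime) (e : ℕ) (he : e ∣ N * q * q) :
    ∃ i : Idx3 N, lev3 N q i = e := by
  have he' : e ∣ N * q ^ 2 := by rw [pow_two, ← mul_assoc]; exact he
  obtain ⟨d, k, hd, hk, rfl⟩ := (Nat.dvd_mul).mp he'
  obtain ⟨i, hi, rfl⟩ := (Nat.dvd_prime_pow hq).mp hk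
  exact ⟨(⟨d, hd⟩, ⟨i, by omega⟩), rfl⟩

theorem adjoin_gen3 (L : Type*) [Field L] [Algebra ℚ L] (N q : ℕ) (hN : N ≠ 0) (hq : q.Prime) :
    IntermediateField.adjoin L (Set.range (gen3 L N q hN hq.ne_zero)) = ⊤ := by
  apply eq_top_of_jser_mem
  intro d hd x hx
  obtain ⟨i, hi⟩ := exists_idx3 N q hq d hd
  have : x = gen3 L N q hN hq.ne_zero i := by
    apply Subtype.ext
    rw [hx, coe_gen3, hi]
  rw [this]
  exact IntermediateField.subset_adjoin L _ ⟨_, rfl⟩

/-- **The Atkin–Lehner involution at `q²`**, generator form. -/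
theorem exists_atkinLehnerSq_gen {L : Type*} [Field L] [Algebra ℚ L] (ι₀ : L →+* ℂ)
    (N q : ℕ) (hN : N ≠ 0) (hq : q.Prime) (hNq : ¬ q ∣ N) :
    ∃ W : FF L (N * q * q) ≃ₐ[L] FF L (N * q * q),
      ∀ i : Idx3 N, W (gen3 L N q hN hq.ne_zero i) = gen3 L N q hN hq.ne_zero (swap3 N i) := by
  refine exists_algEquiv_of_swap (gen3 L N q hN hq.ne_zero) (adjoin_gen3 L N q hN hq)
    (swap3 N) (swap3_swap3 N) ?_
  intro p hp
  have hval : ∀ G : Idx3 N → FF L (N * q * q),
      ((MvPolynomial.aeval G p : FF L (N * q * q)) : LaurentSeries L) =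
        MvPolynomial.aeval (fun i => ((G i : FF L (N * q * q)) : LaurentSeries L)) p := by
    intro G
    exact MvPolynomial.comp_aeval_apply G
      (IntermediateField.val (laurentBaseChange L (modularFunctionFieldFull (N * q * q)))) p
  apply Subtype.ext
  rw [hval]
  have h0 := congrArg (fun x : FF L (N * q * q) => (x : LaurentSeries L)) hp
  simp only [hval] at h0
  have hcop : Nat.Coprime (q * q) N := by
    rw [← pow_two]
    exact Nat.Coprime.pow_left 2 ((Nat.Prime.coprime_iff_not_dvd hq).mpr hNq)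
  have key := swap_rel_sq ι₀ N q hq.pos hcop (lev3 N q) (fun i => lev3 N q (swap3 N i))
    (lev3_pos N q hN hq.pos) (fun i => lev3_pos N q hN hq.pos (swap3 N i)) (fun i => by
      obtain ⟨d, k⟩ := i
      fin_cases k
      · left
        refine ⟨by simpa [lev3] using d.2, ?_⟩
        simp [lev3, swap3, Fin.rev, pow_two]
      · right; right
        exact ⟨d.1, d.2, by simp [lev3], by simp [lev3, swap3, Fin.rev]⟩
      · right; left
        refine ⟨by simpa [lev3, swap3, Fin.rev] using d.2, ?_⟩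
        simp [lev3, swap3, Fin.rev, pow_two]) p h0
  exact key

/-! ### The characterisation through the degeneracy embeddings -/

section Emb

variable {L : Type*} [Field L] [Algebra ℚ L]

theorem coe_alpha_alpha (N q : ℕ) [NeZero N] [NeZero q] (x : FF L N) :
    ((heckeAlphaBar L (N * q) q (heckeAlphaBar L N q x) : FF L (N * q * q)) : LaurentSeries L) =
      (x : LaurentSeries L) := by
  rw [coe_heckeAlphaBar, coe_heckeAlphaBar]

theorem coe_alpha_beta (N q : ℕ) [NeZero N] [NeZero q] (x : FF L N) :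
    ((heckeAlphaBar L (N * q) q (heckeBetaBar L N q x) : FF L (N * q * q)) : LaurentSeries L) =
      qExpand L q (x : LaurentSeries L) := by
  rw [coe_heckeAlphaBar, coe_heckeBetaBar]

theorem coe_beta_alpha (N q : ℕ) [NeZero N] [NeZero q] (x : FF L N) :
    ((heckeBetaBar L (N * q) q (heckeAlphaBar L N q x) : FF L (N * q * q)) : LaurentSeries L) =
      qExpand L q (x : LaurentSeries L) := by
  rw [coe_heckeBetaBar, coe_heckeAlphaBar]

theorem coe_beta_beta (N q : ℕ) [NeZero N] [NeZero q] (x : FF L N) :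
    ((heckeBetaBar L (N * q) q (heckeBetaBar L N q x) : FF L (N * q * q)) : LaurentSeries L) =
      qExpand L q (qExpand L q (x : LaurentSeries L)) := by
  rw [coe_heckeBetaBar, coe_heckeBetaBar]

/-- `β₂ ∘ α₁ = α₂ ∘ β₁` -/
theorem beta_alpha_eq_alpha_beta (N q : ℕ) [NeZero N] [NeZero q] (x : FF L N) :
    heckeBetaBar L (N * q) q (heckeAlphaBar L N q x) =
      heckeAlphaBar L (N * q) q (heckeBetaBar L N q x) :=
  Subtype.ext (by rw [coe_beta_alpha, coe_alpha_beta])

theorem qExpand_jser (q d : ℕ) [NeZero q] (hd : d ≠ 0) :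
    qExpand L q (jser L d) = jser L (d * q) := by
  haveI : NeZero d := ⟨hd⟩
  rw [jser_eq, jser_eq, coeffEmb, ← Fermat.Agent.S28.coeffMap_qExpand, qExpand_qExpand]
  exact congrArg _ (qExpand_congr (mul_comm q d) _)

set_option maxHeartbeats 1600000 in
/-- **The Atkin–Lehner involution `W_{q²}`** of the function field of `X₀(N q²)`, `q ∤ N`
prime. -/
theorem exists_atkinLehnerSq_of_emb (ι₀ : L →+* ℂ)
    (N q : ℕ) [NeZero N] [NeZero q] (hq : q.Prime) (hNq : ¬ q ∣ N) :
    ∃ W : FF L (N * q * q) ≃ₐ[L] FF L (N * q * q),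
      (∀ x, W (W x) = x) ∧
      (∀ x : FF L N, W (heckeAlphaBar L (N * q) q (heckeAlphaBar L N q x)) =
        heckeBetaBar L (N * q) q (heckeBetaBar L N q x)) ∧
      (∀ x : FF L N, W (heckeBetaBar L (N * q) q (heckeBetaBar L N q x)) =
        heckeAlphaBar L (N * q) q (heckeAlphaBar L N q x)) ∧
      (∀ x : FF L N, W (heckeAlphaBar L (N * q) q (heckeBetaBar L N q x)) =
        heckeAlphaBar L (N * q) q (heckeBetaBar L N q x)) ∧
      ∀ w₁ : FF L (N * q) ≃ₐ[L] FF L (N * q),
        (w₁ : FF L (N * q) →ₐ[L] FF L (N * q)).comp (heckeAlphaBar L N q) = heckeBetaBar L N q →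
        (w₁ : FF L (N * q) →ₐ[L] FF L (N * q)).comp (heckeBetaBar L N q) = heckeAlphaBar L N q →
        (∀ y : FF L (N * q), W (heckeAlphaBar L (N * q) q y) = heckeBetaBar L (N * q) q (w₁ y)) ∧
        (∀ y : FF L (N * q), W (heckeBetaBar L (N * q) q y) = heckeAlphaBar L (N * q) q (w₁ y)) := by
  have hN : N ≠ 0 := NeZero.ne N
  obtain ⟨W, hW⟩ := exists_atkinLehnerSq_gen ι₀ N q hN hq hNq
  -- the three families of generators
  have hg0 : ∀ (d : ℕ) (hd : d ∣ N) (x : FF L N), (x : LaurentSeries L) = jser L d →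
      heckeAlphaBar L (N * q) q (heckeAlphaBar L N q x) =
        gen3 L N q hN hq.ne_zero (⟨d, hd⟩, 0) := by
    intro d hd x hx
    apply Subtype.ext
    rw [coe_alpha_alpha, hx, coe_gen3]
    simp [lev3]
  have hg1 : ∀ (d : ℕ) (hd : d ∣ N) (x : FF L N), (x : LaurentSeries L) = jser L d →
      heckeAlphaBar L (N * q) q (heckeBetaBar L N q x) =
        gen3 L N q hN hq.ne_zero (⟨d, hd⟩, 1) := by
    intro d hd x hx
    have hd0 : d ≠ 0 := fun h => hN (by rw [h] at hd; exact Nat.eq_zero_of_zero_dvd hd)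
    apply Subtype.ext
    rw [coe_alpha_beta, hx, coe_gen3, qExpand_jser q d hd0]
    simp [lev3]
  have hg2 : ∀ (d : ℕ) (hd : d ∣ N) (x : FF L N), (x : LaurentSeries L) = jser L d →
      heckeBetaBar L (N * q) q (heckeBetaBar L N q x) =
        gen3 L N q hN hq.ne_zero (⟨d, hd⟩, 2) := by
    intro d hd x hx
    have hd0 : d ≠ 0 := fun h => hN (by rw [h] at hd; exact Nat.eq_zero_of_zero_dvd hd)
    apply Subtype.ext
    rw [coe_beta_beta, hx, coe_gen3, qExpand_jser q d hd0,
      qExpand_jser q (d * q) (Nat.mul_ne_zero hd0 hq.ne_zero)]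
    simp [lev3, pow_two, mul_assoc]
  have hs0 : ∀ d : {d : ℕ // d ∣ N}, swap3 N (d, 0) = (d, 2) := fun d => by
    simp [swap3, Fin.rev]
  have hs1 : ∀ d : {d : ℕ // d ∣ N}, swap3 N (d, 1) = (d, 1) := fun d => by
    simp [swap3, Fin.rev]
  have hs2 : ∀ d : {d : ℕ // d ∣ N}, swap3 N (d, 2) = (d, 0) := fun d => by
    simp [swap3, Fin.rev]
  have hWW : ∀ x, W (W x) = x := by
    have h : (W : FF L (N * q * q) →ₐ[L] FF L (N * q * q)).comp
        (W : FF L (N * q * q) →ₐ[L] FF L (N * q * q)) = AlgHom.id L _ := by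
      apply algHom_ext_FF
      intro d hd x hx
      obtain ⟨i, hi⟩ := exists_idx3 N q hq d hd
      have hx' : x = gen3 L N q hN hq.ne_zero i := by
        apply Subtype.ext
        rw [hx, coe_gen3, hi]
      rw [AlgHom.comp_apply, AlgHom.id_apply, hx']
      show W (W _) = _
      rw [hW, hW, swap3_swap3]
    intro x
    exact AlgHom.congr_fun h x
  have h1 : ∀ x : FF L N, W (heckeAlphaBar L (N * q) q (heckeAlphaBar L N q x)) =
      heckeBetaBar L (N * q) q (heckeBetaBar L N q x) := by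
    have h : ((W : FF L (N * q * q) →ₐ[L] FF L (N * q * q)).comp
        (heckeAlphaBar L (N * q) q)).comp (heckeAlphaBar L N q) =
        (heckeBetaBar L (N * q) q).comp (heckeBetaBar L N q) := by
      apply algHom_ext_FF
      intro d hd x hx
      rw [AlgHom.comp_apply, AlgHom.comp_apply, AlgHom.comp_apply, hg0 d hd x hx,
        hg2 d hd x hx]
      show W _ = _
      rw [hW, hs0]
    intro x
    exact AlgHom.congr_fun h x
  have h2 : ∀ x : FF L N, W (heckeBetaBar L (N * q) q (heckeBetaBar L N q x)) =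
      heckeAlphaBar L (N * q) q (heckeAlphaBar L N q x) := by
    intro x
    rw [← h1, hWW]
  have h3 : ∀ x : FF L N, W (heckeAlphaBar L (N * q) q (heckeBetaBar L N q x)) =
      heckeAlphaBar L (N * q) q (heckeBetaBar L N q x) := by
    have h : ((W : FF L (N * q * q) →ₐ[L] FF L (N * q * q)).comp
        (heckeAlphaBar L (N * q) q)).comp (heckeBetaBar L N q) =
        (heckeAlphaBar L (N * q) q).comp (heckeBetaBar L N q) := by
      apply algHom_ext_FF
      intro d hd x hx
      rw [AlgHom.comp_apply, AlgHom.comp_apply, AlgHom.comp_apply, hg1 d hd x hx]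
      show W _ = _
      rw [hW, hs1]
    intro x
    exact AlgHom.congr_fun h x
  refine ⟨W, hWW, h1, h2, h3, ?_⟩
  intro w₁ hwα hwβ
  have hwα' : ∀ x : FF L N, w₁ (heckeAlphaBar L N q x) = heckeBetaBar L N q x :=
    fun x => AlgHom.congr_fun hwα x
  have hwβ' : ∀ x : FF L N, w₁ (heckeBetaBar L N q x) = heckeAlphaBar L N q x :=
    fun x => AlgHom.congr_fun hwβ x
  constructor
  · have h : (W : FF L (N * q * q) →ₐ[L] FF L (N * q * q)).comp (heckeAlphaBar L (N * q) q) =
        (heckeBetaBar L (N * q) q).comp w₁.toAlgHom := by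
      apply algHom_ext_FF
      intro e he y hy
      show W (heckeAlphaBar L (N * q) q y) = heckeBetaBar L (N * q) q (w₁ y)
      rcases Fermat.Agent.S35.NormLevel.w_jser N q hq w₁ hwα hwβ e he y hy with
        ⟨y', hy1, hy2⟩ | ⟨y', hy1, hy2⟩
      · rw [hy2, hy1, h3, beta_alpha_eq_alpha_beta]
      · rw [hy2, hy1, h1]
    intro y
    exact AlgHom.congr_fun h y
  · have h : (W : FF L (N * q * q) →ₐ[L] FF L (N * q * q)).comp (heckeBetaBar L (N * q) q) =
        (heckeAlphaBar L (N * q) q).comp w₁.toAlgHom := by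
      apply algHom_ext_FF
      intro e he y hy
      show W (heckeBetaBar L (N * q) q y) = heckeAlphaBar L (N * q) q (w₁ y)
      rcases Fermat.Agent.S35.NormLevel.w_jser N q hq w₁ hwα hwβ e he y hy with
        ⟨y', hy1, hy2⟩ | ⟨y', hy1, hy2⟩
      · rw [hy2, hy1, h2]
      · rw [hy2, hy1, beta_alpha_eq_alpha_beta, h3]
    intro y
    exact AlgHom.congr_fun h y

/-- the same at a level `L ⊆ ℚ̄` -/
theorem exists_atkinLehnerSq_of_bar (ι : L →+* AlgebraicClosure ℚ)
    (N q : ℕ) [NeZero N] [NeZero q] (hq : q.Prime) (hNq : ¬ q ∣ N) :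
    ∃ W : FF L (N * q * q) ≃ₐ[L] FF L (N * q * q),
      (∀ x, W (W x) = x) ∧
      (∀ x : FF L N, W (heckeAlphaBar L (N * q) q (heckeAlphaBar L N q x)) =
        heckeBetaBar L (N * q) q (heckeBetaBar L N q x)) ∧
      (∀ x : FF L N, W (heckeBetaBar L (N * q) q (heckeBetaBar L N q x)) =
        heckeAlphaBar L (N * q) q (heckeAlphaBar L N q x)) ∧
      (∀ x : FF L N, W (heckeAlphaBar L (N * q) q (heckeBetaBar L N q x)) =
        heckeAlphaBar L (N * q) q (heckeBetaBar L N q x)) ∧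
      ∀ w₁ : FF L (N * q) ≃ₐ[L] FF L (N * q),
        (w₁ : FF L (N * q) →ₐ[L] FF L (N * q)).comp (heckeAlphaBar L N q) = heckeBetaBar L N q →
        (w₁ : FF L (N * q) →ₐ[L] FF L (N * q)).comp (heckeBetaBar L N q) = heckeAlphaBar L N q →
        (∀ y : FF L (N * q), W (heckeAlphaBar L (N * q) q y) = heckeBetaBar L (N * q) q (w₁ y)) ∧
        (∀ y : FF L (N * q), W (heckeBetaBar L (N * q) q y) = heckeAlphaBar L (N * q) q (w₁ y)) := by
  obtain ⟨ι₁⟩ := Fermat.Agent.S34.DegreeL.nonempty_bar_to_complex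
  exact exists_atkinLehnerSq_of_emb (ι₁.comp ι) N q hq hNq

end Emb

end Fermat.Agent.S36.AtkinSq
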