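import Mathlib
import Fermat.Agent.S34.DegreeL

/-!
# S36 (wave 8), package (V-deg): degrees of the degeneracy maps when `l ∣ N`

For any field `L` of characteristic zero with a ring homomorphism `ι₀ : L →+* ℂ`:

* `finrank_adjoin_beta_jBC`: `[FF L (N * l) : L(j(Q^l))] = ψ(N * l)` for every prime `l`, any `N`;
* `finrankAlong_alpha_of_dvd`, `finrankAlong_beta_of_dvd`: for `l ∣ N` the function field
  `FF L (N * l)` has degree `l` over both degeneracy images `α(FF L N)` and `β(FF L N)`;
* `finrank_alpha_of_dvd`, `finrank_beta_of_dvd`: the same as `Module.finrank` statements for the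
  algebra structures `algebraAlong`, together with finite-dimensionality;
* the `_of_bar` twins in the currency `ι : L →+* AlgebraicClosure ℚ`.

No Atkin–Lehner involution at level `N * l` is used: the degree over `L(j(Q^l))` is transported
from level `l` (where it is `l + 1`, `S34.DegreeL`) along the inclusion `FF L l ⊆ FF L (N * l)`.
-/

set_option autoImplicit false
set_option linter.style.haveILetI false

namespace Fermat.Agent.S36.DegreeDvd

open ModularCurve AlgebraicCurve IntermediateField Polynomial Fermat.Agent.S24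
open Fermat.Agent.S37.Conjugates Fermat.Agent.S34.DegreeL

variable (L : Type*) [Field L] [Algebra ℚ L]

theorem dedekindPsi_pos_level (ι₀ : L →+* ℂ) (N : ℕ) [NeZero N] : dedekindPsi N ≠ 0 := by
  rw [← (finrank_jBC_level L ι₀ N).2.2]
  haveI := (finrank_jBC_level L ι₀ N).2.1
  exact Module.finrank_pos.ne'

/-- `[FF L (N * l) : α(FF L N)] = l` when `l ∣ N`. -/
theorem finrankAlong_alpha_of_dvd (ι₀ : L →+* ℂ) (N l : ℕ) [NeZero N] [NeZero l]
    (hlN : l ∣ N) : finrankAlong L (heckeAlphaBar L N l) = l := by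
  have h1 := finrank_mul_finrankAlong (heckeAlphaBar L N l) (jBC L N)
  have h2 : dedekindPsi (N * l) = l * dedekindPsi N := by
    rw [mul_comm N l]
    exact Fermat.Agent.S20.Comb.dedekindPsi_mul_of_dvd (NeZero.ne N) (NeZero.ne l) hlN
  rw [heckeAlphaBar_jBC_level, (finrank_jBC_level L ι₀ N).2.2,
    (finrank_jBC_level L ι₀ (N * l)).2.2, h2, mul_comm] at h1
  exact mul_right_cancel₀ (dedekindPsi_pos_level L ι₀ N) h1

/-- the inclusion of function fields `FF L d ⊆ FF L m` for `d ∣ m`. -/
theorem le_of_dvd {d m : ℕ} [NeZero d] [NeZero m] (h : d ∣ m) :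
    laurentBaseChange L (modularFunctionFieldFull d) ≤
      laurentBaseChange L (modularFunctionFieldFull m) := by
  obtain ⟨k, rfl⟩ := h
  haveI : NeZero k := ⟨fun hk => NeZero.ne (d * k) (by rw [hk, mul_zero])⟩
  intro x hx
  have := (heckeAlphaBar L d k ⟨x, hx⟩).2
  rwa [coe_heckeAlphaBar] at this

/-- the inclusion of function fields `FF L d → FF L m` for `d ∣ m`. -/
noncomputable def incl {d m : ℕ} [NeZero d] [NeZero m] (h : d ∣ m) : FF L d →ₐ[L] FF L m :=
  IntermediateField.inclusion (le_of_dvd L h)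

theorem coe_incl {d m : ℕ} [NeZero d] [NeZero m] (h : d ∣ m) (x : FF L d) :
    ((incl L h x : FF L m) : LaurentSeries L) = (x : LaurentSeries L) :=
  IntermediateField.coe_inclusion _ x

theorem incl_jBC {d m : ℕ} [NeZero d] [NeZero m] (h : d ∣ m) :
    incl L h (jBC L d) = jBC L m :=
  Subtype.ext (by rw [coe_incl, coe_jBC, coe_jBC])

/-- `[FF L (N * l) : L(j(Q^l))] = ψ(N * l)`, for every prime `l` and every level `N`. -/
theorem finrank_adjoin_beta_jBC (ι₀ : L →+* ℂ) (N l : ℕ) [NeZero N] [NeZero l] (hl : l.Prime) :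
    Module.finrank L⟮heckeBetaBar L N l (jBC L N)⟯ (FF L (N * l)) = dedekindPsi (N * l) := by
  have hdvd : 1 * l ∣ N * l := ⟨N, by ring⟩
  have hl1 : ¬ l ∣ 1 := fun h => hl.one_lt.ne' (Nat.dvd_one.mp h)
  -- level `(1, l)`
  have e1 := finrank_mul_finrankAlong (heckeBetaBar L 1 l) (jBC L 1)
  rw [(finrank_jBC_level L ι₀ 1).2.2, dedekindPsi_one, one_mul,
    finrankAlong_beta_level L ι₀ 1 l hl hl1] at e1
  have e2 : dedekindPsi (1 * l) = l + 1 := by
    rw [mul_comm, Fermat.Agent.S20.Comb.dedekindPsi_mul_of_not_dvd one_ne_zero hl hl1,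
      dedekindPsi_one, mul_one]
  -- transport along the inclusion
  have e3 := finrank_mul_finrankAlong (incl L hdvd) (jBC L (1 * l))
  rw [incl_jBC, (finrank_jBC_level L ι₀ (1 * l)).2.2, (finrank_jBC_level L ι₀ (N * l)).2.2,
    e2] at e3
  have e4 := finrank_mul_finrankAlong (incl L hdvd) (heckeBetaBar L 1 l (jBC L 1))
  rw [← e1, e3] at e4
  have e5 : incl L hdvd (heckeBetaBar L 1 l (jBC L 1)) = heckeBetaBar L N l (jBC L N) :=
    Subtype.ext (by rw [coe_incl, coe_heckeBetaBar, coe_heckeBetaBar, coe_jBC, coe_jBC])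
  rw [e5] at e4
  exact e4.symm

/-- `[FF L (N * l) : β(FF L N)] = l` when the prime `l` divides `N`. -/
theorem finrankAlong_beta_of_dvd (ι₀ : L →+* ℂ) (N l : ℕ) [NeZero N] [NeZero l] (hl : l.Prime)
    (hlN : l ∣ N) : finrankAlong L (heckeBetaBar L N l) = l := by
  have h1 := finrank_mul_finrankAlong (heckeBetaBar L N l) (jBC L N)
  have h2 : dedekindPsi (N * l) = l * dedekindPsi N := by
    rw [mul_comm N l]
    exact Fermat.Agent.S20.Comb.dedekindPsi_mul_of_dvd (NeZero.ne N) (NeZero.ne l) hlN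
  rw [finrank_adjoin_beta_jBC L ι₀ N l hl, (finrank_jBC_level L ι₀ N).2.2, h2, mul_comm] at h1
  exact mul_right_cancel₀ (dedekindPsi_pos_level L ι₀ N) h1

/-- `Module.finrank` form over `α(FF L N)` for `l ∣ N`, with finite-dimensionality. -/
theorem finrank_alpha_of_dvd (ι₀ : L →+* ℂ) (N l : ℕ) [NeZero N] [NeZero l] (hlN : l ∣ N) :
    letI := algebraAlong (heckeAlphaBar L N l)
    FiniteDimensional (FF L N) (FF L (N * l)) ∧
      Module.finrank (FF L N) (FF L (N * l)) = l := by
  letI := algebraAlong (heckeAlphaBar L N l)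
  have h : Module.finrank (FF L N) (FF L (N * l)) = l :=
    finrankAlong_alpha_of_dvd L ι₀ N l hlN
  refine ⟨?_, h⟩
  apply Module.finite_of_finrank_pos
  rw [h]; exact Nat.pos_of_ne_zero (NeZero.ne l)

/-- `Module.finrank` form over `β(FF L N)` for a prime `l ∣ N`, with finite-dimensionality. -/
theorem finrank_beta_of_dvd (ι₀ : L →+* ℂ) (N l : ℕ) [NeZero N] [NeZero l] (hl : l.Prime)
    (hlN : l ∣ N) :
    letI := algebraAlong (heckeBetaBar L N l)
    FiniteDimensional (FF L N) (FF L (N * l)) ∧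
      Module.finrank (FF L N) (FF L (N * l)) = l := by
  letI := algebraAlong (heckeBetaBar L N l)
  have h : Module.finrank (FF L N) (FF L (N * l)) = l :=
    finrankAlong_beta_of_dvd L ι₀ N l hl hlN
  refine ⟨?_, h⟩
  apply Module.finite_of_finrank_pos
  rw [h]; exact hl.pos

/-! ### The same statements in the level currency `ι : L →+* AlgebraicClosure ℚ` -/

theorem finrankAlong_alpha_of_dvd_of_bar (ι : L →+* AlgebraicClosure ℚ) (N l : ℕ) [NeZero N]
    [NeZero l] (hlN : l ∣ N) : finrankAlong L (heckeAlphaBar L N l) = l :=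
  finrankAlong_alpha_of_dvd L (toComplex L ι) N l hlN

theorem finrankAlong_beta_of_dvd_of_bar (ι : L →+* AlgebraicClosure ℚ) (N l : ℕ) [NeZero N]
    [NeZero l] (hl : l.Prime) (hlN : l ∣ N) : finrankAlong L (heckeBetaBar L N l) = l :=
  finrankAlong_beta_of_dvd L (toComplex L ι) N l hl hlN

theorem finrank_alpha_of_dvd_of_bar (ι : L →+* AlgebraicClosure ℚ) (N l : ℕ) [NeZero N]
    [NeZero l] (hlN : l ∣ N) :
    letI := algebraAlong (heckeAlphaBar L N l)
    FiniteDimensional (FF L N) (FF L (N * l)) ∧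
      Module.finrank (FF L N) (FF L (N * l)) = l :=
  finrank_alpha_of_dvd L (toComplex L ι) N l hlN

theorem finrank_beta_of_dvd_of_bar (ι : L →+* AlgebraicClosure ℚ) (N l : ℕ) [NeZero N]
    [NeZero l] (hl : l.Prime) (hlN : l ∣ N) :
    letI := algebraAlong (heckeBetaBar L N l)
    FiniteDimensional (FF L N) (FF L (N * l)) ∧
      Module.finrank (FF L N) (FF L (N * l)) = l :=
  finrank_beta_of_dvd L (toComplex L ι) N l hl hlN

theorem finrank_adjoin_beta_jBC_of_bar (ι : L →+* AlgebraicClosure ℚ) (N l : ℕ) [NeZero N]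
    [NeZero l] (hl : l.Prime) :
    Module.finrank L⟮heckeBetaBar L N l (jBC L N)⟯ (FF L (N * l)) = dedekindPsi (N * l) :=
  finrank_adjoin_beta_jBC L (toComplex L ι) N l hl

end Fermat.Agent.S36.DegreeDvd
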