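import Mathlib
import Fermat.Agent.S36.AtkinSq
import Fermat.Agent.S36.DegreeDvd
import Fermat.Agent.S34.FrobPartner

set_option autoImplicit false
set_option linter.style.haveILetI false

/-!
# S36, (R-cusp)/(R-ord) soft spot (s1): `j(Q^{q²})` generates `FF L (M q²)` over `α₂ (FF L (M q))`

For a prime `q ∤ M`, `F = FF L (M * q * q)`, `K₁ = FF L (M * q)`, `α₂ β₂ : K₁ → F`:

* `jBC_not_mem_range_beta`: `j ∉ β (FF L N)` (any `N`, `l ≥ 2`): look at the coefficient of `Q⁻¹`;
* `jpp_not_mem_range_alpha`: `j'' = β₂ (β₁ j) ∉ α₂ K₁` (apply the Atkin–Lehner involution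
  `W_{q²}` of `S36.AtkinSq`: `W j'' = j`, `W (α₂ K₁) = β₂ K₁`);
* abstract: in an extension of prime degree an element outside the base field has a minimal
  polynomial of full degree and generates;
* `natDegree_minpoly_alpha`, `natDegree_minpoly_beta`: the instances, for every `y ∉ α₂ K₁`
  (resp. `∉ β₂ K₁`), in particular `y = j''`, `j''⁻¹`, `a * j''⁻¹` (resp. `j`, `j⁻¹`, ...).
-/

namespace Fermat.Agent.S36.GenSq

open ModularCurve AlgebraicCurve IntermediateField Polynomial Fermat.Agent.S24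

/-! ### Abstract part -/

section Abstract

theorem mul_not_mem_range {K E F : Type*} [Field K] [Field E] [FunLike F K E]
    [RingHomClass F K E] (φ : F) {y : E}
    (hy : y ∉ Set.range φ) {a : K} (ha : a ≠ 0) : φ a * y ∉ Set.range φ := by
  rintro ⟨b, hb⟩
  apply hy
  refine ⟨a⁻¹ * b, ?_⟩
  rw [map_mul, hb, map_inv₀, ← mul_assoc, inv_mul_cancel₀ ((map_ne_zero φ).mpr ha), one_mul]

theorem inv_not_mem_range {K E F : Type*} [Field K] [Field E] [FunLike F K E]
    [RingHomClass F K E] (φ : F) {y : E}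
    (hy : y ∉ Set.range φ) : y⁻¹ ∉ Set.range φ := by
  rintro ⟨b, hb⟩
  apply hy
  refine ⟨b⁻¹, ?_⟩
  rw [map_inv₀, hb, inv_inv]

/-- In a field extension of prime degree, an element outside the base field has minimal
polynomial of full degree. -/
theorem natDegree_minpoly_of_not_mem {K E : Type*} [Field K] [Field E] [Algebra K E]
    [FiniteDimensional K E] (hp : (Module.finrank K E).Prime) (y : E)
    (hy : y ∉ Set.range (algebraMap K E)) :
    (minpoly K y).natDegree = Module.finrank K E := by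
  have hint : IsIntegral K y := IsIntegral.of_finite K y
  rw [← IntermediateField.adjoin.finrank hint]
  have hmul := Module.finrank_mul_finrank K K⟮y⟯ E
  have hdvd : Module.finrank K K⟮y⟯ ∣ Module.finrank K E := ⟨_, hmul.symm⟩
  rcases (Nat.dvd_prime hp).mp hdvd with h1 | h1
  · exfalso
    rw [IntermediateField.finrank_adjoin_simple_eq_one_iff, IntermediateField.mem_bot] at h1
    exact hy h1
  · exact h1

/-- ... and generates the extension. -/
theorem adjoin_eq_top_of_not_mem {K E : Type*} [Field K] [Field E] [Algebra K E]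
    [FiniteDimensional K E] (hp : (Module.finrank K E).Prime) (y : E)
    (hy : y ∉ Set.range (algebraMap K E)) : K⟮y⟯ = ⊤ := by
  rw [Field.primitive_element_iff_minpoly_natDegree_eq]
  exact natDegree_minpoly_of_not_mem hp y hy

end Abstract

/-! ### The instance -/

variable {L : Type*} [Field L] [Algebra ℚ L]

/-- `j ∉ β (FF L N)`: the coefficient of `Q⁻¹`. -/
theorem jBC_not_mem_range_beta (N l : ℕ) [NeZero N] [NeZero l] (hl : 2 ≤ l) :
    jBC L (N * l) ∉ Set.range (heckeBetaBar L N l) := by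
  rintro ⟨g, hg⟩
  have h1 := congrArg (fun x : FF L (N * l) => (x : LaurentSeries L).coeff (-1)) hg
  simp only [coe_heckeBetaBar, coe_jBC] at h1
  have hnd : ¬ ((l : ℕ) : ℤ) ∣ (-1 : ℤ) := by
    intro h
    have h2 : ((l : ℕ) : ℤ) ∣ 1 := (Int.dvd_neg).mp h
    have h3 : l ∣ 1 := by exact_mod_cast h2
    have h4 := Nat.le_of_dvd one_pos h3
    omega
  rw [qExpand_coeff_of_not_dvd l _ hnd, coeffEmb, coeffMap_coeff, coeff_jq_neg_one, map_one] at h1
  exact zero_ne_one h1

theorem alpha_alpha_jBC (M q : ℕ) [NeZero M] [NeZero q] :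
    heckeAlphaBar L (M * q) q (heckeAlphaBar L M q (jBC L M)) = jBC L (M * q * q) :=
  Subtype.ext (by rw [coe_heckeAlphaBar, coe_heckeAlphaBar, coe_jBC, coe_jBC])

theorem alpha_jBC (N l : ℕ) [NeZero N] [NeZero l] :
    heckeAlphaBar L N l (jBC L N) = jBC L (N * l) :=
  Subtype.ext (by rw [coe_heckeAlphaBar, coe_jBC, coe_jBC])

/-- `j'' = j(Q^{q²}) ∉ α₂ (FF L (M q))`. -/
theorem jpp_not_mem_range_alpha (ι : L →+* AlgebraicClosure ℚ) (M q : ℕ) [NeZero M] [NeZero q]
    (hq : q.Prime) (hqM : ¬ q ∣ M) :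
    heckeBetaBar L (M * q) q (heckeBetaBar L M q (jBC L M)) ∉
      Set.range (heckeAlphaBar L (M * q) q) := by
  obtain ⟨W, -, -, hW2, -, hW4⟩ := AtkinSq.exists_atkinLehnerSq_of_bar ι M q hq hqM
  obtain ⟨w₁, hw1, hw2⟩ := Fermat.Agent.S34.FrobPartner.exists_atkinLehner_level ι M q hq hqM
  obtain ⟨hWα, -⟩ := hW4 w₁ hw1 hw2
  rintro ⟨g, hg⟩
  have h1 := congrArg W hg
  rw [hWα, hW2, alpha_alpha_jBC] at h1
  exact jBC_not_mem_range_beta (L := L) (M * q) q hq.two_le ⟨w₁ g, h1⟩

/-- Every `y ∉ α₂ (FF L (M q))` has minimal polynomial of degree `q` over `α₂ (FF L (M q))`. -/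
theorem natDegree_minpoly_alpha (ι : L →+* AlgebraicClosure ℚ) (M q : ℕ) [NeZero M] [NeZero q]
    (hq : q.Prime) (y : FF L (M * q * q))
    (hy : y ∉ Set.range (heckeAlphaBar L (M * q) q)) :
    letI := algebraAlong (heckeAlphaBar L (M * q) q)
    (minpoly (FF L (M * q)) y).natDegree = q := by
  letI := algebraAlong (heckeAlphaBar L (M * q) q)
  obtain ⟨hfin, hdeg⟩ := DegreeDvd.finrank_alpha_of_dvd_of_bar L ι (M * q) q (dvd_mul_left q M)
  haveI := hfin
  have h := natDegree_minpoly_of_not_mem (K := FF L (M * q)) (E := FF L (M * q * q))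
    (by rw [hdeg]; exact hq) y hy
  rw [h, hdeg]

/-- Every `y ∉ β₂ (FF L (M q))` has minimal polynomial of degree `q` over `β₂ (FF L (M q))`. -/
theorem natDegree_minpoly_beta (ι : L →+* AlgebraicClosure ℚ) (M q : ℕ) [NeZero M] [NeZero q]
    (hq : q.Prime) (y : FF L (M * q * q))
    (hy : y ∉ Set.range (heckeBetaBar L (M * q) q)) :
    letI := algebraAlong (heckeBetaBar L (M * q) q)
    (minpoly (FF L (M * q)) y).natDegree = q := by
  letI := algebraAlong (heckeBetaBar L (M * q) q)
  obtain ⟨hfin, hdeg⟩ := DegreeDvd.finrank_beta_of_dvd_of_bar L ι (M * q) q hq (dvd_mul_left q M)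
  haveI := hfin
  have h := natDegree_minpoly_of_not_mem (K := FF L (M * q)) (E := FF L (M * q * q))
    (by rw [hdeg]; exact hq) y hy
  rw [h, hdeg]

/-- The quotient `Y = a * j''⁻¹` (`a ∈ α₂ K₁` nonzero, e.g. `a = j`) is not in `α₂ K₁`. -/
theorem mul_inv_jpp_not_mem (ι : L →+* AlgebraicClosure ℚ) (M q : ℕ) [NeZero M] [NeZero q]
    (hq : q.Prime) (hqM : ¬ q ∣ M) (a : FF L (M * q)) (ha : a ≠ 0) :
    heckeAlphaBar L (M * q) q a * (heckeBetaBar L (M * q) q (heckeBetaBar L M q (jBC L M)))⁻¹ ∉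
      Set.range (heckeAlphaBar L (M * q) q) := by
  have h1 := inv_not_mem_range (heckeAlphaBar L (M * q) q)
    (jpp_not_mem_range_alpha ι M q hq hqM)
  exact mul_not_mem_range (heckeAlphaBar L (M * q) q) h1 ha

/-- **(s1)**: `Y = j / j''` has minimal polynomial of degree `q` over `α₂ (FF L (M q))`. -/
theorem natDegree_minpoly_Y (ι : L →+* AlgebraicClosure ℚ) (M q : ℕ) [NeZero M] [NeZero q]
    (hq : q.Prime) (hqM : ¬ q ∣ M) :
    letI := algebraAlong (heckeAlphaBar L (M * q) q)
    (minpoly (FF L (M * q)) (jBC L (M * q * q) *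
      (heckeBetaBar L (M * q) q (heckeBetaBar L M q (jBC L M)))⁻¹)).natDegree = q := by
  have h := mul_inv_jpp_not_mem ι M q hq hqM (jBC L (M * q))
    (by
      intro h0
      have := congrArg (fun x : FF L (M * q) => (x : LaurentSeries L).coeff (-1)) h0
      simp only [coe_jBC] at this
      rw [coeffEmb, coeffMap_coeff, coeff_jq_neg_one, map_one] at this
      simp at this)
  rw [alpha_jBC] at h
  exact natDegree_minpoly_alpha ι M q hq _ h

/-- The mirror: `Y' = j'' / j` has minimal polynomial of degree `q` over `β₂ (FF L (M q))`. -/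
theorem natDegree_minpoly_Y' (ι : L →+* AlgebraicClosure ℚ) (M q : ℕ) [NeZero M] [NeZero q]
    (hq : q.Prime) :
    letI := algebraAlong (heckeBetaBar L (M * q) q)
    (minpoly (FF L (M * q)) (heckeBetaBar L (M * q) q (heckeBetaBar L M q (jBC L M)) *
      (jBC L (M * q * q))⁻¹)).natDegree = q := by
  have h1 := inv_not_mem_range (heckeBetaBar L (M * q) q)
    (jBC_not_mem_range_beta (L := L) (M * q) q hq.two_le)
  have hb0 : heckeBetaBar L M q (jBC L M) ≠ 0 := by
    intro h0
    have := congrArg (fun x : FF L (M * q) => (x : LaurentSeries L).coeff (-(q : ℤ))) h0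
    simp only [coe_heckeBetaBar, coe_jBC] at this
    have hmul : (-(q : ℤ)) = (q : ℤ) * (-1) := by ring
    rw [hmul, qExpand_coeff_mul, coeffEmb, coeffMap_coeff, coeff_jq_neg_one, map_one] at this
    simp at this
  exact natDegree_minpoly_beta ι M q hq _ (mul_not_mem_range (heckeBetaBar L (M * q) q) h1 hb0)

end Fermat.Agent.S36.GenSq
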