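/-
S36 (wave 8), contract K4 of the ledger as Lean definitions (shapes only, no proofs).

Level `M q²` (`q ∤ M`), an UNRAMIFIED level `(L, ι)` (`LevelChange.IsLevel A q S₀ ι` and
`Irreducible ((q : ℕ) : ↥(A.comap ι))`), `W = A.comap ι`, `F = S24.FF L (M * q * q)`.

* `Reg36₁ M q A` : **horizontal primes are locally principal on the finite chart.**  There is a
  finite `I_A`-fixed set `S₀ ⊆ ℚ̄` such that at every unramified level `⊇ S₀`, for every maximal
  ideal `𝔫 ∋ q` of the chart ring `B₁` (the integral closure of `W[j]` in `F`) and every prime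
  `𝔮 ≤ 𝔫` with `q ∉ 𝔮`, the ideal `𝔮 B₁_𝔫` is principal:
  `∃ x ∈ 𝔮, ∃ d ∉ 𝔫, ∀ y ∈ 𝔮, x ∣ d * y`.
* `Reg36₂ M q A` : the same for the integral closure `B₂` of `W[1/j]`, at the maximal ideals
  containing `q` and `1/j` (the cusps).

These are the ONLY facts about the local rings of the arithmetic surface of level `M q²` which
the local Kummer data (`Core36.Loc36₁`, `Core36.Loc36₂`) consume.
-/
import Mathlib
import Fermat.Agent.S24.Defs
import Fermat.Agent.S37.LevelChange

set_option autoImplicit false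

noncomputable section

namespace Fermat.Agent.S36.RegDefs

open ModularCurve Fermat.Agent.S37

local notation "Qb" => AlgebraicClosure ℚ

/-- **(REG36₁)** horizontal primes through the closed points of the special fibre of the finite
chart of level `M q²` are locally principal. -/
def Reg36₁ (M q : ℕ) [NeZero M] [NeZero q] (A : ValuationSubring Qb) : Prop :=
  ∃ S₀ : Finset Qb, (∀ a ∈ S₀, ∀ τ ∈ A.inertiaSubgroupIn ℚ, τ a = a) ∧
    ∀ (L : Type) [Field L] [Algebra ℚ L] (ι : L →+* Qb),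
      LevelChange.IsLevel A q S₀ ι → Irreducible ((q : ℕ) : ↥(A.comap ι)) →
      ∀ 𝔫 : Ideal (integralClosure (Algebra.adjoin ↥(A.comap ι) {S24.jBC L (M * q * q)})
          (S24.FF L (M * q * q))), 𝔫.IsMaximal →
        (∀ r : integralClosure (Algebra.adjoin ↥(A.comap ι) {S24.jBC L (M * q * q)})
            (S24.FF L (M * q * q)),
          (r : S24.FF L (M * q * q)) =
            algebraMap ↥(A.comap ι) (S24.FF L (M * q * q)) ((q : ℕ) : ↥(A.comap ι)) → r ∈ 𝔫) →
        ∀ 𝔮 : Ideal (integralClosure (Algebra.adjoin ↥(A.comap ι) {S24.jBC L (M * q * q)})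
            (S24.FF L (M * q * q))), 𝔮.IsPrime → 𝔮 ≤ 𝔫 →
          (∃ r : integralClosure (Algebra.adjoin ↥(A.comap ι) {S24.jBC L (M * q * q)})
              (S24.FF L (M * q * q)),
            (r : S24.FF L (M * q * q)) =
              algebraMap ↥(A.comap ι) (S24.FF L (M * q * q)) ((q : ℕ) : ↥(A.comap ι)) ∧
              r ∉ 𝔮) →
          ∃ x ∈ 𝔮, ∃ d, d ∉ 𝔫 ∧ ∀ y ∈ 𝔮, x ∣ d * y

/-- **(REG36₂)** horizontal primes through the cusps of the special fibre of the chart `W[1/j]`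
of level `M q²` are locally principal. -/
def Reg36₂ (M q : ℕ) [NeZero M] [NeZero q] (A : ValuationSubring Qb) : Prop :=
  ∃ S₀ : Finset Qb, (∀ a ∈ S₀, ∀ τ ∈ A.inertiaSubgroupIn ℚ, τ a = a) ∧
    ∀ (L : Type) [Field L] [Algebra ℚ L] (ι : L →+* Qb),
      LevelChange.IsLevel A q S₀ ι → Irreducible ((q : ℕ) : ↥(A.comap ι)) →
      ∀ 𝔫 : Ideal (integralClosure (Algebra.adjoin ↥(A.comap ι) {(S24.jBC L (M * q * q))⁻¹})
          (S24.FF L (M * q * q))), 𝔫.IsMaximal →
        (∀ r : integralClosure (Algebra.adjoin ↥(A.comap ι) {(S24.jBC L (M * q * q))⁻¹})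
            (S24.FF L (M * q * q)),
          (r : S24.FF L (M * q * q)) =
            algebraMap ↥(A.comap ι) (S24.FF L (M * q * q)) ((q : ℕ) : ↥(A.comap ι)) → r ∈ 𝔫) →
        (∀ r : integralClosure (Algebra.adjoin ↥(A.comap ι) {(S24.jBC L (M * q * q))⁻¹})
            (S24.FF L (M * q * q)),
          (r : S24.FF L (M * q * q)) = (S24.jBC L (M * q * q))⁻¹ → r ∈ 𝔫) →
        ∀ 𝔮 : Ideal (integralClosure (Algebra.adjoin ↥(A.comap ι) {(S24.jBC L (M * q * q))⁻¹})
            (S24.FF L (M * q * q))), 𝔮.IsPrime → 𝔮 ≤ 𝔫 →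
          (∃ r : integralClosure (Algebra.adjoin ↥(A.comap ι) {(S24.jBC L (M * q * q))⁻¹})
              (S24.FF L (M * q * q)),
            (r : S24.FF L (M * q * q)) =
              algebraMap ↥(A.comap ι) (S24.FF L (M * q * q)) ((q : ℕ) : ↥(A.comap ι)) ∧
              r ∉ 𝔮) →
          ∃ x ∈ 𝔮, ∃ d, d ∉ 𝔫 ∧ ∀ y ∈ 𝔮, x ∣ d * y

end Fermat.Agent.S36.RegDefs
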