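import Mathlib
import Fermat.Agent.S34.LocCusp
import Fermat.Agent.S36.RegDefs
import Fermat.Agent.S36.GenSq

/-!
# S36 — plumbing for the cusp chart `W[1/j]` (contract of the R-cusp assembler)

Two plumbing statements on the carriers of the chart `W[1/j]` (`algebraMap W[X] F = evFinf W N`,
`X ↦ 1/j`) in the `IsIntegralClosure` shape.

* `alpha_comp_evFinf` : `α ∘ evFinf W N = evFinf W (N l)` (since `α j_N = j_{N l}`);
* `isIntegralElem_alpha_inf` : `α` preserves integrality over `W[1/j]`;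
* `exists_alphaHom` (c1) : the chart map `B₁ → B₂` induced by `α` on carriers of the charts
  `W[1/j]` of the levels `N`, `N l`;
* `reg36₂_of_carrier` (c2) : `RegDefs.Reg36₂ M q A` from the K4 shape on every carrier of the
  chart `W[1/j]` of level `M q²` in the `IsIntegralClosure` shape (`S₀ := ∅`, the carrier
  `integralClosure W[X] F`, transferred along `S34.ChartCarrier.equivChart`).
-/

set_option autoImplicit false
set_option linter.unusedSectionVars false
set_option linter.style.haveILetI false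

noncomputable section

namespace Fermat.Agent.S36.CuspChart

open Polynomial ModularCurve AlgebraicCurve Fermat.Agent.S18 Fermat.Agent.S18.Gauss
  Fermat.Agent.S24 Fermat.Agent.S37

local notation "Qb" => AlgebraicClosure ℚ

/-- `α ∘ evFinf W N = evFinf W (N l)`: `α` fixes the constants and sends `1/j_N` to
`1/j_{N l}`. -/
theorem alpha_comp_evFinf {L : Type*} [Field L] [Algebra ℚ L] (W : ValuationSubring L)
    (N l : ℕ) [NeZero N] [NeZero l] :
    ((heckeAlphaBar L N l : FF L N →+* FF L (N * l))).comp (evFinf W N) =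
      evFinf W (N * l) := by
  refine Polynomial.ringHom_ext (fun a => ?_) ?_
  · rw [RingHom.comp_apply, evFinf_C, evFinf_C, RingHom.coe_coe]
    exact (heckeAlphaBar L N l).commutes _
  · rw [RingHom.comp_apply, evFinf_X, evFinf_X, RingHom.coe_coe, map_inv₀, GenSq.alpha_jBC]

/-- `α` preserves integrality over the chart `W[1/j]`. -/
theorem isIntegralElem_alpha_inf {L : Type*} [Field L] [Algebra ℚ L] (W : ValuationSubring L)
    (N l : ℕ) [NeZero N] [NeZero l] {x : FF L N} (hx : (evFinf W N).IsIntegralElem x) :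
    (evFinf W (N * l)).IsIntegralElem (heckeAlphaBar L N l x) := by
  obtain ⟨P, hP, hPx⟩ := hx
  refine ⟨P, hP, ?_⟩
  have h := Polynomial.hom_eval₂ P (evFinf W N)
    (heckeAlphaBar L N l : FF L N →+* FF L (N * l)) x
  rw [hPx, map_zero, alpha_comp_evFinf] at h
  exact h.symm

/-- (c1) the chart map `B₁ → B₂` induced by `α` on carriers of the charts `W[1/j]` of levels
`N`, `N l`. -/
theorem exists_alphaHom {L : Type*} [Field L] [Algebra ℚ L] (W : ValuationSubring L)
    (N l : ℕ) [NeZero N] [NeZero l]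
    [Algebra (↥W)[X] (FF L N)] (halg₁ : algebraMap (↥W)[X] (FF L N) = evFinf W N)
    (B₁ : Type*) [CommRing B₁] [Algebra (↥W)[X] B₁] [Algebra B₁ (FF L N)]
    [IsScalarTower (↥W)[X] B₁ (FF L N)] [IsIntegralClosure B₁ (↥W)[X] (FF L N)]
    [Algebra (↥W)[X] (FF L (N * l))]
    (halg₂ : algebraMap (↥W)[X] (FF L (N * l)) = evFinf W (N * l))
    (B₂ : Type*) [CommRing B₂] [Algebra (↥W)[X] B₂] [Algebra B₂ (FF L (N * l))]
    [IsScalarTower (↥W)[X] B₂ (FF L (N * l))] [IsIntegralClosure B₂ (↥W)[X] (FF L (N * l))] :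
    ∃ a : B₁ →+* B₂, ∀ b : B₁, algebraMap B₂ (FF L (N * l)) (a b) =
      heckeAlphaBar L N l (algebraMap B₁ (FF L N) b) := by
  have hr : ∀ b : B₁, ∃ e : B₂,
      ((heckeAlphaBar L N l : FF L N →+* FF L (N * l)).comp (algebraMap B₁ (FF L N))) b =
        algebraMap B₂ (FF L (N * l)) e := by
    intro b
    have hb : (evFinf W N).IsIntegralElem (algebraMap B₁ (FF L N) b) := by
      rw [← halg₁]
      exact (IsIntegralClosure.isIntegral_iff (A := B₁) (R := (↥W)[X]) (B := FF L N)).mpr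
        ⟨b, rfl⟩
    have hb' := isIntegralElem_alpha_inf W N l hb
    rw [← halg₂] at hb'
    obtain ⟨e, he⟩ := (IsIntegralClosure.isIntegral_iff (A := B₂) (R := (↥W)[X])
      (B := FF L (N * l))).mp hb'
    exact ⟨e, he.symm⟩
  exact ⟨S34.CompPts.factor _ _
    (IsIntegralClosure.algebraMap_injective B₂ (↥W)[X] (FF L (N * l))) hr,
    fun b => S34.CompPts.factor_spec _ _ _ hr b⟩

/-- (c2) `Reg36₂` from the K4 shape on every carrier of the chart `W[1/j]` of level `M q²` in
the `IsIntegralClosure` shape. -/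
theorem reg36₂_of_carrier (M q : ℕ) [NeZero M] [NeZero q] (A : ValuationSubring Qb)
    (h : ∀ (L : Type) [Field L] [Algebra ℚ L] (ι : L →+* Qb),
      LevelChange.IsLevel A q ∅ ι → Irreducible ((q : ℕ) : ↥(A.comap ι)) →
      ∀ [Algebra (↥(A.comap ι))[X] (FF L (M * q * q))],
        algebraMap (↥(A.comap ι))[X] (FF L (M * q * q)) = evFinf (A.comap ι) (M * q * q) →
      ∀ (B : Type) [CommRing B] [Algebra (↥(A.comap ι))[X] B] [Algebra B (FF L (M * q * q))]
        [IsScalarTower (↥(A.comap ι))[X] B (FF L (M * q * q))]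
        [IsIntegralClosure B (↥(A.comap ι))[X] (FF L (M * q * q))]
        (𝔫 : Ideal B), 𝔫.IsMaximal →
        algebraMap (↥(A.comap ι))[X] B (C ((q : ℕ) : ↥(A.comap ι))) ∈ 𝔫 →
        algebraMap (↥(A.comap ι))[X] B X ∈ 𝔫 →
        ∀ 𝔮 : Ideal B, 𝔮.IsPrime → 𝔮 ≤ 𝔫 →
        algebraMap (↥(A.comap ι))[X] B (C ((q : ℕ) : ↥(A.comap ι))) ∉ 𝔮 →
        ∃ x ∈ 𝔮, ∃ d, d ∉ 𝔫 ∧ ∀ y ∈ 𝔮, x ∣ d * y) :
    RegDefs.Reg36₂ M q A := by
  refine ⟨∅, by simp, ?_⟩
  intro L _ _ ι hlev hirr 𝔫 h𝔫 hq𝔫 hj𝔫 𝔮 h𝔮 hle hq𝔮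
  letI : Algebra (↥(A.comap ι))[X] (FF L (M * q * q)) :=
    (evFinf (A.comap ι) (M * q * q)).toAlgebra
  have hrange : ∀ y : FF L (M * q * q),
      (∃ b : ↥(integralClosure (↥(A.comap ι))[X] (FF L (M * q * q))),
        algebraMap ↥(integralClosure (↥(A.comap ι))[X] (FF L (M * q * q)))
          (FF L (M * q * q)) b = y) ↔
      IsIntegral (Algebra.adjoin ↥(A.comap ι) {(jBC L (M * q * q))⁻¹}) y := by
    intro y
    rw [S34.GLoc.isIntegral_adjoin_inv_iff]
    exact (IsIntegralClosure.isIntegral_iff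
      (A := ↥(integralClosure (↥(A.comap ι))[X] (FF L (M * q * q))))
      (R := (↥(A.comap ι))[X]) (B := FF L (M * q * q))).symm
  let e := S34.ChartCarrier.equivChart (W := ↥(A.comap ι)) (F := FF L (M * q * q))
    (B := ↥(integralClosure (↥(A.comap ι))[X] (FF L (M * q * q)))) (jBC L (M * q * q))⁻¹
    (algebraMap ↥(integralClosure (↥(A.comap ι))[X] (FF L (M * q * q))) (FF L (M * q * q)))
    (IsIntegralClosure.algebraMap_injective
      ↥(integralClosure (↥(A.comap ι))[X] (FF L (M * q * q)))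
      (↥(A.comap ι))[X] (FF L (M * q * q))) hrange
  have hcoe : ∀ b : ↥(integralClosure (↥(A.comap ι))[X] (FF L (M * q * q))),
      ((e b : ↥(integralClosure (Algebra.adjoin ↥(A.comap ι) {(jBC L (M * q * q))⁻¹})
        (FF L (M * q * q)))) : FF L (M * q * q)) =
      algebraMap ↥(integralClosure (↥(A.comap ι))[X] (FF L (M * q * q)))
        (FF L (M * q * q)) b :=
    S34.ChartCarrier.coe_equivChart _ _ _ _
  have hCq : ((e (algebraMap (↥(A.comap ι))[X]
      ↥(integralClosure (↥(A.comap ι))[X] (FF L (M * q * q)))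
      (C ((q : ℕ) : ↥(A.comap ι)))) :
        ↥(integralClosure (Algebra.adjoin ↥(A.comap ι) {(jBC L (M * q * q))⁻¹})
          (FF L (M * q * q)))) : FF L (M * q * q)) =
      algebraMap ↥(A.comap ι) (FF L (M * q * q)) ((q : ℕ) : ↥(A.comap ι)) := by
    rw [hcoe, ← IsScalarTower.algebraMap_apply]
    exact evFinf_C (A.comap ι) (M * q * q) _
  have hX : ((e (algebraMap (↥(A.comap ι))[X]
      ↥(integralClosure (↥(A.comap ι))[X] (FF L (M * q * q))) X) :
        ↥(integralClosure (Algebra.adjoin ↥(A.comap ι) {(jBC L (M * q * q))⁻¹})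
          (FF L (M * q * q)))) : FF L (M * q * q)) = (jBC L (M * q * q))⁻¹ := by
    rw [hcoe, ← IsScalarTower.algebraMap_apply]
    exact evFinf_X (A.comap ι) (M * q * q)
  obtain ⟨r, hr, hr𝔮⟩ := hq𝔮
  have hr' : e (algebraMap (↥(A.comap ι))[X]
      ↥(integralClosure (↥(A.comap ι))[X] (FF L (M * q * q)))
      (C ((q : ℕ) : ↥(A.comap ι)))) = r := Subtype.ext (hCq.trans hr.symm)
  have hB := h L ι hlev hirr rfl ↥(integralClosure (↥(A.comap ι))[X] (FF L (M * q * q)))
  obtain ⟨x, hx, d, hd, hxy⟩ := hB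
    (𝔫.comap e.toRingHom)
    (Ideal.comap_isMaximal_of_surjective e.toRingHom e.surjective)
    (hq𝔫 _ hCq) (hj𝔫 _ hX)
    (𝔮.comap e.toRingHom) (Ideal.comap_isPrime _ _) (Ideal.comap_mono hle)
    (fun hmem => hr𝔮 (hr' ▸ hmem))
  refine ⟨e x, hx, e d, hd, ?_⟩
  intro y hy
  have hy' : e.symm y ∈ 𝔮.comap e.toRingHom := by
    show e (e.symm y) ∈ 𝔮
    rw [e.apply_symm_apply]; exact hy
  have h2 := map_dvd e (hxy (e.symm y) hy')
  rwa [map_mul, e.apply_symm_apply] at h2

end Fermat.Agent.S36.CuspChart
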