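import Mathlib

/-!
# S36 (R-cusp): an abstract "approximation ⇒ membership" criterion (Krull)

`B` a domain with an injection `φ : B → F` into a field, `𝔫` a prime of `B` with `B_𝔫`
Noetherian, `π ∈ 𝔫`, `O` a subring of `F` containing `φ B` such that `φ c ∈ φ π · O` implies
`c ∈ π B_𝔫` (one vertical branch through `𝔫`, with valuation ring `O`).

* `mem_of_forall_mem_sup_pow` : Krull's intersection theorem in the form
  `(∀ n, x ∈ I ⊔ J ^ n) → x ∈ I` (`R` Noetherian local, `J ≤ 𝔪`).
* `exists_den_of_approx` : an element `f` of `Frac B` which is, for every `n`, congruent modulo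
  `π ^ n O` to an element of `B_𝔫`, lies in `B_𝔫` (in multiplier form: `f · φ d = φ a`,
  `d ∉ 𝔫`).
-/

set_option autoImplicit false
set_option linter.style.haveILetI false

namespace Fermat.Agent.S36.CuspCritAbs

open IsLocalRing

/-- **Krull**: in a Noetherian local ring, every ideal is closed for the `J`-adic topology,
`J ≤ 𝔪`. -/
theorem mem_of_forall_mem_sup_pow {R : Type*} [CommRing R] [IsNoetherianRing R] [IsLocalRing R]
    (I J : Ideal R) (hJ : J ≤ maximalIdeal R) (x : R) (h : ∀ n : ℕ, x ∈ I ⊔ J ^ n) : x ∈ I := by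
  by_cases hI : I = ⊤
  · rw [hI]; trivial
  haveI : Nontrivial (R ⧸ I) := Ideal.Quotient.nontrivial_iff.mpr hI
  haveI : IsLocalRing (R ⧸ I) :=
    IsLocalRing.of_surjective' (Ideal.Quotient.mk I) Ideal.Quotient.mk_surjective
  have hJ' : J.map (Ideal.Quotient.mk I) ≠ ⊤ := by
    intro htop
    have h1 := congrArg (Ideal.comap (Ideal.Quotient.mk I)) htop
    rw [Ideal.comap_map_of_surjective _ Ideal.Quotient.mk_surjective, Ideal.comap_top,
      ← RingHom.ker_eq_comap_bot, Ideal.mk_ker] at h1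
    have hle : J ⊔ I ≤ maximalIdeal R := sup_le hJ (IsLocalRing.le_maximalIdeal hI)
    rw [h1] at hle
    exact (IsLocalRing.maximalIdeal.isMaximal R).ne_top (top_le_iff.mp hle)
  have hinf := Ideal.iInf_pow_eq_bot_of_isLocalRing (J.map (Ideal.Quotient.mk I)) hJ'
  have hx : Ideal.Quotient.mk I x ∈ (⨅ n : ℕ, (J.map (Ideal.Quotient.mk I)) ^ n) := by
    rw [Ideal.mem_iInf]
    intro n
    obtain ⟨a, ha, b, hb, hab⟩ := Submodule.mem_sup.mp (h n)
    rw [← hab, map_add, Ideal.Quotient.eq_zero_iff_mem.mpr ha, zero_add, ← Ideal.map_pow]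
    exact Ideal.mem_map_of_mem _ hb
  rw [hinf, Ideal.mem_bot] at hx
  exact Ideal.Quotient.eq_zero_iff_mem.mp hx

section Approx

variable {B F : Type*} [CommRing B] [Field F] (φ : B →+* F) (hφ : Function.Injective φ)
  (𝔫 : Ideal B) [𝔫.IsPrime] (O : Subring F) (π : B)

include hφ in
/-- `φ c ∈ φ π ^ n · O` implies `c ∈ π ^ n B_𝔫`. -/
theorem mem_span_pow_of_eq (hπ0 : π ≠ 0)
    (hO : ∀ c : B, ∀ g ∈ O, φ c = φ π * g →
      algebraMap B (Localization.AtPrime 𝔫) c ∈
        Ideal.span {algebraMap B (Localization.AtPrime 𝔫) π})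
    (hBO : ∀ b : B, φ b ∈ O) (n : ℕ) :
    ∀ (c : B) (g : F), g ∈ O → φ c = φ π ^ n * g →
      algebraMap B (Localization.AtPrime 𝔫) c ∈
        Ideal.span {algebraMap B (Localization.AtPrime 𝔫) π} ^ n := by
  haveI : IsDomain B := hφ.isDomain φ
  have hinjR : Function.Injective (algebraMap B (Localization.AtPrime 𝔫)) :=
    IsLocalization.injective (Localization.AtPrime 𝔫) 𝔫.primeCompl_le_nonZeroDivisors
  have hφπ : φ π ≠ 0 := fun h0 => hπ0 (hφ (h0.trans (map_zero φ).symm))
  induction n with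
  | zero =>
    intro c g _ _
    rw [pow_zero, Ideal.one_eq_top]
    trivial
  | succ n ih =>
    intro c g hg hc
    have h1 : algebraMap B (Localization.AtPrime 𝔫) c ∈
        Ideal.span {algebraMap B (Localization.AtPrime 𝔫) π} := by
      refine hO c (φ π ^ n * g) (O.mul_mem (O.pow_mem (hBO π) n) hg) ?_
      rw [hc, pow_succ]
      ring
    obtain ⟨x, hx⟩ := Ideal.mem_span_singleton'.mp h1
    obtain ⟨c', t, rfl⟩ := IsLocalization.exists_mk'_eq 𝔫.primeCompl x
    have hspec : IsLocalization.mk' (Localization.AtPrime 𝔫) c' t *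
        algebraMap B (Localization.AtPrime 𝔫) (t : B) =
        algebraMap B (Localization.AtPrime 𝔫) c' := IsLocalization.mk'_spec _ c' t
    have heq : c * (t : B) = c' * π := by
      apply hinjR
      rw [map_mul, map_mul, ← hx, ← hspec]
      ring
    have hc' : φ c' = φ π ^ n * (g * φ (t : B)) := by
      have h2 : φ c' * φ π = φ π * (φ π ^ n * (g * φ (t : B))) := by
        rw [← map_mul, ← heq, map_mul, hc, pow_succ]
        ring
      exact mul_right_cancel₀ hφπ (h2.trans (mul_comm _ _))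
    have h3 := ih c' (g * φ (t : B)) (O.mul_mem hg (hBO _)) hc'
    have ht : IsUnit (algebraMap B (Localization.AtPrime 𝔫) (t : B)) :=
      IsLocalization.map_units _ t
    have h4 : IsLocalization.mk' (Localization.AtPrime 𝔫) c' t ∈
        Ideal.span {algebraMap B (Localization.AtPrime 𝔫) π} ^ n := by
      rw [← Ideal.mul_unit_mem_iff_mem _ ht, hspec]
      exact h3
    rw [← hx, pow_succ]
    exact Ideal.mul_mem_mul h4 (Ideal.subset_span rfl)

include hφ in
/-- **Approximation criterion.**  If `f ∈ Frac B` is congruent, modulo `π ^ n O` for every `n`,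
to an element of `B_𝔫`, then `f ∈ B_𝔫`. -/
theorem exists_den_of_approx [IsNoetherianRing (Localization.AtPrime 𝔫)]
    (hπ𝔫 : π ∈ 𝔫) (hπ0 : π ≠ 0)
    (hO : ∀ c : B, ∀ g ∈ O, φ c = φ π * g →
      algebraMap B (Localization.AtPrime 𝔫) c ∈
        Ideal.span {algebraMap B (Localization.AtPrime 𝔫) π})
    (hBO : ∀ b : B, φ b ∈ O)
    (f : F) (hfrac : ∃ a s : B, s ≠ 0 ∧ f * φ s = φ a)
    (happ : ∀ n : ℕ, ∃ a b : B, b ∉ 𝔫 ∧ ∃ g ∈ O, f * φ b = φ a + φ π ^ n * g) :
    ∃ a d : B, d ∉ 𝔫 ∧ f * φ d = φ a := by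
  haveI : IsDomain B := hφ.isDomain φ
  have hinjR : Function.Injective (algebraMap B (Localization.AtPrime 𝔫)) :=
    IsLocalization.injective (Localization.AtPrime 𝔫) 𝔫.primeCompl_le_nonZeroDivisors
  obtain ⟨a₀, s, hs, hfs⟩ := hfrac
  have hφs : φ s ≠ 0 := fun h0 => hs (hφ (h0.trans (map_zero φ).symm))
  have hJ : Ideal.span {algebraMap B (Localization.AtPrime 𝔫) π} ≤
      maximalIdeal (Localization.AtPrime 𝔫) := by
    rw [Ideal.span_le, Set.singleton_subset_iff]
    exact (IsLocalization.AtPrime.to_map_mem_maximal_iff (Localization.AtPrime 𝔫) 𝔫 π).mpr hπ𝔫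
  have hmem : algebraMap B (Localization.AtPrime 𝔫) a₀ ∈
      Ideal.span {algebraMap B (Localization.AtPrime 𝔫) s} := by
    refine mem_of_forall_mem_sup_pow _ _ hJ _ fun n => ?_
    obtain ⟨a, b, hb, g, hg, hfb⟩ := happ n
    have hcg : φ (a₀ * b - s * a) = φ π ^ n * (φ s * g) := by
      rw [map_sub, map_mul, map_mul, ← hfs]
      have : f * φ s * φ b = φ s * (f * φ b) := by ring
      rw [this, hfb]
      ring
    have h1 := mem_span_pow_of_eq φ hφ 𝔫 O π hπ0 hO hBO n (a₀ * b - s * a) (φ s * g)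
      (O.mul_mem (hBO s) hg) hcg
    have hbu : IsUnit (algebraMap B (Localization.AtPrime 𝔫) b) :=
      IsLocalization.map_units _ (⟨b, hb⟩ : 𝔫.primeCompl)
    obtain ⟨v, hv⟩ := hbu.exists_right_inv
    have hdecomp : algebraMap B (Localization.AtPrime 𝔫) a₀ =
        algebraMap B (Localization.AtPrime 𝔫) s * (algebraMap B (Localization.AtPrime 𝔫) a * v) +
          algebraMap B (Localization.AtPrime 𝔫) (a₀ * b - s * a) * v := by
      rw [map_sub, map_mul, map_mul]
      linear_combination (-(algebraMap B (Localization.AtPrime 𝔫) a₀)) * hv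
    rw [hdecomp]
    exact Submodule.add_mem_sup
      (Ideal.mul_mem_right _ _ (Ideal.subset_span rfl)) (Ideal.mul_mem_right _ _ h1)
  obtain ⟨x, hx⟩ := Ideal.mem_span_singleton'.mp hmem
  obtain ⟨c, d, rfl⟩ := IsLocalization.exists_mk'_eq 𝔫.primeCompl x
  have hspec : IsLocalization.mk' (Localization.AtPrime 𝔫) c d *
      algebraMap B (Localization.AtPrime 𝔫) (d : B) =
      algebraMap B (Localization.AtPrime 𝔫) c := IsLocalization.mk'_spec _ c d
  have heq : a₀ * (d : B) = c * s := by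
    apply hinjR
    rw [map_mul, map_mul, ← hx, ← hspec]
    ring
  refine ⟨c, d, d.2, ?_⟩
  have h2 : φ s * (f * φ (d : B)) = φ s * φ c := by
    have : φ s * (f * φ (d : B)) = f * φ s * φ (d : B) := by ring
    rw [this, hfs, ← map_mul, heq, map_mul]
    ring
  exact mul_left_cancel₀ hφs h2

end Approx

end Fermat.Agent.S36.CuspCritAbs
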