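import Mathlib
import Fermat.Agent.S28.SeriesBasic
import Fermat.Agent.S37.Kronecker

/-!
# S36, (R-cusp), package (E): the series identities at the cusp `∞` of level `ℓ²`

`x = 1/j = q (1 + ⋯)` is defined integrally (`xInt : LaurentSeries ℤ`, `xS R` over any
commutative ring, `jS R * xS R = 1`).  For a unit `u` of `R`:

* `one_sub_tw` : `1 - x(uq)/x(q) = (1 - u) · U u`, with `U u` a power series with constant
  term `1` (`isMonicAt_U : IsMonicAt (U u) 0`);
* `prod_one_sub_tw` : for a primitive `(n+1)`-th root of unity `ζ` in a domain,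
  `∏_{k < n} (1 - x(ζ^(k+1) q)/x(q)) = (n + 1) · V`, `V = ∏ U (ζ^(k+1))` a power series with
  constant term `1` (`isMonicAt_prod_U`);
* `yInf_charP` : in characteristic `ℓ`, `x(q^(ℓ²))/x(q) = x^(ℓ² - 1)`; `isMonicAt_yInfInt`,
  `exists_yInfInt_eq` : the integral form `x(q^(ℓ²))/x(q) = x^(ℓ²-1) + ℓ · d`;
* `exists_poly_congr` : the polynomial
  `(T - x(q^(ℓ²))/x(q)) ∏_{k < n} (T - x(ζ^(k+1) q)/x(q))` (`ℓ = n + 1`) is congruent to
  `(T - x^(ℓ²-1)) (T - 1)^n` modulo `1 - ζ`.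
-/

set_option autoImplicit false

noncomputable section

namespace Fermat.Agent.S36.CuspSeries

open ModularCurve Polynomial Fermat.Agent.S28

/-! ### The integral inverse of `j` -/

/-- `x = 1/j = q (1 + ⋯) ∈ ℤ((q))`. -/
def xInt : LaurentSeries ℤ :=
  HahnSeries.single (1 : ℤ) 1 * HahnSeries.ofPowerSeries ℤ ℤ (jNum.invOfUnit 1)

theorem jInt_mul_xInt : jInt * xInt = 1 := by
  have h1 : HahnSeries.single (-1 : ℤ) (1 : ℤ) * HahnSeries.single (1 : ℤ) (1 : ℤ) = 1 := by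
    rw [HahnSeries.single_mul_single]
    simp
  have h2 : HahnSeries.ofPowerSeries ℤ ℤ jNum *
      HahnSeries.ofPowerSeries ℤ ℤ (jNum.invOfUnit 1) = 1 := by
    rw [← map_mul, PowerSeries.mul_invOfUnit _ _ (by rw [constantCoeff_jNum]; rfl), map_one]
  rw [jInt, xInt]
  calc HahnSeries.single (-1 : ℤ) (1 : ℤ) * HahnSeries.ofPowerSeries ℤ ℤ jNum *
        (HahnSeries.single (1 : ℤ) 1 * HahnSeries.ofPowerSeries ℤ ℤ (jNum.invOfUnit 1))
      = (HahnSeries.single (-1 : ℤ) (1 : ℤ) * HahnSeries.single (1 : ℤ) 1) *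
          (HahnSeries.ofPowerSeries ℤ ℤ jNum *
            HahnSeries.ofPowerSeries ℤ ℤ (jNum.invOfUnit 1)) := by ring
    _ = 1 := by rw [h1, h2, one_mul]

theorem isMonicAt_xInt : IsMonicAt xInt 1 :=
  isMonicAt_single_mul_ofPowerSeries _
    (by rw [PowerSeries.constantCoeff_invOfUnit]; simp) _

section

variable {R S : Type*} [CommRing R] [CommRing S]

variable (R) in
/-- `x = 1/j` over an arbitrary commutative ring. -/
def xS : LaurentSeries R := coeffMap (Int.castRingHom R) xInt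

theorem jS_mul_xS : jS R * xS R = 1 := by
  rw [jS, xS, ← map_mul, jInt_mul_xInt, map_one]

theorem xS_mul_jS : xS R * jS R = 1 := by rw [mul_comm, jS_mul_xS]

theorem isMonicAt_xS : IsMonicAt (xS R) 1 := isMonicAt_xInt.coeffMap _

theorem coeffMap_xS (f : R →+* S) : coeffMap f (xS R) = xS S := coeffMap_intCast f _

theorem xS_eq_inv (K : Type*) [Field K] : xS K = (jS K)⁻¹ :=
  eq_inv_of_mul_eq_one_right jS_mul_xS

/-! ### The difference quotient of the twist -/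

/-- `(uⁿ - 1)/(u - 1)` for an integer `n`. -/
def gsum (u : Rˣ) : ℤ → R
  | Int.ofNat n => ∑ i ∈ Finset.range n, (u : R) ^ i
  | Int.negSucc n => -(((u⁻¹ : Rˣ) : R) ^ (n + 1) * ∑ i ∈ Finset.range (n + 1), (u : R) ^ i)

theorem gsum_one (u : Rˣ) : gsum u 1 = 1 := by
  show ∑ i ∈ Finset.range 1, (u : R) ^ i = 1
  simp

theorem sub_one_mul_gsum (u : Rˣ) (n : ℤ) :
    ((u : R) - 1) * gsum u n = ((u ^ n : Rˣ) : R) - 1 := by
  cases n with
  | ofNat n =>
    show ((u : R) - 1) * ∑ i ∈ Finset.range n, (u : R) ^ i = _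
    rw [mul_geom_sum]
    simp
  | negSucc n =>
    show ((u : R) - 1) *
      -(((u⁻¹ : Rˣ) : R) ^ (n + 1) * ∑ i ∈ Finset.range (n + 1), (u : R) ^ i) = _
    have h1 : ((u⁻¹ : Rˣ) : R) ^ (n + 1) * (u : R) ^ (n + 1) = 1 := by
      rw [← mul_pow, Units.inv_mul, one_pow]
    have h2 : ((u ^ (Int.negSucc n) : Rˣ) : R) = ((u⁻¹ : Rˣ) : R) ^ (n + 1) := by
      rw [zpow_negSucc, ← inv_pow, Units.val_pow_eq_pow_val]
    rw [h2, mul_neg, mul_left_comm, mul_geom_sum, mul_sub, h1, mul_one]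
    ring

theorem map_gsum (f : R →+* S) (u : Rˣ) (n : ℤ) :
    f (gsum u n) = gsum (Units.map (f : R →* S) u) n := by
  cases n with
  | ofNat n =>
    show f (∑ i ∈ Finset.range n, (u : R) ^ i) =
      ∑ i ∈ Finset.range n, ((Units.map (f : R →* S) u : Sˣ) : S) ^ i
    rw [map_sum]
    refine Finset.sum_congr rfl fun i _ => ?_
    rw [map_pow]
    rfl
  | negSucc n =>
    show f (-(((u⁻¹ : Rˣ) : R) ^ (n + 1) * ∑ i ∈ Finset.range (n + 1), (u : R) ^ i)) =
      -((((Units.map (f : R →* S) u)⁻¹ : Sˣ) : S) ^ (n + 1) *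
        ∑ i ∈ Finset.range (n + 1), ((Units.map (f : R →* S) u : Sˣ) : S) ^ i)
    rw [map_neg, map_mul, map_pow, map_sum, ← map_inv]
    congr 2
    refine Finset.sum_congr rfl fun i _ => ?_
    rw [map_pow]
    rfl

/-- the difference quotient `(f(uq) - f(q))/(u - 1)`, coefficientwise -/
def dq (u : Rˣ) (f : LaurentSeries R) : LaurentSeries R where
  coeff n := gsum u n * f.coeff n
  isPWO_support' := f.isPWO_support.mono (by
    intro n hn
    simp only [Function.mem_support, ne_eq] at hn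
    simp only [HahnSeries.mem_support, ne_eq]
    intro h
    exact hn (by rw [h, mul_zero]))

@[simp]
theorem dq_coeff (u : Rˣ) (f : LaurentSeries R) (n : ℤ) :
    (dq u f).coeff n = gsum u n * f.coeff n := rfl

theorem tw_sub_self (u : Rˣ) (f : LaurentSeries R) :
    tw u f - f = HahnSeries.C ((u : R) - 1) * dq u f := by
  ext n
  rw [HahnSeries.C_mul_eq_smul, HahnSeries.coeff_smul, HahnSeries.coeff_sub, tw_coeff, dq_coeff,
    smul_eq_mul, ← mul_assoc, sub_one_mul_gsum]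
  ring

theorem coeffMap_dq (f : R →+* S) (u : Rˣ) (x : LaurentSeries R) :
    coeffMap f (dq u x) = dq (Units.map (f : R →* S) u) (coeffMap f x) := by
  ext n
  rw [coeffMap_coeff, dq_coeff, dq_coeff, coeffMap_coeff, map_mul, map_gsum]

theorem isMonicAt_dq {f : LaurentSeries R} (hf : IsMonicAt f 1) (u : Rˣ) :
    IsMonicAt (dq u f) 1 :=
  ⟨by rw [dq_coeff, hf.1, mul_one, gsum_one],
    fun n hn => by rw [dq_coeff, hf.2 n hn, mul_zero]⟩

/-! ### The unit `U u = (1 - x(uq)/x(q))/(1 - u)` -/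

/-- `U u = (1 - x(uq)/x(q))/(1 - u)`, a power series with constant term `1`. -/
def U (u : Rˣ) : LaurentSeries R := dq u (xS R) * jS R

theorem isMonicAt_U (u : Rˣ) : IsMonicAt (U u) 0 := by
  have h := (isMonicAt_dq (isMonicAt_xS (R := R)) u).mul (isMonicAt_jS (R := R))
  have e : (1 : ℤ) + -1 = 0 := by norm_num
  rw [e] at h
  exact h

theorem coeffMap_U (f : R →+* S) (u : Rˣ) :
    coeffMap f (U u) = U (Units.map (f : R →* S) u) := by
  rw [U, U, map_mul, coeffMap_dq, coeffMap_xS, coeffMap_jS]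

/-- **(E2)** `1 - x(uq)/x(q) = (1 - u) · U u`. -/
theorem one_sub_tw (u : Rˣ) :
    1 - tw u (xS R) * jS R = HahnSeries.C (1 - (u : R)) * U u := by
  have h2 := tw_sub_self u (xS R)
  have h3 : tw u (xS R) = xS R + HahnSeries.C ((u : R) - 1) * dq u (xS R) := by
    rw [← h2]; ring
  rw [h3, add_mul, xS_mul_jS, U, map_sub, map_sub, map_one]
  ring

/-- `x(uq)/x(q) = 1 - (1 - u) · U u`. -/
theorem tw_mul_eq (u : Rˣ) :
    tw u (xS R) * jS R = 1 - HahnSeries.C (1 - (u : R)) * U u := by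
  rw [← one_sub_tw]; ring

/-! ### Series with constant term `1` -/

theorem isMonicAt_one : IsMonicAt (1 : LaurentSeries R) 0 := by
  refine ⟨by rw [HahnSeries.coeff_one, if_pos rfl], fun n hn => ?_⟩
  rw [HahnSeries.coeff_one, if_neg (ne_of_lt hn)]

theorem isMonicAt_prod {ι : Type*} (s : Finset ι) (f : ι → LaurentSeries R)
    (h : ∀ i ∈ s, IsMonicAt (f i) 0) : IsMonicAt (∏ i ∈ s, f i) 0 := by
  classical
  induction s using Finset.induction_on with
  | empty => rw [Finset.prod_empty]; exact isMonicAt_one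
  | insert a s ha ih =>
    rw [Finset.prod_insert ha]
    have h1 := (h a (Finset.mem_insert_self a s)).mul
      (ih fun i hi => h i (Finset.mem_insert_of_mem hi))
    rwa [add_zero] at h1

theorem isMonicAt_prod_U (n : ℕ) (ζ : Rˣ) :
    IsMonicAt (∏ k ∈ Finset.range n, U (ζ ^ (k + 1))) 0 :=
  isMonicAt_prod _ _ fun _ _ => isMonicAt_U _

/-- **(E2), product form**: for a primitive `(n+1)`-th root of unity `ζ` in a domain,
`∏_{k < n} (1 - x(ζ^(k+1) q)/x(q)) = (n + 1) · ∏ U (ζ^(k+1))`. -/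
theorem prod_one_sub_tw [IsDomain R] (n : ℕ) (ζ : Rˣ) (hζ : IsPrimitiveRoot (ζ : R) (n + 1)) :
    ∏ k ∈ Finset.range n, (1 - tw (ζ ^ (k + 1)) (xS R) * jS R) =
      HahnSeries.C (((n + 1 : ℕ) : R)) * ∏ k ∈ Finset.range n, U (ζ ^ (k + 1)) := by
  have h1 : ∀ k ∈ Finset.range n, (1 - tw (ζ ^ (k + 1)) (xS R) * jS R) =
      HahnSeries.C (1 - (ζ : R) ^ (k + 1)) * U (ζ ^ (k + 1)) := fun k _ => by
    rw [one_sub_tw, Units.val_pow_eq_pow_val]
  rw [Finset.prod_congr rfl h1, Finset.prod_mul_distrib, ← map_prod,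
    hζ.prod_one_sub_pow_eq_order]
  push_cast
  rfl

end

/-! ### The root at infinity: `x(q^(ℓ²))/x(q)` -/

section Inf

variable (ℓ : ℕ) [NeZero ℓ]

/-- `x(q^(ℓ²))/x(q) ∈ ℤ((q))`. -/
def yInfInt : LaurentSeries ℤ := qExpand ℤ (ℓ * ℓ) xInt * jInt

theorem isMonicAt_yInfInt : IsMonicAt (yInfInt ℓ) ((ℓ : ℤ) * ℓ - 1) := by
  have h := (isMonicAt_xInt.qExpand (ℓ * ℓ)).mul isMonicAt_jInt
  have e : (((ℓ * ℓ : ℕ) : ℤ)) * 1 + -1 = (ℓ : ℤ) * ℓ - 1 := by push_cast; ring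
  rw [e] at h
  exact h

theorem coeffMap_yInfInt (R : Type*) [CommRing R] :
    coeffMap (Int.castRingHom R) (yInfInt ℓ) = qExpand R (ℓ * ℓ) (xS R) * jS R := by
  rw [yInfInt, map_mul, Fermat.Agent.S28.coeffMap_qExpand]
  rfl

/-- In characteristic `ℓ`, `x(q^ℓ) = x^ℓ`. -/
theorem qExpand_xS_charP (k : Type*) [CommRing k] [hℓ : Fact ℓ.Prime] [CharP k ℓ] :
    qExpand k ℓ (xS k) = xS k ^ ℓ := by
  rw [Fermat.Agent.S37.Kronecker.pow_char_eq ℓ (xS k), coeffMap_xS]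

/-- **(E1), root at infinity**: in characteristic `ℓ`, `x(q^(ℓ²))/x(q) = x^(ℓ² - 1)`. -/
theorem yInf_charP (k : Type*) [CommRing k] [hℓ : Fact ℓ.Prime] [CharP k ℓ] :
    qExpand k (ℓ * ℓ) (xS k) * jS k = xS k ^ (ℓ * ℓ - 1) := by
  have h1 : qExpand k (ℓ * ℓ) (xS k) = xS k ^ (ℓ * ℓ) := by
    rw [← qExpand_qExpand, qExpand_xS_charP, map_pow, qExpand_xS_charP, ← pow_mul]
  have h2 : ℓ * ℓ = (ℓ * ℓ - 1) + 1 := by
    have := Nat.mul_pos hℓ.out.pos hℓ.out.pos
    omega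
  rw [h1]
  conv_lhs => rw [h2, pow_succ, mul_assoc, xS_mul_jS, mul_one]

omit [NeZero ℓ] in
/-- a series over `ℤ` vanishing modulo `ℓ` is `ℓ` times a series -/
theorem exists_eq_C_mul_of_coeffMap_eq_zero (f : LaurentSeries ℤ)
    (hf : coeffMap (Int.castRingHom (ZMod ℓ)) f = 0) :
    ∃ d : LaurentSeries ℤ, f = HahnSeries.C (ℓ : ℤ) * d := by
  have hdvd : ∀ n : ℤ, (ℓ : ℤ) ∣ f.coeff n := by
    intro n
    have h := congrArg (fun g : LaurentSeries (ZMod ℓ) => g.coeff n) hf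
    simp only [coeffMap_coeff, HahnSeries.coeff_zero] at h
    exact (ZMod.intCast_zmod_eq_zero_iff_dvd _ _).mp h
  refine ⟨⟨fun n => f.coeff n / (ℓ : ℤ), f.isPWO_support.mono ?_⟩, ?_⟩
  · intro n hn
    simp only [Function.mem_support, ne_eq] at hn
    simp only [HahnSeries.mem_support, ne_eq]
    intro h
    exact hn (by rw [h, Int.zero_ediv])
  · ext n
    rw [HahnSeries.C_mul_eq_smul, HahnSeries.coeff_smul, smul_eq_mul]
    exact (Int.mul_ediv_cancel' (hdvd n)).symm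

/-- **(E1), integral form**: `x(q^(ℓ²))/x(q) = x^(ℓ² - 1) + ℓ · d` in `ℤ((q))`. -/
theorem exists_yInfInt_eq [hℓ : Fact ℓ.Prime] :
    ∃ d : LaurentSeries ℤ, yInfInt ℓ = xInt ^ (ℓ * ℓ - 1) + HahnSeries.C (ℓ : ℤ) * d := by
  obtain ⟨d, hd⟩ := exists_eq_C_mul_of_coeffMap_eq_zero ℓ (yInfInt ℓ - xInt ^ (ℓ * ℓ - 1)) (by
    rw [map_sub, coeffMap_yInfInt, map_pow, yInf_charP ℓ (ZMod ℓ)]
    exact sub_self _)
  exact ⟨d, by rw [← hd]; ring⟩

end Inf

/-! ### The polynomial `(T - y_∞) ∏ (T - y_k)` modulo `1 - ζ` -/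

section Poly

variable {R : Type*} [CommRing R]

theorem coeffMap_C' {S : Type*} [CommRing S] (f : R →+* S) (a : R) :
    coeffMap f (HahnSeries.C a) = HahnSeries.C (f a) := by
  rw [HahnSeries.C_apply, coeffMap_single, HahnSeries.C_apply]

/-- the polynomial `(T - x(q^(ℓ²))/x(q)) ∏_{k<n} (T - x(ζ^(k+1) q)/x(q))`, `ℓ = n + 1` -/
def Hser (n : ℕ) (ζ : Rˣ) : (LaurentSeries R)[X] :=
  (X - C (qExpand R ((n + 1) * (n + 1)) (xS R) * jS R)) *
    ∏ k ∈ Finset.range n, (X - C (tw (ζ ^ (k + 1)) (xS R) * jS R))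

/-- the target `(T - x^(ℓ²-1)) (T - 1)^n`, `ℓ = n + 1` -/
def Htarget (R : Type*) [CommRing R] (n : ℕ) : (LaurentSeries R)[X] :=
  (X - C (xS R ^ ((n + 1) * (n + 1) - 1))) * (X - 1) ^ n

theorem coeffMap_Hser {S : Type*} [CommRing S] (f : R →+* S) (n : ℕ) (ζ : Rˣ) :
    (Hser n ζ).map (coeffMap f) = Hser n (Units.map (f : R →* S) ζ) := by
  rw [Hser, Hser, Polynomial.map_mul, Polynomial.map_sub, Polynomial.map_X, Polynomial.map_C,
    map_mul, Fermat.Agent.S28.coeffMap_qExpand, coeffMap_xS, coeffMap_jS, Polynomial.map_prod]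
  congr 1
  refine Finset.prod_congr rfl fun k _ => ?_
  rw [Polynomial.map_sub, Polynomial.map_X, Polynomial.map_C, map_mul, coeffMap_tw, coeffMap_xS,
    coeffMap_jS, map_pow]

theorem coeffMap_Htarget {S : Type*} [CommRing S] (f : R →+* S) (n : ℕ) :
    (Htarget R n).map (coeffMap f) = Htarget S n := by
  rw [Htarget, Htarget, Polynomial.map_mul, Polynomial.map_sub, Polynomial.map_X,
    Polynomial.map_C, map_pow, coeffMap_xS, Polynomial.map_pow, Polynomial.map_sub,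
    Polynomial.map_X, Polynomial.map_one]

/-- `Hser` evaluated at `1` is `(1 - y_∞) ∏ (1 - y_k)`. -/
theorem eval_one_Hser (n : ℕ) (ζ : Rˣ) :
    (Hser n ζ).eval 1 = (1 - qExpand R ((n + 1) * (n + 1)) (xS R) * jS R) *
      ∏ k ∈ Finset.range n, (1 - tw (ζ ^ (k + 1)) (xS R) * jS R) := by
  rw [Hser, eval_mul, eval_sub, eval_X, eval_C, eval_prod]
  congr 1
  refine Finset.prod_congr rfl fun k _ => ?_
  rw [eval_sub, eval_X, eval_C]

/-- **(E1), polynomial form**: for `ℓ = n + 1` prime and `ζ` a primitive `ℓ`-th root of unity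
in a domain, `(T - y_∞) ∏_{k<n} (T - y_k) ≡ (T - x^(ℓ²-1)) (T - 1)^n` modulo `1 - ζ`. -/
theorem exists_poly_congr [IsDomain R] (n : ℕ) (hn : (n + 1).Prime) (ζ : Rˣ)
    (hζ : IsPrimitiveRoot (ζ : R) (n + 1)) :
    ∃ D : (LaurentSeries R)[X],
      Hser n ζ = Htarget R n + C (HahnSeries.C (1 - (ζ : R))) * D := by
  have : Fact (n + 1).Prime := ⟨hn⟩
  set I : Ideal (LaurentSeries R)[X] := Ideal.span {C (HahnSeries.C (1 - (ζ : R)))} with hI
  have hgen : C (HahnSeries.C (1 - (ζ : R))) ∈ I := Ideal.subset_span rfl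
  -- constants congruent modulo a multiple of `1 - ζ`
  have hC : ∀ (a b e : LaurentSeries R) (c : R), (1 - (ζ : R)) ∣ c →
      a = b + HahnSeries.C c * e →
      Ideal.Quotient.mk I (X - C a) = Ideal.Quotient.mk I (X - C b) := by
    rintro a b e c ⟨c', rfl⟩ rfl
    rw [Ideal.Quotient.eq]
    have h1 : (X - C (b + HahnSeries.C ((1 - (ζ : R)) * c') * e) : (LaurentSeries R)[X]) -
        (X - C b) = C (HahnSeries.C (1 - (ζ : R))) * (-C (HahnSeries.C c' * e)) := by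
      simp only [map_mul, map_add]
      ring
    rw [h1]
    exact I.mul_mem_right _ hgen
  -- the root at infinity
  obtain ⟨d, hd⟩ := exists_yInfInt_eq (n + 1)
  have hdvdℓ : (1 - (ζ : R)) ∣ ((n + 1 : ℕ) : R) := by
    have h1 := hζ.prod_one_sub_pow_eq_order
    have h2 : (1 - (ζ : R) ^ (0 + 1)) ∣ ∏ k ∈ Finset.range n, (1 - (ζ : R) ^ (k + 1)) :=
      Finset.dvd_prod_of_mem (fun k => 1 - (ζ : R) ^ (k + 1))
        (Finset.mem_range.mpr (by have := hn.two_le; omega))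
    rw [h1, zero_add, pow_one] at h2
    push_cast
    exact h2
  have hInf : Ideal.Quotient.mk I (X - C (qExpand R ((n + 1) * (n + 1)) (xS R) * jS R)) =
      Ideal.Quotient.mk I (X - C (xS R ^ ((n + 1) * (n + 1) - 1))) := by
    refine hC _ _ (coeffMap (Int.castRingHom R) d) (((n + 1 : ℕ) : ℤ) : R)
      (by push_cast; push_cast at hdvdℓ; exact hdvdℓ) ?_
    rw [← coeffMap_yInfInt, hd, map_add, map_pow, map_mul, coeffMap_C']
    rfl
  -- the other roots
  have hk : ∀ k ∈ Finset.range n,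
      Ideal.Quotient.mk I (X - C (tw (ζ ^ (k + 1)) (xS R) * jS R)) =
        Ideal.Quotient.mk I (X - 1) := by
    intro k _
    have h1 : (X - 1 : (LaurentSeries R)[X]) = X - C 1 := by rw [map_one]
    rw [h1]
    refine hC _ _ (U (ζ ^ (k + 1))) (-(1 - (ζ : R) ^ (k + 1))) ?_ ?_
    · rw [← mul_neg_geom_sum]
      exact Dvd.dvd.neg_right (Dvd.intro _ rfl)
    · rw [tw_mul_eq, Units.val_pow_eq_pow_val, map_neg]
      ring
  have hfin : Ideal.Quotient.mk I (Hser n ζ) = Ideal.Quotient.mk I (Htarget R n) := by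
    rw [Hser, Htarget, map_mul (Ideal.Quotient.mk I), map_mul (Ideal.Quotient.mk I), hInf,
      map_prod, Finset.prod_congr rfl hk, Finset.prod_const,
      Finset.card_range, RingHom.map_pow (Ideal.Quotient.mk I)]
  rw [Ideal.Quotient.eq, hI, Ideal.mem_span_singleton'] at hfin
  obtain ⟨D, hD⟩ := hfin
  exact ⟨D, by rw [mul_comm, hD]; ring⟩

end Poly

end Fermat.Agent.S36.CuspSeries
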