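import Mathlib
import Fermat.Agent.S34.ResFieldG
import Fermat.Agent.S18.GaussChart
import Fermat.Agent.S18.GaussDegree
import Fermat.Agent.S36.CuspSeries

/-!
# S36 (R-cusp): approximation of level-`q` functions with power-series expansion

`x = 1/j`.  `W` a discrete valuation ring of `L` with residue field `κ` of characteristic `q`.

* `VB s a` : the Laurent series `s` has no terms below `q^a`;
* `exists_frac_of_mem_adjoin` : `κ(j̄) ∩ κ[[q]] ⊆ κ[x̄]_(x̄)` — an element of `κ(j̄)` which is a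
  power series is `a(x̄)/b(x̄)` with `b(0) ≠ 0`;
* `exists_step`, `exists_approx` : **approximation** — a function `f` of level `1 * q` whose
  `q`-expansion is a `W`-power series satisfies, for every `n`,
  `f · b(x) = a(x) + ϖ ^ n · h` with `a, b ∈ W[X]`, `b(0)` a unit and `h` again of this kind.
-/

set_option autoImplicit false
set_option linter.unusedSectionVars false
set_option linter.style.haveILetI false

noncomputable section

namespace Fermat.Agent.S36.CuspCritSer

open Polynomial ModularCurve Fermat.Agent.S18 Fermat.Agent.S18.Gauss Fermat.Agent.S28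
  Fermat.Agent.S36.CuspSeries

/-! ### Series without terms below a given exponent -/

section VB

variable {R : Type*} [CommRing R]

/-- `s` has no terms below `q^a` -/
def VB (s : LaurentSeries R) (a : ℤ) : Prop := ∀ n : ℤ, n < a → s.coeff n = 0

theorem VB.mono {s : LaurentSeries R} {a b : ℤ} (hs : VB s b) (hab : a ≤ b) : VB s a :=
  fun n hn => hs n (lt_of_lt_of_le hn hab)

theorem VB.mul {s t : LaurentSeries R} {a b : ℤ} (hs : VB s a) (ht : VB t b) :
    VB (s * t) (a + b) := by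
  intro n hn
  rw [HahnSeries.coeff_mul]
  refine Finset.sum_eq_zero fun ij hij => ?_
  have hsum : ij.1 + ij.2 = n := (Finset.mem_antidiagonal.mp hij).2.2
  by_cases h : ij.1 < a
  · rw [hs _ h, zero_mul]
  · rw [ht _ (by omega), mul_zero]

theorem VB.add {s t : LaurentSeries R} {a : ℤ} (hs : VB s a) (ht : VB t a) : VB (s + t) a := by
  intro n hn
  rw [HahnSeries.coeff_add, hs n hn, ht n hn, add_zero]

theorem VB.neg {s : LaurentSeries R} {a : ℤ} (hs : VB s a) : VB (-s) a := by
  intro n hn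
  rw [HahnSeries.coeff_neg, hs n hn, neg_zero]

theorem VB.sub {s t : LaurentSeries R} {a : ℤ} (hs : VB s a) (ht : VB t a) : VB (s - t) a := by
  rw [sub_eq_add_neg]
  exact hs.add ht.neg

theorem vb_zero (a : ℤ) : VB (0 : LaurentSeries R) a := fun _ _ => HahnSeries.coeff_zero

theorem vb_C (c : R) : VB (HahnSeries.C c : LaurentSeries R) 0 := by
  intro n hn
  rw [HahnSeries.C_apply, HahnSeries.coeff_single, if_neg (ne_of_lt hn)]

theorem vb_one : VB (1 : LaurentSeries R) 0 := by
  have h := vb_C (R := R) 1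
  rwa [map_one] at h

theorem VB.pow {s : LaurentSeries R} {a : ℤ} (hs : VB s a) (k : ℕ) : VB (s ^ k) (k * a) := by
  induction k with
  | zero =>
    rw [pow_zero, Nat.cast_zero, zero_mul]
    exact vb_one
  | succ k ih =>
    rw [pow_succ]
    have h := ih.mul hs
    have e : ((k + 1 : ℕ) : ℤ) * a = (k : ℤ) * a + a := by push_cast; ring
    rw [e]
    exact h

theorem vb_sum {ι : Type*} (t : Finset ι) (f : ι → LaurentSeries R) (a : ℤ)
    (h : ∀ i ∈ t, VB (f i) a) : VB (∑ i ∈ t, f i) a := by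
  intro n hn
  rw [HahnSeries.coeff_sum]
  exact Finset.sum_eq_zero fun i hi => h i hi n hn

theorem VB.coeffMap {S : Type*} [CommRing S] (f : R →+* S) {s : LaurentSeries R} {a : ℤ}
    (hs : VB s a) : VB (coeffMap f s) a := by
  intro n hn
  rw [coeffMap_coeff, hs n hn, map_zero]

/-- a polynomial in a series `x` without constant term is a power series -/
theorem vb_eval₂ {x : LaurentSeries R} (hx : VB x 1) (p : R[X]) :
    VB (p.eval₂ HahnSeries.C x) 0 := by
  rw [Polynomial.eval₂_eq_sum_range]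
  refine vb_sum _ _ _ fun i _ => ?_
  have h1 : VB (x ^ i) 0 := (hx.pow i).mono (by positivity)
  have h2 := (vb_C (p.coeff i)).mul h1
  rwa [add_zero] at h2

/-- the constant term of a polynomial in a series `x` without constant term -/
theorem coeff_zero_eval₂ {x : LaurentSeries R} (hx : VB x 1) (p : R[X]) :
    (p.eval₂ HahnSeries.C x).coeff 0 = p.coeff 0 := by
  rw [Polynomial.eval₂_eq_sum_range, HahnSeries.coeff_sum,
    Finset.sum_eq_single 0]
  · rw [pow_zero, mul_one, HahnSeries.C_apply, HahnSeries.coeff_single, if_pos rfl]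
  · intro i _ hi
    rw [C_mul_coeff]
    have h1 : VB (x ^ i) (i * 1) := hx.pow i
    rw [h1 0 (by
      have : 0 < i := Nat.pos_of_ne_zero hi
      have : (0 : ℤ) < (i : ℤ) := by exact_mod_cast this
      linarith), mul_zero]
  · intro h
    exact absurd (Finset.mem_range.mpr (Nat.succ_pos _)) h

theorem vb_xS : VB (xS R) 1 := (isMonicAt_xS (R := R)).2

end VB

/-! ### `κ(j̄) ∩ κ[[q]]` -/

section Frac

variable (k : Type*) [Field k]

theorem xS_ne_zero : xS k ≠ 0 := by
  intro h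
  have h1 := jS_mul_xS (R := k)
  rw [h, mul_zero] at h1
  exact zero_ne_one h1

/-- **`κ(j̄) ∩ κ[[q]] ⊆ κ[x̄]_(x̄)`**: an element of `κ(j̄)` without polar part is a fraction
`a(x̄)/b(x̄)` with `b(0) ≠ 0`, `x̄ = 1/j̄`. -/
theorem exists_frac_of_mem_adjoin (y : LaurentSeries k) (hy : VB y 0)
    (hyJ : y ∈ IntermediateField.adjoin k {jS k}) :
    ∃ a b : k[X], b.coeff 0 ≠ 0 ∧
      y * b.eval₂ HahnSeries.C (xS k) = a.eval₂ HahnSeries.C (xS k) := by
  classical
  rcases eq_or_ne y 0 with rfl | hy0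
  · exact ⟨0, 1, by simp, by simp⟩
  obtain ⟨r, s, hrs⟩ := (IntermediateField.mem_adjoin_simple_iff k y).mp hyJ
  have hC : ∀ p : k[X], aeval (jS k) p = p.eval₂ HahnSeries.C (jS k) := fun p => by
    rw [aeval_def, Content.algebraMap_eq_C_of_field]
  rw [hC, hC] at hrs
  have hs0 : s.eval₂ HahnSeries.C (jS k) ≠ 0 := by
    intro h0
    rw [h0, div_zero] at hrs
    exact hy0 hrs
  have hx0 := xS_ne_zero k
  letI : Invertible (jS k) := ⟨xS k, xS_mul_jS, jS_mul_xS⟩
  have hinv : ⅟(jS k) = xS k := rfl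
  set N := max r.natDegree s.natDegree with hN
  have hrefl : ∀ p : k[X], p.natDegree ≤ N →
      (p.reflect N).eval₂ HahnSeries.C (xS k) = xS k ^ N * p.eval₂ HahnSeries.C (jS k) := by
    intro p hp
    have h := eval₂_reflect_mul_pow (HahnSeries.C : k →+* LaurentSeries k) (jS k) N p hp
    rw [hinv] at h
    rw [← h, mul_comm (xS k ^ N), mul_assoc, ← mul_pow, jS_mul_xS, one_pow, mul_one]
  have hr := hrefl r (le_max_left _ _)
  have hs := hrefl s (le_max_right _ _)
  -- `y * s̃(x) = r̃(x)`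
  have hmain : y * (s.reflect N).eval₂ HahnSeries.C (xS k) =
      (r.reflect N).eval₂ HahnSeries.C (xS k) := by
    rw [hr, hs, hrs]
    field_simp
  have hsne : (s.reflect N).eval₂ HahnSeries.C (xS k) ≠ 0 := by
    rw [hs]
    exact mul_ne_zero (pow_ne_zero _ hx0) hs0
  have hst : s.reflect N ≠ 0 := by
    intro h0
    rw [h0, eval₂_zero] at hsne
    exact hsne rfl
  have hrt : r.reflect N ≠ 0 := by
    intro h0
    rw [h0, eval₂_zero] at hmain
    exact (mul_ne_zero hy0 hsne) hmain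
  obtain ⟨s₁, hs₁, hs₁'⟩ := exists_eq_pow_rootMultiplicity_mul_and_not_dvd (s.reflect N) hst 0
  obtain ⟨r₁, hr₁, hr₁'⟩ := exists_eq_pow_rootMultiplicity_mul_and_not_dvd (r.reflect N) hrt 0
  rw [C_0, sub_zero] at hs₁ hr₁ hs₁' hr₁'
  have hs₁0 : s₁.coeff 0 ≠ 0 := fun h0 => hs₁' (X_dvd_iff.mpr h0)
  have hr₁0 : r₁.coeff 0 ≠ 0 := fun h0 => hr₁' (X_dvd_iff.mpr h0)
  set m₁ := (s.reflect N).rootMultiplicity 0 with hm₁
  set m₂ := (r.reflect N).rootMultiplicity 0 with hm₂
  rw [hs₁, hr₁, eval₂_mul, eval₂_mul, eval₂_pow, eval₂_pow, eval₂_X] at hmain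
  rcases le_or_gt m₁ m₂ with hle | hlt
  · refine ⟨X ^ (m₂ - m₁) * r₁, s₁, hs₁0, ?_⟩
    rw [eval₂_mul, eval₂_pow, eval₂_X]
    have h2 : xS k ^ m₁ * (y * s₁.eval₂ HahnSeries.C (xS k)) =
        xS k ^ m₁ * (xS k ^ (m₂ - m₁) * r₁.eval₂ HahnSeries.C (xS k)) := by
      rw [← mul_assoc (xS k ^ m₁) (xS k ^ (m₂ - m₁)), ← pow_add, Nat.add_sub_cancel' hle, ← hmain]
      ring
    exact mul_left_cancel₀ (pow_ne_zero _ hx0) h2
  · exfalso
    have h2 : xS k ^ m₂ * (y * xS k ^ (m₁ - m₂) * s₁.eval₂ HahnSeries.C (xS k)) =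
        xS k ^ m₂ * r₁.eval₂ HahnSeries.C (xS k) := by
      rw [← hmain]
      have : xS k ^ m₁ = xS k ^ m₂ * xS k ^ (m₁ - m₂) := by
        rw [← pow_add, Nat.add_sub_cancel' hlt.le]
      rw [this]
      ring
    have h3 := mul_left_cancel₀ (pow_ne_zero _ hx0) h2
    have h4 : VB (y * xS k ^ (m₁ - m₂) * s₁.eval₂ HahnSeries.C (xS k)) 1 := by
      have ha := (hy.mul ((vb_xS (R := k)).pow (m₁ - m₂))).mul (vb_eval₂ (vb_xS (R := k)) s₁)
      refine ha.mono ?_
      have : (1 : ℤ) ≤ ((m₁ - m₂ : ℕ) : ℤ) := by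
        have : 1 ≤ m₁ - m₂ := by omega
        exact_mod_cast this
      linarith
    have h5 := h4 0 (by norm_num)
    rw [h3, coeff_zero_eval₂ (vb_xS (R := k))] at h5
    exact hr₁0 h5

end Frac

/-! ### The approximation -/

section Approx

variable {L : Type*} [Field L] [Algebra ℚ L] (W : ValuationSubring L) [IsDiscreteValuationRing W]
  (q : ℕ) [NeZero q] [Fact q.Prime] [CharP (IsLocalRing.ResidueField W) q]
  (w : Fermat.Agent.S24.FF L (1 * q) →ₐ[L] Fermat.Agent.S24.FF L (1 * q))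

/-- functions of level `1 * q` whose `q`-expansion is a `W`-power series -/
def Good (f : LaurentSeries L) : Prop :=
  f ∈ laurentBaseChange L (modularFunctionFieldFull (1 * q)) ∧
    ∃ g : LaurentSeries W, VB g 0 ∧ toL W g = f

theorem toL_xS : toL W (xS W) = xS L := toL_coeffMap_intCast W xInt

theorem toK_xS : toK W (xS W) = xS (IsLocalRing.ResidueField W) := toK_coeffMap_intCast W xInt

theorem xS_eq_jInv : xS L = (jqModC L)⁻¹ := by
  rw [xS_eq_inv, jS_eq_jqModC]

theorem toL_eval₂ (p : (↥W)[X]) :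
    toL W (p.eval₂ HahnSeries.C (xS W)) = evG W (xS L) p := by
  rw [Polynomial.hom_eval₂, toL_xS, evG_apply]
  congr 1
  exact RingHom.ext fun c => toL_C W c

theorem toK_eval₂ (p : (↥W)[X]) :
    toK W (p.eval₂ HahnSeries.C (xS W)) =
      (p.map (IsLocalRing.residue W)).eval₂ HahnSeries.C (xS (IsLocalRing.ResidueField W)) := by
  rw [Polynomial.hom_eval₂, toK_xS, Polynomial.eval₂_map]
  congr 1
  exact RingHom.ext fun c => toK_C W c

theorem evG_xS_mem (N : ℕ) [NeZero N] (p : (↥W)[X]) :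
    evG W (xS L) p ∈ laurentBaseChange L (modularFunctionFieldFull N) := by
  refine mem_FF_of_mem_adjoin_jq L N (evG_mem_adjoin W ?_ p)
  rw [xS_eq_jInv]
  exact jInv_mem_adjoin

theorem fullC_one_le_kJ :
    ∀ y ∈ modularFunctionFieldFullC (IsLocalRing.ResidueField W) 1, y ∈ kJ W := by
  have hle : modularFunctionFieldFullC (IsLocalRing.ResidueField W) 1 ≤ kJ W := by
    rw [modularFunctionFieldFullC, IntermediateField.adjoin_le_iff]
    rintro _ ⟨d, hd, hd1, rfl⟩
    have hd' : d = 1 := Nat.dvd_one.mp hd1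
    subst hd'
    rw [qExpand_one_apply]
    exact IntermediateField.subset_adjoin _ _ (Set.mem_singleton _)
  exact fun y hy => hle hy

/-- **One approximation step**: `f · b(x) = a(x) + ϖ · h`. -/
theorem exists_step (hq1 : ¬ q ∣ 1) {ϖ : W} (hϖ : Irreducible ϖ)
    (hwα : w.comp (heckeAlphaBar L 1 q) = heckeBetaBar L 1 q)
    (hwβ : w.comp (heckeBetaBar L 1 q) = heckeAlphaBar L 1 q)
    {f : LaurentSeries L} (hf : Good W q f) :
    ∃ a b : (↥W)[X], IsUnit (b.coeff 0) ∧ ∃ h : LaurentSeries L, Good W q h ∧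
      f * evG W (xS L) b = evG W (xS L) a + HahnSeries.C ((ϖ : W) : L) * h := by
  obtain ⟨hfK, g, hg, rfl⟩ := hf
  have hfc : toL W g ∈ contentRing W := toL_mem_contentRing W g
  have hkJ : toK W g ∈ kJ W := by
    have h1 := Fermat.Agent.S34.ResFieldG.red_mem_fullC_level W 1 q w hq1 hwα hwβ
      ⟨toL W g, hfK⟩ hfc
    have h2 : red W ⟨toL W g, hfc⟩ = toK W g := red_toL W g
    rw [h2] at h1
    exact fullC_one_le_kJ W _ h1
  have hvb : VB (toK W g) 0 := hg.coeffMap (IsLocalRing.residue W)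
  have hkJ' : toK W g ∈ IntermediateField.adjoin (IsLocalRing.ResidueField W)
      {jS (IsLocalRing.ResidueField W)} := by
    rw [jS_eq_jqModC]
    exact hkJ
  obtain ⟨a', b', hb', hab⟩ := exists_frac_of_mem_adjoin _ (toK W g) hvb hkJ'
  obtain ⟨a, rfl⟩ := Polynomial.map_surjective (IsLocalRing.residue W)
    IsLocalRing.residue_surjective a'
  obtain ⟨b, rfl⟩ := Polynomial.map_surjective (IsLocalRing.residue W)
    IsLocalRing.residue_surjective b'
  have hbu : IsUnit (b.coeff 0) := by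
    rw [Polynomial.coeff_map] at hb'
    rw [← IsLocalRing.notMem_maximalIdeal]
    intro hmem
    exact hb' ((IsLocalRing.residue_eq_zero_iff _).mpr hmem)
  set D : LaurentSeries W := g * b.eval₂ HahnSeries.C (xS W) - a.eval₂ HahnSeries.C (xS W)
    with hD
  have hDK : toK W D = 0 := by
    rw [hD, map_sub, map_mul, toK_eval₂, toK_eval₂, hab, sub_self]
  obtain ⟨y, hy⟩ := (toK_eq_zero_iff W hϖ D).mp hDK
  have hDvb : VB D 0 := by
    have h1 := hg.mul (vb_eval₂ (vb_xS (R := W)) b)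
    rw [add_zero] at h1
    exact h1.sub (vb_eval₂ (vb_xS (R := W)) a)
  have hϖ0 : ϖ ≠ 0 := hϖ.ne_zero
  have hyvb : VB y 0 := by
    intro n hn
    have h1 := hDvb n hn
    rw [hy, C_mul_coeff] at h1
    exact (mul_eq_zero.mp h1).resolve_left hϖ0
  have hDL : toL W g * evG W (xS L) b - evG W (xS L) a =
      HahnSeries.C ((ϖ : W) : L) * toL W y := by
    have h1 := congrArg (toL W) hy
    rw [hD, map_sub, map_mul, toL_eval₂, toL_eval₂, map_mul, toL_C] at h1
    exact h1
  have hϖL : (HahnSeries.C ((ϖ : W) : L) : LaurentSeries L) ≠ 0 := C_unif_ne_zero W hϖ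
  have hCmem : (HahnSeries.C ((ϖ : W) : L) : LaurentSeries L) ∈
      laurentBaseChange L (modularFunctionFieldFull (1 * q)) := by
    rw [← Content.algebraMap_eq_C_of_field]
    exact IntermediateField.algebraMap_mem _ _
  have hyK : toL W y ∈ laurentBaseChange L (modularFunctionFieldFull (1 * q)) := by
    have h1 : toL W y = (HahnSeries.C ((ϖ : W) : L))⁻¹ *
        (toL W g * evG W (xS L) b - evG W (xS L) a) := by
      rw [hDL, ← mul_assoc, inv_mul_cancel₀ hϖL, one_mul]
    rw [h1]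
    exact mul_mem (inv_mem hCmem)
      (sub_mem (mul_mem hfK (evG_xS_mem W (1 * q) b)) (evG_xS_mem W (1 * q) a))
  refine ⟨a, b, hbu, toL W y, ⟨hyK, y, hyvb, rfl⟩, ?_⟩
  rw [← hDL]
  ring

/-- **Approximation**: for every `n`, `f · b(x) = a(x) + ϖ ^ n · h` with `a, b ∈ W[X]`,
`b(0)` a unit, and `h` a level-`1 * q` function with `W`-power series expansion. -/
theorem exists_approx (hq1 : ¬ q ∣ 1) {ϖ : W} (hϖ : Irreducible ϖ)
    (hwα : w.comp (heckeAlphaBar L 1 q) = heckeBetaBar L 1 q)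
    (hwβ : w.comp (heckeBetaBar L 1 q) = heckeAlphaBar L 1 q)
    {f : LaurentSeries L} (hf : Good W q f) (n : ℕ) :
    ∃ a b : (↥W)[X], IsUnit (b.coeff 0) ∧ ∃ h : LaurentSeries L, Good W q h ∧
      f * evG W (xS L) b = evG W (xS L) a + HahnSeries.C ((ϖ : W) : L) ^ n * h := by
  induction n with
  | zero =>
    refine ⟨0, 1, ?_, f, hf, ?_⟩
    · rw [Polynomial.coeff_one_zero]
      exact isUnit_one
    · rw [map_one, map_zero, pow_zero, one_mul, mul_one, zero_add]
  | succ n ih =>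
    obtain ⟨a, b, hb, h, hh, e⟩ := ih
    obtain ⟨a', b', hb', h', hh', e'⟩ := exists_step W q w hq1 hϖ hwα hwβ hh
    refine ⟨a * b' + C (ϖ ^ n) * a', b * b', ?_, h', hh', ?_⟩
    · rw [Polynomial.mul_coeff_zero]
      exact hb.mul hb'
    · have hC : evG W (xS L) (C (ϖ ^ n)) = HahnSeries.C ((ϖ : W) : L) ^ n := by
        rw [evG_C, ← map_pow]
        rfl
      rw [map_mul, map_add, map_mul, map_mul, hC]
      linear_combination evG W (xS L) b' * e + HahnSeries.C ((ϖ : W) : L) ^ n * e'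

end Approx

end Fermat.Agent.S36.CuspCritSer
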