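import Mathlib
import Fermat.Agent.S34.CuspEq
import Fermat.Agent.S36.CuspSeries

/-!
# S36, (R-cusp), package (Φ): the modular polynomial over `ℤ` and the polynomial `H`

* `prod_tw_indep`, `rhsΦ_indep` : `∏_{c<ℓ} (X - f(ζ^c q))` does not depend on the primitive
  `ℓ`-th root of unity `ζ`.
* `exists_modPoly_Z` : **the modular polynomial with integer coefficients**: there is
  `ΦZ ∈ ℤ[Y][X]` with `ΦZ(j(q^ℓ), X) = (X - j(q^(ℓ²))) ∏_{c<ℓ} (X - j(ζ^c q))` over `ℚ̄((q))`,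
  for every primitive `ℓ`-th root of unity `ζ`.
* `Gser n ζ = (X - j(q^(ℓ²))) ∏_{k<n} (X - j(ζ^(k+1) q))` (`ℓ = n + 1`), the quotient of the
  right-hand side by `X - j` (`rhsΦ_eq_mul_Gser`).
* `reflect_comp_Gser`, `coeff_Hser_mul` : `CuspSeries.Hser n ζ = T^ℓ · G(j/T) / G(0)` for
  `G = Gser n ζ`, in the forms `reflect ℓ (G.comp (C j * X)) = C (G.coeff 0) * Hser` and
  `G.coeff i * j^i = G.coeff 0 * Hser.coeff (ℓ - i)` (`i ≤ ℓ`).
-/

set_option autoImplicit false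

noncomputable section

namespace Fermat.Agent.S36.CuspModPolyZ

open ModularCurve Polynomial Fermat.Agent.S28 Fermat.Agent.S34.CuspEq Fermat.Agent.S36.CuspSeries

local notation "Qb" => AlgebraicClosure ℚ

/-! ### Independence of the primitive root -/

section Indep

variable {K : Type*} [Field K]

/-- `∏_{c<ℓ} (X - f(ζ^c q))` does not depend on the primitive `ℓ`-th root of unity `ζ`. -/
theorem prod_tw_indep (ℓ : ℕ) (ζ ζ' : Kˣ) (hζ : IsPrimitiveRoot (ζ : K) ℓ)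
    (hζ' : IsPrimitiveRoot (ζ' : K) ℓ) (f : LaurentSeries K) :
    ∏ c ∈ Finset.range ℓ, (X - C (tw (ζ ^ c) f)) =
      ∏ c ∈ Finset.range ℓ, (X - C (tw (ζ' ^ c) f)) := by
  classical
  let g : K → (LaurentSeries K)[X] :=
    fun μ => if h : μ = 0 then 0 else X - C (tw (Units.mk0 μ h) f)
  have key : ∀ ξ : Kˣ, IsPrimitiveRoot (ξ : K) ℓ →
      ∏ c ∈ Finset.range ℓ, (X - C (tw (ξ ^ c) f)) = ((nthRoots ℓ (1 : K)).map g).prod := by
    intro ξ hξ
    rw [hξ.nthRoots_eq (one_pow ℓ), Multiset.map_map, Finset.prod_eq_multiset_prod,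
      Finset.range_val]
    congr 1
    refine Multiset.map_congr rfl fun c _ => ?_
    have hne : (ξ : K) ^ c * 1 ≠ 0 := by
      rw [mul_one]
      exact pow_ne_zero _ ξ.ne_zero
    show _ = g ((ξ : K) ^ c * 1)
    have hg : g ((ξ : K) ^ c * 1) = X - C (tw (Units.mk0 ((ξ : K) ^ c * 1) hne) f) :=
      dif_neg hne
    rw [hg]
    congr 3
    ext
    simp
  rw [key ζ hζ, key ζ' hζ']

theorem rhsΦ_indep (ℓ : ℕ) [NeZero ℓ] (ζ ζ' : Kˣ) (hζ : IsPrimitiveRoot (ζ : K) ℓ)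
    (hζ' : IsPrimitiveRoot (ζ' : K) ℓ) : Descent.rhsΦ K ℓ ζ = Descent.rhsΦ K ℓ ζ' := by
  rw [Descent.rhsΦ, Descent.rhsΦ, prod_tw_indep ℓ ζ ζ' hζ hζ']

end Indep

/-! ### Rationality of the right-hand side -/

theorem isGalois_Qb : IsGalois ℚ Qb := by
  have h1 : Algebra.IsAlgebraic ℚ Qb := AlgebraicClosure.isAlgebraic ℚ
  have h2 : IsAlgClosure ℚ Qb := ⟨inferInstance, h1⟩
  exact IsAlgClosure.isGalois ℚ Qb

/-- a Galois-fixed algebraic integer is an integer -/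
theorem exists_int_of_fixed (z : Qb) (hfix : ∀ σ : Qb ≃ₐ[ℚ] Qb, σ z = z)
    (hint : IsIntegral ℤ z) : ∃ n : ℤ, (n : Qb) = z := by
  have := isGalois_Qb
  obtain ⟨r, hr⟩ := IntermediateField.mem_bot.mp ((InfiniteGalois.mem_bot_iff_fixed z).mpr hfix)
  have hr' : IsIntegral ℤ r := by
    rw [← hr] at hint
    exact (isIntegral_algebraMap_iff (algebraMap ℚ Qb).injective).mp hint
  obtain ⟨n, hn⟩ := IsIntegrallyClosed.isIntegral_iff.mp hr'
  refine ⟨n, ?_⟩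
  rw [← hr, ← hn]
  simp

/-- a series with integer coefficients comes from `ℤ((q))` -/
theorem mem_range_coeffMap_intCast (s : LaurentSeries Qb)
    (h : ∀ m : ℤ, ∃ n : ℤ, (n : Qb) = s.coeff m) :
    s ∈ (coeffMap (Int.castRingHom Qb)).range := by
  choose n hn using h
  refine ⟨⟨n, s.isPWO_support.mono ?_⟩, ?_⟩
  · intro m hm
    simp only [Function.mem_support, ne_eq] at hm
    simp only [HahnSeries.mem_support, ne_eq]
    intro h0
    apply hm
    have := hn m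
    rw [h0] at this
    exact_mod_cast this
  · ext m
    rw [coeffMap_coeff]
    exact hn m

theorem map_rhsΦ_galois (ℓ : ℕ) [NeZero ℓ] (ζ : Qbˣ) (hζ : IsPrimitiveRoot (ζ : Qb) ℓ)
    (σ : Qb ≃ₐ[ℚ] Qb) :
    (Descent.rhsΦ Qb ℓ ζ).map (coeffMap (σ : Qb →+* Qb)) = Descent.rhsΦ Qb ℓ ζ := by
  rw [Descent.map_rhsΦ]
  refine rhsΦ_indep ℓ _ _ ?_ hζ
  have h1 : ((Units.map ((σ : Qb →+* Qb) : Qb →* Qb) ζ : Qbˣ) : Qb) = σ (ζ : Qb) := rfl
  rw [h1]
  exact hζ.map_of_injective σ.injective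

/-- the right-hand side has coefficients in `ℤ((q))` -/
theorem exists_rhsΦ_int (ℓ : ℕ) [NeZero ℓ] (hℓ : ℓ.Prime) (ζ : Qbˣ)
    (hζ : IsPrimitiveRoot (ζ : Qb) ℓ) :
    ∃ Q : Polynomial (LaurentSeries ℤ),
      Q.map (coeffMap (Int.castRingHom Qb)) = Descent.rhsΦ Qb ℓ ζ := by
  have hmem : (ζ : Qb) ∈ Zbar := by
    show IsIntegral ℤ (ζ : Qb)
    refine IsIntegral.of_pow hℓ.pos ?_
    rw [hζ.pow_eq_one]
    exact isIntegral_one
  have hmem' : ((ζ⁻¹ : Qbˣ) : Qb) ∈ Zbar := by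
    show IsIntegral ℤ ((ζ⁻¹ : Qbˣ) : Qb)
    refine IsIntegral.of_pow hℓ.pos ?_
    have h1 : ((ζ⁻¹ : Qbˣ) : Qb) ^ ℓ = 1 := by
      have h2 : ζ ^ ℓ = 1 := Units.ext (by rw [Units.val_pow_eq_pow_val, hζ.pow_eq_one]; rfl)
      rw [← Units.val_pow_eq_pow_val, inv_pow, h2, inv_one]
      rfl
    rw [h1]
    exact isIntegral_one
  let u : (↥Zbar)ˣ := ⟨⟨(ζ : Qb), hmem⟩, ⟨((ζ⁻¹ : Qbˣ) : Qb), hmem'⟩,
    Subtype.ext ζ.mul_inv, Subtype.ext ζ.inv_mul⟩
  have hu : Units.map (ιZ : ↥Zbar →* Qb) u = ζ := Units.ext rfl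
  have hZ : (Descent.rhsΦ ↥Zbar ℓ u).map (coeffMap ιZ) = Descent.rhsΦ Qb ℓ ζ := by
    rw [Descent.map_rhsΦ, hu]
  have hlift : Descent.rhsΦ Qb ℓ ζ ∈ Polynomial.lifts (coeffMap (Int.castRingHom Qb)) := by
    rw [Polynomial.lifts_iff_coeff_lifts]
    intro i
    refine mem_range_coeffMap_intCast _ fun m => ?_
    refine exists_int_of_fixed _ (fun σ => ?_) ?_
    · have h1 := congrArg (fun P : (LaurentSeries Qb)[X] => (P.coeff i).coeff m)
        (map_rhsΦ_galois ℓ ζ hζ σ)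
      simp only [coeff_map, coeffMap_coeff] at h1
      exact h1
    · have h1 := congrArg (fun P : (LaurentSeries Qb)[X] => (P.coeff i).coeff m) hZ
      simp only [coeff_map, coeffMap_coeff] at h1
      rw [← h1]
      exact (((Descent.rhsΦ ↥Zbar ℓ u).coeff i).coeff m).2
  rw [Polynomial.mem_lifts] at hlift
  exact hlift

/-- **The modular polynomial with integer coefficients.** -/
theorem exists_modPoly_Z (ℓ : ℕ) [NeZero ℓ] (hℓ : ℓ.Prime) :
    ∃ ΦZ : Polynomial (Polynomial ℤ), ∀ ζ : Qbˣ, IsPrimitiveRoot (ζ : Qb) ℓ →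
      (ΦZ.map (mapRingHom (Int.castRingHom Qb))).map (evalAt (qExpand Qb ℓ (jS Qb))) =
        (X - C (qExpand Qb (ℓ * ℓ) (jS Qb))) *
          ∏ c ∈ Finset.range ℓ, (X - C (tw (ζ ^ c) (jS Qb))) := by
  have : NeZero ((ℓ : ℕ) : Qb) := ⟨Nat.cast_ne_zero.mpr hℓ.ne_zero⟩
  obtain ⟨ζ₀, hζ₀⟩ := HasEnoughRootsOfUnity.exists_primitiveRoot Qb ℓ
  have hζ₀0 : ζ₀ ≠ 0 := hζ₀.ne_zero hℓ.ne_zero
  let ζu : Qbˣ := Units.mk0 ζ₀ hζ₀0
  have hζu : IsPrimitiveRoot (ζu : Qb) ℓ := hζ₀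
  obtain ⟨D⟩ := exists_modPolyData Qb ℓ hℓ ζu (IsPrimitiveRoot.coe_units_iff.mp hζu)
  obtain ⟨Q, hQ⟩ := exists_rhsΦ_int ℓ hℓ ζu hζu
  set xA : LaurentSeries ℤ := qExpand ℤ ℓ (jS ℤ) with hxA
  have hxK : coeffMap (Int.castRingHom Qb) xA = qExpand Qb ℓ (jS Qb) := by
    rw [hxA, Fermat.Agent.S28.coeffMap_qExpand, coeffMap_jS]
  have hr : 0 < ℓ := hℓ.pos
  have h1 : (coeffMap (Int.castRingHom Qb) xA).coeff (-(ℓ : ℤ)) = 1 := by
    rw [hxK, show (-(ℓ : ℤ)) = (ℓ : ℤ) * (-1) by ring, qExpand_coeff_mul, jS_coeff_neg_one]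
  have h0 : ∀ n : ℤ, n < -(ℓ : ℤ) → (coeffMap (Int.castRingHom Qb) xA).coeff n = 0 := by
    intro n hn
    rw [hxK]
    by_cases hdvd : (ℓ : ℤ) ∣ n
    · obtain ⟨m, rfl⟩ := hdvd
      rw [qExpand_coeff_mul]
      apply jS_coeff_of_lt
      have hr' : (0 : ℤ) < ℓ := by exact_mod_cast hr
      nlinarith
    · exact qExpand_coeff_of_not_dvd ℓ _ hdvd
  have hΦ : D.Φ.map (evalAt (coeffMap (Int.castRingHom Qb) xA)) =
      Q.map (coeffMap (Int.castRingHom Qb)) := by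
    rw [hQ, hxK]
    exact D.hΦ
  obtain ⟨ΦZ, hΦZ⟩ := Descent.exists_map_eq (Int.castRingHom Qb) xA ℓ hr h1 h0 D.Φ Q hΦ
  refine ⟨ΦZ, fun ζ hζ => ?_⟩
  rw [hΦZ, D.hΦ]
  exact rhsΦ_indep ℓ ζu ζ hζu hζ

end Fermat.Agent.S36.CuspModPolyZ

namespace Fermat.Agent.S36.CuspModPolyZ

open ModularCurve Polynomial Fermat.Agent.S28 Fermat.Agent.S36.CuspSeries

/-! ### The quotient by `X - j` and the polynomial `H` -/

section Bridge

variable {K : Type*} [Field K]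

/-- `G = (X - j(q^(ℓ²))) ∏_{k<n} (X - j(ζ^(k+1) q))`, `ℓ = n + 1`: the right-hand side of the
modular equation divided by `X - j`. -/
def Gser (n : ℕ) (ζ : Kˣ) : (LaurentSeries K)[X] :=
  (X - C (qExpand K ((n + 1) * (n + 1)) (jS K))) *
    ∏ k ∈ Finset.range n, (X - C (tw (ζ ^ (k + 1)) (jS K)))

theorem rhsΦ_eq_mul_Gser (n : ℕ) (ζ : Kˣ) :
    Descent.rhsΦ K (n + 1) ζ = (X - C (jS K)) * Gser n ζ := by
  rw [Descent.rhsΦ, Gser, Finset.prod_range_succ', pow_zero, tw_one]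
  ring

/-- **reflection of a product of linear factors**:
`T^d · ∏ (c T⁻¹ ... )`, i.e. `reflect d (∏ (X - r_i))(cX) = ∏ (c - r_i X)`. -/
theorem reflect_comp_prod {A : Type*} [CommRing A] {ι : Type*} (s : Finset ι) (r : ι → A)
    (c : A) :
    reflect s.card ((∏ i ∈ s, (X - C (r i))).comp (C c * X)) =
      ∏ i ∈ s, (C c - C (r i) * X) := by
  classical
  induction s using Finset.induction_on with
  | empty =>
    rw [Finset.prod_empty, Finset.prod_empty, Finset.card_empty, one_comp, reflect_one, pow_zero]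
  | insert a s ha ih =>
    rw [Finset.prod_insert ha, Finset.prod_insert ha, Finset.card_insert_of_notMem ha, mul_comp,
      add_comm s.card 1]
    have h1 : ((X - C (r a) : A[X]).comp (C c * X)).natDegree ≤ 1 := by
      rw [sub_comp, X_comp, C_comp]
      refine (natDegree_sub_le _ _).trans ?_
      rw [natDegree_C, max_eq_left (Nat.zero_le _)]
      exact (natDegree_C_mul_le c X).trans natDegree_X_le
    have h2 : ((∏ i ∈ s, (X - C (r i) : A[X])).comp (C c * X)).natDegree ≤ s.card := by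
      rw [prod_comp]
      refine (natDegree_prod_le _ _).trans ?_
      refine (Finset.sum_le_card_nsmul _ _ 1 fun i _ => ?_).trans (by simp)
      rw [sub_comp, X_comp, C_comp]
      refine (natDegree_sub_le _ _).trans ?_
      rw [natDegree_C, max_eq_left (Nat.zero_le _)]
      exact (natDegree_C_mul_le c X).trans natDegree_X_le
    rw [reflect_mul _ _ h1 h2, ih]
    congr 1
    rw [sub_comp, X_comp, C_comp, reflect_sub, reflect_C]
    have h3 : (C c * X : A[X]) = C c * X ^ 1 := by rw [pow_one]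
    rw [h3, reflect_C_mul_X_pow, revAt_le le_rfl, Nat.sub_self, pow_zero, mul_one, pow_one]

/-- the index function of the roots of `Gser` -/
def rootG (n : ℕ) (ζ : Kˣ) (k : ℕ) : LaurentSeries K :=
  if k = 0 then qExpand K ((n + 1) * (n + 1)) (jS K) else tw (ζ ^ k) (jS K)

/-- the index function of the roots of `Hser` divided by `j` -/
def rootH (n : ℕ) (ζ : Kˣ) (k : ℕ) : LaurentSeries K :=
  if k = 0 then qExpand K ((n + 1) * (n + 1)) (xS K) else tw (ζ ^ k) (xS K)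

theorem rootG_mul_rootH (n : ℕ) (ζ : Kˣ) (k : ℕ) : rootG n ζ k * rootH n ζ k = 1 := by
  unfold rootG rootH
  split_ifs
  · rw [← map_mul, jS_mul_xS, map_one]
  · rw [← map_mul, jS_mul_xS, map_one]

theorem Gser_eq_prod (n : ℕ) (ζ : Kˣ) :
    Gser n ζ = ∏ k ∈ Finset.range (n + 1), (X - C (rootG n ζ k)) := by
  have h0 : rootG n ζ 0 = qExpand K ((n + 1) * (n + 1)) (jS K) := if_pos rfl
  have hk : ∀ k ∈ Finset.range n,
      (X - C (rootG n ζ (k + 1)) : (LaurentSeries K)[X]) = X - C (tw (ζ ^ (k + 1)) (jS K)) :=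
    fun k _ => by rw [rootG, if_neg (Nat.succ_ne_zero k)]
  rw [Finset.prod_range_succ', Finset.prod_congr rfl hk, h0, Gser, mul_comm]

theorem Hser_eq_prod (n : ℕ) (ζ : Kˣ) :
    Hser n ζ = ∏ k ∈ Finset.range (n + 1), (X - C (rootH n ζ k * jS K)) := by
  have h0 : rootH n ζ 0 = qExpand K ((n + 1) * (n + 1)) (xS K) := if_pos rfl
  have hk : ∀ k ∈ Finset.range n,
      (X - C (rootH n ζ (k + 1) * jS K) : (LaurentSeries K)[X]) =
        X - C (tw (ζ ^ (k + 1)) (xS K) * jS K) :=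
    fun k _ => by rw [rootH, if_neg (Nat.succ_ne_zero k)]
  rw [Finset.prod_range_succ', Finset.prod_congr rfl hk, h0, Hser, mul_comm]

/-- the constant term of `Gser` -/
theorem Gser_coeff_zero (n : ℕ) (ζ : Kˣ) :
    (Gser n ζ).coeff 0 = ∏ k ∈ Finset.range (n + 1), (-(rootG n ζ k)) := by
  rw [Gser_eq_prod, coeff_zero_eq_eval_zero, eval_prod]
  refine Finset.prod_congr rfl fun k _ => ?_
  rw [eval_sub, eval_X, eval_C, zero_sub]

theorem Gser_coeff_zero_ne_zero (n : ℕ) (ζ : Kˣ) : (Gser n ζ).coeff 0 ≠ 0 := by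
  rw [Gser_coeff_zero, Finset.prod_ne_zero_iff]
  intro k _ h
  have h1 := rootG_mul_rootH n ζ k
  rw [neg_eq_zero] at h
  rw [h, zero_mul] at h1
  exact zero_ne_one h1

/-- **`Hser = T^ℓ · G(j/T) / G(0)`**, reflected form. -/
theorem reflect_comp_Gser (n : ℕ) (ζ : Kˣ) :
    reflect (n + 1) ((Gser n ζ).comp (C (jS K) * X)) = C ((Gser n ζ).coeff 0) * Hser n ζ := by
  have h := reflect_comp_prod (Finset.range (n + 1)) (rootG n ζ) (jS K)
  rw [Finset.card_range, ← Gser_eq_prod] at h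
  rw [h, Gser_coeff_zero, Hser_eq_prod, map_prod, ← Finset.prod_mul_distrib]
  refine Finset.prod_congr rfl fun k _ => ?_
  have h1 := rootG_mul_rootH n ζ k
  have h2 : C (rootG n ζ k) * C (rootH n ζ k * jS K) = (C (jS K) : (LaurentSeries K)[X]) := by
    rw [← C_mul, ← mul_assoc, h1, one_mul]
  rw [map_neg]
  linear_combination (-1 : (LaurentSeries K)[X]) * h2

/-- **`Hser = T^ℓ · G(j/T) / G(0)`**, coefficient form: for `i ≤ ℓ = n + 1`,
`G_i · j^i = G_0 · H_{ℓ - i}`. -/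
theorem coeff_Hser_mul (n : ℕ) (ζ : Kˣ) {i : ℕ} (hi : i ≤ n + 1) :
    (Gser n ζ).coeff i * jS K ^ i = (Gser n ζ).coeff 0 * (Hser n ζ).coeff (n + 1 - i) := by
  have h := congrArg (fun P : (LaurentSeries K)[X] => P.coeff (n + 1 - i)) (reflect_comp_Gser n ζ)
  simp only [coeff_reflect, coeff_C_mul] at h
  rw [revAt_le (Nat.sub_le _ _), Nat.sub_sub_self hi, comp_C_mul_X_coeff] at h
  exact h

end Bridge

end Fermat.Agent.S36.CuspModPolyZ
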