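import Mathlib
import Fermat.Agent.S18.GaussContent
import Fermat.Agent.S34.CuspEq
import Fermat.Agent.S36.CuspSeries

/-!
# S36, (R-cusp), package (E): descent of the series identities to a level

`A` a valuation subring of `Qb = ℚ̄` with `ℓ = n + 1` a prime in its maximal ideal, `ι : L → Qb`,
`W = A.comap ι`, `ζ` a primitive `ℓ`-th root of unity of `Qb` (not assumed to lie in `ι L`).
For a polynomial `P` over `L((q))` which becomes `CuspSeries.Hser n ζ` over `Qb`:

* `exists_descent` : `P = PW.map (toL W)` for a polynomial `PW` over `W((q))` whose coefficients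
  are power series, and `PW.map (toK W) = Htarget κ n`, i.e.
  `P ≡ (T - x^(ℓ²-1)) (T - 1)^n` modulo the maximal ideal of `W`;
* `exists_eval_one` : `P(1) = ℓ · V`, `V` a power series over `W` with constant term `1`.

Auxiliary: `exists_toL_of_coeffMap_eq` (a series over `L` with algebraic-integer coefficients
has coefficients in `W`), `exists_toL_toK_eq_zero` (divisible by `1 - ζ` ⟹ zero reduction),
`one_sub_zeta_mem_nonunits`, `Hser_mem_lifts` (the coefficients of `Hser` are power series).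
-/

set_option autoImplicit false
set_option linter.style.haveILetI false

noncomputable section

namespace Fermat.Agent.S36.CuspSeriesW

open ModularCurve Polynomial Fermat.Agent.S28 Fermat.Agent.S18.Gauss Fermat.Agent.S34.CuspEq
  Fermat.Agent.S36.CuspSeries

local notation "Qb" => AlgebraicClosure ℚ

/-! ### Power series inside Laurent series -/

section PS

variable {R : Type*} [CommRing R]

/-- a Laurent series without negative exponents is a power series -/
theorem mem_range_ofPowerSeries {f : LaurentSeries R} (h : ∀ m : ℤ, m < 0 → f.coeff m = 0) :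
    f ∈ (HahnSeries.ofPowerSeries ℤ R).range := by
  refine ⟨PowerSeries.mk fun k => f.coeff k, ?_⟩
  ext m
  rcases lt_or_ge m 0 with hm | hm
  · rw [ofPowerSeries_coeff_of_neg _ hm, h m hm]
  · obtain ⟨k, rfl⟩ := Int.eq_ofNat_of_zero_le hm
    rw [HahnSeries.ofPowerSeries_apply_coeff, PowerSeries.coeff_mk]

theorem coeff_eq_zero_of_mem_range {f : LaurentSeries R}
    (h : f ∈ (HahnSeries.ofPowerSeries ℤ R).range) {m : ℤ} (hm : m < 0) : f.coeff m = 0 := by
  obtain ⟨p, rfl⟩ := h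
  exact ofPowerSeries_coeff_of_neg _ hm

theorem mem_range_of_isMonicAt {f : LaurentSeries R} {e : ℤ} (hf : IsMonicAt f e) (he : 0 ≤ e) :
    f ∈ (HahnSeries.ofPowerSeries ℤ R).range :=
  mem_range_ofPowerSeries fun m hm => hf.2 m (lt_of_lt_of_le hm he)

/-- **the coefficients of `Hser` are power series** -/
theorem Hser_mem_lifts (n : ℕ) (ζ : Rˣ) :
    Hser n ζ ∈ Polynomial.lifts (HahnSeries.ofPowerSeries ℤ R) := by
  rw [Polynomial.lifts_iff_liftsRing]
  have hX : (X : (LaurentSeries R)[X]) ∈ Polynomial.liftsRing (HahnSeries.ofPowerSeries ℤ R) := by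
    rw [← Polynomial.lifts_iff_liftsRing]
    exact Polynomial.X_mem_lifts _
  have hC : ∀ y : LaurentSeries R, y ∈ (HahnSeries.ofPowerSeries ℤ R).range →
      (C y : (LaurentSeries R)[X]) ∈ Polynomial.liftsRing (HahnSeries.ofPowerSeries ℤ R) := by
    rintro y ⟨p, rfl⟩
    rw [← Polynomial.lifts_iff_liftsRing]
    exact Polynomial.C_mem_lifts _ p
  refine Subring.mul_mem _ (Subring.sub_mem _ hX (hC _ ?_)) (Subring.prod_mem _ fun k _ => ?_)
  · have h1 := (isMonicAt_yInfInt (n + 1)).coeffMap (Int.castRingHom R)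
    rw [coeffMap_yInfInt] at h1
    refine mem_range_of_isMonicAt h1 ?_
    have : (1 : ℤ) ≤ ((n + 1 : ℕ) : ℤ) * ((n + 1 : ℕ) : ℤ) := by
      have h2 : (1 : ℤ) ≤ ((n + 1 : ℕ) : ℤ) := by exact_mod_cast Nat.succ_le_succ (Nat.zero_le n)
      nlinarith
    linarith
  · refine Subring.sub_mem _ hX (hC _ ?_)
    rw [tw_mul_eq]
    refine Subring.sub_mem _ (Subring.one_mem _) (Subring.mul_mem _ ?_ ?_)
    · exact ⟨PowerSeries.C (1 - ((ζ ^ (k + 1) : Rˣ) : R)), HahnSeries.ofPowerSeries_C _⟩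
    · exact mem_range_of_isMonicAt (isMonicAt_U _) le_rfl

theorem Hser_coeff_coeff (n : ℕ) (ζ : Rˣ) (i : ℕ) {m : ℤ} (hm : m < 0) :
    ((Hser n ζ).coeff i).coeff m = 0 := by
  have h := Hser_mem_lifts n ζ
  rw [Polynomial.lifts_iff_coeff_lifts] at h
  exact coeff_eq_zero_of_mem_range (h i) hm

theorem isMonicAt_of_coeffMap {S : Type*} [CommRing S] (f : R →+* S) (hf : Function.Injective f)
    {x : LaurentSeries R} {e : ℤ} (h : IsMonicAt (coeffMap f x) e) : IsMonicAt x e := by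
  refine ⟨hf ?_, fun m hm => hf ?_⟩
  · rw [← coeffMap_coeff, h.1, map_one]
  · rw [← coeffMap_coeff, h.2 m hm, map_zero]

end PS

/-! ### Descent of single series -/

section Descent

variable {L : Type*} [Field L] (ι : L →+* Qb) (A : ValuationSubring Qb)

/-- algebraic integers lie in every valuation subring -/
theorem zbar_mem (z : ↥Zbar) : (z : Qb) ∈ A := by
  refine mem_of_isIntegralElem A (Int.castRingHom Qb) (fun r => ?_) ?_
  · rw [eq_intCast]
    exact intCast_mem A r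
  · obtain ⟨p, hp, hpz⟩ := z.2
    exact ⟨p, hp, by rw [← hpz]; rfl⟩

/-- **Integral descent**: a series over `L` whose image over `Qb` has algebraic-integer
coefficients has coefficients in `W = A.comap ι`. -/
theorem exists_toL_of_coeffMap_eq (f : LaurentSeries L) (g : LaurentSeries ↥Zbar)
    (h : coeffMap ι f = coeffMap ιZ g) :
    ∃ fW : LaurentSeries ↥(A.comap ι), toL (A.comap ι) fW = f := by
  have hmem : ∀ m : ℤ, f.coeff m ∈ A.comap ι := by
    intro m
    have h1 := congrArg (fun s : LaurentSeries Qb => s.coeff m) h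
    simp only [coeffMap_coeff] at h1
    show ι (f.coeff m) ∈ A
    rw [h1]
    exact zbar_mem A _
  refine ⟨⟨fun m => ⟨f.coeff m, hmem m⟩, f.isPWO_support.mono ?_⟩, ?_⟩
  · intro m hm
    simp only [Function.mem_support, ne_eq] at hm
    simp only [HahnSeries.mem_support, ne_eq]
    intro h0
    exact hm (Subtype.ext h0)
  · ext m
    rfl

/-- roots of unity lie in a valuation subring -/
theorem mem_of_pow_eq_one' {x : Qb} {n : ℕ} (hn : n ≠ 0) (hx : x ^ n = 1) : x ∈ A := by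
  rw [← A.valuation_le_one_iff]
  by_contra h
  have h' := one_lt_pow₀ (not_le.mp h) hn
  rw [← map_pow, hx, map_one] at h'
  exact lt_irrefl _ h'

/-- In a valuation subring, a nonzero element is a non-unit iff its inverse is not a member. -/
theorem mem_nonunits_iff_inv_notMem' {K : Type*} [Field K] (B : ValuationSubring K) {x : K}
    (hx : x ≠ 0) : x ∈ B.nonunits ↔ x⁻¹ ∉ B := by
  rw [ValuationSubring.mem_nonunits_iff, ← B.valuation_le_one_iff, map_inv₀, not_le]
  have h0 : B.valuation x ≠ 0 := (Valuation.ne_zero_iff _).2 hx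
  constructor
  · intro h
    exact (one_lt_inv₀ (zero_lt_iff.2 h0)).2 h
  · intro h
    exact (one_lt_inv₀ (zero_lt_iff.2 h0)).1 h

/-- Non-units of a pulled-back valuation subring. -/
theorem mem_nonunits_comap' {K K' : Type*} [Field K] [Field K'] (B : ValuationSubring K')
    (f : K →+* K') (x : K) : x ∈ (B.comap f).nonunits ↔ f x ∈ B.nonunits := by
  rcases eq_or_ne x 0 with rfl | hx
  · rw [map_zero]
    exact ⟨fun _ => by rw [ValuationSubring.mem_nonunits_iff, map_zero]; exact zero_lt_one,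
      fun _ => by rw [ValuationSubring.mem_nonunits_iff, map_zero]; exact zero_lt_one⟩
  · have hfx : f x ≠ 0 := (map_ne_zero f).2 hx
    rw [mem_nonunits_iff_inv_notMem' _ hx, mem_nonunits_iff_inv_notMem' _ hfx,
      ValuationSubring.mem_comap, map_inv₀]

/-- `1 - ζ` is a non-unit of `A` when `ℓ` is. -/
theorem one_sub_zeta_mem_nonunits (ℓ : ℕ) (hℓ : ℓ.Prime) (hA : ((ℓ : ℕ) : Qb) ∈ A.nonunits)
    (ζ : Qb) (hζ : ζ ^ ℓ = 1) : (1 - ζ) ∈ A.nonunits := by
  haveI : Fact ℓ.Prime := ⟨hℓ⟩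
  have hζA : ζ ∈ A := mem_of_pow_eq_one' A hℓ.ne_zero hζ
  have hℓA : ((ℓ : ℕ) : Qb) ∈ A := natCast_mem A ℓ
  have h0 : ((ℓ : ℕ) : IsLocalRing.ResidueField ↥A) = 0 := by
    have h1 : (⟨((ℓ : ℕ) : Qb), hℓA⟩ : ↥A) ∈ IsLocalRing.maximalIdeal ↥A :=
      ValuationSubring.coe_mem_nonunits_iff.mp hA
    have h2 := (IsLocalRing.residue_eq_zero_iff _).mpr h1
    have h3 : (⟨((ℓ : ℕ) : Qb), hℓA⟩ : ↥A) = ((ℓ : ℕ) : ↥A) := Subtype.ext (by simp)
    rw [h3, map_natCast] at h2
    exact h2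
  haveI : CharP (IsLocalRing.ResidueField ↥A) ℓ := (CharP.charP_iff_prime_eq_zero hℓ).mpr h0
  have h4 : IsLocalRing.residue ↥A (1 - ⟨ζ, hζA⟩) = 0 := by
    have h5 : (IsLocalRing.residue ↥A (1 - ⟨ζ, hζA⟩)) ^ ℓ = 0 := by
      rw [map_sub, map_one, sub_pow_char, one_pow, ← map_pow]
      have h6 : (⟨ζ, hζA⟩ : ↥A) ^ ℓ = 1 := Subtype.ext (by simpa using hζ)
      rw [h6, map_one, sub_self]
    exact pow_eq_zero_iff hℓ.ne_zero |>.mp h5
  have h7 : (1 - ⟨ζ, hζA⟩ : ↥A) ∈ IsLocalRing.maximalIdeal ↥A :=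
    (IsLocalRing.residue_eq_zero_iff _).mp h4
  have h8 := ValuationSubring.coe_mem_nonunits_iff.mpr h7
  simpa using h8

/-- **Descent modulo `1 - ζ`**: a series over `L` whose image over `Qb` is `1 - ζ` times a series
with algebraic-integer coefficients has coefficients in the maximal ideal of `W`. -/
theorem exists_toL_toK_eq_zero (ℓ : ℕ) (hℓ : ℓ.Prime) (hA : ((ℓ : ℕ) : Qb) ∈ A.nonunits)
    (ζ : Qb) (hζ : ζ ^ ℓ = 1) (f : LaurentSeries L) (g : LaurentSeries ↥Zbar)
    (h : coeffMap ι f = HahnSeries.C (1 - ζ) * coeffMap ιZ g) :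
    ∃ fW : LaurentSeries ↥(A.comap ι), toL (A.comap ι) fW = f ∧ toK (A.comap ι) fW = 0 := by
  have hz := one_sub_zeta_mem_nonunits A ℓ hℓ hA ζ hζ
  have hcoeff : ∀ m : ℤ, ι (f.coeff m) = (1 - ζ) * (g.coeff m : Qb) := by
    intro m
    have h1 := congrArg (fun s : LaurentSeries Qb => s.coeff m) h
    simp only [coeffMap_coeff, C_mul_coeff] at h1
    exact h1
  have hnon : ∀ m : ℤ, f.coeff m ∈ (A.comap ι).nonunits := by
    intro m
    rw [mem_nonunits_comap', hcoeff m, mul_comm,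
      ValuationSubring.mem_nonunits_iff, map_mul]
    exact lt_of_le_of_lt
      (mul_le_of_le_one_left' ((A.valuation_le_one_iff _).mpr (zbar_mem A _)))
      ((ValuationSubring.mem_nonunits_iff _).mp hz)
  have hmem : ∀ m : ℤ, f.coeff m ∈ A.comap ι := fun m =>
    ValuationSubring.nonunits_subset (hnon m)
  refine ⟨⟨fun m => ⟨f.coeff m, hmem m⟩, f.isPWO_support.mono ?_⟩, ?_, ?_⟩
  · intro m hm
    simp only [Function.mem_support, ne_eq] at hm
    simp only [HahnSeries.mem_support, ne_eq]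
    intro h0
    exact hm (Subtype.ext h0)
  · ext m
    rfl
  · ext m
    rw [toK_coeff, HahnSeries.coeff_zero, IsLocalRing.residue_eq_zero_iff]
    exact ValuationSubring.coe_mem_nonunits_iff.mp (hnon m)

end Descent

/-! ### Descent of the polynomial `Hser` -/

section Main

variable {L : Type*} [Field L] (ι : L →+* Qb) (A : ValuationSubring Qb)

/-- the primitive root as a unit of the ring of algebraic integers -/
theorem exists_unit_zbar (ℓ : ℕ) (hℓ : ℓ ≠ 0) (ζ : Qbˣ) (hζ : (ζ : Qb) ^ ℓ = 1) :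
    ∃ u : (↥Zbar)ˣ, Units.map (ιZ : ↥Zbar →* Qb) u = ζ := by
  have hmem : (ζ : Qb) ∈ Zbar := by
    show IsIntegral ℤ (ζ : Qb)
    refine IsIntegral.of_pow (Nat.pos_of_ne_zero hℓ) ?_
    rw [hζ]
    exact isIntegral_one
  have hmem' : ((ζ⁻¹ : Qbˣ) : Qb) ∈ Zbar := by
    show IsIntegral ℤ ((ζ⁻¹ : Qbˣ) : Qb)
    refine IsIntegral.of_pow (Nat.pos_of_ne_zero hℓ) ?_
    have h1 : ((ζ⁻¹ : Qbˣ) : Qb) ^ ℓ = 1 := by
      have h2 : ζ ^ ℓ = 1 := Units.ext (by rw [Units.val_pow_eq_pow_val, hζ]; rfl)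
      rw [← Units.val_pow_eq_pow_val, inv_pow, h2, inv_one]
      rfl
    rw [h1]
    exact isIntegral_one
  exact ⟨⟨⟨(ζ : Qb), hmem⟩, ⟨((ζ⁻¹ : Qbˣ) : Qb), hmem'⟩,
    Subtype.ext ζ.mul_inv, Subtype.ext ζ.inv_mul⟩, Units.ext rfl⟩

/-- **Descent of `Hser` to a level.**  If `P` over `L((q))` becomes `Hser n ζ` over `Qb`
(`ℓ = n + 1` a prime in the maximal ideal of `A`, `ζ` a primitive `ℓ`-th root of unity), then
`P` has coefficients in `W[[q]]`, `W = A.comap ι`, and reduces to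
`(T - x^(ℓ²-1)) (T - 1)^n` modulo the maximal ideal of `W`. -/
theorem exists_descent (n : ℕ) (hn : (n + 1).Prime) (ζ : Qbˣ)
    (hζ : IsPrimitiveRoot (ζ : Qb) (n + 1)) (hA : (((n + 1 : ℕ) : ℕ) : Qb) ∈ A.nonunits)
    (P : (LaurentSeries L)[X]) (hP : P.map (coeffMap ι) = Hser n ζ) :
    ∃ PW : (LaurentSeries ↥(A.comap ι))[X], PW.map (toL (A.comap ι)) = P ∧
      (∀ (i : ℕ) (m : ℤ), m < 0 → (PW.coeff i).coeff m = 0) ∧
      PW.map (toK (A.comap ι)) = Htarget (IsLocalRing.ResidueField ↥(A.comap ι)) n := by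
  obtain ⟨u, hu⟩ := exists_unit_zbar (n + 1) (Nat.succ_ne_zero n) ζ hζ.pow_eq_one
  have huprim : IsPrimitiveRoot ((u : ↥Zbar)) (n + 1) := by
    refine IsPrimitiveRoot.of_map_of_injective (f := ιZ) ?_ ιZ_injective
    have h1 : ιZ (u : ↥Zbar) = (ζ : Qb) := by rw [← hu]; rfl
    rw [h1]
    exact hζ
  have hZ : (Hser n u).map (coeffMap ιZ) = Hser n ζ := by rw [coeffMap_Hser, hu]
  obtain ⟨D, hD⟩ := exists_poly_congr n hn u huprim
  have hιinj : Function.Injective (coeffMap ι) := by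
    intro x y hxy
    ext m
    have := congrArg (fun s : LaurentSeries Qb => s.coeff m) hxy
    simp only [coeffMap_coeff] at this
    exact ι.injective this
  -- coefficients over `Qb`
  have hcoeff : ∀ i : ℕ, coeffMap ι (P.coeff i) = coeffMap ιZ ((Hser n u).coeff i) := by
    intro i
    rw [← coeff_map, hP, ← hZ, coeff_map]
  -- the lift
  have hlift : P ∈ Polynomial.lifts (toL (A.comap ι)) := by
    rw [Polynomial.lifts_iff_coeff_lifts]
    intro i
    obtain ⟨fW, hfW⟩ := exists_toL_of_coeffMap_eq ι A (P.coeff i) _ (hcoeff i)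
    exact ⟨fW, hfW⟩
  rw [Polynomial.mem_lifts] at hlift
  obtain ⟨PW, hPW⟩ := hlift
  have hPWi : ∀ i : ℕ, toL (A.comap ι) (PW.coeff i) = P.coeff i := fun i => by
    rw [← coeff_map, hPW]
  refine ⟨PW, hPW, ?_, ?_⟩
  · intro i m hm
    have h1 : (toL (A.comap ι) (PW.coeff i)).coeff m = 0 := by
      rw [hPWi]
      apply ι.injective
      rw [map_zero, ← coeffMap_coeff, hcoeff i, coeffMap_coeff, Hser_coeff_coeff n u i hm,
        map_zero]
    rw [toL_coeff] at h1
    exact Subtype.ext h1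
  · ext1 i
    rw [coeff_map]
    -- the difference with the target has zero reduction
    have hT : (Htarget ↥(A.comap ι) n).map (toL (A.comap ι)) = Htarget L n :=
      coeffMap_Htarget _ n
    have hTQ : (Htarget L n).map (coeffMap ι) = Htarget Qb n := coeffMap_Htarget _ n
    have hTZ : (Htarget ↥Zbar n).map (coeffMap ιZ) = Htarget Qb n := coeffMap_Htarget _ n
    have hdiff : coeffMap ι (P.coeff i - (Htarget L n).coeff i) =
        HahnSeries.C (1 - (ζ : Qb)) * coeffMap ιZ (D.coeff i) := by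
      have h1 : ιZ (1 - (u : ↥Zbar)) = 1 - (ζ : Qb) := by
        rw [map_sub, map_one, ← hu]
        rfl
      have e1 : coeffMap ιZ ((Htarget ↥Zbar n).coeff i) = coeffMap ι ((Htarget L n).coeff i) := by
        rw [← coeff_map, ← coeff_map, hTZ, hTQ]
      have e2 : coeffMap ιZ ((C (HahnSeries.C (1 - (u : ↥Zbar))) * D).coeff i) =
          HahnSeries.C (1 - (ζ : Qb)) * coeffMap ιZ (D.coeff i) := by
        rw [coeff_C_mul, map_mul, coeffMap_C', h1]
      rw [map_sub, hcoeff i, hD, coeff_add, map_add, e1, e2]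
      ring
    obtain ⟨eW, heW, heK⟩ := exists_toL_toK_eq_zero ι A (n + 1) hn hA (ζ : Qb) hζ.pow_eq_one
      _ _ hdiff
    have h2 : PW.coeff i = eW + (Htarget ↥(A.comap ι) n).coeff i := by
      apply toL_injective
      rw [map_add, heW, hPWi, ← coeff_map, hT]
      ring
    rw [h2, map_add, heK, zero_add, ← coeff_map]
    congr 1
    exact coeffMap_Htarget _ n

/-- **The value at `1`**: under the hypotheses of `exists_descent`, `P(1) = ℓ · V` with `V` a
power series over `W` with constant term `1`. -/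
theorem exists_eval_one (n : ℕ) (hn : (n + 1).Prime) (ζ : Qbˣ)
    (hζ : IsPrimitiveRoot (ζ : Qb) (n + 1))
    (P : (LaurentSeries L)[X]) (hP : P.map (coeffMap ι) = Hser n ζ) :
    ∃ V : LaurentSeries ↥(A.comap ι), IsMonicAt V 0 ∧
      P.eval 1 = HahnSeries.C (((n + 1 : ℕ) : ℕ) : L) * toL (A.comap ι) V := by
  obtain ⟨u, hu⟩ := exists_unit_zbar (n + 1) (Nat.succ_ne_zero n) ζ hζ.pow_eq_one
  have huprim : IsPrimitiveRoot ((u : ↥Zbar)) (n + 1) := by
    refine IsPrimitiveRoot.of_map_of_injective (f := ιZ) ?_ ιZ_injective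
    have h1 : ιZ (u : ↥Zbar) = (ζ : Qb) := by rw [← hu]; rfl
    rw [h1]
    exact hζ
  have hZ : (Hser n u).map (coeffMap ιZ) = Hser n ζ := by rw [coeffMap_Hser, hu]
  -- the unit over the algebraic integers
  set VZ : LaurentSeries ↥Zbar :=
    (1 - qExpand ↥Zbar ((n + 1) * (n + 1)) (xS ↥Zbar) * jS ↥Zbar) *
      ∏ k ∈ Finset.range n, U (u ^ (k + 1)) with hVZ
  have hVZmon : IsMonicAt VZ 0 := by
    have h1 : IsMonicAt (1 - qExpand ↥Zbar ((n + 1) * (n + 1)) (xS ↥Zbar) * jS ↥Zbar) 0 := by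
      have h2 := (isMonicAt_yInfInt (n + 1)).coeffMap (Int.castRingHom ↥Zbar)
      rw [coeffMap_yInfInt] at h2
      have h3 : (0 : ℤ) < ((n + 1 : ℕ) : ℤ) * ((n + 1 : ℕ) : ℤ) - 1 := by
        have h4 : (2 : ℤ) ≤ ((n + 1 : ℕ) : ℤ) := by exact_mod_cast hn.two_le
        nlinarith
      refine ⟨?_, fun m hm => ?_⟩
      · rw [HahnSeries.coeff_sub, HahnSeries.coeff_one, if_pos rfl, h2.2 0 h3, sub_zero]
      · rw [HahnSeries.coeff_sub, HahnSeries.coeff_one, if_neg (ne_of_lt hm),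
          h2.2 m (lt_trans hm h3), sub_zero]
    have h5 := h1.mul (isMonicAt_prod_U n u)
    rwa [add_zero] at h5
  have hevalZ : (Hser n u).eval 1 = HahnSeries.C (((n + 1 : ℕ) : ℕ) : ↥Zbar) * VZ := by
    rw [eval_one_Hser, prod_one_sub_tw n u huprim, hVZ]
    ring
  -- over `Qb`
  have hQ : coeffMap ι (P.eval 1) =
      HahnSeries.C (((n + 1 : ℕ) : ℕ) : Qb) * coeffMap ιZ VZ := by
    rw [← eval_one_map, hP, ← hZ, eval_one_map, hevalZ, map_mul, coeffMap_C', map_natCast]
  have hne : (((n + 1 : ℕ) : ℕ) : L) ≠ 0 := by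
    intro h0
    have h1 := congrArg ι h0
    rw [map_natCast, map_zero] at h1
    exact (Nat.cast_ne_zero.mpr (Nat.succ_ne_zero n)) h1
  have hf : coeffMap ι (HahnSeries.C ((((n + 1 : ℕ) : ℕ) : L))⁻¹ * P.eval 1) = coeffMap ιZ VZ := by
    rw [map_mul, hQ, coeffMap_C', ← mul_assoc, ← map_mul, map_inv₀, map_natCast,
      inv_mul_cancel₀ (Nat.cast_ne_zero.mpr (Nat.succ_ne_zero n)), map_one, one_mul]
  obtain ⟨V, hV⟩ := exists_toL_of_coeffMap_eq ι A _ _ hf
  refine ⟨V, ?_, ?_⟩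
  · refine isMonicAt_of_coeffMap (A.comap ι).subtype Subtype.val_injective ?_
    refine isMonicAt_of_coeffMap ι ι.injective ?_
    have h1 : coeffMap ι (coeffMap (A.comap ι).subtype V) = coeffMap ιZ VZ := by
      rw [← hf, ← hV]
      rfl
    rw [h1]
    exact hVZmon.coeffMap ιZ
  · rw [hV, ← mul_assoc, ← map_mul, mul_inv_cancel₀ hne, map_one, one_mul]

end Main

end Fermat.Agent.S36.CuspSeriesW
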