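import Mathlib
import Fermat.Agent.S18.GaussDegree
import Fermat.Agent.S36.CuspModPolyZ
import Fermat.Agent.S36.CuspSeriesW

/-!
# S36, (R-cusp): the polynomial `H` over the function field of level `N q`

For a prime `q = n + 1`, any level `N` and `F' = FF L (N * q)`:

* `exists_Hpoly` : there is a monic `H ∈ F'[T]` of degree `q` whose `q`-expansion (coefficientwise,
  pushed to `ℚ̄((Q))`) is `CuspSeries.Hser n ζ = (T - j/j(Q^{q²})) ∏_{k<n} (T - j/j(ζ^{k+1} Q))`
  and with `H(Y) = 0` for `Y = j / j(Q^{q²}) ∈ FF L (N * q * q)` (coefficients pushed by `α₂`).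
  `H = T^q G(j/T) / G(0)` with `G = Φ_q(j(Q^q), T) / (T - j)`, `Φ_q ∈ ℤ[Y][T]` the modular
  polynomial of `CuspModPolyZ.exists_modPoly_Z`.

Since `coeffMap ι ∘ coe` is injective the `q`-expansion pins `H` down: the polynomials obtained
at two levels `N₁`, `N₂` have the same `q`-expansion coefficients (`eq_of_map_eq_Hser`).

* `exists_Hpoly_all` : the same with the series package of `CuspSeriesW` attached: ONE polynomial
  `P` over `L((Q))`, realised over `FF L (N * q)` for every `N`, equal to `PW.map (toL W)` for a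
  polynomial `PW` with coefficients in `W[[Q]]` reducing to `(T - x^{q²-1}) (T - 1)^n` modulo the
  maximal ideal of `W = A.comap ι`, and with `P(1) = q · V`, `V ∈ 1 + Q W[[Q]]`.
-/

set_option autoImplicit false

noncomputable section

namespace Fermat.Agent.S36.CuspHpoly

open ModularCurve Polynomial Fermat.Agent.S24 Fermat.Agent.S28 Fermat.Agent.S18.Gauss
  Fermat.Agent.S34.CuspEq Fermat.Agent.S36.CuspSeries Fermat.Agent.S36.CuspModPolyZ

local notation "Qb" => AlgebraicClosure ℚ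

/-! ### Generalities -/

section Gen

/-- `evalAt g ∘ (ℤ[X] → K[X]) = (p ↦ p(g))` -/
theorem evalAt_comp_mapInt {K : Type*} [CommRing K] (g : LaurentSeries K) :
    (evalAt g).comp (mapRingHom (Int.castRingHom K)) = evZg g := by
  apply Polynomial.ringHom_ext
  · intro a
    rw [RingHom.comp_apply, coe_mapRingHom, map_C, evZg_C, evalAt, coe_eval₂RingHom, eval₂_C]
    exact map_intCast _ a
  · rw [RingHom.comp_apply, coe_mapRingHom, map_X, evZg_X, evalAt, coe_eval₂RingHom, eval₂_X]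

theorem monic_Hser {K : Type*} [Field K] (n : ℕ) (ζ : Kˣ) : (Hser n ζ).Monic := by
  rw [Hser_eq_prod]
  exact monic_prod_of_monic _ _ fun k _ => monic_X_sub_C _

theorem natDegree_Hser {K : Type*} [Field K] (n : ℕ) (ζ : Kˣ) : (Hser n ζ).natDegree = n + 1 := by
  rw [Hser_eq_prod, natDegree_prod_of_monic _ _ fun k _ => monic_X_sub_C _,
    Finset.sum_congr rfl fun k _ => natDegree_X_sub_C (rootH n ζ k * jS K), Finset.sum_const,
    Finset.card_range, smul_eq_mul, mul_one]

/-- `Y = j / j(Q^{q²})` is a root of `Hser`. -/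
theorem eval_Hser {K : Type*} [Field K] (n : ℕ) (ζ : Kˣ) :
    (Hser n ζ).eval (jS K * (qExpand K ((n + 1) * (n + 1)) (jS K))⁻¹) = 0 := by
  rw [Hser, eval_mul, eval_sub, eval_X, eval_C, xS_eq_inv, map_inv₀, mul_comm (jS K), sub_self,
    zero_mul]

end Gen

/-! ### The function field side -/

variable {L : Type*} [Field L] [Algebra ℚ L]

/-- the `q`-expansion map `FF L N → ℚ̄((Q))` -/
def cQ (ι : L →+* Qb) (N : ℕ) : FF L N →+* LaurentSeries Qb :=
  (coeffMap ι).comp (algebraMap (FF L N) (LaurentSeries L))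

theorem cQ_apply (ι : L →+* Qb) (N : ℕ) (x : FF L N) :
    cQ ι N x = coeffMap ι (x : LaurentSeries L) := rfl

theorem cQ_injective (ι : L →+* Qb) (N : ℕ) : Function.Injective (cQ ι N) :=
  (cQ ι N).injective

theorem cQ_jBC (ι : L →+* Qb) (N : ℕ) [NeZero N] : cQ ι N (jBC L N) = jS Qb := by
  rw [cQ_apply, coe_jBC_eq, ← jS_eq_jqModC, coeffMap_jS]

theorem cQ_alpha (ι : L →+* Qb) (N l : ℕ) [NeZero N] [NeZero l] (x : FF L N) :
    cQ ι (N * l) (heckeAlphaBar L N l x) = cQ ι N x := by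
  rw [cQ_apply, cQ_apply, coe_heckeAlphaBar]

theorem cQ_beta (ι : L →+* Qb) (N l : ℕ) [NeZero N] [NeZero l] (x : FF L N) :
    cQ ι (N * l) (heckeBetaBar L N l x) = qExpand Qb l (cQ ι N x) := by
  rw [cQ_apply, cQ_apply, coe_heckeBetaBar, Fermat.Agent.S28.coeffMap_qExpand]

/-- **The polynomial `H` over `FF L (N * q)`**, `q = n + 1` prime: monic of degree `q`, with
`q`-expansion `Hser n ζ`, and with root `Y = j / j(Q^{q²})` in `FF L (N * q * q)`. -/
theorem exists_Hpoly (ι : L →+* Qb) (n : ℕ) (hn : (n + 1).Prime) (ζ : Qbˣ)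
    (hζ : IsPrimitiveRoot (ζ : Qb) (n + 1)) (N : ℕ) [NeZero N] :
    ∃ H : (FF L (N * (n + 1)))[X], H.Monic ∧ H.natDegree = n + 1 ∧
      (H.map (algebraMap (FF L (N * (n + 1))) (LaurentSeries L))).map (coeffMap ι) = Hser n ζ ∧
      (H.map ((heckeAlphaBar L (N * (n + 1)) (n + 1) :
          FF L (N * (n + 1)) →ₐ[L] FF L (N * (n + 1) * (n + 1))) :
          FF L (N * (n + 1)) →+* FF L (N * (n + 1) * (n + 1)))).eval
        (jBC L (N * (n + 1) * (n + 1)) *
          (heckeBetaBar L (N * (n + 1)) (n + 1) (heckeBetaBar L N (n + 1) (jBC L N)))⁻¹) = 0 := by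
  obtain ⟨ΦZ, hΦZ⟩ := exists_modPoly_Z (n + 1) hn
  have hΦ := hΦZ ζ hζ
  set c : FF L (N * (n + 1)) →+* LaurentSeries Qb := cQ ι (N * (n + 1)) with hc_def
  have hc : Function.Injective c := cQ_injective ι _
  have hcj : c (jBC L (N * (n + 1))) = jS Qb := cQ_jBC ι _
  have hcj' : c (heckeBetaBar L N (n + 1) (jBC L N)) = qExpand Qb (n + 1) (jS Qb) := by
    rw [hc_def, cQ_beta, cQ_jBC]
  -- the modular polynomial over `F'`
  have hcomp : c.comp (eval₂RingHom (Int.castRingHom (FF L (N * (n + 1))))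
      (heckeBetaBar L N (n + 1) (jBC L N))) = evZg (qExpand Qb (n + 1) (jS Qb)) := by
    apply Polynomial.ringHom_ext
    · intro a
      rw [RingHom.comp_apply, coe_eval₂RingHom, eval₂_C, evZg_C]
      exact map_intCast c a
    · rw [RingHom.comp_apply, coe_eval₂RingHom, eval₂_X, evZg_X, hcj']
  have hΦF : (ΦZ.map (eval₂RingHom (Int.castRingHom (FF L (N * (n + 1))))
      (heckeBetaBar L N (n + 1) (jBC L N)))).map c = (X - C (jS Qb)) * Gser n ζ := by
    rw [← rhsΦ_eq_mul_Gser, Polynomial.map_map, hcomp, ← evalAt_comp_mapInt, ← Polynomial.map_map]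
    exact hΦ
  set ΦF : (FF L (N * (n + 1)))[X] := ΦZ.map (eval₂RingHom (Int.castRingHom (FF L (N * (n + 1))))
      (heckeBetaBar L N (n + 1) (jBC L N))) with hΦF_def
  have hroot : ΦF.IsRoot (jBC L (N * (n + 1))) := by
    rw [IsRoot.def]
    apply hc
    rw [map_zero, ← eval₂_at_apply, ← eval_map, hΦF, hcj, eval_mul, eval_sub, eval_X, eval_C,
      sub_self, zero_mul]
  have hG : (X - C (jBC L (N * (n + 1)))) * (ΦF /ₘ (X - C (jBC L (N * (n + 1))))) = ΦF :=
    mul_divByMonic_eq_iff_isRoot.mpr hroot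
  set G : (FF L (N * (n + 1)))[X] := ΦF /ₘ (X - C (jBC L (N * (n + 1)))) with hG_def
  have hGc : G.map c = Gser n ζ := by
    have h1 := congrArg (Polynomial.map c) hG
    rw [Polynomial.map_mul, Polynomial.map_sub, map_X, map_C, hcj, hΦF] at h1
    exact mul_left_cancel₀ (X_sub_C_ne_zero _) h1
  have hmap : (C (G.coeff 0)⁻¹ * reflect (n + 1) (G.comp (C (jBC L (N * (n + 1))) * X))).map c =
      Hser n ζ := by
    rw [Polynomial.map_mul, map_C, map_inv₀, ← reflect_map, Polynomial.map_comp,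
      Polynomial.map_mul, map_C, map_X, hGc, hcj, reflect_comp_Gser, ← coeff_map, hGc, ← mul_assoc,
      ← C_mul, inv_mul_cancel₀ (Gser_coeff_zero_ne_zero n ζ), C_1, one_mul]
  refine ⟨C (G.coeff 0)⁻¹ * reflect (n + 1) (G.comp (C (jBC L (N * (n + 1))) * X)), ?_, ?_, ?_, ?_⟩
  · apply Polynomial.monic_of_injective hc
    rw [hmap]
    exact monic_Hser n ζ
  · rw [← natDegree_map_eq_of_injective hc, hmap, natDegree_Hser]
  · rw [Polynomial.map_map]
    exact hmap
  · apply cQ_injective ι (N * (n + 1) * (n + 1))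
    have hcomp2 : (cQ ι (N * (n + 1) * (n + 1))).comp
        ((heckeAlphaBar L (N * (n + 1)) (n + 1) :
          FF L (N * (n + 1)) →ₐ[L] FF L (N * (n + 1) * (n + 1))) :
          FF L (N * (n + 1)) →+* FF L (N * (n + 1) * (n + 1))) = c := by
      refine RingHom.ext fun x => ?_
      exact cQ_alpha ι (N * (n + 1)) (n + 1) x
    rw [map_zero, eval_map, Polynomial.hom_eval₂, hcomp2, ← eval_map, hmap, map_mul, map_inv₀,
      cQ_jBC, cQ_beta, cQ_beta, cQ_jBC, qExpand_qExpand]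
    exact eval_Hser n ζ

omit [Algebra ℚ L] in
/-- the `q`-expansion determines the polynomial -/
theorem eq_of_map_eq_Hser (ι : L →+* Qb) (n : ℕ) (ζ : Qbˣ) (P P' : (LaurentSeries L)[X])
    (h : P.map (coeffMap ι) = Hser n ζ) (h' : P'.map (coeffMap ι) = Hser n ζ) : P = P' :=
  Polynomial.map_injective _ (coeffMap ι).injective (h.trans h'.symm)

/-- a primitive `q`-th root of unity of `ℚ̄`, as a unit -/
theorem exists_zeta (q : ℕ) (hq : q ≠ 0) : ∃ ζ : Qbˣ, IsPrimitiveRoot (ζ : Qb) q := by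
  have : NeZero ((q : ℕ) : Qb) := ⟨Nat.cast_ne_zero.mpr hq⟩
  obtain ⟨ζ₀, hζ₀⟩ := HasEnoughRootsOfUnity.exists_primitiveRoot Qb q
  exact ⟨Units.mk0 ζ₀ (hζ₀.ne_zero hq), hζ₀⟩

/-- **The polynomial `H` with its series package.**  `q = n + 1` a prime in the maximal ideal of
the valuation ring `A` of `ℚ̄`, `W = A.comap ι`.  There is ONE polynomial `P` over `L((Q))`,
monic of degree `q`, such that
* `P = PW.map (toL W)` with `PW` over `W((Q))` having power series coefficients and reducing to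
  `Htarget κ n = (T - x^{q²-1}) (T - 1)^n` over the residue field;
* `P(1) = q · V` with `V` a power series over `W` with constant term `1`;
* for every level `N`, `P` is the `q`-expansion of a monic `H ∈ FF L (N q)[T]` of degree `q`
  with `H(j / j(Q^{q²})) = 0` in `FF L (N q q)`. -/
theorem exists_Hpoly_all (ι : L →+* Qb) (A : ValuationSubring Qb) (n : ℕ) (hn : (n + 1).Prime)
    (hA : (((n + 1 : ℕ) : ℕ) : Qb) ∈ A.nonunits) :
    ∃ P : (LaurentSeries L)[X], P.Monic ∧ P.natDegree = n + 1 ∧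
      (∃ PW : (LaurentSeries ↥(A.comap ι))[X], PW.map (toL (A.comap ι)) = P ∧
        (∀ (i : ℕ) (m : ℤ), m < 0 → (PW.coeff i).coeff m = 0) ∧
        PW.map (toK (A.comap ι)) = Htarget (IsLocalRing.ResidueField ↥(A.comap ι)) n) ∧
      (∃ V : LaurentSeries ↥(A.comap ι), IsMonicAt V 0 ∧
        P.eval 1 = HahnSeries.C (((n + 1 : ℕ) : ℕ) : L) * toL (A.comap ι) V) ∧
      ∀ (N : ℕ) [NeZero N], ∃ H : (FF L (N * (n + 1)))[X],
        H.map (algebraMap (FF L (N * (n + 1))) (LaurentSeries L)) = P ∧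
        H.Monic ∧ H.natDegree = n + 1 ∧
        (H.map ((heckeAlphaBar L (N * (n + 1)) (n + 1) :
            FF L (N * (n + 1)) →ₐ[L] FF L (N * (n + 1) * (n + 1))) :
            FF L (N * (n + 1)) →+* FF L (N * (n + 1) * (n + 1)))).eval
          (jBC L (N * (n + 1) * (n + 1)) *
            (heckeBetaBar L (N * (n + 1)) (n + 1) (heckeBetaBar L N (n + 1) (jBC L N)))⁻¹) = 0 := by
  obtain ⟨ζ, hζ⟩ := exists_zeta (n + 1) (Nat.succ_ne_zero n)
  obtain ⟨H₁, hH₁m, hH₁d, hH₁s, -⟩ := exists_Hpoly (L := L) ι n hn ζ hζ 1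
  set P : (LaurentSeries L)[X] := H₁.map (algebraMap (FF L (1 * (n + 1))) (LaurentSeries L))
    with hP
  refine ⟨P, hH₁m.map _, ?_, CuspSeriesW.exists_descent ι A n hn ζ hζ hA P hH₁s,
    CuspSeriesW.exists_eval_one ι A n hn ζ hζ P hH₁s, fun N _ => ?_⟩
  · rw [hP, natDegree_map_eq_of_injective (algebraMap (FF L (1 * (n + 1)))
      (LaurentSeries L)).injective, hH₁d]
  · obtain ⟨H, hHm, hHd, hHs, hHr⟩ := exists_Hpoly (L := L) ι n hn ζ hζ N
    exact ⟨H, eq_of_map_eq_Hser ι n ζ _ _ hHs hH₁s, hHm, hHd, hHr⟩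

end Fermat.Agent.S36.CuspHpoly
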