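import Mathlib
import Fermat.Agent.S35.EsCuspInst
import Fermat.Agent.S36.CuspCritAbs
import Fermat.Agent.S36.CuspCritSer
import Fermat.Agent.S36.CuspHpoly
import Fermat.Agent.S36.DegreeDvd

/-!
# S36 (R-cusp): the polynomial `H` of `Y = j/j''` over the local ring at a `C_∞` cusp point

Level `M q` (`q ∤ M`), `W = A.comap ι` unramified (`q` a uniformiser), `B` a carrier of the chart
`W[1/j]` of level `M q`, `𝔫` a maximal ideal containing `ϖ` and `x = 1/j` which lies on the
component `C_∞` (`hC`: every `b` whose `q`-expansion is divisible by `ϖ` lies in `𝔫`).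

* `exists_den_of_good` : **the criterion** — a function of the subfield `L(j, j(q^q))` whose
  `q`-expansion is a `W`-power series lies in `B_𝔫`;
* `exists_cuspPoly` : there are `H, G₁ ∈ B_𝔫[T]`, `H` monic of degree `q`,
  `H = (T - x^(q²-1)) (T - 1)^(q-1) + ϖ G₁`, `G₁(1)` a unit, and `H(j/j'') = 0` in
  `FF L (M q q)`.  This is the input of `TwoPoint` (`c = x^(q²-1)`, `d = 1`, `e = q - 1`).
-/

set_option autoImplicit false
set_option linter.unusedSectionVars false
set_option linter.style.haveILetI false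

noncomputable section

namespace Fermat.Agent.S36.CuspPoly

open Polynomial ModularCurve Fermat.Agent.S18 Fermat.Agent.S18.Gauss Fermat.Agent.S28
  Fermat.Agent.S24 Fermat.Agent.S34.GDescent Fermat.Agent.S37
open Fermat.Agent.S34 Fermat.Agent.S36.CuspSeries Fermat.Agent.S36.CuspCritSer

local notation "Qb" => AlgebraicClosure ℚ

/-! ### Two small lemmas -/

/-- `b(x) ∉ 𝔫` when `x ∈ 𝔫` and `b(0)` is a unit. -/
theorem algebraMap_notMem {W B : Type*} [CommRing W] [CommRing B] [Algebra W[X] B]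
    (𝔫 : Ideal B) (h𝔫 : 𝔫 ≠ ⊤) (hX : algebraMap W[X] B X ∈ 𝔫) (b : W[X])
    (hb : IsUnit (b.coeff 0)) : algebraMap W[X] B b ∉ 𝔫 := by
  intro hmem
  have h1 : algebraMap W[X] B (C (b.coeff 0)) =
      algebraMap W[X] B b - algebraMap W[X] B b.divX * algebraMap W[X] B X := by
    rw [← map_mul, ← map_sub]
    congr 1
    rw [eq_sub_iff_add_eq, add_comm]
    exact Polynomial.divX_mul_X_add b
  have h2 : algebraMap W[X] B (C (b.coeff 0)) ∈ 𝔫 := by
    rw [h1]
    exact 𝔫.sub_mem hmem (𝔫.mul_mem_left _ hX)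
  exact h𝔫 (Ideal.eq_top_of_isUnit_mem _ h2 ((Polynomial.isUnit_C.mpr hb).map _))

/-- a power series with unit constant term has a power series inverse -/
theorem exists_vb_inv {R : Type*} [CommRing R] (V : LaurentSeries R) (hV : VB V 0)
    (hu : IsUnit (V.coeff 0)) : ∃ V' : LaurentSeries R, VB V' 0 ∧ V * V' = 1 := by
  classical
  set v : PowerSeries R := PowerSeries.mk fun n => V.coeff (n : ℤ) with hv
  have hVv : HahnSeries.ofPowerSeries ℤ R v = V := by
    ext k
    by_cases hk : k < 0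
    · rw [ofPowerSeries_coeff_of_neg v hk, hV k hk]
    · obtain ⟨m, rfl⟩ := Int.eq_ofNat_of_zero_le (not_lt.mp hk)
      rw [HahnSeries.ofPowerSeries_apply_coeff, hv, PowerSeries.coeff_mk]
  have hvu : IsUnit v := by
    rw [PowerSeries.isUnit_iff_constantCoeff, ← PowerSeries.coeff_zero_eq_constantCoeff_apply,
      hv, PowerSeries.coeff_mk]
    exact_mod_cast hu
  obtain ⟨v', hv'⟩ := hvu.exists_right_inv
  refine ⟨HahnSeries.ofPowerSeries ℤ R v', fun n hn => ofPowerSeries_coeff_of_neg v' hn, ?_⟩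
  rw [← hVv, ← map_mul, hv', map_one]

/-! ### The criterion -/

section Main

variable (A : ValuationSubring Qb) {L : Type} [Field L] [Algebra ℚ L] (ι : L →+* Qb)
  (M q : ℕ) [NeZero M] [NeZero q]

set_option maxHeartbeats 1600000 in
/-- **The criterion, with the reduction.**  At a cusp point `𝔫` on `C_∞` of level `M q`:
the reduction `ρ : B_𝔫 → κ((q))` with kernel `(ϖ)`, and: a function of level `1 * q` whose
`q`-expansion is a `W`-power series lies in `B_𝔫`. -/
theorem exists_crit (hq : q.Prime) (hqM : ¬ q ∣ M) (S : Finset Qb)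
    (hlev : LevelChange.IsLevel A q S ι)
    (ϖ : ↥(A.comap ι)) (hϖ : Irreducible ϖ)
    [Algebra (↥(A.comap ι))[X] (FF L (M * q))]
    (halg : algebraMap (↥(A.comap ι))[X] (FF L (M * q)) = evFinf (A.comap ι) (M * q))
    (B : Type*) [CommRing B] [Algebra (↥(A.comap ι))[X] B] [Algebra B (FF L (M * q))]
    [IsScalarTower (↥(A.comap ι))[X] B (FF L (M * q))]
    [IsIntegralClosure B (↥(A.comap ι))[X] (FF L (M * q))]
    (𝔫 : Ideal B) [𝔫.IsMaximal]
    (hϖ𝔫 : algebraMap (↥(A.comap ι))[X] B (C ϖ) ∈ 𝔫)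
    (hX𝔫 : algebraMap (↥(A.comap ι))[X] B X ∈ 𝔫)
    (hC : ∀ b : B, ∀ g ∈ contentRing (A.comap ι),
      ((algebraMap B (FF L (M * q)) b : FF L (M * q)) : LaurentSeries L) =
        HahnSeries.C ((ϖ : ↥(A.comap ι)) : L) * g → b ∈ 𝔫) :
    ∃ ρ : Localization.AtPrime 𝔫 →+* LaurentSeries (IsLocalRing.ResidueField ↥(A.comap ι)),
      RingHom.ker ρ = Ideal.span {algebraMap B (Localization.AtPrime 𝔫)
        (algebraMap (↥(A.comap ι))[X] B (C ϖ))} ∧
      (∀ (b : B) (hb : ((algebraMap B (FF L (M * q)) b : FF L (M * q)) : LaurentSeries L) ∈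
          contentRing (A.comap ι)),
        ρ (algebraMap B (Localization.AtPrime 𝔫) b) = red (A.comap ι) ⟨_, hb⟩) ∧
      ∀ f : FF L (M * q), Good (A.comap ι) q (f : LaurentSeries L) →
        ∃ a d : B, d ∉ 𝔫 ∧
          f * algebraMap B (FF L (M * q)) d = algebraMap B (FF L (M * q)) a := by
  classical
  obtain ⟨-, hroots, hdvr, halgc, -, hchar, -, -⟩ := hlev
  haveI := hdvr
  haveI := halgc
  haveI := hchar
  haveI : Fact q.Prime := ⟨hq⟩
  obtain ⟨w, hwα, hwβ⟩ := FrobPartner.exists_atkinLehner_level ι M q hq hqM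
  have hq1 : ¬ q ∣ 1 := fun h => hq.ne_one (Nat.dvd_one.mp h)
  obtain ⟨w₁, hw₁α, hw₁β⟩ := FrobPartner.exists_atkinLehner_level ι 1 q hq hq1
  haveI : IsDomain B := KLocCusp.isDomain_inf (A.comap ι) (M * q) B
  haveI : IsNoetherianRing B := KLocCusp.isNoetherianRing_inf (A.comap ι) (M * q) halg B
  haveI : IsFractionRing B (FF L (M * q)) :=
    KLocCusp.isFractionRing_inf (A.comap ι) (M * q) halg B
  haveI : IsNoetherianRing (Localization.AtPrime 𝔫) :=
    IsLocalization.isNoetherianRing 𝔫.primeCompl _ inferInstance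
  have hinj : Function.Injective (algebraMap B (FF L (M * q))) :=
    IsIntegralClosure.algebraMap_injective B (↥(A.comap ι))[X] (FF L (M * q))
  have hint : ∀ y : B, (evFinf (A.comap ι) (M * q)).IsIntegralElem
      (algebraMap B (FF L (M * q)) y) := fun y =>
    (ChartAct.exists_algebraMap_eq_iff_inf (A.comap ι) (M * q) halg B _).mp ⟨y, rfl⟩
  have hsurj : ∀ x : FF L (M * q), (evFinf (A.comap ι) (M * q)).IsIntegralElem x →
      ∃ b : B, algebraMap B (FF L (M * q)) b = x := fun x hx =>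
    (ChartAct.exists_algebraMap_eq_iff_inf (A.comap ι) (M * q) halg B x).mpr hx
  have hB₁ : ∀ y : B, ((algebraMap B (FF L (M * q)) y : FF L (M * q)) : LaurentSeries L) ∈
      contentRing (A.comap ι) := fun y =>
    CuspRes.mem_contentRing_of_int_inf (A.comap ι) (M * q) (hint y)
  have hB₂ : ∀ y : B, ((w (algebraMap B (FF L (M * q)) y) : FF L (M * q)) : LaurentSeries L) ∈
      contentRing (A.comap ι) := fun y =>
    CuspRes.mem_contentRing_w_of_int_inf (A.comap ι) M q w hwα (hint y)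
  have hφW : ∀ c : ↥(A.comap ι), algebraMap B (FF L (M * q))
      (algebraMap (↥(A.comap ι))[X] B (C c)) = algebraMap L (FF L (M * q)) (c : L) := by
    intro c
    rw [← IsScalarTower.algebraMap_apply, halg, evFinf_C]
  have hXF : algebraMap B (FF L (M * q)) (algebraMap (↥(A.comap ι))[X] B X) =
      (jBC L (M * q))⁻¹ := by
    rw [← IsScalarTower.algebraMap_apply, halg, evFinf_X]
  -- the two reductions and the kernel of the first one on the local ring
  have hspan := CuspRes.span_eq_ker_inf_ker ι (A.comap ι) (M * q) hϖ w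
    (fun x hx₁ hx₂ => FinDich.v3a (A.comap ι) M q hqM w hwα hwβ x hx₁ hx₂)
    (algebraMap B (FF L (M * q))) hinj hint hsurj hB₁ hB₂
    (algebraMap (↥(A.comap ι))[X] B (C ϖ)) (hφW ϖ)
  have hnode := Fermat.Agent.S35.CuspGen.cusp_not_node (A.comap ι) M q w (algebraMap B (FF L (M * q))) hwα hwβ
    hinj hsurj hB₁ hB₂ 𝔫 (algebraMap (↥(A.comap ι))[X] B X) hXF hX𝔫
  have h₁ : RingHom.ker (CuspRes.res (A.comap ι) (M * q) (algebraMap B (FF L (M * q))) hB₁) ≤
      𝔫 := by
    intro b hb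
    rw [RingHom.mem_ker, CuspRes.res_apply (A.comap ι) (M * q) _ hB₁ b (hB₁ b)] at hb
    obtain ⟨g, hg⟩ := (red_eq_zero_iff (A.comap ι) hϖ _).mp hb
    exact hC b g g.2 hg
  have hker := CuspAbs.ker_locRed _ 𝔫 _ (algebraMap (↥(A.comap ι))[X] B (C ϖ)) hspan h₁
    (fun h => hnode ⟨h₁, h⟩)
  -- coefficient facts
  have hcoeC : ∀ c : ↥(A.comap ι), ((algebraMap B (FF L (M * q))
      (algebraMap (↥(A.comap ι))[X] B (C c)) : FF L (M * q)) : LaurentSeries L) =
      HahnSeries.C ((c : ↥(A.comap ι)) : L) := by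
    intro c
    rw [hφW c]
    show algebraMap L (LaurentSeries L) (c : L) = _
    rw [Content.algebraMap_eq_C_of_field]
  have hcoeP : ∀ p : (↥(A.comap ι))[X], ((algebraMap B (FF L (M * q))
      (algebraMap (↥(A.comap ι))[X] B p) : FF L (M * q)) : LaurentSeries L) =
      evG (A.comap ι) (xS L) p := by
    intro p
    rw [← IsScalarTower.algebraMap_apply, halg, xS_eq_jInv]
    rfl
  have hπ0 : algebraMap (↥(A.comap ι))[X] B (C ϖ) ≠ 0 := by
    intro h0
    have h1 := hcoeC ϖ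
    rw [h0, map_zero] at h1
    exact C_unif_ne_zero (A.comap ι) hϖ h1.symm
  -- the subring of functions with integral expansion
  refine ⟨CuspAbs.locRed _ 𝔫 h₁, hker.symm, fun b hb => by
    rw [CuspAbs.locRed_algebraMap]
    exact CuspRes.res_apply (A.comap ι) (M * q) _ hB₁ b hb, fun f hf => ?_⟩
  refine CuspCritAbs.exists_den_of_approx (algebraMap B (FF L (M * q))) hinj 𝔫
    ((contentRing (A.comap ι)).comap (algebraMap (FF L (M * q)) (LaurentSeries L)))
    (algebraMap (↥(A.comap ι))[X] B (C ϖ)) hϖ𝔫 hπ0 ?_ (fun b => hB₁ b) f ?_ ?_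
  · -- `hO`
    intro c g hg hcg
    rw [hker, RingHom.mem_ker, CuspAbs.locRed_algebraMap,
      CuspRes.res_apply (A.comap ι) (M * q) _ hB₁ c (hB₁ c)]
    refine (red_eq_zero_iff (A.comap ι) hϖ _).mpr ⟨⟨(g : LaurentSeries L), hg⟩, ?_⟩
    show ((algebraMap B (FF L (M * q)) c : FF L (M * q)) : LaurentSeries L) =
      HahnSeries.C ((ϖ : ↥(A.comap ι)) : L) * (g : LaurentSeries L)
    rw [hcg, ← hcoeC ϖ]
    rfl
  · -- `hfrac`
    obtain ⟨⟨a, s⟩, hs⟩ := IsLocalization.surj (nonZeroDivisors B) f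
    exact ⟨a, s, nonZeroDivisors.ne_zero s.2, hs⟩
  · -- `happ`
    intro n
    obtain ⟨a, b, hb, h, hh, e⟩ := exists_approx (A.comap ι) q
      (w₁ : FF L (1 * q) →ₐ[L] FF L (1 * q)) hq1 hϖ hw₁α hw₁β hf n
    have hhM : h ∈ laurentBaseChange L (modularFunctionFieldFull (M * q)) :=
      Fermat.Agent.S36.DegreeDvd.le_of_dvd L (Nat.mul_dvd_mul (one_dvd M) (dvd_refl q)) hh.1
    obtain ⟨-, y, -, hy⟩ := hh
    refine ⟨algebraMap (↥(A.comap ι))[X] B a, algebraMap (↥(A.comap ι))[X] B b,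
      algebraMap_notMem 𝔫 (Ideal.IsMaximal.ne_top inferInstance) hX𝔫 b hb, ⟨h, hhM⟩, ?_, ?_⟩
    · show h ∈ contentRing (A.comap ι)
      rw [← hy]
      exact toL_mem_contentRing (A.comap ι) y
    · apply Subtype.ext
      show (f : LaurentSeries L) * ((algebraMap B (FF L (M * q))
          (algebraMap (↥(A.comap ι))[X] B b) : FF L (M * q)) : LaurentSeries L) =
        ((algebraMap B (FF L (M * q)) (algebraMap (↥(A.comap ι))[X] B a) : FF L (M * q)) :
          LaurentSeries L) + ((algebraMap B (FF L (M * q))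
            (algebraMap (↥(A.comap ι))[X] B (C ϖ)) : FF L (M * q)) : LaurentSeries L) ^ n * h
      rw [hcoeP, hcoeP, hcoeC]
      exact e

set_option maxHeartbeats 1600000 in
/-- **The polynomial `H` at a `C_∞` cusp point of level `M q`** (the input of `TwoPoint`):
`H` monic of degree `q` over `B_𝔫`, `H = (T - x^(q²-1)) (T - 1)^(q-1) + ϖ G₁`, `G₁(1)` a unit,
`H(j/j'') = 0` in `FF L (M q q)`. -/
theorem exists_cuspPoly (hq : q.Prime) (hqM : ¬ q ∣ M) (S : Finset Qb)
    (hlev : LevelChange.IsLevel A q S ι)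
    (hunr : Irreducible ((q : ℕ) : ↥(A.comap ι)))
    (ϖ : ↥(A.comap ι)) (hϖ : Irreducible ϖ)
    [Algebra (↥(A.comap ι))[X] (FF L (M * q))]
    (halg : algebraMap (↥(A.comap ι))[X] (FF L (M * q)) = evFinf (A.comap ι) (M * q))
    (B : Type*) [CommRing B] [Algebra (↥(A.comap ι))[X] B] [Algebra B (FF L (M * q))]
    [IsScalarTower (↥(A.comap ι))[X] B (FF L (M * q))]
    [IsIntegralClosure B (↥(A.comap ι))[X] (FF L (M * q))]
    (𝔫 : Ideal B) [𝔫.IsMaximal]
    (hϖ𝔫 : algebraMap (↥(A.comap ι))[X] B (C ϖ) ∈ 𝔫)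
    (hX𝔫 : algebraMap (↥(A.comap ι))[X] B X ∈ 𝔫)
    (hC : ∀ b : B, ∀ g ∈ contentRing (A.comap ι),
      ((algebraMap B (FF L (M * q)) b : FF L (M * q)) : LaurentSeries L) =
        HahnSeries.C ((ϖ : ↥(A.comap ι)) : L) * g → b ∈ 𝔫) :
    ∃ H G₁ : (Localization.AtPrime 𝔫)[X], H.Monic ∧ H.natDegree = q ∧
      H = (X - C (algebraMap B (Localization.AtPrime 𝔫)
              (algebraMap (↥(A.comap ι))[X] B X) ^ (q * q - 1))) * (X - C 1) ^ (q - 1) +
          C (algebraMap B (Localization.AtPrime 𝔫)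
              (algebraMap (↥(A.comap ι))[X] B (C ϖ))) * G₁ ∧
      IsUnit (G₁.eval 1) ∧
      ∀ ψ : Localization.AtPrime 𝔫 →+* FF L (M * q),
        (∀ b : B, ψ (algebraMap B (Localization.AtPrime 𝔫) b) = algebraMap B (FF L (M * q)) b) →
        (H.map ψ).eval₂ ((heckeAlphaBar L (M * q) q : FF L (M * q) →ₐ[L] FF L (M * q * q)) :
            FF L (M * q) →+* FF L (M * q * q))
          (jBC L (M * q * q) *
            (heckeBetaBar L (M * q) q (heckeBetaBar L M q (jBC L M)))⁻¹) = 0 := by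
  classical
  obtain ⟨n, rfl⟩ : ∃ n, q = n + 1 := ⟨q - 1, (Nat.succ_pred_eq_of_pos hq.pos).symm⟩
  obtain ⟨ρ, hρker, hρ, crit⟩ := exists_crit A ι M (n + 1) hq hqM S hlev ϖ hϖ halg B 𝔫 hϖ𝔫 hX𝔫 hC
  obtain ⟨-, -, hdvr, halgc, -, hchar, hqnon, -⟩ := hlev
  haveI := hdvr
  haveI := halgc
  haveI := hchar
  haveI : Fact (n + 1).Prime := ⟨hq⟩
  have hn0 : n ≠ 0 := fun h0 => hq.ne_one (by rw [h0])
  have hA : (((n + 1 : ℕ) : ℕ) : Qb) ∈ A.nonunits := by
    have h := (Fermat.Agent.S36.CuspSeriesW.mem_nonunits_comap' A ι (((n + 1 : ℕ) : ℕ) : L)).mp hqnon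
    rwa [map_natCast] at h
  obtain ⟨P, hPm, hPd, ⟨PW, hPW, hPWvb, hPWK⟩, ⟨V, hV, hPV⟩, hH⟩ :=
    Fermat.Agent.S36.CuspHpoly.exists_Hpoly_all (L := L) ι A n hq hA
  obtain ⟨H₁, hH₁P, -, -, -⟩ := hH 1
  obtain ⟨HM, hHMP, hHMm, hHMd, hHMY⟩ := hH M
  -- the carrier
  haveI : IsDomain B := KLocCusp.isDomain_inf (A.comap ι) (M * (n + 1)) B
  have hinj : Function.Injective (algebraMap B (FF L (M * (n + 1)))) :=
    IsIntegralClosure.algebraMap_injective B (↥(A.comap ι))[X] (FF L (M * (n + 1)))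
  have hinjR : Function.Injective (algebraMap B (Localization.AtPrime 𝔫)) :=
    IsLocalization.injective (Localization.AtPrime 𝔫) 𝔫.primeCompl_le_nonZeroDivisors
  have hint : ∀ y : B, (evFinf (A.comap ι) (M * (n + 1))).IsIntegralElem
      (algebraMap B (FF L (M * (n + 1))) y) := fun y =>
    (ChartAct.exists_algebraMap_eq_iff_inf (A.comap ι) (M * (n + 1)) halg B _).mp ⟨y, rfl⟩
  have hB₁ : ∀ y : B, ((algebraMap B (FF L (M * (n + 1))) y : FF L (M * (n + 1))) :
      LaurentSeries L) ∈ contentRing (A.comap ι) := fun y =>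
    CuspRes.mem_contentRing_of_int_inf (A.comap ι) (M * (n + 1)) (hint y)
  have hφW : ∀ c : ↥(A.comap ι), algebraMap B (FF L (M * (n + 1)))
      (algebraMap (↥(A.comap ι))[X] B (C c)) = algebraMap L (FF L (M * (n + 1))) (c : L) := by
    intro c
    rw [← IsScalarTower.algebraMap_apply, halg, evFinf_C]
  have hXF : algebraMap B (FF L (M * (n + 1))) (algebraMap (↥(A.comap ι))[X] B X) =
      (jBC L (M * (n + 1)))⁻¹ := by
    rw [← IsScalarTower.algebraMap_apply, halg, evFinf_X]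
  have hcoeC : ∀ c : ↥(A.comap ι), ((algebraMap B (FF L (M * (n + 1)))
      (algebraMap (↥(A.comap ι))[X] B (C c)) : FF L (M * (n + 1))) : LaurentSeries L) =
      HahnSeries.C ((c : ↥(A.comap ι)) : L) := by
    intro c
    rw [hφW c]
    show algebraMap L (LaurentSeries L) (c : L) = _
    rw [Content.algebraMap_eq_C_of_field]
  -- the canonical map `ψ₀ : B_𝔫 → F'`
  have hunits : ∀ s : 𝔫.primeCompl, IsUnit (algebraMap B (FF L (M * (n + 1))) (s : B)) :=
    fun s => IsUnit.mk0 _ fun h0 => s.2 (by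
      have h1 : (s : B) = 0 := hinj (h0.trans (map_zero _).symm)
      rw [h1]
      exact 𝔫.zero_mem)
  set ψ₀ : Localization.AtPrime 𝔫 →+* FF L (M * (n + 1)) := IsLocalization.lift hunits
    with hψ₀def
  have hψ₀ : ∀ b : B, ψ₀ (algebraMap B (Localization.AtPrime 𝔫) b) =
      algebraMap B (FF L (M * (n + 1))) b := fun b => IsLocalization.lift_eq hunits b
  have hψ₀inj : Function.Injective ψ₀ := by
    rw [hψ₀def, IsLocalization.lift_injective_iff]
    intro x y
    exact ⟨fun h => by rw [hinjR h], fun h => by rw [hinj h]⟩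
  have hmk : ∀ (z : FF L (M * (n + 1))) (a d : B) (hd : d ∉ 𝔫),
      z * algebraMap B (FF L (M * (n + 1))) d = algebraMap B (FF L (M * (n + 1))) a →
      ψ₀ (IsLocalization.mk' (Localization.AtPrime 𝔫) a (⟨d, hd⟩ : 𝔫.primeCompl)) = z := by
    intro z a d hd e
    have h1 : ψ₀ (IsLocalization.mk' (Localization.AtPrime 𝔫) a (⟨d, hd⟩ : 𝔫.primeCompl)) *
        algebraMap B (FF L (M * (n + 1))) d = algebraMap B (FF L (M * (n + 1))) a := by
      rw [← hψ₀ d, ← map_mul, ← hψ₀ a]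
      congr 1
      exact IsLocalization.mk'_spec _ a (⟨d, hd⟩ : 𝔫.primeCompl)
    have hd0 : algebraMap B (FF L (M * (n + 1))) d ≠ 0 :=
      (hunits ⟨d, hd⟩).ne_zero
    exact mul_right_cancel₀ hd0 (h1.trans e.symm)
  -- `ρ` computes the reduction of the expansion
  have hρψ : ∀ (r : Localization.AtPrime 𝔫)
      (hz : ((ψ₀ r : FF L (M * (n + 1))) : LaurentSeries L) ∈ contentRing (A.comap ι)),
      ρ r = red (A.comap ι) ⟨_, hz⟩ := by
    intro r hz
    obtain ⟨a, d, rfl⟩ := IsLocalization.exists_mk'_eq 𝔫.primeCompl r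
    have hspec : IsLocalization.mk' (Localization.AtPrime 𝔫) a d *
        algebraMap B (Localization.AtPrime 𝔫) (d : B) =
        algebraMap B (Localization.AtPrime 𝔫) a := IsLocalization.mk'_spec _ a d
    have h1 : ρ (IsLocalization.mk' (Localization.AtPrime 𝔫) a d) *
        red (A.comap ι) ⟨_, hB₁ (d : B)⟩ = red (A.comap ι) ⟨_, hB₁ a⟩ := by
      rw [← hρ (d : B) (hB₁ _), ← map_mul, hspec, hρ a (hB₁ a)]
    have h2 : ((algebraMap B (FF L (M * (n + 1))) a : FF L (M * (n + 1))) : LaurentSeries L) =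
        ((ψ₀ (IsLocalization.mk' (Localization.AtPrime 𝔫) a d) : FF L (M * (n + 1))) :
          LaurentSeries L) *
        ((algebraMap B (FF L (M * (n + 1))) (d : B) : FF L (M * (n + 1))) : LaurentSeries L) := by
      rw [← hψ₀ a, ← hspec, map_mul, hψ₀]
      rfl
    have h3 := CuspRes.red_mul_eq (A.comap ι) hz (hB₁ (d : B)) (hB₁ a) h2
    have hd0 : red (A.comap ι) ⟨_, hB₁ (d : B)⟩ ≠ 0 := by
      rw [← hρ (d : B) (hB₁ _)]
      exact ((IsLocalization.map_units (Localization.AtPrime 𝔫) d).map ρ).ne_zero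
    exact mul_right_cancel₀ hd0 (h1.trans h3)
  -- the coefficients of `HM`
  have hcoe : ∀ k, ((HM.coeff k : FF L (M * (n + 1))) : LaurentSeries L) = P.coeff k := by
    intro k
    rw [← hHMP, coeff_map]
    rfl
  have hcoe₁ : ∀ k, ((H₁.coeff k : FF L (1 * (n + 1))) : LaurentSeries L) = P.coeff k := by
    intro k
    rw [← hH₁P, coeff_map]
    rfl
  have hcoeW : ∀ k, P.coeff k = toL (A.comap ι) (PW.coeff k) := by
    intro k
    rw [← hPW, coeff_map]
  have hgood : ∀ k, Good (A.comap ι) (n + 1) ((HM.coeff k : FF L (M * (n + 1))) :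
      LaurentSeries L) := by
    intro k
    refine ⟨?_, PW.coeff k, hPWvb k, ?_⟩
    · rw [hcoe k, ← hcoe₁ k]
      exact (H₁.coeff k).2
    · rw [hcoe k, hcoeW k]
  have hlift : HM ∈ Polynomial.lifts ψ₀ := by
    rw [Polynomial.lifts_iff_coeff_lifts]
    intro k
    obtain ⟨a, d, hd, e⟩ := crit (HM.coeff k) (hgood k)
    exact ⟨_, hmk _ a d hd e⟩
  obtain ⟨H, hHmap, hHdeg, hHmonic⟩ := Polynomial.lifts_and_natDegree_eq_and_monic hlift hHMm
  have hHcoeff : ∀ k, ψ₀ (H.coeff k) = HM.coeff k := by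
    intro k
    rw [← hHmap, coeff_map]
  -- reduction of `H`
  have hmapH : H.map ρ = Htarget (IsLocalRing.ResidueField ↥(A.comap ι)) n := by
    ext k : 1
    rw [coeff_map, ← hPWK, coeff_map]
    have hz : ((ψ₀ (H.coeff k) : FF L (M * (n + 1))) : LaurentSeries L) ∈
        contentRing (A.comap ι) := by
      rw [hHcoeff k, hcoe k, hcoeW k]
      exact toL_mem_contentRing (A.comap ι) _
    rw [hρψ (H.coeff k) hz, ← red_toL (A.comap ι) (PW.coeff k)]
    exact CuspRes.red_congr (A.comap ι) _ _ (by rw [hHcoeff k, hcoe k, hcoeW k])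
  -- reduction of the target
  have hρx : ρ (algebraMap B (Localization.AtPrime 𝔫) (algebraMap (↥(A.comap ι))[X] B X)) =
      xS (IsLocalRing.ResidueField ↥(A.comap ι)) := by
    rw [hρ _ (hB₁ _), xS_eq_inv, jS_eq_jqModC, ← red_jInv (A.comap ι)]
    refine CuspRes.red_congr (A.comap ι) _ _ ?_
    rw [hXF]
    show ((jBC L (M * (n + 1)) : FF L (M * (n + 1))) : LaurentSeries L)⁻¹ = _
    rw [coe_jBC_eq]
  have hmapT : ((X - C (algebraMap B (Localization.AtPrime 𝔫)
        (algebraMap (↥(A.comap ι))[X] B X) ^ ((n + 1) * (n + 1) - 1))) *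
        (X - C 1) ^ (n + 1 - 1) : (Localization.AtPrime 𝔫)[X]).map ρ =
      Htarget (IsLocalRing.ResidueField ↥(A.comap ι)) n := by
    rw [Polynomial.map_mul, Polynomial.map_pow, Polynomial.map_sub, Polynomial.map_sub,
      Polynomial.map_X, Polynomial.map_C, Polynomial.map_C, map_pow, hρx, map_one,
      Nat.add_sub_cancel, Htarget, map_one]
  -- the quotient `G₁`
  have hdvd : ∀ k, algebraMap B (Localization.AtPrime 𝔫) (algebraMap (↥(A.comap ι))[X] B (C ϖ)) ∣
      (H - (X - C (algebraMap B (Localization.AtPrime 𝔫)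
        (algebraMap (↥(A.comap ι))[X] B X) ^ ((n + 1) * (n + 1) - 1))) *
        (X - C 1) ^ (n + 1 - 1)).coeff k := by
    intro k
    rw [← Ideal.mem_span_singleton, ← hρker, RingHom.mem_ker, ← coeff_map, Polynomial.map_sub,
      hmapH, hmapT, sub_self, coeff_zero]
  obtain ⟨G₁, hG₁⟩ := (Polynomial.C_dvd_iff_dvd_coeff _ _).mpr hdvd
  have hHeq : H = (X - C (algebraMap B (Localization.AtPrime 𝔫)
        (algebraMap (↥(A.comap ι))[X] B X) ^ ((n + 1) * (n + 1) - 1))) *
        (X - C 1) ^ (n + 1 - 1) +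
      C (algebraMap B (Localization.AtPrime 𝔫) (algebraMap (↥(A.comap ι))[X] B (C ϖ))) * G₁ := by
    rw [← hG₁]
    ring
  refine ⟨H, G₁, hHmonic, hHdeg.trans hHMd, hHeq, ?_, ?_⟩
  · -- `G₁(1)` is a unit
    obtain ⟨u, hu⟩ := IsDiscreteValuationRing.associated_of_irreducible _ hϖ hunr
    have heval : H.eval 1 = algebraMap B (Localization.AtPrime 𝔫)
        (algebraMap (↥(A.comap ι))[X] B (C ϖ)) * G₁.eval 1 := by
      rw [hHeq, eval_add, eval_mul, eval_mul, eval_pow, eval_sub, eval_sub, eval_X, eval_C,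
        eval_C, eval_C, sub_self, zero_pow (by rw [Nat.add_sub_cancel]; exact hn0), mul_zero,
        zero_add]
    -- the expansion of `ψ₀ (G₁(1))`
    have h1 : ((ψ₀ (H.eval 1) : FF L (M * (n + 1))) : LaurentSeries L) = P.eval 1 := by
      rw [← Polynomial.eval_one_map, hHmap, ← hHMP, Polynomial.eval_one_map]
      rfl
    have hqL : (HahnSeries.C ((((n + 1 : ℕ) : ℕ) : L)) : LaurentSeries L) =
        HahnSeries.C ((ϖ : ↥(A.comap ι)) : L) *
          HahnSeries.C ((u : ↥(A.comap ι)) : L) := by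
      rw [← map_mul]
      congr 1
      exact (congrArg Subtype.val hu).symm
    have hϖL : (HahnSeries.C ((ϖ : ↥(A.comap ι)) : L) : LaurentSeries L) ≠ 0 :=
      C_unif_ne_zero (A.comap ι) hϖ
    set Vu : LaurentSeries ↥(A.comap ι) :=
      HahnSeries.C (u : ↥(A.comap ι)) * V with hVu
    have hη : ((ψ₀ (G₁.eval 1) : FF L (M * (n + 1))) : LaurentSeries L) =
        toL (A.comap ι) Vu := by
      have h3 : HahnSeries.C ((ϖ : ↥(A.comap ι)) : L) *
          ((ψ₀ (G₁.eval 1) : FF L (M * (n + 1))) : LaurentSeries L) =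
          HahnSeries.C ((ϖ : ↥(A.comap ι)) : L) * toL (A.comap ι) Vu := by
        rw [hVu, map_mul, toL_C, ← mul_assoc, ← hqL, ← hPV, ← h1, heval, map_mul, hψ₀,
          ← hcoeC ϖ]
        rfl
      exact mul_left_cancel₀ hϖL h3
    have hVuvb : VB Vu 0 := by
      have h := (vb_C (u : ↥(A.comap ι))).mul (show VB V 0 from hV.2)
      rwa [add_zero] at h
    have hVuunit : IsUnit (Vu.coeff 0) := by
      rw [hVu, C_mul_coeff, hV.1, mul_one]
      exact u.isUnit
    obtain ⟨V', hV'vb, hV'⟩ := exists_vb_inv Vu hVuvb hVuunit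
    have hVL : toL (A.comap ι) Vu * toL (A.comap ι) V' = 1 := by
      rw [← map_mul, hV', map_one]
    have hη0 : ψ₀ (G₁.eval 1) ≠ 0 := by
      intro h0
      rw [h0] at hη
      have : toL (A.comap ι) Vu = 0 := hη.symm
      rw [this, zero_mul] at hVL
      exact zero_ne_one hVL
    -- `(ψ₀ (G₁(1)))⁻¹` is good
    have hCmem : (HahnSeries.C ((ϖ : ↥(A.comap ι)) : L) : LaurentSeries L) ∈
        laurentBaseChange L (modularFunctionFieldFull (1 * (n + 1))) := by
      rw [← Content.algebraMap_eq_C_of_field]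
      exact IntermediateField.algebraMap_mem _ _
    have hP1 : P.eval 1 ∈ laurentBaseChange L (modularFunctionFieldFull (1 * (n + 1))) := by
      have : P.eval 1 = ((H₁.eval 1 : FF L (1 * (n + 1))) : LaurentSeries L) := by
        rw [← hH₁P, Polynomial.eval_one_map]
        rfl
      rw [this]
      exact (H₁.eval 1).2
    have hηK : ((ψ₀ (G₁.eval 1) : FF L (M * (n + 1))) : LaurentSeries L) ∈
        laurentBaseChange L (modularFunctionFieldFull (1 * (n + 1))) := by
      have h3 : ((ψ₀ (G₁.eval 1) : FF L (M * (n + 1))) : LaurentSeries L) =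
          (HahnSeries.C ((ϖ : ↥(A.comap ι)) : L))⁻¹ * P.eval 1 := by
        rw [← h1, heval, map_mul, hψ₀]
        have h4 : ((algebraMap B (FF L (M * (n + 1))) (algebraMap (↥(A.comap ι))[X] B (C ϖ)) *
            ψ₀ (G₁.eval 1) : FF L (M * (n + 1))) : LaurentSeries L) =
            HahnSeries.C ((ϖ : ↥(A.comap ι)) : L) *
              ((ψ₀ (G₁.eval 1) : FF L (M * (n + 1))) : LaurentSeries L) := by
          rw [← hcoeC ϖ]
          rfl
        rw [h4, ← mul_assoc, inv_mul_cancel₀ hϖL, one_mul]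
      rw [h3]
      exact mul_mem (inv_mem hCmem) hP1
    have hinvcoe : (((ψ₀ (G₁.eval 1))⁻¹ : FF L (M * (n + 1))) : LaurentSeries L) =
        toL (A.comap ι) V' := by
      have h3 : (((ψ₀ (G₁.eval 1))⁻¹ : FF L (M * (n + 1))) : LaurentSeries L) =
          ((ψ₀ (G₁.eval 1) : FF L (M * (n + 1))) : LaurentSeries L)⁻¹ := rfl
      rw [h3, hη]
      exact (eq_inv_of_mul_eq_one_right hVL).symm
    have hgoodinv : Good (A.comap ι) (n + 1)
        (((ψ₀ (G₁.eval 1))⁻¹ : FF L (M * (n + 1))) : LaurentSeries L) := by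
      refine ⟨?_, V', hV'vb, hinvcoe.symm⟩
      have h3 : (((ψ₀ (G₁.eval 1))⁻¹ : FF L (M * (n + 1))) : LaurentSeries L) =
          ((ψ₀ (G₁.eval 1) : FF L (M * (n + 1))) : LaurentSeries L)⁻¹ := rfl
      rw [h3]
      exact inv_mem hηK
    obtain ⟨a, d, hd, e⟩ := crit _ hgoodinv
    have h5 := hmk _ a d hd e
    refine IsUnit.of_mul_eq_one
      (IsLocalization.mk' (Localization.AtPrime 𝔫) a (⟨d, hd⟩ : 𝔫.primeCompl)) ?_
    apply hψ₀inj
    rw [map_mul, h5, map_one, mul_inv_cancel₀ hη0]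
  · -- `H(Y) = 0`
    intro ψ hψ
    have hψeq : ψ = ψ₀ := by
      refine IsLocalization.ringHom_ext 𝔫.primeCompl (RingHom.ext fun b => ?_)
      rw [RingHom.comp_apply, RingHom.comp_apply, hψ, hψ₀]
    rw [hψeq, hHmap, ← Polynomial.eval_map]
    exact hHMY

end Main

end Fermat.Agent.S36.CuspPoly
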