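import Mathlib
import Fermat.Agent.S36.CuspPoly

/-!
# S36 (R-cusp): `CuspPoly.exists_cuspPoly` with the uniformiser `q` (contract shape #326)

The same statement as `CuspPoly.exists_cuspPoly`, specialised to the uniformiser `ϖ = q` of the
unramified `W = A.comap ι`, with the root condition in the form
`(H.map (α₂.comp ψ)).eval (j/j'') = 0`.
-/

set_option autoImplicit false
set_option linter.unusedSectionVars false
set_option linter.style.haveILetI false

noncomputable section

namespace Fermat.Agent.S36.CuspPolyQ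

open Polynomial ModularCurve Fermat.Agent.S18 Fermat.Agent.S18.Gauss
  Fermat.Agent.S24 Fermat.Agent.S34.GDescent Fermat.Agent.S37
open Fermat.Agent.S34

local notation "Qb" => AlgebraicClosure ℚ

variable (A : ValuationSubring Qb) {L : Type} [Field L] [Algebra ℚ L] (ι : L →+* Qb)
  (M q : ℕ) [NeZero M] [NeZero q]

set_option maxHeartbeats 1600000 in
/-- **The polynomial `H` at a `C_∞` cusp point of level `M q`**, uniformiser `q`. -/
theorem exists_cuspPoly (hq : q.Prime) (hqM : ¬ q ∣ M) (S : Finset Qb)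
    (hlev : LevelChange.IsLevel A q S ι)
    (hunr : Irreducible ((q : ℕ) : ↥(A.comap ι)))
    [Algebra (↥(A.comap ι))[X] (FF L (M * q))]
    (halg : algebraMap (↥(A.comap ι))[X] (FF L (M * q)) = evFinf (A.comap ι) (M * q))
    (B : Type*) [CommRing B] [Algebra (↥(A.comap ι))[X] B] [Algebra B (FF L (M * q))]
    [IsScalarTower (↥(A.comap ι))[X] B (FF L (M * q))]
    [IsIntegralClosure B (↥(A.comap ι))[X] (FF L (M * q))]
    (𝔫 : Ideal B) [𝔫.IsMaximal]
    (hq𝔫 : algebraMap (↥(A.comap ι))[X] B (C ((q : ℕ) : ↥(A.comap ι))) ∈ 𝔫)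
    (hX𝔫 : algebraMap (↥(A.comap ι))[X] B X ∈ 𝔫)
    (hC : ∀ b : B, ∀ g ∈ contentRing (A.comap ι),
      ((algebraMap B (FF L (M * q)) b : FF L (M * q)) : LaurentSeries L) =
        HahnSeries.C ((q : ℕ) : L) * g → b ∈ 𝔫) :
    ∃ H G₁ : (Localization.AtPrime 𝔫)[X], H.Monic ∧ H.natDegree = q ∧
      H = (X - C (algebraMap B (Localization.AtPrime 𝔫)
              (algebraMap (↥(A.comap ι))[X] B X) ^ (q * q - 1))) * (X - C 1) ^ (q - 1) +
          C (algebraMap B (Localization.AtPrime 𝔫)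
              (algebraMap (↥(A.comap ι))[X] B (C ((q : ℕ) : ↥(A.comap ι))))) * G₁ ∧
      IsUnit (G₁.eval 1) ∧
      ∀ ψ : Localization.AtPrime 𝔫 →+* FF L (M * q),
        (∀ b : B, ψ (algebraMap B (Localization.AtPrime 𝔫) b) = algebraMap B (FF L (M * q)) b) →
        (H.map (((heckeAlphaBar L (M * q) q : FF L (M * q) →ₐ[L] FF L (M * q * q)) :
            FF L (M * q) →+* FF L (M * q * q)).comp ψ)).eval
          (jBC L (M * q * q) *
            (heckeBetaBar L (M * q) q (heckeBetaBar L M q (jBC L M)))⁻¹) = 0 := by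
  obtain ⟨H, G₁, hm, hd, hH, hu, hroot⟩ := Fermat.Agent.S36.CuspPoly.exists_cuspPoly A ι M q hq
    hqM S hlev hunr ((q : ℕ) : ↥(A.comap ι)) hunr halg B 𝔫 hq𝔫 hX𝔫 hC
  refine ⟨H, G₁, hm, hd, hH, hu, fun ψ hψ => ?_⟩
  rw [Polynomial.eval_map, ← Polynomial.eval₂_map]
  exact hroot ψ hψ

end Fermat.Agent.S36.CuspPolyQ
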