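/-
S36 (wave 8), package (HLOC), K6 support: fibres of an INTEGRAL ring map into a NOETHERIAN ring
over maximal ideals are finite and consist of maximal ideals.  (No module-finiteness needed.)

* `isMaximal_of_comap` : a prime lying over a maximal ideal along an integral map is maximal.
* `finite_primes_over` : `{𝔫 prime | 𝔫.comap ψ = 𝔪'}` is finite (`𝔪'` maximal, `ψ` integral, target
  Noetherian): these primes are minimal over `𝔪'.map ψ`.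
* `finite_fibre_closure`, `isMaximal_fibre_closure` : for a finite set `T` of maximal ideals of `B`,
  the set of primes with the same contraction as some member of `T` is finite and consists of
  maximal ideals.
-/
import Mathlib

set_option autoImplicit false
set_option linter.style.haveILetI false

namespace Fermat.Agent.S36.FibreFinite

variable {B' B : Type*} [CommRing B'] [CommRing B]

/-- a prime lying over a maximal ideal along an integral map is maximal -/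
theorem isMaximal_of_comap (ψ : B' →+* B) (hψ : ψ.IsIntegral) (𝔫 : Ideal B) [𝔫.IsPrime]
    (h : (𝔫.comap ψ).IsMaximal) : 𝔫.IsMaximal := by
  letI : Algebra B' B := ψ.toAlgebra
  haveI : Algebra.IsIntegral B' B := ⟨hψ⟩
  exact Ideal.isMaximal_of_isIntegral_of_isMaximal_comap (R := B') 𝔫 h

/-- the contraction of a maximal ideal along an integral map is maximal -/
theorem comap_isMaximal (ψ : B' →+* B) (hψ : ψ.IsIntegral) (𝔫 : Ideal B) [𝔫.IsMaximal] :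
    (𝔫.comap ψ).IsMaximal := by
  letI : Algebra B' B := ψ.toAlgebra
  haveI : Algebra.IsIntegral B' B := ⟨hψ⟩
  exact Ideal.isMaximal_comap_of_isIntegral_of_isMaximal (R := B') 𝔫

/-- **Finitely many primes over a maximal ideal** along an integral map into a Noetherian
ring. -/
theorem finite_primes_over [IsNoetherianRing B] (ψ : B' →+* B) (hψ : ψ.IsIntegral)
    (𝔪' : Ideal B') [h𝔪' : 𝔪'.IsMaximal] :
    {𝔫 : Ideal B | 𝔫.IsPrime ∧ 𝔫.comap ψ = 𝔪'}.Finite := by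
  refine (Ideal.finite_minimalPrimes_of_isNoetherianRing B (𝔪'.map ψ)).subset ?_
  rintro 𝔫 ⟨h𝔫, hc⟩
  refine ⟨⟨h𝔫, Ideal.map_le_iff_le_comap.mpr hc.ge⟩, ?_⟩
  rintro 𝔭 ⟨h𝔭, h𝔭le⟩ h𝔭𝔫
  -- `𝔭` lies over `𝔪'`, hence is maximal, hence equals `𝔫`
  have h1 : 𝔪' ≤ 𝔭.comap ψ := Ideal.map_le_iff_le_comap.mp h𝔭le
  have h2 : 𝔭.comap ψ = 𝔪' :=
    (h𝔪'.eq_of_le (Ideal.comap_ne_top ψ h𝔭.ne_top) h1).symm
  haveI := h𝔭
  have h3 : 𝔭.IsMaximal := isMaximal_of_comap ψ hψ 𝔭 (h2 ▸ h𝔪')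
  exact (h3.eq_of_le h𝔫.ne_top h𝔭𝔫).ge

/-- the primes having the same contraction as some member of a finite set of maximal ideals
form a finite set -/
theorem finite_fibre_closure [IsNoetherianRing B] (ψ : B' →+* B) (hψ : ψ.IsIntegral)
    (T : Set (Ideal B)) (hTfin : T.Finite) (hT : ∀ 𝔫 ∈ T, 𝔫.IsMaximal) :
    {𝔫₂ : Ideal B | 𝔫₂.IsPrime ∧ ∃ 𝔫 ∈ T, 𝔫₂.comap ψ = 𝔫.comap ψ}.Finite := by
  have hsub : {𝔫₂ : Ideal B | 𝔫₂.IsPrime ∧ ∃ 𝔫 ∈ T, 𝔫₂.comap ψ = 𝔫.comap ψ} ⊆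
      ⋃ 𝔫 ∈ T, {𝔫₂ : Ideal B | 𝔫₂.IsPrime ∧ 𝔫₂.comap ψ = 𝔫.comap ψ} := by
    rintro 𝔫₂ ⟨h₂, 𝔫, h𝔫, hc⟩
    exact Set.mem_biUnion h𝔫 ⟨h₂, hc⟩
  refine (hTfin.biUnion fun 𝔫 h𝔫 => ?_).subset hsub
  haveI := hT 𝔫 h𝔫
  haveI := comap_isMaximal ψ hψ 𝔫
  exact finite_primes_over ψ hψ (𝔫.comap ψ)

/-- … and they are maximal -/
theorem isMaximal_fibre_closure (ψ : B' →+* B) (hψ : ψ.IsIntegral)
    (T : Set (Ideal B)) (hT : ∀ 𝔫 ∈ T, 𝔫.IsMaximal) (𝔫₂ : Ideal B) [𝔫₂.IsPrime]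
    (h : ∃ 𝔫 ∈ T, 𝔫₂.comap ψ = 𝔫.comap ψ) : 𝔫₂.IsMaximal := by
  obtain ⟨𝔫, h𝔫, hc⟩ := h
  haveI := hT 𝔫 h𝔫
  exact isMaximal_of_comap ψ hψ 𝔫₂ (hc ▸ comap_isMaximal ψ hψ 𝔫)

/-- the two-map closure used by `HUnit.HU.omega_step`: finite -/
theorem finite_cl [IsNoetherianRing B] (ψα ψβ : B' →+* B) (hψα : ψα.IsIntegral)
    (hψβ : ψβ.IsIntegral) (T : Set (Ideal B)) (hTfin : T.Finite) (hT : ∀ 𝔫 ∈ T, 𝔫.IsMaximal) :
    {𝔫₂ : Ideal B | 𝔫₂.IsPrime ∧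
      ∃ 𝔫 ∈ T, 𝔫₂.comap ψα = 𝔫.comap ψα ∨ 𝔫₂.comap ψβ = 𝔫.comap ψβ}.Finite := by
  refine ((finite_fibre_closure ψα hψα T hTfin hT).union
    (finite_fibre_closure ψβ hψβ T hTfin hT)).subset ?_
  rintro 𝔫₂ ⟨h₂, 𝔫, h𝔫, hc | hc⟩
  · exact Or.inl ⟨h₂, 𝔫, h𝔫, hc⟩
  · exact Or.inr ⟨h₂, 𝔫, h𝔫, hc⟩

/-- the two-map closure: all members maximal -/
theorem isMaximal_cl (ψα ψβ : B' →+* B) (hψα : ψα.IsIntegral) (hψβ : ψβ.IsIntegral)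
    (T : Set (Ideal B)) (hT : ∀ 𝔫 ∈ T, 𝔫.IsMaximal) (𝔫₂ : Ideal B) [𝔫₂.IsPrime]
    (h : ∃ 𝔫 ∈ T, 𝔫₂.comap ψα = 𝔫.comap ψα ∨ 𝔫₂.comap ψβ = 𝔫.comap ψβ) : 𝔫₂.IsMaximal := by
  obtain ⟨𝔫, h𝔫, hc | hc⟩ := h
  · exact isMaximal_fibre_closure ψα hψα T hT 𝔫₂ ⟨𝔫, h𝔫, hc⟩
  · exact isMaximal_fibre_closure ψβ hψβ T hT 𝔫₂ ⟨𝔫, h𝔫, hc⟩

/-- **Finitely many maximal ideals contain a given maximal ideal of the base** (e.g. the cusps of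
the special fibre: the maximal ideals of the chart containing `π` and `1/j`). -/
theorem finite_maximal_over [IsNoetherianRing B] (ψ : B' →+* B) (hψ : ψ.IsIntegral)
    (𝔪' : Ideal B') [h𝔪' : 𝔪'.IsMaximal] :
    {𝔫 : Ideal B | 𝔫.IsMaximal ∧ ∀ c ∈ 𝔪', ψ c ∈ 𝔫}.Finite := by
  refine (finite_primes_over ψ hψ 𝔪').subset ?_
  rintro 𝔫 ⟨h𝔫, hc⟩
  refine ⟨h𝔫.isPrime, ?_⟩
  have h1 : 𝔪' ≤ 𝔫.comap ψ := fun c hc' => hc c hc'
  exact (h𝔪'.eq_of_le (Ideal.comap_ne_top ψ h𝔫.ne_top) h1).symm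

end Fermat.Agent.S36.FibreFinite
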