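import Mathlib

/-!
# S36 (R-ss), (T1): a node over a regular point is monogenic

`R0` a local ring with maximal ideal `(π, t)` (the local ring of the chart of level `M'` at a
closed point `P` of the special fibre), `R1` a local `R0`-algebra, finite as an `R0`-module, with
trivial residue field extension and maximal ideal `(π, X, Y)`, `π ∣ X Y` (the local ring of the
chart of level `M' q` at the node over `P`).  If

  `t ≡ u₁ Y + u₂ X ^ q  (mod π R1)`   with units `u₁, u₂`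

(`α` is an isomorphism on the first branch and a Frobenius of degree `q` on the second), then
`R1 / (π, t) R1` is spanned by `1, X, …, X ^ q` and, by Nakayama,

* `span_pow_eq_top` : `R1 = R0 + R0 X + ⋯ + R0 X ^ q`;
* `adjoin_eq_top` : `R1 = R0[X]`.
-/

set_option autoImplicit false
set_option linter.unusedSectionVars false

namespace Fermat.Agent.S36.NodeMono

open IsLocalRing

variable {R0 R1 : Type*} [CommRing R0] [IsLocalRing R0] [CommRing R1] [IsLocalRing R1]
  [Algebra R0 R1]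

/-- one reduction step: `r ≡ c + X r'` modulo `(π, t) R1` -/
theorem exists_step
    (hres : ∀ r : R1, ∃ c : R0, r - algebraMap R0 R1 c ∈ maximalIdeal R1)
    (π t : R0) (X Y : R1)
    (h1 : maximalIdeal R1 = Ideal.span {algebraMap R0 R1 π, X, Y})
    (q : ℕ) (hq : 0 < q) (u1 u2 : R1) (hu1 : IsUnit u1)
    (ht : algebraMap R0 R1 π ∣ algebraMap R0 R1 t - u1 * Y - u2 * X ^ q) (r : R1) :
    ∃ (c : R0) (r' : R1), r - (algebraMap R0 R1 c + X * r') ∈
      Ideal.span {algebraMap R0 R1 π, algebraMap R0 R1 t} := by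
  obtain ⟨c, hc⟩ := hres r
  rw [h1, Ideal.mem_span_insert] at hc
  obtain ⟨a, z, hz, hrz⟩ := hc
  rw [Ideal.mem_span_insert] at hz
  obtain ⟨b, z', hz', rfl⟩ := hz
  rw [Ideal.mem_span_singleton'] at hz'
  obtain ⟨d, rfl⟩ := hz'
  obtain ⟨e, he⟩ := ht
  obtain ⟨v, hv⟩ := hu1.exists_left_inv
  obtain ⟨k, rfl⟩ : ∃ k, q = k + 1 := ⟨q - 1, by omega⟩
  -- `Y = v (t - π e) - v u₂ X ^ q`
  have hY : Y = v * (algebraMap R0 R1 t - algebraMap R0 R1 π * e) - v * u2 * X ^ (k + 1) := by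
    have h2 : u1 * Y = algebraMap R0 R1 t - algebraMap R0 R1 π * e - u2 * X ^ (k + 1) := by
      rw [← he]; ring
    calc Y = (v * u1) * Y := by rw [hv, one_mul]
      _ = v * (u1 * Y) := by ring
      _ = v * (algebraMap R0 R1 t - algebraMap R0 R1 π * e) - v * u2 * X ^ (k + 1) := by
          rw [h2]; ring
  refine ⟨c, b - d * (v * u2 * X ^ k), ?_⟩
  have e1 : r - (algebraMap R0 R1 c + X * (b - d * (v * u2 * X ^ k))) =
      (a - d * v * e) * algebraMap R0 R1 π + (d * v) * algebraMap R0 R1 t := by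
    have h3 : r - algebraMap R0 R1 c = a * algebraMap R0 R1 π + (b * X + d * Y) := hrz
    have h4 : r = algebraMap R0 R1 c + (a * algebraMap R0 R1 π + (b * X + d * Y)) := by
      rw [← h3]; ring
    rw [h4]
    conv_lhs => rw [hY]
    ring
  rw [e1]
  exact Ideal.add_mem _ (Ideal.mul_mem_left _ _ (Ideal.subset_span (by simp)))
    (Ideal.mul_mem_left _ _ (Ideal.subset_span (by simp)))

/-- `X ^ (q + 1) ∈ (π, t) R1` -/
theorem pow_succ_mem (π t : R0) (X Y : R1)
    (hXY : algebraMap R0 R1 π ∣ X * Y)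
    (q : ℕ) (u1 u2 : R1) (hu2 : IsUnit u2)
    (ht : algebraMap R0 R1 π ∣ algebraMap R0 R1 t - u1 * Y - u2 * X ^ q) :
    X ^ (q + 1) ∈ Ideal.span {algebraMap R0 R1 π, algebraMap R0 R1 t} := by
  obtain ⟨e, he⟩ := ht
  obtain ⟨f, hf⟩ := hXY
  obtain ⟨v, hv⟩ := hu2.exists_left_inv
  have h2 : u2 * X ^ q = algebraMap R0 R1 t - u1 * Y - algebraMap R0 R1 π * e := by
    rw [← he]; ring
  have e1 : X ^ (q + 1) =
      (-(v * u1 * f) - v * e * X) * algebraMap R0 R1 π + (v * X) * algebraMap R0 R1 t := by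
    calc X ^ (q + 1) = (v * u2) * X ^ (q + 1) := by rw [hv, one_mul]
      _ = v * X * (u2 * X ^ q) := by ring
      _ = v * X * (algebraMap R0 R1 t - u1 * Y - algebraMap R0 R1 π * e) := by rw [h2]
      _ = v * X * algebraMap R0 R1 t - v * u1 * (X * Y) - v * e * X * algebraMap R0 R1 π := by
          ring
      _ = (-(v * u1 * f) - v * e * X) * algebraMap R0 R1 π + (v * X) * algebraMap R0 R1 t := by
          rw [hf]; ring
  rw [e1]
  exact Ideal.add_mem _ (Ideal.mul_mem_left _ _ (Ideal.subset_span (by simp)))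
    (Ideal.mul_mem_left _ _ (Ideal.subset_span (by simp)))

/-- iterated reduction: `r ≡ m + X ^ n r'` modulo `(π, t) R1` with `m ∈ R0 + ⋯ + R0 X ^ q`,
for every `n ≤ q + 1` -/
theorem exists_iter
    (hres : ∀ r : R1, ∃ c : R0, r - algebraMap R0 R1 c ∈ maximalIdeal R1)
    (π t : R0) (X Y : R1)
    (h1 : maximalIdeal R1 = Ideal.span {algebraMap R0 R1 π, X, Y})
    (q : ℕ) (hq : 0 < q) (u1 u2 : R1) (hu1 : IsUnit u1)
    (ht : algebraMap R0 R1 π ∣ algebraMap R0 R1 t - u1 * Y - u2 * X ^ q)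
    (n : ℕ) (hn : n ≤ q + 1) (r : R1) :
    ∃ m ∈ Submodule.span R0 (Set.range fun i : Fin (q + 1) => X ^ (i : ℕ)), ∃ r' : R1,
      r - (m + X ^ n * r') ∈ Ideal.span {algebraMap R0 R1 π, algebraMap R0 R1 t} := by
  induction n with
  | zero =>
    refine ⟨0, Submodule.zero_mem _, r, ?_⟩
    have : r - (0 + X ^ 0 * r) = 0 := by ring
    rw [this]
    exact Ideal.zero_mem _
  | succ n ih =>
    obtain ⟨m, hm, r', hr'⟩ := ih (by omega)
    obtain ⟨c, r'', hr''⟩ := exists_step hres π t X Y h1 q hq u1 u2 hu1 ht r'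
    refine ⟨m + c • X ^ n, Submodule.add_mem _ hm (Submodule.smul_mem _ _
      (Submodule.subset_span ⟨⟨n, by omega⟩, rfl⟩)), r'', ?_⟩
    have e1 : r - (m + c • X ^ n + X ^ (n + 1) * r'') =
        (r - (m + X ^ n * r')) + X ^ n * (r' - (algebraMap R0 R1 c + X * r'')) := by
      rw [Algebra.smul_def]; ring
    rw [e1]
    exact Ideal.add_mem _ hr' (Ideal.mul_mem_left _ _ hr'')

/-- **(T1), module form**: `R1 = R0 + R0 X + ⋯ + R0 X ^ q`. -/
theorem span_pow_eq_top [Module.Finite R0 R1]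
    (hres : ∀ r : R1, ∃ c : R0, r - algebraMap R0 R1 c ∈ maximalIdeal R1)
    (π t : R0) (h0 : maximalIdeal R0 = Ideal.span {π, t}) (X Y : R1)
    (h1 : maximalIdeal R1 = Ideal.span {algebraMap R0 R1 π, X, Y})
    (hXY : algebraMap R0 R1 π ∣ X * Y)
    (q : ℕ) (hq : 0 < q) (u1 u2 : R1) (hu1 : IsUnit u1) (hu2 : IsUnit u2)
    (ht : algebraMap R0 R1 π ∣ algebraMap R0 R1 t - u1 * Y - u2 * X ^ q) :
    Submodule.span R0 (Set.range fun i : Fin (q + 1) => X ^ (i : ℕ)) = ⊤ := by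
  set N : Submodule R0 R1 := Submodule.span R0 (Set.range fun i : Fin (q + 1) => X ^ (i : ℕ))
    with hN
  have hJ : ∀ z ∈ Ideal.span {algebraMap R0 R1 π, algebraMap R0 R1 t},
      z ∈ maximalIdeal R0 • (⊤ : Submodule R0 R1) := by
    intro z hz
    rw [Ideal.mem_span_pair] at hz
    obtain ⟨a, b, rfl⟩ := hz
    have hπ : π ∈ maximalIdeal R0 := by rw [h0]; exact Ideal.subset_span (by simp)
    have htm : t ∈ maximalIdeal R0 := by rw [h0]; exact Ideal.subset_span (by simp)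
    have e1 : a * algebraMap R0 R1 π + b * algebraMap R0 R1 t = π • a + t • b := by
      rw [Algebra.smul_def, Algebra.smul_def]; ring
    rw [e1]
    exact Submodule.add_mem _ (Submodule.smul_mem_smul hπ Submodule.mem_top)
      (Submodule.smul_mem_smul htm Submodule.mem_top)
  have hle : (⊤ : Submodule R0 R1) ≤ N ⊔ maximalIdeal R0 • (⊤ : Submodule R0 R1) := by
    intro r _
    obtain ⟨m, hm, r', hr'⟩ := exists_iter hres π t X Y h1 q hq u1 u2 hu1 ht (q + 1) le_rfl r
    have h2 : r - m ∈ Ideal.span {algebraMap R0 R1 π, algebraMap R0 R1 t} := by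
      have e1 : r - m = (r - (m + X ^ (q + 1) * r')) + r' * X ^ (q + 1) := by ring
      rw [e1]
      exact Ideal.add_mem _ hr' (Ideal.mul_mem_left _ _ (pow_succ_mem π t X Y hXY q u1 u2 hu2 ht))
    have e2 : r = m + (r - m) := by ring
    rw [e2]
    exact Submodule.add_mem_sup hm (hJ _ h2)
  have hfg : (⊤ : Submodule R0 R1).FG := Module.Finite.fg_top
  exact top_le_iff.mp (Submodule.le_of_le_smul_of_le_jacobson_bot hfg
    (IsLocalRing.maximalIdeal_le_jacobson ⊥) hle)

/-- **(T1), algebra form**: `R1 = R0[X]`. -/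
theorem adjoin_eq_top [Module.Finite R0 R1]
    (hres : ∀ r : R1, ∃ c : R0, r - algebraMap R0 R1 c ∈ maximalIdeal R1)
    (π t : R0) (h0 : maximalIdeal R0 = Ideal.span {π, t}) (X Y : R1)
    (h1 : maximalIdeal R1 = Ideal.span {algebraMap R0 R1 π, X, Y})
    (hXY : algebraMap R0 R1 π ∣ X * Y)
    (q : ℕ) (hq : 0 < q) (u1 u2 : R1) (hu1 : IsUnit u1) (hu2 : IsUnit u2)
    (ht : algebraMap R0 R1 π ∣ algebraMap R0 R1 t - u1 * Y - u2 * X ^ q) :
    Algebra.adjoin R0 {X} = ⊤ := by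
  have h := span_pow_eq_top hres π t h0 X Y h1 hXY q hq u1 u2 hu1 hu2 ht
  rw [eq_top_iff]
  intro r _
  have hr : r ∈ Submodule.span R0 (Set.range fun i : Fin (q + 1) => X ^ (i : ℕ)) := by
    rw [h]; exact Submodule.mem_top
  have hsub : Submodule.span R0 (Set.range fun i : Fin (q + 1) => X ^ (i : ℕ)) ≤
      Subalgebra.toSubmodule (Algebra.adjoin R0 {X}) := by
    rw [Submodule.span_le]
    rintro _ ⟨i, rfl⟩
    show X ^ (i : ℕ) ∈ Algebra.adjoin R0 {X}
    exact pow_mem (Algebra.subset_adjoin (Set.mem_singleton X)) _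
  exact hsub hr

end Fermat.Agent.S36.NodeMono
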