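import Mathlib
import Fermat.Agent.S34.CompPts
import Fermat.Agent.S36.NodeMono

/-!
# S36 (R-ss), (T1): the node of the chart of level `M' q` over a point of level `M'`

Abstract chart statement feeding `NodeMono`.  `B'` is the chart ring of level `M'`, `B` (a finite
`B'`-algebra, `algebraMap = α`) the chart ring of level `M' q`, `E` the special fibre of `B'`
(a Dedekind domain, not a field), `p : B' → E` the reduction (`ker p = (π')`),
`s₁ s₂ : B → E` the two reduction maps (`(π') B = ker s₁ ⊓ ker s₂`), with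

* `s₁ ∘ α = p`                    (`α` is an isomorphism on the first component);
* `s₂ (α c) = (p₂ c) ^ q`, `p₂ : B' → E` surjective   (Kronecker: Frobenius on the second);
* `hB` : every `e` is `s₂ b` with `s₁ b` a `q`-th power   (`b = β y`).

For a maximal ideal `𝔫 ⊇ ker s₁ + ker s₂` of `B` (a node), `P = α⁻¹ 𝔫`, `R0 = B'_P`,
`R1 = B_𝔫`:

* `eq_of_comap_eq` : `𝔫` is the only prime of `B` over `P`;
* `isLocalization_algebraMapSubmonoid`, `finite_loc` : `R1 = B ⊗ B'_P` is finite over `R0`;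
* `residue_surj` : trivial residue field extension;
* `maximalIdeal_base` : `𝔪_{R0} = (π', t)` for `t` with `p t` a uniformiser at `P`;
* `node_over` : there is `X ∈ 𝔫`, vanishing on the first branch and a uniformiser of the second,
  with `R1 = R0 + R0 X + ⋯ + R0 X ^ q = R0[X]`, `X ^ (q + 1) ∈ 𝔪_{R0} R1`, `X ∉ 𝔪_{R0} R1`;
* `not_isUnit_aeval_derivative` : for any `F ∈ R0[T]` with `F(X) = 0`, `F'(X)` is not a unit
  (`R1` is ramified over `R0`).
-/

set_option autoImplicit false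
set_option linter.unusedSectionVars false
set_option linter.style.haveILetI false

namespace Fermat.Agent.S36.NodeOver

open IsLocalRing Fermat.Agent.S34

/-! ### The node is the only point over its image -/

section Uniq

variable {B' B E : Type*} [CommRing B'] [CommRing B] [Algebra B' B] [CommRing E] [IsDomain E]
  (p p₂ : B' →+* E) (s₁ s₂ : B →+* E) (π' : B') (q : ℕ)

/-- **`𝔫` is the only prime of `B` over `α⁻¹ 𝔫`** when both components pass through `𝔫`. -/
theorem eq_of_comap_eq (hq : 0 < q) (hp : Function.Surjective p)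
    (hp₂ : Function.Surjective p₂)
    (hπ : Ideal.span {algebraMap B' B π'} = RingHom.ker s₁ ⊓ RingHom.ker s₂)
    (h₁ : ∀ c, s₁ (algebraMap B' B c) = p c)
    (h₂ : ∀ c, s₂ (algebraMap B' B c) = p₂ c ^ q)
    (𝔫 : Ideal B) [h𝔫 : 𝔫.IsPrime] (hk₁ : RingHom.ker s₁ ≤ 𝔫) (hk₂ : RingHom.ker s₂ ≤ 𝔫)
    (𝔫' : Ideal B) [h𝔫' : 𝔫'.IsPrime]
    (h : 𝔫'.comap (algebraMap B' B) = 𝔫.comap (algebraMap B' B)) : 𝔫' = 𝔫 := by
  have hπmem : algebraMap B' B π' ∈ RingHom.ker s₁ ⊓ RingHom.ker s₂ := by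
    rw [← hπ]; exact Ideal.mem_span_singleton_self _
  have hiff : ∀ c : B', algebraMap B' B c ∈ 𝔫' ↔ algebraMap B' B c ∈ 𝔫 := fun c => by
    rw [← Ideal.mem_comap, ← Ideal.mem_comap, h]
  have hπ𝔫' : algebraMap B' B π' ∈ 𝔫' := (hiff π').mpr (hk₁ hπmem.1)
  have key : ∀ (I : Ideal B) (x y : B), x - y ∈ I → (x ∈ I ↔ y ∈ I) := by
    intro I x y hxy
    constructor
    · intro hx
      have := Ideal.sub_mem _ hx hxy
      rwa [sub_sub_cancel] at this
    · intro hy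
      have := Ideal.add_mem _ hxy hy
      rwa [sub_add_cancel] at this
  rcases Comp.ker_le_or_ker_le s₁ s₂ (algebraMap B' B π') hπ 𝔫' hπ𝔫' with hk | hk
  · ext b
    obtain ⟨c, hc⟩ := hp (s₁ b)
    have hker : b - algebraMap B' B c ∈ RingHom.ker s₁ := by
      rw [RingHom.mem_ker, map_sub, h₁, hc, sub_self]
    rw [key 𝔫' _ _ (hk hker), key 𝔫 _ _ (hk₁ hker), hiff]
  · ext b
    obtain ⟨c, hc⟩ := hp₂ (s₂ b)
    have hker : b ^ q - algebraMap B' B c ∈ RingHom.ker s₂ := by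
      rw [RingHom.mem_ker, map_sub, map_pow, h₂, hc, sub_self]
    have e1 : ∀ (I : Ideal B) [I.IsPrime], b ∈ I ↔ b ^ q ∈ I := fun I hI =>
      ⟨fun hb => Ideal.pow_mem_of_mem _ hb _ hq, fun hb => hI.mem_of_pow_mem _ hb⟩
    rw [e1 𝔫', e1 𝔫, key 𝔫' _ _ (hk hker), key 𝔫 _ _ (hk₂ hker), hiff]

/-- `B_𝔫` is the localisation of `B` at (the image of) the complement of `P = α⁻¹ 𝔫`. -/
theorem isLocalization_algebraMapSubmonoid [Algebra.IsIntegral B' B] (hq : 0 < q)
    (hp : Function.Surjective p) (hp₂ : Function.Surjective p₂)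
    (hπ : Ideal.span {algebraMap B' B π'} = RingHom.ker s₁ ⊓ RingHom.ker s₂)
    (h₁ : ∀ c, s₁ (algebraMap B' B c) = p c)
    (h₂ : ∀ c, s₂ (algebraMap B' B c) = p₂ c ^ q)
    (𝔫 : Ideal B) [h𝔫 : 𝔫.IsPrime] (hk₁ : RingHom.ker s₁ ≤ 𝔫) (hk₂ : RingHom.ker s₂ ≤ 𝔫)
    (P : Ideal B') [P.IsPrime] (hP : 𝔫.comap (algebraMap B' B) = P)
    (R1 : Type*) [CommRing R1] [Algebra B R1] [hR1 : IsLocalization.AtPrime R1 𝔫] :
    IsLocalization (Algebra.algebraMapSubmonoid B P.primeCompl) R1 := by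
  refine (IsLocalization.iff_of_le_of_exists_dvd
    (M := Algebra.algebraMapSubmonoid B P.primeCompl) (S := R1) 𝔫.primeCompl ?_ ?_).mpr hR1
  · rintro _ ⟨c, hc, rfl⟩
    intro hmem
    apply hc
    rw [← hP]
    exact hmem
  · intro n hn
    by_contra hcon
    push Not at hcon
    have hIP : (Ideal.span {n}).comap (algebraMap B' B) ≤ P := by
      intro c hc
      by_contra hcP
      exact hcon (algebraMap B' B c) ⟨c, hcP, rfl⟩ (Ideal.mem_span_singleton.mp hc)
    obtain ⟨Q, hQ, hQp, hQc⟩ :=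
      Ideal.exists_ideal_over_prime_of_isIntegral P (Ideal.span {n}) hIP
    have hQ𝔫 : Q = 𝔫 :=
      eq_of_comap_eq p p₂ s₁ s₂ π' q hq hp hp₂ hπ h₁ h₂ 𝔫 hk₁ hk₂ Q (hQc.trans hP.symm)
    apply hn
    rw [← hQ𝔫]
    exact hQ (Ideal.mem_span_singleton_self n)

/-- `B_𝔫` is a finite `B'_P`-module. -/
theorem finite_loc [Module.Finite B' B] (hq : 0 < q)
    (hp : Function.Surjective p) (hp₂ : Function.Surjective p₂)
    (hπ : Ideal.span {algebraMap B' B π'} = RingHom.ker s₁ ⊓ RingHom.ker s₂)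
    (h₁ : ∀ c, s₁ (algebraMap B' B c) = p c)
    (h₂ : ∀ c, s₂ (algebraMap B' B c) = p₂ c ^ q)
    (𝔫 : Ideal B) [h𝔫 : 𝔫.IsPrime] (hk₁ : RingHom.ker s₁ ≤ 𝔫) (hk₂ : RingHom.ker s₂ ≤ 𝔫)
    (P : Ideal B') [P.IsPrime] (hP : 𝔫.comap (algebraMap B' B) = P)
    (R0 : Type*) [CommRing R0] [Algebra B' R0] [IsLocalization.AtPrime R0 P]
    (R1 : Type*) [CommRing R1] [Algebra B R1] [IsLocalization.AtPrime R1 𝔫]
    [Algebra R0 R1] [Algebra B' R1] [IsScalarTower B' R0 R1] [IsScalarTower B' B R1] :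
    Module.Finite R0 R1 := by
  haveI : Algebra.IsIntegral B' B := inferInstance
  haveI := isLocalization_algebraMapSubmonoid p p₂ s₁ s₂ π' q hq hp hp₂ hπ h₁ h₂ 𝔫 hk₁ hk₂ P hP
    R1
  exact Module.Finite.of_isLocalization B' B P.primeCompl

end Uniq

/-! ### Local data at the node -/

section Loc

variable {B' B E : Type*} [CommRing B'] [CommRing B] [Algebra B' B] [CommRing E]
  (p : B' →+* E) (s₁ : B →+* E)

/-- **Trivial residue field extension**: every element of `B_𝔫` is congruent to an element of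
`B'_P` modulo the maximal ideal. -/
theorem residue_surj (hp : Function.Surjective p) (h₁ : ∀ c, s₁ (algebraMap B' B c) = p c)
    (𝔫 : Ideal B) [h𝔫 : 𝔫.IsPrime] (hk₁ : RingHom.ker s₁ ≤ 𝔫)
    (P : Ideal B') [P.IsPrime] (hP : 𝔫.comap (algebraMap B' B) = P)
    (R0 : Type*) [CommRing R0] [Algebra B' R0] [IsLocalization.AtPrime R0 P]
    (R1 : Type*) [CommRing R1] [Algebra B R1] [IsLocalization.AtPrime R1 𝔫] [IsLocalRing R1]
    [Algebra R0 R1] [Algebra B' R1] [IsScalarTower B' R0 R1] [IsScalarTower B' B R1] (r : R1) :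
    ∃ c : R0, r - algebraMap R0 R1 c ∈ maximalIdeal R1 := by
  obtain ⟨b, s, hs, hrs⟩ := Comp.exists_mul_eq (𝔫 := 𝔫) r
  obtain ⟨c₁, hc₁⟩ := hp (s₁ b)
  obtain ⟨c₂, hc₂⟩ := hp (s₁ s)
  have hc₂𝔫 : algebraMap B' B c₂ ∉ 𝔫 := by
    intro hmem
    have hker : s - algebraMap B' B c₂ ∈ RingHom.ker s₁ := by
      rw [RingHom.mem_ker, map_sub, h₁, hc₂, sub_self]
    apply hs
    have := Ideal.add_mem _ (hk₁ hker) hmem
    rwa [sub_add_cancel] at this
  have hc₂P : c₂ ∈ P.primeCompl := by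
    intro hmem
    rw [← hP] at hmem
    exact hc₂𝔫 hmem
  refine ⟨IsLocalization.mk' R0 c₁ ⟨c₂, hc₂P⟩, ?_⟩
  have hnum : b * algebraMap B' B c₂ - s * algebraMap B' B c₁ ∈ 𝔫 := by
    apply hk₁
    rw [RingHom.mem_ker, map_sub, map_mul, map_mul, h₁, h₁, hc₁, hc₂]
    ring
  have hu₁ : IsUnit (algebraMap B R1 s) := Comp.isUnit_algebraMap (R := R1) hs
  have hu₂ : IsUnit (algebraMap B R1 (algebraMap B' B c₂)) :=
    Comp.isUnit_algebraMap (R := R1) hc₂𝔫
  have hmk : algebraMap R0 R1 (IsLocalization.mk' R0 c₁ ⟨c₂, hc₂P⟩) *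
      algebraMap B R1 (algebraMap B' B c₂) = algebraMap B R1 (algebraMap B' B c₁) := by
    rw [← IsScalarTower.algebraMap_apply B' B R1, ← IsScalarTower.algebraMap_apply B' B R1,
      IsScalarTower.algebraMap_apply B' R0 R1, IsScalarTower.algebraMap_apply B' R0 R1,
      ← map_mul]
    congr 1
    exact IsLocalization.mk'_spec R0 c₁ ⟨c₂, hc₂P⟩
  have hprod : (r - algebraMap R0 R1 (IsLocalization.mk' R0 c₁ ⟨c₂, hc₂P⟩)) *
      (algebraMap B R1 s * algebraMap B R1 (algebraMap B' B c₂)) =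
      algebraMap B R1 (b * algebraMap B' B c₂ - s * algebraMap B' B c₁) := by
    rw [map_sub, map_mul, map_mul, ← hrs, ← hmk]
    ring
  have hmem : algebraMap B R1 (b * algebraMap B' B c₂ - s * algebraMap B' B c₁) ∈
      maximalIdeal R1 := (IsLocalization.AtPrime.to_map_mem_maximal_iff R1 𝔫 _).mpr hnum
  rw [← hprod] at hmem
  exact (Ideal.mul_unit_mem_iff_mem _ (hu₁.mul hu₂)).mp hmem

/-- **The base point is regular**: `𝔪_{B'_P} = (π', t)` for `t` reducing to a uniformiser of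
the special fibre at `P`. -/
theorem maximalIdeal_base [IsDedekindDomain E] (hp : Function.Surjective p) (π' : B')
    (hpker : ∀ c, p c = 0 → π' ∣ c) (hpπ : p π' = 0)
    (P : Ideal B') [hPmax : P.IsMaximal] (hkP : RingHom.ker p ≤ P) (hbot : P.map p ≠ ⊥)
    (t : B') (ht : p t ∈ P.map p) (ht2 : p t ∉ (P.map p) ^ 2)
    (R0 : Type*) [CommRing R0] [Algebra B' R0] [IsLocalization.AtPrime R0 P] [IsLocalRing R0] :
    maximalIdeal R0 = Ideal.span {algebraMap B' R0 π', algebraMap B' R0 t} := by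
  haveI hmax : (P.map p).IsMaximal := Comp.map_isMaximal p hp P hkP
  have hcomap : (P.map p).comap p = P := Comp.comap_map_eq p hp P hkP
  haveI : IsDiscreteValuationRing (Localization.AtPrime (P.map p)) :=
    IsLocalization.AtPrime.isDiscreteValuationRing_of_dedekind_domain E hbot _
  have hsurj : Function.Surjective
      (Comp.locMap p P R0 (P.map p) hcomap (Localization.AtPrime (P.map p))) :=
    Comp.locMap_surjective hcomap hp
  have hirr : Irreducible (Comp.locMap p P R0 (P.map p) hcomap (Localization.AtPrime (P.map p))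
      (algebraMap B' R0 t)) := by
    rw [Comp.locMap_algebraMap]
    exact Comp.irreducible_algebraMap_of_notMem_sq (P.map p) _ ht ht2
  have hker : ∀ x, Comp.locMap p P R0 (P.map p) hcomap (Localization.AtPrime (P.map p)) x = 0 →
      x ∈ Ideal.span {algebraMap B' R0 π'} := by
    intro x hx
    obtain ⟨b, s, hs, hxs⟩ := Comp.exists_mul_eq (𝔫 := P) x
    have hb : p b = 0 := (Comp.locMap_eq_zero_iff hcomap hs hxs).mp hx
    obtain ⟨c, rfl⟩ := hpker b hb
    obtain ⟨v, hv⟩ := Comp.isUnit_algebraMap (R := R0) hs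
    rw [Ideal.mem_span_singleton]
    refine ⟨algebraMap B' R0 c * (v⁻¹ : R0ˣ), ?_⟩
    have h1 : x = algebraMap B' R0 (π' * c) * (v⁻¹ : R0ˣ) := by
      rw [← hxs, ← hv, mul_assoc, Units.mul_inv, mul_one]
    rw [h1, map_mul]
    ring
  apply le_antisymm
  · intro z hz
    obtain ⟨w, hw⟩ := NodeStruct.exists_sub_mul_mem_ker _ hsurj hirr hz
    have hw' := hker _ (RingHom.mem_ker.mp hw)
    rw [Ideal.mem_span_singleton] at hw'
    obtain ⟨c, hc⟩ := hw'
    have hz' : z = algebraMap B' R0 π' * c + algebraMap B' R0 t * w := by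
      linear_combination hc
    rw [hz']
    exact Ideal.add_mem _ (Ideal.mul_mem_right _ _ (Ideal.subset_span (by simp)))
      (Ideal.mul_mem_right _ _ (Ideal.subset_span (by simp)))
  · rw [Ideal.span_le]
    have hmemP : ∀ c ∈ P, algebraMap B' R0 c ∈ maximalIdeal R0 := fun c hc =>
      (IsLocalization.AtPrime.to_map_mem_maximal_iff R0 P c).mpr hc
    intro z hz
    rcases hz with rfl | rfl
    · exact hmemP _ (hkP (RingHom.mem_ker.mpr hpπ))
    · exact hmemP _ ((Comp.mem_map_iff p hp P hkP t).mp ht)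

end Loc

/-! ### The node over a regular point is monogenic -/

section Main

/-- **(T1), chart form.**  At a node `𝔫` of the chart of level `M' q` over the point
`P = α⁻¹ 𝔫` of the chart of level `M'`: `B_𝔫` is finite over `B'_P` and there is `X ∈ 𝔫`,
vanishing on the first branch and a uniformiser of the second, with
`B_𝔫 = B'_P + B'_P X + ⋯ + B'_P X ^ q = B'_P[X]`, `X ^ (q + 1) ∈ 𝔪_P B_𝔫`, `X ∉ 𝔪_P B_𝔫`. -/
theorem node_over {B' B E : Type*} [CommRing B'] [CommRing B] [Algebra B' B]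
    [Module.Finite B' B] [CommRing E] [IsDedekindDomain E] (hE : ¬ IsField E)
    (p p₂ : B' →+* E) (s₁ s₂ : B →+* E) (π' : B') (q : ℕ) (hq : 2 ≤ q)
    (hp : Function.Surjective p) (hpker : ∀ c, p c = 0 → π' ∣ c)
    (hp₂ : Function.Surjective p₂)
    (hπ : Ideal.span {algebraMap B' B π'} = RingHom.ker s₁ ⊓ RingHom.ker s₂)
    (h₁ : ∀ c, s₁ (algebraMap B' B c) = p c)
    (h₂ : ∀ c, s₂ (algebraMap B' B c) = p₂ c ^ q)
    (hB : ∀ e : E, ∃ b, s₂ b = e ∧ ∃ e', s₁ b = e' ^ q)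
    (𝔫 : Ideal B) [h𝔫 : 𝔫.IsMaximal] (hk₁ : RingHom.ker s₁ ≤ 𝔫) (hk₂ : RingHom.ker s₂ ≤ 𝔫)
    (P : Ideal B') [P.IsPrime] (hP : 𝔫.comap (algebraMap B' B) = P)
    (R0 : Type*) [CommRing R0] [Algebra B' R0] [IsLocalization.AtPrime R0 P] [IsLocalRing R0]
    (R1 : Type*) [CommRing R1] [Algebra B R1] [IsLocalization.AtPrime R1 𝔫] [IsLocalRing R1]
    [Algebra R0 R1] [Algebra B' R1] [IsScalarTower B' R0 R1] [IsScalarTower B' B R1] :
    Module.Finite R0 R1 ∧ ∃ X ∈ 𝔫, s₁ X = 0 ∧ s₂ X ∉ (𝔫.map s₂) ^ 2 ∧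
      Submodule.span R0 (Set.range fun i : Fin (q + 1) => algebraMap B R1 X ^ (i : ℕ)) = ⊤ ∧
      Algebra.adjoin R0 {algebraMap B R1 X} = ⊤ ∧
      algebraMap B R1 X ^ (q + 1) ∈ Ideal.map (algebraMap R0 R1) (maximalIdeal R0) ∧
      algebraMap B R1 X ∉ Ideal.map (algebraMap R0 R1) (maximalIdeal R0) := by
  classical
  have hq0 : 0 < q := by omega
  have hπmem : algebraMap B' B π' ∈ RingHom.ker s₁ ⊓ RingHom.ker s₂ := by
    rw [← hπ]; exact Ideal.mem_span_singleton_self _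
  have hpπ : p π' = 0 := by rw [← h₁]; exact hπmem.1
  have hp₂π : p₂ π' = 0 := by
    have h := h₂ π'
    rw [RingHom.mem_ker.mp hπmem.2] at h
    exact (pow_eq_zero_iff (by omega)).mp h.symm
  have hs₁ : Function.Surjective s₁ := fun e => by
    obtain ⟨c, hc⟩ := hp e
    exact ⟨algebraMap B' B c, by rw [h₁, hc]⟩
  have hs₂ : Function.Surjective s₂ := fun e => by
    obtain ⟨b, hb, _⟩ := hB e
    exact ⟨b, hb⟩
  have hA : ∀ e : E, ∃ b, s₁ b = e ∧ ∃ e', s₂ b = e' ^ q := fun e => by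
    obtain ⟨c, hc⟩ := hp e
    exact ⟨algebraMap B' B c, by rw [h₁, hc], p₂ c, h₂ c⟩
  have hfin : Module.Finite R0 R1 :=
    finite_loc p p₂ s₁ s₂ π' q hq0 hp hp₂ hπ h₁ h₂ 𝔫 hk₁ hk₂ P hP R0 R1
  -- the images of the node on the two branches
  haveI hmax₁ : (𝔫.map s₁).IsMaximal := Comp.map_isMaximal s₁ hs₁ 𝔫 hk₁
  haveI hmax₂ : (𝔫.map s₂).IsMaximal := Comp.map_isMaximal s₂ hs₂ 𝔫 hk₂
  have hcomap₁ : (𝔫.map s₁).comap s₁ = 𝔫 := Comp.comap_map_eq s₁ hs₁ 𝔫 hk₁
  have hcomap₂ : (𝔫.map s₂).comap s₂ = 𝔫 := Comp.comap_map_eq s₂ hs₂ 𝔫 hk₂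
  have hbot₁ : 𝔫.map s₁ ≠ ⊥ := Ring.ne_bot_of_isMaximal_of_not_isField hmax₁ hE
  have hbot₂ : 𝔫.map s₂ ≠ ⊥ := Ring.ne_bot_of_isMaximal_of_not_isField hmax₂ hE
  haveI : IsDiscreteValuationRing (Localization.AtPrime (𝔫.map s₁)) :=
    IsLocalization.AtPrime.isDiscreteValuationRing_of_dedekind_domain E hbot₁ _
  haveI : IsDiscreteValuationRing (Localization.AtPrime (𝔫.map s₂)) :=
    IsLocalization.AtPrime.isDiscreteValuationRing_of_dedekind_domain E hbot₂ _
  -- `P` and its images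
  have hPmem : ∀ c : B', c ∈ P ↔ p c ∈ 𝔫.map s₁ := fun c => by
    rw [← hP, Ideal.mem_comap, ← h₁, Comp.mem_map_iff s₁ hs₁ 𝔫 hk₁]
  have hPmem₂ : ∀ c : B', c ∈ P ↔ p₂ c ∈ 𝔫.map s₂ := fun c => by
    rw [← hP, Ideal.mem_comap, ← Comp.mem_map_iff s₂ hs₂ 𝔫 hk₂, h₂]
    exact ⟨fun h => hmax₂.isPrime.mem_of_pow_mem _ h, fun h => Ideal.pow_mem_of_mem _ h _ hq0⟩
  haveI hPmax : P.IsMaximal := by
    rw [← hP]; exact Ideal.isMaximal_comap_of_isIntegral_of_isMaximal 𝔫
  have hkP : RingHom.ker p ≤ P := fun c hc =>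
    (hPmem c).mpr (by rw [RingHom.mem_ker.mp hc]; exact Ideal.zero_mem _)
  have hPmap : P.map p = 𝔫.map s₁ := by
    apply le_antisymm
    · rw [Ideal.map_le_iff_le_comap]
      intro c hc
      exact (hPmem c).mp hc
    · intro e he
      obtain ⟨c, rfl⟩ := hp e
      exact Ideal.mem_map_of_mem p ((hPmem c).mpr he)
  -- the parameter `t` at `P`
  obtain ⟨t₂, ht₂, ht₂2⟩ := CompPts.exists_mem_notMem_sq (𝔫.map s₂) hbot₂
  obtain ⟨t, rfl⟩ := hp₂ t₂
  have htP : t ∈ P := (hPmem₂ t).mpr ht₂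
  have ht1 : p t ∈ 𝔫.map s₁ := (hPmem t).mp htP
  have ht1' : p t ∉ (𝔫.map s₁) ^ 2 := by
    intro hsq
    apply ht₂2
    rw [← hPmap, ← Ideal.map_pow] at hsq
    obtain ⟨x, hx, hxt⟩ := (Ideal.mem_map_iff_of_surjective p hp).mp hsq
    obtain ⟨d, hd⟩ := hpker (t - x) (by rw [map_sub, hxt, sub_self])
    have e1 : p₂ t = p₂ x := by
      have h3 : t = x + π' * d := by rw [← hd]; ring
      rw [h3, map_add, map_mul, hp₂π, zero_mul, add_zero]
    rw [e1]
    have hle : (P ^ 2).map p₂ ≤ (𝔫.map s₂) ^ 2 := by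
      rw [Ideal.map_pow]
      apply Ideal.pow_right_mono
      rw [Ideal.map_le_iff_le_comap]
      intro c hc
      exact (hPmem₂ c).mp hc
    exact hle (Ideal.mem_map_of_mem p₂ hx)
  -- the coordinates of the node
  obtain ⟨t₁', ht₁', ht₁'2⟩ := CompPts.exists_mem_notMem_sq (𝔫.map s₁) hbot₁
  obtain ⟨Y, hY2, hY1, hY1'⟩ :=
    CompPts.exists_coord s₁ s₂ q hq hA hB 𝔫 hk₂ (𝔫.map s₁) le_rfl t₁' ht₁' ht₁'2
  obtain ⟨X, hX1, hX2, hX2'⟩ :=
    CompPts.exists_coord s₂ s₁ q hq hB hA 𝔫 hk₁ (𝔫.map s₂) le_rfl (p₂ t) ht₂ ht₂2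
  have hirrX : Irreducible (algebraMap E (Localization.AtPrime (𝔫.map s₂)) (s₂ X)) :=
    Comp.irreducible_algebraMap_of_notMem_sq (𝔫.map s₂) _ hX2 hX2'
  have hirrY : Irreducible (algebraMap E (Localization.AtPrime (𝔫.map s₁)) (s₁ Y)) :=
    Comp.irreducible_algebraMap_of_notMem_sq (𝔫.map s₁) _ hY1 hY1'
  have hirrT₁ : Irreducible (algebraMap E (Localization.AtPrime (𝔫.map s₁)) (p t)) :=
    Comp.irreducible_algebraMap_of_notMem_sq (𝔫.map s₁) _ ht1 ht1'
  have hirrT₂ : Irreducible (algebraMap E (Localization.AtPrime (𝔫.map s₂)) (p₂ t)) :=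
    Comp.irreducible_algebraMap_of_notMem_sq (𝔫.map s₂) _ ht₂ ht₂2
  obtain ⟨-, -, hm, hXYmem, -, -⟩ := Comp.node s₁ s₂ 𝔫 R1 (𝔫.map s₁) hcomap₁
    (Localization.AtPrime (𝔫.map s₁)) (𝔫.map s₂) hcomap₂ (Localization.AtPrime (𝔫.map s₂))
    hs₁ hs₂ (algebraMap B' B π') hπ X Y hX1 hY2 hirrX hirrY
  have hspan := Comp.span_eq_ker_inf_ker s₁ s₂ 𝔫 R1 (𝔫.map s₁) hcomap₁
    (Localization.AtPrime (𝔫.map s₁)) (𝔫.map s₂) hcomap₂ (Localization.AtPrime (𝔫.map s₂))
    (algebraMap B' B π') hπ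
  have hsurj₁ : Function.Surjective (Comp.locMap s₁ 𝔫 R1 (𝔫.map s₁) hcomap₁
      (Localization.AtPrime (𝔫.map s₁))) := Comp.locMap_surjective hcomap₁ hs₁
  have hsurj₂ : Function.Surjective (Comp.locMap s₂ 𝔫 R1 (𝔫.map s₂) hcomap₂
      (Localization.AtPrime (𝔫.map s₂))) := Comp.locMap_surjective hcomap₂ hs₂
  -- the two units
  obtain ⟨v₁, hv₁⟩ := IsDiscreteValuationRing.associated_of_irreducible _ hirrY hirrT₁
  obtain ⟨v₂, hv₂⟩ := IsDiscreteValuationRing.associated_of_irreducible _ hirrX hirrT₂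
  obtain ⟨u1, hu1⟩ := hsurj₁ (v₁ : Localization.AtPrime (𝔫.map s₁))
  obtain ⟨u2, hu2⟩ := hsurj₂ ((v₂ : Localization.AtPrime (𝔫.map s₂)) ^ q)
  have hunit₁ : IsUnit u1 := by
    by_contra hnu
    have hz : u1 ∈ maximalIdeal R1 := (mem_maximalIdeal u1).mpr hnu
    exact NodeStruct.map_mem_nonunits _ hsurj₁ hz (hu1 ▸ v₁.isUnit)
  have hunit₂ : IsUnit u2 := by
    by_contra hnu
    have hz : u2 ∈ maximalIdeal R1 := (mem_maximalIdeal u2).mpr hnu
    exact NodeStruct.map_mem_nonunits _ hsurj₂ hz (hu2 ▸ (v₂.isUnit.pow q))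
  -- the relation `α t ≡ u₁ Y + u₂ X ^ q  (mod π)`
  have hrel : algebraMap B R1 (algebraMap B' B π') ∣ algebraMap B R1 (algebraMap B' B t) -
      u1 * algebraMap B R1 Y - u2 * algebraMap B R1 X ^ q := by
    rw [← Ideal.mem_span_singleton, hspan]
    refine Ideal.mem_inf.mpr ⟨?_, ?_⟩
    · rw [RingHom.mem_ker, map_sub, map_sub, map_mul, map_mul, map_pow, Comp.locMap_algebraMap,
        Comp.locMap_algebraMap, Comp.locMap_algebraMap, hX1, map_zero, zero_pow (by omega),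
        mul_zero, sub_zero, h₁, hu1, ← hv₁]
      ring
    · rw [RingHom.mem_ker, map_sub, map_sub, map_mul, map_mul, map_pow, Comp.locMap_algebraMap,
        Comp.locMap_algebraMap, Comp.locMap_algebraMap, hY2, map_zero, mul_zero, sub_zero, h₂,
        map_pow, hu2, ← hv₂]
      ring
  -- the hypotheses of `NodeMono`
  have hres := residue_surj p s₁ hp h₁ 𝔫 hk₁ P hP R0 R1
  have h0 : maximalIdeal R0 = Ideal.span {algebraMap B' R0 π', algebraMap B' R0 t} :=
    maximalIdeal_base p hp π' hpker hpπ P hkP (hPmap ▸ hbot₁) t (hPmap ▸ ht1) (hPmap ▸ ht1') R0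
  have eπ : algebraMap R0 R1 (algebraMap B' R0 π') = algebraMap B R1 (algebraMap B' B π') := by
    rw [← IsScalarTower.algebraMap_apply B' R0 R1, IsScalarTower.algebraMap_apply B' B R1]
  have et : algebraMap R0 R1 (algebraMap B' R0 t) = algebraMap B R1 (algebraMap B' B t) := by
    rw [← IsScalarTower.algebraMap_apply B' R0 R1, IsScalarTower.algebraMap_apply B' B R1]
  have h1 : maximalIdeal R1 = Ideal.span {algebraMap R0 R1 (algebraMap B' R0 π'),
      algebraMap B R1 X, algebraMap B R1 Y} := by rw [eπ]; exact hm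
  have hXY : algebraMap R0 R1 (algebraMap B' R0 π') ∣ algebraMap B R1 X * algebraMap B R1 Y := by
    rw [eπ]; exact Ideal.mem_span_singleton.mp hXYmem
  have hrel' : algebraMap R0 R1 (algebraMap B' R0 π') ∣ algebraMap R0 R1 (algebraMap B' R0 t) -
      u1 * algebraMap B R1 Y - u2 * algebraMap B R1 X ^ q := by rw [eπ, et]; exact hrel
  have hle : Ideal.span {algebraMap R0 R1 (algebraMap B' R0 π'),
      algebraMap R0 R1 (algebraMap B' R0 t)} ≤
      Ideal.map (algebraMap R0 R1) (maximalIdeal R0) := by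
    rw [Ideal.span_le]
    intro z hz
    rcases hz with rfl | rfl
    · exact Ideal.mem_map_of_mem _ (by rw [h0]; exact Ideal.subset_span (by simp))
    · exact Ideal.mem_map_of_mem _ (by rw [h0]; exact Ideal.subset_span (by simp))
  refine ⟨hfin, X, hk₁ hX1, hX1, hX2', ?_, ?_, ?_, ?_⟩
  · exact NodeMono.span_pow_eq_top hres _ _ h0 _ _ h1 hXY q hq0 u1 u2 hunit₁ hunit₂ hrel'
  · exact NodeMono.adjoin_eq_top hres _ _ h0 _ _ h1 hXY q hq0 u1 u2 hunit₁ hunit₂ hrel'
  · exact hle (NodeMono.pow_succ_mem _ _ _ _ hXY q u1 u2 hunit₂ hrel')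
  · intro hmem
    rw [h0, Ideal.map_span, Set.image_pair, Ideal.mem_span_pair] at hmem
    obtain ⟨a, b, hab⟩ := hmem
    have h3 := congrArg (Comp.locMap s₂ 𝔫 R1 (𝔫.map s₂) hcomap₂
      (Localization.AtPrime (𝔫.map s₂))) hab
    rw [eπ, et, map_add, map_mul, map_mul, Comp.locMap_algebraMap, Comp.locMap_algebraMap,
      Comp.locMap_algebraMap, RingHom.mem_ker.mp hπmem.2, map_zero, mul_zero, zero_add, h₂,
      map_pow] at h3
    obtain ⟨k, rfl⟩ : ∃ k, q = k + 2 := ⟨q - 2, by omega⟩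
    have h4 : algebraMap E (Localization.AtPrime (𝔫.map s₂)) (s₂ X) =
        algebraMap E (Localization.AtPrime (𝔫.map s₂)) (p₂ t) *
          (Comp.locMap s₂ 𝔫 R1 (𝔫.map s₂) hcomap₂ (Localization.AtPrime (𝔫.map s₂)) b *
            algebraMap E (Localization.AtPrime (𝔫.map s₂)) (p₂ t) ^ (k + 1)) := by
      rw [← h3]; ring
    rcases hirrX.isUnit_or_isUnit h4 with hu | hu
    · exact hirrT₂.not_isUnit hu
    · exact hirrT₂.not_isUnit ((isUnit_pow_succ_iff).mp (isUnit_of_mul_isUnit_right hu))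

/-- **`R1` is ramified over `R0` at `X`.**  If `x ^ n ∈ 𝔪₀ R1`, `x ∉ 𝔪₀ R1` and `F(x) = 0`
for a polynomial `F` over the local ring `R0`, then `F'(x)` is not a unit of `R1`. -/
theorem not_isUnit_aeval_derivative {R0 R1 : Type*} [CommRing R0] [IsLocalRing R0] [CommRing R1]
    [Algebra R0 R1] (x : R1) (n : ℕ)
    (hnil : x ^ n ∈ Ideal.map (algebraMap R0 R1) (maximalIdeal R0))
    (hx : x ∉ Ideal.map (algebraMap R0 R1) (maximalIdeal R0))
    (F : Polynomial R0) (hF : Polynomial.aeval x F = 0) :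
    ¬ IsUnit (Polynomial.aeval x (Polynomial.derivative F)) := by
  intro hunit
  set J := Ideal.map (algebraMap R0 R1) (maximalIdeal R0) with hJ
  have hJtop : J ≠ ⊤ := fun h => hx (h ▸ Submodule.mem_top)
  -- `F = G T + a`
  have hdec : F.divX * Polynomial.X + Polynomial.C (F.coeff 0) = F := Polynomial.divX_mul_X_add F
  have hF' : Polynomial.aeval x F.divX * x + algebraMap R0 R1 (F.coeff 0) = 0 := by
    rw [← hF]
    conv_rhs => rw [← hdec]
    rw [map_add, map_mul, Polynomial.aeval_X, Polynomial.aeval_C]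
  have hder : Polynomial.aeval x (Polynomial.derivative F) =
      Polynomial.aeval x (Polynomial.derivative F.divX) * x + Polynomial.aeval x F.divX := by
    conv_lhs => rw [← hdec]
    rw [Polynomial.derivative_add, Polynomial.derivative_mul, Polynomial.derivative_X,
      Polynomial.derivative_C, mul_one, add_zero, map_add, map_mul, Polynomial.aeval_X]
  -- the constant term lies in the maximal ideal
  have ha : F.coeff 0 ∈ maximalIdeal R0 := by
    by_contra hnu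
    have hu : IsUnit (F.coeff 0) := by
      by_contra h
      exact hnu ((mem_maximalIdeal _).mpr h)
    have hu' : IsUnit (algebraMap R0 R1 (F.coeff 0)) := hu.map _
    have e1 : algebraMap R0 R1 (F.coeff 0) = x * (-Polynomial.aeval x F.divX) := by
      linear_combination hF'
    rw [e1] at hu'
    have hxu : IsUnit x := isUnit_of_mul_isUnit_left hu'
    exact hJtop (Ideal.eq_top_of_isUnit_mem _ hnil (hxu.pow n))
  have hGx : Polynomial.aeval x F.divX * x ∈ J := by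
    have e1 : Polynomial.aeval x F.divX * x = -algebraMap R0 R1 (F.coeff 0) := by
      linear_combination hF'
    rw [e1]
    exact neg_mem (Ideal.mem_map_of_mem _ ha)
  -- modulo `J`, `G(x)` is a unit and `x` is nilpotent
  have hnilq : IsNilpotent (Ideal.Quotient.mk J x) :=
    ⟨n, by rw [← map_pow]; exact Ideal.Quotient.eq_zero_iff_mem.mpr hnil⟩
  have hGu : IsUnit (Ideal.Quotient.mk J (Polynomial.aeval x F.divX)) := by
    have e1 : Ideal.Quotient.mk J (Polynomial.aeval x F.divX) =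
        Ideal.Quotient.mk J (Polynomial.aeval x (Polynomial.derivative F)) +
          -(Ideal.Quotient.mk J (Polynomial.aeval x (Polynomial.derivative F.divX)) *
            Ideal.Quotient.mk J x) := by
      rw [hder, map_add, map_mul]; ring
    rw [e1]
    have hn2 : IsNilpotent (-(Ideal.Quotient.mk J (Polynomial.aeval x
        (Polynomial.derivative F.divX)) * Ideal.Quotient.mk J x)) :=
      (Commute.isNilpotent_mul_left (Commute.all _ _) hnilq).neg
    exact hn2.isUnit_add_left_of_commute (hunit.map _) (Commute.all _ _)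
  apply hx
  have h0 : Ideal.Quotient.mk J (Polynomial.aeval x F.divX) * Ideal.Quotient.mk J x = 0 := by
    rw [← map_mul]
    exact Ideal.Quotient.eq_zero_iff_mem.mpr hGx
  exact Ideal.Quotient.eq_zero_iff_mem.mp ((hGu.mul_right_eq_zero).mp h0)

end Main

end Fermat.Agent.S36.NodeOver
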