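import Mathlib

/-!
# S36 (R-ord): abstract local algebra at one-branch points

Mathlib-only lemmas used for the regularity of the chart of level `M' q ^ 2` at the ordinary
points of the special fibre (and reusable at every point with a principal branch).

* `prime_eq_span_of_le_sup` : a finitely generated prime `𝔮 ∌ π` (`π` in the Jacobson radical) whose
  image modulo `π` is generated by the image of `a ∈ 𝔮` is `(a)` (Nakayama).
* `isPrincipal_of_quotient_pir`, `exists_prime_mem_of_quotient_pir`, `ufd_of_quotient_pir` :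
  if `R` is a noetherian domain, `π ≠ 0` lies in the Jacobson radical, `(π)` is prime and
  `R ⧸ (π)` is a principal ideal ring, then every prime not containing `π` is principal and `R` is a
  unique factorisation domain (Kaplansky's criterion).
* `surjective_of_sandwich`, `isDiscreteValuationRing_of_sandwich` : a domain `D'`, not a field,
  that is generically generated by the image of a discrete valuation ring `D ↪ D'` is equal to
  that image, hence a discrete valuation ring.
* `branch_dvr`, `branch_ufd` : the packaged statement for a local homomorphism `R1 → R2`.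
-/

set_option autoImplicit false

namespace Fermat.Agent.S36.OrdAbs

open IsLocalRing

section Principal

variable {R : Type*} [CommRing R]

/-- **Nakayama for a prime**: a finitely generated prime ideal `𝔮` not containing `π`, with `π` in
the Jacobson radical, which is generated by `a ∈ 𝔮` modulo `π`, is generated by `a`. -/
theorem prime_eq_span_of_le_sup (π a : R) (𝔮 : Ideal R) [𝔮.IsPrime] (hfg : 𝔮.FG)
    (hπ : π ∈ Ideal.jacobson (⊥ : Ideal R)) (hπ𝔮 : π ∉ 𝔮) (ha : a ∈ 𝔮)
    (hle : 𝔮 ≤ Ideal.span {a} ⊔ Ideal.span {π}) : 𝔮 = Ideal.span {a} := by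
  refine le_antisymm ?_ ((Ideal.span_singleton_le_iff_mem 𝔮).2 ha)
  refine Submodule.le_of_le_smul_of_le_jacobson_bot (I := Ideal.span {π}) hfg
    ((Ideal.span_singleton_le_iff_mem _).2 hπ) ?_
  intro y hy
  obtain ⟨y₁, hy₁, y₂, hy₂, rfl⟩ := Submodule.mem_sup.1 (hle hy)
  obtain ⟨s, rfl⟩ := Ideal.mem_span_singleton'.1 hy₂
  have hs : s ∈ 𝔮 := by
    have h1 : s * π ∈ 𝔮 := by
      have h2 : s * π = (y₁ + s * π) - y₁ := by ring
      rw [h2]
      exact 𝔮.sub_mem hy ((Ideal.span_singleton_le_iff_mem 𝔮).2 ha hy₁)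
    exact (Ideal.IsPrime.mem_or_mem ‹𝔮.IsPrime› h1).resolve_right hπ𝔮
  refine Submodule.add_mem_sup hy₁ ?_
  have h3 : s * π = π • s := by rw [smul_eq_mul, mul_comm]
  rw [h3]
  exact Submodule.smul_mem_smul (Ideal.mem_span_singleton_self π) hs

variable [IsNoetherianRing R]

/-- If `R ⧸ (π)` is a principal ideal ring and `π` lies in the Jacobson radical, every prime ideal
of `R` not containing `π` is generated by one of its elements. -/
theorem exists_eq_span_of_quotient_pir (π : R) (hπ : π ∈ Ideal.jacobson (⊥ : Ideal R))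
    [IsPrincipalIdealRing (R ⧸ Ideal.span {π})] (𝔮 : Ideal R) [𝔮.IsPrime] (hπ𝔮 : π ∉ 𝔮) :
    ∃ a ∈ 𝔮, 𝔮 = Ideal.span {a} := by
  have hsurj : Function.Surjective (Ideal.Quotient.mk (Ideal.span {π})) :=
    Ideal.Quotient.mk_surjective
  obtain ⟨g, hg⟩ := (IsPrincipalIdealRing.principal
    (𝔮.map (Ideal.Quotient.mk (Ideal.span {π})))).principal
  have hgmem : g ∈ 𝔮.map (Ideal.Quotient.mk (Ideal.span {π})) := by
    rw [hg]; exact Submodule.mem_span_singleton_self g
  obtain ⟨a, ha, rfl⟩ := (Ideal.mem_map_iff_of_surjective _ hsurj).1 hgmem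
  refine ⟨a, ha, prime_eq_span_of_le_sup π a 𝔮 (IsNoetherian.noetherian 𝔮) hπ hπ𝔮 ha ?_⟩
  intro y hy
  have hy' : Ideal.Quotient.mk (Ideal.span {π}) y ∈
      𝔮.map (Ideal.Quotient.mk (Ideal.span {π})) := Ideal.mem_map_of_mem _ hy
  rw [hg] at hy'
  obtain ⟨r, hr⟩ := Submodule.mem_span_singleton.1 hy'
  obtain ⟨r', rfl⟩ := hsurj r
  have h1 : y - r' * a ∈ Ideal.span {π} := by
    rw [← Ideal.Quotient.eq]
    rw [map_mul]
    exact hr.symm
  have h2 : y = r' * a + (y - r' * a) := by ring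
  rw [h2]
  exact Submodule.add_mem_sup (Ideal.mem_span_singleton'.2 ⟨r', rfl⟩) h1

/-- The same as a statement about `Submodule.IsPrincipal`. -/
theorem isPrincipal_of_quotient_pir (π : R) (hπ : π ∈ Ideal.jacobson (⊥ : Ideal R))
    [IsPrincipalIdealRing (R ⧸ Ideal.span {π})] (𝔮 : Ideal R) [𝔮.IsPrime] (hπ𝔮 : π ∉ 𝔮) :
    𝔮.IsPrincipal := by
  obtain ⟨a, -, ha⟩ := exists_eq_span_of_quotient_pir π hπ 𝔮 hπ𝔮
  exact ⟨⟨a, ha⟩⟩

/-- Every nonzero prime of `R` contains a prime element, if `(π)` is a nonzero prime contained in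
the Jacobson radical with `R ⧸ (π)` a principal ideal ring. -/
theorem exists_prime_mem_of_quotient_pir [IsDomain R] (π : R) (hπ0 : π ≠ 0)
    (hπ : π ∈ Ideal.jacobson (⊥ : Ideal R)) (hprime : (Ideal.span {π}).IsPrime)
    [IsPrincipalIdealRing (R ⧸ Ideal.span {π})] (𝔮 : Ideal R) (h𝔮0 : 𝔮 ≠ ⊥) [𝔮.IsPrime] :
    ∃ x ∈ 𝔮, Prime x := by
  by_cases hπ𝔮 : π ∈ 𝔮
  · exact ⟨π, hπ𝔮, (Ideal.span_singleton_prime hπ0).1 hprime⟩
  · obtain ⟨a, ha, h𝔮⟩ := exists_eq_span_of_quotient_pir π hπ 𝔮 hπ𝔮
    have ha0 : a ≠ 0 := by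
      rintro rfl
      apply h𝔮0
      rw [h𝔮]
      exact Ideal.span_singleton_eq_bot.2 rfl
    refine ⟨a, ha, (Ideal.span_singleton_prime ha0).1 ?_⟩
    rw [← h𝔮]
    infer_instance

/-- **A domain with a principal prime `(π)` in the Jacobson radical and `R ⧸ (π)` a principal
ideal ring is a unique factorisation domain.**  (For a local ring: `R` is regular of dimension
`≤ 2`.) -/
theorem ufd_of_quotient_pir [IsDomain R] (π : R) (hπ0 : π ≠ 0)
    (hπ : π ∈ Ideal.jacobson (⊥ : Ideal R)) (hprime : (Ideal.span {π}).IsPrime)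
    [IsPrincipalIdealRing (R ⧸ Ideal.span {π})] : UniqueFactorizationMonoid R :=
  UniqueFactorizationMonoid.iff_exists_prime_mem_of_isPrime.2 fun 𝔮 h𝔮0 h𝔮 =>
    haveI := h𝔮
    exists_prime_mem_of_quotient_pir π hπ0 hπ hprime 𝔮 h𝔮0

end Principal

section Sandwich

variable {D D' : Type*} [CommRing D] [IsDomain D] [IsDiscreteValuationRing D]
  [CommRing D'] [IsDomain D']

/-- **DVR sandwich**: let `φ : D → D'` be an injective homomorphism from a discrete valuation ring
to a domain which is not a field, such that every element of `D'` is a quotient of two elements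
of `φ D`.  Then `φ` is surjective. -/
theorem surjective_of_sandwich (φ : D →+* D') (hinj : Function.Injective φ)
    (hgen : ∀ y : D', ∃ a b : D, b ≠ 0 ∧ y * φ b = φ a) (hnf : ¬ IsField D') :
    Function.Surjective φ := by
  obtain ⟨ϖ, hϖ⟩ := IsDiscreteValuationRing.exists_irreducible D
  have hφ0 : ∀ b : D, b ≠ 0 → φ b ≠ 0 := fun b hb h => hb (hinj (by rw [h, map_zero]))
  -- `φ ϖ` is not a unit, otherwise `D'` is a field
  have hϖu : ¬ IsUnit (φ ϖ) := by
    intro hu
    apply hnf
    refine ⟨exists_pair_ne D', mul_comm, fun {y} hy => ?_⟩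
    obtain ⟨a, b, hb, hab⟩ := hgen y
    have ha : a ≠ 0 := by
      rintro rfl
      rw [map_zero] at hab
      exact (mul_ne_zero hy (hφ0 b hb)) hab
    obtain ⟨m, u, rfl⟩ := IsDiscreteValuationRing.eq_unit_mul_pow_irreducible ha hϖ
    have hunit : IsUnit (y * φ b) := by
      rw [hab, map_mul, map_pow]
      exact (u.isUnit.map φ).mul (hu.pow m)
    obtain ⟨z, hz⟩ := (isUnit_of_mul_isUnit_left hunit).exists_right_inv
    exact ⟨z, hz⟩
  intro y
  obtain ⟨a, b, hb, hab⟩ := hgen y
  by_cases ha : a = 0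
  · subst ha
    rw [map_zero] at hab
    refine ⟨0, ?_⟩
    rw [map_zero]
    exact ((mul_eq_zero.1 hab).resolve_right (hφ0 b hb)).symm
  obtain ⟨m, u, rfl⟩ := IsDiscreteValuationRing.eq_unit_mul_pow_irreducible ha hϖ
  obtain ⟨n, v, rfl⟩ := IsDiscreteValuationRing.eq_unit_mul_pow_irreducible hb hϖ
  rcases le_or_gt n m with hnm | hnm
  · refine ⟨(u * v⁻¹ : Dˣ) * ϖ ^ (m - n), ?_⟩
    apply mul_right_cancel₀ (hφ0 _ hb)
    rw [hab, ← map_mul]
    congr 1
    have h1 : ϖ ^ m = ϖ ^ (m - n) * ϖ ^ n := by rw [← pow_add, Nat.sub_add_cancel hnm]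
    rw [h1, Units.val_mul]
    have h2 : (v⁻¹ : Dˣ) * (v : D) = 1 := by rw [← Units.val_mul, inv_mul_cancel, Units.val_one]
    calc ((u : D) * ((v⁻¹ : Dˣ) : D)) * ϖ ^ (m - n) * ((v : D) * ϖ ^ n)
        = (u : D) * (((v⁻¹ : Dˣ) : D) * (v : D)) * (ϖ ^ (m - n) * ϖ ^ n) := by ring
      _ = (u : D) * (ϖ ^ (m - n) * ϖ ^ n) := by rw [h2, mul_one]
  · exfalso
    apply hϖu
    have h1 : ϖ ^ n = ϖ ^ (n - m) * ϖ ^ m := by rw [← pow_add, Nat.sub_add_cancel hnm.le]
    have h3 : (y * φ v * φ ϖ ^ (n - m)) * φ ϖ ^ m = φ u * φ ϖ ^ m := by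
      have h4 : y * φ ((v : D) * ϖ ^ n) = φ ((u : D) * ϖ ^ m) := hab
      rw [h1, map_mul, map_mul, map_mul, map_pow, map_pow] at h4
      rw [← h4]; ring
    have h5 : y * φ v * φ ϖ ^ (n - m) = φ u :=
      mul_right_cancel₀ (pow_ne_zero m (hφ0 ϖ hϖ.ne_zero)) h3
    have h6 : IsUnit (φ ϖ ^ (n - m)) := by
      have : IsUnit (y * φ v * φ ϖ ^ (n - m)) := by rw [h5]; exact u.isUnit.map φ
      exact isUnit_of_mul_isUnit_right this
    exact (isUnit_pow_iff (by omega)).1 h6

/-- In the situation of `surjective_of_sandwich`, `D'` is a discrete valuation ring. -/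
theorem isDiscreteValuationRing_of_sandwich (φ : D →+* D') (hinj : Function.Injective φ)
    (hgen : ∀ y : D', ∃ a b : D, b ≠ 0 ∧ y * φ b = φ a) (hnf : ¬ IsField D') :
    IsDiscreteValuationRing D' :=
  IsDiscreteValuationRing.RingEquivClass.isDiscreteValuationRing
    (RingEquiv.ofBijective φ ⟨hinj, surjective_of_sandwich φ hinj hgen hnf⟩)

end Sandwich

section Local

variable {R : Type*} [CommRing R] [IsLocalRing R]

/-- In a local ring the Jacobson radical is the maximal ideal. -/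
theorem mem_jacobson_bot_of_mem_maximalIdeal {t : R} (ht : t ∈ maximalIdeal R) :
    t ∈ Ideal.jacobson (⊥ : Ideal R) := by
  rw [IsLocalRing.jacobson_eq_maximalIdeal ⊥ bot_ne_top]
  exact ht

variable [IsNoetherianRing R]

/-- **One-branch point, UFD form**: a noetherian local domain `R` with a nonzero prime element
`t` in its maximal ideal such that `R ⧸ (t)` is a principal ideal ring (e.g. a discrete valuation
ring) is a unique factorisation domain. -/
theorem branch_ufd [IsDomain R] (t : R) (ht0 : t ≠ 0) (htm : t ∈ maximalIdeal R)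
    (hprime : (Ideal.span {t}).IsPrime) [IsPrincipalIdealRing (R ⧸ Ideal.span {t})] :
    UniqueFactorizationMonoid R :=
  ufd_of_quotient_pir t ht0 (mem_jacobson_bot_of_mem_maximalIdeal htm) hprime

/-- **One-branch point, principal primes**: every prime not containing the branch generator `t`
is principal. -/
theorem branch_isPrincipal (t : R) (htm : t ∈ maximalIdeal R)
    [IsPrincipalIdealRing (R ⧸ Ideal.span {t})] (𝔮 : Ideal R) [𝔮.IsPrime] (ht𝔮 : t ∉ 𝔮) :
    𝔮.IsPrincipal :=
  isPrincipal_of_quotient_pir t (mem_jacobson_bot_of_mem_maximalIdeal htm) 𝔮 ht𝔮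

omit [IsNoetherianRing R] in
/-- **One-branch point, regular parameters**: if `R ⧸ (t)` is a principal ideal ring, the maximal
ideal of `R` is generated by `t` and one more element. -/
theorem branch_maximalIdeal (t : R) (htm : t ∈ maximalIdeal R)
    [IsPrincipalIdealRing (R ⧸ Ideal.span {t})] :
    ∃ y : R, maximalIdeal R = Ideal.span {t, y} := by
  have hsurj : Function.Surjective (Ideal.Quotient.mk (Ideal.span {t})) :=
    Ideal.Quotient.mk_surjective
  obtain ⟨g, hg⟩ := (IsPrincipalIdealRing.principal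
    ((maximalIdeal R).map (Ideal.Quotient.mk (Ideal.span {t})))).principal
  have hgmem : g ∈ (maximalIdeal R).map (Ideal.Quotient.mk (Ideal.span {t})) := by
    rw [hg]; exact Submodule.mem_span_singleton_self g
  obtain ⟨y, hy, rfl⟩ := (Ideal.mem_map_iff_of_surjective _ hsurj).1 hgmem
  refine ⟨y, le_antisymm ?_ ?_⟩
  · intro x hx
    have hx' : Ideal.Quotient.mk (Ideal.span {t}) x ∈
        (maximalIdeal R).map (Ideal.Quotient.mk (Ideal.span {t})) := Ideal.mem_map_of_mem _ hx
    rw [hg] at hx'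
    obtain ⟨r, hr⟩ := Submodule.mem_span_singleton.1 hx'
    obtain ⟨r', rfl⟩ := hsurj r
    have h1 : x - r' * y ∈ Ideal.span {t} := by
      rw [← Ideal.Quotient.eq, map_mul]
      exact hr.symm
    obtain ⟨c, hc⟩ := Ideal.mem_span_singleton'.1 h1
    rw [Ideal.mem_span_pair]
    exact ⟨c, r', by rw [hc]; ring⟩
  · rw [Ideal.span_le]
    rintro x (rfl | rfl)
    · exact htm
    · exact hy

end Local

section Pair

variable {R1 R2 : Type*} [CommRing R1] [CommRing R2] [Algebra R1 R2]

/-- **Ordinary point on a component of multiplicity one, branch form.**  `R1 → R2` a ring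
homomorphism, `q : R1` with `R1 ⧸ (q)` a discrete valuation ring (the local ring of the special
fibre of the lower level at a smooth point), `(q) R2` prime with contraction `(q)` (one branch,
multiplicity one), residue degree one (`hgen`), and `(q) R2` not maximal (`hnf`).  Then
`R2 ⧸ (q)` is a discrete valuation ring. -/
theorem ord_branch_dvr (q : R1)
    [IsDomain (R1 ⧸ Ideal.span {q})] [IsDiscreteValuationRing (R1 ⧸ Ideal.span {q})]
    [hprime : (Ideal.span {algebraMap R1 R2 q}).IsPrime]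
    (hcontr : ∀ x : R1, algebraMap R1 R2 x ∈ Ideal.span {algebraMap R1 R2 q} → x ∈ Ideal.span {q})
    (hgen : ∀ y : R2, ∃ a b : R1, b ∉ Ideal.span {q} ∧
      y * algebraMap R1 R2 b - algebraMap R1 R2 a ∈ Ideal.span {algebraMap R1 R2 q})
    (hnf : ∃ y : R2, y ∉ Ideal.span {algebraMap R1 R2 q} ∧
      ∀ z : R2, y * z - 1 ∉ Ideal.span {algebraMap R1 R2 q}) :
    IsDiscreteValuationRing (R2 ⧸ Ideal.span {algebraMap R1 R2 q}) := by
  have hle : Ideal.span {q} ≤ (Ideal.span {algebraMap R1 R2 q}).comap (algebraMap R1 R2) := by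
    rw [Ideal.span_le]
    rintro x rfl
    exact Ideal.mem_comap.2 (Ideal.mem_span_singleton_self _)
  let φ : R1 ⧸ Ideal.span {q} →+* R2 ⧸ Ideal.span {algebraMap R1 R2 q} :=
    Ideal.quotientMap _ (algebraMap R1 R2) hle
  have hφ : ∀ x : R1, φ (Ideal.Quotient.mk _ x) = Ideal.Quotient.mk _ (algebraMap R1 R2 x) :=
    fun x => Ideal.quotientMap_mk
  refine isDiscreteValuationRing_of_sandwich φ ?_ ?_ ?_
  · rw [injective_iff_map_eq_zero]
    intro x hx
    obtain ⟨x, rfl⟩ := Ideal.Quotient.mk_surjective x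
    rw [hφ, Ideal.Quotient.eq_zero_iff_mem] at hx
    exact Ideal.Quotient.eq_zero_iff_mem.2 (hcontr x hx)
  · intro y
    obtain ⟨y, rfl⟩ := Ideal.Quotient.mk_surjective y
    obtain ⟨a, b, hb, hab⟩ := hgen y
    refine ⟨Ideal.Quotient.mk _ a, Ideal.Quotient.mk _ b, ?_, ?_⟩
    · rw [Ne, Ideal.Quotient.eq_zero_iff_mem]; exact hb
    · rw [hφ, hφ, ← map_mul, Ideal.Quotient.eq]
      exact hab
  · rintro ⟨-, -, hinv⟩
    obtain ⟨y, hy, hyz⟩ := hnf
    have hy0 : Ideal.Quotient.mk (Ideal.span {algebraMap R1 R2 q}) y ≠ 0 := by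
      rw [Ne, Ideal.Quotient.eq_zero_iff_mem]; exact hy
    obtain ⟨z, hz⟩ := hinv hy0
    obtain ⟨z, rfl⟩ := Ideal.Quotient.mk_surjective z
    apply hyz z
    rw [← Ideal.Quotient.eq, map_mul, map_one]
    exact hz

end Pair

end Fermat.Agent.S36.OrdAbs
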