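import Mathlib
import Fermat.Agent.S34.Comp
import Fermat.Agent.S36.OrdAbs
import Fermat.Agent.S36.NodeOver

/-!
# S36 (R-ord): ordinary points of the components of multiplicity one, abstract chart form

`B` is a chart ring of level `M' q ^ 2` (noetherian), `𝔫` a maximal ideal containing the uniformiser
`π`.  The contract `K4` (`HorPrincipal`) asks, for every prime `𝔮 ≤ 𝔫` not containing `π`, for
`x ∈ 𝔮` and `d ∉ 𝔫` with `x ∣ d * y` for all `y ∈ 𝔮` (`𝔮 B_𝔫` is principal).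

* `exists_gen_of_map_eq_span` : the bridge from "`𝔮 B_𝔫 = (a)`" to that shape;
* `horPrincipal_of_quotient_pir` : the bridge from "`B_𝔫 ⧸ (u)` is a principal ideal ring,
  `u ∈ 𝔪`, `u ∉ 𝔮 B_𝔫`";
* `ker_locMap_eq_span_of_mult`, `horPrincipal_of_branch` : a branch `r : B → E` onto a Dedekind
  domain (the component `C_∞` or `C_0`, reduced, isomorphic to the special fibre of level `M'`)
  such that `π ∣ g * b` for all `b ∈ ker r` and one `g ∉ 𝔫` (no other component passes through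
  `𝔫`, and the component has multiplicity one): then `ker (B_𝔫 → E_𝔪) = (π)`, `B_𝔫 ⧸ (π)` is a
  discrete valuation ring, and `HorPrincipal` holds at `𝔫`;
* `exists_mult_of_prod` : the multiplier `g` from `𝔭 * 𝔭' ^ e * 𝔭'' ⊆ (π)` and `𝔭', 𝔭'' ⊄ 𝔫`;
* `node_alpha_of_node_beta`, `node_beta_of_node_alpha` : for a point `𝔫` of level `M' q ^ 2` the
  image under `α` is a crossing point of level `M' q` iff the image under `β` is one;
* `not_two_through` : at a point whose `α`-image is not a crossing point, at most one of the three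
  vertical primes `𝔭_∞, 𝔭_mid, 𝔭_0` passes through `𝔫` (going down through `α` and `β`).
-/

set_option autoImplicit false
set_option linter.style.haveILetI false

namespace Fermat.Agent.S36.OrdPoint

open IsLocalRing Fermat.Agent.S34

/-! ### The bridge to the shape of `HorPrincipal` -/

section Bridge

variable {B : Type*} [CommRing B] (𝔫 : Ideal B) [𝔫.IsPrime]
  (R : Type*) [CommRing R] [Algebra B R] [IsLocalization.AtPrime R 𝔫]

/-- A finitely generated ideal whose extension to `B_𝔫` is principal is generated, up to one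
denominator `d ∉ 𝔫`, by one of its elements. -/
theorem exists_gen_of_map_eq_span (𝔮 : Ideal B) (hfg : 𝔮.FG) (a : R)
    (ha : 𝔮.map (algebraMap B R) = Ideal.span {a}) :
    ∃ x ∈ 𝔮, ∃ d, d ∉ 𝔫 ∧ ∀ y ∈ 𝔮, x ∣ d * y := by
  classical
  have hamem : a ∈ 𝔮.map (algebraMap B R) := by
    rw [ha]; exact Ideal.mem_span_singleton_self a
  obtain ⟨⟨x, s⟩, hxs⟩ := (IsLocalization.mem_map_algebraMap_iff 𝔫.primeCompl R).1 hamem
  refine ⟨x, x.2, ?_⟩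
  have key : ∀ y ∈ 𝔮, ∃ d, d ∉ 𝔫 ∧ (x : B) ∣ d * y := by
    intro y hy
    have hy' : algebraMap B R y ∈ Ideal.span {a} := by
      rw [← ha]; exact Ideal.mem_map_of_mem _ hy
    obtain ⟨c, hc⟩ := Ideal.mem_span_singleton'.1 hy'
    obtain ⟨c', s', hs', hcs⟩ := Comp.exists_mul_eq (𝔫 := 𝔫) c
    have h1 : algebraMap B R (y * (s : B) * s') = algebraMap B R ((x : B) * c') := by
      rw [map_mul, map_mul, map_mul, ← hc, ← hxs, ← hcs]; ring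
    obtain ⟨t, ht⟩ := (IsLocalization.eq_iff_exists 𝔫.primeCompl R).1 h1
    refine ⟨(t : B) * s * s', ?_, ⟨(t : B) * c', ?_⟩⟩
    · intro hmem
      rcases Ideal.IsPrime.mem_or_mem ‹𝔫.IsPrime› hmem with h | h
      · rcases Ideal.IsPrime.mem_or_mem ‹𝔫.IsPrime› h with h | h
        · exact t.2 h
        · exact s.2 h
      · exact hs' h
    · linear_combination ht
  obtain ⟨G, hG⟩ := hfg
  choose! f hf using key
  refine ⟨∏ y ∈ G, f y, ?_, ?_⟩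
  · intro hmem
    obtain ⟨y, hyG, hy⟩ := (Ideal.IsPrime.prod_mem_iff (hp := ‹𝔫.IsPrime›)).1 hmem
    exact (hf y (hG ▸ Ideal.subset_span hyG)).1 hy
  · intro y hy
    rw [← hG] at hy
    induction hy using Submodule.span_induction with
    | mem y hyG =>
      obtain ⟨k, hk⟩ := (hf y (hG ▸ Ideal.subset_span hyG)).2
      obtain ⟨k', hk'⟩ := Finset.dvd_prod_of_mem f hyG
      refine ⟨k' * k, ?_⟩
      rw [hk']
      linear_combination k' * hk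
    | zero => rw [mul_zero]; exact dvd_zero _
    | add y z _ _ hy hz => rw [mul_add]; exact dvd_add hy hz
    | smul c y _ hy =>
      rw [smul_eq_mul, mul_left_comm]
      exact Dvd.dvd.mul_left hy c

variable [IsNoetherianRing B] [IsLocalRing R]

/-- **Bridge**: if `B_𝔫 ⧸ (u)` is a principal ideal ring for some `u` in the maximal ideal, then
every prime `𝔮 ≤ 𝔫` of `B` with `u ∉ 𝔮 B_𝔫` is principal at `𝔫`, in the shape of `HorPrincipal`. -/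
theorem horPrincipal_of_quotient_pir (u : R) (hu : u ∈ maximalIdeal R)
    [IsPrincipalIdealRing (R ⧸ Ideal.span {u})] (𝔮 : Ideal B) [𝔮.IsPrime] (h𝔮 : 𝔮 ≤ 𝔫)
    (hu𝔮 : u ∉ 𝔮.map (algebraMap B R)) :
    ∃ x ∈ 𝔮, ∃ d, d ∉ 𝔫 ∧ ∀ y ∈ 𝔮, x ∣ d * y := by
  haveI : IsNoetherianRing R := IsLocalization.isNoetherianRing 𝔫.primeCompl R inferInstance
  have hdisj : Disjoint (𝔫.primeCompl : Set B) (𝔮 : Set B) := by
    rw [Set.disjoint_left]
    intro x hx hx𝔮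
    exact hx (h𝔮 hx𝔮)
  haveI : (𝔮.map (algebraMap B R)).IsPrime :=
    IsLocalization.isPrime_of_isPrime_disjoint 𝔫.primeCompl R 𝔮 inferInstance hdisj
  obtain ⟨a, -, ha⟩ := OrdAbs.exists_eq_span_of_quotient_pir u
    (OrdAbs.mem_jacobson_bot_of_mem_maximalIdeal hu) (𝔮.map (algebraMap B R)) hu𝔮
  exact exists_gen_of_map_eq_span 𝔫 R 𝔮 (IsNoetherian.noetherian 𝔮) a ha

end Bridge

/-! ### A branch of multiplicity one through which no other component passes -/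

section Branch

variable {B E : Type*} [CommRing B] [CommRing E] [IsDomain E] (r : B →+* E)
  (𝔫 : Ideal B) [𝔫.IsPrime] (R : Type*) [CommRing R] [Algebra B R] [IsLocalization.AtPrime R 𝔫]
  (𝔪 : Ideal E) [𝔪.IsPrime] (h𝔪 : 𝔪.comap r = 𝔫)
  (D : Type*) [CommRing D] [Algebra E D] [IsLocalization.AtPrime D 𝔪]

/-- If `π ∣ g * b` for every `b ∈ ker r` and one `g ∉ 𝔫`, the kernel of `B_𝔫 → E_𝔪` is `(π)`. -/
theorem ker_locMap_eq_span_of_mult (π : B) (hπ : r π = 0)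
    (hS : ∃ g, g ∉ 𝔫 ∧ ∀ b, r b = 0 → π ∣ g * b) :
    RingHom.ker (Comp.locMap r 𝔫 R 𝔪 h𝔪 D) = Ideal.span {algebraMap B R π} := by
  obtain ⟨g, hg𝔫, hg⟩ := hS
  apply le_antisymm
  · intro x hx
    obtain ⟨b, s, hs, hxs⟩ := Comp.exists_mul_eq (𝔫 := 𝔫) x
    have hb1 : r b = 0 := (Comp.locMap_eq_zero_iff h𝔪 hs hxs).mp hx
    obtain ⟨c, hc⟩ := hg b hb1
    obtain ⟨v, hv⟩ := Comp.isUnit_algebraMap (R := R) hs
    obtain ⟨v', hv'⟩ := Comp.isUnit_algebraMap (R := R) hg𝔫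
    rw [Ideal.mem_span_singleton]
    refine ⟨algebraMap B R c * (v⁻¹ : Rˣ) * (v'⁻¹ : Rˣ), ?_⟩
    have h1 : x = algebraMap B R b * (v⁻¹ : Rˣ) := by
      rw [← hxs, ← hv, mul_assoc, Units.mul_inv, mul_one]
    have h2 : algebraMap B R g * algebraMap B R b = algebraMap B R π * algebraMap B R c := by
      rw [← map_mul, hc, map_mul]
    have h3 : algebraMap B R b = algebraMap B R π * algebraMap B R c * (v'⁻¹ : Rˣ) := by
      rw [← h2, ← hv', mul_comm (v' : R), mul_assoc, Units.mul_inv, mul_one]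
    rw [h1, h3]
    ring
  · rw [Ideal.span_le]
    intro x hx
    rw [Set.mem_singleton_iff.mp hx, SetLike.mem_coe, RingHom.mem_ker, Comp.locMap_algebraMap,
      hπ, map_zero]

end Branch

section BranchMain

variable {B E : Type*} [CommRing B] [IsNoetherianRing B] [CommRing E] [IsDedekindDomain E]

/-- **Ordinary point of a component of multiplicity one, `HorPrincipal` form.**  `r : B → E` a
surjection onto a Dedekind domain which is not a field, `π ∈ ker r`, `𝔫 ⊇ ker r` maximal, and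
`π ∣ g * b` for all `b ∈ ker r` and one `g ∉ 𝔫`.  Then every prime `𝔮 ≤ 𝔫` not containing `π`
becomes principal in `B_𝔫`. -/
theorem horPrincipal_of_branch (hE : ¬ IsField E) (r : B →+* E) (hr : Function.Surjective r)
    (π : B) (hπ : r π = 0) (𝔫 : Ideal B) [𝔫.IsMaximal] (h𝔫 : RingHom.ker r ≤ 𝔫)
    (hS : ∃ g, g ∉ 𝔫 ∧ ∀ b, r b = 0 → π ∣ g * b)
    (𝔮 : Ideal B) [𝔮.IsPrime] (h𝔮 : 𝔮 ≤ 𝔫) (hπ𝔮 : π ∉ 𝔮) :
    ∃ x ∈ 𝔮, ∃ d, d ∉ 𝔫 ∧ ∀ y ∈ 𝔮, x ∣ d * y := by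
  haveI h𝔪max : (𝔫.map r).IsMaximal := Comp.map_isMaximal r hr 𝔫 h𝔫
  have h𝔪 : (𝔫.map r).comap r = 𝔫 := Comp.comap_map_eq r hr 𝔫 h𝔫
  have h𝔪ne : 𝔫.map r ≠ ⊥ := Ring.ne_bot_of_isMaximal_of_not_isField h𝔪max hE
  haveI : IsDiscreteValuationRing (Localization.AtPrime (𝔫.map r)) :=
    IsLocalization.AtPrime.isDiscreteValuationRing_of_dedekind_domain E h𝔪ne _
  set R := Localization.AtPrime 𝔫 with hR
  set φ := Comp.locMap r 𝔫 R (𝔫.map r) h𝔪 (Localization.AtPrime (𝔫.map r)) with hφ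
  have hφs : Function.Surjective φ := Comp.locMap_surjective h𝔪 hr
  have hker : RingHom.ker φ = Ideal.span {algebraMap B R π} :=
    ker_locMap_eq_span_of_mult r 𝔫 R (𝔫.map r) h𝔪 _ π hπ hS
  let e : (R ⧸ Ideal.span {algebraMap B R π}) ≃+* Localization.AtPrime (𝔫.map r) :=
    (Ideal.quotEquivOfEq hker.symm).trans (RingHom.quotientKerEquivOfSurjective hφs)
  haveI : IsPrincipalIdealRing (R ⧸ Ideal.span {algebraMap B R π}) :=
    IsPrincipalIdealRing.of_surjective (e.symm : Localization.AtPrime (𝔫.map r) →+* _)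
      e.symm.surjective
  have hπ𝔫 : π ∈ 𝔫 := h𝔫 (RingHom.mem_ker.2 hπ)
  have hu : algebraMap B R π ∈ maximalIdeal R := by
    rw [← IsLocalization.AtPrime.map_eq_maximalIdeal 𝔫 R]
    exact Ideal.mem_map_of_mem _ hπ𝔫
  have hdisj : Disjoint (𝔫.primeCompl : Set B) (𝔮 : Set B) := by
    rw [Set.disjoint_left]
    intro x hx hx𝔮
    exact hx (h𝔮 hx𝔮)
  have hu𝔮 : algebraMap B R π ∉ 𝔮.map (algebraMap B R) := by
    intro hmem
    apply hπ𝔮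
    have h := IsLocalization.under_map_of_isPrime_disjoint 𝔫.primeCompl R
      (inferInstance : 𝔮.IsPrime) hdisj
    rw [← h]
    exact Ideal.mem_comap.2 hmem
  exact horPrincipal_of_quotient_pir 𝔫 R (algebraMap B R π) hu 𝔮 h𝔮 hu𝔮

end BranchMain

/-! ### The multiplier from the product relation -/

section Mult

variable {B : Type*} [CommRing B]

/-- If `𝔭 * 𝔭' ^ e * 𝔭'' ⊆ (π)` elementwise and neither `𝔭'` nor `𝔭''` is contained in the prime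
`𝔫`, then one `g ∉ 𝔫` multiplies `𝔭` into `(π)`. -/
theorem exists_mult_of_prod (π : B) (𝔭 𝔭' 𝔭'' : Ideal B) (e : ℕ)
    (hprod : ∀ x ∈ 𝔭, ∀ y ∈ 𝔭', ∀ z ∈ 𝔭'', π ∣ x * y ^ e * z)
    (𝔫 : Ideal B) [𝔫.IsPrime] (h' : ¬ 𝔭' ≤ 𝔫) (h'' : ¬ 𝔭'' ≤ 𝔫) :
    ∃ g, g ∉ 𝔫 ∧ ∀ b ∈ 𝔭, π ∣ g * b := by
  obtain ⟨y, hy, hy𝔫⟩ := SetLike.not_le_iff_exists.1 h'
  obtain ⟨z, hz, hz𝔫⟩ := SetLike.not_le_iff_exists.1 h''
  refine ⟨y ^ e * z, ?_, ?_⟩
  · intro hmem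
    rcases Ideal.IsPrime.mem_or_mem ‹𝔫.IsPrime› hmem with h | h
    · exact hy𝔫 (Ideal.IsPrime.mem_of_pow_mem ‹𝔫.IsPrime› e h)
    · exact hz𝔫 h
  · intro b hb
    have h := hprod b hb y hy z hz
    have h2 : y ^ e * z * b = b * y ^ e * z := by ring
    rw [h2]
    exact h

end Mult

/-! ### Going down through `α` and `β` -/

section Down

variable {B₀ B₁ B₂ E : Type*} [CommRing B₀] [CommRing B₁] [CommRing B₂] [CommRing E] [IsDomain E]
  (a₁ b₁ : B₀ →+* B₁) (a₂ b₂ : B₁ →+* B₂) (w : B₁ →+* B₁)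
  (p p₂ : B₀ →+* E) (s₁ s₂ : B₁ →+* E) (π₀ : B₀) (q : ℕ)

/-- **Crossing points are symmetric under `α ↔ β`.**  `a₁ b₁ : B₀ → B₁` and `a₂ b₂ : B₁ → B₂` the
degeneracy maps of the charts of levels `M'`, `M' q`, `M' q ^ 2` (`a₂ ∘ b₁ = b₂ ∘ a₁`), `w` the
Atkin–Lehner involution of `B₁` (`w ∘ a₁ = b₁`), `s₁`, `s₂ = s₁ ∘ w : B₁ → E` the two reductions
of level `M' q` with `(π) = ker s₁ ⊓ ker s₂`, `s₁ ∘ a₁ = p` and `s₂ (a₁ c) = (p₂ c) ^ q` (`p`, `p₂`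
onto).  If the image under `b₂` of a prime `𝔫` of `B₂` is a crossing point of level `M' q`, so is
its image under `a₂`. -/
theorem node_alpha_of_node_beta (hsq : ∀ c, a₂ (b₁ c) = b₂ (a₁ c))
    (hww : ∀ x, w (w x) = x) (hw : ∀ c, w (a₁ c) = b₁ c) (hs₂ : ∀ x, s₂ x = s₁ (w x))
    (hq : 0 < q) (hp : Function.Surjective p) (hp₂ : Function.Surjective p₂)
    (hπ : Ideal.span {a₁ π₀} = RingHom.ker s₁ ⊓ RingHom.ker s₂)
    (h₁ : ∀ c, s₁ (a₁ c) = p c) (h₂ : ∀ c, s₂ (a₁ c) = p₂ c ^ q)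
    (𝔫 : Ideal B₂) [𝔫.IsPrime]
    (hβ1 : RingHom.ker s₁ ≤ 𝔫.comap b₂) (hβ2 : RingHom.ker s₂ ≤ 𝔫.comap b₂) :
    RingHom.ker s₁ ≤ 𝔫.comap a₂ ∧ RingHom.ker s₂ ≤ 𝔫.comap a₂ := by
  letI : Algebra B₀ B₁ := a₁.toAlgebra
  have halg : ∀ c, algebraMap B₀ B₁ c = a₁ c := fun _ => rfl
  have hcomap : ((𝔫.comap a₂).comap w).comap (algebraMap B₀ B₁) =
      (𝔫.comap b₂).comap (algebraMap B₀ B₁) := by
    ext c
    simp only [Ideal.mem_comap, halg]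
    rw [hw, hsq]
  have heq : (𝔫.comap a₂).comap w = 𝔫.comap b₂ :=
    NodeOver.eq_of_comap_eq p p₂ s₁ s₂ π₀ q hq hp hp₂ hπ h₁ h₂ (𝔫.comap b₂) hβ1 hβ2
      ((𝔫.comap a₂).comap w) hcomap
  constructor
  · intro y hy
    have h1 : w y ∈ RingHom.ker s₂ := by
      rw [RingHom.mem_ker, hs₂, hww]
      exact hy
    have h2 : w y ∈ (𝔫.comap a₂).comap w := by rw [heq]; exact hβ2 h1
    rw [Ideal.mem_comap, hww] at h2
    exact h2
  · intro y hy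
    have h1 : w y ∈ RingHom.ker s₁ := by
      rw [RingHom.mem_ker, ← hs₂]
      exact hy
    have h2 : w y ∈ (𝔫.comap a₂).comap w := by rw [heq]; exact hβ1 h1
    rw [Ideal.mem_comap, hww] at h2
    exact h2

/-- The converse of `node_alpha_of_node_beta`. -/
theorem node_beta_of_node_alpha (hsq : ∀ c, a₂ (b₁ c) = b₂ (a₁ c))
    (hww : ∀ x, w (w x) = x) (hw : ∀ c, w (a₁ c) = b₁ c) (hs₂ : ∀ x, s₂ x = s₁ (w x))
    (hq : 0 < q) (hp : Function.Surjective p) (hp₂ : Function.Surjective p₂)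
    (hπ : Ideal.span {a₁ π₀} = RingHom.ker s₁ ⊓ RingHom.ker s₂) (hπb : b₁ π₀ = a₁ π₀)
    (h₁ : ∀ c, s₁ (a₁ c) = p c) (h₂ : ∀ c, s₂ (a₁ c) = p₂ c ^ q)
    (𝔫 : Ideal B₂) [𝔫.IsPrime]
    (hα1 : RingHom.ker s₁ ≤ 𝔫.comap a₂) (hα2 : RingHom.ker s₂ ≤ 𝔫.comap a₂) :
    RingHom.ker s₁ ≤ 𝔫.comap b₂ ∧ RingHom.ker s₂ ≤ 𝔫.comap b₂ := by
  have hw' : ∀ c, w (b₁ c) = a₁ c := fun c => by rw [← hw, hww]
  have hs₁ : ∀ x, s₁ x = s₂ (w x) := fun x => by rw [hs₂, hww]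
  have h := node_alpha_of_node_beta b₁ a₁ b₂ a₂ w p p₂ s₂ s₁ π₀ q (fun c => (hsq c).symm) hww hw'
    hs₁ hq hp hp₂ (by rw [hπb, hπ, inf_comm]) (fun c => by rw [hs₂, hw', h₁])
    (fun c => by rw [hs₁, hw', h₂]) 𝔫 hα2 hα1
  exact ⟨h.2, h.1⟩

/-- **At most one vertical prime through an ordinary point.**  `𝔭∞, 𝔭mid, 𝔭0` primes of `B₂` (the
three components of level `M' q ^ 2`) lying over `ker s₁, ker s₁, ker s₂` under `a₂` and over
`ker s₁, ker s₂, ker s₂` under `b₂`.  If the image of `𝔫` under `a₂` is not a crossing point of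
level `M' q`, no two of the three are contained in `𝔫`. -/
theorem not_two_through (hsq : ∀ c, a₂ (b₁ c) = b₂ (a₁ c))
    (hww : ∀ x, w (w x) = x) (hw : ∀ c, w (a₁ c) = b₁ c) (hs₂ : ∀ x, s₂ x = s₁ (w x))
    (hq : 0 < q) (hp : Function.Surjective p) (hp₂ : Function.Surjective p₂)
    (hπ : Ideal.span {a₁ π₀} = RingHom.ker s₁ ⊓ RingHom.ker s₂)
    (h₁ : ∀ c, s₁ (a₁ c) = p c) (h₂ : ∀ c, s₂ (a₁ c) = p₂ c ^ q)
    (𝔭inf 𝔭mid 𝔭zero : Ideal B₂)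
    (hαinf : RingHom.ker s₁ ≤ 𝔭inf.comap a₂) (hαmid : RingHom.ker s₁ ≤ 𝔭mid.comap a₂)
    (hαzero : RingHom.ker s₂ ≤ 𝔭zero.comap a₂)
    (hβinf : RingHom.ker s₁ ≤ 𝔭inf.comap b₂) (hβmid : RingHom.ker s₂ ≤ 𝔭mid.comap b₂)
    (𝔫 : Ideal B₂) [𝔫.IsPrime]
    (hord : ¬ (RingHom.ker s₁ ≤ 𝔫.comap a₂ ∧ RingHom.ker s₂ ≤ 𝔫.comap a₂)) :
    ¬ (𝔭inf ≤ 𝔫 ∧ 𝔭zero ≤ 𝔫) ∧ ¬ (𝔭mid ≤ 𝔫 ∧ 𝔭zero ≤ 𝔫) ∧ ¬ (𝔭inf ≤ 𝔫 ∧ 𝔭mid ≤ 𝔫) := by
  refine ⟨?_, ?_, ?_⟩
  · rintro ⟨h1, h2⟩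
    exact hord ⟨hαinf.trans (Ideal.comap_mono h1), hαzero.trans (Ideal.comap_mono h2)⟩
  · rintro ⟨h1, h2⟩
    exact hord ⟨hαmid.trans (Ideal.comap_mono h1), hαzero.trans (Ideal.comap_mono h2)⟩
  · rintro ⟨h1, h2⟩
    exact hord (node_alpha_of_node_beta a₁ b₁ a₂ b₂ w p p₂ s₁ s₂ π₀ q hsq hww hw hs₂ hq hp hp₂
      hπ h₁ h₂ 𝔫 (hβinf.trans (Ideal.comap_mono h1)) (hβmid.trans (Ideal.comap_mono h2)))

end Down

end Fermat.Agent.S36.OrdPoint
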