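import Mathlib

set_option autoImplicit false

namespace Fermat.Agent.S36.PrincipalOfPIR

open IsLocalRing

/-- **Local factoriality without Auslander–Buchsbaum.**  Let `R` be a Noetherian local ring and
`u` a non-unit such that `R ⧸ (u)` is a principal ideal ring (e.g. a discrete valuation ring).
Then every prime ideal of `R` not containing `u` is principal. -/
theorem prime_principal_of_quotient_pir {R : Type*} [CommRing R] [IsNoetherianRing R]
    [IsLocalRing R] (u : R) (hu : u ∈ maximalIdeal R)
    (hpir : IsPrincipalIdealRing (R ⧸ Ideal.span {u}))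
    (P : Ideal R) [P.IsPrime] (huP : u ∉ P) : ∃ g ∈ P, P = Ideal.span {g} := by
  classical
  -- the image of `P` in `R ⧸ (u)` is principal, generated by the image of some `g ∈ P`
  set π := Ideal.Quotient.mk (Ideal.span {u}) with hπ
  have hsurj : Function.Surjective π := Ideal.Quotient.mk_surjective
  obtain ⟨gbar, hgbar⟩ := (hpir.principal (P.map π)).principal
  have hgmem : gbar ∈ P.map π := by
    rw [hgbar]; exact Submodule.mem_span_singleton_self gbar
  rw [Ideal.mem_map_iff_of_surjective π hsurj] at hgmem
  obtain ⟨g, hgP, rfl⟩ := hgmem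
  refine ⟨g, hgP, le_antisymm ?_ ((Ideal.span_singleton_le_iff_mem P).mpr hgP)⟩
  -- `P ≤ (g) ⊔ (u) • P`
  have key : P ≤ Ideal.span {g} ⊔ Ideal.span {u} • P := by
    intro a ha
    have h1 : π a ∈ P.map π := Ideal.mem_map_of_mem π ha
    rw [hgbar] at h1
    obtain ⟨rbar, hr⟩ := Submodule.mem_span_singleton.mp h1
    obtain ⟨r, rfl⟩ := hsurj rbar
    have h2 : π (a - r * g) = 0 := by
      rw [map_sub, map_mul, ← hr]; simp
    rw [hπ, Ideal.Quotient.eq_zero_iff_mem, Ideal.mem_span_singleton] at h2
    obtain ⟨s, hs⟩ := h2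
    have hsP : s ∈ P := by
      have h3 : u * s ∈ P := by
        rw [← hs]; exact P.sub_mem ha (P.mul_mem_left r hgP)
      exact (Ideal.IsPrime.mem_or_mem ‹P.IsPrime› h3).resolve_left huP
    have h4 : a = r * g + u * s := by rw [← hs]; ring
    rw [h4]
    refine Submodule.add_mem_sup (Ideal.mem_span_singleton.mpr ⟨r, by ring⟩) ?_
    exact Ideal.mul_mem_mul (Ideal.mem_span_singleton_self u) hsP
  have hjac : Ideal.span {u} ≤ Ideal.jacobson (⊥ : Ideal R) := by
    rw [IsLocalRing.jacobson_eq_maximalIdeal (⊥ : Ideal R) bot_ne_top]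
    exact (Ideal.span_singleton_le_iff_mem _).mpr hu
  exact Submodule.le_of_le_smul_of_le_jacobson_bot (IsNoetherian.noetherian P) hjac key

/-- **Local factoriality, UFD form** (Kaplansky's criterion).  A Noetherian local domain `R`
with a prime element `u` in the maximal ideal such that `R ⧸ (u)` is a principal ideal ring
(e.g. a discrete valuation ring) is a unique factorisation domain. -/
theorem ufd_of_quotient_pir {R : Type*} [CommRing R] [IsDomain R] [IsNoetherianRing R]
    [IsLocalRing R] (u : R) (hu : u ∈ maximalIdeal R) (hprime : Prime u)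
    (hpir : IsPrincipalIdealRing (R ⧸ Ideal.span {u})) : UniqueFactorizationMonoid R := by
  rw [UniqueFactorizationMonoid.iff_exists_prime_mem_of_isPrime]
  intro P hP0 hP
  by_cases huP : u ∈ P
  · exact ⟨u, huP, hprime⟩
  · obtain ⟨g, hgP, hPg⟩ := prime_principal_of_quotient_pir u hu hpir P huP
    have hg0 : g ≠ 0 := by
      rintro rfl
      apply hP0
      rw [hPg]; simp
    refine ⟨g, hgP, ?_⟩
    rw [← Ideal.span_singleton_prime hg0, ← hPg]
    exact hP

end Fermat.Agent.S36.PrincipalOfPIR
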