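import Mathlib
import Fermat.Agent.S36.PrincipalOfPIR

set_option autoImplicit false

/-!
# The abstract "two-point" lemma

`R` a local ring with maximal ideal `(π, u)`, `H ∈ R[T]` monic with
`H = (T - c) (T - d) ^ e + π G₁`, `c - d` a unit, `G₁(d)` a unit, `e ≠ 0`, and `A = R[y]` with
`H(y) = 0`.  Then every maximal ideal `𝔑` of `A` contains `y - c` or `y - d`; at a point of the
first kind the local ring `A_𝔑` has maximal ideal `(π, u)` and `A_𝔑 / (π) ≅ R / (π)`; at a point
of the second kind, with `S = y - d`, `π = ε S ^ e` for a unit `ε`, the maximal ideal is `(S, u)`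
and `A_𝔑 / (S) ≅ R / (π)`.  If moreover `A ≅ R[T]/(H)` is a domain, `R` is Noetherian and
`(π)` is prime, all these local rings are factorial and `A` is integrally closed.
-/

namespace Fermat.Agent.S36.TwoPoint

open Polynomial IsLocalRing

section Basic

variable {R S : Type*} [CommRing R] [CommRing S]

/-- The basic identity `(y - c)(y - d)^e = -π G₁(y)`. -/
theorem eval_eq (φ : R →+* S) (π c d : R) (H G₁ : R[X]) (e : ℕ)
    (hH : H = (X - C c) * (X - C d) ^ e + C π * G₁) (y : S) (hy : eval₂ φ y H = 0) :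
    (y - φ c) * (y - φ d) ^ e = -(φ π * eval₂ φ y G₁) := by
  rw [hH] at hy
  simp only [eval₂_add, eval₂_mul, eval₂_sub, eval₂_pow, eval₂_X, eval₂_C] at hy
  linear_combination hy

/-- Taylor expansion to first order. -/
theorem eval₂_eq_add (φ : R →+* S) (G : R[X]) (r : R) (y : S) :
    ∃ z : S, eval₂ φ y G = φ (G.eval r) + (y - φ r) * z := by
  obtain ⟨z, hz⟩ := Polynomial.sub_dvd_eval_sub y (φ r) (G.map φ)
  rw [eval_map, eval_map, Polynomial.eval₂_at_apply] at hz
  exact ⟨z, by linear_combination hz⟩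

end Basic

section LocalTarget

variable {R A' : Type*} [CommRing R] [CommRing A'] [IsLocalRing A']

theorem isUnit_of_sub_mem {a b : A'} (ha : IsUnit a) (hab : b - a ∈ maximalIdeal A') :
    IsUnit b := by
  by_contra hb
  have hb' : b ∈ maximalIdeal A' := (IsLocalRing.mem_maximalIdeal b).mpr hb
  have h1 : b - (b - a) ∈ maximalIdeal A' := (maximalIdeal A').sub_mem hb' hab
  have h2 : b - (b - a) = a := by ring
  rw [h2] at h1
  exact (IsLocalRing.mem_maximalIdeal a).mp h1 ha

/-- At a point where `y - d` is not a unit: `π = ε (y - d)^e`. -/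
theorem pi_eq_unit_mul_pow (φ : R →+* A') (π c d : R) (H G₁ : R[X]) (e : ℕ)
    (hH : H = (X - C c) * (X - C d) ^ e + C π * G₁) (hcd : IsUnit (c - d))
    (hG₁ : IsUnit (G₁.eval d)) (y : A') (hy : eval₂ φ y H = 0)
    (hyd : y - φ d ∈ maximalIdeal A') :
    ∃ ε : A'ˣ, φ π = ε * (y - φ d) ^ e := by
  have h1 : IsUnit (y - φ c) := by
    have hu : IsUnit (-(φ (c - d))) := (hcd.map φ).neg
    refine isUnit_of_sub_mem hu ?_
    have : y - φ c - -(φ (c - d)) = y - φ d := by rw [map_sub]; ring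
    rw [this]; exact hyd
  obtain ⟨z, hz⟩ := eval₂_eq_add φ G₁ d y
  have h2 : IsUnit (eval₂ φ y G₁) := by
    refine isUnit_of_sub_mem (hG₁.map φ) ?_
    have : eval₂ φ y G₁ - φ (G₁.eval d) = (y - φ d) * z := by rw [hz]; ring
    rw [this]; exact Ideal.mul_mem_right _ _ hyd
  have key := eval_eq φ π c d H G₁ e hH y hy
  obtain ⟨u1, hu1⟩ := h1
  obtain ⟨u2, hu2⟩ := h2
  refine ⟨-(u1 * u2⁻¹), ?_⟩
  rw [← hu1, ← hu2] at key
  have h3 : φ π = φ π * ((u2 : A') * ((u2⁻¹ : A'ˣ) : A')) := by rw [Units.mul_inv, mul_one]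
  rw [h3]
  push_cast
  linear_combination ((u2⁻¹ : A'ˣ) : A') * key

/-- At a point where `y - c` is not a unit: `y - c ∈ (π)`. -/
theorem sub_mem_span_pi (φ : R →+* A') (π c d : R) (H G₁ : R[X]) (e : ℕ)
    (hH : H = (X - C c) * (X - C d) ^ e + C π * G₁) (hcd : IsUnit (c - d))
    (y : A') (hy : eval₂ φ y H = 0)
    (hyc : y - φ c ∈ maximalIdeal A') :
    y - φ c ∈ Ideal.span {φ π} := by
  have h1 : IsUnit (y - φ d) := by
    refine isUnit_of_sub_mem (hcd.map φ) ?_
    have : y - φ d - φ (c - d) = y - φ c := by rw [map_sub]; ring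
    rw [this]; exact hyc
  have key := eval_eq φ π c d H G₁ e hH y hy
  obtain ⟨v, hv⟩ := h1.pow e
  rw [Ideal.mem_span_singleton]
  refine ⟨-(eval₂ φ y G₁ * ((v⁻¹ : A'ˣ) : A')), ?_⟩
  have h3 : y - φ c = (y - φ c) * ((v : A') * ((v⁻¹ : A'ˣ) : A')) := by
    rw [Units.mul_inv, mul_one]
  rw [h3, hv]
  linear_combination ((v⁻¹ : A'ˣ) : A') * key

end LocalTarget


section Global

variable {R A : Type*} [CommRing R] [IsLocalRing R] [CommRing A] [Algebra R A]

omit [IsLocalRing R] in
theorem isIntegral_of_gen (H : R[X]) (hmonic : H.Monic) (y : A) (hy : aeval y H = 0)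
    (hgen : ∀ a : A, ∃ G : R[X], aeval y G = a) : Algebra.IsIntegral R A := by
  have hyint : IsIntegral R y := ⟨H, hmonic, hy⟩
  refine ⟨fun a => ?_⟩
  obtain ⟨G, rfl⟩ := hgen a
  have hle : Algebra.adjoin R {y} ≤ integralClosure R A :=
    Algebra.adjoin_le (Set.singleton_subset_iff.mpr hyint)
  exact hle (aeval_mem_adjoin_singleton R y)

/-- Every maximal ideal of `A` lies over the maximal ideal of `R`. -/
theorem comap_eq (H : R[X]) (hmonic : H.Monic) (y : A) (hy : aeval y H = 0)
    (hgen : ∀ a : A, ∃ G : R[X], aeval y G = a) (𝔑 : Ideal A) [𝔑.IsMaximal] :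
    𝔑.comap (algebraMap R A) = maximalIdeal R := by
  have := isIntegral_of_gen H hmonic y hy hgen
  have : (𝔑.comap (algebraMap R A)).IsMaximal :=
    Ideal.isMaximal_comap_of_isIntegral_of_isMaximal 𝔑
  exact IsLocalRing.eq_maximalIdeal this

theorem algebraMap_mem (H : R[X]) (hmonic : H.Monic) (y : A) (hy : aeval y H = 0)
    (hgen : ∀ a : A, ∃ G : R[X], aeval y G = a) (𝔑 : Ideal A) [𝔑.IsMaximal] {r : R}
    (hr : r ∈ maximalIdeal R) : algebraMap R A r ∈ 𝔑 := by
  have h : r ∈ 𝔑.comap (algebraMap R A) := by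
    rw [comap_eq H hmonic y hy hgen 𝔑]; exact hr
  exact h

/-- Every maximal ideal of `A` contains `y - c` or `y - d`. -/
theorem sub_mem_or (π c d : R) (hπ : π ∈ maximalIdeal R) (H G₁ : R[X]) (e : ℕ)
    (hH : H = (X - C c) * (X - C d) ^ e + C π * G₁) (hmonic : H.Monic) (y : A)
    (hy : aeval y H = 0) (hgen : ∀ a : A, ∃ G : R[X], aeval y G = a) (𝔑 : Ideal A)
    [𝔑.IsMaximal] :
    y - algebraMap R A c ∈ 𝔑 ∨ y - algebraMap R A d ∈ 𝔑 := by
  have hπ' : algebraMap R A π ∈ 𝔑 := algebraMap_mem H hmonic y hy hgen 𝔑 hπ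
  have key := eval_eq (algebraMap R A) π c d H G₁ e hH y (by rwa [← aeval_def])
  have h1 : (y - algebraMap R A c) * (y - algebraMap R A d) ^ e ∈ 𝔑 := by
    rw [key]; exact 𝔑.neg_mem (𝔑.mul_mem_right _ hπ')
  have hp : 𝔑.IsPrime := Ideal.IsMaximal.isPrime ‹_›
  rcases hp.mem_or_mem h1 with h | h
  · exact Or.inl h
  · exact Or.inr (hp.mem_of_pow_mem e h)

omit [IsLocalRing R] in
/-- The two kinds of points are different. -/
theorem not_both (c d : R) (hcd : IsUnit (c - d)) (y : A) (𝔑 : Ideal A) [𝔑.IsMaximal]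
    (hc : y - algebraMap R A c ∈ 𝔑) (hd : y - algebraMap R A d ∈ 𝔑) : False := by
  have h1 : algebraMap R A (c - d) ∈ 𝔑 := by
    have : algebraMap R A (c - d) = (y - algebraMap R A d) - (y - algebraMap R A c) := by
      rw [map_sub]; ring
    rw [this]; exact 𝔑.sub_mem hd hc
  exact (Ideal.IsMaximal.isPrime ‹𝔑.IsMaximal›).ne_top
    (Ideal.eq_top_of_isUnit_mem _ h1 (hcd.map _))

/-- A maximal ideal of `A` containing `y - r₀` is generated by `π, u, y - r₀`. -/
theorem eq_span (π u : R) (hm : maximalIdeal R = Ideal.span {π, u}) (H : R[X])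
    (hmonic : H.Monic) (y : A) (hy : aeval y H = 0)
    (hgen : ∀ a : A, ∃ G : R[X], aeval y G = a) (𝔑 : Ideal A) [𝔑.IsMaximal] (r₀ : R)
    (hr : y - algebraMap R A r₀ ∈ 𝔑) :
    𝔑 = Ideal.span {algebraMap R A π, algebraMap R A u, y - algebraMap R A r₀} := by
  have hc := comap_eq H hmonic y hy hgen 𝔑
  have hπm : π ∈ maximalIdeal R := by rw [hm]; exact Ideal.subset_span (by simp)
  have hum : u ∈ maximalIdeal R := by rw [hm]; exact Ideal.subset_span (by simp)
  have hπ' : algebraMap R A π ∈ 𝔑 := algebraMap_mem H hmonic y hy hgen 𝔑 hπm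
  have hu' : algebraMap R A u ∈ 𝔑 := algebraMap_mem H hmonic y hy hgen 𝔑 hum
  apply le_antisymm
  · intro a ha
    obtain ⟨G, rfl⟩ := hgen a
    obtain ⟨z, hz⟩ := eval₂_eq_add (algebraMap R A) G r₀ y
    rw [← aeval_def] at hz
    have h1 : algebraMap R A (G.eval r₀) ∈ 𝔑 := by
      have : algebraMap R A (G.eval r₀) = aeval y G - (y - algebraMap R A r₀) * z := by
        rw [hz]; ring
      rw [this]; exact 𝔑.sub_mem ha (𝔑.mul_mem_right _ hr)
    have h2 : G.eval r₀ ∈ maximalIdeal R := by rw [← hc]; exact h1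
    rw [hm, Ideal.mem_span_pair] at h2
    obtain ⟨a1, b1, hab⟩ := h2
    rw [hz, ← hab, map_add, map_mul, map_mul]
    refine Ideal.add_mem _ (Ideal.add_mem _ (Ideal.mul_mem_left _ _ (Ideal.subset_span
      (by simp))) (Ideal.mul_mem_left _ _ (Ideal.subset_span (by simp))))
      (Ideal.mul_mem_right _ _ (Ideal.subset_span (by simp)))
  · rw [Ideal.span_le]
    intro x hx
    simp only [Set.mem_insert_iff, Set.mem_singleton_iff] at hx
    rcases hx with rfl | rfl | rfl
    exacts [hπ', hu', hr]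

omit [IsLocalRing R] in
/-- The universal property of `A = R[T]/(H)`. -/
theorem exists_hom (H : R[X]) (y : A) (hgen : ∀ a : A, ∃ G : R[X], aeval y G = a)
    (hpres : ∀ G : R[X], aeval y G = 0 → H ∣ G) {S : Type*} [CommRing S] (f : R →+* S) (s : S)
    (hs : eval₂ f s H = 0) :
    ∃ σ : A →+* S, (∀ r, σ (algebraMap R A r) = f r) ∧ σ y = s := by
  let ψ : R[X] →+* A := (aeval y : R[X] →ₐ[R] A).toRingHom
  have hψ : Function.Surjective ψ := hgen
  let g : R[X] →+* S := eval₂RingHom f s
  have hker : RingHom.ker ψ ≤ RingHom.ker g := by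
    intro G hG
    rw [RingHom.mem_ker] at hG ⊢
    obtain ⟨Q, rfl⟩ := hpres G hG
    show eval₂ f s (H * Q) = 0
    rw [eval₂_mul, hs, zero_mul]
  refine ⟨ψ.liftOfSurjective hψ ⟨g, hker⟩, fun r => ?_, ?_⟩
  · have h1 : algebraMap R A r = ψ (C r) := by simp [ψ]
    rw [h1, RingHom.liftOfSurjective_comp_apply]; simp [g]
  · have h1 : y = ψ X := by simp [ψ]
    conv_lhs => rw [h1]
    rw [RingHom.liftOfSurjective_comp_apply]; simp [g]

variable (A' : Type*) [CommRing A'] [Algebra A A'] [IsLocalRing A']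

/-- The maximal ideal of the local ring at a point containing `y - r₀`. -/
theorem maximalIdeal_eq_span (π u : R) (hm : maximalIdeal R = Ideal.span {π, u}) (H : R[X])
    (hmonic : H.Monic) (y : A) (hy : aeval y H = 0)
    (hgen : ∀ a : A, ∃ G : R[X], aeval y G = a) (𝔑 : Ideal A) [𝔑.IsMaximal]
    [IsLocalization.AtPrime A' 𝔑] (r₀ : R) (hr : y - algebraMap R A r₀ ∈ 𝔑) :
    maximalIdeal A' = Ideal.span {algebraMap A A' (algebraMap R A π),
      algebraMap A A' (algebraMap R A u), algebraMap A A' (y - algebraMap R A r₀)} := by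
  rw [← IsLocalization.AtPrime.map_eq_maximalIdeal 𝔑 A']
  conv_lhs => rw [eq_span π u hm H hmonic y hy hgen 𝔑 r₀ hr]
  rw [Ideal.map_span]
  congr 1
  simp [Set.image_insert_eq]

omit [IsLocalRing R] [IsLocalRing A'] in
theorem eval₂_loc (H : R[X]) (y : A) (hy : aeval y H = 0) :
    eval₂ ((algebraMap A A').comp (algebraMap R A)) (algebraMap A A' y) H = 0 := by
  rw [← Polynomial.hom_eval₂, ← aeval_def, hy, map_zero]

/-- The point of the first kind (`y - c ∈ 𝔑`): the maximal ideal is `(π, u)`. -/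
theorem maximalIdeal_c (π u c d : R) (hm : maximalIdeal R = Ideal.span {π, u}) (H G₁ : R[X])
    (e : ℕ) (hH : H = (X - C c) * (X - C d) ^ e + C π * G₁) (hmonic : H.Monic)
    (hcd : IsUnit (c - d)) (y : A) (hy : aeval y H = 0)
    (hgen : ∀ a : A, ∃ G : R[X], aeval y G = a) (𝔑 : Ideal A) [𝔑.IsMaximal]
    [IsLocalization.AtPrime A' 𝔑] (hyc : y - algebraMap R A c ∈ 𝔑) :
    algebraMap A A' (y - algebraMap R A c) ∈
        Ideal.span {algebraMap A A' (algebraMap R A π)} ∧
    maximalIdeal A' = Ideal.span {algebraMap A A' (algebraMap R A π),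
      algebraMap A A' (algebraMap R A u)} := by
  have h1 := maximalIdeal_eq_span A' π u hm H hmonic y hy hgen 𝔑 c hyc
  have hmem : algebraMap A A' (y - algebraMap R A c) ∈ maximalIdeal A' :=
    (IsLocalization.AtPrime.to_map_mem_maximal_iff A' 𝔑 _).mpr hyc
  have h2 := sub_mem_span_pi ((algebraMap A A').comp (algebraMap R A)) π c d H G₁ e hH hcd
    (algebraMap A A' y) (eval₂_loc A' H y hy) (by simpa using hmem)
  have h2' : algebraMap A A' (y - algebraMap R A c) ∈
      Ideal.span {algebraMap A A' (algebraMap R A π)} := by simpa using h2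
  refine ⟨h2', ?_⟩
  rw [h1]
  apply le_antisymm
  · rw [Ideal.span_le]
    intro x hx
    simp only [Set.mem_insert_iff, Set.mem_singleton_iff] at hx
    rcases hx with rfl | rfl | rfl
    · exact Ideal.subset_span (by simp)
    · exact Ideal.subset_span (by simp)
    · exact Ideal.span_mono (by simp) h2'
  · exact Ideal.span_mono (by
      intro x hx
      simp only [Set.mem_insert_iff, Set.mem_singleton_iff] at hx ⊢
      tauto)

/-- The point of the second kind (`S = y - d ∈ 𝔑`): `π = ε S ^ e` and the maximal ideal is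
`(S, u)`. -/
theorem maximalIdeal_d (π u c d : R) (hm : maximalIdeal R = Ideal.span {π, u}) (H G₁ : R[X])
    (e : ℕ) (he : e ≠ 0) (hH : H = (X - C c) * (X - C d) ^ e + C π * G₁) (hmonic : H.Monic)
    (hcd : IsUnit (c - d)) (hG₁ : IsUnit (G₁.eval d)) (y : A) (hy : aeval y H = 0)
    (hgen : ∀ a : A, ∃ G : R[X], aeval y G = a) (𝔑 : Ideal A) [𝔑.IsMaximal]
    [IsLocalization.AtPrime A' 𝔑] (hyd : y - algebraMap R A d ∈ 𝔑) :
    (∃ ε : A'ˣ, algebraMap A A' (algebraMap R A π) =
        ε * algebraMap A A' (y - algebraMap R A d) ^ e) ∧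
    maximalIdeal A' = Ideal.span {algebraMap A A' (y - algebraMap R A d),
      algebraMap A A' (algebraMap R A u)} := by
  have h1 := maximalIdeal_eq_span A' π u hm H hmonic y hy hgen 𝔑 d hyd
  have hmem : algebraMap A A' (y - algebraMap R A d) ∈ maximalIdeal A' :=
    (IsLocalization.AtPrime.to_map_mem_maximal_iff A' 𝔑 _).mpr hyd
  obtain ⟨ε, hε⟩ := pi_eq_unit_mul_pow ((algebraMap A A').comp (algebraMap R A)) π c d H G₁ e
    hH hcd hG₁ (algebraMap A A' y) (eval₂_loc A' H y hy) (by simpa using hmem)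
  have hε' : algebraMap A A' (algebraMap R A π) =
      ε * algebraMap A A' (y - algebraMap R A d) ^ e := by simpa using hε
  refine ⟨⟨ε, hε'⟩, ?_⟩
  rw [h1]
  apply le_antisymm
  · rw [Ideal.span_le]
    intro x hx
    simp only [Set.mem_insert_iff, Set.mem_singleton_iff] at hx
    rcases hx with rfl | rfl | rfl
    · rw [hε']
      obtain ⟨k, rfl⟩ := Nat.exists_eq_succ_of_ne_zero he
      rw [pow_succ, ← mul_assoc]
      exact Ideal.mul_mem_left _ _ (Ideal.subset_span (by simp))
    · exact Ideal.subset_span (by simp)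
    · exact Ideal.subset_span (by simp)
  · exact Ideal.span_mono (by
      intro x hx
      simp only [Set.mem_insert_iff, Set.mem_singleton_iff] at hx ⊢
      tauto)


omit [IsLocalRing A'] in
/-- The residue map at a point: if `y - r₀ ∈ 𝔑`, `H(r₀) ∈ (π)` and `t` generates the ideal
`(π, y - r₀)` of `A_𝔑`, then `A_𝔑 / (t) ≅ R / (π)`, compatibly with the maps from `R`. -/
theorem exists_quot_hom (π u : R) (hm : maximalIdeal R = Ideal.span {π, u}) (H : R[X])
    (hmonic : H.Monic) (y : A) (hy : aeval y H = 0)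
    (hgen : ∀ a : A, ∃ G : R[X], aeval y G = a)
    (hpres : ∀ G : R[X], aeval y G = 0 → H ∣ G) (𝔑 : Ideal A) [𝔑.IsMaximal]
    [IsLocalization.AtPrime A' 𝔑] (r₀ : R) (hr : y - algebraMap R A r₀ ∈ 𝔑)
    (hr₀ : H.eval r₀ ∈ Ideal.span {π}) (t : A')
    (ht1 : algebraMap A A' (algebraMap R A π) ∈ Ideal.span {t})
    (ht2 : algebraMap A A' (y - algebraMap R A r₀) ∈ Ideal.span {t})
    (ht3 : t ∈ Ideal.span {algebraMap A A' (algebraMap R A π),
      algebraMap A A' (y - algebraMap R A r₀)}) :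
    ∃ σ' : A' →+* R ⧸ Ideal.span {π}, Function.Surjective σ' ∧
      RingHom.ker σ' = Ideal.span {t} ∧
      ∀ r, σ' (algebraMap A A' (algebraMap R A r)) = Ideal.Quotient.mk (Ideal.span {π}) r := by
  set mk := Ideal.Quotient.mk (Ideal.span {π}) with hmk
  have hs : eval₂ mk (mk r₀) H = 0 := by
    rw [Polynomial.eval₂_at_apply]; exact Ideal.Quotient.eq_zero_iff_mem.mpr hr₀
  obtain ⟨σ, hσ1, hσ2⟩ := exists_hom H y hgen hpres mk (mk r₀) hs
  have hmkπ : mk π = 0 := Ideal.Quotient.eq_zero_iff_mem.mpr (Ideal.mem_span_singleton_self π)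
  have hσr : σ (y - algebraMap R A r₀) = 0 := by rw [map_sub, hσ2, hσ1, sub_self]
  have h𝔑 := eq_span π u hm H hmonic y hy hgen 𝔑 r₀ hr
  have hum : u ∈ maximalIdeal R := by rw [hm]; exact Ideal.subset_span (by simp)
  -- `σ` maps `𝔑` into the image of the maximal ideal
  have h𝔑σ : ∀ b ∈ 𝔑, ∃ m ∈ maximalIdeal R, σ b = mk m := by
    have hle : Ideal.span {algebraMap R A π, algebraMap R A u, y - algebraMap R A r₀} ≤
        Ideal.comap σ ((maximalIdeal R).map mk) := by
      rw [Ideal.span_le]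
      intro x hx
      simp only [Set.mem_insert_iff, Set.mem_singleton_iff] at hx
      rcases hx with rfl | rfl | rfl
      · rw [SetLike.mem_coe, Ideal.mem_comap, hσ1, hmkπ]; exact Ideal.zero_mem _
      · rw [SetLike.mem_coe, Ideal.mem_comap, hσ1]; exact Ideal.mem_map_of_mem _ hum
      · rw [SetLike.mem_coe, Ideal.mem_comap, hσr]; exact Ideal.zero_mem _
    intro b hb
    have hb' : b ∈ Ideal.span {algebraMap R A π, algebraMap R A u, y - algebraMap R A r₀} := by
      rw [← h𝔑]; exact hb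
    have h1 := hle hb'
    rw [Ideal.mem_comap, Ideal.mem_map_iff_of_surjective mk Ideal.Quotient.mk_surjective] at h1
    obtain ⟨m, hm1, hm2⟩ := h1
    exact ⟨m, hm1, hm2.symm⟩
  have hunit : ∀ s : 𝔑.primeCompl, IsUnit (σ s) := by
    rintro ⟨s, hs⟩
    obtain ⟨a, b, hb, hab⟩ := Ideal.IsMaximal.exists_inv ‹𝔑.IsMaximal› hs
    obtain ⟨m, hm1, hm2⟩ := h𝔑σ b hb
    have h1 : σ a * σ s = mk (1 - m) := by
      rw [map_sub, map_one, ← hm2, ← map_one σ, ← hab, map_add, map_mul]; ring
    have h2 : IsUnit (mk (1 - m)) :=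
      (IsLocalRing.isUnit_one_sub_self_of_mem_nonunits m hm1).map mk
    rw [← h1] at h2
    exact isUnit_of_mul_isUnit_right h2
  let σ' : A' →+* R ⧸ Ideal.span {π} := IsLocalization.lift hunit
  have hσ' : ∀ a, σ' (algebraMap A A' a) = σ a := fun a => IsLocalization.lift_eq hunit a
  refine ⟨σ', ?_, ?_, fun r => by rw [hσ', hσ1]⟩
  · intro x
    obtain ⟨r, rfl⟩ := Ideal.Quotient.mk_surjective x
    exact ⟨algebraMap A A' (algebraMap R A r), by rw [hσ', hσ1]⟩
  · apply le_antisymm
    · intro x hx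
      rw [RingHom.mem_ker] at hx
      obtain ⟨⟨a, s⟩, has⟩ := IsLocalization.surj 𝔑.primeCompl x
      have has' : x * algebraMap A A' (s : A) = algebraMap A A' a := has
      have hσa : σ a = 0 := by
        rw [← hσ', ← has', map_mul, hx, zero_mul]
      have hsu : IsUnit (algebraMap A A' (s : A)) := IsLocalization.map_units A' s
      obtain ⟨G, hG⟩ := hgen a
      obtain ⟨z, hz⟩ := eval₂_eq_add (algebraMap R A) G r₀ y
      rw [← aeval_def, hG] at hz
      have h3 : mk (G.eval r₀) = 0 := by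
        have h := hσa
        rw [hz, map_add, map_mul, hσr, zero_mul, add_zero, hσ1] at h
        exact h
      rw [Ideal.Quotient.eq_zero_iff_mem, Ideal.mem_span_singleton] at h3
      obtain ⟨w, hw⟩ := h3
      have h4 : algebraMap A A' a ∈ Ideal.span {t} := by
        rw [hz, hw, map_add, map_mul, map_mul, map_mul]
        exact Ideal.add_mem _ (Ideal.mul_mem_right _ _ ht1) (Ideal.mul_mem_right _ _ ht2)
      obtain ⟨v, hv⟩ := hsu
      have hx' : x = algebraMap A A' a * ((v⁻¹ : A'ˣ) : A') := by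
        rw [← has', ← hv, mul_assoc, Units.mul_inv, mul_one]
      rw [hx']; exact Ideal.mul_mem_right _ _ h4
    · rw [Ideal.span_le, Set.singleton_subset_iff]
      have hle : Ideal.span {algebraMap A A' (algebraMap R A π),
          algebraMap A A' (y - algebraMap R A r₀)} ≤ RingHom.ker σ' := by
        rw [Ideal.span_le]
        intro x hx
        simp only [Set.mem_insert_iff, Set.mem_singleton_iff] at hx
        rcases hx with rfl | rfl
        · rw [SetLike.mem_coe, RingHom.mem_ker, hσ', hσ1, hmkπ]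
        · rw [SetLike.mem_coe, RingHom.mem_ker, hσ', hσr]
      exact hle ht3


/-- The point of the first kind: `A_𝔑 / (π) ≅ R / (π)`. -/
theorem quot_hom_c (π u c d : R) (hm : maximalIdeal R = Ideal.span {π, u}) (H G₁ : R[X])
    (e : ℕ) (hH : H = (X - C c) * (X - C d) ^ e + C π * G₁) (hmonic : H.Monic)
    (hcd : IsUnit (c - d)) (y : A) (hy : aeval y H = 0)
    (hgen : ∀ a : A, ∃ G : R[X], aeval y G = a)
    (hpres : ∀ G : R[X], aeval y G = 0 → H ∣ G) (𝔑 : Ideal A) [𝔑.IsMaximal]
    [IsLocalization.AtPrime A' 𝔑] (hyc : y - algebraMap R A c ∈ 𝔑) :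
    ∃ σ' : A' →+* R ⧸ Ideal.span {π}, Function.Surjective σ' ∧
      RingHom.ker σ' = Ideal.span {algebraMap A A' (algebraMap R A π)} ∧
      ∀ r, σ' (algebraMap A A' (algebraMap R A r)) = Ideal.Quotient.mk (Ideal.span {π}) r := by
  have h := (maximalIdeal_c A' π u c d hm H G₁ e hH hmonic hcd y hy hgen 𝔑 hyc).1
  have hr₀ : H.eval c ∈ Ideal.span {π} := by
    rw [hH, Ideal.mem_span_singleton]
    exact ⟨G₁.eval c, by simp⟩
  exact exists_quot_hom A' π u hm H hmonic y hy hgen hpres 𝔑 c hyc hr₀ _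
    (Ideal.mem_span_singleton_self _) h (Ideal.subset_span (by simp))

/-- The point of the second kind: `A_𝔑 / (S) ≅ R / (π)`, `S = y - d`. -/
theorem quot_hom_d (π u c d : R) (hm : maximalIdeal R = Ideal.span {π, u}) (H G₁ : R[X])
    (e : ℕ) (he : e ≠ 0) (hH : H = (X - C c) * (X - C d) ^ e + C π * G₁) (hmonic : H.Monic)
    (hcd : IsUnit (c - d)) (hG₁ : IsUnit (G₁.eval d)) (y : A) (hy : aeval y H = 0)
    (hgen : ∀ a : A, ∃ G : R[X], aeval y G = a)
    (hpres : ∀ G : R[X], aeval y G = 0 → H ∣ G) (𝔑 : Ideal A) [𝔑.IsMaximal]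
    [IsLocalization.AtPrime A' 𝔑] (hyd : y - algebraMap R A d ∈ 𝔑) :
    ∃ σ' : A' →+* R ⧸ Ideal.span {π}, Function.Surjective σ' ∧
      RingHom.ker σ' = Ideal.span {algebraMap A A' (y - algebraMap R A d)} ∧
      ∀ r, σ' (algebraMap A A' (algebraMap R A r)) = Ideal.Quotient.mk (Ideal.span {π}) r := by
  obtain ⟨⟨ε, hε⟩, -⟩ := maximalIdeal_d A' π u c d hm H G₁ e he hH hmonic hcd hG₁ y hy hgen 𝔑 hyd
  have hr₀ : H.eval d ∈ Ideal.span {π} := by
    rw [hH, Ideal.mem_span_singleton]
    exact ⟨G₁.eval d, by simp [he]⟩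
  refine exists_quot_hom A' π u hm H hmonic y hy hgen hpres 𝔑 d hyd hr₀ _ ?_
    (Ideal.mem_span_singleton_self _) (Ideal.subset_span (by simp))
  rw [hε]
  obtain ⟨k, rfl⟩ := Nat.exists_eq_succ_of_ne_zero he
  rw [pow_succ, ← mul_assoc]
  exact Ideal.mul_mem_left _ _ (Ideal.mem_span_singleton_self _)

end Global

section Factorial

/-- A Noetherian local domain `B` with an element `t` of the maximal ideal and a surjection onto
a principal ideal domain with kernel `(t)` is factorial. -/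
theorem ufd_of_hom {B D : Type*} [CommRing B] [IsDomain B] [IsLocalRing B] [IsNoetherianRing B]
    [CommRing D] [IsDomain D] [IsPrincipalIdealRing D] (t : B) (ht : t ∈ maximalIdeal B)
    (σ : B →+* D) (hσ : Function.Surjective σ) (hker : RingHom.ker σ = Ideal.span {t}) :
    UniqueFactorizationMonoid B := by
  have e1 : (B ⧸ Ideal.span {t}) ≃+* D :=
    (Ideal.quotEquivOfEq hker.symm).trans (RingHom.quotientKerEquivOfSurjective hσ)
  have hpir : IsPrincipalIdealRing (B ⧸ Ideal.span {t}) :=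
    IsPrincipalIdealRing.of_surjective e1.symm.toRingHom e1.symm.surjective
  by_cases ht0 : t = 0
  · -- then `B ≅ D`
    have hinj : Function.Injective σ := by
      rw [RingHom.injective_iff_ker_eq_bot, hker, ht0]; simp
    have e2 : B ≃+* D := RingEquiv.ofBijective σ ⟨hinj, hσ⟩
    have : IsPrincipalIdealRing B :=
      IsPrincipalIdealRing.of_surjective e2.symm.toRingHom e2.symm.surjective
    infer_instance
  · have hprime : Prime t := by
      rw [← Ideal.span_singleton_prime ht0, ← hker]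
      exact RingHom.ker_isPrime σ
    exact PrincipalOfPIR.ufd_of_quotient_pir t ht hprime hpir

/-- `R / (π)` is a principal ideal ring when `R` is a Noetherian local ring with maximal ideal
`(π, u)` and `(π)` is prime. -/
theorem pir_quot {R : Type*} [CommRing R] [IsLocalRing R] [IsNoetherianRing R] (π u : R)
    (hm : maximalIdeal R = Ideal.span {π, u}) (hπ : (Ideal.span {π}).IsPrime) :
    IsPrincipalIdealRing (R ⧸ Ideal.span {π}) := by
  have := hπ
  set mk := Ideal.Quotient.mk (Ideal.span {π}) with hmk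
  have hsurj : Function.Surjective mk := Ideal.Quotient.mk_surjective
  have : IsLocalRing (R ⧸ Ideal.span {π}) := IsLocalRing.of_surjective' mk hsurj
  have hmkπ : mk π = 0 := Ideal.Quotient.eq_zero_iff_mem.mpr (Ideal.mem_span_singleton_self π)
  have hπm : π ∈ maximalIdeal R := by rw [hm]; exact Ideal.subset_span (by simp)
  have hum : u ∈ maximalIdeal R := by rw [hm]; exact Ideal.subset_span (by simp)
  have hmax : maximalIdeal (R ⧸ Ideal.span {π}) = Ideal.span {mk u} := by
    apply le_antisymm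
    · intro x hx
      obtain ⟨r, rfl⟩ := hsurj x
      have hr : r ∈ maximalIdeal R := by
        rw [IsLocalRing.mem_maximalIdeal, mem_nonunits_iff]
        intro hru
        exact ((IsLocalRing.mem_maximalIdeal _).mp hx) (hru.map mk)
      rw [hm, Ideal.mem_span_pair] at hr
      obtain ⟨a, b, hab⟩ := hr
      rw [← hab, map_add, map_mul, map_mul, hmkπ, mul_zero, zero_add]
      exact Ideal.mul_mem_left _ _ (Ideal.mem_span_singleton_self _)
    · rw [Ideal.span_le, Set.singleton_subset_iff, SetLike.mem_coe, IsLocalRing.mem_maximalIdeal,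
        mem_nonunits_iff]
      intro hu
      obtain ⟨v, hv⟩ := hu.exists_right_inv
      obtain ⟨w, rfl⟩ := hsurj v
      have h1 : mk (u * w - 1) = 0 := by rw [map_sub, map_mul, hv, map_one, sub_self]
      rw [Ideal.Quotient.eq_zero_iff_mem] at h1
      have h2 : u * w - 1 ∈ maximalIdeal R := by
        rw [Ideal.mem_span_singleton] at h1
        obtain ⟨k, hk⟩ := h1
        rw [hk]; exact Ideal.mul_mem_right _ _ hπm
      have h3 : (1 : R) ∈ maximalIdeal R := by
        have : (1 : R) = u * w - (u * w - 1) := by ring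
        rw [this]; exact Ideal.sub_mem _ (Ideal.mul_mem_right _ _ hum) h2
      exact (IsLocalRing.mem_maximalIdeal _).mp h3 isUnit_one
  have hprinc : (maximalIdeal (R ⧸ Ideal.span {π})).IsPrincipal := ⟨⟨mk u, hmax⟩⟩
  exact ((tfae_of_isNoetherianRing_of_isLocalRing_of_isDomain
    (R ⧸ Ideal.span {π})).out 4 0).mp hprinc

variable {R A : Type*} [CommRing R] [IsLocalRing R] [IsNoetherianRing R] [CommRing A]
  [Algebra R A]

/-- **The two-point lemma, normality.**  Under the hypotheses above, if `A = R[T]/(H)` is a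
domain, `R` is Noetherian and `(π)` is a prime ideal of `R`, then every local ring of `A` at a
maximal ideal is factorial. -/
theorem ufd_localization (π u c d : R) (hm : maximalIdeal R = Ideal.span {π, u})
    (hπ : (Ideal.span {π}).IsPrime) (H G₁ : R[X])
    (e : ℕ) (he : e ≠ 0) (hH : H = (X - C c) * (X - C d) ^ e + C π * G₁) (hmonic : H.Monic)
    (hcd : IsUnit (c - d)) (hG₁ : IsUnit (G₁.eval d)) (y : A) (hy : aeval y H = 0)
    (hgen : ∀ a : A, ∃ G : R[X], aeval y G = a)
    (hpres : ∀ G : R[X], aeval y G = 0 → H ∣ G) (𝔑 : Ideal A) [𝔑.IsMaximal]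
    (A' : Type*) [CommRing A'] [IsDomain A'] [Algebra A A'] [IsLocalization.AtPrime A' 𝔑] :
    UniqueFactorizationMonoid A' := by
  have := hπ
  have : IsLocalRing A' := IsLocalization.AtPrime.isLocalRing A' 𝔑
  have : IsPrincipalIdealRing (R ⧸ Ideal.span {π}) := pir_quot π u hm hπ
  have : IsNoetherianRing A :=
    isNoetherianRing_of_surjective R[X] A (aeval y : R[X] →ₐ[R] A).toRingHom hgen
  have : IsNoetherianRing A' := IsLocalization.isNoetherianRing 𝔑.primeCompl A' inferInstance
  have hπm : π ∈ maximalIdeal R := by rw [hm]; exact Ideal.subset_span (by simp)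
  rcases sub_mem_or π c d hπm H G₁ e hH hmonic y hy hgen 𝔑 with hyc | hyd
  · obtain ⟨σ', hs, hk, -⟩ := quot_hom_c A' π u c d hm H G₁ e hH hmonic hcd y hy hgen hpres 𝔑 hyc
    refine ufd_of_hom _ ?_ σ' hs hk
    exact (IsLocalization.AtPrime.to_map_mem_maximal_iff A' 𝔑 _).mpr
      (algebraMap_mem H hmonic y hy hgen 𝔑 hπm)
  · obtain ⟨σ', hs, hk, -⟩ :=
      quot_hom_d A' π u c d hm H G₁ e he hH hmonic hcd hG₁ y hy hgen hpres 𝔑 hyd
    refine ufd_of_hom _ ?_ σ' hs hk
    exact (IsLocalization.AtPrime.to_map_mem_maximal_iff A' 𝔑 _).mpr hyd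

/-- **The two-point lemma, normality.**  `A = R[T]/(H)` is integrally closed. -/
theorem isIntegrallyClosed (π u c d : R) (hm : maximalIdeal R = Ideal.span {π, u})
    (hπ : (Ideal.span {π}).IsPrime) (H G₁ : R[X])
    (e : ℕ) (he : e ≠ 0) (hH : H = (X - C c) * (X - C d) ^ e + C π * G₁) (hmonic : H.Monic)
    (hcd : IsUnit (c - d)) (hG₁ : IsUnit (G₁.eval d)) (y : A) (hy : aeval y H = 0)
    (hgen : ∀ a : A, ∃ G : R[X], aeval y G = a)
    (hpres : ∀ G : R[X], aeval y G = 0 → H ∣ G) [IsDomain A] : IsIntegrallyClosed A := by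
  apply IsIntegrallyClosed.of_localization_maximal
  intro 𝔑 _ _
  have := ufd_localization π u c d hm hπ H G₁ e he hH hmonic hcd hG₁ y hy hgen hpres 𝔑
    (Localization.AtPrime 𝔑)
  infer_instance


/-- A convenient way to obtain the presentation hypothesis: over an integrally closed domain, a
monic polynomial killing `y` of degree at most the degree of the minimal polynomial of `y`
divides every polynomial killing `y`. -/
theorem hpres_of_natDegree_le {R A : Type*} [CommRing R] [IsDomain R] [IsIntegrallyClosed R]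
    [CommRing A] [IsDomain A] [Algebra R A] [Module.IsTorsionFree R A] (H : R[X])
    (hmonic : H.Monic) (y : A) (hy : aeval y H = 0)
    (hdeg : H.natDegree ≤ (minpoly R y).natDegree) :
    ∀ G : R[X], aeval y G = 0 → H ∣ G := by
  have hyint : IsIntegral R y := ⟨H, hmonic, hy⟩
  have h1 : minpoly R y ∣ H := minpoly.isIntegrallyClosed_dvd hyint hy
  have h2 : H = minpoly R y :=
    Polynomial.eq_of_monic_of_dvd_of_natDegree_le (minpoly.monic hyint) hmonic h1 hdeg
  intro G hG
  rw [h2]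
  exact minpoly.isIntegrallyClosed_dvd hyint hG

end Factorial

end Fermat.Agent.S36.TwoPoint
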