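import Mathlib
import Fermat.Agent.S36.TwoPoint
import Fermat.Agent.S36.OrdPoint

set_option autoImplicit false
set_option linter.style.haveILetI false

/-!
# The two-point lemma: principal horizontal primes, and the field-level package

* `exists_pir_gen`: in the situation of `S36.TwoPoint` (with the presentation hypothesis), at every
  maximal ideal `𝔑` of `A = R[y]` the local ring `A_𝔑` has an element `t` of its maximal ideal
  with `π ∈ (t)` and `A_𝔑 / (t)` a principal ideal ring.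
* `horPrincipal`: hence every prime `𝔮 ≤ 𝔑` of `A` with `π ∉ 𝔮` is principal at `𝔑`, in the
  shape `∃ x ∈ 𝔮, ∃ d ∉ 𝔑, ∀ z ∈ 𝔮, x ∣ d * z` (the K4 shape of the S36 ledger).
* Field level: `R` a Noetherian integrally closed local domain, `K = Frac R`, `E ⊇ K` a field,
  `y ∈ E` with `K⟮y⟯ = ⊤`, `H ∈ R[X]` monic of degree `≤ deg (minpoly K y)` killing `y` and of
  the two-point shape.  Then `integralClosure R E = Algebra.adjoin R {y}`
  (`adjoin_eq_integralClosure`) and the K4 shape holds on `integralClosure R E`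
  (`horPrincipal_integralClosure`).
* `horPrincipal_chart`: transfer to a "chart": a Noetherian ring `B` with an injective map to
  `E`, integral over `R`, of which `integralClosure R E` is a localisation away from a maximal
  ideal `𝔫`.
-/

namespace Fermat.Agent.S36.TwoPointCl

open Polynomial IsLocalRing IntermediateField

/-! ### Part 1: the abstract ring `A = R[y]` -/

section Abstract

theorem pir_quot_of_hom {T D : Type*} [CommRing T] [CommRing D] [IsPrincipalIdealRing D] (t : T)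
    (σ : T →+* D) (hσ : Function.Surjective σ) (hker : RingHom.ker σ = Ideal.span {t}) :
    IsPrincipalIdealRing (T ⧸ Ideal.span {t}) := by
  have e1 : (T ⧸ Ideal.span {t}) ≃+* D :=
    (Ideal.quotEquivOfEq hker.symm).trans (RingHom.quotientKerEquivOfSurjective hσ)
  exact IsPrincipalIdealRing.of_surjective e1.symm.toRingHom e1.symm.surjective

variable {R A : Type*} [CommRing R] [IsLocalRing R] [IsNoetherianRing R] [CommRing A]
  [Algebra R A]

/-- At every point of `A = R[T]/(H)` there is `t` in the maximal ideal of the local ring with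
`π ∈ (t)` and principal-ideal-ring quotient. -/
theorem exists_pir_gen (π u c d : R) (hm : maximalIdeal R = Ideal.span {π, u})
    (hπ : (Ideal.span {π}).IsPrime) (H G₁ : R[X])
    (e : ℕ) (he : e ≠ 0) (hH : H = (X - C c) * (X - C d) ^ e + C π * G₁) (hmonic : H.Monic)
    (hcd : IsUnit (c - d)) (hG₁ : IsUnit (G₁.eval d)) (y : A) (hy : aeval y H = 0)
    (hgen : ∀ a : A, ∃ G : R[X], aeval y G = a)
    (hpres : ∀ G : R[X], aeval y G = 0 → H ∣ G) (𝔑 : Ideal A) [𝔑.IsMaximal]
    (A' : Type*) [CommRing A'] [Algebra A A'] [IsLocalRing A'] [IsLocalization.AtPrime A' 𝔑] :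
    ∃ t : A', t ∈ maximalIdeal A' ∧
      algebraMap A A' (algebraMap R A π) ∈ Ideal.span {t} ∧
      IsPrincipalIdealRing (A' ⧸ Ideal.span {t}) := by
  have hpir : IsPrincipalIdealRing (R ⧸ Ideal.span {π}) := TwoPoint.pir_quot π u hm hπ
  have hπm : π ∈ maximalIdeal R := by rw [hm]; exact Ideal.subset_span (by simp)
  rcases TwoPoint.sub_mem_or π c d hπm H G₁ e hH hmonic y hy hgen 𝔑 with hyc | hyd
  · obtain ⟨σ', hs, hk, -⟩ :=
      TwoPoint.quot_hom_c A' π u c d hm H G₁ e hH hmonic hcd y hy hgen hpres 𝔑 hyc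
    exact ⟨_, (IsLocalization.AtPrime.to_map_mem_maximal_iff A' 𝔑 _).mpr
      (TwoPoint.algebraMap_mem H hmonic y hy hgen 𝔑 hπm), Ideal.mem_span_singleton_self _,
      pir_quot_of_hom _ σ' hs hk⟩
  · obtain ⟨σ', hs, hk, -⟩ :=
      TwoPoint.quot_hom_d A' π u c d hm H G₁ e he hH hmonic hcd hG₁ y hy hgen hpres 𝔑 hyd
    obtain ⟨⟨ε, hε⟩, -⟩ :=
      TwoPoint.maximalIdeal_d A' π u c d hm H G₁ e he hH hmonic hcd hG₁ y hy hgen 𝔑 hyd
    refine ⟨_, (IsLocalization.AtPrime.to_map_mem_maximal_iff A' 𝔑 _).mpr hyd, ?_,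
      pir_quot_of_hom _ σ' hs hk⟩
    rw [hε]
    obtain ⟨k, rfl⟩ := Nat.exists_eq_succ_of_ne_zero he
    rw [pow_succ, ← mul_assoc]
    exact Ideal.mul_mem_left _ _ (Ideal.mem_span_singleton_self _)

/-- **K4 shape for `A = R[T]/(H)`**: every prime `𝔮 ≤ 𝔑` not containing `π` is principal at
`𝔑`. -/
theorem horPrincipal (π u c d : R) (hm : maximalIdeal R = Ideal.span {π, u})
    (hπ : (Ideal.span {π}).IsPrime) (H G₁ : R[X])
    (e : ℕ) (he : e ≠ 0) (hH : H = (X - C c) * (X - C d) ^ e + C π * G₁) (hmonic : H.Monic)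
    (hcd : IsUnit (c - d)) (hG₁ : IsUnit (G₁.eval d)) (y : A) (hy : aeval y H = 0)
    (hgen : ∀ a : A, ∃ G : R[X], aeval y G = a)
    (hpres : ∀ G : R[X], aeval y G = 0 → H ∣ G) (𝔑 : Ideal A) [𝔑.IsMaximal]
    (𝔮 : Ideal A) [𝔮.IsPrime] (h𝔮 : 𝔮 ≤ 𝔑) (hπ𝔮 : algebraMap R A π ∉ 𝔮) :
    ∃ x ∈ 𝔮, ∃ d', d' ∉ 𝔑 ∧ ∀ z ∈ 𝔮, x ∣ d' * z := by
  haveI : IsNoetherianRing A :=
    isNoetherianRing_of_surjective R[X] A (aeval y : R[X] →ₐ[R] A).toRingHom hgen
  obtain ⟨t, ht, hπt, hpir⟩ := exists_pir_gen π u c d hm hπ H G₁ e he hH hmonic hcd hG₁ y hy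
    hgen hpres 𝔑 (Localization.AtPrime 𝔑)
  haveI := hpir
  refine OrdPoint.horPrincipal_of_quotient_pir 𝔑 (Localization.AtPrime 𝔑) t ht 𝔮 h𝔮 ?_
  intro htq
  have h1 : algebraMap A (Localization.AtPrime 𝔑) (algebraMap R A π) ∈
      𝔮.map (algebraMap A (Localization.AtPrime 𝔑)) := by
    obtain ⟨w, hw⟩ := Ideal.mem_span_singleton'.mp hπt
    rw [← hw]; exact Ideal.mul_mem_left _ _ htq
  have hdisj : Disjoint (𝔑.primeCompl : Set A) (𝔮 : Set A) := by
    rw [Set.disjoint_left]
    intro x hx hx𝔮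
    exact hx (h𝔮 hx𝔮)
  have h2 := IsLocalization.under_map_of_isPrime_disjoint 𝔑.primeCompl
    (Localization.AtPrime 𝔑) (I := 𝔮) inferInstance hdisj
  have h3 : algebraMap R A π ∈
      (Ideal.map (algebraMap A (Localization.AtPrime 𝔑)) 𝔮).under A := h1
  rw [h2] at h3
  exact hπ𝔮 h3

end Abstract


/-! ### Part 2: the field-level package -/

section Field

variable {R : Type*} (K : Type*) {E : Type*} [CommRing R] [IsDomain R] [IsIntegrallyClosed R]
  [Field K] [Algebra R K] [IsFractionRing R K] [Field E] [Algebra K E] [Algebra R E]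
  [IsScalarTower R K E]

omit [IsDomain R] [IsIntegrallyClosed R] in
include K in
theorem algebraMap_injective_of_tower : Function.Injective (algebraMap R E) := by
  rw [IsScalarTower.algebraMap_eq R K E]
  exact (algebraMap K E).injective.comp (IsFractionRing.injective R K)

theorem natDegree_minpoly_eq (y : E) (hy : IsIntegral R y) :
    (minpoly R y).natDegree = (minpoly K y).natDegree := by
  rw [minpoly.isIntegrallyClosed_eq_field_fractions' K hy, (minpoly.monic hy).natDegree_map]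

/-- The presentation hypothesis at field level. -/
theorem hpres_field (H : R[X]) (hmonic : H.Monic) (y : E) (hy : aeval y H = 0)
    (hdeg : H.natDegree ≤ (minpoly K y).natDegree) :
    ∀ G : R[X], aeval y G = 0 → H ∣ G := by
  haveI : Module.IsTorsionFree R E :=
    Module.isTorsionFree_iff_algebraMap_injective.mpr (algebraMap_injective_of_tower K)
  have hint : IsIntegral R y := ⟨H, hmonic, hy⟩
  exact TwoPoint.hpres_of_natDegree_le H hmonic y hy
    (by rw [natDegree_minpoly_eq K y hint]; exact hdeg)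

/-- the generator of `R[y]` -/
def gen (y : E) : Algebra.adjoin R {y} := ⟨y, Algebra.self_mem_adjoin_singleton R y⟩

omit [IsDomain R] [IsIntegrallyClosed R] in
theorem coe_aeval_gen (y : E) (G : R[X]) :
    ((aeval (gen (R := R) y) G : Algebra.adjoin R {y}) : E) = aeval y G := by
  rw [Polynomial.aeval_subalgebra_coe]; rfl

omit [IsDomain R] [IsIntegrallyClosed R] in
theorem hgen_adjoin (y : E) : ∀ a : Algebra.adjoin R {y}, ∃ G : R[X], aeval (gen (R := R) y) G = a := by
  intro a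
  have ha : (a : E) ∈ (Polynomial.aeval y : R[X] →ₐ[R] E).range := by
    rw [← Algebra.adjoin_singleton_eq_range_aeval]; exact a.2
  obtain ⟨G, hG⟩ := ha
  exact ⟨G, Subtype.ext (by rw [coe_aeval_gen]; exact hG)⟩

theorem hpres_adjoin (H : R[X]) (hmonic : H.Monic) (y : E) (hy : aeval y H = 0)
    (hdeg : H.natDegree ≤ (minpoly K y).natDegree) :
    ∀ G : R[X], aeval (gen (R := R) y) G = 0 → H ∣ G := by
  intro G hG
  apply hpres_field K H hmonic y hy hdeg
  rw [← coe_aeval_gen, hG]; rfl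

omit [IsDomain R] [IsIntegrallyClosed R] in
theorem hy_adjoin (H : R[X]) (y : E) (hy : aeval y H = 0) : aeval (gen (R := R) y) H = 0 :=
  Subtype.ext (by rw [coe_aeval_gen, hy]; rfl)

variable [IsLocalRing R] [IsNoetherianRing R]

/-- `R[y]` is integrally closed. -/
theorem isIntegrallyClosed_adjoin (π u c d : R) (hm : maximalIdeal R = Ideal.span {π, u})
    (hπ : (Ideal.span {π}).IsPrime) (H G₁ : R[X])
    (e : ℕ) (he : e ≠ 0) (hH : H = (X - C c) * (X - C d) ^ e + C π * G₁) (hmonic : H.Monic)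
    (hcd : IsUnit (c - d)) (hG₁ : IsUnit (G₁.eval d)) (y : E) (hy : aeval y H = 0)
    (hdeg : H.natDegree ≤ (minpoly K y).natDegree) :
    IsIntegrallyClosed (Algebra.adjoin R {y}) :=
  TwoPoint.isIntegrallyClosed π u c d hm hπ H G₁ e he hH hmonic hcd hG₁ (gen y)
    (hy_adjoin H y hy) (hgen_adjoin y) (hpres_adjoin K H hmonic y hy hdeg)

/-- **`R[y]` is the integral closure of `R` in `E`.** -/
theorem adjoin_eq_integralClosure (π u c d : R) (hm : maximalIdeal R = Ideal.span {π, u})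
    (hπ : (Ideal.span {π}).IsPrime) (H G₁ : R[X])
    (e : ℕ) (he : e ≠ 0) (hH : H = (X - C c) * (X - C d) ^ e + C π * G₁) (hmonic : H.Monic)
    (hcd : IsUnit (c - d)) (hG₁ : IsUnit (G₁.eval d)) (y : E) (hy : aeval y H = 0)
    (hdeg : H.natDegree ≤ (minpoly K y).natDegree) (htop : K⟮y⟯ = ⊤) :
    Algebra.adjoin R {y} = integralClosure R E := by
  have hint : IsIntegral R y := ⟨H, hmonic, hy⟩
  apply le_antisymm
  · exact Algebra.adjoin_le (Set.singleton_subset_iff.mpr hint)
  · intro x hx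
    haveI := isIntegrallyClosed_adjoin K π u c d hm hπ H G₁ e he hH hmonic hcd hG₁ y hy hdeg
    -- `E` is the fraction field of `R[y]`
    have hfrac : IsFractionRing (Algebra.adjoin R {y}) E := by
      apply IsFractionRing.of_field
      intro z
      have hz : z ∈ K⟮y⟯ := by rw [htop]; trivial
      have halg : IsAlgebraic K y := (hint.tower_top (A := K)).isAlgebraic
      rw [← IntermediateField.mem_toSubalgebra,
        IntermediateField.adjoin_simple_toSubalgebra_of_isAlgebraic halg,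
        Algebra.adjoin_singleton_eq_range_aeval] at hz
      obtain ⟨P, hP⟩ := hz
      obtain ⟨b, hb, hbP⟩ := IsLocalization.integerNormalization_spec (nonZeroDivisors R) P
      set P₀ := IsLocalization.integerNormalization (nonZeroDivisors R) P with hP₀
      have hb0 : algebraMap R E b ≠ 0 := by
        intro h0
        have := algebraMap_injective_of_tower (R := R) (E := E) K (h0.trans (map_zero _).symm)
        exact nonZeroDivisors.ne_zero hb this
      refine ⟨aeval (gen (R := R) y) P₀, algebraMap R _ b, ?_⟩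
      have hP' : aeval y P = z := hP
      have hsm : (b • P : K[X]) = C (algebraMap R K b) * P := by
        rw [← Polynomial.smul_eq_C_mul, algebraMap_smul]
      have h1 : aeval y P₀ = algebraMap R E b * z := by
        rw [← hP', ← Polynomial.aeval_map_algebraMap K y P₀, hbP, hsm, map_mul, aeval_C,
          ← IsScalarTower.algebraMap_apply]
      have h2 : algebraMap (Algebra.adjoin R {y}) E (aeval (gen (R := R) y) P₀) = aeval y P₀ :=
        coe_aeval_gen y P₀
      have h3 : algebraMap (Algebra.adjoin R {y}) E (algebraMap R _ b) = algebraMap R E b := rfl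
      rw [h2, h3, h1, mul_div_cancel_left₀ _ hb0]
    have hx' : IsIntegral (Algebra.adjoin R {y}) x := IsIntegral.tower_top hx
    obtain ⟨a, ha⟩ := (IsIntegrallyClosed.isIntegral_iff (R := Algebra.adjoin R {y})).mp hx'
    rw [← ha]; exact a.2

/-- **K4 shape on the integral closure**: in the field-level situation, every prime `𝔮 ≤ 𝔑` of
`integralClosure R E` not containing `π` is principal at the maximal ideal `𝔑`. -/
theorem horPrincipal_integralClosure (π u c d : R) (hm : maximalIdeal R = Ideal.span {π, u})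
    (hπ : (Ideal.span {π}).IsPrime) (H G₁ : R[X])
    (e : ℕ) (he : e ≠ 0) (hH : H = (X - C c) * (X - C d) ^ e + C π * G₁) (hmonic : H.Monic)
    (hcd : IsUnit (c - d)) (hG₁ : IsUnit (G₁.eval d)) (y : E) (hy : aeval y H = 0)
    (hdeg : H.natDegree ≤ (minpoly K y).natDegree) (htop : K⟮y⟯ = ⊤)
    (𝔑 : Ideal (integralClosure R E)) [𝔑.IsMaximal]
    (𝔮 : Ideal (integralClosure R E)) [𝔮.IsPrime] (h𝔮 : 𝔮 ≤ 𝔑)
    (hπ𝔮 : algebraMap R (integralClosure R E) π ∉ 𝔮) :
    ∃ x ∈ 𝔮, ∃ d', d' ∉ 𝔑 ∧ ∀ z ∈ 𝔮, x ∣ d' * z := by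
  have key : ∀ (S : Subalgebra R E), Algebra.adjoin R {y} = S → ∀ (𝔑 : Ideal S) [𝔑.IsMaximal]
      (𝔮 : Ideal S) [𝔮.IsPrime], 𝔮 ≤ 𝔑 → algebraMap R S π ∉ 𝔮 →
      ∃ x ∈ 𝔮, ∃ d', d' ∉ 𝔑 ∧ ∀ z ∈ 𝔮, x ∣ d' * z := by
    rintro S rfl 𝔑 _ 𝔮 _ h𝔮 hπ𝔮
    exact horPrincipal π u c d hm hπ H G₁ e he hH hmonic hcd hG₁ (gen y)
      (hy_adjoin H y hy) (hgen_adjoin y) (hpres_adjoin K H hmonic y hy hdeg) 𝔑 𝔮 h𝔮 hπ𝔮
  exact key _ (adjoin_eq_integralClosure K π u c d hm hπ H G₁ e he hH hmonic hcd hG₁ y hy hdeg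
    htop) 𝔑 𝔮 h𝔮 hπ𝔮

/-- The local datum on the integral closure: at every maximal ideal `𝔑` of `integralClosure R E`
there is `t` in the maximal ideal of the local ring with `π ∈ (t)` and principal-ideal-ring
quotient. -/
theorem exists_pir_gen_integralClosure (π u c d : R) (hm : maximalIdeal R = Ideal.span {π, u})
    (hπ : (Ideal.span {π}).IsPrime) (H G₁ : R[X])
    (e : ℕ) (he : e ≠ 0) (hH : H = (X - C c) * (X - C d) ^ e + C π * G₁) (hmonic : H.Monic)
    (hcd : IsUnit (c - d)) (hG₁ : IsUnit (G₁.eval d)) (y : E) (hy : aeval y H = 0)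
    (hdeg : H.natDegree ≤ (minpoly K y).natDegree) (htop : K⟮y⟯ = ⊤)
    (𝔑 : Ideal (integralClosure R E)) [𝔑.IsMaximal] :
    ∃ t : Localization.AtPrime 𝔑, t ∈ maximalIdeal (Localization.AtPrime 𝔑) ∧
      algebraMap (integralClosure R E) (Localization.AtPrime 𝔑)
        (algebraMap R (integralClosure R E) π) ∈ Ideal.span {t} ∧
      IsPrincipalIdealRing (Localization.AtPrime 𝔑 ⧸ Ideal.span {t}) := by
  have key : ∀ (S : Subalgebra R E), Algebra.adjoin R {y} = S → ∀ (𝔑 : Ideal S) [𝔑.IsMaximal],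
      ∃ t : Localization.AtPrime 𝔑, t ∈ maximalIdeal (Localization.AtPrime 𝔑) ∧
        algebraMap S (Localization.AtPrime 𝔑) (algebraMap R S π) ∈ Ideal.span {t} ∧
        IsPrincipalIdealRing (Localization.AtPrime 𝔑 ⧸ Ideal.span {t}) := by
    rintro S rfl 𝔑 _
    exact exists_pir_gen π u c d hm hπ H G₁ e he hH hmonic hcd hG₁ (gen y)
      (hy_adjoin H y hy) (hgen_adjoin y) (hpres_adjoin K H hmonic y hy hdeg) 𝔑
      (Localization.AtPrime 𝔑)
  exact key _ (adjoin_eq_integralClosure K π u c d hm hπ H G₁ e he hH hmonic hcd hG₁ y hy hdeg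
    htop) 𝔑

end Field


/-! ### Part 3: transfer to a chart -/

section Chart

variable {R : Type*} (K : Type*) {E : Type*} [CommRing R] [IsDomain R] [IsIntegrallyClosed R]
  [Field K] [Algebra R K] [IsFractionRing R K] [Field E] [Algebra K E] [Algebra R E]
  [IsScalarTower R K E] [IsLocalRing R] [IsNoetherianRing R]

/-- **K4 shape on a chart.**  In the field-level two-point situation, let `B` be a Noetherian
ring with an injective homomorphism `φ : B → E` whose values are integral over `R`, and `𝔫` a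
maximal ideal of `B` such that the integral closure of `R` in `E` is a localisation of `B` away
from `𝔫` (`hloc`).  Then every prime `𝔮 ≤ 𝔫` of `B` not containing (the element `p₀` of `B`
representing) `π` is principal at `𝔫`. -/
theorem horPrincipal_chart (π u c d : R) (hm : maximalIdeal R = Ideal.span {π, u})
    (hπ : (Ideal.span {π}).IsPrime) (H G₁ : R[X])
    (e : ℕ) (he : e ≠ 0) (hH : H = (X - C c) * (X - C d) ^ e + C π * G₁) (hmonic : H.Monic)
    (hcd : IsUnit (c - d)) (hG₁ : IsUnit (G₁.eval d)) (y : E) (hy : aeval y H = 0)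
    (hdeg : H.natDegree ≤ (minpoly K y).natDegree) (htop : K⟮y⟯ = ⊤)
    {B : Type*} [CommRing B] [IsNoetherianRing B] (φ : B →+* E) (hφ : Function.Injective φ)
    (hint : ∀ b : B, IsIntegral R (φ b)) (𝔫 : Ideal B) [h𝔫 : 𝔫.IsMaximal]
    (hloc : ∀ x : E, IsIntegral R x →
      ∃ s : B, s ∉ 𝔫 ∧ IsIntegral R (φ s)⁻¹ ∧ ∃ b : B, φ b = φ s * x)
    (p₀ : B) (hp₀ : φ p₀ = algebraMap R E π)
    (𝔮 : Ideal B) [h𝔮p : 𝔮.IsPrime] (h𝔮 : 𝔮 ≤ 𝔫) (hp𝔮 : p₀ ∉ 𝔮) :
    ∃ x ∈ 𝔮, ∃ d', d' ∉ 𝔫 ∧ ∀ z ∈ 𝔮, x ∣ d' * z := by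
  classical
  -- the map to the integral closure
  let ψ : B →+* integralClosure R E := φ.codRestrict (integralClosure R E) hint
  have hψ : ∀ b, ((ψ b : integralClosure R E) : E) = φ b := fun b => rfl
  have hψinj : Function.Injective ψ := fun a b hab => hφ (congrArg Subtype.val hab)
  letI : Algebra B (integralClosure R E) := ψ.toAlgebra
  have halg : ∀ b, algebraMap B (integralClosure R E) b = ψ b := fun b => rfl
  -- the submonoid
  let Mo : Submonoid B := 𝔫.primeCompl ⊓ (IsUnit.submonoid (integralClosure R E)).comap ψ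
  have hMo : ∀ s : B, s ∈ Mo ↔ s ∉ 𝔫 ∧ IsUnit (ψ s) := fun s => Iff.rfl
  haveI hisloc : IsLocalization Mo (integralClosure R E) :=
    { map_units := fun s => ((hMo s).mp s.2).2
      surj := fun z => by
        obtain ⟨s, hs𝔫, hsinv, b, hb⟩ := hloc z z.2
        have hs0 : φ s ≠ 0 := by
          intro h0
          have : s = 0 := hφ (h0.trans (map_zero φ).symm)
          exact hs𝔫 (this ▸ 𝔫.zero_mem)
        have hsu : IsUnit (ψ s) := by
          refine IsUnit.of_mul_eq_one (⟨(φ s)⁻¹, hsinv⟩ : integralClosure R E) ?_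
          apply Subtype.ext
          show φ s * (φ s)⁻¹ = 1
          exact mul_inv_cancel₀ hs0
        refine ⟨(b, ⟨s, (hMo s).mpr ⟨hs𝔫, hsu⟩⟩), ?_⟩
        apply Subtype.ext
        show (z : E) * φ s = φ b
        rw [hb, mul_comm]
      exists_of_eq := fun {x y} hxy => ⟨1, by rw [hψinj hxy]⟩ }
  have hdisj𝔫 : Disjoint (Mo : Set B) (𝔫 : Set B) := by
    rw [Set.disjoint_left]
    intro x hx hx𝔫
    exact ((hMo x).mp hx).1 hx𝔫
  have hdisj𝔮 : Disjoint (Mo : Set B) (𝔮 : Set B) := by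
    rw [Set.disjoint_left]
    intro x hx hx𝔮
    exact ((hMo x).mp hx).1 (h𝔮 hx𝔮)
  -- the maximal ideal of the integral closure over `𝔫`
  set 𝔑 : Ideal (integralClosure R E) := Ideal.map (algebraMap B (integralClosure R E)) 𝔫
    with h𝔑
  have h𝔑prime : 𝔑.IsPrime :=
    IsLocalization.isPrime_of_isPrime_disjoint Mo (integralClosure R E) 𝔫 h𝔫.isPrime hdisj𝔫
  have h𝔑under : 𝔑.under B = 𝔫 :=
    IsLocalization.under_map_of_isPrime_disjoint Mo (integralClosure R E) h𝔫.isPrime hdisj𝔫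
  have h𝔑max : 𝔑.IsMaximal := by
    obtain ⟨𝔓, h𝔓max, hle⟩ := Ideal.exists_le_maximal 𝔑 h𝔑prime.ne_top
    have h1 : 𝔫 ≤ 𝔓.under B := by
      rw [← h𝔑under]; exact Ideal.comap_mono hle
    have h2 : 𝔓.under B ≠ ⊤ := (Ideal.IsPrime.under B 𝔓).ne_top
    have h3 : 𝔫 = 𝔓.under B := h𝔫.eq_of_le h2 h1
    have h4 : 𝔓 = 𝔑 := by
      rw [h𝔑, h3]; exact (IsLocalization.map_under Mo (integralClosure R E) 𝔓).symm
    rw [← h4]; exact h𝔓max
  haveI := h𝔑max
  haveI := h𝔑prime
  -- the local ring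
  have hloc' : IsLocalization.AtPrime (Localization.AtPrime 𝔑)
      (𝔑.comap (algebraMap B (integralClosure R E))) :=
    IsLocalization.isLocalization_isLocalization_atPrime_isLocalization Mo
      (Localization.AtPrime 𝔑) 𝔑
  have hcompl : (𝔑.comap (algebraMap B (integralClosure R E))).primeCompl = 𝔫.primeCompl := by
    ext x
    simp only [Ideal.mem_primeCompl_iff]
    have : 𝔑.comap (algebraMap B (integralClosure R E)) = 𝔫 := h𝔑under
    rw [this]
  haveI : IsLocalization.AtPrime (Localization.AtPrime 𝔑) 𝔫 := by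
    have h := hloc'
    unfold IsLocalization.AtPrime at h ⊢
    rw [hcompl] at h
    exact h
  -- the local datum
  obtain ⟨t, ht, hπt, hpir⟩ := exists_pir_gen_integralClosure K π u c d hm hπ H G₁ e he hH hmonic
    hcd hG₁ y hy hdeg htop 𝔑
  haveI := hpir
  refine OrdPoint.horPrincipal_of_quotient_pir 𝔫 (Localization.AtPrime 𝔑) t ht 𝔮 h𝔮 ?_
  intro htq
  -- `𝔮' = 𝔮 C` is a prime of the integral closure below `𝔑`
  set 𝔮' : Ideal (integralClosure R E) := Ideal.map (algebraMap B (integralClosure R E)) 𝔮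
    with h𝔮'
  have h𝔮'prime : 𝔮'.IsPrime :=
    IsLocalization.isPrime_of_isPrime_disjoint Mo (integralClosure R E) 𝔮 h𝔮p hdisj𝔮
  have h𝔮'under : 𝔮'.under B = 𝔮 :=
    IsLocalization.under_map_of_isPrime_disjoint Mo (integralClosure R E) h𝔮p hdisj𝔮
  have h𝔮'le : 𝔮' ≤ 𝔑 := Ideal.map_mono h𝔮
  have hmapmap : 𝔮.map (algebraMap B (Localization.AtPrime 𝔑)) =
      𝔮'.map (algebraMap (integralClosure R E) (Localization.AtPrime 𝔑)) := by
    rw [h𝔮', Ideal.map_map,
      ← IsScalarTower.algebraMap_eq B (integralClosure R E) (Localization.AtPrime 𝔑)]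
  rw [hmapmap] at htq
  have h1 : algebraMap (integralClosure R E) (Localization.AtPrime 𝔑)
      (algebraMap R (integralClosure R E) π) ∈
      𝔮'.map (algebraMap (integralClosure R E) (Localization.AtPrime 𝔑)) := by
    obtain ⟨w, hw⟩ := Ideal.mem_span_singleton'.mp hπt
    rw [← hw]; exact Ideal.mul_mem_left _ _ htq
  have hdisj' : Disjoint (𝔑.primeCompl : Set (integralClosure R E)) (𝔮' : Set _) := by
    rw [Set.disjoint_left]
    intro x hx hx𝔮
    exact hx (h𝔮'le hx𝔮)
  have h2 := IsLocalization.under_map_of_isPrime_disjoint 𝔑.primeCompl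
    (Localization.AtPrime 𝔑) h𝔮'prime hdisj'
  have h3 : algebraMap R (integralClosure R E) π ∈
      (Ideal.map (algebraMap (integralClosure R E) (Localization.AtPrime 𝔑)) 𝔮').under
        (integralClosure R E) := h1
  rw [h2] at h3
  have h4 : algebraMap R (integralClosure R E) π = algebraMap B (integralClosure R E) p₀ :=
    Subtype.ext hp₀.symm
  rw [h4] at h3
  have h5 : p₀ ∈ 𝔮'.under B := h3
  rw [h𝔮'under] at h5
  exact hp𝔮 h5

end Chart

end Fermat.Agent.S36.TwoPointCl
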