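import Mathlib
import Fermat.Agent.S34.LocCusp
import Fermat.Agent.S35.CuspGen
import Fermat.Agent.S36.GenSq
import Fermat.Agent.S36.TwoPointCl
import Fermat.Agent.S36.FibreFinite
import Fermat.Agent.S36.CuspPolyQ

/-!
# S36 (R-cusp), P1: K4 at the cusp points of level `M q²` lying over a `C_∞`-cusp of level `M q`

`k4_of_inf`: let `B₁`, `B₂` be carriers of the charts `W[1/j]` of levels `M q`, `M q²`, and
`a : B₁ → B₂` the chart map induced by `α₂ = heckeAlphaBar L (M q) q`.  Let `𝔫 ∋ q, 1/j` be a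
maximal ideal of `B₂` whose contraction `𝔫₁ = a⁻¹𝔫` is of `∞`-type (`hC`: every `b ∈ B₁` whose
`q`-expansion is divisible by `q` lies in `𝔫₁`).  Then every prime `𝔮 ≤ 𝔫` of `B₂` with `q ∉ 𝔮` is
principal at `𝔫`, in the K4 shape `∃ x ∈ 𝔮, ∃ d ∉ 𝔫, ∀ y ∈ 𝔮, x ∣ d * y`.

Proof: `R = (B₁)_{𝔫₁}` is a noetherian normal local domain with `𝔪 = (q, u)`, `(q)` prime
(`S34.LocCusp.cusp_dich_level`, `S35.CuspGen.cusp_prime`); `Y = j / j''` generates
`FF L (M q²)` over `α₂ (FF L (M q))` with minimal polynomial of degree `q` (`S36.GenSq`) and is a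
root of `H = (X - x^(q²-1)) (X - 1)^(q-1) + q G₁`, `G₁(1)` a unit (`S36.CuspPoly`); then
`TwoPointCl.horPrincipal_chart` applies to the chart `B₂`.
-/

set_option autoImplicit false
set_option linter.unusedSectionVars false
set_option linter.style.haveILetI false
set_option linter.unusedVariables false

noncomputable section

namespace Fermat.Agent.S36.CuspInf

open Polynomial ModularCurve AlgebraicCurve IsLocalRing IntermediateField Fermat.Agent.S18
  Fermat.Agent.S18.Gauss Fermat.Agent.S24 Fermat.Agent.S37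

local notation "Qb" => AlgebraicClosure ℚ

/-- `α` maps the chart `W[1/j]` of level `N` to the chart `W[1/j]` of level `N l`. -/
theorem alpha_comp_evFinf {L : Type*} [Field L] [Algebra ℚ L] (W : ValuationSubring L)
    (N l : ℕ) [NeZero N] [NeZero l] :
    ((heckeAlphaBar L N l : FF L N →ₐ[L] FF L (N * l)) : FF L N →+* FF L (N * l)).comp
      (evFinf W N) = evFinf W (N * l) := by
  refine Polynomial.ringHom_ext (fun a => ?_) ?_
  · rw [RingHom.comp_apply, evFinf_C, evFinf_C]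
    exact (heckeAlphaBar L N l).commutes _
  · rw [RingHom.comp_apply, evFinf_X, evFinf_X]
    show heckeAlphaBar L N l (jBC L N)⁻¹ = _
    rw [map_inv₀, GenSq.alpha_jBC]

section ChartMap

variable {L : Type*} [Field L] [Algebra ℚ L] (W : ValuationSubring L)
  (N l : ℕ) [NeZero N] [NeZero l]
  [Algebra (↥W)[X] (FF L N)] (halg₁ : algebraMap (↥W)[X] (FF L N) = evFinf W N)
  (B₁ : Type*) [CommRing B₁] [Algebra (↥W)[X] B₁] [Algebra B₁ (FF L N)]
  [IsScalarTower (↥W)[X] B₁ (FF L N)] [IsIntegralClosure B₁ (↥W)[X] (FF L N)]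
  [Algebra (↥W)[X] (FF L (N * l))]
  (halg₂ : algebraMap (↥W)[X] (FF L (N * l)) = evFinf W (N * l))
  (B₂ : Type*) [CommRing B₂] [Algebra (↥W)[X] B₂] [Algebra B₂ (FF L (N * l))]
  [IsScalarTower (↥W)[X] B₂ (FF L (N * l))] [IsIntegralClosure B₂ (↥W)[X] (FF L (N * l))]
  (a : B₁ →+* B₂)
  (ha : ∀ b : B₁, algebraMap B₂ (FF L (N * l)) (a b) =
    heckeAlphaBar L N l (algebraMap B₁ (FF L N) b))

include halg₁ halg₂ ha

/-- a chart map induced by `α` is compatible with the structure maps from `W[X]` -/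
theorem chartMap_algebraMap (p : (↥W)[X]) :
    a (algebraMap (↥W)[X] B₁ p) = algebraMap (↥W)[X] B₂ p := by
  apply IsIntegralClosure.algebraMap_injective B₂ (↥W)[X] (FF L (N * l))
  rw [ha, ← IsScalarTower.algebraMap_apply, ← IsScalarTower.algebraMap_apply, halg₁, halg₂,
    ← alpha_comp_evFinf W N l]
  rfl

/-- a chart map induced by `α` is integral -/
theorem chartMap_isIntegral : a.IsIntegral := by
  intro b
  haveI : Algebra.IsIntegral (↥W)[X] B₂ :=
    IsIntegralClosure.isIntegral_algebra (↥W)[X] (FF L (N * l))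
  obtain ⟨p, hp, hpb⟩ := Algebra.IsIntegral.isIntegral (R := (↥W)[X]) b
  refine ⟨p.map (algebraMap (↥W)[X] B₁), hp.map _, ?_⟩
  rw [eval₂_map]
  have h1 : a.comp (algebraMap (↥W)[X] B₁) = algebraMap (↥W)[X] B₂ :=
    RingHom.ext (chartMap_algebraMap W N l halg₁ B₁ halg₂ B₂ a ha)
  rw [h1]
  exact hpb

/-- the contraction of a maximal ideal along a chart map is maximal -/
theorem chartMap_comap_isMaximal (𝔫 : Ideal B₂) [𝔫.IsMaximal] : (𝔫.comap a).IsMaximal :=
  FibreFinite.comap_isMaximal a (chartMap_isIntegral W N l halg₁ B₁ halg₂ B₂ a ha) 𝔫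

end ChartMap

variable (A : ValuationSubring Qb) {L : Type} [Field L] [Algebra ℚ L] (ι : L →+* Qb)
  (M q : ℕ) [NeZero M] [NeZero q]

set_option maxHeartbeats 1600000 in
/-- **K4 at a cusp point of level `M q²` over a `C_∞`-cusp of level `M q`.** -/
theorem k4_of_inf (hq : q.Prime) (hqM : ¬ q ∣ M) (S : Finset Qb)
    (hlev : LevelChange.IsLevel A q S ι)
    (hunr : Irreducible ((q : ℕ) : ↥(A.comap ι)))
    [Algebra (↥(A.comap ι))[X] (FF L (M * q))]
    (halg₁ : algebraMap (↥(A.comap ι))[X] (FF L (M * q)) = evFinf (A.comap ι) (M * q))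
    (B₁ : Type*) [CommRing B₁] [Algebra (↥(A.comap ι))[X] B₁] [Algebra B₁ (FF L (M * q))]
    [IsScalarTower (↥(A.comap ι))[X] B₁ (FF L (M * q))]
    [IsIntegralClosure B₁ (↥(A.comap ι))[X] (FF L (M * q))]
    [Algebra (↥(A.comap ι))[X] (FF L (M * q * q))]
    (halg₂ : algebraMap (↥(A.comap ι))[X] (FF L (M * q * q)) =
      evFinf (A.comap ι) (M * q * q))
    (B₂ : Type*) [CommRing B₂] [Algebra (↥(A.comap ι))[X] B₂] [Algebra B₂ (FF L (M * q * q))]
    [IsScalarTower (↥(A.comap ι))[X] B₂ (FF L (M * q * q))]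
    [IsIntegralClosure B₂ (↥(A.comap ι))[X] (FF L (M * q * q))]
    (a : B₁ →+* B₂)
    (ha : ∀ b : B₁, algebraMap B₂ (FF L (M * q * q)) (a b) =
      heckeAlphaBar L (M * q) q (algebraMap B₁ (FF L (M * q)) b))
    (𝔫 : Ideal B₂) [𝔫.IsMaximal]
    (hq𝔫 : algebraMap (↥(A.comap ι))[X] B₂ (C ((q : ℕ) : ↥(A.comap ι))) ∈ 𝔫)
    (hX𝔫 : algebraMap (↥(A.comap ι))[X] B₂ X ∈ 𝔫)
    (hC : ∀ b : B₁, ∀ g ∈ contentRing (A.comap ι),
      ((algebraMap B₁ (FF L (M * q)) b : FF L (M * q)) : LaurentSeries L) =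
        HahnSeries.C ((q : ℕ) : L) * g → a b ∈ 𝔫)
    (𝔮 : Ideal B₂) [𝔮.IsPrime] (h𝔮 : 𝔮 ≤ 𝔫)
    (hq𝔮 : algebraMap (↥(A.comap ι))[X] B₂ (C ((q : ℕ) : ↥(A.comap ι))) ∉ 𝔮) :
    ∃ x ∈ 𝔮, ∃ d, d ∉ 𝔫 ∧ ∀ y ∈ 𝔮, x ∣ d * y := by
  classical
  obtain ⟨-, hroots, hdvr, hclosed, -, hchar, -, -⟩ := id hlev
  haveI := hdvr
  haveI := hclosed
  haveI := hchar
  haveI : Fact q.Prime := ⟨hq⟩
  have hαev := alpha_comp_evFinf (A.comap ι) (M * q) q
  have hinj₁ : Function.Injective (algebraMap B₁ (FF L (M * q))) :=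
    IsIntegralClosure.algebraMap_injective B₁ (↥(A.comap ι))[X] (FF L (M * q))
  have hinj₂ : Function.Injective (algebraMap B₂ (FF L (M * q * q))) :=
    IsIntegralClosure.algebraMap_injective B₂ (↥(A.comap ι))[X] (FF L (M * q * q))
  -- `a` is compatible with the structure maps from `W[X]`
  have haW : ∀ p : (↥(A.comap ι))[X], a (algebraMap (↥(A.comap ι))[X] B₁ p) =
      algebraMap (↥(A.comap ι))[X] B₂ p :=
    chartMap_algebraMap (A.comap ι) (M * q) q halg₁ B₁ halg₂ B₂ a ha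
  -- the contraction
  haveI h𝔫₁max : (𝔫.comap a).IsMaximal :=
    chartMap_comap_isMaximal (A.comap ι) (M * q) q halg₁ B₁ halg₂ B₂ a ha 𝔫
  have hq𝔫₁ : algebraMap (↥(A.comap ι))[X] B₁ (C ((q : ℕ) : ↥(A.comap ι))) ∈ 𝔫.comap a := by
    rw [Ideal.mem_comap, haW]; exact hq𝔫
  have hX𝔫₁ : algebraMap (↥(A.comap ι))[X] B₁ X ∈ 𝔫.comap a := by
    rw [Ideal.mem_comap, haW]; exact hX𝔫
  -- structure of the carriers
  haveI : IsDomain B₁ := Fermat.Agent.S34.KLocCusp.isDomain_inf (A.comap ι) (M * q) B₁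
  haveI : IsFractionRing B₁ (FF L (M * q)) :=
    Fermat.Agent.S34.KLocCusp.isFractionRing_inf (A.comap ι) (M * q) halg₁ B₁
  haveI : IsNoetherianRing B₁ :=
    Fermat.Agent.S34.KLocCusp.isNoetherianRing_inf (A.comap ι) (M * q) halg₁ B₁
  haveI : IsIntegrallyClosed B₁ :=
    Fermat.Agent.S34.KLocCusp.isIntegrallyClosed_inf (A.comap ι) (M * q) halg₁ B₁
  haveI : IsNoetherianRing B₂ :=
    Fermat.Agent.S34.KLocCusp.isNoetherianRing_inf (A.comap ι) (M * q * q) halg₂ B₂
  -- the local ring `R` and its maps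
  have hunitK : ∀ y : (𝔫.comap a).primeCompl,
      IsUnit (algebraMap B₁ (FF L (M * q)) (y : B₁)) := fun y =>
    IsUnit.mk0 _ (fun h0 => y.2 ((hinj₁ (h0.trans (map_zero _).symm)) ▸ (𝔫.comap a).zero_mem))
  let ψ : Localization.AtPrime (𝔫.comap a) →+* FF L (M * q) :=
    IsLocalization.lift (M := (𝔫.comap a).primeCompl) (g := algebraMap B₁ (FF L (M * q))) hunitK
  have hψ : ∀ b : B₁, ψ (algebraMap B₁ (Localization.AtPrime (𝔫.comap a)) b) =
      algebraMap B₁ (FF L (M * q)) b := fun b => IsLocalization.lift_eq _ b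
  letI : Algebra (Localization.AtPrime (𝔫.comap a)) (FF L (M * q)) := ψ.toAlgebra
  haveI : IsScalarTower B₁ (Localization.AtPrime (𝔫.comap a)) (FF L (M * q)) :=
    IsScalarTower.of_algebraMap_eq (fun b => (hψ b).symm)
  haveI : IsFractionRing (Localization.AtPrime (𝔫.comap a)) (FF L (M * q)) :=
    IsFractionRing.isFractionRing_of_isDomain_of_isLocalization (𝔫.comap a).primeCompl
      (Localization.AtPrime (𝔫.comap a)) (FF L (M * q))
  haveI : IsDomain (Localization.AtPrime (𝔫.comap a)) :=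
    IsLocalization.isDomain_localization (𝔫.comap a).primeCompl_le_nonZeroDivisors
  haveI : IsIntegrallyClosed (Localization.AtPrime (𝔫.comap a)) :=
    isIntegrallyClosed_of_isLocalization (Localization.AtPrime (𝔫.comap a))
      (𝔫.comap a).primeCompl (𝔫.comap a).primeCompl_le_nonZeroDivisors
  haveI : IsNoetherianRing (Localization.AtPrime (𝔫.comap a)) :=
    IsLocalization.isNoetherianRing (𝔫.comap a).primeCompl _ inferInstance
  letI : Algebra (FF L (M * q)) (FF L (M * q * q)) := algebraAlong (heckeAlphaBar L (M * q) q)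
  letI : Algebra (Localization.AtPrime (𝔫.comap a)) (FF L (M * q * q)) :=
    ((algebraMap (FF L (M * q)) (FF L (M * q * q))).comp
      (algebraMap (Localization.AtPrime (𝔫.comap a)) (FF L (M * q)))).toAlgebra
  haveI : IsScalarTower (Localization.AtPrime (𝔫.comap a)) (FF L (M * q)) (FF L (M * q * q)) :=
    IsScalarTower.of_algebraMap_eq (fun _ => rfl)
  have hRF₂ : ∀ r : Localization.AtPrime (𝔫.comap a),
      algebraMap (Localization.AtPrime (𝔫.comap a)) (FF L (M * q * q)) r =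
        heckeAlphaBar L (M * q) q (ψ r) := fun r => rfl
  have hBRF₂ : ∀ b : B₁, algebraMap (Localization.AtPrime (𝔫.comap a)) (FF L (M * q * q))
      (algebraMap B₁ (Localization.AtPrime (𝔫.comap a)) b) =
        algebraMap B₂ (FF L (M * q * q)) (a b) := fun b => by rw [hRF₂, hψ, ha]
  -- `𝔪 = (q, u)`
  obtain ⟨u, hu⟩ := Fermat.Agent.S34.LocCusp.cusp_dich_level M q hq hqM A S ι hlev
    ((q : ℕ) : ↥(A.comap ι)) hunr halg₁ B₁ (𝔫.comap a) hq𝔫₁ hX𝔫₁
  -- `(q)` is prime
  obtain ⟨w, hwα, hwβ⟩ := Fermat.Agent.S34.FrobPartner.exists_atkinLehner_level ι M q hq hqM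
  have hsurj₁ : ∀ x : FF L (M * q), (evFinf (A.comap ι) (M * q)).IsIntegralElem x →
      ∃ b : B₁, algebraMap B₁ (FF L (M * q)) b = x := fun x hx =>
    (Fermat.Agent.S34.ChartAct.exists_algebraMap_eq_iff_inf (A.comap ι) (M * q) halg₁ B₁ x).mpr hx
  have hint₁ : ∀ b : B₁, (evFinf (A.comap ι) (M * q)).IsIntegralElem
      (algebraMap B₁ (FF L (M * q)) b) := fun b =>
    (Fermat.Agent.S34.ChartAct.exists_algebraMap_eq_iff_inf (A.comap ι) (M * q) halg₁ B₁ _).mp
      ⟨b, rfl⟩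
  have hXF : algebraMap B₁ (FF L (M * q)) (algebraMap (↥(A.comap ι))[X] B₁ X) =
      (jBC L (M * q))⁻¹ := by
    rw [← IsScalarTower.algebraMap_apply, halg₁, evFinf_X]
  have hCF : algebraMap B₁ (FF L (M * q))
      (algebraMap (↥(A.comap ι))[X] B₁ (C ((q : ℕ) : ↥(A.comap ι)))) =
      algebraMap L (FF L (M * q)) ((((q : ℕ) : ↥(A.comap ι)) : ↥(A.comap ι)) : L) := by
    rw [← IsScalarTower.algebraMap_apply, halg₁, evFinf_C]
  have hprime := Fermat.Agent.S35.CuspGen.cusp_prime ι (A.comap ι) M q w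
    (algebraMap B₁ (FF L (M * q))) hqM hunr hwα hwβ hinj₁ hint₁ hsurj₁ _ hCF (𝔫.comap a) hq𝔫₁
    _ hXF hX𝔫₁
  have hπ : (Ideal.span {algebraMap B₁ (Localization.AtPrime (𝔫.comap a))
      (algebraMap (↥(A.comap ι))[X] B₁ (C ((q : ℕ) : ↥(A.comap ι))))}).IsPrime :=
    (Ideal.span_singleton_prime hprime.ne_zero).mpr hprime
  -- the polynomial `H`
  obtain ⟨H, G₁, hmonic, hdegH, hH, hG₁, hroot⟩ := CuspPolyQ.exists_cuspPoly A ι M q hq hqM S hlev
    hunr halg₁ B₁ (𝔫.comap a) hq𝔫₁ hX𝔫₁ (fun b g hg e => hC b g hg e)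
  have hy := hroot ψ hψ
  have hy' : aeval (jBC L (M * q * q) *
      (heckeBetaBar L (M * q) q (heckeBetaBar L M q (jBC L M)))⁻¹) H = 0 := by
    rw [aeval_def, ← eval_map]
    exact hy
  -- `c - 1` is a unit
  have hcmem : algebraMap B₁ (Localization.AtPrime (𝔫.comap a))
      (algebraMap (↥(A.comap ι))[X] B₁ X) ^ (q * q - 1) ∈
      maximalIdeal (Localization.AtPrime (𝔫.comap a)) := by
    have h1 : algebraMap B₁ (Localization.AtPrime (𝔫.comap a))
        (algebraMap (↥(A.comap ι))[X] B₁ X) ∈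
        maximalIdeal (Localization.AtPrime (𝔫.comap a)) := by
      rw [← Localization.AtPrime.map_eq_maximalIdeal]
      exact Ideal.mem_map_of_mem _ hX𝔫₁
    have h2 : q * q - 1 ≠ 0 := by
      have := hq.two_le
      have : 4 ≤ q * q := by nlinarith
      omega
    exact Ideal.pow_mem_of_mem _ h1 _ (Nat.pos_of_ne_zero h2)
  have hcd : IsUnit (algebraMap B₁ (Localization.AtPrime (𝔫.comap a))
      (algebraMap (↥(A.comap ι))[X] B₁ X) ^ (q * q - 1) - 1) := by
    have h1 := IsLocalRing.isUnit_one_sub_self_of_mem_nonunits _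
      ((IsLocalRing.mem_maximalIdeal _).mp hcmem)
    have h2 := h1.neg
    rwa [neg_sub] at h2
  -- degree and generation
  obtain ⟨hfin, hfr⟩ := DegreeDvd.finrank_alpha_of_dvd_of_bar L ι (M * q) q (dvd_mul_left q M)
  haveI := hfin
  have hYnot : jBC L (M * q * q) *
      (heckeBetaBar L (M * q) q (heckeBetaBar L M q (jBC L M)))⁻¹ ∉
      Set.range (heckeAlphaBar L (M * q) q) := by
    have h := GenSq.mul_inv_jpp_not_mem ι M q hq hqM (jBC L (M * q))
      (Fermat.Agent.S34.CuspEq.jBC_ne_zero (M * q))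
    rwa [GenSq.alpha_jBC] at h
  have hdeg : H.natDegree ≤ (minpoly (FF L (M * q)) (jBC L (M * q * q) *
      (heckeBetaBar L (M * q) q (heckeBetaBar L M q (jBC L M)))⁻¹)).natDegree := by
    rw [hdegH]
    exact (GenSq.natDegree_minpoly_Y ι M q hq hqM).ge
  have htop : (FF L (M * q))⟮jBC L (M * q * q) *
      (heckeBetaBar L (M * q) q (heckeBetaBar L M q (jBC L M)))⁻¹⟯ = ⊤ :=
    GenSq.adjoin_eq_top_of_not_mem (K := FF L (M * q)) (E := FF L (M * q * q))
      (by rw [hfr]; exact hq) _ hYnot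
  -- integrality of the chart over `R`
  have hWR : (algebraMap (Localization.AtPrime (𝔫.comap a)) (FF L (M * q * q))).comp
      ((algebraMap B₁ (Localization.AtPrime (𝔫.comap a))).comp
        (algebraMap (↥(A.comap ι))[X] B₁)) = algebraMap (↥(A.comap ι))[X] (FF L (M * q * q)) := by
    refine RingHom.ext fun p => ?_
    rw [RingHom.comp_apply, RingHom.comp_apply, hBRF₂, haW, ← IsScalarTower.algebraMap_apply]
  have hintR : ∀ z : FF L (M * q * q), IsIntegral (↥(A.comap ι))[X] z →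
      IsIntegral (Localization.AtPrime (𝔫.comap a)) z := by
    rintro z ⟨p, hp, hpz⟩
    refine ⟨p.map ((algebraMap B₁ (Localization.AtPrime (𝔫.comap a))).comp
      (algebraMap (↥(A.comap ι))[X] B₁)), hp.map _, ?_⟩
    rw [eval₂_map, hWR]
    exact hpz
  have hint : ∀ b : B₂, IsIntegral (Localization.AtPrime (𝔫.comap a))
      (algebraMap B₂ (FF L (M * q * q)) b) := fun b =>
    hintR _ (IsIntegralClosure.isIntegral_iff (A := B₂) |>.mpr ⟨b, rfl⟩)
  -- the localisation property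
  letI : Algebra B₁ (FF L (M * q * q)) :=
    ((algebraMap (Localization.AtPrime (𝔫.comap a)) (FF L (M * q * q))).comp
      (algebraMap B₁ (Localization.AtPrime (𝔫.comap a)))).toAlgebra
  haveI : IsScalarTower B₁ (Localization.AtPrime (𝔫.comap a)) (FF L (M * q * q)) :=
    IsScalarTower.of_algebraMap_eq (fun _ => rfl)
  have hB₁F₂ : ∀ b : B₁, algebraMap B₁ (FF L (M * q * q)) b =
      algebraMap B₂ (FF L (M * q * q)) (a b) := fun b => hBRF₂ b
  have hloc : ∀ x : FF L (M * q * q), IsIntegral (Localization.AtPrime (𝔫.comap a)) x →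
      ∃ s : B₂, s ∉ 𝔫 ∧ IsIntegral (Localization.AtPrime (𝔫.comap a))
        (algebraMap B₂ (FF L (M * q * q)) s)⁻¹ ∧
        ∃ b : B₂, algebraMap B₂ (FF L (M * q * q)) b = algebraMap B₂ (FF L (M * q * q)) s * x := by
    intro x hx
    obtain ⟨m, hm⟩ := IsIntegral.exists_multiple_integral_of_isLocalization
      (𝔫.comap a).primeCompl (Rₘ := Localization.AtPrime (𝔫.comap a)) x hx
    rw [Submonoid.smul_def, Algebra.smul_def, hB₁F₂] at hm
    -- integral over `B₁`, hence over `W[X]`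
    have hm' : IsIntegral (↥(A.comap ι))[X] (algebraMap B₂ (FF L (M * q * q)) (a (m : B₁)) * x) := by
      obtain ⟨p, hp, hpz⟩ := hm
      -- `z` is integral over the subring generated by the coefficients
      haveI : Algebra.IsIntegral (↥(A.comap ι))[X] B₁ :=
        IsIntegralClosure.isIntegral_algebra (↥(A.comap ι))[X] (FF L (M * q))
      -- the coefficients `a (p.coeff i)` lie in `B₂`, integral over `W[X]`
      have hz : IsIntegral B₂ (algebraMap B₂ (FF L (M * q * q)) (a (m : B₁)) * x) := by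
        refine ⟨p.map a, hp.map _, ?_⟩
        rw [eval₂_map]
        have h1 : (algebraMap B₂ (FF L (M * q * q))).comp a =
            algebraMap B₁ (FF L (M * q * q)) := RingHom.ext fun b => (hB₁F₂ b).symm
        rw [h1]
        exact hpz
      haveI : Algebra.IsIntegral (↥(A.comap ι))[X] B₂ :=
        IsIntegralClosure.isIntegral_algebra (↥(A.comap ι))[X] (FF L (M * q * q))
      exact isIntegral_trans (A := B₂) _ hz
    obtain ⟨b, hb⟩ := IsIntegralClosure.isIntegral_iff (A := B₂) |>.mp hm'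
    refine ⟨a (m : B₁), fun h => m.2 h, ?_, b, hb⟩
    obtain ⟨v, hv⟩ := IsLocalization.map_units (Localization.AtPrime (𝔫.comap a)) m
    have h1 : algebraMap B₂ (FF L (M * q * q)) (a (m : B₁)) *
        algebraMap (Localization.AtPrime (𝔫.comap a)) (FF L (M * q * q))
          ((v⁻¹ : (Localization.AtPrime (𝔫.comap a))ˣ) : Localization.AtPrime (𝔫.comap a)) = 1 := by
      rw [← hBRF₂, ← hv, ← map_mul, Units.mul_inv, map_one]
    rw [inv_eq_of_mul_eq_one_right h1]
    exact isIntegral_algebraMap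
  -- the element `q` of the chart
  have hp₀ : algebraMap B₂ (FF L (M * q * q))
      (algebraMap (↥(A.comap ι))[X] B₂ (C ((q : ℕ) : ↥(A.comap ι)))) =
      algebraMap (Localization.AtPrime (𝔫.comap a)) (FF L (M * q * q))
        (algebraMap B₁ (Localization.AtPrime (𝔫.comap a))
          (algebraMap (↥(A.comap ι))[X] B₁ (C ((q : ℕ) : ↥(A.comap ι))))) := by
    rw [hBRF₂, haW]
  exact TwoPointCl.horPrincipal_chart (FF L (M * q)) _ u _ 1 hu hπ H G₁ (q - 1)
    (by have := hq.two_le; omega) hH hmonic hcd hG₁ _ hy' hdeg htop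
    (algebraMap B₂ (FF L (M * q * q))) hinj₂ hint 𝔫 hloc _ hp₀ 𝔮 h𝔮 hq𝔮

end Fermat.Agent.S36.CuspInf
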