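import Mathlib

/-!
# S36, (R-cusp), P3: the mirror (abstract, Mathlib-only)

`K` a field, `φ : B → K` an injective ring homomorphism, `𝔫` a prime of `B`.
`locI φ 𝔫 I = I · B_𝔫 ⊆ K` (fractions `a / s`, `a ∈ I`, `s ∉ 𝔫`), `locSub φ 𝔫 = B_𝔫 ⊆ K`.

* `mem_locSub_of_isIntegral`, `map_mem_locSub` : if `φ B` is integrally closed in `K` then so is
  `B_𝔫`; hence a ring automorphism `τ` of `K` with `τ (ψ R) ⊆ B_𝔫` maps everything integral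
  over `ψ R` into `B_𝔫`.
* `pullIdeal φ σ 𝔫 I h1 = B ∩ σ (I · B_𝔫)` (an ideal of `B` as soon as `B ⊆ σ (B_𝔫)`), prime if
  `I ≤ 𝔫` is prime; `mirrorIdeal φ σ 𝔫 h1 = pullIdeal … 𝔫`, the centre of `σ (B_𝔫)` on `B`.
* `mirror_locSub_iff`, `mirror_locI_iff` : if `B ⊆ σ (B_𝔫)`, `B ⊆ σ⁻¹ (B_𝔫')` and `𝔫'` is the
  centre of `σ (B_𝔫)` on `B`, then `σ (B_𝔫) = B_𝔫'` and `σ (𝔫 B_𝔫) = 𝔫' B_𝔫'`.
* `mirror_K4` : **the mirror.**  If `B ⊆ σ (B_𝔫)`, `B ⊆ σ⁻¹ (B_𝔫')` and `𝔫'` is the centre of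
  `σ (B_𝔫)` on `B`, then "every prime `𝔮' ≤ 𝔫'` not containing `π` is principal in `B_𝔫'`"
  implies the same at `𝔫` (`σ π = π`), in the chart form
  `∃ x ∈ 𝔮, ∃ d ∉ 𝔫, ∀ y ∈ 𝔮, x ∣ d * y`.
-/

set_option autoImplicit false
set_option linter.style.haveILetI false

namespace Fermat.Agent.S36.CuspMirrorAbs

open Polynomial

variable {K B : Type*} [Field K] [CommRing B] (φ : B →+* K)

/-- `I · B_𝔫` inside `K`: the fractions `a / s` with `a ∈ I`, `s ∉ 𝔫` -/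
def locI (𝔫 I : Ideal B) : Set K := {z | ∃ a ∈ I, ∃ s, s ∉ 𝔫 ∧ z * φ s = φ a}

theorem mem_locI {𝔫 I : Ideal B} {z : K} :
    z ∈ locI φ 𝔫 I ↔ ∃ a ∈ I, ∃ s, s ∉ 𝔫 ∧ z * φ s = φ a := Iff.rfl

theorem locI_mono (𝔫 : Ideal B) {I J : Ideal B} (h : I ≤ J) : locI φ 𝔫 I ⊆ locI φ 𝔫 J := by
  rintro z ⟨a, ha, s, hs, h1⟩
  exact ⟨a, h ha, s, hs, h1⟩

theorem map_mem_locI {𝔫 I : Ideal B} (h𝔫 : 𝔫 ≠ ⊤) {a : B} (ha : a ∈ I) : φ a ∈ locI φ 𝔫 I :=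
  ⟨a, ha, 1, (Ideal.ne_top_iff_one 𝔫).mp h𝔫, by rw [map_one, mul_one]⟩

theorem add_mem_locI {𝔫 I : Ideal B} [h𝔫 : 𝔫.IsPrime] {z w : K} (hz : z ∈ locI φ 𝔫 I)
    (hw : w ∈ locI φ 𝔫 I) : z + w ∈ locI φ 𝔫 I := by
  obtain ⟨a, ha, s, hs, h1⟩ := hz
  obtain ⟨b, hb, t, ht, h2⟩ := hw
  refine ⟨a * t + b * s, I.add_mem (I.mul_mem_right _ ha) (I.mul_mem_right _ hb), s * t, ?_, ?_⟩
  · exact fun h => (h𝔫.mem_or_mem h).elim hs ht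
  · rw [map_mul, map_add, map_mul, map_mul, ← h1, ← h2]
    ring

theorem mul_mem_locI {𝔫 I : Ideal B} [h𝔫 : 𝔫.IsPrime] {z w : K} (hz : z ∈ locI φ 𝔫 ⊤)
    (hw : w ∈ locI φ 𝔫 I) : z * w ∈ locI φ 𝔫 I := by
  obtain ⟨a, -, s, hs, h1⟩ := hz
  obtain ⟨b, hb, t, ht, h2⟩ := hw
  refine ⟨a * b, I.mul_mem_left _ hb, s * t, ?_, ?_⟩
  · exact fun h => (h𝔫.mem_or_mem h).elim hs ht
  · rw [map_mul, map_mul, ← h1, ← h2]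
    ring

/-- the local ring `B_𝔫` inside `K` -/
def locSub (𝔫 : Ideal B) [h𝔫 : 𝔫.IsPrime] : Subring K where
  carrier := locI φ 𝔫 ⊤
  mul_mem' := fun hz hw => mul_mem_locI φ hz hw
  one_mem' := by
    have h := map_mem_locI φ h𝔫.ne_top (I := ⊤) (a := 1) trivial
    rwa [map_one] at h
  add_mem' := fun hz hw => add_mem_locI φ hz hw
  zero_mem' := by
    have h := map_mem_locI φ h𝔫.ne_top (I := ⊤) (a := 0) trivial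
    rwa [map_zero] at h
  neg_mem' := by
    rintro z ⟨a, ha, s, hs, h⟩
    exact ⟨-a, trivial, s, hs, by rw [neg_mul, h, map_neg]⟩

theorem mem_locSub {𝔫 : Ideal B} [𝔫.IsPrime] {z : K} :
    z ∈ locSub φ 𝔫 ↔ ∃ a s, s ∉ 𝔫 ∧ z * φ s = φ a :=
  ⟨fun ⟨a, _, s, hs, h⟩ => ⟨a, s, hs, h⟩, fun ⟨a, s, hs, h⟩ => ⟨a, trivial, s, hs, h⟩⟩

theorem mem_locSub_iff {𝔫 : Ideal B} [𝔫.IsPrime] {z : K} :
    z ∈ locSub φ 𝔫 ↔ z ∈ locI φ 𝔫 ⊤ := Iff.rfl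

theorem map_mem_locSub' (𝔫 : Ideal B) [h𝔫 : 𝔫.IsPrime] (b : B) : φ b ∈ locSub φ 𝔫 :=
  map_mem_locI φ h𝔫.ne_top trivial

theorem locI_subset_locSub (𝔫 I : Ideal B) [𝔫.IsPrime] {z : K} (hz : z ∈ locI φ 𝔫 I) :
    z ∈ locSub φ 𝔫 := locI_mono φ 𝔫 le_top hz

variable {φ}

/-- `φ b ∈ I · B_𝔫 ⟹ b ∈ I` for a prime `I ≤ 𝔫` -/
theorem mem_of_map_mem_locI (hφ : Function.Injective φ) {𝔫 I : Ideal B} [hI : I.IsPrime]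
    (hI𝔫 : I ≤ 𝔫) {b : B} (h : φ b ∈ locI φ 𝔫 I) : b ∈ I := by
  obtain ⟨a, ha, s, hs, h1⟩ := h
  have h2 : b * s = a := hφ (by rw [map_mul, h1])
  rcases hI.mem_or_mem (h2 ▸ ha : b * s ∈ I) with h3 | h3
  · exact h3
  · exact absurd (hI𝔫 h3) hs

/-- an element of `B_𝔫` outside `𝔫 B_𝔫` is a unit of `B_𝔫` -/
theorem inv_mem_locSub (hφ : Function.Injective φ) {𝔫 : Ideal B} [𝔫.IsPrime] {z : K}
    (hz : z ∈ locSub φ 𝔫) (hz' : z ∉ locI φ 𝔫 𝔫) : z⁻¹ ∈ locSub φ 𝔫 := by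
  obtain ⟨a, -, s, hs, h1⟩ := hz
  have ha : a ∉ 𝔫 := fun ha => hz' ⟨a, ha, s, hs, h1⟩
  have hz0 : z ≠ 0 := by
    rintro rfl
    rw [zero_mul] at h1
    have h2 : a = 0 := hφ (by rw [← h1, map_zero])
    exact ha (h2 ▸ 𝔫.zero_mem)
  exact ⟨s, trivial, a, ha, by rw [← h1, ← mul_assoc, inv_mul_cancel₀ hz0, one_mul]⟩

theorem ne_zero_of_not_mem_locI {𝔫 : Ideal B} [h𝔫 : 𝔫.IsPrime] {z : K}
    (hz' : z ∉ locI φ 𝔫 𝔫) : z ≠ 0 := by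
  rintro rfl
  exact hz' ⟨0, 𝔫.zero_mem, 1, (Ideal.ne_top_iff_one 𝔫).mp h𝔫.ne_top, by rw [zero_mul, map_zero]⟩

/-- `I · B_𝔫` is a prime ideal of `B_𝔫` for a prime `I ≤ 𝔫` -/
theorem locI_mul_mem (hφ : Function.Injective φ) {𝔫 I : Ideal B} [𝔫.IsPrime] [hI : I.IsPrime]
    (hI𝔫 : I ≤ 𝔫) {z w : K} (hz : z ∈ locSub φ 𝔫) (hw : w ∈ locSub φ 𝔫)
    (h : z * w ∈ locI φ 𝔫 I) : z ∈ locI φ 𝔫 I ∨ w ∈ locI φ 𝔫 I := by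
  obtain ⟨a, -, s, hs, h1⟩ := hz
  obtain ⟨b, -, t, ht, h2⟩ := hw
  obtain ⟨c, hc, u, hu, h3⟩ := h
  have h4 : a * b * u = c * (s * t) := by
    apply hφ
    rw [map_mul, map_mul, map_mul, map_mul, ← h1, ← h2, ← h3]
    ring
  have h5 : a * b * u ∈ I := h4 ▸ I.mul_mem_right _ hc
  rcases hI.mem_or_mem h5 with h6 | h6
  · rcases hI.mem_or_mem h6 with h7 | h7
    · exact Or.inl ⟨a, h7, s, hs, h1⟩
    · exact Or.inr ⟨b, h7, t, ht, h2⟩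
  · exact absurd (hI𝔫 h6) hu

/-! ### Normality of the local ring -/

/-- If `φ B` is integrally closed in `K` then so is `B_𝔫`. -/
theorem mem_locSub_of_isIntegral (hφ : Function.Injective φ)
    (hic : ∀ z : K, φ.IsIntegralElem z → z ∈ φ.range) (𝔫 : Ideal B) [h𝔫 : 𝔫.IsPrime] {z : K}
    (hz : IsIntegral (locSub φ 𝔫) z) : z ∈ locSub φ 𝔫 := by
  letI : Algebra B K := φ.toAlgebra
  letI : Algebra B (locSub φ 𝔫) :=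
    (φ.codRestrict (locSub φ 𝔫) (map_mem_locSub' φ 𝔫)).toAlgebra
  haveI : IsScalarTower B (locSub φ 𝔫) K := IsScalarTower.of_algebraMap_eq fun b => rfl
  haveI : IsLocalization 𝔫.primeCompl (locSub φ 𝔫) :=
    { map_units := by
        rintro ⟨y, hy⟩
        have hy0 : φ y ≠ 0 := by
          intro h0
          have h2 : y = 0 := hφ (by rw [h0, map_zero])
          exact hy (h2 ▸ 𝔫.zero_mem)
        have hinv : (φ y)⁻¹ ∈ locSub φ 𝔫 :=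
          ⟨1, trivial, y, hy, by rw [inv_mul_cancel₀ hy0, map_one]⟩
        refine isUnit_iff_exists_inv.mpr ⟨⟨(φ y)⁻¹, hinv⟩, ?_⟩
        exact Subtype.ext (mul_inv_cancel₀ hy0)
      surj := by
        rintro ⟨z, a, -, s, hs, h⟩
        exact ⟨(a, ⟨s, hs⟩), Subtype.ext h⟩
      exists_of_eq := by
        intro a b h
        have h1 : φ a = φ b := congrArg Subtype.val h
        exact ⟨1, by rw [hφ h1]⟩ }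
  obtain ⟨m, hm⟩ := IsIntegral.exists_multiple_integral_of_isLocalization 𝔫.primeCompl
    (Rₘ := locSub φ 𝔫) z hz
  have h1 : φ.IsIntegralElem (φ (m : B) * z) := hm
  obtain ⟨b, hb⟩ := hic _ h1
  exact ⟨b, trivial, m, m.2, by rw [hb, mul_comm]⟩

/-- **Base step.**  If `φ B` is integrally closed in `K` and the ring automorphism `τ` of `K`
maps `ψ R` into `B_𝔫`, then `τ` maps every element integral over `ψ R` into `B_𝔫`. -/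
theorem map_mem_locSub (hφ : Function.Injective φ)
    (hic : ∀ z : K, φ.IsIntegralElem z → z ∈ φ.range) (𝔫 : Ideal B) [h𝔫 : 𝔫.IsPrime]
    {R : Type*} [CommRing R] (ψ : R →+* K) (τ : K ≃+* K)
    (hτ : ∀ r, τ (ψ r) ∈ locSub φ 𝔫) {z : K} (hz : ψ.IsIntegralElem z) :
    τ z ∈ locSub φ 𝔫 := by
  obtain ⟨p, hp, hpz⟩ := hz
  let ψ' : R →+* locSub φ 𝔫 := ((τ : K →+* K).comp ψ).codRestrict (locSub φ 𝔫) hτ
  apply mem_locSub_of_isIntegral hφ hic 𝔫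
  refine ⟨p.map ψ', hp.map ψ', ?_⟩
  have hcomp : (algebraMap (locSub φ 𝔫) K).comp ψ' = (τ : K →+* K).comp ψ :=
    RingHom.ext fun r => rfl
  rw [eval₂_map, hcomp]
  have h1 := Polynomial.hom_eval₂ p ψ (τ : K →+* K) z
  rw [hpz, map_zero] at h1
  exact h1.symm

/-! ### Pulling ideals back along `σ` -/

variable (φ)

/-- `B ∩ σ (I · B_𝔫)`, an ideal of `B` when `B ⊆ σ (B_𝔫)` -/
def pullIdeal (σ : K ≃+* K) (𝔫 I : Ideal B) [𝔫.IsPrime]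
    (h1 : ∀ b, σ.symm (φ b) ∈ locSub φ 𝔫) : Ideal B where
  carrier := {b | σ.symm (φ b) ∈ locI φ 𝔫 I}
  add_mem' := by
    intro a b ha hb
    show σ.symm (φ (a + b)) ∈ locI φ 𝔫 I
    rw [map_add, map_add]
    exact add_mem_locI φ ha hb
  zero_mem' := by
    show σ.symm (φ 0) ∈ locI φ 𝔫 I
    rw [map_zero, map_zero]
    exact ⟨0, I.zero_mem, 1, (Ideal.ne_top_iff_one 𝔫).mp (Ideal.IsPrime.ne_top ‹_›),
      by rw [zero_mul, map_zero]⟩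
  smul_mem' := by
    intro c b hb
    show σ.symm (φ (c • b)) ∈ locI φ 𝔫 I
    rw [smul_eq_mul, map_mul, map_mul]
    exact mul_mem_locI φ (h1 c) hb

theorem mem_pullIdeal (σ : K ≃+* K) (𝔫 I : Ideal B) [𝔫.IsPrime]
    (h1 : ∀ b, σ.symm (φ b) ∈ locSub φ 𝔫) (b : B) :
    b ∈ pullIdeal φ σ 𝔫 I h1 ↔ σ.symm (φ b) ∈ locI φ 𝔫 I := Iff.rfl

theorem pullIdeal_mono (σ : K ≃+* K) (𝔫 : Ideal B) [𝔫.IsPrime]
    (h1 : ∀ b, σ.symm (φ b) ∈ locSub φ 𝔫) {I J : Ideal B} (h : I ≤ J) :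
    pullIdeal φ σ 𝔫 I h1 ≤ pullIdeal φ σ 𝔫 J h1 :=
  fun _ hb => locI_mono φ 𝔫 h hb

variable {φ}

theorem pullIdeal_isPrime (hφ : Function.Injective φ) (σ : K ≃+* K) (𝔫 I : Ideal B)
    [𝔫.IsPrime] [hI : I.IsPrime] (hI𝔫 : I ≤ 𝔫) (h1 : ∀ b, σ.symm (φ b) ∈ locSub φ 𝔫) :
    (pullIdeal φ σ 𝔫 I h1).IsPrime := by
  refine ⟨?_, ?_⟩
  · rw [Ne, Ideal.eq_top_iff_one, mem_pullIdeal, map_one, map_one]
    intro h
    have h2 : φ 1 ∈ locI φ 𝔫 I := by rwa [map_one]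
    exact hI.ne_top ((Ideal.eq_top_iff_one I).mpr (mem_of_map_mem_locI hφ hI𝔫 h2))
  · intro a b hab
    rw [mem_pullIdeal, map_mul, map_mul] at hab
    exact locI_mul_mem hφ hI𝔫 (h1 a) (h1 b) hab

variable (φ)

/-- the centre of `σ (B_𝔫)` on `B`: `B ∩ σ (𝔫 · B_𝔫)` -/
def mirrorIdeal (σ : K ≃+* K) (𝔫 : Ideal B) [𝔫.IsPrime]
    (h1 : ∀ b, σ.symm (φ b) ∈ locSub φ 𝔫) : Ideal B := pullIdeal φ σ 𝔫 𝔫 h1

theorem mem_mirrorIdeal (σ : K ≃+* K) (𝔫 : Ideal B) [𝔫.IsPrime]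
    (h1 : ∀ b, σ.symm (φ b) ∈ locSub φ 𝔫) (b : B) :
    b ∈ mirrorIdeal φ σ 𝔫 h1 ↔ σ.symm (φ b) ∈ locI φ 𝔫 𝔫 := Iff.rfl

variable {φ}

theorem mirrorIdeal_isPrime (hφ : Function.Injective φ) (σ : K ≃+* K) (𝔫 : Ideal B)
    [𝔫.IsPrime] (h1 : ∀ b, σ.symm (φ b) ∈ locSub φ 𝔫) : (mirrorIdeal φ σ 𝔫 h1).IsPrime :=
  pullIdeal_isPrime hφ σ 𝔫 𝔫 le_rfl h1

/-! ### Transport of the local ring -/

section Transport

variable (hφ : Function.Injective φ) (σ : K ≃+* K) (𝔫 𝔫' : Ideal B) [h𝔫 : 𝔫.IsPrime]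
  [h𝔫' : 𝔫'.IsPrime] (h1 : ∀ b, σ.symm (φ b) ∈ locSub φ 𝔫) (h2 : ∀ b, σ (φ b) ∈ locSub φ 𝔫')
  (h3 : ∀ b, b ∈ 𝔫' ↔ σ.symm (φ b) ∈ locI φ 𝔫 𝔫)

omit h𝔫' in
include hφ h1 h3 in
/-- `σ` maps the units `φ s`, `s ∉ 𝔫`, of `B_𝔫` to units of `B_𝔫'` -/
theorem mirror_not_mem {s : B} (hs : s ∉ 𝔫) : σ (φ s) ∉ locI φ 𝔫' 𝔫' := by
  rintro ⟨c, hc, t, ht, e⟩
  have hu : σ.symm (φ t) ∉ locI φ 𝔫 𝔫 := fun h => ht ((h3 t).mpr h)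
  have hu0 := ne_zero_of_not_mem_locI hu
  have e' : φ s * σ.symm (φ t) = σ.symm (φ c) := by
    rw [← e, map_mul, RingEquiv.symm_apply_apply]
  have h4 : φ s = (σ.symm (φ t))⁻¹ * σ.symm (φ c) := by
    rw [← e', mul_comm (φ s), ← mul_assoc, inv_mul_cancel₀ hu0, one_mul]
  have h5 : φ s ∈ locI φ 𝔫 𝔫 := by
    rw [h4]
    exact mul_mem_locI φ (inv_mem_locSub hφ (h1 t) hu) ((h3 c).mp hc)
  exact hs (mem_of_map_mem_locI hφ le_rfl h5)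

include hφ h1 h2 h3 in
/-- `σ (B_𝔫) = B_𝔫'` -/
theorem mirror_locSub_iff (z : K) : z ∈ locSub φ 𝔫 ↔ σ z ∈ locSub φ 𝔫' := by
  constructor
  · rintro ⟨a, -, s, hs, e⟩
    have hu := mirror_not_mem hφ σ 𝔫 𝔫' h1 h3 hs
    have hu0 := ne_zero_of_not_mem_locI hu
    have h4 : σ z = (σ (φ s))⁻¹ * σ (φ a) := by
      rw [← e, map_mul, mul_comm (σ z), ← mul_assoc, inv_mul_cancel₀ hu0, one_mul]
    rw [h4]
    exact (locSub φ 𝔫').mul_mem (inv_mem_locSub hφ (h2 s) hu) (h2 a)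
  · rintro ⟨c, -, t, ht, e⟩
    have hu : σ.symm (φ t) ∉ locI φ 𝔫 𝔫 := fun h => ht ((h3 t).mpr h)
    have hu0 := ne_zero_of_not_mem_locI hu
    have e' : z * σ.symm (φ t) = σ.symm (φ c) := by
      rw [← e, map_mul, RingEquiv.symm_apply_apply]
    have h4 : z = (σ.symm (φ t))⁻¹ * σ.symm (φ c) := by
      rw [← e', mul_comm z, ← mul_assoc, inv_mul_cancel₀ hu0, one_mul]
    rw [h4]
    exact (locSub φ 𝔫).mul_mem (inv_mem_locSub hφ (h1 t) hu) (h1 c)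

include hφ h1 h2 h3 in
/-- `σ (𝔫 B_𝔫) = 𝔫' B_𝔫'` -/
theorem mirror_locI_iff (z : K) : z ∈ locI φ 𝔫 𝔫 ↔ σ z ∈ locI φ 𝔫' 𝔫' := by
  constructor
  · rintro ⟨a, ha, s, hs, e⟩
    have hu := mirror_not_mem hφ σ 𝔫 𝔫' h1 h3 hs
    have hu0 := ne_zero_of_not_mem_locI hu
    have h4 : σ z = (σ (φ s))⁻¹ * σ (φ a) := by
      rw [← e, map_mul, mul_comm (σ z), ← mul_assoc, inv_mul_cancel₀ hu0, one_mul]
    rw [h4]
    refine mul_mem_locI φ (inv_mem_locSub hφ (h2 s) hu) ?_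
    obtain ⟨c, -, t, ht, e1⟩ := h2 a
    refine ⟨c, (h3 c).mpr ?_, t, ht, e1⟩
    rw [← e1, map_mul, RingEquiv.symm_apply_apply, mul_comm]
    exact mul_mem_locI φ (h1 t) (map_mem_locI φ h𝔫.ne_top ha)
  · rintro ⟨c, hc, t, ht, e⟩
    have hu : σ.symm (φ t) ∉ locI φ 𝔫 𝔫 := fun h => ht ((h3 t).mpr h)
    have hu0 := ne_zero_of_not_mem_locI hu
    have e' : z * σ.symm (φ t) = σ.symm (φ c) := by
      rw [← e, map_mul, RingEquiv.symm_apply_apply]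
    have h4 : z = (σ.symm (φ t))⁻¹ * σ.symm (φ c) := by
      rw [← e', mul_comm z, ← mul_assoc, inv_mul_cancel₀ hu0, one_mul]
    rw [h4]
    exact mul_mem_locI φ (inv_mem_locSub hφ (h1 t) hu) ((h3 c).mp hc)

end Transport

/-! ### The mirror -/

/-- a uniform multiplier from finite generation -/
theorem exists_uniform (𝔫 𝔮 : Ideal B) [h𝔫 : 𝔫.IsPrime] (hfg : 𝔮.FG) (x : B)
    (h : ∀ y ∈ 𝔮, ∃ d, d ∉ 𝔫 ∧ x ∣ d * y) : ∃ d, d ∉ 𝔫 ∧ ∀ y ∈ 𝔮, x ∣ d * y := by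
  classical
  obtain ⟨G, hG⟩ := hfg
  have hG' : ∀ g ∈ G, g ∈ 𝔮 := fun g hg => hG ▸ Ideal.subset_span hg
  choose! d hd hdiv using fun g (hg : g ∈ G) => h g (hG' g hg)
  refine ⟨∏ g ∈ G, d g, ?_, ?_⟩
  · intro hmem
    obtain ⟨g, hg, hdg⟩ := (h𝔫.prod_mem_iff).mp hmem
    exact hd g hg hdg
  · intro y hy
    rw [← hG] at hy
    induction hy using Submodule.span_induction with
    | mem g hg =>
      obtain ⟨e, he⟩ := hdiv g hg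
      refine ⟨(∏ g' ∈ G.erase g, d g') * e, ?_⟩
      rw [← Finset.mul_prod_erase G d hg]
      calc (d g * ∏ g' ∈ G.erase g, d g') * g = (∏ g' ∈ G.erase g, d g') * (d g * g) := by ring
        _ = (∏ g' ∈ G.erase g, d g') * (x * e) := by rw [he]
        _ = x * ((∏ g' ∈ G.erase g, d g') * e) := by ring
    | zero => rw [mul_zero]; exact dvd_zero x
    | add y z _ _ hy hz => rw [mul_add]; exact dvd_add hy hz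
    | smul c y _ hy =>
      rw [smul_eq_mul, mul_left_comm]
      exact Dvd.dvd.mul_left hy c

/-- **The mirror.**  `σ` a ring automorphism of `K` fixing `φ π`; `𝔫`, `𝔫'` primes of `B` with
`B ⊆ σ (B_𝔫)` (`h1`), `B ⊆ σ⁻¹ (B_𝔫')` (`h2`) and `𝔫' = B ∩ σ (𝔫 B_𝔫)` (`h3`).  If every prime
`𝔮' ≤ 𝔫'` not containing `π` is principal in `B_𝔫'`, then every prime `𝔮 ≤ 𝔫` not containing `π`
is principal in `B_𝔫`. -/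
theorem mirror_K4 [IsNoetherianRing B] (hφ : Function.Injective φ) (σ : K ≃+* K) (π : B)
    (hπ : σ (φ π) = φ π) (𝔫 𝔫' : Ideal B) [h𝔫 : 𝔫.IsPrime] [h𝔫' : 𝔫'.IsPrime]
    (h1 : ∀ b, σ.symm (φ b) ∈ locSub φ 𝔫) (h2 : ∀ b, σ (φ b) ∈ locSub φ 𝔫')
    (h3 : ∀ b, b ∈ 𝔫' ↔ σ.symm (φ b) ∈ locI φ 𝔫 𝔫)
    (hK4 : ∀ 𝔮' : Ideal B, 𝔮'.IsPrime → 𝔮' ≤ 𝔫' → π ∉ 𝔮' →
      ∃ x ∈ 𝔮', ∃ d, d ∉ 𝔫' ∧ ∀ y ∈ 𝔮', x ∣ d * y)
    (𝔮 : Ideal B) (h𝔮 : 𝔮.IsPrime) (h𝔮𝔫 : 𝔮 ≤ 𝔫) (hπ𝔮 : π ∉ 𝔮) :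
    ∃ x ∈ 𝔮, ∃ d, d ∉ 𝔫 ∧ ∀ y ∈ 𝔮, x ∣ d * y := by
  have hπ' : σ.symm (φ π) = φ π := by rw [RingEquiv.symm_apply_eq, hπ]
  -- the mirrored prime
  have h𝔮'prime : (pullIdeal φ σ 𝔫 𝔮 h1).IsPrime := pullIdeal_isPrime hφ σ 𝔫 𝔮 h𝔮𝔫 h1
  have h𝔮'le : pullIdeal φ σ 𝔫 𝔮 h1 ≤ 𝔫' := fun b hb =>
    (h3 b).mpr (locI_mono φ 𝔫 h𝔮𝔫 hb)
  have hπ𝔮' : π ∉ pullIdeal φ σ 𝔫 𝔮 h1 := by
    intro h
    rw [mem_pullIdeal, hπ'] at h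
    exact hπ𝔮 (mem_of_map_mem_locI hφ h𝔮𝔫 h)
  obtain ⟨x', hx', d', hd', hdiv⟩ := hK4 _ h𝔮'prime h𝔮'le hπ𝔮'
  obtain ⟨a₀, ha₀, s₀, hs₀, e₀⟩ := hx'
  refine ⟨a₀, ha₀, exists_uniform 𝔫 𝔮 (IsNoetherian.noetherian 𝔮) a₀ fun y hy => ?_⟩
  -- `σ (φ y) = c / t` in `B_𝔫'`
  obtain ⟨c, -, t, ht, e1⟩ := h2 y
  have hc : c ∈ pullIdeal φ σ 𝔫 𝔮 h1 := by
    rw [mem_pullIdeal, ← e1, map_mul, RingEquiv.symm_apply_apply, mul_comm]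
    exact mul_mem_locI φ (h1 t) (map_mem_locI φ h𝔫.ne_top hy)
  obtain ⟨e, he⟩ := hdiv c hc
  -- the units
  have hu₁ : σ.symm (φ d') ∉ locI φ 𝔫 𝔫 := fun h => hd' ((h3 d').mpr h)
  have hu₂ : σ.symm (φ t) ∉ locI φ 𝔫 𝔫 := fun h => ht ((h3 t).mpr h)
  have hu₁0 := ne_zero_of_not_mem_locI hu₁
  have hu₂0 := ne_zero_of_not_mem_locI hu₂
  have hw : σ.symm (φ e) * (σ.symm (φ d'))⁻¹ * (σ.symm (φ t))⁻¹ ∈ locSub φ 𝔫 :=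
    (locSub φ 𝔫).mul_mem ((locSub φ 𝔫).mul_mem (h1 e) (inv_mem_locSub hφ (h1 d') hu₁))
      (inv_mem_locSub hφ (h1 t) hu₂)
  obtain ⟨b₁, -, s₁, hs₁, e2⟩ := hw
  have he' : σ.symm (φ d') * (φ y * σ.symm (φ t)) = σ.symm (φ x') * σ.symm (φ e) := by
    have h4 := congrArg (fun z => σ.symm (φ z)) he
    simp only [map_mul] at h4
    rw [← e1, map_mul, RingEquiv.symm_apply_apply] at h4
    exact h4
  have hy' : φ y = σ.symm (φ x') *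
      (σ.symm (φ e) * (σ.symm (φ d'))⁻¹ * (σ.symm (φ t))⁻¹) := by
    field_simp
    linear_combination he'
  refine ⟨s₀ * s₁, fun h => (h𝔫.mem_or_mem h).elim hs₀ hs₁, b₁, ?_⟩
  apply hφ
  rw [map_mul, map_mul, map_mul, hy', ← e₀, ← e2]
  ring

end Fermat.Agent.S36.CuspMirrorAbs
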