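import Mathlib
import Fermat.Agent.S34.CuspEq
import Fermat.Agent.S34.KLocCusp
import Fermat.Agent.S36.CuspMirrorAbs

/-!
# S36, (R-cusp), P3: the mirror at the cusps of level `M q²`

`F = FF L (M * q * q)`, `B` a carrier of the chart `W[1/j]` of `F`, `σ` an involution of `F` over
`L` with `σ (1/j) = 1/j''`, `j'' = β₂ (β₁ j) = j(Q^{q²})` (the Atkin–Lehner involution `W_{q²}` of
`S36.AtkinSq`).

* `inv_jpp_mem_nonunits` : `1/j''` is a non-unit of every valuation subring of `F` over `W` in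
  which `1/j` is a non-unit.
* `exists_mirror` : **the mirror.**  For every maximal ideal `𝔫 ∋ 1/j` of `B` there is a maximal
  ideal `𝔫' ∋ 1/j` (the centre of `σ (B_𝔫)`), containing the constants of `𝔫`, with
  `σ (𝔫' B_𝔫') ⊆ 𝔫 B_𝔫`, such that the property "every prime `𝔮 ≤ 𝔫` not containing the constant
  `a` is principal in `B_𝔫`" (chart form) holds at `𝔫` as soon as it holds at `𝔫'`.
* `exists_mirror'` : the same with the full transport `σ (B_𝔫) = B_𝔫'`, `σ (𝔫 B_𝔫) = 𝔫' B_𝔫'`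
  in the `CuspMirrorAbs.locSub` / `locI` currency.
-/

set_option autoImplicit false
set_option linter.style.haveILetI false

noncomputable section

namespace Fermat.Agent.S36.CuspMirror

open Polynomial ModularCurve Fermat.Agent.S18.Gauss Fermat.Agent.S24 Fermat.Agent.S34.CuspEq
  Fermat.Agent.S36.CuspMirrorAbs

variable {L : Type*} [Field L] [Algebra ℚ L] (W : ValuationSubring L) (M q : ℕ) [NeZero M]
  [NeZero q]

/-- **`1/j''` at the cusps**: a valuation subring of `FF L (M q²)` over `W` in which `1/j` is a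
non-unit contains `1/j''`, `j'' = β₂ (β₁ j)`, as a non-unit. -/
theorem inv_jpp_mem_nonunits (hq : q.Prime) (V : ValuationSubring (FF L (M * q * q)))
    (hV : ∀ a : W, algebraMap L (FF L (M * q * q)) (a : L) ∈ V)
    (hx : (jBC L (M * q * q))⁻¹ ∈ V.nonunits) :
    (heckeBetaBar L (M * q) q (heckeBetaBar L M q (jBC L M)))⁻¹ ∈ V.nonunits := by
  have h1 := inv_beta_j_mem_nonunits W (M * q) q hq V hV hx
  have hV' : ∀ a : W, algebraMap L (FF L (M * q)) (a : L) ∈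
      V.comap ((heckeBetaBar L (M * q) q : FF L (M * q) →ₐ[L] FF L (M * q * q)) :
      FF L (M * q) →+* FF L (M * q * q)) := by
    intro a
    rw [ValuationSubring.mem_comap, RingHom.coe_coe, AlgHom.commutes]
    exact hV a
  have hx' : (jBC L (M * q))⁻¹ ∈ (V.comap ((heckeBetaBar L (M * q) q :
      FF L (M * q) →ₐ[L] FF L (M * q * q)) : FF L (M * q) →+* FF L (M * q * q))).nonunits := by
    rw [ValuationSubring.inv_mem_nonunits_iff] at h1 ⊢
    rcases h1 with h0 | h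
    · exact absurd h0 ((_root_.map_ne_zero _).mpr (jBC_ne_zero (M * q)))
    · exact Or.inr fun hmem => h (ValuationSubring.mem_comap.mp hmem)
  have h2 := inv_beta_j_mem_nonunits W M q hq _ hV' hx'
  rw [ValuationSubring.inv_mem_nonunits_iff] at h2 ⊢
  rcases h2 with h0 | h
  · exact Or.inl (by rw [h0, map_zero])
  · exact Or.inr fun hmem => h (ValuationSubring.mem_comap.mpr hmem)

section General

variable {L : Type*} [Field L] (W : ValuationSubring L) (B : Type*) [CommRing B]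
  [Algebra (↥W)[X] B] [Algebra.IsIntegral (↥W)[X] B]

/-- a maximal ideal containing `1/j` contains the constants of the maximal ideal of `W` -/
theorem const_mem_of_maximal (𝔭 : Ideal B) [h𝔭 : 𝔭.IsMaximal]
    (hX : algebraMap (↥W)[X] B X ∈ 𝔭) (a : ↥W) (ha : a ∈ nonunits ↥W) :
    algebraMap (↥W)[X] B (C a) ∈ 𝔭 := by
  have hP : (𝔭.comap (algebraMap (↥W)[X] B)).IsMaximal :=
    Ideal.isMaximal_comap_of_isIntegral_of_isMaximal 𝔭
  by_contra hCa
  have hCa' : C a ∉ 𝔭.comap (algebraMap (↥W)[X] B) := hCa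
  obtain ⟨r, p, hp, e⟩ := hP.exists_inv hCa'
  -- `p = 1 - r * C a`, and `p ≡ C (p.coeff 0)` modulo `X`
  have hp0 : C (p.coeff 0) ∈ 𝔭.comap (algebraMap (↥W)[X] B) := by
    have h1 : C (p.coeff 0) = p - p.divX * X := by
      rw [eq_sub_iff_add_eq']
      exact Polynomial.divX_mul_X_add p
    rw [h1]
    exact Ideal.sub_mem _ hp (Ideal.mul_mem_left _ _ hX)
  have hcoeff : p.coeff 0 = 1 - r.coeff 0 * a := by
    have h2 := congrArg (fun f : (↥W)[X] => f.coeff 0) e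
    simp only [coeff_add, coeff_mul_C, coeff_one_zero] at h2
    rw [← h2]
    ring
  have hunit : IsUnit (p.coeff 0) := by
    rw [hcoeff]
    refine IsLocalRing.isUnit_one_sub_self_of_mem_nonunits _ ?_
    exact (IsLocalRing.maximalIdeal ↥W).mul_mem_left _ ha
  have h1 : (1 : (↥W)[X]) ∈ 𝔭.comap (algebraMap (↥W)[X] B) := by
    obtain ⟨u, hu⟩ := hunit
    have h3 := Ideal.mul_mem_left _ (C (↑u⁻¹ : ↥W)) hp0
    rwa [← C_mul, ← hu, Units.inv_mul, C_1] at h3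
  exact hP.ne_top ((Ideal.eq_top_iff_one _).mpr h1)

/-- a prime containing `1/j` and the constants of the maximal ideal of `W` is maximal -/
theorem isMaximal_of_const_mem (𝔭 : Ideal B) [h𝔭 : 𝔭.IsPrime]
    (hX : algebraMap (↥W)[X] B X ∈ 𝔭)
    (hc : ∀ a : ↥W, a ∈ nonunits ↥W → algebraMap (↥W)[X] B (C a) ∈ 𝔭) : 𝔭.IsMaximal := by
  refine Ideal.isMaximal_of_isIntegral_of_isMaximal_comap (R := (↥W)[X]) 𝔭 ?_
  -- the kernel of `p ↦ residue (p(0))`
  let ev : (↥W)[X] →+* IsLocalRing.ResidueField ↥W :=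
    (IsLocalRing.residue ↥W).comp (Polynomial.evalRingHom 0)
  have hev : Function.Surjective ev := fun y => by
    obtain ⟨a, rfl⟩ := IsLocalRing.residue_surjective y
    exact ⟨C a, by simp [ev]⟩
  have hker : (RingHom.ker ev).IsMaximal := RingHom.ker_isMaximal_of_surjective ev hev
  have hle : RingHom.ker ev ≤ 𝔭.comap (algebraMap (↥W)[X] B) := by
    intro p hp
    have h0 : p.coeff 0 ∈ nonunits ↥W := by
      have h1 : IsLocalRing.residue ↥W (p.coeff 0) = 0 := by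
        have h2 : ev p = 0 := hp
        simpa [ev, Polynomial.coeff_zero_eq_eval_zero] using h2
      rw [IsLocalRing.residue_eq_zero_iff] at h1
      exact h1
    have h1 : p = p.divX * X + C (p.coeff 0) := (Polynomial.divX_mul_X_add p).symm
    show algebraMap (↥W)[X] B p ∈ 𝔭
    rw [h1, map_add, map_mul]
    exact 𝔭.add_mem (𝔭.mul_mem_left _ hX) (hc _ h0)
  have hne : 𝔭.comap (algebraMap (↥W)[X] B) ≠ ⊤ := (Ideal.comap_isPrime _ 𝔭).ne_top
  rw [← hker.eq_of_le hne hle]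
  exact hker

end General

section Carrier

variable [Algebra (↥W)[X] (FF L (M * q * q))]
  (halg : algebraMap (↥W)[X] (FF L (M * q * q)) = evFinf W (M * q * q))
  (B : Type*) [CommRing B] [Algebra (↥W)[X] B] [Algebra B (FF L (M * q * q))]
  [IsScalarTower (↥W)[X] B (FF L (M * q * q))] [IsIntegralClosure B (↥W)[X] (FF L (M * q * q))]

omit [IsIntegralClosure B (↥W)[X] (FF L (M * q * q))] in
include halg in
theorem algebraMap_X :
    algebraMap B (FF L (M * q * q)) (algebraMap (↥W)[X] B X) = (jBC L (M * q * q))⁻¹ := by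
  rw [← IsScalarTower.algebraMap_apply, halg, evFinf_X]

omit [IsIntegralClosure B (↥W)[X] (FF L (M * q * q))] in
include halg in
theorem algebraMap_C (a : ↥W) :
    algebraMap B (FF L (M * q * q)) (algebraMap (↥W)[X] B (C a)) =
      algebraMap L (FF L (M * q * q)) (a : L) := by
  rw [← IsScalarTower.algebraMap_apply, halg, evFinf_C]

omit [IsIntegralClosure B (↥W)[X] (FF L (M * q * q))] in
include halg in
theorem algebraMap_ev (p : (↥W)[X]) :
    algebraMap B (FF L (M * q * q)) (algebraMap (↥W)[X] B p) = evFinf W (M * q * q) p := by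
  rw [← IsScalarTower.algebraMap_apply, halg]

omit [Algebra ℚ L] in
/-- a polynomial with constant term `1` is a unit at every prime containing `X` -/
theorem den_not_mem (𝔭 : Ideal B) [h𝔭 : 𝔭.IsPrime] (hX : algebraMap (↥W)[X] B X ∈ 𝔭)
    (D : (↥W)[X]) (hD : D.coeff 0 = 1) : algebraMap (↥W)[X] B D ∉ 𝔭 := by
  intro h
  have h1 : D = D.divX * X + 1 := by
    conv_lhs => rw [← Polynomial.divX_mul_X_add D, hD, map_one]
  rw [h1, map_add, map_mul, map_one] at h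
  have h2 : (1 : B) ∈ 𝔭 := by
    have h3 := 𝔭.sub_mem h (𝔭.mul_mem_left (algebraMap (↥W)[X] B D.divX) hX)
    rwa [add_sub_cancel_left] at h3
  exact h𝔭.ne_top ((Ideal.eq_top_iff_one 𝔭).mpr h2)

include halg in
/-- `1/j'' = a / s` with `s ∉ 𝔭` at every prime `𝔭 ∋ 1/j`; and `a ∈ 𝔭` if `𝔭` is maximal -/
theorem exists_inv_jpp (hq : q.Prime) :
    ∃ (a : B) (D : (↥W)[X]), D.coeff 0 = 1 ∧
      (heckeBetaBar L (M * q) q (heckeBetaBar L M q (jBC L M)))⁻¹ *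
        algebraMap B (FF L (M * q * q)) (algebraMap (↥W)[X] B D) =
      algebraMap B (FF L (M * q * q)) a := by
  obtain ⟨D, hD, hint⟩ := exists_den_of_valuative W (M * q * q)
    (heckeBetaBar L (M * q) q (heckeBetaBar L M q (jBC L M)))⁻¹ fun V hV hx =>
      (V.valuation_le_one_iff _).mp
        (le_of_lt (V.mem_nonunits_iff.mp (inv_jpp_mem_nonunits W M q hq V hV hx)))
  obtain ⟨a, ha⟩ :=
    (Fermat.Agent.S34.ChartAct.exists_algebraMap_eq_iff_inf W (M * q * q) halg B _).mpr hint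
  refine ⟨a, D, hD, ?_⟩
  rw [ha, algebraMap_ev W M q halg B]
  exact mul_comm _ _

include halg in
/-- `1/j'' ∈ 𝔭 B_𝔭` at every maximal ideal `𝔭 ∋ 1/j` -/
theorem inv_jpp_mem_locI (hq : q.Prime) (𝔭 : Ideal B) [h𝔭 : 𝔭.IsMaximal]
    (hX : algebraMap (↥W)[X] B X ∈ 𝔭) :
    (heckeBetaBar L (M * q) q (heckeBetaBar L M q (jBC L M)))⁻¹ ∈
      locI (algebraMap B (FF L (M * q * q))) 𝔭 𝔭 := by
  obtain ⟨a, D, hD, e⟩ := exists_inv_jpp W M q halg B hq
  have hinj : Function.Injective (algebraMap B (FF L (M * q * q))) :=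
    IsIntegralClosure.algebraMap_injective B (↥W)[X] (FF L (M * q * q))
  refine ⟨a, ?_, algebraMap (↥W)[X] B D, den_not_mem W B 𝔭 hX D hD, e⟩
  refine mem_of_valuative (algebraMap B (FF L (M * q * q))) hinj 𝔭 h𝔭 a fun V hB h𝔭V => ?_
  have hV : ∀ a : W, algebraMap L (FF L (M * q * q)) (a : L) ∈ V := fun a => by
    rw [← algebraMap_C W M q halg B]
    exact hB _
  have hx : (jBC L (M * q * q))⁻¹ ∈ V.nonunits := by
    rw [← algebraMap_X W M q halg B]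
    exact h𝔭V _ hX
  have h1 := inv_jpp_mem_nonunits W M q hq V hV hx
  rw [← e, V.mem_nonunits_iff, map_mul]
  exact lt_of_le_of_lt (mul_le_of_le_one_right' ((V.valuation_le_one_iff _).mpr (hB _)))
    (V.mem_nonunits_iff.mp h1)

set_option synthInstance.maxHeartbeats 400000 in
include halg in
/-- `σ (W[1/j]) ⊆ B_𝔭` at every prime `𝔭 ∋ 1/j` -/
theorem sigma_ev_mem_locSub (hq : q.Prime)
    (σ : FF L (M * q * q) ≃ₐ[L] FF L (M * q * q))
    (hσx : σ (jBC L (M * q * q))⁻¹ =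
      (heckeBetaBar L (M * q) q (heckeBetaBar L M q (jBC L M)))⁻¹)
    (𝔭 : Ideal B) [h𝔭 : 𝔭.IsPrime] (hX : algebraMap (↥W)[X] B X ∈ 𝔭) (r : (↥W)[X]) :
    σ (evFinf W (M * q * q) r) ∈ locSub (algebraMap B (FF L (M * q * q))) 𝔭 := by
  induction r using Polynomial.induction_on with
  | C a =>
    rw [evFinf_C, AlgEquiv.commutes, ← algebraMap_C W M q halg B]
    exact map_mem_locSub' _ 𝔭 _
  | add p r hp hr =>
    rw [map_add, map_add]
    exact (locSub _ 𝔭).add_mem hp hr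
  | monomial n a ih =>
    rw [pow_succ, ← mul_assoc, map_mul, map_mul, evFinf_X, hσx]
    refine (locSub _ 𝔭).mul_mem ih ?_
    obtain ⟨a', D, hD, e⟩ := exists_inv_jpp W M q halg B hq
    exact ⟨a', trivial, algebraMap (↥W)[X] B D, den_not_mem W B 𝔭 hX D hD, e⟩

set_option synthInstance.maxHeartbeats 400000 in
include halg in
/-- **The mirror, full form.**  `σ` an involution of `F` over `L` with `σ (1/j) = 1/j''`.  For a
maximal ideal `𝔫 ∋ 1/j` of a carrier `B` of the chart `W[1/j]` there is a maximal ideal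
`𝔫' ∋ 1/j` with `σ (B_𝔫) = B_𝔫'`, `σ (𝔫 B_𝔫) = 𝔫' B_𝔫'`, and the local principality of the
primes not containing a `σ`-fixed element `π` transfers from `𝔫'` to `𝔫`. -/
theorem exists_mirror' [IsDiscreteValuationRing ↥W] (hq : q.Prime)
    (σ : FF L (M * q * q) ≃ₐ[L] FF L (M * q * q)) (hσσ : ∀ z, σ (σ z) = z)
    (hσx : σ (jBC L (M * q * q))⁻¹ =
      (heckeBetaBar L (M * q) q (heckeBetaBar L M q (jBC L M)))⁻¹)
    (𝔫 : Ideal B) [h𝔫 : 𝔫.IsMaximal] (hX : algebraMap (↥W)[X] B X ∈ 𝔫) :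
    ∃ 𝔫' : Ideal B, 𝔫'.IsMaximal ∧ algebraMap (↥W)[X] B X ∈ 𝔫' ∧
      (∀ a : ↥W, algebraMap (↥W)[X] B (C a) ∈ 𝔫 → algebraMap (↥W)[X] B (C a) ∈ 𝔫') ∧
      (∀ z, z ∈ locI (algebraMap B (FF L (M * q * q))) 𝔫 ⊤ ↔
        σ z ∈ locI (algebraMap B (FF L (M * q * q))) 𝔫' ⊤) ∧
      (∀ z, z ∈ locI (algebraMap B (FF L (M * q * q))) 𝔫 𝔫 ↔
        σ z ∈ locI (algebraMap B (FF L (M * q * q))) 𝔫' 𝔫') ∧
      ∀ π : B, σ (algebraMap B (FF L (M * q * q)) π) = algebraMap B (FF L (M * q * q)) π →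
        (∀ 𝔮' : Ideal B, 𝔮'.IsPrime → 𝔮' ≤ 𝔫' → π ∉ 𝔮' →
          ∃ x ∈ 𝔮', ∃ d, d ∉ 𝔫' ∧ ∀ y ∈ 𝔮', x ∣ d * y) →
        ∀ 𝔮 : Ideal B, 𝔮.IsPrime → 𝔮 ≤ 𝔫 → π ∉ 𝔮 →
          ∃ x ∈ 𝔮, ∃ d, d ∉ 𝔫 ∧ ∀ y ∈ 𝔮, x ∣ d * y := by
  have hφ : Function.Injective (algebraMap B (FF L (M * q * q))) :=
    IsIntegralClosure.algebraMap_injective B (↥W)[X] (FF L (M * q * q))
  haveI : Algebra.IsIntegral (↥W)[X] B :=
    IsIntegralClosure.isIntegral_algebra (↥W)[X] (FF L (M * q * q))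
  haveI : IsNoetherianRing B :=
    Fermat.Agent.S34.KLocCusp.isNoetherianRing_inf W (M * q * q) halg B
  have hψB : ∀ b : B, (evFinf W (M * q * q)).IsIntegralElem
      (algebraMap B (FF L (M * q * q)) b) := fun b =>
    (Fermat.Agent.S34.ChartAct.exists_algebraMap_eq_iff_inf W (M * q * q) halg B _).mp ⟨b, rfl⟩
  have hic : ∀ z : FF L (M * q * q), (algebraMap B (FF L (M * q * q))).IsIntegralElem z →
      z ∈ (algebraMap B (FF L (M * q * q))).range := by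
    intro z hz
    have h1 : IsIntegral B z := hz
    have h2 : IsIntegral (↥W)[X] z := isIntegral_trans z h1
    obtain ⟨b, hb⟩ := (IsIntegralClosure.isIntegral_iff (A := B)).mp h2
    exact ⟨b, hb⟩
  have hσrs : ∀ z, (σ.toRingEquiv).symm z = σ z := fun z => by
    rw [RingEquiv.symm_apply_eq]
    exact (hσσ z).symm
  haveI hprime : 𝔫.IsPrime := h𝔫.isPrime
  have h1 : ∀ b, (σ.toRingEquiv).symm (algebraMap B (FF L (M * q * q)) b) ∈
      locSub (algebraMap B (FF L (M * q * q))) 𝔫 := fun b => by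
    rw [hσrs]
    exact map_mem_locSub hφ hic 𝔫 (evFinf W (M * q * q)) σ.toRingEquiv
      (fun r => sigma_ev_mem_locSub W M q halg B hq σ hσx 𝔫 hX r) (hψB b)
  haveI h𝔫'prime : (mirrorIdeal (algebraMap B (FF L (M * q * q))) σ.toRingEquiv 𝔫 h1).IsPrime :=
    mirrorIdeal_isPrime hφ σ.toRingEquiv 𝔫 h1
  have hmem : ∀ b, b ∈ mirrorIdeal (algebraMap B (FF L (M * q * q))) σ.toRingEquiv 𝔫 h1 ↔
      σ (algebraMap B (FF L (M * q * q)) b) ∈ locI (algebraMap B (FF L (M * q * q))) 𝔫 𝔫 :=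
    fun b => by rw [mem_mirrorIdeal, hσrs]
  have hX' : algebraMap (↥W)[X] B X ∈
      mirrorIdeal (algebraMap B (FF L (M * q * q))) σ.toRingEquiv 𝔫 h1 := by
    rw [hmem, algebraMap_X W M q halg B, hσx]
    exact inv_jpp_mem_locI W M q halg B hq 𝔫 hX
  have hfix : ∀ a : ↥W, σ (algebraMap B (FF L (M * q * q)) (algebraMap (↥W)[X] B (C a))) =
      algebraMap B (FF L (M * q * q)) (algebraMap (↥W)[X] B (C a)) := fun a => by
    rw [algebraMap_C W M q halg B, AlgEquiv.commutes]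
  have hC' : ∀ a : ↥W, algebraMap (↥W)[X] B (C a) ∈ 𝔫 → algebraMap (↥W)[X] B (C a) ∈
      mirrorIdeal (algebraMap B (FF L (M * q * q))) σ.toRingEquiv 𝔫 h1 := fun a ha => by
    rw [hmem, hfix]
    exact map_mem_locI _ hprime.ne_top ha
  have hmax' : (mirrorIdeal (algebraMap B (FF L (M * q * q))) σ.toRingEquiv 𝔫 h1).IsMaximal :=
    isMaximal_of_const_mem W B _ hX' fun a ha => hC' a (const_mem_of_maximal W B 𝔫 hX a ha)
  have h2 : ∀ b, σ.toRingEquiv (algebraMap B (FF L (M * q * q)) b) ∈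
      locSub (algebraMap B (FF L (M * q * q)))
        (mirrorIdeal (algebraMap B (FF L (M * q * q))) σ.toRingEquiv 𝔫 h1) := fun b =>
    map_mem_locSub hφ hic _ (evFinf W (M * q * q)) σ.toRingEquiv
      (fun r => sigma_ev_mem_locSub W M q halg B hq σ hσx _ hX' r) (hψB b)
  have h3 : ∀ b, b ∈ mirrorIdeal (algebraMap B (FF L (M * q * q))) σ.toRingEquiv 𝔫 h1 ↔
      (σ.toRingEquiv).symm (algebraMap B (FF L (M * q * q)) b) ∈
        locI (algebraMap B (FF L (M * q * q))) 𝔫 𝔫 := fun b => Iff.rfl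
  refine ⟨mirrorIdeal (algebraMap B (FF L (M * q * q))) σ.toRingEquiv 𝔫 h1, hmax', hX', hC',
    ?_, ?_, ?_⟩
  · exact fun z => mirror_locSub_iff hφ σ.toRingEquiv 𝔫 _ h1 h2 h3 z
  · exact fun z => mirror_locI_iff hφ σ.toRingEquiv 𝔫 _ h1 h2 h3 z
  · intro π hπ hK4 𝔮 h𝔮 h𝔮𝔫 hπ𝔮
    exact mirror_K4 hφ σ.toRingEquiv π hπ 𝔫 _ h1 h2 h3 hK4 𝔮 h𝔮 h𝔮𝔫 hπ𝔮

end Carrier

set_option synthInstance.maxHeartbeats 400000 in
/-- **The mirror** (contract P3 of (R-cusp)). -/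
theorem exists_mirror {L : Type*} [Field L] [Algebra ℚ L] (W : ValuationSubring L)
    [IsDiscreteValuationRing ↥W] (M q : ℕ) [NeZero M] [NeZero q] (hq : q.Prime)
    [Algebra (↥W)[X] (FF L (M * q * q))]
    (halg : algebraMap (↥W)[X] (FF L (M * q * q)) = evFinf W (M * q * q))
    (B : Type*) [CommRing B] [Algebra (↥W)[X] B] [Algebra B (FF L (M * q * q))]
    [IsScalarTower (↥W)[X] B (FF L (M * q * q))] [IsIntegralClosure B (↥W)[X] (FF L (M * q * q))]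
    (σ : FF L (M * q * q) ≃ₐ[L] FF L (M * q * q)) (hσσ : ∀ z, σ (σ z) = z)
    (hσx : σ (jBC L (M * q * q))⁻¹ =
      (heckeBetaBar L (M * q) q (heckeBetaBar L M q (jBC L M)))⁻¹)
    (𝔫 : Ideal B) [𝔫.IsMaximal] (hX : algebraMap (↥W)[X] B X ∈ 𝔫) :
    ∃ 𝔫' : Ideal B, 𝔫'.IsMaximal ∧ algebraMap (↥W)[X] B X ∈ 𝔫' ∧
      (∀ a : ↥W, algebraMap (↥W)[X] B (C a) ∈ 𝔫 → algebraMap (↥W)[X] B (C a) ∈ 𝔫') ∧
      (∀ z : FF L (M * q * q),
        (∃ b s : B, s ∉ 𝔫' ∧ b ∈ 𝔫' ∧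
          algebraMap B (FF L (M * q * q)) b = algebraMap B (FF L (M * q * q)) s * z) →
        ∃ b s : B, s ∉ 𝔫 ∧ b ∈ 𝔫 ∧
          algebraMap B (FF L (M * q * q)) b = algebraMap B (FF L (M * q * q)) s * σ z) ∧
      ∀ a : ↥W,
        (∀ 𝔮' : Ideal B, 𝔮'.IsPrime → 𝔮' ≤ 𝔫' → algebraMap (↥W)[X] B (C a) ∉ 𝔮' →
          ∃ x ∈ 𝔮', ∃ d, d ∉ 𝔫' ∧ ∀ y ∈ 𝔮', x ∣ d * y) →
        ∀ 𝔮 : Ideal B, 𝔮.IsPrime → 𝔮 ≤ 𝔫 → algebraMap (↥W)[X] B (C a) ∉ 𝔮 →
          ∃ x ∈ 𝔮, ∃ d, d ∉ 𝔫 ∧ ∀ y ∈ 𝔮, x ∣ d * y := by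
  obtain ⟨𝔫', hmax, hX', hC', -, hI, hK⟩ := exists_mirror' W M q halg B hq σ hσσ hσx 𝔫 hX
  refine ⟨𝔫', hmax, hX', hC', ?_, ?_⟩
  · rintro z ⟨b, s, hs, hb, e⟩
    have h1 : σ (σ z) ∈ locI (algebraMap B (FF L (M * q * q))) 𝔫' 𝔫' := by
      rw [hσσ]
      exact ⟨b, hb, s, hs, by rw [e]; exact mul_comm _ _⟩
    obtain ⟨a, ha, t, ht, e'⟩ := (hI (σ z)).mpr h1
    exact ⟨a, t, ht, ha, by rw [← e']; exact mul_comm _ _⟩
  · intro a hK4 𝔮 h𝔮 h𝔮𝔫 ha𝔮
    refine hK (algebraMap (↥W)[X] B (C a)) ?_ hK4 𝔮 h𝔮 h𝔮𝔫 ha𝔮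
    rw [algebraMap_C W M q halg B, AlgEquiv.commutes]

end Fermat.Agent.S36.CuspMirror
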