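import Mathlib
import Fermat.Agent.S36.CuspModPolyZ
import Fermat.Agent.S37.ModPolyBounds
import Fermat.Agent.S18.GaussDegree

/-!
# S36, (R-cusp), package P4 (TRI): the type `(0, ∞)` does not occur at a cusp

Level `M q²`, `j = j(Q)`, `j' = j(Q^q)`, `j'' = j(Q^(q²))` in the function field `F`.  For a
valuation subring `V` of `F` with `q ∈ 𝔪_V` and `1/j ∈ 𝔪_V` (a cusp of the special fibre), the
two conditions

* `j'^q / j ∈ V`  (`x = ε x'^q` with `ε ∈ V`: the pair `(j, j')` is of type `0`), and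
* `j''/j ≡ 1` modulo `𝔪_V`

are contradictory (`not_zero_inf`, `not_zero_inf'`, `not_zero_inf_gen`).

Proof.  `Φ(T, j') = T^(q+1) + ∑_{m ≤ q} c_m(j') T^m` (modular polynomial, `c_m ∈ ℤ[Y]` of degree
`≤ q` for `m ≥ 1`) has the two roots `j ≠ j''`.  Since `j ∉ V`, also `j' ∉ V`, so `x' = 1/j'`
lies in `𝔪_V`.  The polynomial `f(S) = Φ(jS, j') / j^(q+1) = S^(q+1) + ∑ φ_m S^m` has
`φ_m = c_m(j') (ε x'^q)^(q+1-m) ∈ V` for `1 ≤ m ≤ q` and `∈ 𝔪_V` for `1 ≤ m < q`; hence
`f'(1) ≡ (q+1) + q φ_q ≡ 1`, so `1` is a simple root of `f` modulo `𝔪_V` and `f` has no second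
root `s = j''/j ≡ 1` (`simple_root_abs`, `not_near_root`: Mathlib only).
-/

set_option autoImplicit false

noncomputable section

namespace Fermat.Agent.S36.CuspTri

open Polynomial ModularCurve Fermat.Agent.S28

local notation "Qb" => AlgebraicClosure ℚ

section Abstract

/-- **A simple root has no neighbour.**  In a domain `R` with a proper ideal `𝔪 ∋ n`: if
`f = S^(n+1) + ∑_{m ≤ n} φ m S^m` has `φ m ∈ 𝔪` for `1 ≤ m < n` (so `f'(1) ≡ 1`), then `f` cannot
vanish at `1` and at a second point `s ≡ 1`.  The hypothesis is the difference `f(s) - f(1) = 0`. -/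
theorem simple_root_abs {R : Type*} [CommRing R] [IsDomain R] (𝔪 : Ideal R) (h𝔪 : 𝔪 ≠ ⊤)
    (n : ℕ) (φ : ℕ → R) (hn : (n : R) ∈ 𝔪) (hφ : ∀ m, 1 ≤ m → m < n → φ m ∈ 𝔪)
    (s : R) (hs1 : s ≠ 1) (hs : s - 1 ∈ 𝔪)
    (hrel : (s ^ (n + 1) - 1) + ∑ m ∈ Finset.range (n + 1), φ m * (s ^ m - 1) = 0) : False := by
  have hgeom : ∀ m : ℕ, s ^ m - 1 = (s - 1) * ∑ i ∈ Finset.range m, s ^ i := fun m =>
    (mul_geom_sum s m).symm
  have hfac : (s - 1) * ((∑ i ∈ Finset.range (n + 1), s ^ i) +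
      ∑ m ∈ Finset.range (n + 1), φ m * ∑ i ∈ Finset.range m, s ^ i) = 0 := by
    rw [mul_add, ← hgeom, Finset.mul_sum, ← hrel]
    congr 1
    refine Finset.sum_congr rfl fun m _ => ?_
    rw [hgeom m]
    ring
  have hG := (mul_eq_zero.mp hfac).resolve_left (sub_ne_zero.mpr hs1)
  apply h𝔪
  rw [Ideal.eq_top_iff_one, ← Ideal.Quotient.eq_zero_iff_mem]
  have hs' : Ideal.Quotient.mk 𝔪 s = 1 := by
    rw [← sub_eq_zero, ← map_one (Ideal.Quotient.mk 𝔪), ← map_sub, Ideal.Quotient.eq_zero_iff_mem]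
    exact hs
  have hn' : ((n : ℕ) : R ⧸ 𝔪) = 0 := by
    rw [← map_natCast (Ideal.Quotient.mk 𝔪), Ideal.Quotient.eq_zero_iff_mem]
    exact hn
  have hg' : ∀ m : ℕ, Ideal.Quotient.mk 𝔪 (∑ i ∈ Finset.range m, s ^ i) = (m : R ⧸ 𝔪) := by
    intro m
    rw [map_sum]
    simp [hs']
  have h0 := congrArg (Ideal.Quotient.mk 𝔪) hG
  rw [map_add, hg', map_zero, map_sum] at h0
  have hsum : ∑ m ∈ Finset.range (n + 1),
      Ideal.Quotient.mk 𝔪 (φ m * ∑ i ∈ Finset.range m, s ^ i) = 0 := by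
    refine Finset.sum_eq_zero fun m hm => ?_
    rw [map_mul, hg']
    rcases Nat.eq_zero_or_pos m with rfl | hm0
    · simp
    · rcases Nat.lt_or_ge m n with hlt | hge
      · rw [Ideal.Quotient.eq_zero_iff_mem.mpr (hφ m hm0 hlt), zero_mul]
      · have : m = n := le_antisymm (Nat.lt_succ_iff.mp (Finset.mem_range.mp hm)) hge
        rw [this, hn', mul_zero]
  rw [hsum, add_zero, Nat.cast_add, hn', zero_add, Nat.cast_one] at h0
  rw [map_one]
  exact h0

/-- **Valuation-ring core.**  `R = T^(n+1) + ∑_{m ≤ n} a_m T^m` a monic polynomial over a field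
`F`, `V` a valuation subring with `n ∈ 𝔪_V`, `x' ∈ 𝔪_V`, `1/j = ε x'^n` with `ε ∈ V`, and
`a_m x'^n ∈ V` for `1 ≤ m ≤ n`.  Then `R` cannot have the two distinct roots `j` and `j''` with
`j''/j ≡ 1` modulo `𝔪_V`. -/
theorem not_near_root {F : Type*} [Field F] (V : ValuationSubring F) (n : ℕ) (hn1 : 1 ≤ n)
    (R : F[X]) (hR : R.Monic) (hdeg : R.natDegree = n + 1)
    (j j'' x' ε : F) (hj : j ≠ 0)
    (hnV : (n : F) ∈ V.nonunits)
    (hx' : x' ∈ V.nonunits) (hε : ε ∈ V) (hxeq : j⁻¹ = ε * x' ^ n)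
    (ha : ∀ m, 1 ≤ m → m ≤ n → R.coeff m * x' ^ n ∈ V)
    (hroot : R.eval j = 0) (hroot' : R.eval j'' = 0)
    (hne : j'' ≠ j) (h1 : j'' / j - 1 ∈ V.nonunits) : False := by
  classical
  -- the expansion of `R(y) / j^(n+1)`
  have key : ∀ y : F, R.eval y * (j⁻¹) ^ (n + 1) = (y / j) ^ (n + 1) +
      ∑ m ∈ Finset.range (n + 1), R.coeff m * (j⁻¹) ^ (n + 1 - m) * (y / j) ^ m := by
    intro y
    rw [Polynomial.eval_eq_sum_range, hdeg, Finset.sum_range_succ, add_mul, add_comm]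
    congr 1
    · have hc : R.coeff (n + 1) = 1 := by rw [← hdeg]; exact hR.coeff_natDegree
      rw [hc, one_mul, div_eq_mul_inv, mul_pow]
    · rw [Finset.sum_mul]
      refine Finset.sum_congr rfl fun m hm => ?_
      have hm' : m ≤ n + 1 := (Finset.mem_range.mp hm).le
      have hpow : (j⁻¹) ^ (n + 1) = (j⁻¹) ^ (n + 1 - m) * (j⁻¹) ^ m := by
        rw [← pow_add, Nat.sub_add_cancel hm']
      rw [hpow, div_eq_mul_inv, mul_pow]
      ring
  set s : F := j'' / j with hsdef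
  have hs1 : s ≠ 1 := by
    intro h
    apply hne
    rw [hsdef, div_eq_one_iff_eq hj] at h
    exact h
  have hjj : j / j = 1 := div_self hj
  have e1 := key j''
  have e2 := key j
  rw [hroot', zero_mul, ← hsdef] at e1
  rw [hroot, zero_mul, hjj] at e2
  simp only [one_pow, mul_one] at e2
  have hrelF : (s ^ (n + 1) - 1) + ∑ m ∈ Finset.range (n + 1),
      R.coeff m * (j⁻¹) ^ (n + 1 - m) * (s ^ m - 1) = 0 := by
    have h3 : ∑ m ∈ Finset.range (n + 1), R.coeff m * (j⁻¹) ^ (n + 1 - m) * (s ^ m - 1) =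
        ∑ m ∈ Finset.range (n + 1), R.coeff m * (j⁻¹) ^ (n + 1 - m) * s ^ m -
          ∑ m ∈ Finset.range (n + 1), R.coeff m * (j⁻¹) ^ (n + 1 - m) := by
      rw [← Finset.sum_sub_distrib]
      refine Finset.sum_congr rfl fun m _ => ?_
      ring
    rw [h3]
    linear_combination e2 - e1
  -- elements of `V`
  have hsV : s ∈ V := by
    have h2 : s = (s - 1) + 1 := by ring
    rw [h2]
    exact V.add_mem _ _ (ValuationSubring.nonunits_subset h1) V.one_mem
  have hx'V : x' ∈ V := ValuationSubring.nonunits_subset hx'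
  let xV : V := ⟨x', hx'V⟩
  let εV : V := ⟨ε, hε⟩
  let sV : V := ⟨s, hsV⟩
  let cV : ℕ → V := fun m => if h : 1 ≤ m ∧ m ≤ n then ⟨R.coeff m * x' ^ n, ha m h.1 h.2⟩ else 0
  let φ : ℕ → V := fun m => εV ^ (n + 1 - m) * cV m * (xV ^ n) ^ (n - m)
  have hxV𝔪 : xV ∈ IsLocalRing.maximalIdeal V :=
    (ValuationSubring.mem_nonunits_iff_exists_mem_maximalIdeal.mp hx').2
  have hφF : ∀ m, 1 ≤ m → m ≤ n → ((φ m : V) : F) = R.coeff m * (j⁻¹) ^ (n + 1 - m) := by
    intro m hm1 hmn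
    have hc : ((cV m : V) : F) = R.coeff m * x' ^ n := by
      simp only [cV, dif_pos (And.intro hm1 hmn)]
    have hexp : n + 1 - m = (n - m) + 1 := by omega
    simp only [φ, MulMemClass.coe_mul, SubmonoidClass.coe_pow, hc]
    show ε ^ (n + 1 - m) * (R.coeff m * x' ^ n) * (x' ^ n) ^ (n - m) = _
    rw [hxeq, hexp]
    ring
  refine simple_root_abs (IsLocalRing.maximalIdeal V) (Ideal.IsPrime.ne_top inferInstance)
    n φ ?_ ?_ sV ?_ ?_ ?_
  · obtain ⟨h, hmem⟩ := ValuationSubring.mem_nonunits_iff_exists_mem_maximalIdeal.mp hnV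
    have : ((n : ℕ) : V) = ⟨(n : F), h⟩ := Subtype.ext (by simp)
    rw [this]
    exact hmem
  · intro m hm1 hmn
    have hpos : 0 < n - m := by omega
    exact Ideal.mul_mem_left _ _
      (Ideal.pow_mem_of_mem _ (Ideal.pow_mem_of_mem _ hxV𝔪 n (by omega)) _ hpos)
  · intro h
    exact hs1 (congrArg Subtype.val h)
  · obtain ⟨h, hmem⟩ := ValuationSubring.mem_nonunits_iff_exists_mem_maximalIdeal.mp h1
    have : sV - 1 = ⟨j'' / j - 1, h⟩ := Subtype.ext (by simp [sV, hsdef])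
    rw [this]
    exact hmem
  · apply Subtype.ext
    have hsum : ((∑ m ∈ Finset.range (n + 1), φ m * (sV ^ m - 1) : V) : F) =
        ∑ m ∈ Finset.range (n + 1), R.coeff m * (j⁻¹) ^ (n + 1 - m) * (s ^ m - 1) := by
      rw [AddSubmonoidClass.coe_finsetSum]
      refine Finset.sum_congr rfl fun m hm => ?_
      rcases Nat.eq_zero_or_pos m with rfl | hm0
      · simp
      · have hmn : m ≤ n := Nat.lt_succ_iff.mp (Finset.mem_range.mp hm)
        rw [MulMemClass.coe_mul, hφF m hm0 hmn]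
        simp [sV]
    rw [AddMemClass.coe_add, hsum, ZeroMemClass.coe_zero, ← hrelF]
    simp [sV]

end Abstract

section Valuative

variable {F : Type*} [Field F] (V : ValuationSubring F)

/-- a root of a monic polynomial with coefficients in `V` lies in `V` -/
theorem mem_of_monic_root (R : F[X]) (hR : R.Monic) (hcoef : ∀ m, R.coeff m ∈ V) (y : F)
    (hroot : R.eval y = 0) : y ∈ V := by
  by_contra hy
  have hv : 1 < V.valuation y := by
    rw [← not_le]
    exact fun h => hy ((V.valuation_le_one_iff y).mp h)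
  set d := R.natDegree with hd
  have hlead : R.coeff d = 1 := hR.coeff_natDegree
  rw [Polynomial.eval_eq_sum_range, ← hd, Finset.sum_range_succ, hlead, one_mul] at hroot
  have hy' : y ^ d = -∑ m ∈ Finset.range d, R.coeff m * y ^ m := by
    linear_combination hroot
  rcases Nat.eq_zero_or_pos d with h0 | hpos
  · rw [h0, Finset.range_zero, Finset.sum_empty, neg_zero, pow_zero] at hy'
    exact one_ne_zero hy'
  have hle : V.valuation (y ^ d) ≤ V.valuation y ^ (d - 1) := by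
    rw [hy', Valuation.map_neg]
    refine Valuation.map_sum_le _ fun m hm => ?_
    rw [map_mul, map_pow]
    have h1 : V.valuation (R.coeff m) ≤ 1 := (V.valuation_le_one_iff _).mpr (hcoef m)
    have h2 : V.valuation y ^ m ≤ V.valuation y ^ (d - 1) :=
      pow_le_pow_right₀ hv.le (by have := Finset.mem_range.mp hm; omega)
    calc V.valuation (R.coeff m) * V.valuation y ^ m ≤ 1 * V.valuation y ^ (d - 1) :=
          mul_le_mul' h1 h2
      _ = V.valuation y ^ (d - 1) := one_mul _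
  rw [map_pow] at hle
  have hlt : V.valuation y ^ (d - 1) < V.valuation y ^ d :=
    pow_lt_pow_right₀ hv (by omega)
  exact absurd hle (not_le.mpr hlt)

/-- an integer polynomial of degree `≤ d` in `y`, times `y⁻ᵈ`, lies in `V` if `y⁻¹` does -/
theorem eval₂_mul_inv_pow_mem (c : ℤ[X]) (d : ℕ) (hc : c.natDegree ≤ d) (y : F) (hy0 : y ≠ 0)
    (hy : y⁻¹ ∈ V) : c.eval₂ (Int.castRingHom F) y * (y⁻¹) ^ d ∈ V := by
  rw [Polynomial.eval₂_eq_sum_range' (Int.castRingHom F) (Nat.lt_succ_of_le hc), Finset.sum_mul]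
  refine V.toSubring.sum_mem fun i hi => ?_
  have hi' : i ≤ d := Nat.lt_succ_iff.mp (Finset.mem_range.mp hi)
  have h1 : y ^ i * (y⁻¹) ^ d = (y⁻¹) ^ (d - i) := by
    have h2 : (y⁻¹) ^ d = (y⁻¹) ^ (d - i) * (y⁻¹) ^ i := by
      rw [← pow_add, Nat.sub_add_cancel hi']
    rw [h2, inv_pow y i]
    field_simp
  rw [mul_assoc, h1, eq_intCast]
  exact V.toSubring.mul_mem (intCast_mem V.toSubring _) (V.toSubring.pow_mem hy _)

end Valuative

section Instance

variable {L : Type} [Field L] [Algebra ℚ L] (ι : L →+* Qb)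

/-- **(TRI), general spelling.**  Let `j' , j''` be functions of level `N` with expansions
`j(Q^q)`, `j(Q^(q²))`.  For a valuation subring `V` of the function field with `q ∈ 𝔪_V` and
`1/j ∈ 𝔪_V` (a cusp in characteristic `q`): `j'^q / j ∈ V` ("`x ≈ x'^q`", type `0` for `(j, j')`)
and `j''/j ≡ 1` are contradictory. -/
theorem not_zero_inf_gen (ι : L →+* Qb) (N q : ℕ) [NeZero N] [NeZero q] (hq : q.Prime)
    (jp jpp : S24.FF L N)
    (hjp : (jp : LaurentSeries L) = qExpand L q (jS L))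
    (hjpp : (jpp : LaurentSeries L) = qExpand L (q * q) (jS L))
    (V : ValuationSubring (S24.FF L N))
    (hqV : ((q : ℕ) : S24.FF L N) ∈ V.nonunits)
    (hx : (S24.jBC L N)⁻¹ ∈ V.nonunits)
    (h0 : jp ^ q / S24.jBC L N ∈ V)
    (h1 : jpp / S24.jBC L N - 1 ∈ V.nonunits) : False := by
  classical
  obtain ⟨ΦZ, hΦZ⟩ := Fermat.Agent.S36.CuspModPolyZ.exists_modPoly_Z q hq
  have : NeZero ((q : ℕ) : Qb) := ⟨Nat.cast_ne_zero.mpr hq.ne_zero⟩
  obtain ⟨ζ₀, hζ₀⟩ := HasEnoughRootsOfUnity.exists_primitiveRoot Qb q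
  have hζ₀0 : ζ₀ ≠ 0 := hζ₀.ne_zero hq.ne_zero
  let ζ : Qbˣ := Units.mk0 ζ₀ hζ₀0
  have hζ : IsPrimitiveRoot (ζ : Qb) q := hζ₀
  have hΦ := hΦZ ζ hζ
  have hζpow : ζ ^ q = 1 := by
    apply Units.ext
    rw [Units.val_pow_eq_pow_val, Units.val_one]
    exact hζ.pow_eq_one
  obtain ⟨-, -, hzero⟩ := Fermat.Agent.S37.ModPolyBounds.modPoly_bounds_gen
    (Int.castRingHom Qb) Int.cast_injective q ΦZ ζ hζpow hΦ
  obtain ⟨hdegall, -, -⟩ := Fermat.Agent.S37.ModPolyBounds.modPoly_bounds_gen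
    (Int.castRingHom Qb) Int.cast_injective q ΦZ ζ hζpow hΦ
  have hdegk : ∀ k, k ≠ 0 → (ΦZ.coeff k).natDegree ≤ q := by
    intro k hk
    have h1 := hdegall k
    have h2 := hzero k hk
    by_contra hlt
    have h3 : (ΦZ.coeff k).natDegree = q + 1 := by omega
    have h4 : (ΦZ.coeff k).leadingCoeff = 0 := by rw [leadingCoeff, h3]; exact h2
    rw [leadingCoeff_eq_zero] at h4
    rw [h4, natDegree_zero] at h3
    omega
  -- the embedding into `ℚ̄((Q))`
  let ψ : S24.FF L N →+* LaurentSeries Qb :=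
    (coeffMap ι).comp (algebraMap (S24.FF L N) (LaurentSeries L))
  have hcminj : Function.Injective (coeffMap ι) := by
    intro x y h
    ext n
    have h2 := congrArg (fun z : LaurentSeries Qb => z.coeff n) h
    exact ι.injective h2
  have hψinj : Function.Injective ψ := hcminj.comp Subtype.val_injective
  set j : S24.FF L N := S24.jBC L N with hjdef
  have hψj : ψ j = jS Qb := by
    show coeffMap ι ((S24.jBC L N : S24.FF L N) : LaurentSeries L) = jS Qb
    rw [Fermat.Agent.S18.Gauss.coe_jBC_eq, ← jS_eq_jqModC, coeffMap_jS]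
  have hψjp : ψ jp = qExpand Qb q (jS Qb) := by
    show coeffMap ι (jp : LaurentSeries L) = _
    rw [hjp, ModularCurve.coeffMap_qExpand, coeffMap_jS]
  have hψjpp : ψ jpp = qExpand Qb (q * q) (jS Qb) := by
    show coeffMap ι (jpp : LaurentSeries L) = _
    rw [hjpp, ModularCurve.coeffMap_qExpand, coeffMap_jS]
  -- the polynomial `Φ(T, j')` over the function field
  let evF : ℤ[X] →+* S24.FF L N := eval₂RingHom (Int.castRingHom (S24.FF L N)) jp
  set R : (S24.FF L N)[X] := ΦZ.map evF with hRdef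
  have hcomp : ψ.comp evF = (evalAt (qExpand Qb q (jS Qb))).comp (mapRingHom (Int.castRingHom Qb)) := by
    apply Polynomial.ringHom_ext
    · intro n
      simp [evF, evalAt]
    · simp [evF, evalAt, hψjp]
  have hRψ : R.map ψ = (X - C (qExpand Qb (q * q) (jS Qb))) *
      ∏ c ∈ Finset.range q, (X - C (tw (ζ ^ c) (jS Qb))) := by
    rw [hRdef, Polynomial.map_map, hcomp, ← Polynomial.map_map]
    exact hΦ
  have hprod : (∏ c ∈ Finset.range q, (X - C (tw (ζ ^ c) (jS Qb)))).Monic :=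
    monic_prod_of_monic _ _ fun c _ => monic_X_sub_C _
  have hRmon : R.Monic := by
    apply Polynomial.monic_of_injective hψinj
    rw [hRψ]
    exact (monic_X_sub_C _).mul hprod
  have hRdeg : R.natDegree = q + 1 := by
    rw [← natDegree_map_eq_of_injective hψinj, hRψ, Monic.natDegree_mul (monic_X_sub_C _) hprod,
      natDegree_X_sub_C, natDegree_prod_of_monic _ _ (fun c _ => monic_X_sub_C _)]
    simp [add_comm]
  have hrootj : R.eval j = 0 := by
    apply hψinj
    rw [map_zero, ← Polynomial.eval₂_at_apply, ← eval_map, hRψ, hψj, eval_mul, eval_prod]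
    refine mul_eq_zero_of_right _ (Finset.prod_eq_zero (Finset.mem_range.mpr hq.pos) ?_)
    rw [pow_zero, tw_one, eval_sub, eval_X, eval_C, sub_self]
  have hrootjpp : R.eval jpp = 0 := by
    apply hψinj
    rw [map_zero, ← Polynomial.eval₂_at_apply, ← eval_map, hRψ, hψjpp, eval_mul, eval_sub, eval_X,
      eval_C, sub_self, zero_mul]
  have hRcoeff : ∀ m, R.coeff m = (ΦZ.coeff m).eval₂ (Int.castRingHom (S24.FF L N)) jp := by
    intro m
    rw [hRdef, coeff_map]
    rfl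
  -- nonvanishing
  have hj0 : j ≠ 0 := by
    intro h
    have h2 := congrArg (fun y : LaurentSeries Qb => y.coeff (-1)) hψj
    simp only [h, map_zero, HahnSeries.coeff_zero, jS_coeff_neg_one] at h2
    exact zero_ne_one h2
  have hjp0 : jp ≠ 0 := by
    intro h
    have h2 := congrArg (fun y : LaurentSeries Qb => y.coeff ((q : ℤ) * (-1))) hψjp
    simp only [h, map_zero, HahnSeries.coeff_zero, qExpand_coeff_mul, jS_coeff_neg_one] at h2
    exact zero_ne_one h2
  have hne : jpp ≠ j := by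
    intro h
    have h2 := congrArg (fun y : LaurentSeries Qb => y.coeff (-1)) (congrArg ψ h)
    have hnd : ¬ (((q * q : ℕ) : ℤ)) ∣ (-1 : ℤ) := by
      intro hd
      have h3 : ((q * q : ℕ) : ℤ) ∣ 1 := (Int.dvd_neg).mp hd
      have h4 : (q * q : ℕ) ∣ 1 := by exact_mod_cast h3
      have h5 : q * q = 1 := Nat.dvd_one.mp h4
      have h6 := hq.two_le
      nlinarith
    simp only [hψjpp, hψj, jS_coeff_neg_one, qExpand_coeff_of_not_dvd (q * q) _ hnd] at h2
    exact zero_ne_one h2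
  -- `1/j'` is a nonunit
  have hjV : j ∉ V := by
    intro hjV
    have h2 : V.valuation j⁻¹ < 1 := hx
    have h3 : V.valuation j ≤ 1 := (V.valuation_le_one_iff j).mpr hjV
    rw [map_inv₀] at h2
    have h4 : (1 : _) ≤ (V.valuation j)⁻¹ := by
      rw [one_le_inv₀ ((Valuation.pos_iff _).mpr hj0)]
      exact h3
    exact absurd h2 (not_lt.mpr h4)
  have hjpV : jp ∉ V := by
    intro hjpV
    apply hjV
    refine mem_of_monic_root V R hRmon (fun m => ?_) j hrootj
    rw [hRcoeff, Polynomial.eval₂_eq_sum_range]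
    refine V.toSubring.sum_mem fun i _ => ?_
    rw [eq_intCast]
    exact V.toSubring.mul_mem (intCast_mem V.toSubring _) (V.toSubring.pow_mem hjpV _)
  have hx'V : jp⁻¹ ∈ V := (V.mem_or_inv_mem jp).resolve_left hjpV
  have hx' : jp⁻¹ ∈ V.nonunits := by
    rw [ValuationSubring.mem_nonunits_iff_or]
    right
    rw [inv_inv]
    exact hjpV
  refine not_near_root V q hq.one_le R hRmon hRdeg j jpp jp⁻¹ (jp ^ q / j) hj0 hqV hx' h0 ?_ ?_
    hrootj hrootjpp hne h1
  · rw [inv_pow, div_mul_eq_mul_div, mul_inv_cancel₀ (pow_ne_zero q hjp0), one_div]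
  · intro m hm1 _
    rw [hRcoeff]
    exact eval₂_mul_inv_pow_mem V (ΦZ.coeff m) q (hdegk m (by omega)) jp hjp0 hx'V

/-- **(TRI)** at level `M q²`: the combination "type `0` for `(j, j')`" and "`j''/j ≡ 1`" does
not occur at a cusp of the special fibre.  Here `j' = β₂ (j)`, `j'' = β₂ (β₁ (j))`. -/
theorem not_zero_inf (ι : L →+* Qb) (M q : ℕ) [NeZero M] [NeZero q] (hq : q.Prime)
    (_hqM : ¬ q ∣ M) (V : ValuationSubring (S24.FF L (M * q * q)))
    (hqV : ((q : ℕ) : S24.FF L (M * q * q)) ∈ V.nonunits)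
    (hx : (S24.jBC L (M * q * q))⁻¹ ∈ V.nonunits)
    (h0 : heckeBetaBar L (M * q) q (S24.jBC L (M * q)) ^ q / S24.jBC L (M * q * q) ∈ V)
    (h1 : heckeBetaBar L (M * q) q (heckeBetaBar L M q (S24.jBC L M)) / S24.jBC L (M * q * q) - 1
      ∈ V.nonunits) : False := by
  refine not_zero_inf_gen ι (M * q * q) q hq _ _ ?_ ?_ V hqV hx h0 h1
  · rw [coe_heckeBetaBar, Fermat.Agent.S18.Gauss.coe_jBC_eq, ← jS_eq_jqModC]
  · rw [coe_heckeBetaBar, coe_heckeBetaBar, qExpand_qExpand, Fermat.Agent.S18.Gauss.coe_jBC_eq,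
      ← jS_eq_jqModC]

/-- Variant of `not_zero_inf` with `j'` spelled `α₂ (β₁ (j))`. -/
theorem not_zero_inf' (ι : L →+* Qb) (M q : ℕ) [NeZero M] [NeZero q] (hq : q.Prime)
    (V : ValuationSubring (S24.FF L (M * q * q)))
    (hqV : ((q : ℕ) : S24.FF L (M * q * q)) ∈ V.nonunits)
    (hx : (S24.jBC L (M * q * q))⁻¹ ∈ V.nonunits)
    (h0 : heckeAlphaBar L (M * q) q (heckeBetaBar L M q (S24.jBC L M)) ^ q /
      S24.jBC L (M * q * q) ∈ V)
    (h1 : heckeBetaBar L (M * q) q (heckeBetaBar L M q (S24.jBC L M)) / S24.jBC L (M * q * q) - 1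
      ∈ V.nonunits) : False := by
  refine not_zero_inf_gen ι (M * q * q) q hq _ _ ?_ ?_ V hqV hx h0 h1
  · rw [coe_heckeAlphaBar, coe_heckeBetaBar, Fermat.Agent.S18.Gauss.coe_jBC_eq, ← jS_eq_jqModC]
  · rw [coe_heckeBetaBar, coe_heckeBetaBar, qExpand_qExpand, Fermat.Agent.S18.Gauss.coe_jBC_eq,
      ← jS_eq_jqModC]

end Instance

end Fermat.Agent.S36.CuspTri
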