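/-
S36 (wave 8), (R-cusp): every cusp point of level `M q` is of `∞`-type or of `0`-type.

On a carrier `B` of the chart `W[1/j]` of level `M q` (`W = A.comap ι` an unramified level),
`(q) = ker res₁ ⊓ ker res₂` (`S34.CuspRes.span_eq_ker_inf_ker`), so a prime `𝔫 ∋ q` contains
`ker res₁` or `ker res₂`; elementwise: every `b` whose `q`-expansion (resp. whose Atkin–Lehner
translate's `q`-expansion) is divisible by `q` in the content ring lies in `𝔫`.
-/
import Mathlib
import Fermat.Agent.S34.LocCusp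
import Fermat.Agent.S35.CuspGen

set_option autoImplicit false
set_option linter.unusedSectionVars false
set_option linter.style.haveILetI false

noncomputable section

namespace Fermat.Agent.S36.CuspType

open Polynomial ModularCurve AlgebraicCurve Fermat.Agent.S18 Fermat.Agent.S18.Gauss
  Fermat.Agent.S24 Fermat.Agent.S37

local notation "Qb" => AlgebraicClosure ℚ

variable (A : ValuationSubring Qb) {L : Type} [Field L] [Algebra ℚ L] (ι : L →+* Qb)
  (M q : ℕ) [NeZero M] [NeZero q]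

/-- every cusp point of level `M q` is of `∞`-type or of `0`-type (elementwise forms) -/
theorem cusp_type (hq : q.Prime) (hqM : ¬ q ∣ M) (S : Finset Qb)
    (hlev : LevelChange.IsLevel A q S ι)
    (hunr : Irreducible ((q : ℕ) : ↥(A.comap ι)))
    [Algebra (↥(A.comap ι))[X] (FF L (M * q))]
    (halg : algebraMap (↥(A.comap ι))[X] (FF L (M * q)) = evFinf (A.comap ι) (M * q))
    (B : Type*) [CommRing B] [Algebra (↥(A.comap ι))[X] B] [Algebra B (FF L (M * q))]
    [IsScalarTower (↥(A.comap ι))[X] B (FF L (M * q))]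
    [IsIntegralClosure B (↥(A.comap ι))[X] (FF L (M * q))]
    (𝔫 : Ideal B) [𝔫.IsPrime]
    (hq𝔫 : algebraMap (↥(A.comap ι))[X] B (C ((q : ℕ) : ↥(A.comap ι))) ∈ 𝔫)
    (w : FF L (M * q) ≃ₐ[L] FF L (M * q))
    (hwα : (w : FF L (M * q) →ₐ[L] FF L (M * q)).comp (heckeAlphaBar L M q) =
      heckeBetaBar L M q)
    (hwβ : (w : FF L (M * q) →ₐ[L] FF L (M * q)).comp (heckeBetaBar L M q) =
      heckeAlphaBar L M q) :
    (∀ b : B, ∀ g ∈ contentRing (A.comap ι),
      ((algebraMap B (FF L (M * q)) b : FF L (M * q)) : LaurentSeries L) =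
        HahnSeries.C ((q : ℕ) : L) * g → b ∈ 𝔫) ∨
    (∀ b : B, ∀ g ∈ contentRing (A.comap ι),
      ((w (algebraMap B (FF L (M * q)) b) : FF L (M * q)) : LaurentSeries L) =
        HahnSeries.C ((q : ℕ) : L) * g → b ∈ 𝔫) := by
  obtain ⟨-, hroots, hdvr, halgc, -, hchar, -, -⟩ := hlev
  haveI := hdvr
  haveI := hchar
  haveI : Fact q.Prime := ⟨hq⟩
  have hinj : Function.Injective (algebraMap B (FF L (M * q))) :=
    IsIntegralClosure.algebraMap_injective B (↥(A.comap ι))[X] (FF L (M * q))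
  have hint : ∀ b : B, (evFinf (A.comap ι) (M * q)).IsIntegralElem
      (algebraMap B (FF L (M * q)) b) := by
    intro b
    have h : IsIntegral (↥(A.comap ι))[X] (algebraMap B (FF L (M * q)) b) :=
      IsIntegralClosure.isIntegral_iff (A := B) |>.mpr ⟨b, rfl⟩
    have h' : (algebraMap (↥(A.comap ι))[X] (FF L (M * q))).IsIntegralElem
        (algebraMap B (FF L (M * q)) b) := h
    rwa [halg] at h'
  have hsurj : ∀ x : FF L (M * q), (evFinf (A.comap ι) (M * q)).IsIntegralElem x →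
      ∃ b : B, algebraMap B (FF L (M * q)) b = x := by
    intro x hx
    have h' : (algebraMap (↥(A.comap ι))[X] (FF L (M * q))).IsIntegralElem x := by
      rw [halg]; exact hx
    exact IsIntegralClosure.isIntegral_iff (A := B) |>.mp h'
  have hπF : algebraMap B (FF L (M * q))
      (algebraMap (↥(A.comap ι))[X] B (C ((q : ℕ) : ↥(A.comap ι)))) =
      algebraMap L (FF L (M * q)) ((((q : ℕ) : ↥(A.comap ι)) : ↥(A.comap ι)) : L) := by
    rw [← IsScalarTower.algebraMap_apply, halg, evFinf_C]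
  have hφ₁ : ∀ b, ((algebraMap B (FF L (M * q)) b : FF L (M * q)) : LaurentSeries L) ∈
      contentRing (A.comap ι) :=
    fun b => Fermat.Agent.S34.CuspRes.mem_contentRing_of_int_inf (A.comap ι) (M * q) (hint b)
  have hφ₂ : ∀ b, (((((w : FF L (M * q) →ₐ[L] FF L (M * q)) :
      FF L (M * q) →+* FF L (M * q)).comp (algebraMap B (FF L (M * q)))) b : FF L (M * q)) :
      LaurentSeries L) ∈ contentRing (A.comap ι) :=
    fun b => Fermat.Agent.S34.CuspRes.mem_contentRing_w_of_int_inf (A.comap ι) M q w hwα (hint b)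
  have hspan := Fermat.Agent.S34.CuspRes.span_eq_ker_inf_ker ι (A.comap ι) (M * q) hunr w
    (fun x hx₁ hx₂ => Fermat.Agent.S34.FinDich.v3a (A.comap ι) M q hqM w hwα hwβ x hx₁ hx₂)
    (algebraMap B (FF L (M * q))) hinj hint hsurj hφ₁ hφ₂ _ hπF
  have hle : RingHom.ker (Fermat.Agent.S34.CuspRes.res (A.comap ι) (M * q)
        (algebraMap B (FF L (M * q))) hφ₁) ⊓
      RingHom.ker (Fermat.Agent.S34.CuspRes.res (A.comap ι) (M * q)
        (((w : FF L (M * q) →ₐ[L] FF L (M * q)) : FF L (M * q) →+* FF L (M * q)).comp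
          (algebraMap B (FF L (M * q)))) hφ₂) ≤ 𝔫 := by
    rw [← hspan, Ideal.span_le]
    intro x hx
    rw [Set.mem_singleton_iff] at hx
    rw [hx]
    exact hq𝔫
  have hcast : ((((q : ℕ) : ↥(A.comap ι)) : ↥(A.comap ι)) : L) = ((q : ℕ) : L) := rfl
  rcases (Ideal.IsPrime.inf_le ‹𝔫.IsPrime›).mp hle with h | h
  · left
    intro b g hg hb
    apply h
    rw [RingHom.mem_ker, Fermat.Agent.S34.CuspRes.res_apply (A.comap ι) (M * q) _ hφ₁ b (hφ₁ b)]
    exact (red_eq_zero_iff (A.comap ι) hunr ⟨_, hφ₁ b⟩).mpr ⟨⟨g, hg⟩, by rw [hcast]; exact hb⟩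
  · right
    intro b g hg hb
    apply h
    rw [RingHom.mem_ker, Fermat.Agent.S34.CuspRes.res_apply (A.comap ι) (M * q) _ hφ₂ b (hφ₂ b)]
    exact (red_eq_zero_iff (A.comap ι) hunr ⟨_, hφ₂ b⟩).mpr ⟨⟨g, hg⟩, by rw [hcast]; exact hb⟩

end Fermat.Agent.S36.CuspType
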