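import Mathlib
import Fermat.Agent.S34.CuspEq
import Fermat.Agent.S34.CuspRes
import Fermat.Agent.S34.CuspDich
import Fermat.Agent.S36.CuspSeries

set_option autoImplicit false
set_option linter.unusedSectionVars false
set_option linter.unusedVariables false
set_option linter.style.haveILetI false

/-!
# S36, (R-cusp) (P5a): `ρ₁ = j / j(Q^q)^q ≡ 1` at the `0`-type cusp points of level `M q`

`ρ₁ := (β₁ j)⁻¹ ^ q * j₁ ∈ FF L (M q)`.  Its second expansion (`coe ∘ w`) is
`j(Q)⁻¹ ^ q * j(Q^q) ∈ 1 + q ℤ((Q))` (Frobenius congruence).  Hence at a maximal ideal `𝔫 ∋ 1/j`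
of the chart at infinity of `0`-type (elements whose second expansion is divisible by `q` lie in
`𝔫`), `ρ₁ - 1` lies in the maximal ideal of the local ring `B_𝔫`.
-/

noncomputable section

namespace Fermat.Agent.S36.CuspZero

open Polynomial ModularCurve Fermat.Agent.S18 Fermat.Agent.S18.Gauss Fermat.Agent.S24
  Fermat.Agent.S34 Fermat.Agent.S28 Fermat.Agent.S37

local notation "Qb" => AlgebraicClosure ℚ

/-! ### The Frobenius congruence -/

/-- `x(Q)^q · j(Q^q) = 1 + q · d` in `ℤ((Q))`. -/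
theorem exists_tInt_eq (q : ℕ) [NeZero q] [hq : Fact q.Prime] :
    ∃ d : LaurentSeries ℤ,
      CuspSeries.xInt ^ q * qExpand ℤ q jInt = 1 + HahnSeries.C (q : ℤ) * d := by
  obtain ⟨d, hd⟩ := CuspSeries.exists_eq_C_mul_of_coeffMap_eq_zero q
    (CuspSeries.xInt ^ q * qExpand ℤ q jInt - 1) (by
    rw [map_sub, map_mul, map_pow, map_one, Fermat.Agent.S28.coeffMap_qExpand]
    show CuspSeries.xS (ZMod q) ^ q * qExpand (ZMod q) q (jS (ZMod q)) - 1 = 0
    have h1 : qExpand (ZMod q) q (jS (ZMod q)) = jS (ZMod q) ^ q := by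
      rw [Fermat.Agent.S37.Kronecker.pow_char_eq q (jS (ZMod q)), coeffMap_jS]
    rw [h1, ← mul_pow, CuspSeries.xS_mul_jS, one_pow, sub_self])
  exact ⟨d, by rw [← hd]; ring⟩

/-- `j(Q)⁻¹ ^ q · j(Q^q) - 1 = q · g` with `g` of `W`-integral expansion. -/
theorem exists_t_sub_one {L : Type*} [Field L] [Algebra ℚ L] (W : ValuationSubring L) (q : ℕ)
    [NeZero q] [Fact q.Prime] :
    ∃ g ∈ contentRing W,
      (jS L)⁻¹ ^ q * qExpand L q (jS L) - 1 = HahnSeries.C ((q : ℕ) : L) * g := by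
  obtain ⟨d, hd⟩ := exists_tInt_eq q
  refine ⟨coeffMap (Int.castRingHom L) d, coeffMap_intCast_mem_contentRing W d, ?_⟩
  have h := congrArg (coeffMap (Int.castRingHom L)) hd
  rw [map_mul, map_pow, map_add, map_one, map_mul, Fermat.Agent.S28.coeffMap_qExpand, CuspSeries.coeffMap_C'] at h
  have h1 : coeffMap (Int.castRingHom L) CuspSeries.xInt = (jS L)⁻¹ := CuspSeries.xS_eq_inv L
  have h2 : coeffMap (Int.castRingHom L) jInt = jS L := rfl
  rw [h1, h2] at h
  rw [h]
  simp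


/-! ### The element `ρ₁` -/

section Level

variable {L : Type} [Field L] [Algebra ℚ L] (W : ValuationSubring L) (M q : ℕ) [NeZero M]
  [NeZero q] (w : FF L (M * q) ≃ₐ[L] FF L (M * q))

/-- `w j = β j` -/
theorem w_jBC
    (hwα : (w : FF L (M * q) →ₐ[L] FF L (M * q)).comp (heckeAlphaBar L M q) =
      heckeBetaBar L M q) :
    w (jBC L (M * q)) = heckeBetaBar L M q (jBC L M) := by
  rw [← CuspEq.alpha_jBC (L := L) M q]
  exact congrArg (fun f => f (jBC L M)) hwα

/-- `w (β j) = j` -/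
theorem w_beta_jBC
    (hwβ : (w : FF L (M * q) →ₐ[L] FF L (M * q)).comp (heckeBetaBar L M q) =
      heckeAlphaBar L M q) :
    w (heckeBetaBar L M q (jBC L M)) = jBC L (M * q) := by
  rw [← CuspEq.alpha_jBC (L := L) M q]
  exact congrArg (fun f => f (jBC L M)) hwβ

/-- `w` maps the chart `W[1/j]` into every valuation subring over `W` in which `1/j` is a
non-unit. -/
theorem w_evFinf_mem (hq : q.Prime)
    (hwα : (w : FF L (M * q) →ₐ[L] FF L (M * q)).comp (heckeAlphaBar L M q) =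
      heckeBetaBar L M q)
    (V : ValuationSubring (FF L (M * q)))
    (hV : ∀ a : W, algebraMap L (FF L (M * q)) (a : L) ∈ V)
    (hx : (jBC L (M * q))⁻¹ ∈ V.nonunits) (P : (↥W)[X]) :
    w (evFinf W (M * q) P) ∈ V := by
  have hβ : (heckeBetaBar L M q (jBC L M))⁻¹ ∈ V :=
    V.nonunits_subset (CuspEq.inv_beta_j_mem_nonunits W M q hq V hV hx)
  induction P using Polynomial.induction_on with
  | C a =>
    rw [evFinf_C, AlgEquiv.commutes]
    exact hV a
  | add p r hp hr =>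
    rw [map_add, map_add]
    exact V.add_mem _ _ hp hr
  | monomial n a ih =>
    rw [pow_succ, ← mul_assoc, map_mul, map_mul, evFinf_X, map_inv₀, w_jBC M q w hwα]
    exact V.mul_mem _ _ ih hβ

variable [IsDiscreteValuationRing ↥W]

/-- **`ρ₁ - 1` at a `0`-type cusp point of level `M q`**, general valuation ring `W`. -/
theorem rho_sub_one_mem_aux (hq : q.Prime)
    [Algebra (↥W)[X] (FF L (M * q))]
    (halg : algebraMap (↥W)[X] (FF L (M * q)) = evFinf W (M * q))
    (B : Type*) [CommRing B] [Algebra (↥W)[X] B] [Algebra B (FF L (M * q))]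
    [IsScalarTower (↥W)[X] B (FF L (M * q))] [IsIntegralClosure B (↥W)[X] (FF L (M * q))]
    (𝔫 : Ideal B) [h𝔫 : 𝔫.IsMaximal] (hX𝔫 : algebraMap (↥W)[X] B X ∈ 𝔫)
    (hwα : (w : FF L (M * q) →ₐ[L] FF L (M * q)).comp (heckeAlphaBar L M q) =
      heckeBetaBar L M q)
    (hwβ : (w : FF L (M * q) →ₐ[L] FF L (M * q)).comp (heckeBetaBar L M q) =
      heckeAlphaBar L M q)
    (h0 : ∀ b : B, ∀ g ∈ contentRing W,
      ((w (algebraMap B (FF L (M * q)) b) : FF L (M * q)) : LaurentSeries L) =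
        HahnSeries.C (((q : ℕ) : L)) * g → b ∈ 𝔫) :
    ∃ b s : B, s ∉ 𝔫 ∧ b ∈ 𝔫 ∧ algebraMap B (FF L (M * q)) b =
      algebraMap B (FF L (M * q)) s *
        ((heckeBetaBar L M q (jBC L M))⁻¹ ^ q * jBC L (M * q) - 1) := by
  haveI : Fact q.Prime := ⟨hq⟩
  set j₁ := jBC L (M * q) with hj₁
  set j' := heckeBetaBar L M q (jBC L M) with hj'
  set t : FF L (M * q) := j₁⁻¹ ^ q * j' with ht
  set ρ : FF L (M * q) := j'⁻¹ ^ q * j₁ with hρ
  have hwt : w t = ρ := by
    rw [ht, hρ, map_mul, map_pow, map_inv₀, w_jBC M q w hwα, w_beta_jBC M q w hwβ]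
  have hwρ : w ρ = t := by
    rw [ht, hρ, map_mul, map_pow, map_inv₀, w_jBC M q w hwα, w_beta_jBC M q w hwβ]
  -- `ρ` lies in every valuation ring centred at a cusp
  have htint : (evFinf W (M * q)).IsIntegralElem t := CuspEq.isIntegralElem_t W M q hq
  have hρint : ((w : FF L (M * q) →ₐ[L] FF L (M * q)).toRingHom.comp
      (evFinf W (M * q))).IsIntegralElem ρ := by
    have h := BetaInt.isIntegralElem_map_comp (evFinf W (M * q))
      (w : FF L (M * q) →ₐ[L] FF L (M * q)).toRingHom htint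
    have h2 : (w : FF L (M * q) →ₐ[L] FF L (M * q)).toRingHom t = ρ := hwt
    rw [h2] at h
    exact h
  have hval : ∀ V : ValuationSubring (FF L (M * q)),
      (∀ a : W, algebraMap L (FF L (M * q)) (a : L) ∈ V) →
      (jBC L (M * q))⁻¹ ∈ V.nonunits → ρ ∈ V := by
    intro V hV hx
    exact CuspEq.mem_of_isIntegralElem V _
      (fun P => w_evFinf_mem W M q w hq hwα V hV hx P) hρint
  obtain ⟨D, hD, hDint⟩ := CuspEq.exists_den_of_valuative W (M * q) ρ hval
  -- the chart elements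
  have hsurj : ∀ x : FF L (M * q), (evFinf W (M * q)).IsIntegralElem x →
      ∃ b : B, algebraMap B (FF L (M * q)) b = x := by
    intro x hx
    have h' : (algebraMap (↥W)[X] (FF L (M * q))).IsIntegralElem x := by
      rw [halg]; exact hx
    exact IsIntegralClosure.isIntegral_iff (A := B) |>.mp h'
  obtain ⟨b₀, hb₀⟩ := hsurj _ hDint
  set s : B := algebraMap (↥W)[X] B D with hs
  have hsF : algebraMap B (FF L (M * q)) s = evFinf W (M * q) D := by
    rw [hs, ← IsScalarTower.algebraMap_apply, halg]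
  have hs𝔫 : s ∉ 𝔫 := by
    intro hmem
    have h1' : s = algebraMap (↥W)[X] B D.divX * algebraMap (↥W)[X] B X + 1 := by
      rw [hs]
      conv_lhs => rw [← Polynomial.divX_mul_X_add D, hD]
      rw [map_add, map_mul, map_one, map_one]
    have h1 : (1 : B) = s - algebraMap (↥W)[X] B D.divX * algebraMap (↥W)[X] B X := by
      rw [h1']; ring
    have h2 : (1 : B) ∈ 𝔫 := by
      rw [h1]
      exact 𝔫.sub_mem hmem (𝔫.mul_mem_left _ hX𝔫)
    exact h𝔫.ne_top ((Ideal.eq_top_iff_one 𝔫).mpr h2)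
  refine ⟨b₀ - s, s, hs𝔫, ?_, ?_⟩
  · -- `b₀ - s ∈ 𝔫` by the `0`-type hypothesis
    obtain ⟨g₀, hg₀, hg₀eq⟩ := exists_t_sub_one W q
    have hwD : ((w (evFinf W (M * q) D) : FF L (M * q)) : LaurentSeries L) ∈ contentRing W :=
      CuspRes.mem_contentRing_w_of_int_inf W M q w hwα
        (RingHom.isIntegralElem_map (evFinf W (M * q)))
    refine h0 (b₀ - s) (((w (evFinf W (M * q) D) : FF L (M * q)) : LaurentSeries L) * g₀)
      ((contentRing W).mul_mem hwD hg₀) ?_
    have hcoe_t : ((t : FF L (M * q)) : LaurentSeries L) = (jS L)⁻¹ ^ q * qExpand L q (jS L) := by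
      rw [ht, hj₁, hj', jS_eq_jqModC]
      simp only [MulMemClass.coe_mul, SubmonoidClass.coe_pow, IntermediateField.coe_inv,
        coe_heckeBetaBar, coe_jBC_eq]
    have h3 : w (algebraMap B (FF L (M * q)) (b₀ - s)) = w (evFinf W (M * q) D) * (t - 1) := by
      rw [map_sub, hb₀, hsF, map_sub, map_mul, hwρ]
      ring
    rw [h3]
    have h4 : (((w (evFinf W (M * q) D) * (t - 1) : FF L (M * q)) : FF L (M * q)) :
        LaurentSeries L) = ((w (evFinf W (M * q) D) : FF L (M * q)) : LaurentSeries L) *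
          (((t : FF L (M * q)) : LaurentSeries L) - 1) := by
      simp only [MulMemClass.coe_mul, AddSubgroupClass.coe_sub, OneMemClass.coe_one]
    rw [h4, hcoe_t, hg₀eq]
    ring
  · rw [map_sub, hb₀, hsF]
    ring

end Level

/-- **(P5a)** `ρ₁ - 1 ∈ 𝔪(B_𝔫)` at a `0`-type cusp point `𝔫` of the chart at infinity of level
`M q`, at a level `(L, ι)`. -/
theorem rho_sub_one_mem (A : ValuationSubring Qb) {L : Type} [Field L] [Algebra ℚ L]
    (ι : L →+* Qb) (M q : ℕ) [NeZero M] [NeZero q] (hq : q.Prime) (hqM : ¬ q ∣ M)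
    (S : Finset Qb) (hlev : LevelChange.IsLevel A q S ι)
    (hunr : Irreducible ((q : ℕ) : ↥(A.comap ι)))
    [Algebra (↥(A.comap ι))[X] (FF L (M * q))]
    (halg : algebraMap (↥(A.comap ι))[X] (FF L (M * q)) = evFinf (A.comap ι) (M * q))
    (B : Type*) [CommRing B] [Algebra (↥(A.comap ι))[X] B] [Algebra B (FF L (M * q))]
    [IsScalarTower (↥(A.comap ι))[X] B (FF L (M * q))]
    [IsIntegralClosure B (↥(A.comap ι))[X] (FF L (M * q))]
    (𝔫 : Ideal B) [𝔫.IsMaximal] (hX𝔫 : algebraMap (↥(A.comap ι))[X] B X ∈ 𝔫)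
    (w : FF L (M * q) ≃ₐ[L] FF L (M * q))
    (hwα : (w : FF L (M * q) →ₐ[L] FF L (M * q)).comp (heckeAlphaBar L M q) =
      heckeBetaBar L M q)
    (hwβ : (w : FF L (M * q) →ₐ[L] FF L (M * q)).comp (heckeBetaBar L M q) =
      heckeAlphaBar L M q)
    (h0 : ∀ b : B, ∀ g ∈ contentRing (A.comap ι),
      ((w (algebraMap B (FF L (M * q)) b) : FF L (M * q)) : LaurentSeries L) =
        HahnSeries.C (((q : ℕ) : L)) * g → b ∈ 𝔫) :
    ∃ b s : B, s ∉ 𝔫 ∧ b ∈ 𝔫 ∧ algebraMap B (FF L (M * q)) b =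
      algebraMap B (FF L (M * q)) s *
        ((heckeBetaBar L M q (jBC L M))⁻¹ ^ q * jBC L (M * q) - 1) := by
  obtain ⟨-, -, hdvr, -, -, -, -, -⟩ := hlev
  haveI := hdvr
  exact rho_sub_one_mem_aux (A.comap ι) M q w hq halg B 𝔫 hX𝔫 hwα hwβ h0

end Fermat.Agent.S36.CuspZero
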