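import Mathlib
import Fermat.Agent.S36.CuspInf
import Fermat.Agent.S36.CuspChart
import Fermat.Agent.S36.CuspType
import Fermat.Agent.S36.CuspZero
import Fermat.Agent.S36.CuspMirror
import Fermat.Agent.S36.CuspTri
import Fermat.Agent.S36.AtkinSq
import Fermat.Agent.S36.RegDefs

/-!
# S36, contract K4 at the cusps: `RegDefs.Reg36₂ M q A`

Horizontal primes through the cusps of the special fibre of the chart `W[1/j]` of level `M q²`
(`q` prime, `q ∤ M`, unramified level) are locally principal.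

Let `𝔫 ∋ q, 1/j` be a maximal ideal of a carrier `B₂` of the chart, `𝔫₁` its contraction to the
chart of level `M q` along `α₂`.  By `CuspType.cusp_type`, `𝔫₁` is of `∞`-type or of `0`-type.

* `∞`-type: `CuspInf.k4_of_inf` (two-point lemma for `Y = j / j''` over the regular local ring
  of level `M q`).
* `0`-type: the Atkin–Lehner involution `σ = W_{q²}` (`AtkinSq`) maps `B_𝔫` onto `B_{𝔫'}` for a
  cusp point `𝔫'` (`CuspMirror.exists_mirror`), and K4 transfers from `𝔫'` to `𝔫`.  If the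
  contraction of `𝔫'` is of `∞`-type we are done by the first case.
* both of `0`-type: `ρ' = j / j'^q ≡ 1` at `𝔫` and at `𝔫'` (`CuspZero.rho_sub_one_mem`), hence
  `ρ' ≡ 1` and `σ ρ' = j'' / j'^q ≡ 1` at `𝔫`; for a valuation ring `V` dominating `B_𝔫` this
  contradicts `CuspTri.not_zero_inf'` (the modular equation between `j` and `j''`).
-/

set_option autoImplicit false
set_option linter.unusedSectionVars false
set_option linter.style.haveILetI false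
set_option linter.unusedVariables false

noncomputable section

namespace Fermat.Agent.S36.CuspReg

open Polynomial ModularCurve AlgebraicCurve IsLocalRing Fermat.Agent.S18
  Fermat.Agent.S18.Gauss Fermat.Agent.S24 Fermat.Agent.S37

local notation "Qb" => AlgebraicClosure ℚ

/-! ### Valuation rings dominating a maximal ideal -/

section Dominate

variable {K B : Type*} [Field K] [CommRing B] (φ : B →+* K)

/-- a valuation subring of `K` dominating `(B, 𝔫)` -/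
theorem exists_dominating (hφ : Function.Injective φ) (𝔫 : Ideal B) (h𝔫 : 𝔫.IsMaximal) :
    ∃ V : ValuationSubring K, (∀ b : B, φ b ∈ V) ∧ ∀ b ∈ 𝔫, φ b ∈ V.nonunits := by
  by_contra hne
  have h1 := Fermat.Agent.S34.CuspEq.mem_of_valuative φ hφ 𝔫 h𝔫 1
    (fun V h1 h2 => absurd ⟨V, h1, h2⟩ hne)
  exact h𝔫.ne_top ((Ideal.eq_top_iff_one 𝔫).mpr h1)

/-- an element of `𝔫 B_𝔫` is a non-unit of every valuation ring dominating `(B, 𝔫)` -/
theorem valuation_lt_one_of_frac (𝔫 : Ideal B) (h𝔫 : 𝔫.IsMaximal) (V : ValuationSubring K)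
    (hVB : ∀ b : B, φ b ∈ V) (hV𝔫 : ∀ b ∈ 𝔫, φ b ∈ V.nonunits) {z : K}
    (h : ∃ b s : B, s ∉ 𝔫 ∧ b ∈ 𝔫 ∧ φ b = φ s * z) : V.valuation z < 1 := by
  obtain ⟨b, s, hs, hb, hbs⟩ := h
  have hs1 : V.valuation (φ s) = 1 := by
    refine le_antisymm ((V.valuation_le_one_iff _).mpr (hVB s)) (not_lt.mp fun hlt => ?_)
    obtain ⟨c, i, hi, hci⟩ := h𝔫.exists_inv hs
    have h1 : V.valuation (φ (c * s)) < 1 := by
      rw [map_mul, map_mul]
      exact lt_of_le_of_lt (mul_le_of_le_one_left' ((V.valuation_le_one_iff _).mpr (hVB c))) hlt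
    have h2 : V.valuation (φ i) < 1 := V.mem_nonunits_iff.mp (hV𝔫 i hi)
    have h3 : V.valuation (φ (c * s) + φ i) < 1 := Valuation.map_add_lt _ h1 h2
    rw [← map_add, hci, map_one, map_one] at h3
    exact lt_irrefl _ h3
  have h1 : V.valuation (φ b) < 1 := V.mem_nonunits_iff.mp (hV𝔫 b hb)
  rwa [hbs, map_mul, hs1, one_mul] at h1

end Dominate

variable (A : ValuationSubring Qb) {L : Type} [Field L] [Algebra ℚ L] (ι : L →+* Qb)
  (M q : ℕ) [NeZero M] [NeZero q]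

set_option maxHeartbeats 1600000 in
/-- **K4 at every cusp point of level `M q²`**, on every carrier of the chart `W[1/j]`. -/
theorem k4_cusp (hq : q.Prime) (hqM : ¬ q ∣ M) (S : Finset Qb)
    (hlev : LevelChange.IsLevel A q S ι)
    (hunr : Irreducible ((q : ℕ) : ↥(A.comap ι)))
    [Algebra (↥(A.comap ι))[X] (FF L (M * q * q))]
    (halg₂ : algebraMap (↥(A.comap ι))[X] (FF L (M * q * q)) =
      evFinf (A.comap ι) (M * q * q))
    (B₂ : Type*) [CommRing B₂] [Algebra (↥(A.comap ι))[X] B₂] [Algebra B₂ (FF L (M * q * q))]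
    [IsScalarTower (↥(A.comap ι))[X] B₂ (FF L (M * q * q))]
    [IsIntegralClosure B₂ (↥(A.comap ι))[X] (FF L (M * q * q))]
    (𝔫 : Ideal B₂) [h𝔫 : 𝔫.IsMaximal]
    (hq𝔫 : algebraMap (↥(A.comap ι))[X] B₂ (C ((q : ℕ) : ↥(A.comap ι))) ∈ 𝔫)
    (hX𝔫 : algebraMap (↥(A.comap ι))[X] B₂ X ∈ 𝔫)
    (𝔮 : Ideal B₂) [h𝔮p : 𝔮.IsPrime] (h𝔮 : 𝔮 ≤ 𝔫)
    (hq𝔮 : algebraMap (↥(A.comap ι))[X] B₂ (C ((q : ℕ) : ↥(A.comap ι))) ∉ 𝔮) :
    ∃ x ∈ 𝔮, ∃ d, d ∉ 𝔫 ∧ ∀ y ∈ 𝔮, x ∣ d * y := by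
  classical
  obtain ⟨-, hroots, hdvr, hclosed, -, hchar, -, -⟩ := id hlev
  haveI := hdvr
  haveI := hclosed
  haveI := hchar
  haveI : Fact q.Prime := ⟨hq⟩
  -- the chart of level `M q` and the chart map
  letI : Algebra (↥(A.comap ι))[X] (FF L (M * q)) := (evFinf (A.comap ι) (M * q)).toAlgebra
  have halg₁ : algebraMap (↥(A.comap ι))[X] (FF L (M * q)) = evFinf (A.comap ι) (M * q) := rfl
  obtain ⟨a, ha⟩ := CuspChart.exists_alphaHom (A.comap ι) (M * q) q halg₁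
    ↥(integralClosure (↥(A.comap ι))[X] (FF L (M * q))) halg₂ B₂
  have haW := CuspInf.chartMap_algebraMap (A.comap ι) (M * q) q halg₁
    ↥(integralClosure (↥(A.comap ι))[X] (FF L (M * q))) halg₂ B₂ a ha
  have hmax : ∀ 𝔪 : Ideal B₂, 𝔪.IsMaximal → (𝔪.comap a).IsMaximal := fun 𝔪 h𝔪 =>
    haveI := h𝔪
    CuspInf.chartMap_comap_isMaximal (A.comap ι) (M * q) q halg₁
      ↥(integralClosure (↥(A.comap ι))[X] (FF L (M * q))) halg₂ B₂ a ha 𝔪
  -- the two Atkin–Lehner involutions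
  obtain ⟨w, hwα, hwβ⟩ := Fermat.Agent.S34.FrobPartner.exists_atkinLehner_level ι M q hq hqM
  obtain ⟨σ, hσσ, hσ1, -, -, hσ4⟩ := AtkinSq.exists_atkinLehnerSq_of_bar ι M q hq hqM
  obtain ⟨hσα, -⟩ := hσ4 w hwα hwβ
  have hσx : σ (jBC L (M * q * q))⁻¹ =
      (heckeBetaBar L (M * q) q (heckeBetaBar L M q (jBC L M)))⁻¹ := by
    rw [map_inv₀, ← GenSq.alpha_alpha_jBC, hσ1]
  -- the type of a cusp point
  have htype : ∀ 𝔪 : Ideal B₂, 𝔪.IsMaximal →
      algebraMap (↥(A.comap ι))[X] B₂ (C ((q : ℕ) : ↥(A.comap ι))) ∈ 𝔪 →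
      (∀ b : ↥(integralClosure (↥(A.comap ι))[X] (FF L (M * q))), ∀ g ∈ contentRing (A.comap ι),
        ((algebraMap ↥(integralClosure (↥(A.comap ι))[X] (FF L (M * q))) (FF L (M * q)) b :
          FF L (M * q)) : LaurentSeries L) = HahnSeries.C ((q : ℕ) : L) * g → a b ∈ 𝔪) ∨
      (∀ b : ↥(integralClosure (↥(A.comap ι))[X] (FF L (M * q))), ∀ g ∈ contentRing (A.comap ι),
        ((w (algebraMap ↥(integralClosure (↥(A.comap ι))[X] (FF L (M * q))) (FF L (M * q)) b) :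
          FF L (M * q)) : LaurentSeries L) = HahnSeries.C ((q : ℕ) : L) * g → a b ∈ 𝔪) := by
    intro 𝔪 h𝔪 hq𝔪
    haveI := h𝔪
    have hq𝔪₁ : algebraMap (↥(A.comap ι))[X] ↥(integralClosure (↥(A.comap ι))[X] (FF L (M * q)))
        (C ((q : ℕ) : ↥(A.comap ι))) ∈ 𝔪.comap a := by
      rw [Ideal.mem_comap, haW]; exact hq𝔪
    exact CuspType.cusp_type A ι M q hq hqM S hlev hunr halg₁
      ↥(integralClosure (↥(A.comap ι))[X] (FF L (M * q))) (𝔪.comap a) hq𝔪₁ w hwα hwβ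
  -- `ρ' - 1 ∈ 𝔪 B_𝔪` at a cusp point `𝔪` whose contraction is of `0`-type
  have hrho : ∀ 𝔪 : Ideal B₂, 𝔪.IsMaximal → algebraMap (↥(A.comap ι))[X] B₂ X ∈ 𝔪 →
      (∀ b : ↥(integralClosure (↥(A.comap ι))[X] (FF L (M * q))), ∀ g ∈ contentRing (A.comap ι),
        ((w (algebraMap ↥(integralClosure (↥(A.comap ι))[X] (FF L (M * q))) (FF L (M * q)) b) :
          FF L (M * q)) : LaurentSeries L) = HahnSeries.C ((q : ℕ) : L) * g → a b ∈ 𝔪) →
      ∃ b s : B₂, s ∉ 𝔪 ∧ b ∈ 𝔪 ∧ algebraMap B₂ (FF L (M * q * q)) b =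
        algebraMap B₂ (FF L (M * q * q)) s *
          ((heckeAlphaBar L (M * q) q (heckeBetaBar L M q (jBC L M)))⁻¹ ^ q *
            jBC L (M * q * q) - 1) := by
    intro 𝔪 h𝔪 hX𝔪 h0
    haveI := hmax 𝔪 h𝔪
    have hX𝔪₁ : algebraMap (↥(A.comap ι))[X] ↥(integralClosure (↥(A.comap ι))[X] (FF L (M * q)))
        X ∈ 𝔪.comap a := by
      rw [Ideal.mem_comap, haW]; exact hX𝔪
    obtain ⟨b, s, hs, hb, hbs⟩ := CuspZero.rho_sub_one_mem A ι M q hq hqM S hlev hunr halg₁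
      ↥(integralClosure (↥(A.comap ι))[X] (FF L (M * q))) (𝔪.comap a) hX𝔪₁ w hwα hwβ h0
    refine ⟨a b, a s, hs, hb, ?_⟩
    rw [ha, ha, hbs, map_mul, map_sub, map_mul, map_pow, map_inv₀, map_one, GenSq.alpha_jBC]
  rcases htype 𝔫 h𝔫 hq𝔫 with hC | h0
  · exact CuspInf.k4_of_inf A ι M q hq hqM S hlev hunr halg₁
      ↥(integralClosure (↥(A.comap ι))[X] (FF L (M * q))) halg₂ B₂ a ha 𝔫 hq𝔫 hX𝔫 hC 𝔮 h𝔮 hq𝔮
  · -- the mirror point
    obtain ⟨𝔫', h𝔫', hX𝔫', hconst, hmem, hK4⟩ := CuspMirror.exists_mirror (A.comap ι) M q hq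
      halg₂ B₂ σ hσσ hσx 𝔫 hX𝔫
    haveI := h𝔫'
    have hq𝔫' := hconst _ hq𝔫
    rcases htype 𝔫' h𝔫' hq𝔫' with hC' | h0'
    · exact hK4 ((q : ℕ) : ↥(A.comap ι)) (fun 𝔮' h𝔮'p h𝔮' hq𝔮' =>
        haveI := h𝔮'p
        CuspInf.k4_of_inf A ι M q hq hqM S hlev hunr halg₁
          ↥(integralClosure (↥(A.comap ι))[X] (FF L (M * q))) halg₂ B₂ a ha 𝔫' hq𝔫' hX𝔫' hC'
          𝔮' h𝔮' hq𝔮') 𝔮 h𝔮p h𝔮 hq𝔮
    · exfalso
      have hinj₂ : Function.Injective (algebraMap B₂ (FF L (M * q * q))) :=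
        IsIntegralClosure.algebraMap_injective B₂ (↥(A.comap ι))[X] (FF L (M * q * q))
      have h1 := hrho 𝔫 h𝔫 hX𝔫 h0
      have h2 := hmem _ (hrho 𝔫' h𝔫' hX𝔫' h0')
      -- `σ ρ' = τ`
      have hστ : σ ((heckeAlphaBar L (M * q) q (heckeBetaBar L M q (jBC L M)))⁻¹ ^ q *
          jBC L (M * q * q) - 1) =
          (heckeAlphaBar L (M * q) q (heckeBetaBar L M q (jBC L M)))⁻¹ ^ q *
            heckeBetaBar L (M * q) q (heckeBetaBar L M q (jBC L M)) - 1 := by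
        have e1 : (heckeAlphaBar L (M * q) q (heckeBetaBar L M q (jBC L M)))⁻¹ ^ q *
            jBC L (M * q * q) = heckeAlphaBar L (M * q) q
              ((heckeBetaBar L M q (jBC L M))⁻¹ ^ q * jBC L (M * q)) := by
          rw [map_mul, map_pow, map_inv₀, GenSq.alpha_jBC]
        rw [map_sub, map_one, e1, hσα, map_mul, map_pow, map_inv₀,
          CuspZero.w_beta_jBC M q w hwβ, CuspZero.w_jBC M q w hwα, map_mul, map_pow, map_inv₀,
          ← GenSq.alpha_jBC (L := L) M q, AtkinSq.beta_alpha_eq_alpha_beta]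
      rw [hστ] at h2
      -- a dominating valuation ring
      obtain ⟨V, hVB, hV𝔫⟩ := exists_dominating (algebraMap B₂ (FF L (M * q * q))) hinj₂ 𝔫 h𝔫
      have hv1 := valuation_lt_one_of_frac (algebraMap B₂ (FF L (M * q * q))) 𝔫 h𝔫 V hVB hV𝔫 h1
      have hv2 := valuation_lt_one_of_frac (algebraMap B₂ (FF L (M * q * q))) 𝔫 h𝔫 V hVB hV𝔫 h2
      have hqV : ((q : ℕ) : FF L (M * q * q)) ∈ V.nonunits := by
        have h3 := hV𝔫 _ hq𝔫
        rw [← IsScalarTower.algebraMap_apply, halg₂, evFinf_C] at h3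
        simpa using h3
      have hxV : (jBC L (M * q * q))⁻¹ ∈ V.nonunits := by
        have h3 := hV𝔫 _ hX𝔫
        rwa [← IsScalarTower.algebraMap_apply, halg₂, evFinf_X] at h3
      -- abbreviations
      set J' : FF L (M * q * q) := heckeAlphaBar L (M * q) q (heckeBetaBar L M q (jBC L M))
        with hJ'
      set J'' : FF L (M * q * q) := heckeBetaBar L (M * q) q (heckeBetaBar L M q (jBC L M))
        with hJ''
      have hj0 : jBC L (M * q * q) ≠ 0 := Fermat.Agent.S34.CuspEq.jBC_ne_zero (M * q * q)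
      have hρ1 : V.valuation (J'⁻¹ ^ q * jBC L (M * q * q)) = 1 := by
        have h3 := Valuation.map_one_add_of_lt (v := V.valuation) hv1
        rwa [add_sub_cancel] at h3
      have hJ'0 : J' ≠ 0 := by
        intro h0'
        rw [h0', inv_zero, zero_pow hq.ne_zero, zero_mul, map_zero] at hρ1
        exact zero_ne_one hρ1
      refine CuspTri.not_zero_inf' ι M q hq V hqV hxV ?_ ?_
      · rw [← V.valuation_le_one_iff]
        have e2 : J' ^ q / jBC L (M * q * q) = (J'⁻¹ ^ q * jBC L (M * q * q))⁻¹ := by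
          rw [inv_pow, mul_inv, inv_inv, div_eq_mul_inv]
        rw [e2, map_inv₀, hρ1, inv_one]
      · rw [V.mem_nonunits_iff]
        have e3 : J'' / jBC L (M * q * q) - 1 =
            ((J'⁻¹ ^ q * J'' - 1) - (J'⁻¹ ^ q * jBC L (M * q * q) - 1)) *
              (J'⁻¹ ^ q * jBC L (M * q * q))⁻¹ := by
          field_simp
          ring
        rw [e3, map_mul, map_inv₀, hρ1, inv_one, mul_one]
        exact Valuation.map_sub_lt _ hv2 hv1

/-- **Contract K4 at the cusps** (`RegDefs.Reg36₂`) for `q` prime, `q ∤ M`. -/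
theorem reg36₂ (hq : q.Prime) (hqM : ¬ q ∣ M) (A : ValuationSubring Qb) :
    RegDefs.Reg36₂ M q A :=
  CuspChart.reg36₂_of_carrier M q A
    (fun L _ _ ι hlev hunr _ halg B _ _ _ _ _ 𝔫 h𝔫 hq𝔫 hX𝔫 𝔮 h𝔮p h𝔮 hq𝔮 =>
      haveI := h𝔫
      haveI := h𝔮p
      k4_cusp A ι M q hq hqM ∅ hlev hunr halg B 𝔫 hq𝔫 hX𝔫 𝔮 h𝔮 hq𝔮)

end Fermat.Agent.S36.CuspReg
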