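import Mathlib
import Fermat.Agent.Common.Frobenius

/-!
# S36, (DESC): transitivity of closed subgroups of `G_ℚ` on valuation rings of `ℚ̄`

`exists_fixing_map_iff` : if two valuation subrings `A`, `A'` of `ℚ̄` over `ℓ` have the same
intersection with an intermediate field `E`, some `ρ ∈ Gal(ℚ̄/E)` maps `A` onto `A'`.
-/

set_option autoImplicit false

open scoped Pointwise

namespace Fermat.Agent.S36.UnramTrans

open Fermat.Agent.Common

noncomputable section

local notation "Qb" => AlgebraicClosure ℚ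
local notation "GQ" => (AlgebraicClosure ℚ ≃ₐ[ℚ] AlgebraicClosure ℚ)

/-- `primeOf A' = g • primeOf A` transports membership in the valuation rings. -/
theorem map_mem_of_primeOf_eq (A A' : ValuationSubring Qb) {ℓ : ℕ} (hℓ : ℓ.Prime)
    (hA : A.LiesOverPrime ℓ) (g : GQ) (h : primeOf A' = g • primeOf A) {x : Qb} (hx : x ∈ A) :
    g x ∈ A' := by
  obtain ⟨b, s, hs, hxs⟩ := exists_mul_eq A ℓ hℓ hA hx
  have hgs_int : IsIntegral ℤ (g (s : Qb)) := s.2.map (g : Qb →ₐ[ℚ] Qb).toRingHom.toIntAlgHom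
  have hgb_int : IsIntegral ℤ (g (b : Qb)) := b.2.map (g : Qb →ₐ[ℚ] Qb).toRingHom.toIntAlgHom
  have hs' : s ∉ primeOf A := by
    rw [mem_primeOf, hs]
    exact lt_irrefl _
  have hgs' : g • s ∉ primeOf A' := by
    rw [h, Ideal.smul_mem_pointwise_smul_iff]
    exact hs'
  have hgs1 : A'.valuation (g (s : Qb)) = 1 := by
    refine le_antisymm (valuation_le_one_of_isIntegral A' hgs_int) ?_
    by_contra hcon
    exact hgs' ((mem_primeOf A').mpr (not_le.mp hcon))
  have h1 : g x * g (s : Qb) = g (b : Qb) := by rw [← map_mul, hxs]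
  have h2 := congrArg A'.valuation h1
  rw [map_mul, hgs1, mul_one] at h2
  rw [← A'.valuation_le_one_iff, h2]
  exact valuation_le_one_of_isIntegral A' hgb_int

/-- Nonunits of a valuation subring, via membership of the inverse. -/
theorem mem_nonunits_iff_inv (A : ValuationSubring Qb) {z : Qb} (hz : z ≠ 0) :
    z ∈ A.nonunits ↔ z⁻¹ ∉ A := by
  rw [A.mem_nonunits_iff, ← A.valuation_le_one_iff, map_inv₀, not_le]
  have h0 : A.valuation z ≠ 0 := (Valuation.ne_zero_iff _).mpr hz
  constructor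
  · intro h
    exact (one_lt_inv₀ (zero_lt_iff.mpr h0)).mpr h
  · intro h
    exact (one_lt_inv₀ (zero_lt_iff.mpr h0)).mp h

section Trans

variable (E : IntermediateField ℚ Qb)

instance smulCommClass_fixed :
    SMulCommClass ↥E.fixingSubgroup ↥(FixedPoints.subalgebra ℤ Zb ↥E.fixingSubgroup) Zb :=
  ⟨fun g a b => by
    show g • ((a : Zb) * b) = (a : Zb) * g • b
    rw [smul_mul', a.2 g]⟩

instance isInvariant_fixed :
    Algebra.IsInvariant ↥(FixedPoints.subalgebra ℤ Zb ↥E.fixingSubgroup) Zb ↥E.fixingSubgroup :=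
  ⟨fun b hb => ⟨⟨b, hb⟩, rfl⟩⟩

/-- **Transitivity.**  If two valuation subrings of `ℚ̄` over `ℓ` have the same intersection
with `E`, some element of `Gal(ℚ̄/E)` maps the first onto the second. -/
theorem exists_fixing_map_iff (A A' : ValuationSubring Qb) {ℓ : ℕ} (hℓ : ℓ.Prime)
    (hA : A.LiesOverPrime ℓ) (hA' : A'.LiesOverPrime ℓ) (h : ∀ z ∈ E, z ∈ A ↔ z ∈ A') :
    ∃ ρ : GQ, ρ ∈ E.fixingSubgroup ∧ ∀ x : Qb, x ∈ A ↔ ρ x ∈ A' := by
  have hGal := isGalois_Qb
  have hInt := isIntegral_Qb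
  have hP := primeOf_isPrime A
  have hQ := primeOf_isPrime A'
  let _ : TopologicalSpace Zb := ⊥
  have : DiscreteTopology Zb := ⟨rfl⟩
  have hcl : IsClosed (E.fixingSubgroup : Set GQ) := InfiniteGalois.fixingSubgroup_isClosed E
  have : CompactSpace ↥E.fixingSubgroup := isCompact_iff_compactSpace.mp hcl.isCompact
  have : ContinuousSMul ↥E.fixingSubgroup Zb := by
    refine continuousSMul_iff_stabilizer_isOpen.mpr fun b => ?_
    have h1 : (MulAction.stabilizer ↥E.fixingSubgroup b : Set ↥E.fixingSubgroup) =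
        Subtype.val ⁻¹' (MulAction.stabilizer GQ b : Set GQ) := by
      ext g
      simp only [SetLike.mem_coe, MulAction.mem_stabilizer_iff, Set.mem_preimage]
      rfl
    rw [h1]
    exact (stabilizer_Zb_isOpen b).preimage continuous_subtype_val
  have hunder : (primeOf A).under ↥(FixedPoints.subalgebra ℤ Zb ↥E.fixingSubgroup) =
      (primeOf A').under ↥(FixedPoints.subalgebra ℤ Zb ↥E.fixingSubgroup) := by
    ext a
    rw [Ideal.mem_comap, Ideal.mem_comap]
    show (a : Zb) ∈ primeOf A ↔ (a : Zb) ∈ primeOf A'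
    rw [mem_primeOf, mem_primeOf]
    have haE : (((a : Zb) : Qb)) ∈ E := by
      have hmem : (((a : Zb) : Qb)) ∈ IntermediateField.fixedField E.fixingSubgroup := by
        rw [IntermediateField.mem_fixedField_iff]
        intro f hf
        exact congrArg Subtype.val (a.2 ⟨f, hf⟩)
      rwa [InfiniteGalois.fixedField_fixingSubgroup E] at hmem
    by_cases h0 : (((a : Zb) : Qb)) = 0
    · rw [h0]; simp
    · rw [← A.mem_nonunits_iff, ← A'.mem_nonunits_iff, mem_nonunits_iff_inv A h0,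
        mem_nonunits_iff_inv A' h0, h _ (E.inv_mem haE)]
  obtain ⟨g, hg⟩ := Algebra.IsInvariant.exists_smul_of_under_eq_of_profinite
    (A := ↥(FixedPoints.subalgebra ℤ Zb ↥E.fixingSubgroup)) (G := ↥E.fixingSubgroup)
    (primeOf A) (primeOf A') hunder
  have hg' : primeOf A' = (g : GQ) • primeOf A := hg
  refine ⟨g, g.2, fun x => ⟨fun hx => map_mem_of_primeOf_eq A A' hℓ hA g hg' hx, fun hx => ?_⟩⟩
  have hg'' : primeOf A = (g : GQ)⁻¹ • primeOf A' := by
    rw [hg', inv_smul_smul]
  have h2 := map_mem_of_primeOf_eq A' A hℓ hA' (g : GQ)⁻¹ hg'' hx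
  have h3 : (g : GQ)⁻¹ ((g : GQ) x) = x := (g : GQ).symm_apply_apply x
  rwa [h3] at h2

end Trans

end

end Fermat.Agent.S36.UnramTrans
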