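import Mathlib
import Fermat.Agent.S36.UnramTrans
import Fermat.Agent.S18.BaseDVR
import Fermat.Agent.S18.BaseDVRCore
import Fermat.Agent.S34.GalLevel
import Fermat.Agent.S37.GaloisValue

/-!
# S36, (DESC): the inertia field is unramified

`ord_of_inertia_fixed` : an element of `ℚ̄` fixed by the inertia group of a valuation subring
`A` over `ℓ` has order in `ℤ • ord ℓ`.

Proof.  `C = ℚ(μ_n : ℓ ∤ n)` has the full residue field of `A`, so the inertia group is the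
decomposition group of `A` over `C`.  By transitivity of `Gal(ℚ̄/C(x))` on the valuation rings
above a given one, every `C`-conjugate `x' ≠ x` of an inertia-fixed `x` induces a valuation on
`C(x)` different from the one of `A`; a partition-of-unity element `y ∈ C(x)` (`≈ 1` at `A`,
`≈ 0` at the other conjugate valuations) then makes the `C`-trace of `y x` an element of `C`
arbitrarily close to `x`, and `C` is unramified (`S18.BaseDVR.ord_cycloField`).
-/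

set_option autoImplicit false
set_option linter.unusedSectionVars false
set_option linter.unusedVariables false

namespace Fermat.Agent.S36.UnramOrd

open Fermat.Agent.S05 Fermat.Agent.S05.OrdData Fermat.Agent.S13 Fermat.Agent.S18
open Fermat.Agent.Common Fermat.Agent.S37.GaloisValue

noncomputable section

local notation "Qb" => AlgebraicClosure ℚ
local notation "GQ" => (AlgebraicClosure ℚ ≃ₐ[ℚ] AlgebraicClosure ℚ)

/-! ### Ordered-group bookkeeping -/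

section Grp

variable {G : Type*} [AddCommGroup G] [LinearOrder G] [IsOrderedAddMonoid G]

theorem aux_lt_neg {a b w : G} (K : ℕ) (h : a + b < K • (-w)) : b + K • w < -a := by
  rw [smul_neg] at h
  have h2 : a + b + (K • w - a) < -(K • w) + (K • w - a) := by gcongr
  have e1 : a + b + (K • w - a) = b + K • w := by abel
  have e2 : -(K • w) + (K • w - a) = -a := by abel
  rwa [e1, e2] at h2

theorem aux_nsmul_mono {g : G} (hg : 0 ≤ g) {m n : ℕ} (h : m ≤ n) : m • g ≤ n • g :=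
  nsmul_le_nsmul_left hg h

end Grp

/-! ### `Ge` for finite sums and products -/

section GeFin

variable {K : Type*} [Field K] {G : Type*} [AddCommGroup G] [LinearOrder G]
  [IsOrderedAddMonoid G] (V : OrdData K G)

theorem ge_sum {ι : Type*} (s : Finset ι) (f : ι → K) {g : G} (h : ∀ i ∈ s, V.Ge (f i) g) :
    V.Ge (∑ i ∈ s, f i) g := by
  classical
  induction s using Finset.induction_on with
  | empty => simpa using Ge.zero (V := V) g
  | insert a s ha ih =>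
    rw [Finset.sum_insert ha]
    exact (h a (Finset.mem_insert_self a s)).add
      (ih fun i hi => h i (Finset.mem_insert_of_mem hi))

theorem ge_prod_zero {ι : Type*} (s : Finset ι) (f : ι → K) (h : ∀ i ∈ s, V.Ge (f i) 0) :
    V.Ge (∏ i ∈ s, f i) 0 := by
  classical
  induction s using Finset.induction_on with
  | empty => simpa using Ge.one (V := V)
  | insert a s ha ih =>
    rw [Finset.prod_insert ha]
    exact (h a (Finset.mem_insert_self a s)).mul0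
      (ih fun i hi => h i (Finset.mem_insert_of_mem hi))

theorem ge_prod_of_mem {ι : Type*} [DecidableEq ι] (s : Finset ι) (f : ι → K) {g : G}
    (h : ∀ i ∈ s, V.Ge (f i) 0) {a : ι} (ha : a ∈ s) (hg : V.Ge (f a) g) :
    V.Ge (∏ i ∈ s, f i) g := by
  rw [← Finset.mul_prod_erase s f ha]
  exact hg.mul_right0 (ge_prod_zero V _ f fun i hi => h i (Finset.mem_of_mem_erase hi))

theorem ge_of_sub_one {x : K} {g : G} (hg : 0 ≤ g) (h : V.Ge (x - 1) g) : V.Ge x 0 := by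
  have h1 : x = (x - 1) + 1 := by ring
  rw [h1]
  exact (h.mono hg).add Ge.one

theorem ge_prod_sub_one {ι : Type*} (s : Finset ι) (f : ι → K) {g : G} (hg : 0 ≤ g)
    (h : ∀ i ∈ s, V.Ge (f i - 1) g) : V.Ge (∏ i ∈ s, f i - 1) g := by
  classical
  induction s using Finset.induction_on with
  | empty => simpa using Ge.zero (V := V) g
  | insert a s ha ih =>
    rw [Finset.prod_insert ha]
    have h1 : f a * ∏ i ∈ s, f i - 1 = f a * (∏ i ∈ s, f i - 1) + (f a - 1) := by ring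
    rw [h1]
    have ha' := h a (Finset.mem_insert_self a s)
    exact ((ge_of_sub_one V hg ha').mul_left0
      (ih fun i hi => h i (Finset.mem_insert_of_mem hi))).add ha'

end GeFin

variable (A : ValuationSubring Qb) {ℓ : ℕ}

/-! ### Inertia = decomposition group over the cyclotomic field -/

theorem map_nonunits_iff {σ : GQ} (hσ : ∀ x : Qb, x ∈ A ↔ σ x ∈ A) (x : Qb) :
    x ∈ A.nonunits ↔ σ x ∈ A.nonunits := by
  by_cases h0 : x = 0
  · subst h0
    simp [A.mem_nonunits_iff]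
  · have h0' : σ x ≠ 0 := by simpa using h0
    rw [UnramTrans.mem_nonunits_iff_inv A h0, UnramTrans.mem_nonunits_iff_inv A h0', ← map_inv₀,
      ← hσ]

/-- An element of the decomposition group of `A` fixing `ℚ(μ_n : ℓ ∤ n)` is in the inertia
group. -/
theorem mem_inertia_of_fix_cyclo (hℓ : ℓ.Prime) (hA : A.LiesOverPrime ℓ) {σ : GQ}
    (hσC : σ ∈ (BaseDVR.cycloField ℓ).fixingSubgroup) (hσ : ∀ x : Qb, x ∈ A ↔ σ x ∈ A) :
    σ ∈ A.inertiaSubgroupIn ℚ := by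
  rw [mem_inertiaSubgroupIn_iff_valuation]
  refine ⟨hσ, fun x hx => ?_⟩
  obtain ⟨b, hbC, hbA, hxb⟩ := BaseDVR.exists_cyclo_congr A hℓ hA x hx
  have hσb : σ b = b := (IntermediateField.mem_fixingSubgroup_iff _ _).mp hσC b hbC
  have h1 : σ x - x = σ (x - b) - (x - b) := by rw [map_sub, hσb]; ring
  have h2 : A.valuation (x - b) < 1 := A.mem_nonunits_iff.mp hxb
  have h3 : A.valuation (σ (x - b)) < 1 :=
    A.mem_nonunits_iff.mp ((map_nonunits_iff A hσ _).mp hxb)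
  rw [h1]
  exact lt_of_le_of_lt (A.valuation.map_sub _ _) (max_lt h3 h2)

/-! ### The field `C(x)` -/

/-- The field `ℚ(μ_n (ℓ ∤ n), x)`. -/
def fld (ℓ : ℕ) (x : Qb) : IntermediateField ℚ Qb :=
  BaseDVR.cycloField ℓ ⊔ IntermediateField.adjoin ℚ {x}

theorem self_mem_fld (ℓ : ℕ) (x : Qb) : x ∈ fld ℓ x :=
  (le_sup_right : IntermediateField.adjoin ℚ {x} ≤ fld ℓ x)
    (IntermediateField.mem_adjoin_simple_self ℚ x)

theorem fix_fld {x : Qb} {ρ : GQ} (hρC : ρ ∈ (BaseDVR.cycloField ℓ).fixingSubgroup)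
    (hρx : ρ x = x) : ρ ∈ (fld ℓ x).fixingSubgroup := by
  rw [fld, IntermediateField.fixingSubgroup_sup]
  refine Subgroup.mem_inf.mpr ⟨hρC, ?_⟩
  rw [IntermediateField.mem_fixingSubgroup_iff]
  intro y hy
  induction hy using IntermediateField.adjoin_induction with
  | mem y hy =>
    rw [Set.mem_singleton_iff] at hy
    rw [hy]
    exact hρx
  | algebraMap r => exact ρ.commutes r
  | add y z _ _ hy hz => rw [map_add, hy, hz]
  | inv y _ hy => rw [map_inv₀, hy]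
  | mul y z _ _ hy hz => rw [map_mul, hy, hz]

theorem fld_fixing_le (x : Qb) :
    (fld ℓ x).fixingSubgroup ≤ (BaseDVR.cycloField ℓ).fixingSubgroup :=
  IntermediateField.fixingSubgroup_antitone le_sup_left

/-- A `C`-conjugate `σ x ≠ x` of an inertia-fixed element induces another valuation on
`C(x)`. -/
theorem exists_not_iff (hℓ : ℓ.Prime) (hA : A.LiesOverPrime ℓ) {x : Qb}
    (hx : ∀ τ ∈ A.inertiaSubgroupIn ℚ, τ x = x) {σ : GQ}
    (hσC : σ ∈ (BaseDVR.cycloField ℓ).fixingSubgroup) (hσx : σ x ≠ x) :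
    ∃ z ∈ fld ℓ x, ¬ (z ∈ A ↔ σ z ∈ A) := by
  by_contra hcon
  push Not at hcon
  let A' : ValuationSubring Qb := A.comap (σ : Qb →+* Qb)
  have hℓ0 : (ℓ : Qb) ≠ 0 := Nat.cast_ne_zero.mpr hℓ.ne_zero
  have hA' : A'.LiesOverPrime ℓ := by
    show (ℓ : Qb) ∈ A'.nonunits
    rw [UnramTrans.mem_nonunits_iff_inv A' hℓ0]
    have h1 : (ℓ : Qb)⁻¹ ∉ A := (UnramTrans.mem_nonunits_iff_inv A hℓ0).mp hA
    intro h2
    apply h1
    have h3 : σ ((ℓ : Qb)⁻¹) ∈ A := h2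
    rwa [map_inv₀, map_natCast] at h3
  obtain ⟨ρ, hρ, hmap⟩ := UnramTrans.exists_fixing_map_iff (fld ℓ x) A A' hℓ hA hA'
    (fun z hz => hcon z hz)
  have hτ : σ * ρ ∈ A.inertiaSubgroupIn ℚ :=
    mem_inertia_of_fix_cyclo A hℓ hA (mul_mem hσC (fld_fixing_le x hρ)) (fun y => hmap y)
  have h1 : σ (ρ x) = x := hx _ hτ
  have h2 : ρ x = x := (IntermediateField.mem_fixingSubgroup_iff _ _).mp hρ x (self_mem_fld ℓ x)
  rw [h2] at h1
  exact hσx h1

/-! ### Separators -/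

theorem not_mem_iff_ord_neg (z : Qb) : z ∉ A ↔ z ≠ 0 ∧ (ordOfSubring A).ord z < 0 := by
  rw [← ordOfSubring_ge_iff]
  unfold OrdData.Ge
  rw [not_or, not_le]

theorem ord_nonneg_of_mem {z : Qb} (hz : z ∈ A) (hz0 : z ≠ 0) : 0 ≤ (ordOfSubring A).ord z :=
  ((ordOfSubring_ge_iff A z).mpr hz).le hz0

theorem exists_sep (hℓ : ℓ.Prime) (hA : A.LiesOverPrime ℓ) {x : Qb}
    (hx : ∀ τ ∈ A.inertiaSubgroupIn ℚ, τ x = x) {σ : GQ}
    (hσC : σ ∈ (BaseDVR.cycloField ℓ).fixingSubgroup) (hσx : σ x ≠ x) :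
    ∃ u ∈ fld ℓ x, u ≠ 0 ∧ 0 < (ordOfSubring A).ord u ∧ (ordOfSubring A).ord (σ u) < 0 := by
  obtain ⟨z, hzE, hz⟩ := exists_not_iff A hℓ hA hx hσC hσx
  obtain ⟨hℓ0, hℓpos⟩ := Fermat.Agent.S13.ord_prime_pos A ℓ hℓ hA
  have hℓE : (ℓ : Qb) ∈ fld ℓ x := natCast_mem _ ℓ
  by_cases hzA : z ∈ A
  · have hσz : σ z ∉ A := fun h => hz ⟨fun _ => h, fun _ => hzA⟩
    obtain ⟨hσz0, hσzneg⟩ := (not_mem_iff_ord_neg A _).mp hσz
    have hz0 : z ≠ 0 := fun h => hσz0 (by rw [h, map_zero])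
    have hzge := ord_nonneg_of_mem A hzA hz0
    have hinvpos : 0 < (ordOfSubring A).ord (σ z)⁻¹ := by
      rw [(ordOfSubring A).ord_inv hσz0]; exact neg_pos.mpr hσzneg
    obtain ⟨k, hk⟩ := BaseDVRCore.exists_ord_lt_nsmul A hℓ hA (ℓ : Qb) (σ z)⁻¹ hℓ0
      (inv_ne_zero hσz0) hinvpos
    refine ⟨ℓ * z ^ k, mul_mem hℓE (pow_mem hzE k), mul_ne_zero hℓ0 (pow_ne_zero k hz0), ?_, ?_⟩
    · rw [(ordOfSubring A).ord_mul _ _ hℓ0 (pow_ne_zero k hz0), (ordOfSubring A).ord_pow hz0]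
      exact add_pos_of_pos_of_nonneg hℓpos (nsmul_nonneg hzge k)
    · rw [map_mul, map_pow, map_natCast,
        (ordOfSubring A).ord_mul _ _ hℓ0 (pow_ne_zero k hσz0), (ordOfSubring A).ord_pow hσz0]
      rw [(ordOfSubring A).ord_inv hσz0, natCast_zsmul, smul_neg] at hk
      exact lt_neg_iff_add_neg.mp hk
  · obtain ⟨hz0, hzneg⟩ := (not_mem_iff_ord_neg A _).mp hzA
    have hσzA : σ z ∈ A := by
      by_contra h
      exact hz ⟨fun h' => absurd h' hzA, fun h' => absurd h' h⟩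
    have hσz0 : σ z ≠ 0 := by simpa using hz0
    have hσzge := ord_nonneg_of_mem A hσzA hσz0
    have hinvpos : 0 < (ordOfSubring A).ord z⁻¹ := by
      rw [(ordOfSubring A).ord_inv hz0]; exact neg_pos.mpr hzneg
    obtain ⟨k, hk⟩ := BaseDVRCore.exists_ord_lt_nsmul A hℓ hA (ℓ : Qb) z⁻¹ hℓ0
      (inv_ne_zero hz0) hinvpos
    refine ⟨z⁻¹ ^ k / ℓ, div_mem (pow_mem (inv_mem hzE) k) hℓE,
      div_ne_zero (pow_ne_zero k (inv_ne_zero hz0)) hℓ0, ?_, ?_⟩
    · rw [(ordOfSubring A).ord_div (pow_ne_zero _ (inv_ne_zero hz0)) hℓ0,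
        (ordOfSubring A).ord_pow (inv_ne_zero hz0), ← natCast_zsmul]
      exact sub_pos.mpr hk
    · rw [map_div₀, map_pow, map_inv₀, map_natCast,
        (ordOfSubring A).ord_div (pow_ne_zero _ (inv_ne_zero hσz0)) hℓ0,
        (ordOfSubring A).ord_pow (inv_ne_zero hσz0), (ordOfSubring A).ord_inv hσz0]
      have h1 : k • (-((ordOfSubring A).ord (σ z))) ≤ 0 :=
        nsmul_nonpos (neg_nonpos.mpr hσzge) k
      exact sub_neg.mpr (lt_of_le_of_lt h1 hℓpos)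

/-! ### Approximate idempotents -/

theorem ord_one_add_of_nonneg (hℓ : ℓ.Prime) (hA : A.LiesOverPrime ℓ) {w : Qb} (hw0 : w ≠ 0)
    (hw : 0 ≤ (ordOfSubring A).ord w) (K : ℕ) :
    (1 + (ℓ : Qb) * w ^ K) ≠ 0 ∧ (ordOfSubring A).ord (1 + (ℓ : Qb) * w ^ K) = 0 := by
  obtain ⟨hℓ0, hℓpos⟩ := Fermat.Agent.S13.ord_prime_pos A ℓ hℓ hA
  have hy0 : (ℓ : Qb) * w ^ K ≠ 0 := mul_ne_zero hℓ0 (pow_ne_zero K hw0)
  have hy : (ordOfSubring A).Gt ((ℓ : Qb) * w ^ K) ((ordOfSubring A).ord 1) := by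
    rw [(ordOfSubring A).ord_one]
    refine (ordOfSubring A).gt_of_ne hy0 ?_
    rw [(ordOfSubring A).ord_mul _ _ hℓ0 (pow_ne_zero K hw0), (ordOfSubring A).ord_pow hw0]
    exact add_pos_of_pos_of_nonneg hℓpos (nsmul_nonneg hw K)
  have h := (ordOfSubring A).ord_add_eq one_ne_zero hy
  rwa [(ordOfSubring A).ord_one] at h

theorem ord_one_add_of_neg (hℓ : ℓ.Prime) (hA : A.LiesOverPrime ℓ) {w : Qb} (hw0 : w ≠ 0)
    {K : ℕ} (h : (ordOfSubring A).ord ((ℓ : Qb) * w ^ K) < 0) :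
    (1 + (ℓ : Qb) * w ^ K) ≠ 0 ∧
      (ordOfSubring A).ord (1 + (ℓ : Qb) * w ^ K) = (ordOfSubring A).ord ((ℓ : Qb) * w ^ K) := by
  obtain ⟨hℓ0, hℓpos⟩ := Fermat.Agent.S13.ord_prime_pos A ℓ hℓ hA
  have hy0 : (ℓ : Qb) * w ^ K ≠ 0 := mul_ne_zero hℓ0 (pow_ne_zero K hw0)
  exact (ordOfSubring A).ord_add_eq' hy0
    ((ordOfSubring A).gt_of_ne one_ne_zero (by rwa [(ordOfSubring A).ord_one]))

/-- For `u` of positive order and a finite set `S` of automorphisms, `e = (1 + ℓ u ^ K)⁻¹` is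
`≡ 1` to any prescribed order, integral at all `σ ∈ S`, and small at those `σ ∈ S` where `u` has
negative order. -/
theorem exists_idem (hℓ : ℓ.Prime) (hA : A.LiesOverPrime ℓ) {t : Qb} (ht0 : t ≠ 0)
    (ht : 0 ≤ (ordOfSubring A).ord t) {u : Qb} (hu0 : u ≠ 0) (hu : 0 < (ordOfSubring A).ord u)
    (S : Finset GQ) :
    ∃ K : ℕ, (ordOfSubring A).Ge ((1 + (ℓ : Qb) * u ^ K)⁻¹ - 1) ((ordOfSubring A).ord t) ∧
      ∀ σ ∈ S, (ordOfSubring A).Ge (σ (1 + (ℓ : Qb) * u ^ K)⁻¹) 0 ∧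
        ((ordOfSubring A).ord (σ u) < 0 →
          (ordOfSubring A).Ge (σ (1 + (ℓ : Qb) * u ^ K)⁻¹) ((ordOfSubring A).ord t)) := by
  classical
  obtain ⟨hℓ0, hℓpos⟩ := Fermat.Agent.S13.ord_prime_pos A ℓ hℓ hA
  obtain ⟨K₀, hK₀⟩ := BaseDVRCore.exists_ord_lt_nsmul A hℓ hA t u ht0 hu0 hu
  have hkf : ∀ σ : GQ, ∃ k : ℕ, (ordOfSubring A).ord (σ u) < 0 →
      (ordOfSubring A).ord (t * ℓ) < (k : ℤ) • (ordOfSubring A).ord (σ u)⁻¹ := by
    intro σ
    by_cases h : (ordOfSubring A).ord (σ u) < 0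
    · have hσu0 : σ u ≠ 0 := by simpa using hu0
      obtain ⟨k, hk⟩ := BaseDVRCore.exists_ord_lt_nsmul A hℓ hA (t * ℓ) (σ u)⁻¹
        (mul_ne_zero ht0 hℓ0) (inv_ne_zero hσu0)
        (by rw [(ordOfSubring A).ord_inv hσu0]; exact neg_pos.mpr h)
      exact ⟨k, fun _ => hk⟩
    · exact ⟨0, fun h' => absurd h' h⟩
  choose kf hkf using hkf
  refine ⟨K₀ + ∑ σ ∈ S, kf σ, ?_, fun σ hσ => ?_⟩
  · -- at `A`
    obtain ⟨hd0, hd⟩ := ord_one_add_of_nonneg A hℓ hA hu0 hu.le (K₀ + ∑ σ ∈ S, kf σ)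
    set K := K₀ + ∑ σ ∈ S, kf σ with hK
    have hy0 : (ℓ : Qb) * u ^ K ≠ 0 := mul_ne_zero hℓ0 (pow_ne_zero K hu0)
    have e1 : (1 + (ℓ : Qb) * u ^ K)⁻¹ - 1 = -((ℓ : Qb) * u ^ K) / (1 + (ℓ : Qb) * u ^ K) := by
      field_simp
      ring
    have hne : (1 + (ℓ : Qb) * u ^ K)⁻¹ - 1 ≠ 0 := by
      rw [e1]
      exact div_ne_zero (neg_ne_zero.mpr hy0) hd0
    refine (ordOfSubring A).ge_of_ne hne ?_
    rw [e1, (ordOfSubring A).ord_div (neg_ne_zero.mpr hy0) hd0, hd, sub_zero,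
      (ordOfSubring A).ord_neg, (ordOfSubring A).ord_mul _ _ hℓ0 (pow_ne_zero K hu0),
      (ordOfSubring A).ord_pow hu0]
    rw [natCast_zsmul] at hK₀
    have h1 : K₀ • (ordOfSubring A).ord u ≤ K • (ordOfSubring A).ord u :=
      aux_nsmul_mono hu.le (Nat.le_add_right _ _)
    exact le_trans (le_trans hK₀.le h1) (le_add_of_nonneg_left hℓpos.le)
  · -- at `σ ∈ S`
    set K := K₀ + ∑ σ ∈ S, kf σ with hK
    have hσu0 : σ u ≠ 0 := by simpa using hu0
    have e1 : σ (1 + (ℓ : Qb) * u ^ K)⁻¹ = (1 + (ℓ : Qb) * (σ u) ^ K)⁻¹ := by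
      rw [map_inv₀, map_add, map_one, map_mul, map_pow, map_natCast]
    rw [e1]
    by_cases hneg : (ordOfSubring A).ord (σ u) < 0
    · have hk := hkf σ hneg
      have hkK : kf σ ≤ K := le_trans (Finset.single_le_sum (fun _ _ => Nat.zero_le _) hσ)
        (Nat.le_add_left _ _)
      rw [natCast_zsmul, (ordOfSubring A).ord_inv hσu0,
        (ordOfSubring A).ord_mul _ _ ht0 hℓ0] at hk
      have hk2 : (ordOfSubring A).ord t + (ordOfSubring A).ord (ℓ : Qb) <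
          K • (-((ordOfSubring A).ord (σ u))) :=
        lt_of_lt_of_le hk (aux_nsmul_mono (neg_pos.mpr hneg).le hkK)
      have hk3 := aux_lt_neg K hk2
      have hylt : (ordOfSubring A).ord ((ℓ : Qb) * (σ u) ^ K) <
          -((ordOfSubring A).ord t) := by
        rw [(ordOfSubring A).ord_mul _ _ hℓ0 (pow_ne_zero K hσu0),
          (ordOfSubring A).ord_pow hσu0]
        exact hk3
      have hyneg : (ordOfSubring A).ord ((ℓ : Qb) * (σ u) ^ K) < 0 :=
        lt_of_lt_of_le hylt (neg_nonpos.mpr ht)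
      obtain ⟨hd0, hd⟩ := ord_one_add_of_neg A hℓ hA hσu0 hyneg
      have hge : (ordOfSubring A).ord t ≤
          (ordOfSubring A).ord (1 + (ℓ : Qb) * (σ u) ^ K)⁻¹ := by
        rw [(ordOfSubring A).ord_inv hd0, hd]
        exact (lt_neg.mp hylt).le
      exact ⟨(ordOfSubring A).ge_of_ne (inv_ne_zero hd0) (le_trans ht hge),
        fun _ => (ordOfSubring A).ge_of_ne (inv_ne_zero hd0) hge⟩
    · obtain ⟨hd0, hd⟩ := ord_one_add_of_nonneg A hℓ hA hσu0 (not_lt.mp hneg) K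
      refine ⟨(ordOfSubring A).ge_of_ne (inv_ne_zero hd0) ?_, fun h => absurd h hneg⟩
      rw [(ordOfSubring A).ord_inv hd0, hd, neg_zero]

/-! ### The trace approximation -/

theorem isIntegral_map {x : Qb} (hx : IsIntegral ℤ x) (σ : GQ) : IsIntegral ℤ (σ x) :=
  hx.map (σ : Qb →ₐ[ℚ] Qb).toRingHom.toIntAlgHom

theorem ge_zero_of_isIntegral {x : Qb} (hx : IsIntegral ℤ x) : (ordOfSubring A).Ge x 0 :=
  (ordOfSubring_ge_iff A x).mpr ((A.valuation_le_one_iff x).mp (valuation_le_one_of_isIntegral A hx))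

/-- **Approximation.**  An integral element of `ℚ̄` fixed by the inertia group of `A` is a limit
of elements of `ℚ(μ_n : ℓ ∤ n)`. -/
theorem exists_cyclo_approx (hℓ : ℓ.Prime) (hA : A.LiesOverPrime ℓ) {x : Qb}
    (hxint : IsIntegral ℤ x) (hx : ∀ τ ∈ A.inertiaSubgroupIn ℚ, τ x = x) {t : Qb} (ht0 : t ≠ 0)
    (ht : 0 ≤ (ordOfSubring A).ord t) :
    ∃ c ∈ BaseDVR.cycloField ℓ, (ordOfSubring A).Ge (c - x) ((ordOfSubring A).ord t) := by
  classical
  have hGal := isGalois_Qb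
  have hxalg : IsIntegral ℚ x := ((AlgebraicClosure.isAlgebraic ℚ).isAlgebraic x).isIntegral
  -- the conjugates of `x` over `C`
  let R : Finset Qb := (Polynomial.rootSet_finite (minpoly ℚ x) Qb).toFinset.filter
    (fun x' => ∃ σ ∈ (BaseDVR.cycloField ℓ).fixingSubgroup, σ x = x')
  have hR : ∀ x', x' ∈ R ↔ ∃ σ ∈ (BaseDVR.cycloField ℓ).fixingSubgroup, σ x = x' := by
    intro x'
    simp only [R, Finset.mem_filter, Set.Finite.mem_toFinset]
    refine ⟨fun h => h.2, fun h => ⟨?_, h⟩⟩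
    obtain ⟨σ, -, rfl⟩ := h
    rw [Polynomial.mem_rootSet]
    refine ⟨minpoly.ne_zero hxalg, ?_⟩
    have h1 := Polynomial.aeval_algHom_apply (σ : Qb →ₐ[ℚ] Qb) x (minpoly ℚ x)
    rw [minpoly.aeval, map_zero] at h1
    exact h1
  have hxR : x ∈ R := (hR x).mpr ⟨1, one_mem _, rfl⟩
  -- automorphisms realising the conjugates
  have hs : ∀ x' : Qb, ∃ σ : GQ, x' ∈ R → σ ∈ (BaseDVR.cycloField ℓ).fixingSubgroup ∧ σ x = x' := by
    intro x'
    by_cases h : x' ∈ R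
    · obtain ⟨σ, hσ, hσx⟩ := (hR x').mp h
      exact ⟨σ, fun _ => ⟨hσ, hσx⟩⟩
    · exact ⟨1, fun h' => absurd h' h⟩
  choose s hs using hs
  -- separators
  have hu : ∀ x' : Qb, ∃ u : Qb, x' ∈ R → x' ≠ x →
      u ∈ fld ℓ x ∧ u ≠ 0 ∧ 0 < (ordOfSubring A).ord u ∧ (ordOfSubring A).ord (s x' u) < 0 := by
    intro x'
    by_cases h : x' ∈ R ∧ x' ≠ x
    · obtain ⟨u, h1, h2, h3, h4⟩ := exists_sep A hℓ hA hx (hs x' h.1).1
        (by rw [(hs x' h.1).2]; exact h.2)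
      exact ⟨u, fun _ _ => ⟨h1, h2, h3, h4⟩⟩
    · exact ⟨1, fun h1 h2 => absurd ⟨h1, h2⟩ h⟩
  choose u hu using hu
  let S : Finset GQ := (R.erase x).image s
  -- exponents
  have hK : ∀ x' : Qb, ∃ K : ℕ, x' ∈ R.erase x →
      (ordOfSubring A).Ge ((1 + (ℓ : Qb) * u x' ^ K)⁻¹ - 1) ((ordOfSubring A).ord t) ∧
      ∀ σ ∈ S, (ordOfSubring A).Ge (σ (1 + (ℓ : Qb) * u x' ^ K)⁻¹) 0 ∧
        ((ordOfSubring A).ord (σ (u x')) < 0 →
          (ordOfSubring A).Ge (σ (1 + (ℓ : Qb) * u x' ^ K)⁻¹) ((ordOfSubring A).ord t)) := by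
    intro x'
    by_cases h : x' ∈ R.erase x
    · obtain ⟨h1, h2, h3, h4⟩ := hu x' (Finset.mem_of_mem_erase h) (Finset.ne_of_mem_erase h)
      obtain ⟨K, hK⟩ := exists_idem A hℓ hA ht0 ht h2 h3 S
      exact ⟨K, fun _ => hK⟩
    · exact ⟨0, fun h' => absurd h' h⟩
  choose K hK using hK
  let e : Qb → Qb := fun x' => (1 + (ℓ : Qb) * u x' ^ K x')⁻¹
  have heE : ∀ x' ∈ R.erase x, e x' ∈ fld ℓ x := fun x' h =>
    inv_mem (add_mem (one_mem _) (mul_mem (natCast_mem _ ℓ)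
      (pow_mem (hu x' (Finset.mem_of_mem_erase h) (Finset.ne_of_mem_erase h)).1 _)))
  let y : Qb := ∏ x' ∈ R.erase x, e x'
  have hyE : y ∈ fld ℓ x := prod_mem heE
  have hy1 : (ordOfSubring A).Ge (y - 1) ((ordOfSubring A).ord t) :=
    ge_prod_sub_one (ordOfSubring A) _ e ht (fun x' h => (hK x' h).1)
  have hyσ : ∀ x' ∈ R.erase x, (ordOfSubring A).Ge (s x' y) ((ordOfSubring A).ord t) := by
    intro x' h
    have hsS : s x' ∈ S := Finset.mem_image_of_mem s h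
    have e1 : s x' y = ∏ x'' ∈ R.erase x, s x' (e x'') := map_prod (s x') e _
    rw [e1]
    refine ge_prod_of_mem (ordOfSubring A) _ (fun x'' => s x' (e x''))
      (fun x'' h'' => ((hK x'' h'').2 (s x') hsS).1) h ?_
    exact ((hK x' h).2 (s x') hsS).2
      (hu x' (Finset.mem_of_mem_erase h) (Finset.ne_of_mem_erase h)).2.2.2
  -- elements of `G_C` fixing `x` fix `y`
  have hfix : ∀ ρ : GQ, ρ ∈ (BaseDVR.cycloField ℓ).fixingSubgroup → ρ x = x → ρ y = y :=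
    fun ρ hρ hρx => (IntermediateField.mem_fixingSubgroup_iff _ _).mp (fix_fld hρ hρx) y hyE
  -- the trace
  let c : Qb := ∑ x' ∈ R, s x' y * x'
  have hcC : c ∈ BaseDVR.cycloField ℓ := by
    have hmem : c ∈ IntermediateField.fixedField (BaseDVR.cycloField ℓ).fixingSubgroup := by
      rw [IntermediateField.mem_fixedField_iff]
      intro τ hτ
      have hτinv : τ⁻¹ ∈ (BaseDVR.cycloField ℓ).fixingSubgroup := inv_mem hτ
      have e1 : τ c = ∑ x' ∈ R, τ (s x' y * x') := map_sum τ _ _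
      rw [e1]
      refine Finset.sum_nbij' (fun x' => τ x') (fun x'' => τ⁻¹ x'') ?_ ?_ ?_ ?_ ?_
      · intro x' h
        obtain ⟨σ, hσ, hσx⟩ := (hR x').mp h
        exact (hR _).mpr ⟨τ * σ, mul_mem hτ hσ, by rw [← hσx]; rfl⟩
      · intro x' h
        obtain ⟨σ, hσ, hσx⟩ := (hR x').mp h
        exact (hR _).mpr ⟨τ⁻¹ * σ, mul_mem hτinv hσ, by rw [← hσx]; rfl⟩
      · intro x' _
        exact τ.symm_apply_apply x'
      · intro x' _
        exact τ.apply_symm_apply x'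
      · intro x' h
        have hτx' : τ x' ∈ R := by
          obtain ⟨σ, hσ, hσx⟩ := (hR x').mp h
          exact (hR _).mpr ⟨τ * σ, mul_mem hτ hσ, by rw [← hσx]; rfl⟩
        obtain ⟨h1, h2⟩ := hs x' h
        obtain ⟨h3, h4⟩ := hs (τ x') hτx'
        have hρ : (s (τ x'))⁻¹ * (τ * s x') ∈ (BaseDVR.cycloField ℓ).fixingSubgroup :=
          mul_mem (inv_mem h3) (mul_mem hτ h1)
        have hρx : ((s (τ x'))⁻¹ * (τ * s x')) x = x := by
          show (s (τ x'))⁻¹ (τ (s x' x)) = x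
          rw [h2]
          have h9 : (s (τ x'))⁻¹ (τ x') = (s (τ x'))⁻¹ (s (τ x') x) :=
            congrArg (fun z => (s (τ x'))⁻¹ z) h4.symm
          exact h9.trans ((s (τ x')).symm_apply_apply x)
        have h5 := hfix _ hρ hρx
        have h6 : τ (s x' y) = s (τ x') y := by
          have h7 : (s (τ x'))⁻¹ (τ (s x' y)) = y := h5
          have h8 := congrArg (s (τ x')) h7
          rwa [show (s (τ x')) ((s (τ x'))⁻¹ (τ (s x' y))) = τ (s x' y) from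
            (s (τ x')).apply_symm_apply _] at h8
        rw [map_mul, h6]
    rwa [InfiniteGalois.fixedField_fixingSubgroup] at hmem
  refine ⟨c, hcC, ?_⟩
  have hsx : s x y = y := hfix _ (hs x hxR).1 (hs x hxR).2
  have e2 : c - x = (y - 1) * x + ∑ x' ∈ R.erase x, s x' y * x' := by
    show ∑ x' ∈ R, s x' y * x' - x = _
    rw [← Finset.add_sum_erase R _ hxR, hsx]
    ring
  rw [e2]
  refine (hy1.mul_right0 (ge_zero_of_isIntegral A hxint)).add (ge_sum _ _ _ fun x' h => ?_)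
  obtain ⟨σ, -, hσx⟩ := (hR x').mp (Finset.mem_of_mem_erase h)
  have hx'int : IsIntegral ℤ x' := hσx ▸ isIntegral_map hxint σ
  exact (hyσ x' h).mul_right0 (ge_zero_of_isIntegral A hx'int)

/-- **The inertia field is unramified**: an element of `ℚ̄` fixed by the inertia group of `A`
has order in `ℤ • ord ℓ`. -/
theorem ord_of_inertia_fixed (hℓ : ℓ.Prime) (hA : A.LiesOverPrime ℓ) (x : Qb) (hx0 : x ≠ 0)
    (hx : ∀ τ ∈ A.inertiaSubgroupIn ℚ, τ x = x) :
    ∃ k : ℤ, (ordOfSubring A).ord x = k • (ordOfSubring A).ord (ℓ : Qb) := by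
  obtain ⟨hℓ0, hℓpos⟩ := Fermat.Agent.S13.ord_prime_pos A ℓ hℓ hA
  -- reduce to an integral element
  have hxalg : IsAlgebraic ℤ x := by
    have h1 : IsAlgebraic ℚ x := (AlgebraicClosure.isAlgebraic ℚ).isAlgebraic x
    exact (IsFractionRing.isAlgebraic_iff ℤ ℚ Qb).mpr h1
  obtain ⟨d, hd0, hyint'⟩ := hxalg.exists_integral_multiple
  obtain ⟨y, hdy'⟩ : ∃ y : Qb, (d : Qb) * x = y := ⟨_, rfl⟩
  have hyint : IsIntegral ℤ y := by
    rw [← hdy', ← zsmul_eq_mul]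
    exact hyint'
  have hdQ : (d : Qb) ≠ 0 := by exact_mod_cast hd0
  have hy0 : y ≠ 0 := by rw [← hdy']; exact mul_ne_zero hdQ hx0
  have hyfix : ∀ τ ∈ A.inertiaSubgroupIn ℚ, τ y = y := by
    intro τ hτ
    rw [← hdy', map_mul, map_intCast, hx τ hτ]
  -- approximate `y` beyond its own order
  obtain ⟨m, hm⟩ := BaseDVRCore.exists_ord_lt_nsmul A hℓ hA y (ℓ : Qb) hy0 hℓ0 hℓpos
  have htne : ((ℓ : Qb)) ^ m ≠ 0 := pow_ne_zero m hℓ0
  have htord : (ordOfSubring A).ord ((ℓ : Qb) ^ m) = m • (ordOfSubring A).ord (ℓ : Qb) :=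
    (ordOfSubring A).ord_pow hℓ0 m
  obtain ⟨c, hcC, hc⟩ := exists_cyclo_approx A hℓ hA hyint hyfix htne
    (by rw [htord]; exact nsmul_nonneg hℓpos.le m)
  rw [htord, ← natCast_zsmul] at hc
  have hgt : (ordOfSubring A).Gt (c - y) ((ordOfSubring A).ord y) := hc.gt_of_lt hm
  obtain ⟨hc0, hcord⟩ := (ordOfSubring A).ord_add_eq hy0 hgt
  rw [show y + (c - y) = c by ring] at hc0 hcord
  obtain ⟨k, hk⟩ := BaseDVR.ord_cycloField A hℓ hA c hcC hc0
  obtain ⟨j, hj⟩ := ValQbar.ord_intCast A hℓ hA d hd0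
  have h1 : (ordOfSubring A).ord y = (ordOfSubring A).ord (d : Qb) + (ordOfSubring A).ord x := by
    rw [← hdy', (ordOfSubring A).ord_mul _ _ hdQ hx0]
  refine ⟨k - j, ?_⟩
  rw [sub_zsmul, ← hk, hcord, h1, natCast_zsmul, hj]
  abel

end

end Fermat.Agent.S36.UnramOrd
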