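import Mathlib
import Fermat.Agent.S36.UnramOrd
import Fermat.Agent.S37.LevelChange

/-!
# S36, (DESC) (D3): unramified levels

`exists_unram_level_base` : for a finite set `S ⊆ ℚ̄` of elements fixed by the inertia group of
`A` (a valuation subring over `ℓ`), the level `L = ℚ(μ_n (ℓ ∤ n), S)` of
`S37.LevelChange.isLevel_baseField` is **unramified**: `ℓ` itself is a uniformiser of the
discrete valuation ring `A ∩ L`, and `L` is fixed pointwise by the inertia group.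

`exists_unram_level` : the existential form of the (DESC) contract.
-/

set_option autoImplicit false
set_option linter.unusedSectionVars false

namespace Fermat.Agent.S36.UnramLevel

open Fermat.Agent.S05 Fermat.Agent.S05.OrdData Fermat.Agent.S13 Fermat.Agent.S18
open Fermat.Agent.S37 Fermat.Agent.S36.UnramOrd

noncomputable section

local notation "Qb" => AlgebraicClosure ℚ
local notation "GQ" => (AlgebraicClosure ℚ ≃ₐ[ℚ] AlgebraicClosure ℚ)

variable (A : ValuationSubring Qb) {ℓ : ℕ}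

/-- The inertia group fixes `ℚ(μ_n (ℓ ∤ n), S)` pointwise when it fixes `S`. -/
theorem inertia_fix_baseField (hℓ : ℓ.Prime) (hA : A.LiesOverPrime ℓ) {S : Finset Qb}
    (hS : ∀ a ∈ S, ∀ τ ∈ A.inertiaSubgroupIn ℚ, τ a = a) {σ : GQ}
    (hσ : σ ∈ A.inertiaSubgroupIn ℚ) {x : Qb} (hx : x ∈ BaseDVR.baseField ℓ (S : Set Qb)) :
    σ x = x := by
  rw [BaseDVR.baseField] at hx
  induction hx using IntermediateField.adjoin_induction with
  | mem y hy =>
    rcases hy with hy | hy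
    · exact Fermat.Agent.S34.GalLevel.inertia_fix_root A hℓ hA hσ hy
    · exact hS y (Finset.mem_coe.mp hy) σ hσ
  | algebraMap r => exact σ.commutes r
  | add y z _ _ hy hz => rw [map_add, hy, hz]
  | inv y _ hy => rw [map_inv₀, hy]
  | mul y z _ _ hy hz => rw [map_mul, hy, hz]

/-- Units of `A ∩ L` have order zero. -/
theorem ord_unit {L : Type} [Field L] (ι : L →+* Qb) (u : (↥(A.comap ι))ˣ) :
    (ordOfSubring A).ord (ι ((u : ↥(A.comap ι)) : L)) = 0 := by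
  have h1 : ι ((u : ↥(A.comap ι)) : L) ∈ A := (u : ↥(A.comap ι)).2
  have h2 : ι (((u⁻¹ : (↥(A.comap ι))ˣ) : ↥(A.comap ι)) : L) ∈ A :=
    ((u⁻¹ : (↥(A.comap ι))ˣ) : ↥(A.comap ι)).2
  have h3 : ι ((u : ↥(A.comap ι)) : L) * ι (((u⁻¹ : (↥(A.comap ι))ˣ) : ↥(A.comap ι)) : L) = 1 := by
    rw [← map_mul]
    have h4 : ((u : ↥(A.comap ι)) : L) * (((u⁻¹ : (↥(A.comap ι))ˣ) : ↥(A.comap ι)) : L) = 1 := by
      have h5 : (u : ↥(A.comap ι)) * ((u⁻¹ : (↥(A.comap ι))ˣ) : ↥(A.comap ι)) = 1 := u.mul_inv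
      exact congrArg Subtype.val h5
    rw [h4, map_one]
  have ha0 : ι ((u : ↥(A.comap ι)) : L) ≠ 0 := left_ne_zero_of_mul_eq_one h3
  have hb0 : ι (((u⁻¹ : (↥(A.comap ι))ˣ) : ↥(A.comap ι)) : L) ≠ 0 := right_ne_zero_of_mul_eq_one h3
  have h6 := (ordOfSubring A).ord_mul _ _ ha0 hb0
  rw [h3, (ordOfSubring A).ord_one] at h6
  have h7 := ord_nonneg_of_mem A h1 ha0
  have h8 := ord_nonneg_of_mem A h2 hb0
  refine le_antisymm ?_ h7
  have h9 : (ordOfSubring A).ord (ι ((u : ↥(A.comap ι)) : L)) =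
      -(ordOfSubring A).ord (ι (((u⁻¹ : (↥(A.comap ι))ˣ) : ↥(A.comap ι)) : L)) :=
    eq_neg_of_add_eq_zero_left h6.symm
  rw [h9]
  exact neg_nonpos.mpr h8

/-- **`ℓ` is a uniformiser of every level fixed by the inertia group.** -/
theorem irreducible_natCast_of_fixed (hℓ : ℓ.Prime) (hA : A.LiesOverPrime ℓ) {S₀ : Finset Qb}
    {L : Type} [Field L] {ι : L →+* Qb} (hlev : LevelChange.IsLevel A ℓ S₀ ι)
    (hfix : ∀ τ ∈ A.inertiaSubgroupIn ℚ, ∀ c : L, τ (ι c) = ι c) :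
    Irreducible ((ℓ : ℕ) : ↥(A.comap ι)) := by
  have hdvr : IsDiscreteValuationRing ↥(A.comap ι) := hlev.2.2.1
  obtain ⟨hℓ0, hℓpos⟩ := Fermat.Agent.S13.ord_prime_pos A ℓ hℓ hA
  obtain ⟨π, hπ⟩ := IsDiscreteValuationRing.exists_irreducible ↥(A.comap ι)
  have hℓW : ((ℓ : ℕ) : ↥(A.comap ι)) ≠ 0 := by
    intro h
    have h1 : (((ℓ : ℕ) : ↥(A.comap ι)) : L) = 0 := by rw [h]; rfl
    have h2 : ι (((ℓ : ℕ) : ↥(A.comap ι)) : L) = 0 := by rw [h1, map_zero]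
    have h3 : ι (((ℓ : ℕ) : ↥(A.comap ι)) : L) = (ℓ : Qb) := by
      show ι ((ℓ : ℕ) : L) = (ℓ : Qb)
      exact map_natCast ι ℓ
    rw [h3] at h2
    exact hℓ0 h2
  obtain ⟨n, u, hnu⟩ := IsDiscreteValuationRing.eq_unit_mul_pow_irreducible hℓW hπ
  have hπ0 : ι ((π : ↥(A.comap ι)) : L) ≠ 0 := by
    intro h
    have h1 : ((π : ↥(A.comap ι)) : L) = 0 := by
      by_contra h2
      exact (map_ne_zero ι).mpr h2 h
    exact hπ.ne_zero (Subtype.ext h1)
  obtain ⟨k, hk⟩ := ord_of_inertia_fixed A hℓ hA _ hπ0 (fun τ hτ => hfix τ hτ _)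
  -- orders
  have hu0 : ι ((u : ↥(A.comap ι)) : L) ≠ 0 := by
    intro h
    have h1 := ord_unit A ι u
    have h2 : ((u : ↥(A.comap ι)) : L) = 0 := by
      by_contra h3
      exact (map_ne_zero ι).mpr h3 h
    exact u.ne_zero (Subtype.ext h2)
  have e1 : (ℓ : Qb) = ι ((u : ↥(A.comap ι)) : L) * ι ((π : ↥(A.comap ι)) : L) ^ n := by
    have h1 : ι (((ℓ : ℕ) : ↥(A.comap ι)) : L) =
        ι (((↑u * π ^ n : ↥(A.comap ι))) : L) :=
      congrArg (fun w : ↥(A.comap ι) => ι (w : L)) hnu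
    have h3 : ι (((ℓ : ℕ) : ↥(A.comap ι)) : L) = (ℓ : Qb) := by
      show ι ((ℓ : ℕ) : L) = (ℓ : Qb)
      exact map_natCast ι ℓ
    rw [h3] at h1
    rw [h1]
    show ι (((u : ↥(A.comap ι)) : L) * ((π : ↥(A.comap ι)) : L) ^ n) = _
    rw [map_mul, map_pow]
  have e2 := congrArg (ordOfSubring A).ord e1
  rw [(ordOfSubring A).ord_mul _ _ hu0 (pow_ne_zero n hπ0), ord_unit A ι u, zero_add,
    (ordOfSubring A).ord_pow hπ0, hk, ← natCast_zsmul, ← mul_smul] at e2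
  have e3 : ((1 : ℤ)) • (ordOfSubring A).ord (ℓ : Qb) =
      ((n : ℤ) * k) • (ordOfSubring A).ord (ℓ : Qb) := by rw [one_smul]; exact e2
  have e4 : (1 : ℤ) = (n : ℤ) * k := by
    rcases lt_trichotomy (1 : ℤ) ((n : ℤ) * k) with h | h | h
    · exact absurd e3 ((zsmul_lt_zsmul_iff_left hℓpos).mpr h).ne
    · exact h
    · exact absurd e3 ((zsmul_lt_zsmul_iff_left hℓpos).mpr h).ne'
  have hn1 : (n : ℤ) = 1 := Int.eq_one_of_mul_eq_one_right (Int.natCast_nonneg n) e4.symm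
  have hn : n = 1 := by exact_mod_cast hn1
  rw [hn, pow_one] at hnu
  have hassoc : Associated π ((ℓ : ℕ) : ↥(A.comap ι)) := by
    refine ⟨u, ?_⟩
    rw [hnu, mul_comm]
  exact hassoc.irreducible hπ

/-- **(D3), concrete form.**  The level `ℚ(μ_n (ℓ ∤ n), S)` of a finite set `S` fixed by the
inertia group is unramified. -/
theorem exists_unram_level_base (hℓ : ℓ.Prime) (hA : A.LiesOverPrime ℓ) (S : Finset Qb)
    (hS : ∀ a ∈ S, ∀ τ ∈ A.inertiaSubgroupIn ℚ, τ a = a) :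
    LevelChange.IsLevel A ℓ S (algebraMap ↥(BaseDVR.baseField ℓ (S : Set Qb)) Qb) ∧
    Irreducible ((ℓ : ℕ) :
      ↥(A.comap (algebraMap ↥(BaseDVR.baseField ℓ (S : Set Qb)) Qb))) ∧
    ∀ τ ∈ A.inertiaSubgroupIn ℚ, ∀ c : ↥(BaseDVR.baseField ℓ (S : Set Qb)),
      τ (algebraMap ↥(BaseDVR.baseField ℓ (S : Set Qb)) Qb c) =
        algebraMap ↥(BaseDVR.baseField ℓ (S : Set Qb)) Qb c := by
  have hlev := LevelChange.isLevel_baseField A hℓ hA S
  have hfix : ∀ τ ∈ A.inertiaSubgroupIn ℚ, ∀ c : ↥(BaseDVR.baseField ℓ (S : Set Qb)),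
      τ (algebraMap ↥(BaseDVR.baseField ℓ (S : Set Qb)) Qb c) =
        algebraMap ↥(BaseDVR.baseField ℓ (S : Set Qb)) Qb c :=
    fun τ hτ c => inertia_fix_baseField A hℓ hA hS hτ c.2
  exact ⟨hlev, irreducible_natCast_of_fixed A hℓ hA hlev hfix, hfix⟩

/-- **(D3)**: for a finite set `S ⊆ ℚ̄` fixed by the inertia group of `A` there is a level
`(L, ι)` containing `S`, fixed pointwise by the inertia group, at which `q` is a uniformiser of
`A ∩ L`. -/
theorem exists_unram_level (A : ValuationSubring Qb) (q : ℕ) (hq : q.Prime)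
    (hA : A.LiesOverPrime q) (S : Finset Qb)
    (hS : ∀ a ∈ S, ∀ τ ∈ A.inertiaSubgroupIn ℚ, τ a = a) :
    ∃ (L : Type) (_ : Field L) (_ : Algebra ℚ L) (ι : L →+* Qb),
      LevelChange.IsLevel A q S ι ∧ Irreducible ((q : ℕ) : ↥(A.comap ι)) ∧
      (∀ ϖ : ↥(A.comap ι), (ϖ : L) = (q : L) → Irreducible ϖ) ∧
      (∀ τ ∈ A.inertiaSubgroupIn ℚ, ∀ c : L, τ (ι c) = ι c) := by
  obtain ⟨h1, h2, h3⟩ := exists_unram_level_base A hq hA S hS
  refine ⟨↥(BaseDVR.baseField q (S : Set Qb)), inferInstance, inferInstance,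
    algebraMap ↥(BaseDVR.baseField q (S : Set Qb)) Qb, h1, h2, fun ϖ hϖ => ?_, h3⟩
  have e : ϖ = ((q : ℕ) : ↥(A.comap (algebraMap ↥(BaseDVR.baseField q (S : Set Qb)) Qb))) :=
    Subtype.ext hϖ
  rw [e]
  exact h2

end

end Fermat.Agent.S36.UnramLevel
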