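/-
S36 (wave 8): Frobenius-stable levels.

The structure theorems of S34 / S35 at a level `(L, ι)` take the hypothesis
`GalLevel.IsStable ι` (`L / ℚ` Galois), but they consume it only through ONE Frobenius lift `σ`
at `A` restricting to `L` (the Kronecker / Frobenius partner).  The UNRAMIFIED levels needed for
S36 (`q` a uniformiser of `A ∩ L`, `L ⊆ ℚ̄^{I_A}`) are in general not Galois over `ℚ`, but they
can be chosen stable under the decomposition group, in particular under a Frobenius lift.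

* `FrobStable A q ι` : some Frobenius lift at `A` restricts to an automorphism of `L`;
* `frobStable_of_isStable` : Galois-stable levels are Frobenius-stable;
* `conj_mem_inertia` : the decomposition group normalises the inertia group;
* `fixConj A S` : the inertia-fixed Galois conjugates of a finite set `S` (finite, inertia-fixed,
  stable under the decomposition group);
* `exists_unram_frob_level` : every finite inertia-fixed set lies in a level which is
  unramified, fixed by inertia and Frobenius-stable;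
* twins, with `FrobStable` in place of `IsStable`, of the S34 entry points:
  `exists_frob_partner_of_frob`, `exists_frobHom_of_frob`, `dich_fin_frob`,
  `dich_fin_struct_frob`, `dich_fin_level_frob`, `dich_fin_struct_level_frob`,
  `finite_dich_of_F1_frob`, `finite_dich_frob`.
-/
import Mathlib
import Fermat.Agent.S34.GalLevel
import Fermat.Agent.S34.FrobPartner
import Fermat.Agent.S34.CompFin
import Fermat.Agent.S34.CompLevel
import Fermat.Agent.S34.FinDich
import Fermat.Agent.S34.FinDichLevel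
import Fermat.Agent.S36.UnramLevel

set_option autoImplicit false
set_option linter.unusedSectionVars false
set_option linter.style.haveILetI false

noncomputable section

namespace Fermat.Agent.S36.FrobLevel

open ModularCurve Polynomial Fermat.Agent.S18 Fermat.Agent.S18.Gauss Fermat.Agent.S24
  Fermat.Agent.S37 Fermat.Agent.S34 IsLocalRing

local notation "Qb" => AlgebraicClosure ℚ

/-- **Frobenius-stable level**: some Frobenius lift at `A` restricts to an automorphism of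
`L`. -/
def FrobStable (A : ValuationSubring Qb) (q : ℕ) {L : Type*} [Field L] (ι : L →+* Qb) : Prop :=
  ∃ σ : Qb ≃ₐ[ℚ] Qb, A.IsFrobeniusAt σ q ∧ ∃ s : L ≃+* L, ∀ c : L, ι (s c) = σ (ι c)

/-- Galois-stable levels are Frobenius-stable. -/
theorem frobStable_of_isStable (A : ValuationSubring Qb) {q : ℕ} (hq : q.Prime)
    (hA : A.LiesOverPrime q) {L : Type*} [Field L] {ι : L →+* Qb}
    (h : GalLevel.IsStable ι) : FrobStable A q ι := by
  obtain ⟨σ, hσ⟩ := GalLevel.exists_frobenius A hq hA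
  obtain ⟨s, hs⟩ := h σ
  exact ⟨σ, hσ, s, hs⟩

/-! ### Unramified Frobenius-stable levels -/

/-- The decomposition group normalises the inertia group. -/
theorem conj_mem_inertia (A : ValuationSubring Qb) {σ τ : Qb ≃ₐ[ℚ] Qb}
    (hσ : σ ∈ A.decompositionSubgroup ℚ) (hτ : τ ∈ A.inertiaSubgroupIn ℚ) :
    σ⁻¹ * τ * σ ∈ A.inertiaSubgroupIn ℚ := by
  obtain ⟨τ', hτ', rfl⟩ := hτ
  have hn : (A.inertiaSubgroup ℚ).Normal := by
    unfold ValuationSubring.inertiaSubgroup
    infer_instance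
  have h := hn.conj_mem τ' hτ' (⟨σ, hσ⟩ : A.decompositionSubgroup ℚ)⁻¹
  rw [inv_inv] at h
  exact ⟨_, h, rfl⟩

open Classical in
/-- The inertia-fixed Galois conjugates of the elements of a finite set. -/
def fixConj (A : ValuationSubring Qb) (S : Finset Qb) : Finset Qb :=
  (GalLevel.conj S).filter fun a => ∀ τ ∈ A.inertiaSubgroupIn ℚ, τ a = a

theorem mem_fixConj {A : ValuationSubring Qb} {S : Finset Qb} {a : Qb} :
    a ∈ fixConj A S ↔ a ∈ GalLevel.conj S ∧ ∀ τ ∈ A.inertiaSubgroupIn ℚ, τ a = a := by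
  classical
  unfold fixConj
  rw [Finset.mem_filter]

theorem subset_fixConj (A : ValuationSubring Qb) (S : Finset Qb)
    (hS : ∀ a ∈ S, ∀ τ ∈ A.inertiaSubgroupIn ℚ, τ a = a) : S ⊆ fixConj A S :=
  fun a ha => mem_fixConj.mpr ⟨GalLevel.subset_conj S ha, hS a ha⟩

theorem fixConj_fixed (A : ValuationSubring Qb) (S : Finset Qb) :
    ∀ a ∈ fixConj A S, ∀ τ ∈ A.inertiaSubgroupIn ℚ, τ a = a :=
  fun _ ha => (mem_fixConj.mp ha).2

/-- `fixConj A S` is stable under the decomposition group. -/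
theorem map_mem_fixConj (A : ValuationSubring Qb) (S : Finset Qb) {σ : Qb ≃ₐ[ℚ] Qb}
    (hσ : σ ∈ A.decompositionSubgroup ℚ) {a : Qb} (ha : a ∈ fixConj A S) :
    σ a ∈ fixConj A S := by
  obtain ⟨h1, h2⟩ := mem_fixConj.mp ha
  refine mem_fixConj.mpr ⟨GalLevel.map_mem_conj σ h1, fun τ hτ => ?_⟩
  have h := h2 _ (conj_mem_inertia A hσ hτ)
  have h' : σ⁻¹ (τ (σ a)) = a := h
  have h'' := congrArg σ h'
  rw [show σ (σ⁻¹ (τ (σ a))) = τ (σ a) from σ.apply_symm_apply _] at h''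
  exact h''

/-- **Unramified Frobenius-stable levels exist**: every finite inertia-fixed subset of `ℚ̄` lies
in a level `(L, ι)` at which `q` is a uniformiser of `A ∩ L`, which is fixed pointwise by the
inertia group, and which is stable under a Frobenius lift at `A`. -/
theorem exists_unram_frob_level (A : ValuationSubring Qb) (q : ℕ) (hq : q.Prime)
    (hA : A.LiesOverPrime q) (S : Finset Qb)
    (hS : ∀ a ∈ S, ∀ τ ∈ A.inertiaSubgroupIn ℚ, τ a = a) :
    ∃ (L : Type) (_ : Field L) (_ : Algebra ℚ L) (ι : L →+* Qb),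
      LevelChange.IsLevel A q S ι ∧ Irreducible ((q : ℕ) : ↥(A.comap ι)) ∧
      (∀ ϖ : ↥(A.comap ι), (ϖ : L) = (q : L) → Irreducible ϖ) ∧
      (∀ τ ∈ A.inertiaSubgroupIn ℚ, ∀ c : L, τ (ι c) = ι c) ∧ FrobStable A q ι := by
  obtain ⟨h1, h2, h3⟩ := Fermat.Agent.S36.UnramLevel.exists_unram_level_base A hq hA
    (fixConj A S) (fixConj_fixed A S)
  obtain ⟨σ, hσ⟩ := GalLevel.exists_frobenius A hq hA
  have hσD : σ ∈ A.decompositionSubgroup ℚ := hσ.mem_decompositionSubgroup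
  have hσD' : σ⁻¹ ∈ A.decompositionSubgroup ℚ := inv_mem hσD
  have hT : ∀ x ∈ ((fixConj A S : Finset Qb) : Set Qb), σ x ∈ ((fixConj A S : Finset Qb) : Set Qb) :=
    fun x hx => Finset.mem_coe.mpr (map_mem_fixConj A S hσD (Finset.mem_coe.mp hx))
  have hT' : ∀ x ∈ ((fixConj A S : Finset Qb) : Set Qb),
      σ.symm x ∈ ((fixConj A S : Finset Qb) : Set Qb) :=
    fun x hx => Finset.mem_coe.mpr (map_mem_fixConj A S hσD' (Finset.mem_coe.mp hx))
  refine ⟨↥(BaseDVR.baseField q ((fixConj A S : Finset Qb) : Set Qb)), inferInstance,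
    inferInstance, algebraMap ↥(BaseDVR.baseField q ((fixConj A S : Finset Qb) : Set Qb)) Qb,
    GalLevel.isLevel_mono h1 (subset_fixConj A S hS), h2, fun ϖ hϖ => ?_, h3, ?_⟩
  · have e : ϖ = ((q : ℕ) : ↥(A.comap
        (algebraMap ↥(BaseDVR.baseField q ((fixConj A S : Finset Qb) : Set Qb)) Qb))) :=
      Subtype.ext hϖ
    rw [e]
    exact h2
  · exact ⟨σ, hσ, GalLevel.restrict _ σ
      (fun x hx => GalLevel.map_mem_baseField q _ σ hT hx)
      (fun x hx => GalLevel.map_mem_baseField q _ σ.symm hT' hx), fun c => rfl⟩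

/-! ### The Frobenius partner at a Frobenius-stable level -/

section Partner

variable (A : ValuationSubring Qb) {L : Type*} [Field L] [Algebra ℚ L] (ι : L →+* Qb)
  (ℓ : ℕ) [Fact ℓ.Prime] [CharP (IsLocalRing.ResidueField ↥(A.comap ι)) ℓ]
  (M : ℕ) [NeZero M] [NeZero ℓ] [IsDiscreteValuationRing ↥(A.comap ι)]

/-- **(K) at a Frobenius-stable level**, existential form (twin of
`S34.FrobPartner.exists_frob_partner_of_stable`). -/
theorem exists_frob_partner_of_frob (hstab : FrobStable A ℓ ι) (y : FF L M)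
    (hy : (evF (A.comap ι) M).IsIntegralElem y) :
    ∃ y' : FF L M, (evF (A.comap ι) M).IsIntegralElem y' ∧
      ∃ (h1 : ((heckeBetaBar L M ℓ y : FF L (M * ℓ)) : LaurentSeries L) ∈
          contentRing (A.comap ι))
        (h2 : (y' : LaurentSeries L) ∈ contentRing (A.comap ι)),
        red (A.comap ι) ⟨_, h1⟩ = red (A.comap ι) ⟨_, h2⟩ ^ ℓ := by
  obtain ⟨σ, hσ, s, hs⟩ := hstab
  exact FrobPartner.exists_frob_partner A ι s hs ℓ M hσ y hy

/-- **(K) at a Frobenius-stable level**, ring-hom form (twin of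
`S34.FrobPartner.exists_frobHom_of_stable`). -/
theorem exists_frobHom_of_frob (hstab : FrobStable A ℓ ι) :
    ∃ ς : FF L M →+* FF L M,
      (∀ y : FF L M, (evF (A.comap ι) M).IsIntegralElem y →
        (evF (A.comap ι) M).IsIntegralElem (ς y)) ∧
      ∀ (b : FF L M) (_ : (b : LaurentSeries L) ∈ contentRing (A.comap ι))
        (h1 : ((heckeBetaBar L M ℓ b : FF L (M * ℓ)) : LaurentSeries L) ∈
          contentRing (A.comap ι))
        (h2 : ((ς b : FF L M) : LaurentSeries L) ∈ contentRing (A.comap ι)),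
        red (A.comap ι) ⟨_, h1⟩ = red (A.comap ι) ⟨_, h2⟩ ^ ℓ := by
  obtain ⟨σ, hσ, s, hs⟩ := hstab
  exact ⟨FrobPartner.frobHom s M,
    fun y hy => FrobPartner.frobHom_int A ι s hs M hσ.mem_decompositionSubgroup hy,
    fun b hb h1 h2 => FrobPartner.red_beta_eq_frobHom_pow A ι s hs ℓ M hσ hb h1 h2⟩

end Partner

/-! ### (DICH₁) at a Frobenius-stable level -/

section Dich

variable (A : ValuationSubring Qb) {L : Type} [Field L] [Algebra ℚ L] (ι : L →+* Qb)
  (M q : ℕ) [NeZero M] [NeZero q]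
  [IsDiscreteValuationRing ↥(A.comap ι)]
  [IsAlgClosed (IsLocalRing.ResidueField ↥(A.comap ι))]
  [CharP (IsLocalRing.ResidueField ↥(A.comap ι)) q]

/-- Twin of `S34.CompFin.dich_fin`. -/
theorem dich_fin_frob (hq : q.Prime) (hqM : ¬ q ∣ M)
    (hstab : FrobStable A q ι)
    (hroots : ∀ x : Qb, (∃ n : ℕ, ¬ q ∣ n ∧ x ^ n = 1) → ∃ b : L, ι b = x)
    (π : ↥(A.comap ι)) (hπ : Irreducible π)
    (w : Fermat.Agent.S24.FF L (M * q) ≃ₐ[L] Fermat.Agent.S24.FF L (M * q))
    (hwα : (w : Fermat.Agent.S24.FF L (M * q) →ₐ[L] Fermat.Agent.S24.FF L (M * q)).comp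
      (heckeAlphaBar L M q) = heckeBetaBar L M q)
    (hwβ : (w : Fermat.Agent.S24.FF L (M * q) →ₐ[L] Fermat.Agent.S24.FF L (M * q)).comp
      (heckeBetaBar L M q) = heckeAlphaBar L M q)
    (hV3a : ∀ z : Fermat.Agent.S24.FF L (M * q), (z : LaurentSeries L) ∈ contentRing (A.comap ι) →
      (w z : LaurentSeries L) ∈ contentRing (A.comap ι) →
      ∃ S : (↥(A.comap ι))[X], S.map (IsLocalRing.residue ↥(A.comap ι)) ≠ 0 ∧
        (evF (A.comap ι) (M * q)).IsIntegralElem (evF (A.comap ι) (M * q) S * z))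
    (hF1 : ∀ (x : Fermat.Agent.S24.FF L (M * q))
      (hx : (x : LaurentSeries L) ∈ contentRing (A.comap ι)),
      red (A.comap ι) ⟨x, hx⟩ ∈
        modularFunctionFieldFullC (IsLocalRing.ResidueField ↥(A.comap ι)) M)
    [Algebra (↥(A.comap ι))[X] (Fermat.Agent.S24.FF L (M * q))]
    (halg : algebraMap (↥(A.comap ι))[X] (Fermat.Agent.S24.FF L (M * q)) =
      evF (A.comap ι) (M * q))
    (B : Type*) [CommRing B] [Algebra (↥(A.comap ι))[X] B]
    [Algebra B (Fermat.Agent.S24.FF L (M * q))]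
    [IsScalarTower (↥(A.comap ι))[X] B (Fermat.Agent.S24.FF L (M * q))]
    [IsIntegralClosure B (↥(A.comap ι))[X] (Fermat.Agent.S24.FF L (M * q))]
    (𝔫 : Ideal B) [𝔫.IsMaximal] (hπ𝔫 : algebraMap (↥(A.comap ι))[X] B (C π) ∈ 𝔫)
    (R : Type*) [CommRing R] [Algebra B R] [IsLocalization.AtPrime R 𝔫] [IsLocalRing R] :
    (∃ u ∈ 𝔫, maximalIdeal R =
        Ideal.span {algebraMap B R (algebraMap (↥(A.comap ι))[X] B (C π)), algebraMap B R u}) ∨
    (∃ X ∈ 𝔫, ∃ Y ∈ 𝔫, algebraMap (↥(A.comap ι))[X] B (C π) ∣ X * Y ∧ maximalIdeal R =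
        Ideal.span {algebraMap B R (algebraMap (↥(A.comap ι))[X] B (C π)), algebraMap B R X,
          algebraMap B R Y}) := by
  haveI : Fact q.Prime := ⟨hq⟩
  exact CompInst.finite_chart_point M q ι (A.comap ι) hq hqM hroots π hπ w hwα hwβ
    (fun x hx => FrobPartner.mem_contentRing_of_int (A.comap ι) (M * q) hx) hF1
    (fun x hx h1 h2 e1 e2 => CompS1.s1_fin M q hπ w hV3a x hx h1 e1 h2 e2)
    (fun y hy => exists_frob_partner_of_frob A ι q M hstab y hy)
    halg B 𝔫 hπ𝔫 R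

/-- Twin of `S34.CompFin.dich_fin_struct`. -/
theorem dich_fin_struct_frob (hq : q.Prime) (hqM : ¬ q ∣ M)
    (hstab : FrobStable A q ι)
    (hroots : ∀ x : Qb, (∃ n : ℕ, ¬ q ∣ n ∧ x ^ n = 1) → ∃ b : L, ι b = x)
    (π : ↥(A.comap ι)) (hπ : Irreducible π)
    (w : Fermat.Agent.S24.FF L (M * q) ≃ₐ[L] Fermat.Agent.S24.FF L (M * q))
    (hwα : (w : Fermat.Agent.S24.FF L (M * q) →ₐ[L] Fermat.Agent.S24.FF L (M * q)).comp
      (heckeAlphaBar L M q) = heckeBetaBar L M q)
    (hwβ : (w : Fermat.Agent.S24.FF L (M * q) →ₐ[L] Fermat.Agent.S24.FF L (M * q)).comp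
      (heckeBetaBar L M q) = heckeAlphaBar L M q)
    (hV3a : ∀ z : Fermat.Agent.S24.FF L (M * q), (z : LaurentSeries L) ∈ contentRing (A.comap ι) →
      (w z : LaurentSeries L) ∈ contentRing (A.comap ι) →
      ∃ S : (↥(A.comap ι))[X], S.map (IsLocalRing.residue ↥(A.comap ι)) ≠ 0 ∧
        (evF (A.comap ι) (M * q)).IsIntegralElem (evF (A.comap ι) (M * q) S * z))
    (hF1 : ∀ (x : Fermat.Agent.S24.FF L (M * q))
      (hx : (x : LaurentSeries L) ∈ contentRing (A.comap ι)),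
      red (A.comap ι) ⟨x, hx⟩ ∈
        modularFunctionFieldFullC (IsLocalRing.ResidueField ↥(A.comap ι)) M)
    [Algebra (↥(A.comap ι))[X] (Fermat.Agent.S24.FF L (M * q))]
    (halg : algebraMap (↥(A.comap ι))[X] (Fermat.Agent.S24.FF L (M * q)) =
      evF (A.comap ι) (M * q))
    (B : Type*) [CommRing B] [Algebra (↥(A.comap ι))[X] B]
    [Algebra B (Fermat.Agent.S24.FF L (M * q))]
    [IsScalarTower (↥(A.comap ι))[X] B (Fermat.Agent.S24.FF L (M * q))]
    [IsIntegralClosure B (↥(A.comap ι))[X] (Fermat.Agent.S24.FF L (M * q))]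
    [Algebra ↥(A.comap ι) B] [IsScalarTower ↥(A.comap ι) (↥(A.comap ι))[X] B]
    (𝔫 : Ideal B) [𝔫.IsMaximal] (hπ𝔫 : algebraMap ↥(A.comap ι) B π ∈ 𝔫)
    (R : Type*) [CommRing R] [Algebra B R] [IsLocalization.AtPrime R 𝔫] [IsLocalRing R]
    [Algebra ↥(A.comap ι) R] [IsScalarTower ↥(A.comap ι) B R] :
    (∃ u : R, maximalIdeal R = Ideal.span {algebraMap ↥(A.comap ι) R π, u}) ∨
    ∃ X Y : R, maximalIdeal R = Ideal.span {algebraMap ↥(A.comap ι) R π, X, Y} ∧
      algebraMap ↥(A.comap ι) R π ∣ X * Y := by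
  have e1 : algebraMap ↥(A.comap ι) B π = algebraMap (↥(A.comap ι))[X] B (C π) := by
    rw [IsScalarTower.algebraMap_apply ↥(A.comap ι) (↥(A.comap ι))[X] B, ← Polynomial.C_eq_algebraMap]
  have e2 : algebraMap ↥(A.comap ι) R π =
      algebraMap B R (algebraMap (↥(A.comap ι))[X] B (C π)) := by
    rw [IsScalarTower.algebraMap_apply ↥(A.comap ι) B R, e1]
  rw [e1] at hπ𝔫
  rcases dich_fin_frob A ι M q hq hqM hstab hroots π hπ w hwα hwβ hV3a hF1 halg B 𝔫 hπ𝔫 R with
    ⟨u, -, hu⟩ | ⟨X, -, Y, -, hXY, hm⟩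
  · left
    exact ⟨algebraMap B R u, by rw [e2]; exact hu⟩
  · right
    refine ⟨algebraMap B R X, algebraMap B R Y, by rw [e2]; exact hm, ?_⟩
    rw [e2, ← map_mul]
    exact map_dvd (algebraMap B R) hXY

/-- Twin of `S34.CompLevel.dich_fin_level`: **(DICH₁), finite chart of level `M q`, no open
hypothesis**, at a Frobenius-stable level. -/
theorem dich_fin_level_frob (hq : q.Prime) (hqM : ¬ q ∣ M)
    (hstab : FrobStable A q ι)
    (hroots : ∀ x : Qb, (∃ n : ℕ, ¬ q ∣ n ∧ x ^ n = 1) → ∃ b : L, ι b = x)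
    (π : ↥(A.comap ι)) (hπ : Irreducible π)
    [Algebra (↥(A.comap ι))[X] (Fermat.Agent.S24.FF L (M * q))]
    (halg : algebraMap (↥(A.comap ι))[X] (Fermat.Agent.S24.FF L (M * q)) =
      evF (A.comap ι) (M * q))
    (B : Type*) [CommRing B] [Algebra (↥(A.comap ι))[X] B]
    [Algebra B (Fermat.Agent.S24.FF L (M * q))]
    [IsScalarTower (↥(A.comap ι))[X] B (Fermat.Agent.S24.FF L (M * q))]
    [IsIntegralClosure B (↥(A.comap ι))[X] (Fermat.Agent.S24.FF L (M * q))]
    (𝔫 : Ideal B) [𝔫.IsMaximal] (hπ𝔫 : algebraMap (↥(A.comap ι))[X] B (C π) ∈ 𝔫)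
    (R : Type*) [CommRing R] [Algebra B R] [IsLocalization.AtPrime R 𝔫] [IsLocalRing R] :
    (∃ u ∈ 𝔫, maximalIdeal R =
        Ideal.span {algebraMap B R (algebraMap (↥(A.comap ι))[X] B (C π)), algebraMap B R u}) ∨
    (∃ X ∈ 𝔫, ∃ Y ∈ 𝔫, algebraMap (↥(A.comap ι))[X] B (C π) ∣ X * Y ∧ maximalIdeal R =
        Ideal.span {algebraMap B R (algebraMap (↥(A.comap ι))[X] B (C π)), algebraMap B R X,
          algebraMap B R Y}) := by
  haveI : Fact q.Prime := ⟨hq⟩
  obtain ⟨w, hwα, hwβ⟩ := FrobPartner.exists_atkinLehner_level ι M q hq hqM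
  refine dich_fin_frob A ι M q hq hqM hstab hroots π hπ w hwα hwβ ?_ ?_ halg B 𝔫 hπ𝔫 R
  · intro z hz1 hz2
    obtain ⟨S, hS, hSz⟩ := TwoGauss.exists_isIntegralElem_of_mem_both (A.comap ι) M q
      (w : Fermat.Agent.S24.FF L (M * q) →ₐ[L] Fermat.Agent.S24.FF L (M * q)) hqM hwα hwβ z
      hz1 hz2
    rw [CompLevel.pgglue_evF_eq] at hSz
    exact ⟨S, hS, hSz⟩
  · intro x hx
    exact ResFieldG.red_mem_fullC_level (A.comap ι) M q
      (w : Fermat.Agent.S24.FF L (M * q) →ₐ[L] Fermat.Agent.S24.FF L (M * q)) hqM hwα hwβ x hx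

/-- Twin of `S34.CompLevel.dich_fin_struct_level`. -/
theorem dich_fin_struct_level_frob (hq : q.Prime) (hqM : ¬ q ∣ M)
    (hstab : FrobStable A q ι)
    (hroots : ∀ x : Qb, (∃ n : ℕ, ¬ q ∣ n ∧ x ^ n = 1) → ∃ b : L, ι b = x)
    (π : ↥(A.comap ι)) (hπ : Irreducible π)
    [Algebra (↥(A.comap ι))[X] (Fermat.Agent.S24.FF L (M * q))]
    (halg : algebraMap (↥(A.comap ι))[X] (Fermat.Agent.S24.FF L (M * q)) =
      evF (A.comap ι) (M * q))
    (B : Type*) [CommRing B] [Algebra (↥(A.comap ι))[X] B]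
    [Algebra B (Fermat.Agent.S24.FF L (M * q))]
    [IsScalarTower (↥(A.comap ι))[X] B (Fermat.Agent.S24.FF L (M * q))]
    [IsIntegralClosure B (↥(A.comap ι))[X] (Fermat.Agent.S24.FF L (M * q))]
    [Algebra ↥(A.comap ι) B] [IsScalarTower ↥(A.comap ι) (↥(A.comap ι))[X] B]
    (𝔫 : Ideal B) [𝔫.IsMaximal] (hπ𝔫 : algebraMap ↥(A.comap ι) B π ∈ 𝔫)
    (R : Type*) [CommRing R] [Algebra B R] [IsLocalization.AtPrime R 𝔫] [IsLocalRing R]
    [Algebra ↥(A.comap ι) R] [IsScalarTower ↥(A.comap ι) B R] :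
    (∃ u : R, maximalIdeal R = Ideal.span {algebraMap ↥(A.comap ι) R π, u}) ∨
    ∃ X Y : R, maximalIdeal R = Ideal.span {algebraMap ↥(A.comap ι) R π, X, Y} ∧
      algebraMap ↥(A.comap ι) R π ∣ X * Y := by
  haveI : Fact q.Prime := ⟨hq⟩
  obtain ⟨w, hwα, hwβ⟩ := FrobPartner.exists_atkinLehner_level ι M q hq hqM
  refine dich_fin_struct_frob A ι M q hq hqM hstab hroots π hπ w hwα hwβ ?_ ?_ halg B 𝔫
    hπ𝔫 R
  · intro z hz1 hz2
    obtain ⟨S, hS, hSz⟩ := TwoGauss.exists_isIntegralElem_of_mem_both (A.comap ι) M q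
      (w : Fermat.Agent.S24.FF L (M * q) →ₐ[L] Fermat.Agent.S24.FF L (M * q)) hqM hwα hwβ z
      hz1 hz2
    rw [CompLevel.pgglue_evF_eq] at hSz
    exact ⟨S, hS, hSz⟩
  · intro x hx
    exact ResFieldG.red_mem_fullC_level (A.comap ι) M q
      (w : Fermat.Agent.S24.FF L (M * q) →ₐ[L] Fermat.Agent.S24.FF L (M * q)) hqM hwα hwβ x hx

end Dich

section Main

variable (A : ValuationSubring Qb) {L : Type} [Field L] [Algebra ℚ L] (ι : L →+* Qb)
  (M q : ℕ) [NeZero M] [NeZero q]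

/-- Twin of `S34.FinDich.finite_dich_of_F1`. -/
theorem finite_dich_of_F1_frob (hq : q.Prime) (hqM : ¬ q ∣ M) (S : Finset Qb)
    (hlev : Fermat.Agent.S37.LevelChange.IsLevel A q S ι)
    (hstab : FrobStable A q ι)
    (hF1 : ∀ (x : FF L (M * q)) (hx : (x : LaurentSeries L) ∈ contentRing (A.comap ι)),
      red (A.comap ι) ⟨x, hx⟩ ∈
        modularFunctionFieldFullC (IsLocalRing.ResidueField ↥(A.comap ι)) M)
    (π : ↥(A.comap ι)) (hπ : Irreducible π)
    [Algebra (↥(A.comap ι))[X] (FF L (M * q))]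
    (halg : algebraMap (↥(A.comap ι))[X] (FF L (M * q)) = evF (A.comap ι) (M * q))
    (B : Type*) [CommRing B] [Algebra (↥(A.comap ι))[X] B] [Algebra B (FF L (M * q))]
    [IsScalarTower (↥(A.comap ι))[X] B (FF L (M * q))]
    [IsIntegralClosure B (↥(A.comap ι))[X] (FF L (M * q))]
    (𝔫 : Ideal B) [𝔫.IsMaximal] (hπ𝔫 : algebraMap (↥(A.comap ι))[X] B (C π) ∈ 𝔫)
    (R : Type*) [CommRing R] [Algebra B R] [IsLocalization.AtPrime R 𝔫] [IsLocalRing R] :
    (∃ u ∈ 𝔫, maximalIdeal R =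
        Ideal.span {algebraMap B R (algebraMap (↥(A.comap ι))[X] B (C π)), algebraMap B R u}) ∨
    (∃ X ∈ 𝔫, ∃ Y ∈ 𝔫, algebraMap (↥(A.comap ι))[X] B (C π) ∣ X * Y ∧ maximalIdeal R =
        Ideal.span {algebraMap B R (algebraMap (↥(A.comap ι))[X] B (C π)), algebraMap B R X,
          algebraMap B R Y}) := by
  obtain ⟨-, hroots, hdvr, halgc, -, hchar, -, -⟩ := hlev
  have := hdvr
  have := halgc
  have := hchar
  have : Fact q.Prime := ⟨hq⟩
  obtain ⟨w, hwα, hwβ⟩ := Fermat.Agent.S34.FrobPartner.exists_atkinLehner_level ι M q hq hqM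
  exact Fermat.Agent.S34.CompInst.finite_chart_point M q ι (A.comap ι) hq hqM hroots π hπ w
    hwα hwβ
    (fun x hx => Fermat.Agent.S34.FrobPartner.mem_contentRing_of_int (A.comap ι) (M * q) hx)
    hF1
    (fun x hint h1 h2 hr1 hr2 =>
      FinDich.s1_fin_level ι (A.comap ι) M q hqM hπ w hwα hwβ x hint h1 h2 hr1 hr2)
    (exists_frob_partner_of_frob A ι q M hstab)
    halg B 𝔫 hπ𝔫 R

/-- Twin of `S34.FinDichLevel.finite_dich`: **(DICH₁) at a Frobenius-stable level.** -/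
theorem finite_dich_frob (hq : q.Prime) (hqM : ¬ q ∣ M) (S : Finset Qb)
    (hlev : Fermat.Agent.S37.LevelChange.IsLevel A q S ι)
    (hstab : FrobStable A q ι)
    (π : ↥(A.comap ι)) (hπ : Irreducible π)
    [Algebra (↥(A.comap ι))[X] (FF L (M * q))]
    (halg : algebraMap (↥(A.comap ι))[X] (FF L (M * q)) = evF (A.comap ι) (M * q))
    (B : Type*) [CommRing B] [Algebra (↥(A.comap ι))[X] B] [Algebra B (FF L (M * q))]
    [IsScalarTower (↥(A.comap ι))[X] B (FF L (M * q))]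
    [IsIntegralClosure B (↥(A.comap ι))[X] (FF L (M * q))]
    (𝔫 : Ideal B) [𝔫.IsMaximal] (hπ𝔫 : algebraMap (↥(A.comap ι))[X] B (C π) ∈ 𝔫)
    (R : Type*) [CommRing R] [Algebra B R] [IsLocalization.AtPrime R 𝔫] [IsLocalRing R] :
    (∃ u ∈ 𝔫, maximalIdeal R =
        Ideal.span {algebraMap B R (algebraMap (↥(A.comap ι))[X] B (C π)), algebraMap B R u}) ∨
    (∃ X ∈ 𝔫, ∃ Y ∈ 𝔫, algebraMap (↥(A.comap ι))[X] B (C π) ∣ X * Y ∧ maximalIdeal R =
        Ideal.span {algebraMap B R (algebraMap (↥(A.comap ι))[X] B (C π)), algebraMap B R X,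
          algebraMap B R Y}) := by
  have hdvr : IsDiscreteValuationRing ↥(A.comap ι) := hlev.2.2.1
  have hchar : CharP (IsLocalRing.ResidueField ↥(A.comap ι)) q := hlev.2.2.2.2.2.1
  exact finite_dich_of_F1_frob A ι M q hq hqM S hlev hstab
    (fun x hx => FinDichLevel.f1_level ι (A.comap ι) M q hq hqM x hx) π hπ halg B 𝔫 hπ𝔫 R

end Main

end Fermat.Agent.S36.FrobLevel
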