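/-
S36 (wave 8), top (ℚ̄ end): the calculus of "constant times `m`-th power" and the operators
`Ω`, `E36` on a pair of degeneracy maps.

Setting: fields `K ⊆ F', F` and two `K`-embeddings `α β : F' → F` (the two degeneracy maps of a
pair of levels), `N_α`, `N_β : F → F'` the norms (`S35.EsOrd.normAlong`).

* `IsCP K m y` : `y = c * H ^ m` with `c ∈ K` a nonzero constant and `H ≠ 0`.  These elements form
  a subgroup of `Fˣ` (`isCP_one`, `IsCP.mul`, `IsCP.inv`, `IsCP.pow`, `IsCP.div`), stable under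
  `K`-embeddings (`IsCP.map`) and under norms (`IsCP.norm`).
* `omega α β y = α (N_α y) * β (N_β y)`        (the function form of `Ω = α^* α_* + β^* β_*`);
* `E36 α β q y = Ω³y * (Ω²y)⁻¹ ^ (4 q) * (Ω y) ^ (5 q² - 1) * y⁻¹ ^ (2 q (q² - 1))`
  (the function form of `χ(Ω)`, `χ(t) = (t - 2q)(t - (q + 1))(t - (q - 1))`; truncated
  subtraction in the exponents, harmless for `q ≥ 1`).
* `IsCP.omega` : `Ω` preserves `IsCP`; `isCP_omega_of_norm` : if the two norms of `f` are `IsCP`
  then so is `Ω f`.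
* `isCP_pow_of_E36` : if the two norms of `f` are `IsCP` and `(E36 f) ^ k` is `IsCP`, then
  `f ^ (k * (2 q (q² - 1)))` is `IsCP`.
* `principal_of_isCP_pow` : if `div f = m • D` (`m ≠ 0`) and `f ^ c` is `IsCP K m`, then
  `c • D` is principal.
-/
import Mathlib
import Fermat.Agent.S35.EsOrd

set_option autoImplicit false
set_option linter.style.haveILetI false

noncomputable section

namespace Fermat.Agent.S36.ConstPow

open AlgebraicCurve Fermat.Agent.S35

variable {K F F' : Type*} [Field K] [Field F] [Field F'] [Algebra K F] [Algebra K F']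

/-- `y` is a nonzero constant times a nonzero `m`-th power. -/
def IsCP (K : Type*) {F : Type*} [Field K] [Field F] [Algebra K F] (m : ℕ) (y : F) : Prop :=
  ∃ (c : K) (H : F), c ≠ 0 ∧ H ≠ 0 ∧ y = algebraMap K F c * H ^ m

section Basic

variable {m : ℕ}

theorem IsCP.ne_zero {y : F} (h : IsCP K m y) : y ≠ 0 := by
  obtain ⟨c, H, hc, hH, rfl⟩ := h
  exact mul_ne_zero ((map_ne_zero (algebraMap K F)).mpr hc) (pow_ne_zero m hH)

theorem isCP_one : IsCP K m (1 : F) :=
  ⟨1, 1, one_ne_zero, one_ne_zero, by rw [map_one, one_pow, mul_one]⟩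

theorem isCP_const {c : K} (hc : c ≠ 0) : IsCP K m (algebraMap K F c) :=
  ⟨c, 1, hc, one_ne_zero, by rw [one_pow, mul_one]⟩

theorem isCP_pow_self {H : F} (hH : H ≠ 0) : IsCP K m (H ^ m) :=
  ⟨1, H, one_ne_zero, hH, by rw [map_one, one_mul]⟩

theorem isCP_const_mul_pow {c : K} (hc : c ≠ 0) {H : F} (hH : H ≠ 0) :
    IsCP K m (algebraMap K F c * H ^ m) :=
  ⟨c, H, hc, hH, rfl⟩

theorem IsCP.mul {y z : F} (hy : IsCP K m y) (hz : IsCP K m z) : IsCP K m (y * z) := by
  obtain ⟨c, H, hc, hH, rfl⟩ := hy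
  obtain ⟨c', H', hc', hH', rfl⟩ := hz
  exact ⟨c * c', H * H', mul_ne_zero hc hc', mul_ne_zero hH hH', by rw [map_mul, mul_pow]; ring⟩

theorem IsCP.inv {y : F} (hy : IsCP K m y) : IsCP K m y⁻¹ := by
  obtain ⟨c, H, hc, hH, rfl⟩ := hy
  exact ⟨c⁻¹, H⁻¹, inv_ne_zero hc, inv_ne_zero hH, by rw [map_inv₀, inv_pow, mul_inv]⟩

theorem IsCP.div {y z : F} (hy : IsCP K m y) (hz : IsCP K m z) : IsCP K m (y / z) := by
  rw [div_eq_mul_inv]
  exact hy.mul hz.inv

theorem IsCP.pow {y : F} (hy : IsCP K m y) (n : ℕ) : IsCP K m (y ^ n) := by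
  induction n with
  | zero => rw [pow_zero]; exact isCP_one
  | succ n ih => rw [pow_succ]; exact ih.mul hy

/-- `IsCP` is preserved by `K`-embeddings. -/
theorem IsCP.map (φ : F' →ₐ[K] F) {y : F'} (hy : IsCP K m y) : IsCP K m (φ y) := by
  obtain ⟨c, H, hc, hH, rfl⟩ := hy
  exact ⟨c, φ H, hc, (map_ne_zero φ).mpr hH, by rw [map_mul, map_pow, φ.commutes]⟩

/-- the norm of a constant is a constant -/
theorem normAlong_algebraMap (φ : F' →ₐ[K] F) (c : K) :
    ∃ d : ℕ, EsOrd.normAlong φ (algebraMap K F c) = algebraMap K F' (c ^ d) := by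
  letI := algebraAlong φ
  refine ⟨Module.finrank F' F, ?_⟩
  have h1 : algebraMap K F c = algebraMap F' F (algebraMap K F' c) := (φ.commutes c).symm
  show Algebra.norm F' (algebraMap K F c) = algebraMap K F' (c ^ Module.finrank F' F)
  rw [h1, Algebra.norm_algebraMap, map_pow]

/-- `IsCP` is preserved by norms. -/
theorem IsCP.norm (φ : F' →ₐ[K] F) {y : F} (hy : IsCP K m y) :
    IsCP K m (EsOrd.normAlong φ y) := by
  obtain ⟨c, H, hc, hH, rfl⟩ := hy
  obtain ⟨d, hd⟩ := normAlong_algebraMap φ c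
  refine ⟨c ^ d, EsOrd.normAlong φ H, pow_ne_zero d hc, EsOrd.normAlong_ne_zero φ hH, ?_⟩
  rw [map_mul, map_pow, hd]

end Basic

/-! ### the operators `Ω` and `E36` -/

/-- `Ω y = α (N_α y) * β (N_β y)`, the function form of `α^* α_* + β^* β_*`. -/
def omega (α β : F' →ₐ[K] F) (y : F) : F :=
  α (EsOrd.normAlong α y) * β (EsOrd.normAlong β y)

/-- `E36 y = Ω³y * (Ω²y)⁻¹ ^ (4 q) * (Ω y) ^ (5 q² - 1) * y⁻¹ ^ (2 q (q² - 1))`, the function
form of `χ(Ω)` for `χ(t) = t³ - 4 q t² + (5 q² - 1) t - 2 q (q² - 1)`. -/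
def E36 (α β : F' →ₐ[K] F) (q : ℕ) (y : F) : F :=
  omega α β (omega α β (omega α β y)) * (omega α β (omega α β y))⁻¹ ^ (4 * q) *
    omega α β y ^ (5 * q ^ 2 - 1) * y⁻¹ ^ (2 * q * (q ^ 2 - 1))

section Omega

variable (α β : F' →ₐ[K] F)

theorem omega_one : omega α β (1 : F) = 1 := by
  unfold omega
  rw [map_one, map_one, map_one, map_one, mul_one]

theorem omega_mul (y z : F) : omega α β (y * z) = omega α β y * omega α β z := by
  unfold omega
  rw [map_mul, map_mul, map_mul, map_mul]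
  ring

theorem omega_ne_zero {y : F} (hy : y ≠ 0) : omega α β y ≠ 0 :=
  mul_ne_zero ((map_ne_zero α).mpr (EsOrd.normAlong_ne_zero α hy))
    ((map_ne_zero β).mpr (EsOrd.normAlong_ne_zero β hy))

theorem omega_inv {y : F} (hy : y ≠ 0) : omega α β y⁻¹ = (omega α β y)⁻¹ := by
  have h := omega_mul α β y y⁻¹
  rw [mul_inv_cancel₀ hy, omega_one] at h
  exact eq_inv_of_mul_eq_one_right h.symm

theorem omega_pow (y : F) (n : ℕ) : omega α β (y ^ n) = omega α β y ^ n := by
  induction n with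
  | zero => rw [pow_zero, pow_zero, omega_one]
  | succ n ih => rw [pow_succ, pow_succ, omega_mul, ih]

theorem omega_div (y : F) {z : F} (hz : z ≠ 0) :
    omega α β (y / z) = omega α β y / omega α β z := by
  rw [div_eq_mul_inv, omega_mul, omega_inv α β hz, div_eq_mul_inv]

variable {m : ℕ}

/-- `Ω` of an element whose two norms are `IsCP` is `IsCP`. -/
theorem isCP_omega_of_norm {y : F} (hα : IsCP K m (EsOrd.normAlong α y))
    (hβ : IsCP K m (EsOrd.normAlong β y)) : IsCP K m (omega α β y) :=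
  (hα.map α).mul (hβ.map β)

/-- `Ω` preserves `IsCP`. -/
theorem IsCP.omega {y : F} (hy : IsCP K m y) : IsCP K m (omega α β y) :=
  isCP_omega_of_norm α β (hy.norm α) (hy.norm β)

end Omega

section E36

variable (α β : F' →ₐ[K] F) (q : ℕ)

theorem E36_ne_zero {y : F} (hy : y ≠ 0) : E36 α β q y ≠ 0 := by
  have h1 := omega_ne_zero α β hy
  have h2 := omega_ne_zero α β h1
  have h3 := omega_ne_zero α β h2
  exact mul_ne_zero (mul_ne_zero (mul_ne_zero h3 (pow_ne_zero _ (inv_ne_zero h2)))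
    (pow_ne_zero _ h1)) (pow_ne_zero _ (inv_ne_zero hy))

theorem E36_one : E36 α β q (1 : F) = 1 := by
  unfold E36
  rw [omega_one, omega_one, omega_one, inv_one, one_pow, one_pow, one_pow, mul_one, mul_one,
    mul_one]

theorem E36_mul (y z : F) : E36 α β q (y * z) = E36 α β q y * E36 α β q z := by
  unfold E36
  rw [omega_mul, omega_mul, omega_mul, mul_inv, mul_inv, mul_pow, mul_pow, mul_pow]
  ring

theorem E36_inv {y : F} (hy : y ≠ 0) : E36 α β q y⁻¹ = (E36 α β q y)⁻¹ := by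
  have h := E36_mul α β q y y⁻¹
  rw [mul_inv_cancel₀ hy, E36_one] at h
  exact eq_inv_of_mul_eq_one_right h.symm

theorem E36_pow (y : F) (n : ℕ) : E36 α β q (y ^ n) = E36 α β q y ^ n := by
  induction n with
  | zero => rw [pow_zero, pow_zero, E36_one]
  | succ n ih => rw [pow_succ, pow_succ, E36_mul, ih]

theorem E36_div (y : F) {z : F} (hz : z ≠ 0) :
    E36 α β q (y / z) = E36 α β q y / E36 α β q z := by
  rw [div_eq_mul_inv, E36_mul, E36_inv α β q hz, div_eq_mul_inv]

variable {m : ℕ}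

/-- `E36` preserves `IsCP`. -/
theorem IsCP.E36 {y : F} (hy : IsCP K m y) : IsCP K m (E36 α β q y) := by
  have h1 := hy.omega α β
  have h2 := h1.omega α β
  have h3 := h2.omega α β
  exact ((h3.mul (h2.inv.pow _)).mul (h1.pow _)).mul (hy.inv.pow _)

/-- **The exit from `E36`.**  If the two norms of `f` are constants times `m`-th powers (the
class of `f` is new) and `(E36 f) ^ k` is a constant times an `m`-th power, then so is
`f ^ (k * (2 q (q² - 1)))`. -/
theorem isCP_pow_of_E36 {f : F} (hf : f ≠ 0) (hα : IsCP K m (EsOrd.normAlong α f))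
    (hβ : IsCP K m (EsOrd.normAlong β f)) (k : ℕ) (h : IsCP K m (E36 α β q f ^ k)) :
    IsCP K m (f ^ (k * (2 * q * (q ^ 2 - 1)))) := by
  have h1 : IsCP K m (omega α β f) := isCP_omega_of_norm α β hα hβ
  have h2 := h1.omega α β
  have h3 := h2.omega α β
  have hP : IsCP K m (omega α β (omega α β (omega α β f)) *
      (omega α β (omega α β f))⁻¹ ^ (4 * q) * omega α β f ^ (5 * q ^ 2 - 1)) :=
    (h3.mul (h2.inv.pow _)).mul (h1.pow _)
  have e : f ^ (k * (2 * q * (q ^ 2 - 1))) =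
      (omega α β (omega α β (omega α β f)) *
        (omega α β (omega α β f))⁻¹ ^ (4 * q) * omega α β f ^ (5 * q ^ 2 - 1)) ^ k /
        E36 α β q f ^ k := by
    have hE : E36 α β q f = (omega α β (omega α β (omega α β f)) *
        (omega α β (omega α β f))⁻¹ ^ (4 * q) * omega α β f ^ (5 * q ^ 2 - 1)) *
        f⁻¹ ^ (2 * q * (q ^ 2 - 1)) := rfl
    have hfp : f ^ (2 * q * (q ^ 2 - 1)) * f⁻¹ ^ (2 * q * (q ^ 2 - 1)) = 1 := by
      rw [← mul_pow, mul_inv_cancel₀ hf, one_pow]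
    rw [eq_div_iff (pow_ne_zero k (E36_ne_zero α β q hf)), hE, mul_pow, pow_mul']
    calc (f ^ (2 * q * (q ^ 2 - 1))) ^ k *
          ((omega α β (omega α β (omega α β f)) *
            (omega α β (omega α β f))⁻¹ ^ (4 * q) * omega α β f ^ (5 * q ^ 2 - 1)) ^ k *
            (f⁻¹ ^ (2 * q * (q ^ 2 - 1))) ^ k)
        = (omega α β (omega α β (omega α β f)) *
            (omega α β (omega α β f))⁻¹ ^ (4 * q) * omega α β f ^ (5 * q ^ 2 - 1)) ^ k *
            (f ^ (2 * q * (q ^ 2 - 1)) * f⁻¹ ^ (2 * q * (q ^ 2 - 1))) ^ k := by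
          rw [mul_pow (f ^ (2 * q * (q ^ 2 - 1)))]
          ring
      _ = _ := by rw [hfp, one_pow, mul_one]
  rw [e]
  exact (hP.pow k).div h

end E36

/-! ### the exit to divisors -/

/-- If `div f = m • D` with `m ≠ 0` and `f ^ c` is a constant times an `m`-th power, then
`c • D` is principal. -/
theorem principal_of_isCP_pow
    (hconst : ∀ (P : Place K F) (c : K), c ≠ 0 → P.ord (algebraMap K F c) = 0)
    {f : F} {m : ℕ} (hm : m ≠ 0) (D : Divisor K F)
    (hD : ∀ P : Place K F, P.ord f = (m : ℤ) * D P) (c : ℕ) (h : IsCP K m (f ^ c)) :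
    c • D ∈ Divisor.principal (K := K) (F := F) := by
  obtain ⟨a, H, ha, hH, hfH⟩ := h
  have haF : algebraMap K F a ≠ 0 := (map_ne_zero (algebraMap K F)).mpr ha
  refine ⟨H, hH, fun P => ?_⟩
  have h1 := congrArg P.ord hfH
  rw [← zpow_natCast f c, P.ord_zpow, hD P, P.ord_mul haF (pow_ne_zero m hH), hconst P a ha,
    zero_add, ← zpow_natCast H m, P.ord_zpow] at h1
  rw [Finsupp.smul_apply, nsmul_eq_mul]
  have hm' : (m : ℤ) ≠ 0 := by exact_mod_cast hm
  apply mul_left_cancel₀ hm'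
  linear_combination h1

end Fermat.Agent.S36.ConstPow
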