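/-
S36 (wave 8), top (ℚ̄ end): the contract `Contract.FixedNewBound N q p` from an operator
relation over `ℚ̄`.

`OpRel N q p` : for every place `A` of `ℚ̄` over `q` there is an exponent `k ≠ 0` such that every
`p ^ n`-torsion class `x ∈ J₀(N q)(ℚ̄)` fixed by the inertia group of `A` has ONE representative
`(D, f)` (`x = [D]`, `div f = p ^ n • D`) for which `(E36 f) ^ k` is a constant times a
`p ^ n`-th power; here `E36` is the function form of `χ(Ω)`, `Ω = α^* α_* + β^* β_*`
(`ConstPow.E36` for the two degeneracy maps `X₀(N q) → X₀(N)` over `ℚ̄`).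

`fixedNewBound_of_opRel` : `OpRel N q p → FixedNewBound N q p` (`q ≥ 2`, `p ≠ 0`), with the
constant `c = k · 2 q (q² - 1)`: if `α_* x = β_* x = 0`, the norms of `f` along `α` and `β` are
constants times `p ^ n`-th powers (`S35.NormData.exists_norm_eq_const_mul_pow`), hence so are
`Ω f`, `Ω² f`, `Ω³ f`, and `(E36 f) ^ k` differs from `f ^ (- k · 2 q (q² - 1))` by such a factor
(`ConstPow.isCP_pow_of_E36`); so `c • D` is principal (`ConstPow.principal_of_isCP_pow`).
-/
import Mathlib
import Fermat.Agent.S36.Contract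
import Fermat.Agent.S36.ConstPow
import Fermat.Agent.S35.NormData
import Fermat.Agent.S35.Push
import Fermat.Agent.S29.BCUnram
import Fermat.Agent.S29.ConstOfOrd

set_option autoImplicit false

noncomputable section

namespace Fermat.Agent.S36.FixTop

open ModularCurve AlgebraicCurve Fermat.Agent.S37 Fermat.Agent.S35 Fermat.Agent.S36.ConstPow

local notation "Qb" => AlgebraicClosure ℚ

/-- **The operator relation over `ℚ̄`** (the output of the Kummer descent at an unramified level,
transported to `ℚ̄`): every inertia-fixed `p ^ n`-torsion class of `J₀(N q)` has a representative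
`(D, f)` with `(E36 f) ^ k = constant * (p ^ n)-th power`, `k ≠ 0` depending only on the place. -/
def OpRel (N q p : ℕ) [NeZero N] [NeZero q] : Prop :=
  ∀ A : ValuationSubring Qb, A.LiesOverPrime q → ∃ k : ℕ, k ≠ 0 ∧
    ∀ (n : ℕ) (x : JZero (N * q)), p ^ n • x = 0 →
      (∀ τ ∈ A.inertiaSubgroupIn ℚ, τ • x = x) →
      ∃ (D : Divisor.degZero (K := Qb) (F := modularFunctionFieldBar (N * q)))
        (f : modularFunctionFieldBar (N * q)), f ≠ 0 ∧ x = Pic0.mk D ∧
        (∀ P : Place Qb (modularFunctionFieldBar (N * q)),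
          P.ord f = (p : ℤ) ^ n * (D : Divisor Qb (modularFunctionFieldBar (N * q))) P) ∧
        IsCP Qb (p ^ n) (E36 (heckeAlphaBar Qb N q) (heckeBetaBar Qb N q) q f ^ k)

/-- **`FixedNewBound` from the operator relation.** -/
theorem fixedNewBound_of_opRel {N q p : ℕ} [NeZero N] [NeZero q] (hp : p ≠ 0) (hq : 1 < q)
    (h : OpRel N q p) : Contract.FixedNewBound N q p := by
  intro A hA
  obtain ⟨k, hk, hrel⟩ := h A hA
  refine ⟨k * (2 * q * (q ^ 2 - 1)), ?_, fun n x hx hfix ha hb => ?_⟩
  · have h1 : 1 < q ^ 2 := Nat.one_lt_pow (by norm_num) hq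
    have h2 : q ^ 2 - 1 ≠ 0 := by omega
    have h3 : q ≠ 0 := by omega
    exact mul_ne_zero hk (mul_ne_zero (mul_ne_zero two_ne_zero h3) h2)
  · obtain ⟨D, f, hf, rfl, hfD, hE⟩ := hrel n x hx hfix
    have hfD' : ∀ P : Place Qb (modularFunctionFieldBar (N * q)),
        P.ord f = ((p ^ n : ℕ) : ℤ) * (D : Divisor Qb (modularFunctionFieldBar (N * q))) P := by
      intro P
      rw [hfD P]
      push_cast
      rfl
    -- the norm data of `f`
    obtain ⟨hA', hA0, hAord⟩ := (Push.pushAlpha_mk_eq_zero_iff N q D).mp ha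
    obtain ⟨hB', hB0, hBord⟩ := (Push.pushBeta_mk_eq_zero_iff N q D).mp hb
    obtain ⟨cα, hcα0, hNα⟩ := NormData.exists_norm_eq_const_mul_pow (heckeAlphaBar Qb N q)
      (HeckeInputs.alphaIntegral N q) (HeckeInputs.alphaFinite N q)
      (HeckeInputs.alphaNormFormula N q) (Fermat.Agent.S29.ConstOfOrd.bar_const_of_ord_eq_zero N)
      (p ^ n) (D : Divisor Qb (modularFunctionFieldBar (N * q))) f hf hfD' hA' hA0
      (fun v => (hAord v).symm)
    obtain ⟨cβ, hcβ0, hNβ⟩ := NormData.exists_norm_eq_const_mul_pow (heckeBetaBar Qb N q)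
      (HeckeInputs.betaIntegral N q) (HeckeInputs.betaFinite N q)
      (HeckeInputs.betaNormFormula N q) (Fermat.Agent.S29.ConstOfOrd.bar_const_of_ord_eq_zero N)
      (p ^ n) (D : Divisor Qb (modularFunctionFieldBar (N * q))) f hf hfD' hB' hB0
      (fun v => (hBord v).symm)
    -- `f ^ c` is a constant times a `p ^ n`-th power
    have hcp := isCP_pow_of_E36 (heckeAlphaBar Qb N q) (heckeBetaBar Qb N q) q hf
      ⟨cα, hA', hcα0, hA0, hNα⟩ ⟨cβ, hB', hcβ0, hB0, hNβ⟩ k hE
    have hpr := principal_of_isCP_pow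
      (fun (P : Place Qb (modularFunctionFieldBar (N * q))) (c : Qb) _ =>
        Fermat.Agent.S29.BCUnram.ord_const P c)
      (pow_ne_zero n hp) (D : Divisor Qb (modularFunctionFieldBar (N * q))) hfD'
      (k * (2 * q * (q ^ 2 - 1))) hcp
    show Pic0.mk ((k * (2 * q * (q ^ 2 - 1))) • D) = 0
    refine (QuotientAddGroup.eq_zero_iff _).mpr (AddSubgroup.mem_addSubgroupOf.mpr ?_)
    rw [AddSubgroupClass.coe_nsmul]
    exact hpr

end Fermat.Agent.S36.FixTop
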