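/-
S36 (wave 8), (CORE36) + (TOP, level end): the operator relation `FixTop.OpRel N q p` (hence the
contract `Contract.FixedNewBound N q p`) from NAMED contracts, by ONE application of the Kummer
descent at an unramified level (`S34.GLevel.kummer_at_level`).

Setting: `N` (in the application `N = M' * q`), `q` prime, `p ≠ q` prime, `A` a place of `ℚ̄`
over `q`, `I_A = A.inertiaSubgroupIn ℚ`.  An UNRAMIFIED level is a level `(L, ι)`
(`LevelChange.IsLevel A q S₀ ι`) at which `q` is a uniformiser of `W = A ∩ L`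
(`Irreducible ((q : ℕ) : ↥(A.comap ι))`).

* `ecoreL L N q y = (E36 (y ^ (q - 1))) ^ q` : the level operator (`ConstPow.E36` for the two
  degeneracy maps `heckeAlphaBar L N q`, `heckeBetaBar L N q : FF L N → FF L (N * q)`).

The contracts (all relative to a place `A`):
* `BcE36 N q`          : `E36` commutes with the change of level to `ℚ̄`;
* `Gauss36 N q A`      : at every unramified level `⊇ S₀` (`S₀ ⊆ ℚ̄` finite, `I_A`-fixed),
                         `ecoreL y ≡ 1` on the Gauss ring, for every `y ≠ 0`;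
* `Loc36₁ N q p A e`, `Loc36₂ N q p A e` : the local data of `kummer_at_level` for
                         `w = ecoreL (fL ^ e)`, at every unramified level `⊇ S₀(n, f)` where
                         `f = bc fL`, for `f` with `p ^ n ∣ div f`;
* `DescFix N' p A`     : an `I_A`-fixed `p ^ n`-torsion class has a representative `(D, f)` with
                         `f` fixed by `I_A`;
* `DescLevel N' A`     : an `I_A`-fixed function is defined over every level containing a finite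
                         `I_A`-fixed set;
* `UnramLevel q A`     : every finite `I_A`-fixed set is contained in an unramified level.

* `opRel_of_contracts`         : the contracts imply `FixTop.OpRel N q p`
                                 (`k = e * (q - 1) * q`);
* `fixedNewBound_of_contracts` : … hence `Contract.FixedNewBound N q p`.
-/
import Mathlib
import Fermat.Agent.S36.FixTop
import Fermat.Agent.S36.ConstPow
import Fermat.Agent.S34.GLevel
import Fermat.Agent.S37.LevelChange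

set_option autoImplicit false
set_option linter.style.haveILetI false

noncomputable section

namespace Fermat.Agent.S36.Core36

open ModularCurve AlgebraicCurve Fermat.Agent.S37 Fermat.Agent.S34
open Fermat.Agent.S34.KummerStep Fermat.Agent.S36.ConstPow

local notation "Qb" => AlgebraicClosure ℚ

/-! ### The level operator -/

/-- **The level operator** `ecore y = (E36 (y ^ (q - 1))) ^ q`, `E36 = χ(Ω)` for the two
degeneracy maps `FF L N → FF L (N * q)`. -/
def ecoreL (L : Type) [Field L] [Algebra ℚ L] (N q : ℕ) [NeZero N] [NeZero q]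
    (y : S24.FF L (N * q)) : S24.FF L (N * q) :=
  E36 (heckeAlphaBar L N q) (heckeBetaBar L N q) q (y ^ (q - 1)) ^ q

theorem ecoreL_def (L : Type) [Field L] [Algebra ℚ L] (N q : ℕ) [NeZero N] [NeZero q]
    (y : S24.FF L (N * q)) :
    ecoreL L N q y = E36 (heckeAlphaBar L N q) (heckeBetaBar L N q) q (y ^ (q - 1)) ^ q := rfl

theorem ecoreL_eq_pow (L : Type) [Field L] [Algebra ℚ L] (N q : ℕ) [NeZero N] [NeZero q]
    (y : S24.FF L (N * q)) :
    ecoreL L N q y = E36 (heckeAlphaBar L N q) (heckeBetaBar L N q) q y ^ ((q - 1) * q) := by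
  rw [ecoreL_def, E36_pow, pow_mul]

theorem ecoreL_ne_zero (L : Type) [Field L] [Algebra ℚ L] (N q : ℕ) [NeZero N] [NeZero q]
    {y : S24.FF L (N * q)} (hy : y ≠ 0) : ecoreL L N q y ≠ 0 :=
  pow_ne_zero _ (E36_ne_zero _ _ _ (pow_ne_zero _ hy))

theorem ecoreL_mul (L : Type) [Field L] [Algebra ℚ L] (N q : ℕ) [NeZero N] [NeZero q]
    (y z : S24.FF L (N * q)) : ecoreL L N q (y * z) = ecoreL L N q y * ecoreL L N q z := by
  rw [ecoreL_def, ecoreL_def, ecoreL_def, mul_pow, E36_mul, mul_pow]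

theorem ecoreL_one (L : Type) [Field L] [Algebra ℚ L] (N q : ℕ) [NeZero N] [NeZero q] :
    ecoreL L N q (1 : S24.FF L (N * q)) = 1 := by
  rw [ecoreL_def, one_pow, E36_one, one_pow]

theorem ecoreL_pow (L : Type) [Field L] [Algebra ℚ L] (N q : ℕ) [NeZero N] [NeZero q]
    (y : S24.FF L (N * q)) (n : ℕ) : ecoreL L N q (y ^ n) = ecoreL L N q y ^ n := by
  rw [ecoreL_eq_pow, ecoreL_eq_pow, E36_pow, ← pow_mul, ← pow_mul, mul_comm n ((q - 1) * q)]

theorem ecoreL_inv (L : Type) [Field L] [Algebra ℚ L] (N q : ℕ) [NeZero N] [NeZero q]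
    {y : S24.FF L (N * q)} (hy : y ≠ 0) : ecoreL L N q y⁻¹ = (ecoreL L N q y)⁻¹ := by
  have h := ecoreL_mul L N q y y⁻¹
  rw [mul_inv_cancel₀ hy, ecoreL_one] at h
  exact eq_inv_of_mul_eq_one_right h.symm

/-! ### The contracts -/

/-- **(BcE36)** `E36` commutes with the change of level to `ℚ̄`. -/
def BcE36 (N q : ℕ) [NeZero N] [NeZero q] : Prop :=
  ∀ (L : Type) [Field L] [Algebra ℚ L] (ι : L →+* Qb) (y : S24.FF L (N * q)),
    S24.CoeffBC.bc ι (modularFunctionFieldFull (N * q))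
        (E36 (heckeAlphaBar L N q) (heckeBetaBar L N q) q y) =
      E36 (heckeAlphaBar Qb N q) (heckeBetaBar Qb N q) q
        (S24.CoeffBC.bc ι (modularFunctionFieldFull (N * q)) y)

/-- **(GAUSS36)** There is a finite `I_A`-fixed set `S₀ ⊆ ℚ̄` such that at every unramified level
`⊇ S₀` and for every `y ≠ 0`: `ecoreL y ≡ 1` on the Gauss ring. -/
def Gauss36 (N q : ℕ) [NeZero N] [NeZero q] (A : ValuationSubring Qb) : Prop :=
  ∃ S₀ : Finset Qb, (∀ a ∈ S₀, ∀ τ ∈ A.inertiaSubgroupIn ℚ, τ a = a) ∧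
    ∀ (L : Type) [Field L] [Algebra ℚ L] (ι : L →+* Qb),
      LevelChange.IsLevel A q S₀ ι → Irreducible ((q : ℕ) : ↥(A.comap ι)) →
      ∀ y : S24.FF L (N * q), y ≠ 0 →
        GaussOne ((q : ℕ) : ↥(A.comap ι)) (S24.jBC L (N * q)) (ecoreL L N q y)

/-- **(LOC36₁)** the local datum on the finite chart: for `f` with `p ^ n ∣ div f`, fixed by
`I_A`, there is a finite `I_A`-fixed `S₀ ⊆ ℚ̄` such that at every unramified level `⊇ S₀` where
`f = bc fL`, at every maximal ideal `𝔫 ∋ q` of the chart ring `B₁` (the integral closure of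
`W[j]` in `FF L (N * q)`) there is `g ≡ 1` on the Gauss ring with `ecoreL (fL ^ e) * g ^ (p ^ n)`
integral at `𝔫`. -/
def Loc36₁ (N q p : ℕ) [NeZero N] [NeZero q] (A : ValuationSubring Qb) (e : ℕ) : Prop :=
  ∀ (n : ℕ) (f : modularFunctionFieldBar (N * q)), f ≠ 0 →
    (∀ P : Place Qb (modularFunctionFieldBar (N * q)), (p : ℤ) ^ n ∣ P.ord f) →
    (∀ τ ∈ A.inertiaSubgroupIn ℚ,
      arithmeticGalois (modularFunctionFieldFull (N * q)) τ • f = f) →
    ∃ S₀ : Finset Qb, (∀ a ∈ S₀, ∀ τ ∈ A.inertiaSubgroupIn ℚ, τ a = a) ∧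
      ∀ (L : Type) [Field L] [Algebra ℚ L] (ι : L →+* Qb),
      LevelChange.IsLevel A q S₀ ι → Irreducible ((q : ℕ) : ↥(A.comap ι)) →
      ∀ fL : S24.FF L (N * q),
        S24.CoeffBC.bc ι (modularFunctionFieldFull (N * q)) fL = f →
      ∀ 𝔫 : Ideal (integralClosure (Algebra.adjoin ↥(A.comap ι) {S24.jBC L (N * q)})
          (S24.FF L (N * q))), 𝔫.IsMaximal →
        (∀ r : integralClosure (Algebra.adjoin ↥(A.comap ι) {S24.jBC L (N * q)})
            (S24.FF L (N * q)),
          (r : S24.FF L (N * q)) =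
            algebraMap ↥(A.comap ι) (S24.FF L (N * q)) ((q : ℕ) : ↥(A.comap ι)) → r ∈ 𝔫) →
        ∃ g : S24.FF L (N * q),
          GaussOne ((q : ℕ) : ↥(A.comap ι)) (S24.jBC L (N * q)) g ∧
          ∃ d : integralClosure (Algebra.adjoin ↥(A.comap ι) {S24.jBC L (N * q)})
              (S24.FF L (N * q)), d ∉ 𝔫 ∧
            IsIntegral (Algebra.adjoin ↥(A.comap ι) {S24.jBC L (N * q)})
              ((d : S24.FF L (N * q)) * (ecoreL L N q (fL ^ e) * g ^ (p ^ n)))

/-- **(LOC36₂)** the local datum at the cusps: the same for the integral closure `B₂` of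
`W[1/j]`, only at the maximal ideals containing `q` and `1/j`. -/
def Loc36₂ (N q p : ℕ) [NeZero N] [NeZero q] (A : ValuationSubring Qb) (e : ℕ) : Prop :=
  ∀ (n : ℕ) (f : modularFunctionFieldBar (N * q)), f ≠ 0 →
    (∀ P : Place Qb (modularFunctionFieldBar (N * q)), (p : ℤ) ^ n ∣ P.ord f) →
    (∀ τ ∈ A.inertiaSubgroupIn ℚ,
      arithmeticGalois (modularFunctionFieldFull (N * q)) τ • f = f) →
    ∃ S₀ : Finset Qb, (∀ a ∈ S₀, ∀ τ ∈ A.inertiaSubgroupIn ℚ, τ a = a) ∧
      ∀ (L : Type) [Field L] [Algebra ℚ L] (ι : L →+* Qb),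
      LevelChange.IsLevel A q S₀ ι → Irreducible ((q : ℕ) : ↥(A.comap ι)) →
      ∀ fL : S24.FF L (N * q),
        S24.CoeffBC.bc ι (modularFunctionFieldFull (N * q)) fL = f →
      ∀ 𝔫 : Ideal (integralClosure (Algebra.adjoin ↥(A.comap ι) {(S24.jBC L (N * q))⁻¹})
          (S24.FF L (N * q))), 𝔫.IsMaximal →
        (∀ r : integralClosure (Algebra.adjoin ↥(A.comap ι) {(S24.jBC L (N * q))⁻¹})
            (S24.FF L (N * q)),
          (r : S24.FF L (N * q)) =
            algebraMap ↥(A.comap ι) (S24.FF L (N * q)) ((q : ℕ) : ↥(A.comap ι)) → r ∈ 𝔫) →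
        (∀ r : integralClosure (Algebra.adjoin ↥(A.comap ι) {(S24.jBC L (N * q))⁻¹})
            (S24.FF L (N * q)),
          (r : S24.FF L (N * q)) = (S24.jBC L (N * q))⁻¹ → r ∈ 𝔫) →
        ∃ g : S24.FF L (N * q),
          GaussOne ((q : ℕ) : ↥(A.comap ι)) (S24.jBC L (N * q)) g ∧
          ∃ d : integralClosure (Algebra.adjoin ↥(A.comap ι) {(S24.jBC L (N * q))⁻¹})
              (S24.FF L (N * q)), d ∉ 𝔫 ∧
            IsIntegral (Algebra.adjoin ↥(A.comap ι) {(S24.jBC L (N * q))⁻¹})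
              ((d : S24.FF L (N * q)) * (ecoreL L N q (fL ^ e) * g ^ (p ^ n)))

/-- **(DESC-1)** an `I_A`-fixed `p ^ n`-torsion class of `J₀(N')` has a representative `(D, f)`
(`x = [D]`, `div f = p ^ n • D`) with `f` fixed by `I_A`. -/
def DescFix (N' p : ℕ) [NeZero N'] (A : ValuationSubring Qb) : Prop :=
  ∀ (n : ℕ) (x : JZero N'), p ^ n • x = 0 → (∀ τ ∈ A.inertiaSubgroupIn ℚ, τ • x = x) →
    ∃ (D : Divisor.degZero (K := Qb) (F := modularFunctionFieldBar N'))
      (f : modularFunctionFieldBar N'), f ≠ 0 ∧ Pic0.mk D = x ∧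
      (∀ P : Place Qb (modularFunctionFieldBar N'),
        P.ord f = ((p ^ n : ℕ) : ℤ) * (D : Divisor Qb (modularFunctionFieldBar N')) P) ∧
      ∀ τ ∈ A.inertiaSubgroupIn ℚ, arithmeticGalois (modularFunctionFieldFull N') τ • f = f

/-- **(DESC-2)** an `I_A`-fixed function of `F̄_{N'}` is defined over every level containing a
suitable finite `I_A`-fixed set. -/
def DescLevel (N' : ℕ) [NeZero N'] (A : ValuationSubring Qb) : Prop :=
  ∀ f : modularFunctionFieldBar N',
    (∀ τ ∈ A.inertiaSubgroupIn ℚ, arithmeticGalois (modularFunctionFieldFull N') τ • f = f) →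
    ∃ S : Finset Qb, (∀ a ∈ S, ∀ τ ∈ A.inertiaSubgroupIn ℚ, τ a = a) ∧
      ∀ (L : Type) [Field L] [Algebra ℚ L] (ι : L →+* Qb), (∀ a ∈ S, ∃ b : L, ι b = a) →
        ∃ fL : S24.FF L N', S24.CoeffBC.bc ι (modularFunctionFieldFull N') fL = f

/-- **(DESC-3)** every finite `I_A`-fixed subset of `ℚ̄` lies in an unramified level. -/
def UnramLevel (q : ℕ) (A : ValuationSubring Qb) : Prop :=
  ∀ S : Finset Qb, (∀ a ∈ S, ∀ τ ∈ A.inertiaSubgroupIn ℚ, τ a = a) →
    ∃ (L : Type) (_ : Field L) (_ : Algebra ℚ L) (ι : L →+* Qb),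
      LevelChange.IsLevel A q S ι ∧ Irreducible ((q : ℕ) : ↥(A.comap ι))

/-! ### The assembly -/

section Assembly

variable (N q p : ℕ) [NeZero N] [NeZero q]

set_option maxHeartbeats 1600000 in
-- the instance `Algebra ↥W (FF L N)` is found slowly
/-- **(CORE36)** at an unramified level: from `GaussOne` and the two local data, the level
operator of `fL ^ e` is a constant times a `p ^ n`-th power. -/
theorem core_at_level (hq : q.Prime) (hp : p.Prime) (hqp : q ≠ p) {A : ValuationSubring Qb}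
    {S₀ : Finset Qb} {L : Type} [Field L] [Algebra ℚ L] {ι : L →+* Qb}
    (hlev : LevelChange.IsLevel A q S₀ ι) (hπ : Irreducible ((q : ℕ) : ↥(A.comap ι)))
    (n : ℕ) (w : S24.FF L (N * q))
    (hw : GaussOne ((q : ℕ) : ↥(A.comap ι)) (S24.jBC L (N * q)) w)
    (hloc₁ : ∀ 𝔫 : Ideal (integralClosure (Algebra.adjoin ↥(A.comap ι) {S24.jBC L (N * q)})
        (S24.FF L (N * q))), 𝔫.IsMaximal →
      (∀ r : integralClosure (Algebra.adjoin ↥(A.comap ι) {S24.jBC L (N * q)})
          (S24.FF L (N * q)),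
        (r : S24.FF L (N * q)) =
          algebraMap ↥(A.comap ι) (S24.FF L (N * q)) ((q : ℕ) : ↥(A.comap ι)) → r ∈ 𝔫) →
      ∃ g : S24.FF L (N * q), GaussOne ((q : ℕ) : ↥(A.comap ι)) (S24.jBC L (N * q)) g ∧
        ∃ d : integralClosure (Algebra.adjoin ↥(A.comap ι) {S24.jBC L (N * q)})
            (S24.FF L (N * q)), d ∉ 𝔫 ∧
          IsIntegral (Algebra.adjoin ↥(A.comap ι) {S24.jBC L (N * q)})
            ((d : S24.FF L (N * q)) * (w * g ^ (p ^ n))))
    (hloc₂ : ∀ 𝔫 : Ideal (integralClosure (Algebra.adjoin ↥(A.comap ι) {(S24.jBC L (N * q))⁻¹})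
        (S24.FF L (N * q))), 𝔫.IsMaximal →
      (∀ r : integralClosure (Algebra.adjoin ↥(A.comap ι) {(S24.jBC L (N * q))⁻¹})
          (S24.FF L (N * q)),
        (r : S24.FF L (N * q)) =
          algebraMap ↥(A.comap ι) (S24.FF L (N * q)) ((q : ℕ) : ↥(A.comap ι)) → r ∈ 𝔫) →
      (∀ r : integralClosure (Algebra.adjoin ↥(A.comap ι) {(S24.jBC L (N * q))⁻¹})
          (S24.FF L (N * q)),
        (r : S24.FF L (N * q)) = (S24.jBC L (N * q))⁻¹ → r ∈ 𝔫) →
      ∃ g : S24.FF L (N * q), GaussOne ((q : ℕ) : ↥(A.comap ι)) (S24.jBC L (N * q)) g ∧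
        ∃ d : integralClosure (Algebra.adjoin ↥(A.comap ι) {(S24.jBC L (N * q))⁻¹})
            (S24.FF L (N * q)), d ∉ 𝔫 ∧
          IsIntegral (Algebra.adjoin ↥(A.comap ι) {(S24.jBC L (N * q))⁻¹})
            ((d : S24.FF L (N * q)) * (w * g ^ (p ^ n)))) :
    ∃ (a : L) (H : S24.FF L (N * q)), a ≠ 0 ∧
      w = algebraMap L (S24.FF L (N * q)) a * H ^ (p ^ n) :=
  GLevel.kummer_at_level (N * q) hlev hq hp hqp _ hπ n w hw hloc₁ hloc₂

set_option maxHeartbeats 1600000 in
-- the instance `Algebra ↥W (FF L N)` is found slowly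
/-- **(CORE36) + (TOP, level end): the operator relation over `ℚ̄` from the contracts.** -/
theorem opRel_of_contracts (hq : q.Prime) (hp : p.Prime) (hqp : q ≠ p) (hbc : BcE36 N q)
    (h : ∀ A : ValuationSubring Qb, A.LiesOverPrime q →
      DescFix (N * q) p A ∧ DescLevel (N * q) A ∧ UnramLevel q A ∧ Gauss36 N q A ∧
        ∃ e : ℕ, e ≠ 0 ∧ Loc36₁ N q p A e ∧ Loc36₂ N q p A e) :
    FixTop.OpRel N q p := by
  classical
  intro A hA
  obtain ⟨hD1, hD2, hD3, ⟨S₁, hS₁fix, hS₁⟩, e, he, hL₁, hL₂⟩ := h A hA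
  have hq1 : q - 1 ≠ 0 := by have := hq.two_le; omega
  refine ⟨e * ((q - 1) * q), mul_ne_zero he (mul_ne_zero hq1 hq.ne_zero), ?_⟩
  intro n x hx hfix
  obtain ⟨D, f, hf, hxD, hfD, hffix⟩ := hD1 n x hx hfix
  have hfD' : ∀ P : Place Qb (modularFunctionFieldBar (N * q)),
      P.ord f = (p : ℤ) ^ n * (D : Divisor Qb (modularFunctionFieldBar (N * q))) P := by
    intro P
    rw [hfD P]
    push_cast
    rfl
  have hdvd : ∀ P : Place Qb (modularFunctionFieldBar (N * q)), (p : ℤ) ^ n ∣ P.ord f :=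
    fun P => ⟨_, hfD' P⟩
  obtain ⟨S₂, hS₂fix, hS₂⟩ := hD2 f hffix
  obtain ⟨S₃, hS₃fix, hS₃⟩ := hL₁ n f hf hdvd hffix
  obtain ⟨S₄, hS₄fix, hS₄⟩ := hL₂ n f hf hdvd hffix
  have hSfix : ∀ a ∈ S₁ ∪ S₂ ∪ (S₃ ∪ S₄), ∀ τ ∈ A.inertiaSubgroupIn ℚ, τ a = a := by
    intro a ha
    rcases Finset.mem_union.mp ha with ha | ha
    · rcases Finset.mem_union.mp ha with ha | ha
      · exact hS₁fix a ha
      · exact hS₂fix a ha
    · rcases Finset.mem_union.mp ha with ha | ha
      · exact hS₃fix a ha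
      · exact hS₄fix a ha
  obtain ⟨L, _, _, ι, hlev, hπ⟩ := hD3 (S₁ ∪ S₂ ∪ (S₃ ∪ S₄)) hSfix
  have hl₁ : LevelChange.IsLevel A q S₁ ι := GalLevel.isLevel_mono hlev
    (Finset.subset_union_left.trans Finset.subset_union_left)
  have hl₃ : LevelChange.IsLevel A q S₃ ι := GalLevel.isLevel_mono hlev
    (Finset.subset_union_left.trans Finset.subset_union_right)
  have hl₄ : LevelChange.IsLevel A q S₄ ι := GalLevel.isLevel_mono hlev
    (Finset.subset_union_right.trans Finset.subset_union_right)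
  obtain ⟨fL, hfL⟩ := hS₂ L ι (fun a ha => hlev.1 a
    (Finset.mem_union_left _ (Finset.mem_union_right _ ha)))
  have hfL0 : fL ≠ 0 := by
    rintro rfl
    exact hf (by rw [← hfL, map_zero])
  obtain ⟨a, H, ha, hH⟩ := core_at_level N q p hq hp hqp hlev hπ n (ecoreL L N q (fL ^ e))
    (hS₁ L ι hl₁ hπ _ (pow_ne_zero e hfL0)) (hS₃ L ι hl₃ hπ fL hfL) (hS₄ L ι hl₄ hπ fL hfL)
  refine ⟨D, f, hf, hxD.symm, hfD', ?_⟩
  have hH0 : H ≠ 0 := by
    rintro rfl
    rw [zero_pow (pow_ne_zero n hp.ne_zero), mul_zero] at hH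
    exact ecoreL_ne_zero L N q (pow_ne_zero e hfL0) hH
  have key := congrArg (S24.CoeffBC.bc ι (modularFunctionFieldFull (N * q))) hH
  rw [ecoreL_eq_pow, map_pow, hbc L ι, map_pow, hfL, E36_pow, ← pow_mul, map_mul, map_pow,
    S24.CoeffBC.bc_algebraMap] at key
  exact ⟨ι a, S24.CoeffBC.bc ι (modularFunctionFieldFull (N * q)) H, (map_ne_zero ι).mpr ha,
    (map_ne_zero _).mpr hH0, key⟩

/-- **`Contract.FixedNewBound N q p` from the contracts.** -/
theorem fixedNewBound_of_contracts (hq : q.Prime) (hp : p.Prime) (hqp : q ≠ p)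
    (hbc : BcE36 N q)
    (h : ∀ A : ValuationSubring Qb, A.LiesOverPrime q →
      DescFix (N * q) p A ∧ DescLevel (N * q) A ∧ UnramLevel q A ∧ Gauss36 N q A ∧
        ∃ e : ℕ, e ≠ 0 ∧ Loc36₁ N q p A e ∧ Loc36₂ N q p A e) :
    Contract.FixedNewBound N q p :=
  FixTop.fixedNewBound_of_opRel hp.ne_zero hq.one_lt (opRel_of_contracts N q p hq hp hqp hbc h)

end Assembly

end Fermat.Agent.S36.Core36
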