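/-
S36 (wave 8), (CORE36) + (TOP) with a LEVEL PREDICATE: the contracts of `S36/Core36.lean` where
the levels are restricted by an additional property `Φ` chosen once per place `A`
(in the application `Φ L ι := FrobStable A q ι`: some Frobenius lift at `A` restricts to `L` —
the unramified levels are not Galois-stable, but the structure theorems of the arithmetic surface
need a Frobenius partner at the level).

`LevelPred` : a property of levels `(L, ι : L →+* ℚ̄)`.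

* `Gauss36P Φ N q A`, `Loc36P₁ Φ N q p A e`, `Loc36P₂ Φ N q p A e` : the contracts `Core36.Gauss36`,
  `Core36.Loc36₁`, `Core36.Loc36₂` at the unramified levels satisfying `Φ` only;
* `UnramLevelP Φ q A` : every finite `I_A`-fixed set lies in an unramified level satisfying `Φ`;
* `gauss36P_of_gauss36`, `loc36P₁_of_loc36₁`, `loc36P₂_of_loc36₂` : the contracts of `Core36`
  imply the restricted ones (for every `Φ`);
* `Gauss36P.mono`, `Loc36P₁.mono`, `Loc36P₂.mono` : a stronger level predicate gives a weaker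
  contract;
* `opRel_of_contractsP`, `fixedNewBound_of_contractsP` : the assembly
  (`Core36.core_at_level` = `S34.GLevel.kummer_at_level` at `π = q`).
-/
import Mathlib
import Fermat.Agent.S36.Core36

set_option autoImplicit false
set_option linter.style.haveILetI false

noncomputable section

namespace Fermat.Agent.S36.Core36P

open ModularCurve AlgebraicCurve Fermat.Agent.S37 Fermat.Agent.S34
open Fermat.Agent.S34.KummerStep Fermat.Agent.S36.ConstPow Fermat.Agent.S36.Core36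

local notation "Qb" => AlgebraicClosure ℚ

/-- A property of levels `(L, ι : L →+* ℚ̄)`. -/
abbrev LevelPred : Type 1 :=
  ∀ (L : Type) [Field L] [Algebra ℚ L], (L →+* Qb) → Prop

/-! ### The contracts -/

/-- **(GAUSS36), restricted levels.**  There is a finite `I_A`-fixed set `S₀ ⊆ ℚ̄` such that at
every unramified level `⊇ S₀` with `Φ` and for every `y ≠ 0`: `ecoreL y ≡ 1` on the Gauss ring. -/
def Gauss36P (Φ : LevelPred) (N q : ℕ) [NeZero N] [NeZero q] (A : ValuationSubring Qb) : Prop :=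
  ∃ S₀ : Finset Qb, (∀ a ∈ S₀, ∀ τ ∈ A.inertiaSubgroupIn ℚ, τ a = a) ∧
    ∀ (L : Type) [Field L] [Algebra ℚ L] (ι : L →+* Qb),
      LevelChange.IsLevel A q S₀ ι → Irreducible ((q : ℕ) : ↥(A.comap ι)) → Φ L ι →
      ∀ y : S24.FF L (N * q), y ≠ 0 →
        GaussOne ((q : ℕ) : ↥(A.comap ι)) (S24.jBC L (N * q)) (ecoreL L N q y)

/-- **(LOC36₁), restricted levels**: `Core36.Loc36₁` at the unramified levels with `Φ`. -/
def Loc36P₁ (Φ : LevelPred) (N q p : ℕ) [NeZero N] [NeZero q] (A : ValuationSubring Qb)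
    (e : ℕ) : Prop :=
  ∀ (n : ℕ) (f : modularFunctionFieldBar (N * q)), f ≠ 0 →
    (∀ P : Place Qb (modularFunctionFieldBar (N * q)), (p : ℤ) ^ n ∣ P.ord f) →
    (∀ τ ∈ A.inertiaSubgroupIn ℚ,
      arithmeticGalois (modularFunctionFieldFull (N * q)) τ • f = f) →
    ∃ S₀ : Finset Qb, (∀ a ∈ S₀, ∀ τ ∈ A.inertiaSubgroupIn ℚ, τ a = a) ∧
      ∀ (L : Type) [Field L] [Algebra ℚ L] (ι : L →+* Qb),
      LevelChange.IsLevel A q S₀ ι → Irreducible ((q : ℕ) : ↥(A.comap ι)) → Φ L ι →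
      ∀ fL : S24.FF L (N * q),
        S24.CoeffBC.bc ι (modularFunctionFieldFull (N * q)) fL = f →
      ∀ 𝔫 : Ideal (integralClosure (Algebra.adjoin ↥(A.comap ι) {S24.jBC L (N * q)})
          (S24.FF L (N * q))), 𝔫.IsMaximal →
        (∀ r : integralClosure (Algebra.adjoin ↥(A.comap ι) {S24.jBC L (N * q)})
            (S24.FF L (N * q)),
          (r : S24.FF L (N * q)) =
            algebraMap ↥(A.comap ι) (S24.FF L (N * q)) ((q : ℕ) : ↥(A.comap ι)) → r ∈ 𝔫) →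
        ∃ g : S24.FF L (N * q),
          GaussOne ((q : ℕ) : ↥(A.comap ι)) (S24.jBC L (N * q)) g ∧
          ∃ d : integralClosure (Algebra.adjoin ↥(A.comap ι) {S24.jBC L (N * q)})
              (S24.FF L (N * q)), d ∉ 𝔫 ∧
            IsIntegral (Algebra.adjoin ↥(A.comap ι) {S24.jBC L (N * q)})
              ((d : S24.FF L (N * q)) * (ecoreL L N q (fL ^ e) * g ^ (p ^ n)))

/-- **(LOC36₂), restricted levels**: `Core36.Loc36₂` at the unramified levels with `Φ`. -/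
def Loc36P₂ (Φ : LevelPred) (N q p : ℕ) [NeZero N] [NeZero q] (A : ValuationSubring Qb)
    (e : ℕ) : Prop :=
  ∀ (n : ℕ) (f : modularFunctionFieldBar (N * q)), f ≠ 0 →
    (∀ P : Place Qb (modularFunctionFieldBar (N * q)), (p : ℤ) ^ n ∣ P.ord f) →
    (∀ τ ∈ A.inertiaSubgroupIn ℚ,
      arithmeticGalois (modularFunctionFieldFull (N * q)) τ • f = f) →
    ∃ S₀ : Finset Qb, (∀ a ∈ S₀, ∀ τ ∈ A.inertiaSubgroupIn ℚ, τ a = a) ∧
      ∀ (L : Type) [Field L] [Algebra ℚ L] (ι : L →+* Qb),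
      LevelChange.IsLevel A q S₀ ι → Irreducible ((q : ℕ) : ↥(A.comap ι)) → Φ L ι →
      ∀ fL : S24.FF L (N * q),
        S24.CoeffBC.bc ι (modularFunctionFieldFull (N * q)) fL = f →
      ∀ 𝔫 : Ideal (integralClosure (Algebra.adjoin ↥(A.comap ι) {(S24.jBC L (N * q))⁻¹})
          (S24.FF L (N * q))), 𝔫.IsMaximal →
        (∀ r : integralClosure (Algebra.adjoin ↥(A.comap ι) {(S24.jBC L (N * q))⁻¹})
            (S24.FF L (N * q)),
          (r : S24.FF L (N * q)) =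
            algebraMap ↥(A.comap ι) (S24.FF L (N * q)) ((q : ℕ) : ↥(A.comap ι)) → r ∈ 𝔫) →
        (∀ r : integralClosure (Algebra.adjoin ↥(A.comap ι) {(S24.jBC L (N * q))⁻¹})
            (S24.FF L (N * q)),
          (r : S24.FF L (N * q)) = (S24.jBC L (N * q))⁻¹ → r ∈ 𝔫) →
        ∃ g : S24.FF L (N * q),
          GaussOne ((q : ℕ) : ↥(A.comap ι)) (S24.jBC L (N * q)) g ∧
          ∃ d : integralClosure (Algebra.adjoin ↥(A.comap ι) {(S24.jBC L (N * q))⁻¹})
              (S24.FF L (N * q)), d ∉ 𝔫 ∧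
            IsIntegral (Algebra.adjoin ↥(A.comap ι) {(S24.jBC L (N * q))⁻¹})
              ((d : S24.FF L (N * q)) * (ecoreL L N q (fL ^ e) * g ^ (p ^ n)))

/-- **(DESC-3), restricted levels**: every finite `I_A`-fixed subset of `ℚ̄` lies in an
unramified level satisfying `Φ`. -/
def UnramLevelP (Φ : LevelPred) (q : ℕ) (A : ValuationSubring Qb) : Prop :=
  ∀ S : Finset Qb, (∀ a ∈ S, ∀ τ ∈ A.inertiaSubgroupIn ℚ, τ a = a) →
    ∃ (L : Type) (_ : Field L) (_ : Algebra ℚ L) (ι : L →+* Qb),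
      LevelChange.IsLevel A q S ι ∧ Irreducible ((q : ℕ) : ↥(A.comap ι)) ∧ Φ L ι

/-! ### Comparison with `Core36` and monotonicity -/

section Compare

variable (Φ : LevelPred) (N q p : ℕ) [NeZero N] [NeZero q] (A : ValuationSubring Qb)

theorem gauss36P_of_gauss36 (h : Gauss36 N q A) : Gauss36P Φ N q A := by
  obtain ⟨S₀, hS₀, h⟩ := h
  exact ⟨S₀, hS₀, fun L _ _ ι hlev hπ _ => h L ι hlev hπ⟩

theorem loc36P₁_of_loc36₁ (e : ℕ) (h : Loc36₁ N q p A e) : Loc36P₁ Φ N q p A e := by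
  intro n f hf hdvd hfix
  obtain ⟨S₀, hS₀, h⟩ := h n f hf hdvd hfix
  exact ⟨S₀, hS₀, fun L _ _ ι hlev hπ _ => h L ι hlev hπ⟩

theorem loc36P₂_of_loc36₂ (e : ℕ) (h : Loc36₂ N q p A e) : Loc36P₂ Φ N q p A e := by
  intro n f hf hdvd hfix
  obtain ⟨S₀, hS₀, h⟩ := h n f hf hdvd hfix
  exact ⟨S₀, hS₀, fun L _ _ ι hlev hπ _ => h L ι hlev hπ⟩

variable {Φ} {Ψ : LevelPred}

theorem Gauss36P.mono (hΦΨ : ∀ (L : Type) [Field L] [Algebra ℚ L] (ι : L →+* Qb), Ψ L ι → Φ L ι)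
    (h : Gauss36P Φ N q A) : Gauss36P Ψ N q A := by
  obtain ⟨S₀, hS₀, h⟩ := h
  exact ⟨S₀, hS₀, fun L _ _ ι hlev hπ hΨ => h L ι hlev hπ (hΦΨ L ι hΨ)⟩

theorem Loc36P₁.mono (hΦΨ : ∀ (L : Type) [Field L] [Algebra ℚ L] (ι : L →+* Qb), Ψ L ι → Φ L ι)
    {e : ℕ} (h : Loc36P₁ Φ N q p A e) : Loc36P₁ Ψ N q p A e := by
  intro n f hf hdvd hfix
  obtain ⟨S₀, hS₀, h⟩ := h n f hf hdvd hfix
  exact ⟨S₀, hS₀, fun L _ _ ι hlev hπ hΨ => h L ι hlev hπ (hΦΨ L ι hΨ)⟩

theorem Loc36P₂.mono (hΦΨ : ∀ (L : Type) [Field L] [Algebra ℚ L] (ι : L →+* Qb), Ψ L ι → Φ L ι)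
    {e : ℕ} (h : Loc36P₂ Φ N q p A e) : Loc36P₂ Ψ N q p A e := by
  intro n f hf hdvd hfix
  obtain ⟨S₀, hS₀, h⟩ := h n f hf hdvd hfix
  exact ⟨S₀, hS₀, fun L _ _ ι hlev hπ hΨ => h L ι hlev hπ (hΦΨ L ι hΨ)⟩

end Compare

/-! ### The assembly -/

section Assembly

variable (N q p : ℕ) [NeZero N] [NeZero q]

set_option maxHeartbeats 1600000 in
-- the instance `Algebra ↥W (FF L N)` is found slowly
/-- **(CORE36) + (TOP, level end), with a level predicate `Φ A` per place.** -/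
theorem opRel_of_contractsP (Φ : ValuationSubring Qb → LevelPred) (hq : q.Prime) (hp : p.Prime)
    (hqp : q ≠ p) (hbc : BcE36 N q)
    (h : ∀ A : ValuationSubring Qb, A.LiesOverPrime q →
      DescFix (N * q) p A ∧ DescLevel (N * q) A ∧ UnramLevelP (Φ A) q A ∧
        Gauss36P (Φ A) N q A ∧
        ∃ e : ℕ, e ≠ 0 ∧ Loc36P₁ (Φ A) N q p A e ∧ Loc36P₂ (Φ A) N q p A e) :
    FixTop.OpRel N q p := by
  classical
  intro A hA
  obtain ⟨hD1, hD2, hD3, ⟨S₁, hS₁fix, hS₁⟩, e, he, hL₁, hL₂⟩ := h A hA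
  have hq1 : q - 1 ≠ 0 := by have := hq.two_le; omega
  refine ⟨e * ((q - 1) * q), mul_ne_zero he (mul_ne_zero hq1 hq.ne_zero), ?_⟩
  intro n x hx hfix
  obtain ⟨D, f, hf, hxD, hfD, hffix⟩ := hD1 n x hx hfix
  have hfD' : ∀ P : Place Qb (modularFunctionFieldBar (N * q)),
      P.ord f = (p : ℤ) ^ n * (D : Divisor Qb (modularFunctionFieldBar (N * q))) P := by
    intro P
    rw [hfD P]
    push_cast
    rfl
  have hdvd : ∀ P : Place Qb (modularFunctionFieldBar (N * q)), (p : ℤ) ^ n ∣ P.ord f :=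
    fun P => ⟨_, hfD' P⟩
  obtain ⟨S₂, hS₂fix, hS₂⟩ := hD2 f hffix
  obtain ⟨S₃, hS₃fix, hS₃⟩ := hL₁ n f hf hdvd hffix
  obtain ⟨S₄, hS₄fix, hS₄⟩ := hL₂ n f hf hdvd hffix
  have hSfix : ∀ a ∈ S₁ ∪ S₂ ∪ (S₃ ∪ S₄), ∀ τ ∈ A.inertiaSubgroupIn ℚ, τ a = a := by
    intro a ha
    rcases Finset.mem_union.mp ha with ha | ha
    · rcases Finset.mem_union.mp ha with ha | ha
      · exact hS₁fix a ha
      · exact hS₂fix a ha
    · rcases Finset.mem_union.mp ha with ha | ha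
      · exact hS₃fix a ha
      · exact hS₄fix a ha
  obtain ⟨L, _, _, ι, hlev, hπ, hΦ⟩ := hD3 (S₁ ∪ S₂ ∪ (S₃ ∪ S₄)) hSfix
  have hl₁ : LevelChange.IsLevel A q S₁ ι := GalLevel.isLevel_mono hlev
    (Finset.subset_union_left.trans Finset.subset_union_left)
  have hl₃ : LevelChange.IsLevel A q S₃ ι := GalLevel.isLevel_mono hlev
    (Finset.subset_union_left.trans Finset.subset_union_right)
  have hl₄ : LevelChange.IsLevel A q S₄ ι := GalLevel.isLevel_mono hlev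
    (Finset.subset_union_right.trans Finset.subset_union_right)
  obtain ⟨fL, hfL⟩ := hS₂ L ι (fun a ha => hlev.1 a
    (Finset.mem_union_left _ (Finset.mem_union_right _ ha)))
  have hfL0 : fL ≠ 0 := by
    rintro rfl
    exact hf (by rw [← hfL, map_zero])
  obtain ⟨a, H, ha, hH⟩ := core_at_level N q p hq hp hqp hlev hπ n (ecoreL L N q (fL ^ e))
    (hS₁ L ι hl₁ hπ hΦ _ (pow_ne_zero e hfL0)) (hS₃ L ι hl₃ hπ hΦ fL hfL)
    (hS₄ L ι hl₄ hπ hΦ fL hfL)
  refine ⟨D, f, hf, hxD.symm, hfD', ?_⟩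
  have hH0 : H ≠ 0 := by
    rintro rfl
    rw [zero_pow (pow_ne_zero n hp.ne_zero), mul_zero] at hH
    exact ecoreL_ne_zero L N q (pow_ne_zero e hfL0) hH
  have key := congrArg (S24.CoeffBC.bc ι (modularFunctionFieldFull (N * q))) hH
  rw [ecoreL_eq_pow, map_pow, hbc L ι, map_pow, hfL, E36_pow, ← pow_mul, map_mul, map_pow,
    S24.CoeffBC.bc_algebraMap] at key
  exact ⟨ι a, S24.CoeffBC.bc ι (modularFunctionFieldFull (N * q)) H, (map_ne_zero ι).mpr ha,
    (map_ne_zero _).mpr hH0, key⟩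

/-- **`Contract.FixedNewBound N q p` from the contracts with a level predicate.** -/
theorem fixedNewBound_of_contractsP (Φ : ValuationSubring Qb → LevelPred) (hq : q.Prime)
    (hp : p.Prime) (hqp : q ≠ p) (hbc : BcE36 N q)
    (h : ∀ A : ValuationSubring Qb, A.LiesOverPrime q →
      DescFix (N * q) p A ∧ DescLevel (N * q) A ∧ UnramLevelP (Φ A) q A ∧
        Gauss36P (Φ A) N q A ∧
        ∃ e : ℕ, e ≠ 0 ∧ Loc36P₁ (Φ A) N q p A e ∧ Loc36P₂ (Φ A) N q p A e) :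
    Contract.FixedNewBound N q p :=
  FixTop.fixedNewBound_of_opRel hp.ne_zero hq.one_lt
    (opRel_of_contractsP N q p Φ hq hp hqp hbc h)

end Assembly

end Fermat.Agent.S36.Core36P
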