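/-
S36 (wave 8, package (R-ell), abstract part, Mathlib-only): norm base change in a commutative
square of finite field extensions

    F₁ ──→ F₂
    │       │
    ↓       ↓
    F₃ ──→ F₄

If `[F₄ : F₃] = [F₂ : F₁]` and `F₄` is generated over `F₂` by (the image of) one element `t` of
`F₃` — witnessed by `[F₄ : F₂]` ring homomorphisms `τ i : F₄ → Ω` which agree on `F₂` and take
pairwise distinct values at `t` — then an `F₁`-basis of `F₂` is an `F₃`-basis of `F₄` and
`N_{F₄/F₃}(x) = N_{F₂/F₁}(x)` for `x ∈ F₂`.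
-/
import Mathlib

set_option autoImplicit false

namespace Fermat.Agent.S36.AuxNorm

open Polynomial IntermediateField

section Primitive

variable {F E Ω : Type*} [Field F] [Field E] [Field Ω] [Algebra F E] [FiniteDimensional F E]

/-- If `[E : F]` ring homomorphisms `E → Ω` agree on `F` and take pairwise distinct values at
`t`, then `t` is a primitive element of `E / F`. -/
theorem adjoin_eq_top_of_conjugates {n : Type*} [Fintype n] (τ : n → E →+* Ω) (ι : F →+* Ω)
    (hτ : ∀ i x, τ i (algebraMap F E x) = ι x) (t : E)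
    (hinj : Function.Injective fun i => τ i t)
    (hcard : Fintype.card n = Module.finrank F E) : F⟮t⟯ = ⊤ := by
  classical
  rw [Field.primitive_element_iff_minpoly_natDegree_eq]
  have hint : IsIntegral F t := IsIntegral.of_finite F t
  refine le_antisymm (minpoly.natDegree_le t) ?_
  have hroot : ∀ i, τ i t ∈ ((minpoly F t).map ι).roots := by
    intro i
    rw [Polynomial.mem_roots (Polynomial.map_ne_zero (minpoly.ne_zero hint)),
      Polynomial.IsRoot.def, Polynomial.eval_map]
    have h1 : Polynomial.eval₂ ι (τ i t) (minpoly F t) =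
        τ i (Polynomial.eval₂ (algebraMap F E) t (minpoly F t)) := by
      rw [Polynomial.hom_eval₂]
      congr 1
      ext x
      exact (hτ i x).symm
    rw [h1, ← Polynomial.aeval_def, minpoly.aeval, map_zero]
  have hsub : (Finset.univ.image fun i => τ i t).val ⊆ ((minpoly F t).map ι).roots := by
    intro y hy
    rw [Finset.mem_val, Finset.mem_image] at hy
    obtain ⟨i, -, rfl⟩ := hy
    exact hroot i
  have h2 := Polynomial.card_le_degree_of_subset_roots hsub
  rw [Finset.card_image_of_injective _ hinj, Finset.card_univ, hcard,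
    Polynomial.natDegree_map] at h2
  exact h2

/-- Every element of `E = F(t)` is a polynomial in `t`. -/
theorem exists_aeval_eq_of_adjoin_eq_top (t : E) (ht : F⟮t⟯ = ⊤) (y : E) :
    ∃ g : F[X], Polynomial.aeval t g = y := by
  have hint : IsIntegral F t := IsIntegral.of_finite F t
  have h1 : y ∈ F⟮t⟯.toSubalgebra := by
    rw [ht]
    exact Algebra.mem_top
  rw [IntermediateField.adjoin_simple_toSubalgebra_of_isAlgebraic hint.isAlgebraic,
    Algebra.adjoin_singleton_eq_range_aeval] at h1
  exact h1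

end Primitive

section Square

variable {F₁ F₂ F₃ F₄ Ω : Type*} [Field F₁] [Field F₂] [Field F₃] [Field F₄] [Field Ω]
  [Algebra F₁ F₂] [Algebra F₃ F₄] [Algebra F₂ F₄] [Algebra F₁ F₃]

/-- In a commutative square with `F₄ = F₂(t)`, `t ∈ F₃`, the image of `F₂` spans `F₄` over
`F₃`. -/
theorem span_range_eq_top [FiniteDimensional F₂ F₄]
    (t : F₃) (ht : F₂⟮algebraMap F₃ F₄ t⟯ = ⊤) :
    Submodule.span F₃ (Set.range (algebraMap F₂ F₄)) = ⊤ := by
  rw [eq_top_iff]
  intro y _
  obtain ⟨g, rfl⟩ := exists_aeval_eq_of_adjoin_eq_top (algebraMap F₃ F₄ t) ht y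
  rw [Polynomial.aeval_eq_sum_range]
  refine Submodule.sum_mem _ fun k _ => ?_
  have h1 : g.coeff k • algebraMap F₃ F₄ t ^ k = (t ^ k) • algebraMap F₂ F₄ (g.coeff k) := by
    rw [Algebra.smul_def, Algebra.smul_def, map_pow, mul_comm]
  rw [h1]
  exact Submodule.smul_mem _ _ (Submodule.subset_span ⟨_, rfl⟩)

/-- **Norm base change** from a spanning hypothesis. -/
theorem norm_eq_of_span [FiniteDimensional F₁ F₂]
    (hcomm : ∀ x : F₁, algebraMap F₂ F₄ (algebraMap F₁ F₂ x) =
      algebraMap F₃ F₄ (algebraMap F₁ F₃ x))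
    (hspan : Submodule.span F₃ (Set.range (algebraMap F₂ F₄)) = ⊤)
    (hdeg : Module.finrank F₃ F₄ = Module.finrank F₁ F₂) (f : F₂) :
    Algebra.norm F₃ (algebraMap F₂ F₄ f) = algebraMap F₁ F₃ (Algebra.norm F₁ f) := by
  classical
  let b := Module.finBasis F₁ F₂
  let v : Fin (Module.finrank F₁ F₂) → F₄ := fun i => algebraMap F₂ F₄ (b i)
  -- the image of an element of `F₂` in the coordinates of `v`
  have hrepr : ∀ x : F₂, algebraMap F₂ F₄ x = ∑ i, algebraMap F₁ F₃ (b.repr x i) • v i := by
    intro x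
    conv_lhs => rw [← b.sum_repr x]
    rw [map_sum]
    refine Finset.sum_congr rfl fun i _ => ?_
    rw [Algebra.smul_def, map_mul, hcomm, Algebra.smul_def]
  have hv : ⊤ ≤ Submodule.span F₃ (Set.range v) := by
    rw [← hspan, Submodule.span_le]
    rintro _ ⟨x, rfl⟩
    rw [hrepr x]
    exact Submodule.sum_mem _ fun i _ =>
      Submodule.smul_mem _ _ (Submodule.subset_span ⟨i, rfl⟩)
  have hcard : Fintype.card (Fin (Module.finrank F₁ F₂)) = Module.finrank F₃ F₄ := by
    rw [Fintype.card_fin, hdeg]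
  let b' := basisOfTopLeSpanOfCardEqFinrank v hv hcard
  have hb' : ∀ i, b' i = v i := fun i => congrFun (coe_basisOfTopLeSpanOfCardEqFinrank v hv hcard) i
  have hmat : Algebra.leftMulMatrix b' (algebraMap F₂ F₄ f) =
      (algebraMap F₁ F₃).mapMatrix (Algebra.leftMulMatrix b f) := by
    ext i j
    rw [Algebra.leftMulMatrix_eq_repr_mul, RingHom.mapMatrix_apply, Matrix.map_apply,
      Algebra.leftMulMatrix_eq_repr_mul, hb' j]
    have h1 : algebraMap F₂ F₄ f * v j = ∑ i, algebraMap F₁ F₃ (b.repr (f * b j) i) • b' i := by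
      show algebraMap F₂ F₄ f * algebraMap F₂ F₄ (b j) = _
      rw [← map_mul, hrepr (f * b j)]
      exact Finset.sum_congr rfl fun i _ => by rw [hb' i]
    rw [h1, Module.Basis.repr_sum_self]
  rw [Algebra.norm_eq_matrix_det b', hmat, Algebra.norm_eq_matrix_det b, RingHom.map_det]

/-- **Norm base change** in a commutative square: if `[F₄ : F₃] = [F₂ : F₁]` and `[F₄ : F₂]` ring
homomorphisms `τ i : F₄ → Ω` agree on `F₂` and take pairwise distinct values at (the image of)
`t ∈ F₃`, then `N_{F₄/F₃}(f) = N_{F₂/F₁}(f)` for every `f ∈ F₂`. -/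
theorem norm_eq_of_conjugates [FiniteDimensional F₁ F₂] [FiniteDimensional F₂ F₄]
    (hcomm : ∀ x : F₁, algebraMap F₂ F₄ (algebraMap F₁ F₂ x) =
      algebraMap F₃ F₄ (algebraMap F₁ F₃ x))
    (hdeg : Module.finrank F₃ F₄ = Module.finrank F₁ F₂)
    {n : Type*} [Fintype n] (τ : n → F₄ →+* Ω) (ι : F₂ →+* Ω)
    (hτ : ∀ i x, τ i (algebraMap F₂ F₄ x) = ι x) (t : F₃)
    (hinj : Function.Injective fun i => τ i (algebraMap F₃ F₄ t))
    (hcard : Fintype.card n = Module.finrank F₂ F₄) (f : F₂) :
    Algebra.norm F₃ (algebraMap F₂ F₄ f) = algebraMap F₁ F₃ (Algebra.norm F₁ f) :=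
  norm_eq_of_span hcomm
    (span_range_eq_top t (adjoin_eq_top_of_conjugates τ ι hτ _ hinj hcard)) hdeg f

end Square

end Fermat.Agent.S36.AuxNorm
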