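/-
S36 (wave 8, package (R-ell), generic part): pull-back on `Pic⁰` along an algebra homomorphism of
function fields, `φ_* ∘ φ^* = deg φ`, Galois equivariance, and the transfer of the condition
`a_* x = 0` through a commutative square with norm base change, for torsion classes.
-/
import Mathlib
import Fermat.Agent.S35.Push

set_option autoImplicit false
set_option linter.unusedSectionVars false
set_option linter.style.haveILetI false

namespace Fermat.Agent.S36.AuxPull

open AlgebraicCurve Fermat.Agent.S35.Push Fermat.Agent.S29.CorrEquiv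

/-! ### pull-back on `Pic⁰` -/

section Pull

variable {K F F' : Type*} [Field K] [Field F] [Field F'] [Algebra K F] [Algebra K F']
variable [HasPrincipalDivisors K F']
variable (φ : F →ₐ[K] F') (hφ : φ.toRingHom.IsIntegral) (hFI : FundamentalIdentityAlong K φ hφ)

/-- pull-back of degree-zero divisors -/
noncomputable def degZeroPull :
    Divisor.degZero (K := K) (F := F) →+ Divisor.degZero (K := K) (F := F') :=
  ((Divisor.pullbackAlong φ hφ).domRestrict
    (Divisor.degZero (K := K) (F := F))).codRestrict _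
    (fun D => Divisor.pullbackAlong_mem_degZero φ hφ hFI D.2)

theorem coe_degZeroPull (D : Divisor.degZero (K := K) (F := F)) :
    (degZeroPull φ hφ hFI D : Divisor K F') = Divisor.pullbackAlong φ hφ (D : Divisor K F) :=
  rfl

/-- pull-back on `Pic⁰` -/
noncomputable def pic0Pull : Pic0 K F →+ Pic0 K F' :=
  QuotientAddGroup.map _ _ (degZeroPull φ hφ hFI) (by
    rintro ⟨D, hD0⟩ hD
    simp only [AddSubgroup.mem_addSubgroupOf] at hD ⊢
    exact Divisor.isPrincipal_pullbackAlong φ hφ hD)

theorem pic0Pull_mk (D : Divisor.degZero (K := K) (F := F)) :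
    pic0Pull φ hφ hFI (Pic0.mk D) = Pic0.mk (degZeroPull φ hφ hFI D) :=
  rfl

/-- the pull-back on `Pic⁰` is equivariant for compatible semilinear automorphisms -/
theorem pic0Pull_smul {g : SemilinearAut K F} {g' : SemilinearAut K F'}
    (h : CompatAlong φ g g') (x : Pic0 K F) :
    pic0Pull φ hφ hFI (g • x) = g' • pic0Pull φ hφ hFI x := by
  obtain ⟨D, rfl⟩ := Pic0.mk_surjective x
  rw [SemilinearAut.pic0_smul_mk, pic0Pull_mk, pic0Pull_mk, SemilinearAut.pic0_smul_mk]
  refine congrArg Pic0.mk (Subtype.ext ?_)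
  rw [coe_degZeroPull, SemilinearAut.coe_degZeroSMulHom, SemilinearAut.coe_degZeroSMulHom,
    coe_degZeroPull]
  exact pullbackAlong_smul φ hφ h (D : Divisor K F)

/-- the pull-back of the divisor of `f` is the divisor of `φ f` -/
theorem pullbackAlong_apply_eq_ord {f : F} {D : Divisor K F}
    (hD : ∀ v : Place K F, D v = v.ord f) (w : Place K F') :
    Divisor.pullbackAlong φ hφ D w = w.ord (φ f) := by
  rw [Divisor.pullbackAlong_apply, hD, ← Place.ord_restrictAlong]

end Pull

/-! ### `φ_* ∘ φ^* = deg φ` -/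

section PushPull

variable {K F F' : Type*} [Field K] [Field F] [Field F'] [Algebra K F] [Algebra K F']
variable [HasPrincipalDivisors K F']
variable (φ : F →ₐ[K] F') (hφ : φ.toRingHom.IsIntegral)

/-- residue degrees along `φ` are one when all places have degree one -/
theorem inertiaDegAlong_eq_one_of_deg (hd : ∀ v : Place K F, v.deg = 1)
    (hd' : ∀ w : Place K F', w.deg = 1) (w : Place K F') : w.inertiaDegAlong φ hφ = 1 := by
  letI := algebraAlong φ
  haveI := isScalarTower_along φ
  haveI := isIntegral_along φ hφ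
  have h := w.deg_restrict_mul_inertiaDeg (F := F)
  rw [hd, hd', one_mul] at h
  exact h

/-- `∑ e = deg φ` over the fibre of a place -/
theorem sum_ramificationIndexAlong (hFI : FundamentalIdentityAlong K φ hφ)
    (hd : ∀ v : Place K F, v.deg = 1)
    (hd' : ∀ w : Place K F', w.deg = 1) (v : Place K F) :
    ∑ w ∈ Place.fiberAlong φ hφ v, (w.ramificationIndexAlong φ : ℤ) = (finrankAlong K φ : ℤ) := by
  letI := algebraAlong φ
  haveI := isScalarTower_along φ
  haveI := isIntegral_along φ hφ
  haveI : FundamentalIdentity K F F' := hFI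
  have h := FundamentalIdentity.sum_ramificationIndex_mul_deg (K := K) (F := F) (F' := F') v
  rw [hd v, Nat.cast_one, mul_one] at h
  have h' : ∑ w ∈ Place.fiber F' v, (w.ramificationIndex F : ℤ) = (Module.finrank F F' : ℤ) := by
    rw [← h]
    refine Finset.sum_congr rfl fun w _ => ?_
    rw [hd' w, Nat.cast_one, mul_one]
  exact h'

/-- `φ_* (φ^* D) = deg φ • D` on divisors -/
theorem pushforwardAlong_pullbackAlong (hFI : FundamentalIdentityAlong K φ hφ)
    (hd : ∀ v : Place K F, v.deg = 1)
    (hd' : ∀ w : Place K F', w.deg = 1) (D : Divisor K F) :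
    Divisor.pushforwardAlong φ hφ (Divisor.pullbackAlong φ hφ D) = finrankAlong K φ • D := by
  induction D using Finsupp.induction_linear with
  | zero => rw [map_zero, map_zero, smul_zero]
  | add D E hD hE => rw [map_add, map_add, hD, hE, smul_add]
  | single v n =>
    rw [Divisor.pullbackAlong_single, map_sum]
    have h1 : ∀ W ∈ Place.fiberAlong φ hφ v,
        Divisor.pushforwardAlong φ hφ (Finsupp.single W (n * (W.ramificationIndexAlong φ : ℤ))) =
          Finsupp.single v (n * (W.ramificationIndexAlong φ : ℤ)) := by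
      intro W hW
      rw [Divisor.pushforwardAlong_single, inertiaDegAlong_eq_one_of_deg φ hφ hd hd' W,
        Nat.cast_one, mul_one, Place.mem_fiberAlong.mp hW]
    rw [Finset.sum_congr rfl h1, ← Finsupp.single_finsetSum, ← Finset.mul_sum,
      sum_ramificationIndexAlong φ hφ hFI hd hd' v, Finsupp.smul_single, nsmul_eq_mul, mul_comm]

variable [HasPrincipalDivisors K F]
variable (hFI : FundamentalIdentityAlong K φ hφ)
variable (hfin : FiniteAlong K φ) (hN : NormFormulaAlong K φ hfin)

/-- `φ_* ∘ φ^* = deg φ` on `Pic⁰` -/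
theorem pic0Push_pic0Pull (hd : ∀ v : Place K F, v.deg = 1)
    (hd' : ∀ w : Place K F', w.deg = 1) (x : Pic0 K F) :
    pic0Push φ hφ hfin hN (pic0Pull φ hφ hFI x) = finrankAlong K φ • x := by
  obtain ⟨D, rfl⟩ := Pic0.mk_surjective x
  rw [pic0Pull_mk, pic0Push_mk]
  have h : degZeroPush φ hφ (degZeroPull φ hφ hFI D) = finrankAlong K φ • D := by
    refine Subtype.ext ?_
    rw [coe_degZeroPush, coe_degZeroPull, pushforwardAlong_pullbackAlong φ hφ hFI hd hd']
    rfl
  rw [h]
  rfl

end PushPull

/-! ### transfer of `a_* D` principal through a square with norm base change -/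

section Square

variable {K F₁ F₂ F₃ F₄ : Type*} [Field K] [Field F₁] [Field F₂] [Field F₃] [Field F₄]
  [Algebra K F₁] [Algebra K F₂] [Algebra K F₃] [Algebra K F₄]
variable [HasPrincipalDivisors K F₃] [HasPrincipalDivisors K F₄]

/-- Let `a : F₁ → F₂`, `a' : F₃ → F₄`, `p : F₂ → F₄`, `p' : F₁ → F₃` with norm base change
`N_{a'}(p f) = p'(N_a f)`.  If `m • D` (`m ≠ 0`) and `a_* D` are principal, then so is
`a'_* (p^* D)`. -/
theorem isPrincipal_push_pull_of_norm
    (a : F₁ →ₐ[K] F₂) (a' : F₃ →ₐ[K] F₄) (p : F₂ →ₐ[K] F₄) (p' : F₁ →ₐ[K] F₃)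
    (ha : a.toRingHom.IsIntegral) (ha' : a'.toRingHom.IsIntegral)
    (hp : p.toRingHom.IsIntegral) (hp' : p'.toRingHom.IsIntegral)
    (hfa : FiniteAlong K a) (hNa : NormFormulaAlong K a hfa)
    (hfa' : FiniteAlong K a') (hNa' : NormFormulaAlong K a' hfa')
    (hnorm : ∀ f : F₂, (letI := algebraAlong a'; Algebra.norm F₃ (p f)) =
      p' (letI := algebraAlong a; Algebra.norm F₁ f))
    (D : Divisor K F₂) (m : ℕ) (hm : m ≠ 0) (hD : (m • D).IsPrincipal)
    (hpush : (Divisor.pushforwardAlong a ha D).IsPrincipal) :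
    (Divisor.pushforwardAlong a' ha' (Divisor.pullbackAlong p hp D)).IsPrincipal := by
  obtain ⟨f, hf, hDf⟩ := hD
  obtain ⟨h, hh, hDh⟩ := hpush
  refine ⟨p' h, (map_ne_zero p').mpr hh, fun v => ?_⟩
  have hpf : p f ≠ 0 := (map_ne_zero p).mpr hf
  -- the divisor of `p f`
  have h1 : ∀ w : Place K F₄, Divisor.pullbackAlong p hp (m • D) w = w.ord (p f) :=
    fun w => pullbackAlong_apply_eq_ord p hp hDf w
  -- its push-forward is the divisor of the norm
  have h2 : Divisor.pushforwardAlong a' ha' (Divisor.pullbackAlong p hp (m • D)) v =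
      v.ord (letI := algebraAlong a'; Algebra.norm F₃ (p f)) := by
    letI := algebraAlong a'
    haveI := isScalarTower_along a'
    haveI : Module.Finite F₃ F₄ := hfa'
    exact hNa' (p f) hpf _ h1 v
  -- the push-forward of `m • D` along `a` is the divisor of the norm of `f`
  have h3 : ∀ u : Place K F₁, Divisor.pushforwardAlong a ha (m • D) u =
      u.ord (letI := algebraAlong a; Algebra.norm F₁ f) := by
    intro u
    letI := algebraAlong a
    haveI := isScalarTower_along a
    haveI : Module.Finite F₁ F₂ := hfa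
    exact hNa f hf _ hDf u
  have h4 : (m : ℤ) * Divisor.pushforwardAlong a' ha' (Divisor.pullbackAlong p hp D) v =
      (m : ℤ) * v.ord (p' h) := by
    have e1 : Divisor.pushforwardAlong a' ha' (Divisor.pullbackAlong p hp (m • D)) v =
        (m : ℤ) * Divisor.pushforwardAlong a' ha' (Divisor.pullbackAlong p hp D) v := by
      rw [map_nsmul, map_nsmul, Finsupp.smul_apply, nsmul_eq_mul]
    rw [← e1, h2, hnorm f, Place.ord_restrictAlong p' hp', ← h3, map_nsmul, Finsupp.smul_apply,
      nsmul_eq_mul, hDh, Place.ord_restrictAlong p' hp']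
    ring
  exact mul_left_cancel₀ (Nat.cast_ne_zero.mpr hm) h4

end Square

end Fermat.Agent.S36.AuxPull
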