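/-
S36 (wave 8, package (R-ell)): reduction of the geometric contract `FixedNewBound` to levels
divisible by an auxiliary prime `r`.

`fixedNewBound_of_aux` : for a prime `r ∤ N q`, `FixedNewBound (N * r) q p → FixedNewBound N q p`.
`fixedNewBoundAll_of_aux` : it suffices to prove `FixedNewBound (M * q) q p` for tame levels `M`
divisible by a prime `r ≡ 11 mod 12`, `r ≠ p` (no elliptic points).

Proof.  `π := β_r : F_{Nq} → F_{Nrq}`.  For `x ∈ J₀(Nq)` with `p^n x = 0`, `x' := π^* x` is again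
`p^n`-torsion and fixed by the same Galois elements; `α'_* x' = 0`, `β'_* x' = 0` follow from the
norm base change `N_{α'}(π f) = π'(N_α f)` in the square of function fields (the `r + 1`
conjugates of `j` over `π(F_{Nq})` are pairwise distinct, so `F_{Nrq} = π(F_{Nq})(j)`); finally
`π_* π^* = r + 1`.
-/
import Mathlib
import Fermat.Agent.S36.Contract
import Fermat.Agent.S36.AuxNorm
import Fermat.Agent.S36.AuxPull
import Fermat.Agent.S37.Conjugates
import Fermat.Agent.S37.AtkinLehner
import Fermat.Agent.S24.Places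

set_option autoImplicit false
set_option linter.unusedSectionVars false
set_option linter.style.haveILetI false

namespace Fermat.Agent.S36.AuxLevel

open AlgebraicCurve ModularCurve IntermediateField Fermat.Agent.S24 Fermat.Agent.S37
  Fermat.Agent.S37.Conjugates Fermat.Agent.S35.Push Fermat.Agent.S36.Contract
  Fermat.Agent.S36.AuxPull Fermat.Agent.S29.CorrEquiv

local notation "Qb" => AlgebraicClosure ℚ
local notation "GQ" => (AlgebraicClosure ℚ) ≃ₐ[ℚ] (AlgebraicClosure ℚ)

/-! ### generalities on homomorphisms between the modular function fields -/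

section AnyHom

variable {M M' : ℕ} [NeZero M] [NeZero M'] (φ : FF Qb M →ₐ[Qb] FF Qb M')

theorem integral_of_hom : φ.toRingHom.IsIntegral := by
  obtain ⟨hx, hfd⟩ := S18.Witness.bar_transcendental_finite M
  obtain ⟨hx', hfd'⟩ := S18.Witness.bar_transcendental_finite M'
  exact FunctionFieldMaps.isIntegralAlong φ _ hx _ hx'

theorem finite_of_hom : FiniteAlong Qb φ := by
  obtain ⟨hx, hfd⟩ := S18.Witness.bar_transcendental_finite M
  obtain ⟨hx', hfd'⟩ := S18.Witness.bar_transcendental_finite M'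
  exact FunctionFieldMaps.finiteAlong φ _ hx _ hx'

theorem normFormula_of_hom : NormFormulaAlong Qb φ (finite_of_hom φ) := by
  obtain ⟨hx, hfd⟩ := S18.Witness.bar_transcendental_finite M
  obtain ⟨hx', hfd'⟩ := S18.Witness.bar_transcendental_finite M'
  exact FunctionFieldMaps.normFormulaAlong φ _ hx _ hx' _

theorem fundamentalIdentity_of_hom : FundamentalIdentityAlong Qb φ (integral_of_hom φ) := by
  obtain ⟨hx, hfd⟩ := S18.Witness.bar_transcendental_finite M
  obtain ⟨hx', hfd'⟩ := S18.Witness.bar_transcendental_finite M'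
  exact FunctionFieldMaps.fundamentalIdentityAlong φ _ hx _ hx' _

theorem place_deg (M : ℕ) [NeZero M] (v : Place Qb (FF Qb M)) : v.deg = 1 := by
  obtain ⟨hx, hfd⟩ := S18.Witness.bar_transcendental_finite M
  exact place_deg_eq_one _ hx v

end AnyHom

section Tower

variable {K F F' F'' : Type*} [Field K] [Field F] [Field F'] [Field F''] [Algebra K F]
  [Algebra K F'] [Algebra K F'']

/-- tower law for the degrees along algebra homomorphisms -/
theorem finrankAlong_comp (φ : F →ₐ[K] F') (ψ : F' →ₐ[K] F'') :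
    finrankAlong K (ψ.comp φ) = finrankAlong K φ * finrankAlong K ψ := by
  unfold finrankAlong
  letI := algebraAlong φ
  letI := algebraAlong ψ
  letI := algebraAlong (ψ.comp φ)
  haveI : IsScalarTower F F' F'' := IsScalarTower.of_algebraMap_eq (fun _ => rfl)
  exact (Module.finrank_mul_finrank F F' F'').symm

/-- the degree is unchanged by an isomorphism of the target -/
theorem finrankAlong_equiv_comp (φ : F →ₐ[K] F') (e : F' ≃ₐ[K] F'') :
    finrankAlong K ((e : F' →ₐ[K] F'').comp φ) = finrankAlong K φ := by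
  unfold finrankAlong
  refine (@Algebra.finrank_eq_of_equiv_equiv F F' _ _ (algebraAlong φ) F F'' _ _
    (algebraAlong ((e : F' →ₐ[K] F'').comp φ)) (RingEquiv.refl F) e.toRingEquiv ?_).symm
  ext a
  rfl

end Tower

/-! ### the degeneracy map `β_r : F_{N q} → F_{N r q}` -/

/-- the identity between the function fields of two equal levels -/
noncomputable def castLevel {M M' : ℕ} (h : M = M') : FF Qb M ≃ₐ[Qb] FF Qb M' :=
  IntermediateField.equivOfEq (by rw [h])

theorem coe_castLevel {M M' : ℕ} (h : M = M') (x : FF Qb M) :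
    ((castLevel h x : FF Qb M') : LaurentSeries Qb) = (x : LaurentSeries Qb) := by
  subst h
  rfl

theorem coe_castLevel_symm {M M' : ℕ} (h : M = M') (x : FF Qb M') :
    (((castLevel h).symm x : FF Qb M) : LaurentSeries Qb) = (x : LaurentSeries Qb) := by
  subst h
  rfl

variable (N q r : ℕ) [NeZero N] [NeZero q] [NeZero r]

/-- `β_r` from level `N q` to level `N r q` (`x(Q) ↦ x(Q^r)`) -/
noncomputable def auxBeta : FF Qb (N * q) →ₐ[Qb] FF Qb (N * r * q) :=
  ((castLevel (Nat.mul_right_comm N q r) : FF Qb (N * q * r) ≃ₐ[Qb] FF Qb (N * r * q)) :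
    FF Qb (N * q * r) →ₐ[Qb] FF Qb (N * r * q)).comp (heckeBetaBar Qb (N * q) r)

theorem auxBeta_apply (x : FF Qb (N * q)) :
    auxBeta N q r x = castLevel (Nat.mul_right_comm N q r) (heckeBetaBar Qb (N * q) r x) := rfl

theorem coe_auxBeta (x : FF Qb (N * q)) :
    ((auxBeta N q r x : FF Qb (N * r * q)) : LaurentSeries Qb) =
      qExpand Qb r (x : LaurentSeries Qb) := by
  rw [auxBeta_apply, coe_castLevel, coe_heckeBetaBar]

/-- the `α`-square commutes -/
theorem alpha_square (x : FF Qb N) :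
    auxBeta N q r (heckeAlphaBar Qb N q x) =
      heckeAlphaBar Qb (N * r) q (heckeBetaBar Qb N r x) := by
  apply Subtype.ext
  rw [coe_heckeAlphaBar, coe_heckeBetaBar, coe_auxBeta, coe_heckeAlphaBar]

/-- the `β`-square commutes -/
theorem beta_square (x : FF Qb N) :
    auxBeta N q r (heckeBetaBar Qb N q x) =
      heckeBetaBar Qb (N * r) q (heckeBetaBar Qb N r x) := by
  apply Subtype.ext
  rw [coe_heckeBetaBar, coe_heckeBetaBar, coe_auxBeta, coe_heckeBetaBar, qExpand_qExpand,
    qExpand_qExpand]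
  exact qExpand_congr (mul_comm r q) _

/-- `β_r` commutes with the arithmetic Galois action -/
theorem compatAlong_auxBeta (σ : GQ) :
    CompatAlong (auxBeta N q r) (arithmeticGalois (modularFunctionFieldFull (N * q)) σ)
      (arithmeticGalois (modularFunctionFieldFull (N * r * q)) σ) := by
  intro x
  apply Subtype.ext
  rw [coe_auxBeta, coe_arithmeticGalois_smul, coe_arithmeticGalois_smul, coe_auxBeta,
    Fermat.Agent.S28.coeffMap_qExpand]

/-- `[F_{N r q} : β_r(F_{N q})] = r + 1` -/
theorem finrankAlong_auxBeta (hr : r.Prime) (hrNq : ¬ r ∣ N * q) :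
    finrankAlong Qb (auxBeta N q r) = r + 1 := by
  unfold auxBeta
  rw [finrankAlong_equiv_comp]
  exact finrankAlong_beta (N * q) r hr hrNq

/-- the two horizontal maps of a square have the same degree -/
theorem finrankAlong_eq_of_square (hr : r.Prime) (hrN : ¬ r ∣ N) (hrNq : ¬ r ∣ N * q)
    (a : FF Qb N →ₐ[Qb] FF Qb (N * q)) (a' : FF Qb (N * r) →ₐ[Qb] FF Qb (N * r * q))
    (h : ∀ x, auxBeta N q r (a x) = a' (heckeBetaBar Qb N r x)) :
    finrankAlong Qb a' = finrankAlong Qb a := by
  have h1 : (auxBeta N q r).comp a = a'.comp (heckeBetaBar Qb N r) := AlgHom.ext h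
  have h2 := finrankAlong_comp a (auxBeta N q r)
  rw [h1, finrankAlong_comp, finrankAlong_auxBeta N q r hr hrNq, finrankAlong_beta N r hr hrN] at h2
  have h3 : (r + 1) * finrankAlong Qb a' = (r + 1) * finrankAlong Qb a := by
    rw [h2, mul_comm]
  exact Nat.eq_of_mul_eq_mul_left (Nat.succ_pos r) h3

/-! ### the conjugates of `j` and of `j(Q^q)` over `β_r(F_{N q})` are pairwise distinct -/

section Conj

variable (M l : ℕ) [NeZero M] [NeZero l]

/-- the conjugates of `j` over `β_l(F_M)` are pairwise distinct -/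
theorem conjEmb_jBC_injective (hl : l.Prime)
    (w : FF Qb (M * l) ≃ₐ[Qb] FF Qb (M * l))
    (hwα : (w : FF Qb (M * l) →ₐ[Qb] FF Qb (M * l)).comp (heckeAlphaBar Qb M l) =
      heckeBetaBar Qb M l)
    (ζ : Qbˣ) (hζ : IsPrimitiveRoot ζ l) :
    Function.Injective fun i => conjEmb M l w ζ i (jBC Qb (M * l)) := by
  have key : ∀ (b : Fin l), conjEmb M l w ζ none (jBC Qb (M * l)) ≠
      conjEmb M l w ζ (some b) (jBC Qb (M * l)) := by
    intro b h
    have h1 := congrArg (fun s : LaurentSeries Qb => s.coeff (-1)) h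
    simp only [conjEmb] at h1
    rw [sigmaInf_jBC_coeff M l hl w hwα, rot_jBC_coeff] at h1
    exact Units.ne_zero _ h1.symm
  intro i j hij
  rcases i with _ | b <;> rcases j with _ | b'
  · rfl
  · exact absurd hij (key b')
  · exact absurd hij.symm (key b)
  · have h1 := congrArg (fun s : LaurentSeries Qb => s.coeff (-1)) hij
    simp only [conjEmb] at h1
    rw [rot_jBC_coeff, rot_jBC_coeff] at h1
    have h2 : ζ ^ (b : ℕ) = ζ ^ (b' : ℕ) := inv_injective (Units.ext h1)
    exact congrArg some (Fin.ext (hζ.pow_inj b.2 b'.2 h2))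

end Conj

section ConjBeta

/-- the conjugates of `j(Q^q)` over `β_r(F_{N q})` are pairwise distinct (`r ∤ q`) -/
theorem conjEmb_beta_jBC_injective (hr : r.Prime) (hrq : ¬ r ∣ q)
    (w : FF Qb (N * q * r) ≃ₐ[Qb] FF Qb (N * q * r))
    (hwα : (w : FF Qb (N * q * r) →ₐ[Qb] FF Qb (N * q * r)).comp (heckeAlphaBar Qb (N * q) r) =
      heckeBetaBar Qb (N * q) r)
    (ζ : Qbˣ) (hζ : IsPrimitiveRoot ζ r) :
    Function.Injective fun i => conjEmb (N * q) r w ζ i
      (heckeAlphaBar Qb (N * q) r (heckeBetaBar Qb N q (jBC Qb N))) := by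
  have hcoe : ((heckeBetaBar Qb N q (jBC Qb N) : FF Qb (N * q)) : LaurentSeries Qb) =
      qExpand Qb q (coeffEmb Qb jq) := by
    rw [coe_heckeBetaBar, coe_jBC]
  -- the coefficient of `Q^{-q}` of the rotated conjugates
  have hrot : ∀ b : ℕ, (rot (N * q) r ζ b
      (heckeAlphaBar Qb (N * q) r (heckeBetaBar Qb N q (jBC Qb N)))).coeff ((q : ℤ) * (-1)) =
        ((((ζ ^ q) ^ b)⁻¹ : Qbˣ) : Qb) := by
    intro b
    rw [rot_alpha, hcoe, Fermat.Agent.S28.tw_coeff, qExpand_coeff_mul, coeffEmb, coeffMap_coeff,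
      coeff_jq_neg_one, map_one, mul_one, zpow_mul, zpow_natCast, zpow_neg_one, ← pow_mul,
      ← pow_mul, mul_comm b q]
  have hinf : (sigmaInf (N * q) r w
      (heckeAlphaBar Qb (N * q) r (heckeBetaBar Qb N q (jBC Qb N)))).coeff ((q : ℤ) * (-1)) = 0 := by
    rw [sigmaInf_alpha (N * q) r w hwα]
    apply qExpand_coeff_of_not_dvd
    intro h
    have h1 : (r : ℤ) ∣ (q : ℤ) := by
      have := dvd_neg.mpr h
      simpa using this
    exact hrq (Int.natCast_dvd_natCast.mp h1)
  have hζq : IsPrimitiveRoot (ζ ^ q) r :=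
    hζ.pow_of_coprime q ((Nat.Prime.coprime_iff_not_dvd hr).mpr hrq).symm
  have key : ∀ (b : Fin r), conjEmb (N * q) r w ζ none
      (heckeAlphaBar Qb (N * q) r (heckeBetaBar Qb N q (jBC Qb N))) ≠
      conjEmb (N * q) r w ζ (some b)
        (heckeAlphaBar Qb (N * q) r (heckeBetaBar Qb N q (jBC Qb N))) := by
    intro b h
    have h1 := congrArg (fun s : LaurentSeries Qb => s.coeff ((q : ℤ) * (-1))) h
    simp only [conjEmb] at h1
    rw [hinf, hrot] at h1
    exact Units.ne_zero _ h1.symm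
  intro i j hij
  rcases i with _ | b <;> rcases j with _ | b'
  · rfl
  · exact absurd hij (key b')
  · exact absurd hij.symm (key b)
  · have h1 := congrArg (fun s : LaurentSeries Qb => s.coeff ((q : ℤ) * (-1))) hij
    simp only [conjEmb] at h1
    rw [hrot, hrot] at h1
    have h2 : (ζ ^ q) ^ (b : ℕ) = (ζ ^ q) ^ (b' : ℕ) := inv_injective (Units.ext h1)
    exact congrArg some (Fin.ext (hζq.pow_inj b.2 b'.2 h2))

end ConjBeta

/-! ### norm base change in the two squares -/

section NormSquare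

/-- **Norm base change** in a square over `β_r`: `N_{a'}(β_r f) = β_r(N_a f)`. -/
theorem norm_square (hr : r.Prime) (hrN : ¬ r ∣ N) (hrNq : ¬ r ∣ N * q)
    (a : FF Qb N →ₐ[Qb] FF Qb (N * q)) (a' : FF Qb (N * r) →ₐ[Qb] FF Qb (N * r * q))
    (h : ∀ x, auxBeta N q r (a x) = a' (heckeBetaBar Qb N r x))
    (t : FF Qb (N * r))
    (hinj : ∀ (w : FF Qb (N * q * r) ≃ₐ[Qb] FF Qb (N * q * r))
      (_ : (w : FF Qb (N * q * r) →ₐ[Qb] FF Qb (N * q * r)).comp (heckeAlphaBar Qb (N * q) r) =
        heckeBetaBar Qb (N * q) r)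
      (ζ : Qbˣ) (_ : IsPrimitiveRoot ζ r),
      Function.Injective fun i => conjEmb (N * q) r w ζ i
        ((castLevel (Nat.mul_right_comm N q r)).symm (a' t)))
    (f : FF Qb (N * q)) :
    (letI := algebraAlong a'; Algebra.norm (FF Qb (N * r)) (auxBeta N q r f)) =
      heckeBetaBar Qb N r (letI := algebraAlong a; Algebra.norm (FF Qb N) f) := by
  obtain ⟨w, hwα, hwβ⟩ := AtkinLehner.exists_atkinLehner (N * q) r hr hrNq
  obtain ⟨ζ0, hζ0⟩ := HasEnoughRootsOfUnity.exists_primitiveRoot Qb r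
  obtain ⟨ζ, rfl⟩ := hζ0.isUnit (NeZero.ne r)
  have hζ : IsPrimitiveRoot ζ r := IsPrimitiveRoot.coe_units_iff.mp hζ0
  letI i12 : Algebra (FF Qb N) (FF Qb (N * q)) := algebraAlong a
  letI i34 : Algebra (FF Qb (N * r)) (FF Qb (N * r * q)) := algebraAlong a'
  letI i24 : Algebra (FF Qb (N * q)) (FF Qb (N * r * q)) := algebraAlong (auxBeta N q r)
  letI i13 : Algebra (FF Qb N) (FF Qb (N * r)) := algebraAlong (heckeBetaBar Qb N r)
  haveI : FiniteDimensional (FF Qb N) (FF Qb (N * q)) := finite_of_hom a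
  haveI : FiniteDimensional (FF Qb (N * q)) (FF Qb (N * r * q)) := finite_of_hom (auxBeta N q r)
  have hdeg : Module.finrank (FF Qb (N * r)) (FF Qb (N * r * q)) =
      Module.finrank (FF Qb N) (FF Qb (N * q)) :=
    finrankAlong_eq_of_square N q r hr hrN hrNq a a' h
  have hcard : Fintype.card (Option (Fin r)) =
      Module.finrank (FF Qb (N * q)) (FF Qb (N * r * q)) := by
    rw [Fintype.card_option, Fintype.card_fin]
    exact (finrankAlong_auxBeta N q r hr hrNq).symm
  have hτ : ∀ (i : Option (Fin r)) (x : FF Qb (N * q)),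
      ((conjEmb (N * q) r w ζ i).comp
        ((castLevel (Nat.mul_right_comm N q r)).symm.toAlgHom.toRingHom))
        (algebraMap (FF Qb (N * q)) (FF Qb (N * r * q)) x) = baseHom (N * q) r x := by
    intro i x
    show conjEmb (N * q) r w ζ i ((castLevel (Nat.mul_right_comm N q r)).symm
      (auxBeta N q r x)) = _
    rw [auxBeta_apply, AlgEquiv.symm_apply_apply]
    exact conjEmb_beta (N * q) r w hwβ ζ hζ.pow_eq_one i x
  exact AuxNorm.norm_eq_of_conjugates (Ω := LaurentSeries Qb) (fun x => h x) hdeg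
    (fun i => (conjEmb (N * q) r w ζ i).comp
      ((castLevel (Nat.mul_right_comm N q r)).symm.toAlgHom.toRingHom))
    (baseHom (N * q) r) hτ t (hinj w hwα ζ hζ) hcard f

/-- norm base change in the `α`-square -/
theorem norm_alpha_square (hr : r.Prime) (hrN : ¬ r ∣ N) (hrNq : ¬ r ∣ N * q)
    (f : FF Qb (N * q)) :
    (letI := algebraAlong (heckeAlphaBar Qb (N * r) q);
      Algebra.norm (FF Qb (N * r)) (auxBeta N q r f)) =
      heckeBetaBar Qb N r (letI := algebraAlong (heckeAlphaBar Qb N q);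
        Algebra.norm (FF Qb N) f) := by
  refine norm_square N q r hr hrN hrNq (heckeAlphaBar Qb N q) (heckeAlphaBar Qb (N * r) q)
    (alpha_square N q r) (jBC Qb (N * r)) ?_ f
  intro w hwα ζ hζ
  have e : (castLevel (Nat.mul_right_comm N q r)).symm
      (heckeAlphaBar Qb (N * r) q (jBC Qb (N * r))) = jBC Qb (N * q * r) := by
    apply Subtype.ext
    rw [coe_castLevel_symm, coe_heckeAlphaBar, coe_jBC, coe_jBC]
  rw [e]
  exact conjEmb_jBC_injective (N * q) r hr w hwα ζ hζ

/-- norm base change in the `β`-square -/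
theorem norm_beta_square (hr : r.Prime) (hrN : ¬ r ∣ N) (hrq : ¬ r ∣ q)
    (f : FF Qb (N * q)) :
    (letI := algebraAlong (heckeBetaBar Qb (N * r) q);
      Algebra.norm (FF Qb (N * r)) (auxBeta N q r f)) =
      heckeBetaBar Qb N r (letI := algebraAlong (heckeBetaBar Qb N q);
        Algebra.norm (FF Qb N) f) := by
  have hrNq : ¬ r ∣ N * q := fun hd => (hr.dvd_mul.mp hd).elim hrN hrq
  refine norm_square N q r hr hrN hrNq (heckeBetaBar Qb N q) (heckeBetaBar Qb (N * r) q)
    (beta_square N q r) (jBC Qb (N * r)) ?_ f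
  intro w hwα ζ hζ
  have e : (castLevel (Nat.mul_right_comm N q r)).symm
      (heckeBetaBar Qb (N * r) q (jBC Qb (N * r))) =
        heckeAlphaBar Qb (N * q) r (heckeBetaBar Qb N q (jBC Qb N)) := by
    apply Subtype.ext
    rw [coe_castLevel_symm, coe_heckeBetaBar, coe_jBC, coe_heckeAlphaBar, coe_heckeBetaBar,
      coe_jBC]
  rw [e]
  exact conjEmb_beta_jBC_injective N q r hr hrq w hwα ζ hζ

end NormSquare

/-! ### pull-back and push-forward between `J₀(N q)` and `J₀(N r q)` -/

section Jac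

/-- `β_r^* : J₀(N q) → J₀(N r q)` -/
noncomputable def auxPull : JZero (N * q) →+ JZero (N * r * q) :=
  pic0Pull (auxBeta N q r) (integral_of_hom _) (fundamentalIdentity_of_hom _)

/-- `(β_r)_* : J₀(N r q) → J₀(N q)` -/
noncomputable def auxPush : JZero (N * r * q) →+ JZero (N * q) :=
  pic0Push (auxBeta N q r) (integral_of_hom _) (finite_of_hom _) (normFormula_of_hom _)

theorem auxPull_mk (D : Divisor.degZero (K := Qb) (F := modularFunctionFieldBar (N * q))) :
    auxPull N q r (Pic0.mk D) =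
      Pic0.mk (degZeroPull (auxBeta N q r) (integral_of_hom _) (fundamentalIdentity_of_hom _) D) :=
  rfl

/-- `(β_r)_* ∘ β_r^* = r + 1` -/
theorem auxPush_auxPull (hr : r.Prime) (hrNq : ¬ r ∣ N * q) (x : JZero (N * q)) :
    auxPush N q r (auxPull N q r x) = (r + 1) • x := by
  unfold auxPush auxPull
  rw [pic0Push_pic0Pull _ _ _ _ _ (place_deg (N * q)) (place_deg (N * r * q)),
    finrankAlong_auxBeta N q r hr hrNq]

/-- `β_r^*` commutes with the action of `Gal(ℚ̄/ℚ)` -/
theorem auxPull_smul (σ : GQ) (x : JZero (N * q)) :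
    auxPull N q r (σ • x) = σ • auxPull N q r x := by
  rw [galois_smul_pic0_def, galois_smul_pic0_def]
  exact pic0Pull_smul _ _ _ (compatAlong_auxBeta N q r σ) x

/-- a torsion class killed by `α_*` pulls back to a class killed by `α_*` -/
theorem pushAlpha_auxPull (hr : r.Prime) (hrN : ¬ r ∣ N) (hrq : ¬ r ∣ q) (m : ℕ) (hm : m ≠ 0)
    (x : JZero (N * q)) (hx : m • x = 0) (h : pushAlpha N q x = 0) :
    pushAlpha (N * r) q (auxPull N q r x) = 0 := by
  have hrNq : ¬ r ∣ N * q := fun hd => (hr.dvd_mul.mp hd).elim hrN hrq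
  obtain ⟨D, rfl⟩ := Pic0.mk_surjective x
  have hD : (m • (D : Divisor Qb (modularFunctionFieldBar (N * q)))).IsPrincipal := by
    have h1 : Pic0.mk (m • D) = 0 := hx
    exact (mk_eq_zero_iff _).mp h1
  rw [pushAlpha_mk_eq_zero_iff] at h
  rw [auxPull_mk, pushAlpha_mk_eq_zero_iff, coe_degZeroPull]
  exact isPrincipal_push_pull_of_norm (heckeAlphaBar Qb N q) (heckeAlphaBar Qb (N * r) q)
    (auxBeta N q r) (heckeBetaBar Qb N r) _ _ _ (integral_of_hom _)
    (finite_of_hom _) (normFormula_of_hom _) (finite_of_hom _) (normFormula_of_hom _)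
    (norm_alpha_square N q r hr hrN hrNq) _ m hm hD h

/-- a torsion class killed by `β_*` pulls back to a class killed by `β_*` -/
theorem pushBeta_auxPull (hr : r.Prime) (hrN : ¬ r ∣ N) (hrq : ¬ r ∣ q) (m : ℕ) (hm : m ≠ 0)
    (x : JZero (N * q)) (hx : m • x = 0) (h : pushBeta N q x = 0) :
    pushBeta (N * r) q (auxPull N q r x) = 0 := by
  obtain ⟨D, rfl⟩ := Pic0.mk_surjective x
  have hD : (m • (D : Divisor Qb (modularFunctionFieldBar (N * q)))).IsPrincipal := by
    have h1 : Pic0.mk (m • D) = 0 := hx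
    exact (mk_eq_zero_iff _).mp h1
  rw [pushBeta_mk_eq_zero_iff] at h
  rw [auxPull_mk, pushBeta_mk_eq_zero_iff, coe_degZeroPull]
  exact isPrincipal_push_pull_of_norm (heckeBetaBar Qb N q) (heckeBetaBar Qb (N * r) q)
    (auxBeta N q r) (heckeBetaBar Qb N r) _ _ _ (integral_of_hom _)
    (finite_of_hom _) (normFormula_of_hom _) (finite_of_hom _) (normFormula_of_hom _)
    (norm_beta_square N q r hr hrN hrq) _ m hm hD h

end Jac

/-! ### the reduction -/

/-- **(R-ell), Jacobian-level reduction.**  For a prime `r ∤ N q`, the bound at level `N r`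
implies the bound at level `N` (the constant is multiplied by `r + 1`). -/
theorem fixedNewBound_of_aux (N q p r : ℕ) [NeZero N] [NeZero q] [NeZero r] (hp : p ≠ 0)
    (hr : r.Prime) (hrN : ¬ r ∣ N) (hrq : ¬ r ∣ q)
    (h : FixedNewBound (N * r) q p) : FixedNewBound N q p := by
  intro A hA
  obtain ⟨c, hc, H⟩ := h A hA
  have hrNq : ¬ r ∣ N * q := fun hd => (hr.dvd_mul.mp hd).elim hrN hrq
  refine ⟨c * (r + 1), Nat.mul_ne_zero hc (Nat.succ_ne_zero r), fun n x hx hfix hα hβ => ?_⟩
  have h1 : c • auxPull N q r x = 0 := by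
    refine H n (auxPull N q r x) ?_ ?_ ?_ ?_
    · rw [← map_nsmul, hx, map_zero]
    · intro τ hτ
      rw [← auxPull_smul, hfix τ hτ]
    · exact pushAlpha_auxPull N q r hr hrN hrq (p ^ n) (pow_ne_zero n hp) x hx hα
    · exact pushBeta_auxPull N q r hr hrN hrq (p ^ n) (pow_ne_zero n hp) x hx hβ
  have h2 := congrArg (auxPush N q r) h1
  rw [map_nsmul, auxPush_auxPull N q r hr hrNq, map_zero, smul_smul] at h2
  exact h2

/-- transport of the contract along an equality of levels -/
theorem fixedNewBound_congr {N N' q p : ℕ} [NeZero N] [NeZero N'] [NeZero q] (e : N = N')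
    (h : FixedNewBound N q p) : FixedNewBound N' q p := by
  subst e
  exact h

/-- **(R-ell).**  To prove the contract `FixedNewBoundAll p` it suffices to prove
`FixedNewBound (M * q) q p` for the tame levels `M` (`q ∤ M`) which are divisible by a prime
`r ≡ 11 mod 12`, `r ≠ p` — levels without elliptic points. -/
theorem fixedNewBoundAll_of_aux (p : ℕ) (hp : p ≠ 0)
    (h : ∀ (M q : ℕ) [NeZero M] [NeZero q], q.Prime → ¬ q ∣ M → q ≠ p →
      (∃ r : ℕ, r.Prime ∧ r % 12 = 11 ∧ r ∣ M ∧ r ≠ p) → FixedNewBound (M * q) q p) :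
    FixedNewBoundAll p := by
  intro M' q _ _ hq hqM hqp
  obtain ⟨r, hrgt, hr, hmod⟩ := Nat.forall_exists_prime_gt_and_modEq (M' * q * p + 12)
    (q := 12) (a := 11) (by norm_num) (by norm_num)
  haveI : NeZero r := ⟨hr.ne_zero⟩
  have hM' : 0 < M' := Nat.pos_of_ne_zero (NeZero.ne M')
  have hq0 : 0 < q := hq.pos
  have hp0 : 0 < p := Nat.pos_of_ne_zero hp
  have hMq : 0 < M' * q := Nat.mul_pos hM' hq0
  have hr12 : r % 12 = 11 := hmod
  have hbig : M' * q * p < r := by omega
  have hMqp : M' * q ≤ M' * q * p := Nat.le_mul_of_pos_right _ hp0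
  have hM'le : M' ≤ M' * q := Nat.le_mul_of_pos_right _ hq0
  have hqle : q ≤ M' * q := Nat.le_mul_of_pos_left _ hM'
  have hple : p ≤ M' * q * p := Nat.le_mul_of_pos_left _ hMq
  have hrM : ¬ r ∣ M' := fun hd => by
    have := Nat.le_of_dvd hM' hd
    omega
  have hrq : ¬ r ∣ q := fun hd => by
    have := Nat.le_of_dvd hq0 hd
    omega
  have hrp : r ≠ p := by omega
  have hqr : ¬ q ∣ M' * r := fun hd => by
    rcases hq.dvd_mul.mp hd with h1 | h1
    · exact hqM h1
    · have := (Nat.prime_dvd_prime_iff_eq hq hr).mp h1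
      omega
  have key : FixedNewBound (M' * r * q) q p :=
    h (M' * r) q hq hqr hqp ⟨r, hr, hr12, dvd_mul_left r M', hrp⟩
  have key' : FixedNewBound (M' * q * r) q p :=
    fixedNewBound_congr (Nat.mul_right_comm M' r q) key
  have hrMq : ¬ r ∣ M' * q := fun hd => (hr.dvd_mul.mp hd).elim hrM hrq
  exact fixedNewBound_of_aux (M' * q) q p r hp hr hrMq hrq key'

end Fermat.Agent.S36.AuxLevel
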