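import Mathlib
import Fermat.Prelude.Def_ModularCurve_ArithmeticGalois
import Fermat.Agent.S29.ConstOfOrd
import Fermat.Agent.S29.KFinAlg
import Fermat.Agent.S18.Descent

/-!
# S36 (DESC), part D1: a Galois-fixed torsion class has a Galois-fixed Kummer function

Let `H` be any subgroup of `Gal(ℚ̄/ℚ)` and `x ∈ J₀(N)(ℚ̄)` a class killed by `m ≥ 1` and fixed by
`H`.  Then `x` is the class of a divisor `D` of degree `0` such that `m • D` is the divisor of a
function `f` which is **fixed by `H`** (`exists_fixed_rep`).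

The proof is a twisted Hilbert 90 argument (`exists_fixed_mul_pow`, Mathlib only): normalising
functions by their leading `q`-expansion coefficient `lc` (a Galois-equivariant multiplicative
map), `σ f₀ / f₀` has a unique normalised `m`-th root `r (σ f₀)`; the orbit of `f₀` is finite
(`finite_orbit`), and the Poincaré series `h = ∑_φ r φ · φ ^ k` over the orbit is nonzero for a
suitable `k` (Dedekind, `exists_pow_sum_ne_zero`) and satisfies `σ h = h / r (σ f₀)`, so
`f₀ · h ^ m` is `H`-fixed.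

Also: `smul_eq_of_lc_eq_one`, `fixed_of_lc`, `fixed_of_lc_of_smul_eq` — a function whose divisor is
`H`-stable is `H`-fixed after normalising its leading coefficient.
-/

set_option autoImplicit false
set_option linter.unusedSectionVars false

noncomputable section

namespace Fermat.Agent.S36.DescFix

open ModularCurve AlgebraicCurve

local notation "Qb" => AlgebraicClosure ℚ

section Abstract

variable {F : Type*} [Field F] {G : Type*} [Group G] [MulSemiringAction G F]

/-- Dedekind: distinct elements of a field, with nonzero weights, have a nonvanishing weighted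
power sum. -/
theorem exists_pow_sum_ne_zero (Ω : Finset F) (hΩ : Ω.Nonempty) (r : F → F)
    (hr : ∀ φ ∈ Ω, r φ ≠ 0) : ∃ k : ℕ, ∑ φ ∈ Ω, r φ * φ ^ k ≠ 0 := by
  classical
  by_contra hcon
  push Not at hcon
  have hli := linearIndependent_monoidHom (Multiplicative ℕ) F
  rw [linearIndependent_iff'] at hli
  have hinj : Function.Injective (fun φ : F => (powersHom F φ : Multiplicative ℕ →* F)) :=
    (powersHom F).injective
  have h0 := hli (Ω.image (fun φ : F => (powersHom F φ : Multiplicative ℕ →* F)))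
    (fun χ => r (χ (Multiplicative.ofAdd 1))) (by
      rw [Finset.sum_image (fun a _ b _ h => hinj h)]
      funext k
      rw [Finset.sum_apply]
      simp only [Pi.smul_apply, smul_eq_mul, Pi.zero_apply]
      have := hcon (Multiplicative.toAdd k)
      simpa [powersHom_apply] using this)
  obtain ⟨φ, hφ⟩ := hΩ
  have h1 := h0 (powersHom F φ) (Finset.mem_image_of_mem _ hφ)
  simp only [powersHom_apply, toAdd_ofAdd, pow_one] at h1
  exact hr φ hφ h1

/-- **Twisted Hilbert 90 with normalised roots.**  Let `H` act on the field `F`, let `Nrm` be a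
submonoid of `F` stable under inversion and under `H`, containing no nontrivial `m`-th root of
unity.  If `f₀ ≠ 0` has finite `H`-orbit and every `σ f₀ / f₀` (`σ ∈ H`) is the `m`-th power of
an element of `Nrm`, then `f₀ · h ^ m` is `H`-fixed for a suitable `h ≠ 0`. -/
theorem exists_fixed_mul_pow (H : Subgroup G) (Nrm : Submonoid F) (m : ℕ)
    (hNinv : ∀ u ∈ Nrm, u⁻¹ ∈ Nrm)
    (hNsmul : ∀ σ ∈ H, ∀ u ∈ Nrm, σ • u ∈ Nrm)
    (hNuniq : ∀ u ∈ Nrm, u ^ m = 1 → u = 1)
    (f₀ : F) (hf₀ : f₀ ≠ 0)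
    (hfin : {φ : F | ∃ σ ∈ H, σ • f₀ = φ}.Finite)
    (hroot : ∀ σ ∈ H, ∃ u ∈ Nrm, u ^ m = σ • f₀ / f₀) :
    ∃ h : F, h ≠ 0 ∧ ∀ σ ∈ H, σ • (f₀ * h ^ m) = f₀ * h ^ m := by
  classical
  set Ω : Finset F := hfin.toFinset with hΩdef
  have hmemΩ : ∀ φ : F, φ ∈ Ω ↔ ∃ σ ∈ H, σ • f₀ = φ := fun φ => by
    rw [hΩdef, Set.Finite.mem_toFinset]; rfl
  have hf₀Ω : f₀ ∈ Ω := (hmemΩ f₀).mpr ⟨1, H.one_mem, one_smul _ _⟩
  have hsmulΩ : ∀ σ ∈ H, ∀ φ ∈ Ω, σ • φ ∈ Ω := by
    intro σ hσ φ hφ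
    obtain ⟨τ, hτ, rfl⟩ := (hmemΩ φ).mp hφ
    exact (hmemΩ _).mpr ⟨σ * τ, H.mul_mem hσ hτ, mul_smul _ _ _⟩
  have hne : ∀ φ ∈ Ω, φ ≠ 0 := by
    intro φ hφ
    obtain ⟨τ, -, rfl⟩ := (hmemΩ φ).mp hφ
    exact (smul_ne_zero_iff_ne τ).mpr hf₀
  have hex : ∀ φ ∈ Ω, ∃ u ∈ Nrm, u ^ m = φ / f₀ := by
    intro φ hφ
    obtain ⟨τ, hτ, rfl⟩ := (hmemΩ φ).mp hφ
    exact hroot τ hτ
  -- the normalised roots
  let r : F → F := fun φ => if h : ∃ u ∈ Nrm, u ^ m = φ / f₀ then h.choose else 1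
  have hrN : ∀ φ ∈ Ω, r φ ∈ Nrm := by
    intro φ hφ
    have h := hex φ hφ
    simp only [r, dif_pos h]
    exact h.choose_spec.1
  have hrpow : ∀ φ ∈ Ω, r φ ^ m = φ / f₀ := by
    intro φ hφ
    have h := hex φ hφ
    simp only [r, dif_pos h]
    exact h.choose_spec.2
  have hr0 : ∀ φ ∈ Ω, r φ ≠ 0 := by
    intro φ hφ h0
    have h1 := hrpow φ hφ
    rw [h0] at h1
    rcases Nat.eq_zero_or_pos m with hm | hm
    · subst hm
      -- `m = 0`: then `r φ ∈ Nrm` is `1` by uniqueness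
      have := hNuniq (r φ) (hrN φ hφ) (pow_zero _)
      rw [h0] at this
      exact zero_ne_one this
    · rw [zero_pow hm.ne'] at h1
      exact div_ne_zero (hne φ hφ) hf₀ h1.symm
  -- the cocycle identity
  have hcoc : ∀ σ ∈ H, ∀ φ ∈ Ω, σ • r φ = r (σ • φ) / r (σ • f₀) := by
    intro σ hσ φ hφ
    have hσφ := hsmulΩ σ hσ φ hφ
    have hσf := hsmulΩ σ hσ f₀ hf₀Ω
    have ha : σ • r φ ∈ Nrm := hNsmul σ hσ _ (hrN φ hφ)
    have hb : (r (σ • φ) * (r (σ • f₀))⁻¹)⁻¹ ∈ Nrm :=
      hNinv _ (Nrm.mul_mem (hrN _ hσφ) (hNinv _ (hrN _ hσf)))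
    have hX : σ • φ / σ • f₀ ≠ 0 := div_ne_zero (hne _ hσφ) (hne _ hσf)
    have hapow : (σ • r φ) ^ m = σ • φ / σ • f₀ := by
      rw [← smul_pow', hrpow φ hφ, smul_div₀']
    have hbpow : (r (σ • φ) * (r (σ • f₀))⁻¹) ^ m = σ • φ / σ • f₀ := by
      rw [mul_pow, inv_pow, hrpow _ hσφ, hrpow _ hσf]
      field_simp
    have h1 := hNuniq _ (Nrm.mul_mem ha hb) (by
      rw [mul_pow, inv_pow, hapow, hbpow, mul_inv_cancel₀ hX])
    have hb0 : r (σ • φ) * (r (σ • f₀))⁻¹ ≠ 0 :=
      mul_ne_zero (hr0 _ hσφ) (inv_ne_zero (hr0 _ hσf))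
    rw [div_eq_mul_inv]
    exact (mul_inv_eq_one₀ hb0).mp h1
  obtain ⟨k, hk⟩ := exists_pow_sum_ne_zero Ω ⟨f₀, hf₀Ω⟩ r hr0
  set h : F := ∑ φ ∈ Ω, r φ * φ ^ k with hdef
  have hsm : ∀ σ ∈ H, σ • h = h / r (σ • f₀) := by
    intro σ hσ
    have hσf := hsmulΩ σ hσ f₀ hf₀Ω
    rw [hdef, Finset.smul_sum, Finset.sum_div]
    refine Finset.sum_nbij' (fun φ => σ • φ) (fun φ => σ⁻¹ • φ) (fun φ hφ => hsmulΩ σ hσ φ hφ)
      (fun φ hφ => hsmulΩ σ⁻¹ (H.inv_mem hσ) φ hφ) (fun φ _ => inv_smul_smul σ φ)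
      (fun φ _ => smul_inv_smul σ φ) (fun φ hφ => ?_)
    rw [smul_mul', smul_pow', hcoc σ hσ φ hφ]
    ring
  refine ⟨h, hk, fun σ hσ => ?_⟩
  have hσf := hsmulΩ σ hσ f₀ hf₀Ω
  rw [smul_mul', smul_pow', hsm σ hσ, div_pow, hrpow _ hσf]
  have := hne _ hσf
  field_simp

end Abstract

section Lc

/-- an injective coefficient map commutes with leading coefficients -/
theorem leadingCoeff_coeffMap {R S : Type*} [CommRing R] [CommRing S] (f : R →+* S)
    (hf : Function.Injective f) (x : LaurentSeries R) :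
    (coeffMap f x).leadingCoeff = f x.leadingCoeff := by
  rcases eq_or_ne x 0 with rfl | hx
  · simp
  have hy : coeffMap f x ≠ 0 := by
    intro h
    apply hx
    ext k
    have h1 := congrArg (fun y : LaurentSeries S => y.coeff k) h
    simp only [coeffMap_coeff, HahnSeries.coeff_zero] at h1
    rw [HahnSeries.coeff_zero]
    exact hf (by rw [h1, map_zero])
  have hord : (coeffMap f x).order = x.order := by
    apply le_antisymm
    · apply HahnSeries.order_le_of_coeff_ne_zero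
      rw [coeffMap_coeff]
      exact (map_ne_zero_iff f hf).mpr (fun h => hx (HahnSeries.coeff_order_eq_zero.mp h))
    · apply HahnSeries.order_le_of_coeff_ne_zero
      intro h0
      apply hy
      apply HahnSeries.coeff_order_eq_zero.mp
      rw [coeffMap_coeff, h0, map_zero]
  rw [HahnSeries.leadingCoeff_eq, HahnSeries.leadingCoeff_eq, hord, coeffMap_coeff]

variable {L : Type*} [Field L] [Algebra ℚ L] (F₀ : IntermediateField ℚ (LaurentSeries ℚ))

/-- The leading `q`-expansion coefficient, as a multiplicative map. -/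
def lc : ↥(laurentBaseChange L F₀) →*₀ L where
  toFun x := (x : LaurentSeries L).leadingCoeff
  map_zero' := HahnSeries.leadingCoeff_zero
  map_one' := HahnSeries.leadingCoeff_one
  map_mul' _ _ := HahnSeries.leadingCoeff_mul _ _

theorem lc_apply (x : ↥(laurentBaseChange L F₀)) :
    lc F₀ x = (x : LaurentSeries L).leadingCoeff := rfl

theorem lc_algebraMap (c : L) : lc F₀ (algebraMap L ↥(laurentBaseChange L F₀) c) = c := by
  rw [lc_apply, IntermediateField.coe_algebraMap_apply, algebraMap_laurentSeries_eq_single]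
  exact HahnSeries.leadingCoeff_of_single

theorem lc_smul (σ : L ≃ₐ[ℚ] L) (x : ↥(laurentBaseChange L F₀)) :
    lc F₀ (arithmeticGalois F₀ σ • x) = σ (lc F₀ x) := by
  rw [lc_apply, coe_arithmeticGalois_smul, leadingCoeff_coeffMap _ σ.injective]
  rfl

/-- normalising the leading coefficient -/
theorem lc_normalise {x : ↥(laurentBaseChange L F₀)} (hx : x ≠ 0) :
    lc F₀ (algebraMap L ↥(laurentBaseChange L F₀) (lc F₀ x)⁻¹ * x) = 1 := by
  rw [map_mul, lc_algebraMap]
  exact inv_mul_cancel₀ ((map_ne_zero (lc F₀)).mpr hx)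

/-- the functions with leading coefficient `1` -/
def nrm : Submonoid ↥(laurentBaseChange L F₀) where
  carrier := {u | lc F₀ u = 1}
  one_mem' := map_one _
  mul_mem' := fun {a b} ha hb => by
    show lc F₀ (a * b) = 1
    rw [map_mul, show lc F₀ a = 1 from ha, show lc F₀ b = 1 from hb, mul_one]

theorem mem_nrm {u : ↥(laurentBaseChange L F₀)} : u ∈ nrm F₀ ↔ lc F₀ u = 1 := Iff.rfl

theorem inv_mem_nrm {u : ↥(laurentBaseChange L F₀)} (hu : u ∈ nrm F₀) : u⁻¹ ∈ nrm F₀ := by
  rw [mem_nrm] at hu ⊢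
  rw [map_inv₀, hu, inv_one]

theorem smul_mem_nrm (σ : L ≃ₐ[ℚ] L) {u : ↥(laurentBaseChange L F₀)} (hu : u ∈ nrm F₀) :
    arithmeticGalois F₀ σ • u ∈ nrm F₀ := by
  rw [mem_nrm] at hu ⊢
  rw [lc_smul, hu, map_one]

/-- a normalised `m`-th root of unity is `1` (given a primitive `m`-th root of unity among the
constants) -/
theorem eq_one_of_mem_nrm_of_pow (m : ℕ) [NeZero m] {ζ : L} (hζ : IsPrimitiveRoot ζ m)
    {u : ↥(laurentBaseChange L F₀)} (hu : u ∈ nrm F₀) (hpow : u ^ m = 1) : u = 1 := by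
  have hζ' : IsPrimitiveRoot (algebraMap L ↥(laurentBaseChange L F₀) ζ) m :=
    hζ.map_of_injective (algebraMap L ↥(laurentBaseChange L F₀)).injective
  obtain ⟨i, -, hi⟩ := hζ'.eq_pow_of_pow_eq_one hpow
  rw [mem_nrm, ← hi, ← map_pow, lc_algebraMap] at hu
  rw [← hi, ← map_pow, hu, map_one]

end Lc

section Orbit

/-- the Galois orbit of a function is finite -/
theorem finite_orbit (F₀ : IntermediateField ℚ (LaurentSeries ℚ)) (f : ↥(laurentBaseChange Qb F₀)) :
    {φ : ↥(laurentBaseChange Qb F₀) | ∃ σ : Qb ≃ₐ[ℚ] Qb, arithmeticGalois F₀ σ • f = φ}.Finite := by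
  classical
  obtain ⟨S, hS⟩ := Fermat.Agent.S18.Descent.exists_finset_descent F₀ f.2
  let L : IntermediateField ℚ Qb := IntermediateField.adjoin ℚ (S : Set Qb)
  have : FiniteDimensional ℚ L :=
    IntermediateField.finiteDimensional_adjoin
      (fun x _ => ((AlgebraicClosure.isAlgebraic ℚ).isAlgebraic x).isIntegral)
  obtain ⟨y, -, hyf⟩ := hS L (algebraMap L Qb)
    (fun a ha => ⟨⟨a, IntermediateField.subset_adjoin ℚ _ ha⟩, rfl⟩)
  have : Finite (L →ₐ[ℚ] Qb) := inferInstance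
  refine Set.Finite.subset ((Set.finite_range
    (fun j : L →ₐ[ℚ] Qb => coeffMap (j : L →+* Qb) y)).preimage
      (Subtype.val_injective.injOn)) ?_
  rintro φ ⟨σ, rfl⟩
  refine ⟨(σ : Qb →ₐ[ℚ] Qb).comp L.val, ?_⟩
  show coeffMap _ y = ((arithmeticGalois F₀ σ • f : ↥(laurentBaseChange Qb F₀)) : LaurentSeries Qb)
  rw [coe_arithmeticGalois_smul, ← hyf, coeffMap_coeffMap]
  rfl

end Orbit

section Main

variable (N : ℕ) [NeZero N]

/-- If the class of `D₀` is fixed by the semilinear automorphism `g` (which preserves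
normalisation), and `f₀` is the normalised function with divisor `m D₀`, then `g f₀ / f₀` is the
`m`-th power of a normalised function. -/
theorem exists_root (g : SemilinearAut Qb (modularFunctionFieldBar N))
    (hgn : ∀ u : modularFunctionFieldBar N, lc (modularFunctionFieldFull N) (g • u) = 1 ↔
      lc (modularFunctionFieldFull N) u = 1)
    (D₀ : Divisor.degZero (K := Qb) (F := modularFunctionFieldBar N))
    (hcls : Pic0.mk (SemilinearAut.degZeroSMulHom g D₀) = Pic0.mk D₀) (m : ℕ)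
    (f₀ : modularFunctionFieldBar N) (hf₀ : f₀ ≠ 0)
    (hlc₀ : lc (modularFunctionFieldFull N) f₀ = 1)
    (hdiv₀ : ∀ P : Place Qb (modularFunctionFieldBar N),
      P.ord f₀ = (m : ℤ) * (D₀ : Divisor Qb (modularFunctionFieldBar N)) P) :
    ∃ u ∈ nrm (modularFunctionFieldFull N), u ^ m = g • f₀ / f₀ := by
  have hmem : SemilinearAut.degZeroSMulHom g D₀ - D₀ ∈
      (Divisor.principal (K := Qb) (F := modularFunctionFieldBar N)).addSubgroupOf
        (Divisor.degZero (K := Qb) (F := modularFunctionFieldBar N)) :=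
    QuotientAddGroup.eq_iff_sub_mem.mp hcls
  rw [AddSubgroup.mem_addSubgroupOf, AddSubgroupClass.coe_sub,
    SemilinearAut.coe_degZeroSMulHom] at hmem
  obtain ⟨u, hu0, hu⟩ := hmem
  have hgf₀ : g • f₀ ≠ 0 := (smul_ne_zero_iff_ne g).mpr hf₀
  have hum : u ^ m ≠ 0 := pow_ne_zero m hu0
  have hord : ∀ v : Place Qb (modularFunctionFieldBar N),
      v.ord (g • f₀ / f₀ * (u ^ m)⁻¹) = 0 := by
    intro v
    have e1 : v.ord (g • f₀) = (m : ℤ) *
        (g • (D₀ : Divisor Qb (modularFunctionFieldBar N))) v := by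
      have h5 := SemilinearAut.ord_smul g (g⁻¹ • v) f₀
      rw [smul_inv_smul] at h5
      rw [h5, hdiv₀ (g⁻¹ • v), SemilinearAut.divisor_smul_apply]
    have e2 : v.ord (u ^ m) = (m : ℤ) * v.ord u := by
      rw [← zpow_natCast, v.ord_zpow]
    have e3 := hu v
    rw [Finsupp.sub_apply] at e3
    have e0 : v.ord (g • f₀ / f₀ * (u ^ m)⁻¹) = v.ord (g • f₀) - v.ord f₀ - v.ord (u ^ m) := by
      rw [div_eq_mul_inv, v.ord_mul (mul_ne_zero hgf₀ (inv_ne_zero hf₀)) (inv_ne_zero hum),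
        v.ord_mul hgf₀ (inv_ne_zero hf₀), v.ord_inv, v.ord_inv]
      ring
    have e4 := hdiv₀ v
    rw [e0, e1, e2, e4, ← e3]
    ring
  obtain ⟨c, hc⟩ := Fermat.Agent.S29.ConstOfOrd.bar_const_of_ord_eq_zero N _ hord
  have hlcu : lc (modularFunctionFieldFull N) u ≠ 0 :=
    (map_ne_zero (lc (modularFunctionFieldFull N))).mpr hu0
  have hcval : c = ((lc (modularFunctionFieldFull N) u)⁻¹) ^ m := by
    have h3 := congrArg (lc (modularFunctionFieldFull N)) hc
    rw [map_mul, map_div₀, (hgn f₀).mpr hlc₀, hlc₀, div_one, map_inv₀, map_pow,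
      lc_algebraMap, one_mul] at h3
    rw [← h3, inv_pow]
  refine ⟨algebraMap Qb (modularFunctionFieldBar N) (lc (modularFunctionFieldFull N) u)⁻¹ * u,
    lc_normalise (modularFunctionFieldFull N) hu0, ?_⟩
  rw [mul_pow, ← map_pow, ← hcval, ← hc]
  field_simp

/-- **(D1)** A class of `J₀(N)(ℚ̄)` killed by `m` and fixed by a subgroup `H` of the Galois group
is represented by a divisor `D` such that `m • D` is the divisor of an `H`-fixed function. -/
theorem exists_fixed_rep (H : Subgroup (Qb ≃ₐ[ℚ] Qb)) (m : ℕ) (hm : m ≠ 0) (x : JZero N)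
    (hx : m • x = 0) (hfix : ∀ τ ∈ H, τ • x = x) :
    ∃ (D : Divisor.degZero (K := Qb) (F := modularFunctionFieldBar N))
      (f : modularFunctionFieldBar N), f ≠ 0 ∧ Pic0.mk D = x ∧
      (∀ P : Place Qb (modularFunctionFieldBar N),
        P.ord f = (m : ℤ) * (D : Divisor Qb (modularFunctionFieldBar N)) P) ∧
      ∀ τ ∈ H, arithmeticGalois (modularFunctionFieldFull N) τ • f = f := by
  classical
  have : NeZero m := ⟨hm⟩
  obtain ⟨D₀, rfl⟩ := Pic0.mk_surjective x
  -- a function with divisor `m D₀`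
  have h1 : Pic0.mk (m • D₀) = 0 := hx
  have h2 : (m • D₀ : Divisor.degZero (K := Qb) (F := modularFunctionFieldBar N)) ∈
      (Divisor.principal (K := Qb) (F := modularFunctionFieldBar N)).addSubgroupOf
        (Divisor.degZero (K := Qb) (F := modularFunctionFieldBar N)) :=
    (QuotientAddGroup.eq_zero_iff _).mp h1
  rw [AddSubgroup.mem_addSubgroupOf, AddSubgroupClass.coe_nsmul] at h2
  obtain ⟨f₁, hf₁, hdiv₁⟩ := h2
  -- normalise its leading coefficient
  have hc0 : (lc (modularFunctionFieldFull N) f₁)⁻¹ ≠ 0 :=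
    inv_ne_zero ((map_ne_zero (lc (modularFunctionFieldFull N))).mpr hf₁)
  have hc0' : algebraMap Qb (modularFunctionFieldBar N) (lc (modularFunctionFieldFull N) f₁)⁻¹ ≠ 0 :=
    (map_ne_zero _).mpr hc0
  obtain ⟨f₀, hf₀def⟩ : ∃ f₀ : modularFunctionFieldBar N, f₀ =
    algebraMap Qb (modularFunctionFieldBar N) (lc (modularFunctionFieldFull N) f₁)⁻¹ * f₁ := ⟨_, rfl⟩
  have hf₀ : f₀ ≠ 0 := hf₀def ▸ mul_ne_zero hc0' hf₁
  have hlc₀ : lc (modularFunctionFieldFull N) f₀ = 1 :=
    hf₀def ▸ lc_normalise (modularFunctionFieldFull N) hf₁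
  have hdiv₀ : ∀ P : Place Qb (modularFunctionFieldBar N),
      P.ord f₀ = (m : ℤ) * (D₀ : Divisor Qb (modularFunctionFieldBar N)) P := by
    intro P
    rw [hf₀def, P.ord_mul hc0' hf₁, Fermat.Agent.S18.Descent.ord_algebraMap, zero_add, ← hdiv₁ P,
      Finsupp.smul_apply, nsmul_eq_mul]
  obtain ⟨ζ, hζ⟩ := HasEnoughRootsOfUnity.exists_primitiveRoot Qb m
  obtain ⟨h, hh0, hh⟩ := exists_fixed_mul_pow (H.map (arithmeticGalois (modularFunctionFieldFull N)))
    (nrm (modularFunctionFieldFull N)) m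
    (fun u hu => inv_mem_nrm (modularFunctionFieldFull N) hu)
    (by rintro _ ⟨σ, -, rfl⟩ u hu; exact smul_mem_nrm (modularFunctionFieldFull N) σ hu)
    (fun u hu hpow => eq_one_of_mem_nrm_of_pow (modularFunctionFieldFull N) m hζ hu hpow)
    f₀ hf₀
    ((finite_orbit (modularFunctionFieldFull N) f₀).subset
      (by rintro φ ⟨_, ⟨σ, -, rfl⟩, rfl⟩; exact ⟨σ, rfl⟩))
    (by
      rintro _ ⟨σ, hσ, rfl⟩
      refine exists_root N _ (fun u => ?_) D₀ ?_ m f₀ hf₀ hlc₀ hdiv₀
      · rw [lc_smul]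
        exact ⟨fun h => σ.injective (by rw [h, map_one]), fun h => by rw [h, map_one]⟩
      · have h6 := hfix σ hσ
        rwa [galois_smul_pic0_def, SemilinearAut.pic0_smul_mk] at h6)
  -- the divisor of `h`
  obtain ⟨Dh, hDh, hdeg⟩ := (Fermat.Agent.S29.KFin.hasPrincipalDivisors N).exists_divisor h hh0
  have hDh0 : Dh ∈ Divisor.degZero (K := Qb) (F := modularFunctionFieldBar N) :=
    Divisor.mem_degZero.mpr hdeg
  refine ⟨D₀ + ⟨Dh, hDh0⟩, f₀ * h ^ m, mul_ne_zero hf₀ (pow_ne_zero m hh0), ?_, ?_, ?_⟩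
  · rw [Pic0.mk_add]
    have h7 : Pic0.mk (⟨Dh, hDh0⟩ : Divisor.degZero (K := Qb) (F := modularFunctionFieldBar N)) = 0 :=
      (QuotientAddGroup.eq_zero_iff _).mpr (AddSubgroup.mem_addSubgroupOf.mpr ⟨h, hh0, hDh⟩)
    rw [h7, add_zero]
  · intro P
    rw [P.ord_mul hf₀ (pow_ne_zero m hh0), hdiv₀, ← zpow_natCast, P.ord_zpow, AddMemClass.coe_add,
      Finsupp.add_apply, hDh P]
    ring
  · intro τ hτ
    exact hh _ ⟨τ, hτ, rfl⟩

/-- A normalised function whose divisor is preserved by `σ` is fixed by `σ`. -/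
theorem smul_eq_of_lc_eq_one (σ : Qb ≃ₐ[ℚ] Qb) (g : modularFunctionFieldBar N) (hg : g ≠ 0)
    (hlc : lc (modularFunctionFieldFull N) g = 1)
    (hdiv : ∀ P : Place Qb (modularFunctionFieldBar N),
      P.ord (arithmeticGalois (modularFunctionFieldFull N) σ • g) = P.ord g) :
    arithmeticGalois (modularFunctionFieldFull N) σ • g = g := by
  have hσg : arithmeticGalois (modularFunctionFieldFull N) σ • g ≠ 0 :=
    (smul_ne_zero_iff_ne _).mpr hg
  have hord : ∀ v : Place Qb (modularFunctionFieldBar N),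
      v.ord (arithmeticGalois (modularFunctionFieldFull N) σ • g * g⁻¹) = 0 := by
    intro v
    rw [v.ord_mul hσg (inv_ne_zero hg), v.ord_inv, hdiv v, add_neg_cancel]
  obtain ⟨c, hc⟩ := Fermat.Agent.S29.ConstOfOrd.bar_const_of_ord_eq_zero N _ hord
  have h3 := congrArg (lc (modularFunctionFieldFull N)) hc
  rw [map_mul, map_inv₀, lc_smul, hlc, map_one, inv_one, mul_one, lc_algebraMap] at h3
  rw [← h3, map_one] at hc
  exact (mul_inv_eq_one₀ hg).mp hc

/-- **(D1')** Normalisation: a nonzero function whose divisor is `H`-stable becomes `H`-fixed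
after scaling by a nonzero constant (the inverse of its leading coefficient). -/
theorem fixed_of_lc (H : Subgroup (Qb ≃ₐ[ℚ] Qb)) (g : modularFunctionFieldBar N) (hg : g ≠ 0)
    (hdiv : ∀ τ ∈ H, ∀ P : Place Qb (modularFunctionFieldBar N),
      P.ord (arithmeticGalois (modularFunctionFieldFull N) τ • g) = P.ord g) :
    ∃ c : Qb, c ≠ 0 ∧
      ∀ τ ∈ H, arithmeticGalois (modularFunctionFieldFull N) τ •
        (algebraMap Qb (modularFunctionFieldBar N) c * g) =
          algebraMap Qb (modularFunctionFieldBar N) c * g := by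
  have hc0 : (lc (modularFunctionFieldFull N) g)⁻¹ ≠ 0 :=
    inv_ne_zero ((map_ne_zero (lc (modularFunctionFieldFull N))).mpr hg)
  have hc0' : algebraMap Qb (modularFunctionFieldBar N) (lc (modularFunctionFieldFull N) g)⁻¹ ≠ 0 :=
    (map_ne_zero _).mpr hc0
  refine ⟨(lc (modularFunctionFieldFull N) g)⁻¹, hc0, fun τ hτ => ?_⟩
  have hnorm := lc_normalise (modularFunctionFieldFull N) hg
  obtain ⟨a, ha⟩ : ∃ a : modularFunctionFieldBar N, a =
      algebraMap Qb (modularFunctionFieldBar N) (lc (modularFunctionFieldFull N) g)⁻¹ := ⟨_, rfl⟩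
  rw [← ha] at hnorm hc0' ⊢
  refine smul_eq_of_lc_eq_one N τ (a * g) (mul_ne_zero hc0' hg) hnorm (fun P => ?_)
  have hτg : arithmeticGalois (modularFunctionFieldFull N) τ • g ≠ 0 :=
    (smul_ne_zero_iff_ne _).mpr hg
  have hτa : arithmeticGalois (modularFunctionFieldFull N) τ • a ≠ 0 :=
    (smul_ne_zero_iff_ne _).mpr hc0'
  have e1 : P.ord (arithmeticGalois (modularFunctionFieldFull N) τ • a) = 0 := by
    rw [ha, SemilinearAut.smul_algebraMap]
    exact Fermat.Agent.S18.Descent.ord_algebraMap P _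
  have e2 : P.ord a = 0 := by
    rw [ha]
    exact Fermat.Agent.S18.Descent.ord_algebraMap P _
  rw [smul_mul', P.ord_mul hτa hτg, P.ord_mul hc0' hg, hdiv τ hτ P, e1, e2]

/-- Variant of `fixed_of_lc`: the hypothesis is that each `τ ∈ H` multiplies `g` by a
constant. -/
theorem fixed_of_lc_of_smul_eq (H : Subgroup (Qb ≃ₐ[ℚ] Qb)) (g : modularFunctionFieldBar N)
    (hg : g ≠ 0)
    (hsm : ∀ τ ∈ H, ∃ d : Qb, arithmeticGalois (modularFunctionFieldFull N) τ • g =
      algebraMap Qb (modularFunctionFieldBar N) d * g) :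
    ∃ c : Qb, c ≠ 0 ∧
      ∀ τ ∈ H, arithmeticGalois (modularFunctionFieldFull N) τ •
        (algebraMap Qb (modularFunctionFieldBar N) c * g) =
          algebraMap Qb (modularFunctionFieldBar N) c * g := by
  refine fixed_of_lc N H g hg (fun τ hτ P => ?_)
  obtain ⟨d, hd⟩ := hsm τ hτ
  have hτg : arithmeticGalois (modularFunctionFieldFull N) τ • g ≠ 0 :=
    (smul_ne_zero_iff_ne _).mpr hg
  have hd0 : algebraMap Qb (modularFunctionFieldBar N) d ≠ 0 := by
    intro h0
    rw [hd, h0, zero_mul] at hτg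
    exact hτg rfl
  rw [hd, P.ord_mul hd0 hg, Fermat.Agent.S18.Descent.ord_algebraMap, zero_add]

end Main

end Fermat.Agent.S36.DescFix
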