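import Fermat.Agent.S29.DescMem

/-!
# S36 (DESC, U3): coefficient descent for the modular function fields

An element of `FF ℚ̄ N` all of whose `q`-expansion coefficients lie in the image of a field
`L → ℚ̄` is the base change of an element of `FF L N`.  This is a restatement of
`S29.DescMem.exists_bc_eq_of_coeff_mem_range` in the shape consumed by the descent package.
-/

set_option autoImplicit false

namespace Fermat.Agent.S36.CoeffDesc

open ModularCurve Fermat.Agent.S24

local notation "Qb" => AlgebraicClosure ℚ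

/-- general form: any coefficient extension `ι : K →+* C` and any base field of series -/
theorem exists_bc_of_coeff_mem_general {K C : Type*} [Field K] [Field C] [Algebra ℚ K]
    [Algebra ℚ C] (ι : K →+* C) (F₀ : IntermediateField ℚ (LaurentSeries ℚ))
    (f : ↥(laurentBaseChange C F₀))
    (hf : ∀ m : ℤ, ∃ c : K, ι c = (f : LaurentSeries C).coeff m) :
    ∃ fL : ↥(laurentBaseChange K F₀), CoeffBC.bc ι F₀ fL = f :=
  Fermat.Agent.S29.DescMem.exists_bc_eq_of_coeff_mem_range ι F₀ f fun m => by
    obtain ⟨c, hc⟩ := hf m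
    exact ⟨c, hc⟩

/-- **(U3)** coefficient descent for `FF · N`. -/
theorem exists_bc_of_coeff_mem {L : Type*} [Field L] [Algebra ℚ L] (N : ℕ) (ι : L →+* Qb)
    (f : FF Qb N) (hf : ∀ m : ℤ, ∃ c : L, ι c = (f : LaurentSeries Qb).coeff m) :
    ∃ fL : FF L N, CoeffBC.bc ι (modularFunctionFieldFull N) fL = f :=
  exists_bc_of_coeff_mem_general ι (modularFunctionFieldFull N) f hf

/-- **(U3)**, with the `q`-expansion of the descended element. -/
theorem exists_bc_of_coeff_mem' {L : Type*} [Field L] [Algebra ℚ L] (N : ℕ) (ι : L →+* Qb)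
    (f : FF Qb N) (hf : ∀ m : ℤ, ∃ c : L, ι c = (f : LaurentSeries Qb).coeff m) :
    ∃ fL : FF L N, CoeffBC.bc ι (modularFunctionFieldFull N) fL = f ∧
      ∀ m : ℤ, ι ((fL : LaurentSeries L).coeff m) = (f : LaurentSeries Qb).coeff m := by
  obtain ⟨fL, hfL⟩ := exists_bc_of_coeff_mem N ι f hf
  refine ⟨fL, hfL, fun m => ?_⟩
  rw [← hfL, CoeffBC.coe_bc, coeffMap_coeff]

end Fermat.Agent.S36.CoeffDesc
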