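import Mathlib
import Fermat.Prelude.Def_ModularCurve_ArithmeticGalois
import Fermat.Agent.S18.Descent
import Fermat.Agent.S36.CoeffDesc

/-!
# S36 (DESC), part D2: a Galois-fixed function is defined over a finite fixed set

Let `H` be any subgroup of `Gal(ℚ̄/ℚ)` and `f ∈ F̄_N` a function fixed by `H`.  Then there is a
finite set `S ⊆ ℚ̄`, every element of which is fixed by `H`, such that `f` is the base change of an
element of `FF L N` for every field `L → ℚ̄` whose image contains `S`
(`exists_finset_of_fixed`).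

Proof: the `q`-expansion coefficients `c_m` of `f` are fixed by `H`; by the coefficient descent
`S18.Descent.exists_finset_descent` they all lie in a number field, so they span a
finite-dimensional `ℚ`-space, which is spanned by finitely many of them; take `S` to be this
finite set of coefficients.  A field `L → ℚ̄` whose image contains `S` then contains all the
`c_m` (the image is a `ℚ`-subspace), and `CoeffDesc.exists_bc_of_coeff_mem` concludes.
-/

set_option autoImplicit false

noncomputable section

namespace Fermat.Agent.S36.FixedFinset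

open ModularCurve

local notation "Qb" => AlgebraicClosure ℚ

/-- the `q`-expansion coefficients of an element of `laurentBaseChange ℚ̄ F₀` span a
finite-dimensional `ℚ`-space, hence are `ℚ`-spanned by a finite subset of themselves. -/
theorem exists_finset_coeff_span (F₀ : IntermediateField ℚ (LaurentSeries ℚ))
    (f : ↥(laurentBaseChange Qb F₀)) :
    ∃ S : Finset Qb, (∀ a ∈ S, ∃ m : ℤ, (f : LaurentSeries Qb).coeff m = a) ∧
      ∀ m : ℤ, (f : LaurentSeries Qb).coeff m ∈ Submodule.span ℚ (S : Set Qb) := by
  classical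
  obtain ⟨S₁, hS₁⟩ := Fermat.Agent.S18.Descent.exists_finset_descent F₀ f.2
  let L₁ : IntermediateField ℚ Qb := IntermediateField.adjoin ℚ (S₁ : Set Qb)
  have hfd : FiniteDimensional ℚ L₁ :=
    IntermediateField.finiteDimensional_adjoin
      (fun x _ => ((AlgebraicClosure.isAlgebraic ℚ).isAlgebraic x).isIntegral)
  obtain ⟨y, -, hy⟩ := hS₁ L₁ (algebraMap L₁ Qb) (fun a ha =>
    ⟨⟨a, IntermediateField.subset_adjoin ℚ _ ha⟩, rfl⟩)
  -- all coefficients lie in `L₁`
  have hmem : ∀ m : ℤ, (f : LaurentSeries Qb).coeff m ∈ L₁ := by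
    intro m
    rw [← hy, coeffMap_coeff]
    exact (y.coeff m).2
  set c : ℤ → Qb := fun m => (f : LaurentSeries Qb).coeff m with hc
  have hle : Submodule.span ℚ (Set.range c) ≤ L₁.toSubalgebra.toSubmodule := by
    rw [Submodule.span_le]
    rintro _ ⟨m, rfl⟩
    exact hmem m
  have hfd' : Module.Finite ℚ ↥(L₁.toSubalgebra.toSubmodule) := hfd
  have hfg : (Submodule.span ℚ (Set.range c)).FG := by
    have h1 : (L₁.toSubalgebra.toSubmodule).FG := Module.Finite.iff_fg.1 hfd'
    have hN : IsNoetherian ℚ ↥(L₁.toSubalgebra.toSubmodule) := inferInstance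
    have h2 : Module.Finite ℚ ↥(Submodule.span ℚ (Set.range c)) :=
      Module.Finite.of_injective (Submodule.inclusion hle) (Submodule.inclusion_injective hle)
    exact Module.Finite.iff_fg.1 h2
  obtain ⟨S, hSsub, hSspan⟩ := (Submodule.fg_span_iff_fg_span_finset_subset (Set.range c)).1 hfg
  refine ⟨S, fun a ha => ?_, fun m => ?_⟩
  · obtain ⟨m, hm⟩ := hSsub ha
    exact ⟨m, hm⟩
  · rw [← hSspan]
    exact Submodule.subset_span ⟨m, rfl⟩

/-- **(D2)** A function of `F̄_N` fixed by a subgroup `H` of the Galois group is defined over every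
field containing a suitable finite set of `H`-fixed elements of `ℚ̄`. -/
theorem exists_finset_of_fixed (N : ℕ) (H : Subgroup (Qb ≃ₐ[ℚ] Qb))
    (f : modularFunctionFieldBar N)
    (hf : ∀ τ ∈ H, arithmeticGalois (modularFunctionFieldFull N) τ • f = f) :
    ∃ S : Finset Qb, (∀ a ∈ S, ∀ τ ∈ H, τ a = a) ∧
      ∀ (L : Type) [Field L] [Algebra ℚ L] (ι : L →+* Qb), (∀ a ∈ S, ∃ b : L, ι b = a) →
        ∃ fL : Fermat.Agent.S24.FF L N,
          Fermat.Agent.S24.CoeffBC.bc ι (modularFunctionFieldFull N) fL = f := by
  classical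
  obtain ⟨S, hS, hspan⟩ := exists_finset_coeff_span (modularFunctionFieldFull N) f
  -- the coefficients are fixed by `H`
  have hcoeff : ∀ τ ∈ H, ∀ m : ℤ,
      τ ((f : LaurentSeries Qb).coeff m) = (f : LaurentSeries Qb).coeff m := by
    intro τ hτ m
    have h1 := congrArg (fun g : modularFunctionFieldBar N => (g : LaurentSeries Qb).coeff m)
      (hf τ hτ)
    simp only [coe_arithmeticGalois_smul, coeffMap_coeff] at h1
    exact h1
  refine ⟨S, fun a ha τ hτ => ?_, fun L _ _ ι hL => ?_⟩
  · obtain ⟨m, rfl⟩ := hS a ha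
    exact hcoeff τ hτ m
  · refine Fermat.Agent.S36.CoeffDesc.exists_bc_of_coeff_mem N ι f fun m => ?_
    -- the range of `ι` is a `ℚ`-subspace containing `S`
    let R : Submodule ℚ Qb :=
      { carrier := Set.range ι
        add_mem' := by
          rintro _ _ ⟨a, rfl⟩ ⟨b, rfl⟩
          exact ⟨a + b, map_add ι a b⟩
        zero_mem' := ⟨0, map_zero ι⟩
        smul_mem' := by
          rintro r _ ⟨a, rfl⟩
          exact ⟨r • a, map_rat_smul ι r a⟩ }
    have hle : Submodule.span ℚ (S : Set Qb) ≤ R := by
      rw [Submodule.span_le]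
      intro a ha
      obtain ⟨b, hb⟩ := hL a ha
      exact ⟨b, hb⟩
    obtain ⟨b, hb⟩ := hle (hspan m)
    exact ⟨b, hb⟩

end Fermat.Agent.S36.FixedFinset
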