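import Mathlib
import Fermat.Agent.S36.Core36
import Fermat.Agent.S36.UnramLevel
import Fermat.Agent.S36.FixedFinset
import Fermat.Agent.S36.DescFix

/-!
# S36 (DESC): the three descent contracts of `Core36` hold

For a place `A` of `ℚ̄` over a prime `q` and `I_A = A.inertiaSubgroupIn ℚ`:

* `descFix`    : `Core36.DescFix N' p A`   (from `DescFix.exists_fixed_rep`, `H = I_A`);
* `descLevel`  : `Core36.DescLevel N' A`   (from `FixedFinset.exists_finset_of_fixed`, `H = I_A`);
* `unramLevel` : `Core36.UnramLevel q A`   (from `UnramLevel.exists_unram_level`).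
-/

set_option autoImplicit false

noncomputable section

namespace Fermat.Agent.S36.DescInst

open ModularCurve AlgebraicCurve

local notation "Qb" => AlgebraicClosure ℚ

/-- **(DESC-1)** holds for every subgroup, in particular for the inertia group (`p ≠ 0`). -/
theorem descFix (N' p : ℕ) [NeZero N'] (hp : p ≠ 0) (A : ValuationSubring Qb) :
    Fermat.Agent.S36.Core36.DescFix N' p A := by
  intro n x hx hfix
  have hpn : p ^ n ≠ 0 := pow_ne_zero n hp
  obtain ⟨D, f, hf0, hD, hord, hfixf⟩ :=
    Fermat.Agent.S36.DescFix.exists_fixed_rep N' (A.inertiaSubgroupIn ℚ) (p ^ n) hpn x hx hfix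
  exact ⟨D, f, hf0, hD, hord, hfixf⟩

/-- **(DESC-2)** holds for every place. -/
theorem descLevel (N' : ℕ) [NeZero N'] (A : ValuationSubring Qb) :
    Fermat.Agent.S36.Core36.DescLevel N' A := by
  intro f hf
  exact Fermat.Agent.S36.FixedFinset.exists_finset_of_fixed N' (A.inertiaSubgroupIn ℚ) f hf

/-- **(DESC-3)** holds for every place over a prime `q`. -/
theorem unramLevel (q : ℕ) (hq : q.Prime) (A : ValuationSubring Qb) (hA : A.LiesOverPrime q) :
    Fermat.Agent.S36.Core36.UnramLevel q A := by
  intro S hS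
  obtain ⟨L, iF, iA, ι, hlev, hirr, -, -⟩ :=
    Fermat.Agent.S36.UnramLevel.exists_unram_level A q hq hA S hS
  exact ⟨L, iF, iA, ι, hlev, hirr⟩

end Fermat.Agent.S36.DescInst
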