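/-
S36 (wave 8), (TOP): the geometric contract `Contract.FixedNewBoundAll p` from the two remaining
geometric contracts of `S36/Core36.lean`,

* `Core36.Gauss36 (M * q) q A`                         (K2: Claim R₃ on the Gauss ring), and
* `Core36.Loc36₁ (M * q) q p A 1`, `Core36.Loc36₂ …`   (K7: the local Kummer data),

for the tame levels `M` (`q ∤ M`) divisible by an auxiliary prime `r ≡ 11 mod 12`, `r ≠ p`.

Everything else is discharged here:
* `bcE36`      : `Core36.BcE36 N q`       (`BcNorm.bc_E36`);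
* the descent contracts `Core36.DescFix`, `Core36.DescLevel`, `Core36.UnramLevel`
  (`DescInst`);
* the reduction to levels without elliptic points (`AuxLevel.fixedNewBoundAll_of_aux`).

* `opRel_of_gauss_loc`            : `FixTop.OpRel N q p` from `Gauss36` and `Loc36₁/₂`;
* `fixedNewBound_of_gauss_loc`    : `Contract.FixedNewBound N q p` from the same;
* `fixedNewBoundAll_of_gauss_loc` : `Contract.FixedNewBoundAll p`.
-/
import Mathlib
import Fermat.Agent.S36.Core36
import Fermat.Agent.S36.BcNorm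
import Fermat.Agent.S36.DescInst
import Fermat.Agent.S36.AuxLevel

set_option autoImplicit false

noncomputable section

namespace Fermat.Agent.S36.TopOf

open ModularCurve AlgebraicCurve Fermat.Agent.S36

local notation "Qb" => AlgebraicClosure ℚ

/-- `E36` commutes with the change of level to `ℚ̄` (`BcNorm.bc_E36`). -/
theorem bcE36 (N q : ℕ) [NeZero N] [NeZero q] (hq : q.Prime) : Core36.BcE36 N q :=
  fun _ _ _ ι y => BcNorm.bc_E36 ι (RingHom.id _) N q hq q y

/-- **The operator relation from `Gauss36` and the local data** (the descent contracts and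
`BcE36` discharged). -/
theorem opRel_of_gauss_loc (N q p : ℕ) [NeZero N] [NeZero q] (hq : q.Prime) (hp : p.Prime)
    (hqp : q ≠ p)
    (h : ∀ A : ValuationSubring Qb, A.LiesOverPrime q →
      Core36.Gauss36 N q A ∧ ∃ e : ℕ, e ≠ 0 ∧ Core36.Loc36₁ N q p A e ∧ Core36.Loc36₂ N q p A e) :
    FixTop.OpRel N q p :=
  Core36.opRel_of_contracts N q p hq hp hqp (bcE36 N q hq) fun A hA =>
    ⟨DescInst.descFix (N * q) p hp.ne_zero A, DescInst.descLevel (N * q) A,
      DescInst.unramLevel q hq A hA, h A hA⟩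

/-- **`Contract.FixedNewBound N q p` from `Gauss36` and the local data.** -/
theorem fixedNewBound_of_gauss_loc (N q p : ℕ) [NeZero N] [NeZero q] (hq : q.Prime)
    (hp : p.Prime) (hqp : q ≠ p)
    (h : ∀ A : ValuationSubring Qb, A.LiesOverPrime q →
      Core36.Gauss36 N q A ∧ ∃ e : ℕ, e ≠ 0 ∧ Core36.Loc36₁ N q p A e ∧ Core36.Loc36₂ N q p A e) :
    Contract.FixedNewBound N q p :=
  FixTop.fixedNewBound_of_opRel hp.ne_zero hq.one_lt (opRel_of_gauss_loc N q p hq hp hqp h)

/-- **(TOP) The geometric contract of S36 from `Gauss36` and the local data** at the levels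
`M q²`, `q ∤ M`, with `M` divisible by an auxiliary prime `r ≡ 11 mod 12`, `r ≠ p`. -/
theorem fixedNewBoundAll_of_gauss_loc (p : ℕ) (hp : p.Prime)
    (hG : ∀ (M q : ℕ) [NeZero M] [NeZero q], q.Prime → ¬ q ∣ M →
      ∀ A : ValuationSubring Qb, A.LiesOverPrime q → Core36.Gauss36 (M * q) q A)
    (hL : ∀ (M q : ℕ) [NeZero M] [NeZero q], q.Prime → ¬ q ∣ M → q ≠ p →
      (∃ r : ℕ, r.Prime ∧ r % 12 = 11 ∧ r ∣ M ∧ r ≠ p) →
      ∀ A : ValuationSubring Qb, A.LiesOverPrime q →
        Core36.Loc36₁ (M * q) q p A 1 ∧ Core36.Loc36₂ (M * q) q p A 1) :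
    Contract.FixedNewBoundAll p :=
  AuxLevel.fixedNewBoundAll_of_aux p hp.ne_zero fun M q _ _ hq hqM hqp haux =>
    fixedNewBound_of_gauss_loc (M * q) q p hq hp hqp fun A hA =>
      ⟨hG M q hq hqM A hA, 1, one_ne_zero, hL M q hq hqM hqp haux A hA⟩

end Fermat.Agent.S36.TopOf
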