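/-
S36 (wave 8), (TOP) with a level predicate: the geometric contract `Contract.FixedNewBoundAll p`
from the three remaining contracts of `S36/Core36P.lean`, for a family of level predicates
`Φ q A` (in the application `Φ q A L ι := FrobStable A q ι`):

* `Core36P.UnramLevelP (Φ q A) q A`          (existence of unramified levels with `Φ`),
* `Core36P.Gauss36P (Φ q A) (M * q) q A`     (K2), and
* `Core36P.Loc36P₁ (Φ q A) (M * q) q p A 1`, `Core36P.Loc36P₂ …` (K7)
  for the tame levels `M` (`q ∤ M`) divisible by an auxiliary prime `r ≡ 11 mod 12`, `r ≠ p`.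

`BcE36` (`BcNorm.bc_E36`), the descent contracts `DescFix`, `DescLevel` (`DescInst`) and the
reduction to levels without elliptic points (`AuxLevel.fixedNewBoundAll_of_aux`) are discharged.
-/
import Mathlib
import Fermat.Agent.S36.Core36P
import Fermat.Agent.S36.TopOf

set_option autoImplicit false

noncomputable section

namespace Fermat.Agent.S36.TopOfP

open ModularCurve AlgebraicCurve Fermat.Agent.S36 Fermat.Agent.S36.Core36P

local notation "Qb" => AlgebraicClosure ℚ

/-- **The operator relation from `UnramLevelP`, `Gauss36P` and the local data.** -/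
theorem opRel_of_gauss_locP (N q p : ℕ) [NeZero N] [NeZero q]
    (Φ : ValuationSubring Qb → LevelPred) (hq : q.Prime) (hp : p.Prime) (hqp : q ≠ p)
    (h : ∀ A : ValuationSubring Qb, A.LiesOverPrime q →
      UnramLevelP (Φ A) q A ∧ Gauss36P (Φ A) N q A ∧
        ∃ e : ℕ, e ≠ 0 ∧ Loc36P₁ (Φ A) N q p A e ∧ Loc36P₂ (Φ A) N q p A e) :
    FixTop.OpRel N q p :=
  opRel_of_contractsP N q p Φ hq hp hqp (TopOf.bcE36 N q hq) fun A hA =>
    ⟨DescInst.descFix (N * q) p hp.ne_zero A, DescInst.descLevel (N * q) A, h A hA⟩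

/-- **`Contract.FixedNewBound N q p` from `UnramLevelP`, `Gauss36P` and the local data.** -/
theorem fixedNewBound_of_gauss_locP (N q p : ℕ) [NeZero N] [NeZero q]
    (Φ : ValuationSubring Qb → LevelPred) (hq : q.Prime) (hp : p.Prime) (hqp : q ≠ p)
    (h : ∀ A : ValuationSubring Qb, A.LiesOverPrime q →
      UnramLevelP (Φ A) q A ∧ Gauss36P (Φ A) N q A ∧
        ∃ e : ℕ, e ≠ 0 ∧ Loc36P₁ (Φ A) N q p A e ∧ Loc36P₂ (Φ A) N q p A e) :
    Contract.FixedNewBound N q p :=
  FixTop.fixedNewBound_of_opRel hp.ne_zero hq.one_lt (opRel_of_gauss_locP N q p Φ hq hp hqp h)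

/-- **(TOP) The geometric contract of S36 from `UnramLevelP`, `Gauss36P` and the local data** at
the levels `M q²`, `q ∤ M`, with `M` divisible by an auxiliary prime `r ≡ 11 mod 12`, `r ≠ p`;
`Φ q A` is the level predicate used at the place `A` over `q`. -/
theorem fixedNewBoundAll_of_gauss_locP (p : ℕ) (hp : p.Prime)
    (Φ : ℕ → ValuationSubring Qb → LevelPred)
    (hU : ∀ (q : ℕ) (A : ValuationSubring Qb), q.Prime → A.LiesOverPrime q →
      UnramLevelP (Φ q A) q A)
    (hG : ∀ (M q : ℕ) [NeZero M] [NeZero q], q.Prime → ¬ q ∣ M →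
      ∀ A : ValuationSubring Qb, A.LiesOverPrime q → Gauss36P (Φ q A) (M * q) q A)
    (hL : ∀ (M q : ℕ) [NeZero M] [NeZero q], q.Prime → ¬ q ∣ M → q ≠ p →
      (∃ r : ℕ, r.Prime ∧ r % 12 = 11 ∧ r ∣ M ∧ r ≠ p) →
      ∀ A : ValuationSubring Qb, A.LiesOverPrime q →
        Loc36P₁ (Φ q A) (M * q) q p A 1 ∧ Loc36P₂ (Φ q A) (M * q) q p A 1) :
    Contract.FixedNewBoundAll p :=
  AuxLevel.fixedNewBoundAll_of_aux p hp.ne_zero fun M q _ _ hq hqM hqp haux =>
    fixedNewBound_of_gauss_locP (M * q) q p (Φ q) hq hp hqp fun A hA =>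
      ⟨hU q A hq hA, hG M q hq hqM A hA, 1, one_ne_zero, hL M q hq hqM hqp haux A hA⟩

end Fermat.Agent.S36.TopOfP
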