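/-
S36 (wave 8), (TOP) at the Frobenius-stable unramified levels.

* `frobPred A q : Core36P.LevelPred` : the level predicate `FrobLevel.FrobStable A q ι`
  (some Frobenius lift at `A` restricts to the level);
* `frobPred_iff` : unfolding (`Iff.rfl`);
* `unramLevelP_frob` : `Core36P.UnramLevelP (frobPred A q) q A`
  (`FrobLevel.exists_unram_frob_level`);
* `fixedNewBoundAll_of_gauss_loc_frob` : the geometric contract `Contract.FixedNewBoundAll p`
  from
    - `Core36.Gauss36 (M * q) q A`                               (K2, at all unramified levels),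
    - `Core36P.Loc36P₁ (frobPred A q) (M * q) q p A 1`, `Core36P.Loc36P₂ …`
                                                (K7, at the Frobenius-stable unramified levels)
  for the tame levels `M` (`q ∤ M`) divisible by an auxiliary prime `r ≡ 11 mod 12`, `r ≠ p`;
* `fixedNewBoundAll_of_gaussP_loc_frob` : the same with `Core36P.Gauss36P (frobPred A q) …`.
-/
import Mathlib
import Fermat.Agent.S36.TopOfP
import Fermat.Agent.S36.FrobLevel

set_option autoImplicit false

noncomputable section

namespace Fermat.Agent.S36.FrobPred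

open ModularCurve AlgebraicCurve Fermat.Agent.S37 Fermat.Agent.S36 Fermat.Agent.S36.Core36P

local notation "Qb" => AlgebraicClosure ℚ

/-- **The level predicate of S36**: some Frobenius lift at `A` restricts to the level. -/
def frobPred (A : ValuationSubring Qb) (q : ℕ) : LevelPred :=
  fun _ _ _ ι => FrobLevel.FrobStable A q ι

theorem frobPred_iff (A : ValuationSubring Qb) (q : ℕ) (L : Type) [Field L] [Algebra ℚ L]
    (ι : L →+* Qb) : frobPred A q L ι ↔ FrobLevel.FrobStable A q ι := Iff.rfl

/-- Every finite inertia-fixed subset of `ℚ̄` lies in a Frobenius-stable unramified level. -/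
theorem unramLevelP_frob (q : ℕ) (hq : q.Prime) (A : ValuationSubring Qb)
    (hA : A.LiesOverPrime q) : UnramLevelP (frobPred A q) q A := by
  intro S hS
  obtain ⟨L, i₁, i₂, ι, hlev, hirr, -, -, hfrob⟩ :=
    FrobLevel.exists_unram_frob_level A q hq hA S hS
  exact ⟨L, i₁, i₂, ι, hlev, hirr, hfrob⟩

/-- **(TOP) The geometric contract of S36** from `Gauss36P` and the local data at the
Frobenius-stable unramified levels. -/
theorem fixedNewBoundAll_of_gaussP_loc_frob (p : ℕ) (hp : p.Prime)
    (hG : ∀ (M q : ℕ) [NeZero M] [NeZero q], q.Prime → ¬ q ∣ M →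
      ∀ A : ValuationSubring Qb, A.LiesOverPrime q → Gauss36P (frobPred A q) (M * q) q A)
    (hL : ∀ (M q : ℕ) [NeZero M] [NeZero q], q.Prime → ¬ q ∣ M → q ≠ p →
      (∃ r : ℕ, r.Prime ∧ r % 12 = 11 ∧ r ∣ M ∧ r ≠ p) →
      ∀ A : ValuationSubring Qb, A.LiesOverPrime q →
        Loc36P₁ (frobPred A q) (M * q) q p A 1 ∧ Loc36P₂ (frobPred A q) (M * q) q p A 1) :
    Contract.FixedNewBoundAll p :=
  TopOfP.fixedNewBoundAll_of_gauss_locP p hp (fun q A => frobPred A q)
    (fun q A hq hA => unramLevelP_frob q hq A hA) hG hL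

/-- **(TOP) The geometric contract of S36** from `Core36.Gauss36` (all unramified levels) and the
local data at the Frobenius-stable unramified levels. -/
theorem fixedNewBoundAll_of_gauss_loc_frob (p : ℕ) (hp : p.Prime)
    (hG : ∀ (M q : ℕ) [NeZero M] [NeZero q], q.Prime → ¬ q ∣ M →
      ∀ A : ValuationSubring Qb, A.LiesOverPrime q → Core36.Gauss36 (M * q) q A)
    (hL : ∀ (M q : ℕ) [NeZero M] [NeZero q], q.Prime → ¬ q ∣ M → q ≠ p →
      (∃ r : ℕ, r.Prime ∧ r % 12 = 11 ∧ r ∣ M ∧ r ≠ p) →
      ∀ A : ValuationSubring Qb, A.LiesOverPrime q →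
        Loc36P₁ (frobPred A q) (M * q) q p A 1 ∧ Loc36P₂ (frobPred A q) (M * q) q p A 1) :
    Contract.FixedNewBoundAll p :=
  fixedNewBoundAll_of_gaussP_loc_frob p hp
    (fun M q _ _ hq hqM A hA => gauss36P_of_gauss36 _ (M * q) q A (hG M q hq hqM A hA)) hL

end Fermat.Agent.S36.FrobPred
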