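/-
S36 (wave 8), package (V): the three Gauss valuations at level `M q²` — definitions.

`L` is a field of characteristic zero with a discrete valuation ring `W` of residue characteristic
`q ∤ M`, `F = S24.FF L (M * q * q)`, `K₁ = S24.FF L (M * q)`, `α₂ β₂ : K₁ → F` the two degeneracy
embeddings (`heckeAlphaBar L (M * q) q`, `heckeBetaBar L (M * q) q`), `w₁` the Atkin–Lehner
involution of `K₁`.

* `CycData W q W' ζ` : `L' ⊇ L` with a primitive `q`-th root of unity `ζ`, a valuation ring `W'`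
  above `W` with uniformiser `1 - ζ`, trivial residue extension, and the Galois action.
* `Exp3 M q w₁ ζ` : the two further expansion maps `phi0 : F → L((Q))` (cusp `0`) and
  `psi : F → L'((Q))` (middle cusp), characterised by their restrictions to `α₂ K₁`, `β₂ K₁`.
-/
import Mathlib
import Fermat.Agent.S34.TwoGauss
import Fermat.Agent.S28.Defs

set_option autoImplicit false

noncomputable section

namespace Fermat.Agent.S36.VDefs

open ModularCurve Fermat.Agent.S18 Fermat.Agent.S18.Gauss Fermat.Agent.S28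

/-- The cyclotomic package: `ζ ∈ L'` a primitive `q`-th root of unity, `W'` a valuation ring of
`L'` above `W` whose maximal ideal is generated by `1 - ζ`, with the same residue field as `W`,
and stable under automorphisms `σ_k : ζ ↦ ζ ^ k` of `L' / L`. -/
structure CycData {L : Type} [Field L] (W : ValuationSubring L) (q : ℕ)
    {L' : Type} [Field L'] [Algebra L L'] (W' : ValuationSubring L') (ζ : L'ˣ) : Prop where
  prim : IsPrimitiveRoot (ζ : L') q
  comap : ∀ x : L, algebraMap L L' x ∈ W' ↔ x ∈ W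
  unif : ∀ x ∈ W', x⁻¹ ∈ W' ∨ ∃ y ∈ W', x = (1 - (ζ : L')) * y
  res : ∀ x ∈ W', ∃ y ∈ W, ∃ z ∈ W', x - algebraMap L L' y = (1 - (ζ : L')) * z
  gal : ∀ k : ℕ, ¬ q ∣ k → ∃ σ : L' ≃ₐ[L] L', σ (ζ : L') = (ζ : L') ^ k ∧ ∀ x ∈ W', σ x ∈ W'

/-- The two further expansion maps of `F = FF L (M q²)`: `phi0` (the cusp `0`; restricts to
`V_q ∘ φ₂` on `α₂ K₁` and to `φ₂` on `β₂ K₁`, `φ₂ = coe ∘ w₁`) and `psi` (the middle cusp, with
coefficients in `L' ∋ ζ`; restricts to `φ₁ = coe` on `α₂ K₁` and to `tw ζ ∘ φ₂` on `β₂ K₁`). -/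
structure Exp3 {L : Type} [Field L] [Algebra ℚ L] (M q : ℕ) [NeZero M] [NeZero q]
    (w₁ : Fermat.Agent.S24.FF L (M * q) →ₐ[L] Fermat.Agent.S24.FF L (M * q))
    {L' : Type} [Field L'] [Algebra L L'] (ζ : L'ˣ) where
  phi0 : Fermat.Agent.S24.FF L (M * q * q) →+* LaurentSeries L
  psi : Fermat.Agent.S24.FF L (M * q * q) →+* LaurentSeries L'
  phi0_alpha : ∀ b : Fermat.Agent.S24.FF L (M * q),
    phi0 (heckeAlphaBar L (M * q) q b) =
      qExpand L q ((w₁ b : Fermat.Agent.S24.FF L (M * q)) : LaurentSeries L)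
  phi0_beta : ∀ b : Fermat.Agent.S24.FF L (M * q),
    phi0 (heckeBetaBar L (M * q) q b) = ((w₁ b : Fermat.Agent.S24.FF L (M * q)) : LaurentSeries L)
  psi_alpha : ∀ b : Fermat.Agent.S24.FF L (M * q),
    psi (heckeAlphaBar L (M * q) q b) = coeffMap (algebraMap L L') (b : LaurentSeries L)
  psi_beta : ∀ b : Fermat.Agent.S24.FF L (M * q),
    psi (heckeBetaBar L (M * q) q b) =
      tw ζ (coeffMap (algebraMap L L')
        ((w₁ b : Fermat.Agent.S24.FF L (M * q)) : LaurentSeries L))

end Fermat.Agent.S36.VDefs
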