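import Mathlib
import Fermat.Agent.S36.VDefs

/-!
# S36 (wave 8), package (V0): the cyclotomic package above an unramified level

`A` a valuation subring of `Qb = AlgebraicClosure ℚ`, `ι : L →+* Qb` a level such that
`W = A.comap ι` is a discrete valuation ring in which the prime `q` is irreducible (unramified
level).  Then `L' = L(ζ_q) ⊆ Qb` with `W' = A ∩ L'` satisfies `VDefs.CycData W q W' ζ`:
`1 - ζ` is a uniformiser of `W'`, the residue extension is trivial and the automorphisms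
`ζ ↦ ζ ^ k` of `L' / L` preserve `W'`.

Proof: for the valuation `v` of `A`, `v (ζ - 1) ^ (q - 1) = v q` and `v (L ˣ) = v q ^ ℤ`, so the
terms of `∑ i < q - 1, c i * (ζ - 1) ^ i` (`c i ∈ L`) have pairwise distinct valuations.
-/

set_option autoImplicit false
set_option linter.style.haveILetI false

namespace Fermat.Agent.S36.CycData

open Polynomial Finset Fermat.Agent.S36.VDefs

/-! ### A sum of terms with pairwise distinct valuations -/

section Val

variable {K : Type*} [Field K] {Γ₀ : Type*} [LinearOrderedCommGroupWithZero Γ₀]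
  (v : Valuation K Γ₀)

/-- In a finite sum whose nonzero terms have pairwise distinct valuations, one term dominates. -/
theorem exists_dominant {ι : Type*} (s : Finset ι) (t : ι → K)
    (hinj : ∀ i ∈ s, ∀ j ∈ s, t i ≠ 0 → t j ≠ 0 → v (t i) = v (t j) → i = j)
    (hne : ∃ i ∈ s, t i ≠ 0) :
    ∃ i ∈ s, t i ≠ 0 ∧ v (∑ j ∈ s, t j) = v (t i) ∧ ∀ j ∈ s, v (t j) ≤ v (t i) := by
  classical
  obtain ⟨i₁, hi₁s, hi₁⟩ := hne
  obtain ⟨i, his, hmax⟩ := Finset.exists_max_image s (fun i => v (t i)) ⟨i₁, hi₁s⟩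
  have hti : t i ≠ 0 := by
    intro h0
    have h1 := hmax i₁ hi₁s
    simp only [h0, map_zero] at h1
    exact hi₁ ((v.zero_iff).mp (le_antisymm h1 zero_le'))
  have hvi : v (t i) ≠ 0 := (v.ne_zero_iff).mpr hti
  refine ⟨i, his, hti, ?_, hmax⟩
  rw [← Finset.add_sum_erase s t his]
  apply Valuation.map_add_eq_of_lt_left
  apply Valuation.map_sum_lt v hvi
  intro j hj
  rw [Finset.mem_erase] at hj
  refine lt_of_le_of_ne (hmax j hj.2) ?_
  intro heq
  by_cases htj : t j = 0
  · rw [htj, map_zero] at heq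
    exact hvi heq.symm
  · exact hj.1 (hinj j hj.2 i his htj hti heq)

end Val

/-! ### Roots of unity in a valuation subring -/

section Roots

variable {K : Type*} [Field K] (A : ValuationSubring K)

/-- a root of unity lies in every valuation subring -/
theorem mem_of_pow_eq_one {ζ : K} {n : ℕ} (hn : n ≠ 0) (hζ : ζ ^ n = 1) : ζ ∈ A := by
  rcases A.mem_or_inv_mem ζ with h | h
  · exact h
  · have h1 : ζ = ζ⁻¹ ^ (n - 1) := by
      have hζ0 : ζ ≠ 0 := by
        rintro rfl
        rw [zero_pow hn] at hζ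
        exact zero_ne_one hζ
      have h2 : ζ ^ (n - 1) * ζ = 1 := by rw [← pow_succ, Nat.sub_add_cancel (Nat.pos_of_ne_zero hn), hζ]
      rw [inv_pow]
      exact eq_inv_of_mul_eq_one_right h2
    rw [h1]
    exact pow_mem h _

/-- `v (ζ ^ k - 1) = v (ζ - 1)` for `k` prime to the order of the primitive root `ζ` -/
theorem valuation_pow_sub_one {ζ : K} {n : ℕ} (hζ : IsPrimitiveRoot ζ n) (hn : n ≠ 0) {k : ℕ}
    (hk : k.Coprime n) : A.valuation (ζ ^ k - 1) = A.valuation (ζ - 1) := by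
  have hζA : ζ ∈ A := mem_of_pow_eq_one A hn hζ.pow_eq_one
  have hprim : IsPrimitiveRoot (⟨ζ, hζA⟩ : A) n :=
    IsPrimitiveRoot.of_map_of_injective (f := A.subtype) hζ Subtype.val_injective
  obtain ⟨u, hu⟩ := hprim.associated_sub_one_pow_sub_one_of_coprime hk
  have h1 : (ζ - 1) * ((u : A) : K) = ζ ^ k - 1 := congrArg (Subtype.val) hu
  rw [← h1, map_mul, A.valuation_unit u, mul_one]

/-- `v (ζ - 1) ^ (q - 1) = v q` for a primitive `q`-th root of unity, `q` prime -/
theorem valuation_sub_one_pow {ζ : K} {q : ℕ} (hq : q.Prime) (hζ : IsPrimitiveRoot ζ q) :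
    A.valuation (ζ - 1) ^ (q - 1) = A.valuation (q : K) := by
  obtain ⟨n, rfl⟩ : ∃ n, q = n + 1 := ⟨q - 1, (Nat.sub_add_cancel hq.pos).symm⟩
  have h := hζ.prod_one_sub_pow_eq_order
  have h2 : A.valuation ((n + 1 : ℕ) : K) = ∏ k ∈ range n, A.valuation (1 - ζ ^ (k + 1)) := by
    rw [← map_prod, h]; push_cast; rfl
  rw [h2, Nat.add_sub_cancel]
  rw [Finset.prod_congr rfl (g := fun _ => A.valuation (ζ - 1)), Finset.prod_const,
    Finset.card_range]
  intro k hk
  rw [Finset.mem_range] at hk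
  have hcop : (k + 1).Coprime (n + 1) := by
    rw [Nat.coprime_comm]
    exact (Nat.Prime.coprime_iff_not_dvd hq).mpr
      (fun hdvd => absurd (Nat.le_of_dvd (Nat.succ_pos k) hdvd) (by omega))
  rw [← valuation_pow_sub_one A hζ (Nat.succ_ne_zero n) hcop, ← Valuation.map_neg, neg_sub]

end Roots

/-! ### A criterion for `A ∩ K'` to be a discrete valuation ring -/

section DVR

variable {K K' : Type*} [Field K] [Field K'] (A : ValuationSubring K) (f : K' →+* K)

/-- If the value group of `A` on `K'` is generated by the valuation of a nonunit `ϖ`, then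
`A.comap f` is a discrete valuation ring. -/
theorem isDiscreteValuationRing_comap (ϖ : K') (hϖ : f ϖ ∈ A.nonunits) (hϖ0 : ϖ ≠ 0)
    (hgen : ∀ x : K', x ≠ 0 → ∃ n : ℤ, A.valuation (f x) = A.valuation (f ϖ) ^ n) :
    IsDiscreteValuationRing ↥(A.comap f) := by
  set g := A.valuation (f ϖ) with hg
  have hg1 : g < 1 := (A.mem_nonunits_iff).mp hϖ
  have hfϖ0 : f ϖ ≠ 0 := by rwa [Ne, map_eq_zero]
  have hg0 : 0 < g := zero_lt_iff.mpr ((A.valuation.ne_zero_iff).mpr hfϖ0)
  have hmem : ∀ x : K', x ∈ A.comap f ↔ A.valuation (f x) ≤ 1 := fun x => by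
    rw [ValuationSubring.mem_comap, A.valuation_le_one_iff]
  let p : ↥(A.comap f) := ⟨ϖ, (hmem ϖ).mpr hg1.le⟩
  have hp0 : p ≠ 0 := fun h => hϖ0 (congrArg Subtype.val h)
  -- units
  have hunit : ∀ u : ↥(A.comap f), A.valuation (f (u : K')) = 1 → IsUnit u := by
    intro u hu
    have hu0 : (u : K') ≠ 0 := by
      intro h0
      rw [h0, map_zero, map_zero] at hu
      exact zero_ne_one hu
    have hinv : (u : K')⁻¹ ∈ A.comap f := by
      rw [hmem, map_inv₀, map_inv₀, hu, inv_one]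
    exact IsUnit.of_mul_eq_one ⟨(u : K')⁻¹, hinv⟩ (Subtype.ext (mul_inv_cancel₀ hu0))
  have hval_unit : ∀ u : ↥(A.comap f), IsUnit u → A.valuation (f (u : K')) = 1 := by
    intro u hu
    obtain ⟨w, hw⟩ := hu.exists_right_inv
    have h1 : A.valuation (f (u : K')) * A.valuation (f (w : K')) = 1 := by
      rw [← map_mul, ← map_mul]
      have : (u : K') * (w : K') = 1 := congrArg Subtype.val hw
      rw [this, map_one, map_one]
    have h2 : A.valuation (f (u : K')) ≤ 1 := (hmem _).mp u.2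
    have h3 : A.valuation (f (w : K')) ≤ 1 := (hmem _).mp w.2
    refine le_antisymm h2 ?_
    calc (1 : A.ValueGroup) = A.valuation (f (u : K')) * A.valuation (f (w : K')) := h1.symm
      _ ≤ A.valuation (f (u : K')) * 1 := mul_le_mul_right h3 _
      _ = A.valuation (f (u : K')) := mul_one _
  -- every nonzero element is `p ^ m` times a unit
  have key : ∀ x : ↥(A.comap f), x ≠ 0 →
      ∃ m : ℕ, A.valuation (f (x : K')) = g ^ m ∧ Associated (p ^ m) x := by
    intro x hx
    have hx0 : (x : K') ≠ 0 := fun h => hx (Subtype.ext h)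
    obtain ⟨n, hn⟩ := hgen (x : K') hx0
    have hle : g ^ n ≤ 1 := hn ▸ (hmem _).mp x.2
    rw [zpow_le_one_iff_right_of_lt_one₀ hg0 hg1] at hle
    obtain ⟨m, rfl⟩ := Int.eq_ofNat_of_zero_le hle
    rw [zpow_natCast] at hn
    refine ⟨m, hn, ?_⟩
    have hum : (x : K') / ϖ ^ m ∈ A.comap f := by
      rw [hmem, map_div₀, map_div₀, map_pow, map_pow, hn, div_self (pow_ne_zero _ hg0.ne')]
    have hu1 : A.valuation (f ((x : K') / ϖ ^ m)) = 1 := by
      rw [map_div₀, map_div₀, map_pow, map_pow, hn, div_self (pow_ne_zero _ hg0.ne')]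
    obtain ⟨u, hu⟩ := hunit ⟨_, hum⟩ hu1
    refine ⟨u, ?_⟩
    rw [hu]
    apply Subtype.ext
    show ϖ ^ m * ((x : K') / ϖ ^ m) = x
    field_simp
  refine IsDiscreteValuationRing.ofHasUnitMulPowIrreducibleFactorization
    ⟨p, ?_, fun {x} hx => (key x hx).imp fun m h => h.2⟩
  -- `p` is irreducible
  have hpval : A.valuation (f (p : K')) = g := rfl
  refine ⟨fun hu => ?_, fun a b hab => ?_⟩
  · have := hval_unit p hu
    rw [hpval] at this
    exact hg1.ne this
  · have ha0 : a ≠ 0 := by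
      rintro rfl
      rw [zero_mul] at hab
      exact hp0 hab
    have hb0 : b ≠ 0 := by
      rintro rfl
      rw [mul_zero] at hab
      exact hp0 hab
    obtain ⟨m, hm, hma⟩ := key a ha0
    obtain ⟨n, hn, hnb⟩ := key b hb0
    have h1 : g = g ^ m * g ^ n := by
      rw [← hm, ← hn, ← map_mul, ← map_mul, ← hpval]
      exact congrArg (fun z : ↥(A.comap f) => A.valuation (f (z : K'))) hab
    rw [← pow_add] at h1
    have h2 : g ^ (1 : ℤ) = g ^ ((m + n : ℕ) : ℤ) := by
      rw [zpow_one, zpow_natCast]; exact h1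
    have h3 : (1 : ℤ) = ((m + n : ℕ) : ℤ) := (zpow_right_inj₀ hg0 hg1.ne).mp h2
    have h4 : m + n = 1 := by exact_mod_cast h3.symm
    rcases Nat.eq_zero_or_pos m with h | h
    · left
      rw [h, pow_zero] at hma
      exact (associated_one_iff_isUnit.mp hma.symm)
    · right
      have hn0 : n = 0 := by omega
      rw [hn0, pow_zero] at hnb
      exact (associated_one_iff_isUnit.mp hnb.symm)

end DVR

/-! ### The valuation on `L(ζ)` -/

section Main

variable {L K : Type*} [Field L] [Field K] [Algebra L K] (A : ValuationSubring K) {q : ℕ}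

/-- a unit of `A ∩ L` has valuation one -/
theorem valuation_unit_comap (u : (↥(A.comap (algebraMap L K)))ˣ) :
    A.valuation (algebraMap L K ((u : ↥(A.comap (algebraMap L K))) : L)) = 1 := by
  have h1 : algebraMap L K ((u : ↥(A.comap (algebraMap L K))) : L) ∈ A :=
    (u : ↥(A.comap (algebraMap L K))).2
  have h2 : algebraMap L K (((u⁻¹ : (↥(A.comap (algebraMap L K)))ˣ) :
      ↥(A.comap (algebraMap L K))) : L) ∈ A :=
    ((u⁻¹ : (↥(A.comap (algebraMap L K)))ˣ) : ↥(A.comap (algebraMap L K))).2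
  have h3 : algebraMap L K ((u : ↥(A.comap (algebraMap L K))) : L) *
      algebraMap L K (((u⁻¹ : (↥(A.comap (algebraMap L K)))ˣ) :
        ↥(A.comap (algebraMap L K))) : L) = 1 := by
    rw [← map_mul]
    have : ((u : ↥(A.comap (algebraMap L K))) : L) *
        (((u⁻¹ : (↥(A.comap (algebraMap L K)))ˣ) : ↥(A.comap (algebraMap L K))) : L) = 1 :=
      congrArg Subtype.val u.mul_inv
    rw [this, map_one]
  have h4 := congrArg A.valuation h3
  rw [map_mul, map_one] at h4
  rw [← A.valuation_le_one_iff] at h1 h2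
  refine le_antisymm h1 ?_
  calc (1 : A.ValueGroup) = _ := h4.symm
    _ ≤ A.valuation (algebraMap L K ((u : ↥(A.comap (algebraMap L K))) : L)) * 1 :=
        mul_le_mul_right h2 _
    _ = _ := mul_one _

variable [IsDiscreteValuationRing ↥(A.comap (algebraMap L K))]
  (hunr : Irreducible ((q : ℕ) : ↥(A.comap (algebraMap L K))))

include hunr

theorem natCast_ne_zero : (q : L) ≠ 0 := by
  intro h0
  apply hunr.ne_zero
  apply Subtype.ext
  show ((q : ℕ) : L) = 0
  exact h0

theorem natCast_ne_zero' : (q : K) ≠ 0 := by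
  have h := natCast_ne_zero A hunr
  intro h0
  apply h
  apply (algebraMap L K).injective
  rw [map_natCast, map_zero]
  exact h0

theorem valuation_natCast_lt_one : A.valuation (q : K) < 1 := by
  by_contra hge
  rw [not_lt] at hge
  have hq0 := natCast_ne_zero A hunr
  have hmem : (q : L)⁻¹ ∈ A.comap (algebraMap L K) := by
    rw [ValuationSubring.mem_comap, map_inv₀, map_natCast, ← A.valuation_le_one_iff, map_inv₀]
    exact inv_le_one_of_one_le₀ hge
  apply hunr.not_isUnit
  refine IsUnit.of_mul_eq_one ⟨(q : L)⁻¹, hmem⟩ (Subtype.ext ?_)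
  show ((q : ℕ) : L) * (q : L)⁻¹ = 1
  exact mul_inv_cancel₀ hq0

theorem valuation_natCast_pos : 0 < A.valuation (q : K) :=
  zero_lt_iff.mpr ((A.valuation.ne_zero_iff).mpr (natCast_ne_zero' A hunr))

/-- the value group of `A` on `L` is generated by `v q` -/
theorem exists_zpow_of_ne_zero (a : L) (ha : a ≠ 0) :
    ∃ n : ℤ, A.valuation (algebraMap L K a) = A.valuation (q : K) ^ n := by
  have hW : ∀ x : ↥(A.comap (algebraMap L K)), x ≠ 0 →
      ∃ n : ℕ, A.valuation (algebraMap L K (x : L)) = A.valuation (q : K) ^ n := by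
    intro x hx
    obtain ⟨n, u, hu⟩ := IsDiscreteValuationRing.associated_pow_irreducible hx hunr
    refine ⟨n, ?_⟩
    have h1 : (x : L) * ((u : ↥(A.comap (algebraMap L K))) : L) = (q : L) ^ n := by
      have := congrArg Subtype.val hu
      exact this
    have h2 := congrArg (fun z => A.valuation (algebraMap L K z)) h1
    simp only [map_mul, map_pow, map_natCast] at h2
    rw [valuation_unit_comap A u, mul_one] at h2
    exact h2
  rcases (A.comap (algebraMap L K)).mem_or_inv_mem a with h | h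
  · obtain ⟨n, hn⟩ := hW ⟨a, h⟩ (fun h0 => ha (congrArg Subtype.val h0))
    exact ⟨n, by rw [zpow_natCast]; exact hn⟩
  · obtain ⟨n, hn⟩ := hW ⟨a⁻¹, h⟩ (fun h0 => inv_ne_zero ha (congrArg Subtype.val h0))
    refine ⟨-n, ?_⟩
    have h1 : A.valuation (algebraMap L K a) = (A.valuation (algebraMap L K a⁻¹))⁻¹ := by
      rw [map_inv₀, map_inv₀, inv_inv]
    rw [h1, hn, zpow_neg, zpow_natCast]

variable (hq : q.Prime) {ζ : K} (hζ : IsPrimitiveRoot ζ q)

include hq hζ

theorem valuation_sub_one_pos : 0 < A.valuation (ζ - 1) := by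
  refine zero_lt_iff.mpr ((A.valuation.ne_zero_iff).mpr ?_)
  exact sub_ne_zero.mpr (hζ.ne_one hq.one_lt)

theorem valuation_sub_one_lt_one : A.valuation (ζ - 1) < 1 := by
  by_contra hge
  rw [not_lt] at hge
  have h1 := valuation_sub_one_pow A hq hζ
  have h2 := valuation_natCast_lt_one A hunr
  rw [← h1] at h2
  exact absurd (one_le_pow₀ hge) (not_le.mpr h2)

/-- the valuation of a term `c * (ζ - 1) ^ i` -/
theorem valuation_term (c : L) (hc : c ≠ 0) (i : ℕ) :
    ∃ n : ℤ, A.valuation (algebraMap L K c) = A.valuation (q : K) ^ n ∧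
      A.valuation (algebraMap L K c * (ζ - 1) ^ i) =
        A.valuation (ζ - 1) ^ (((q - 1 : ℕ) : ℤ) * n + i) := by
  obtain ⟨n, hn⟩ := exists_zpow_of_ne_zero A hunr c hc
  refine ⟨n, hn, ?_⟩
  have hg0 := (valuation_sub_one_pos A hunr hq hζ).ne'
  rw [map_mul, map_pow, hn, ← valuation_sub_one_pow A hq hζ, zpow_add₀ hg0, zpow_mul,
    zpow_natCast, zpow_natCast]

/-- **Dominant term.**  In `∑ i < q - 1, c i * (ζ - 1) ^ i` with `c i ∈ L` not all zero, one
term has strictly larger valuation than the others. -/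
theorem exists_dominant_term (c : ℕ → L) (hne : ∃ i ∈ range (q - 1), c i ≠ 0) :
    ∃ i ∈ range (q - 1), c i ≠ 0 ∧
      A.valuation (∑ j ∈ range (q - 1), algebraMap L K (c j) * (ζ - 1) ^ j) =
        A.valuation (algebraMap L K (c i) * (ζ - 1) ^ i) ∧
      ∀ j ∈ range (q - 1), A.valuation (algebraMap L K (c j) * (ζ - 1) ^ j) ≤
        A.valuation (algebraMap L K (c i) * (ζ - 1) ^ i) := by
  have hg0 := valuation_sub_one_pos A hunr hq hζ
  have hg1 := valuation_sub_one_lt_one A hunr hq hζ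
  have hζ1 : ζ - 1 ≠ 0 := sub_ne_zero.mpr (hζ.ne_one hq.one_lt)
  have hterm : ∀ j : ℕ, algebraMap L K (c j) * (ζ - 1) ^ j ≠ 0 ↔ c j ≠ 0 := by
    intro j
    rw [Ne, mul_eq_zero, not_or]
    constructor
    · rintro ⟨h, -⟩ h0
      exact h (by rw [h0, map_zero])
    · intro h
      exact ⟨fun h0 => h ((map_eq_zero _).mp h0), pow_ne_zero _ hζ1⟩
  have hinj : ∀ i ∈ range (q - 1), ∀ j ∈ range (q - 1),
      algebraMap L K (c i) * (ζ - 1) ^ i ≠ 0 → algebraMap L K (c j) * (ζ - 1) ^ j ≠ 0 →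
      A.valuation (algebraMap L K (c i) * (ζ - 1) ^ i) =
        A.valuation (algebraMap L K (c j) * (ζ - 1) ^ j) → i = j := by
    intro i hi j hj hti htj heq
    obtain ⟨n, -, hn⟩ := valuation_term A hunr hq hζ (c i) ((hterm i).mp hti) i
    obtain ⟨m, -, hm⟩ := valuation_term A hunr hq hζ (c j) ((hterm j).mp htj) j
    rw [hn, hm, zpow_right_inj₀ hg0 hg1.ne] at heq
    rw [Finset.mem_range] at hi hj
    have h1 := congrArg (fun z : ℤ => z % ((q - 1 : ℕ) : ℤ)) heq
    simp only [Int.mul_add_emod_self_left] at h1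
    rw [Int.emod_eq_of_lt (by positivity) (by exact_mod_cast hi),
      Int.emod_eq_of_lt (by positivity) (by exact_mod_cast hj)] at h1
    exact_mod_cast h1
  have hne' : ∃ i ∈ range (q - 1), algebraMap L K (c i) * (ζ - 1) ^ i ≠ 0 := by
    obtain ⟨i, hi, hci⟩ := hne
    exact ⟨i, hi, (hterm i).mpr hci⟩
  obtain ⟨i, his, hti, hval, hmax⟩ := exists_dominant A.valuation (range (q - 1))
    (fun j => algebraMap L K (c j) * (ζ - 1) ^ j) hinj hne'
  exact ⟨i, his, (hterm i).mp hti, hval, hmax⟩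

/-- the value group of `A` on `L(ζ)` is generated by `v (ζ - 1)` -/
theorem exists_zpow_of_sum (c : ℕ → L)
    (hx : ∑ j ∈ range (q - 1), algebraMap L K (c j) * (ζ - 1) ^ j ≠ 0) :
    ∃ n : ℤ, A.valuation (∑ j ∈ range (q - 1), algebraMap L K (c j) * (ζ - 1) ^ j) =
      A.valuation (ζ - 1) ^ n := by
  have hne : ∃ i ∈ range (q - 1), c i ≠ 0 := by
    by_contra hall
    push_neg at hall
    apply hx
    refine Finset.sum_eq_zero fun j hj => ?_
    rw [hall j hj, map_zero, zero_mul]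
  obtain ⟨i, -, hci, hval, -⟩ := exists_dominant_term A hunr hq hζ c hne
  obtain ⟨n, -, hn⟩ := valuation_term A hunr hq hζ (c i) hci i
  exact ⟨_, hval.trans hn⟩

/-- linear independence of `1, ζ - 1, …, (ζ - 1) ^ (q - 2)` over `L` -/
theorem coeff_eq_zero_of_sum_eq_zero (c : ℕ → L)
    (hx : ∑ j ∈ range (q - 1), algebraMap L K (c j) * (ζ - 1) ^ j = 0) :
    ∀ i ∈ range (q - 1), c i = 0 := by
  by_contra hall
  push_neg at hall
  obtain ⟨i, -, hci, hval, -⟩ := exists_dominant_term A hunr hq hζ c hall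
  rw [hx, map_zero] at hval
  have hζ1 : ζ - 1 ≠ 0 := sub_ne_zero.mpr (hζ.ne_one hq.one_lt)
  have : algebraMap L K (c i) * (ζ - 1) ^ i = 0 := (A.valuation.zero_iff).mp hval.symm
  rcases mul_eq_zero.mp this with h | h
  · exact hci ((map_eq_zero _).mp h)
  · exact pow_ne_zero _ hζ1 h

/-- the coefficients of an `A`-integral element of `L(ζ)` are `A`-integral -/
theorem coeff_mem_of_sum_mem (c : ℕ → L)
    (hx : ∑ j ∈ range (q - 1), algebraMap L K (c j) * (ζ - 1) ^ j ∈ A) :
    ∀ i ∈ range (q - 1), algebraMap L K (c i) ∈ A := by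
  intro j hj
  by_cases hcj : c j = 0
  · rw [hcj, map_zero]; exact A.zero_mem
  have hg0 := valuation_sub_one_pos A hunr hq hζ
  have hg1 := valuation_sub_one_lt_one A hunr hq hζ
  obtain ⟨i, -, hci, hval, hmax⟩ := exists_dominant_term A hunr hq hζ c ⟨j, hj, hcj⟩
  rw [← A.valuation_le_one_iff] at hx ⊢
  have h1 : A.valuation (algebraMap L K (c j) * (ζ - 1) ^ j) ≤ 1 :=
    (hmax j hj).trans (hval ▸ hx)
  obtain ⟨n, hn, hn'⟩ := valuation_term A hunr hq hζ (c j) hcj j
  rw [hn', zpow_le_one_iff_right_of_lt_one₀ hg0 hg1] at h1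
  rw [Finset.mem_range] at hj
  have hn0 : 0 ≤ n := by
    by_contra hneg
    rw [not_le] at hneg
    have h2 : ((q - 1 : ℕ) : ℤ) * n ≤ ((q - 1 : ℕ) : ℤ) * (-1) :=
      mul_le_mul_of_nonneg_left (by omega) (by positivity)
    have h3 : (j : ℤ) < ((q - 1 : ℕ) : ℤ) := by exact_mod_cast hj
    linarith
  rw [hn]
  obtain ⟨m, rfl⟩ := Int.eq_ofNat_of_zero_le hn0
  rw [zpow_natCast]
  exact pow_le_one₀ zero_le' (valuation_natCast_lt_one A hunr).le

end Main

/-! ### Representation of the elements of `L(ζ)` and the Galois action -/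

section Repr

open IntermediateField

variable {L K : Type*} [Field L] [Field K] [Algebra L K] {q : ℕ} (hq : q.Prime) {ζ : K}
  (hζ : IsPrimitiveRoot ζ q)

include hq hζ

theorem aeval_cyclotomic_eq_zero : aeval ζ (cyclotomic q L) = 0 := by
  rw [aeval_def, eval₂_eq_eval_map, map_cyclotomic]
  exact hζ.isRoot_cyclotomic hq.pos

theorem isIntegral_root : IsIntegral L ζ :=
  ⟨cyclotomic q L, cyclotomic.monic q L, aeval_cyclotomic_eq_zero hq hζ⟩

/-- the shifted cyclotomic polynomial `Φ_q (X + 1)` -/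
noncomputable def shiftCyc (L : Type*) [Field L] (q : ℕ) : L[X] := (cyclotomic q L).comp (X + C 1)

omit hζ in
theorem shiftCyc_monic : (shiftCyc L q).Monic := (cyclotomic.monic q L).comp_X_add_C 1

omit hζ in
theorem shiftCyc_natDegree : (shiftCyc L q).natDegree = q - 1 := by
  rw [shiftCyc, natDegree_comp, natDegree_cyclotomic, Nat.totient_prime hq, natDegree_X_add_C,
    mul_one]

theorem aeval_shiftCyc : aeval (ζ - 1) (shiftCyc L q) = 0 := by
  rw [shiftCyc, aeval_comp]
  have : aeval (ζ - 1) (X + C (1 : L)) = ζ := by simp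
  rw [this]
  exact aeval_cyclotomic_eq_zero hq hζ

/-- every element of `L(ζ)` is an `L`-combination of `1, ζ - 1, …, (ζ - 1) ^ (q - 2)` -/
theorem exists_repr (x : K) (hx : x ∈ L⟮ζ⟯) :
    ∃ c : ℕ → L, x = ∑ i ∈ range (q - 1), algebraMap L K (c i) * (ζ - 1) ^ i := by
  have hint := isIntegral_root (L := L) hq hζ
  have hx' : x ∈ (L⟮ζ⟯).toSubalgebra := hx
  rw [IntermediateField.adjoin_simple_toSubalgebra_of_isAlgebraic hint.isAlgebraic,
    Algebra.adjoin_singleton_eq_range_aeval] at hx'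
  obtain ⟨p, rfl⟩ := hx'
  have hG := shiftCyc_monic (L := L) (q := q) hq
  have hGdeg := shiftCyc_natDegree (L := L) hq
  have hG1 : shiftCyc L q ≠ 1 := by
    intro h1
    rw [h1, natDegree_one] at hGdeg
    have := hq.two_le
    omega
  set p' := p.comp (X + C 1) with hp'
  have h1 : aeval (ζ - 1) p' = aeval ζ p := by
    rw [hp', aeval_comp]
    have : aeval (ζ - 1) (X + C (1 : L)) = ζ := by simp
    rw [this]
  have h2 : aeval (ζ - 1) (p' %ₘ shiftCyc L q) = aeval (ζ - 1) p' := by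
    conv_rhs => rw [← modByMonic_add_div p' (shiftCyc L q)]
    rw [map_add, map_mul, aeval_shiftCyc hq hζ, zero_mul, add_zero]
  have h3 : (p' %ₘ shiftCyc L q).natDegree < q - 1 := by
    rw [← hGdeg]
    exact natDegree_modByMonic_lt p' hG hG1
  refine ⟨(p' %ₘ shiftCyc L q).coeff, ?_⟩
  rw [← RingHom.coe_coe, AlgHom.coe_toRingHom] at *
  show (aeval ζ) p = _
  rw [← h1, ← h2, aeval_eq_sum_range' h3]
  refine Finset.sum_congr rfl fun i _ => ?_
  rw [Algebra.smul_def]

end Repr

section Final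

open IntermediateField

variable {L K : Type} [Field L] [Field K] [Algebra L K] (A : ValuationSubring K) {q : ℕ}
  [IsDiscreteValuationRing ↥(A.comap (algebraMap L K))]
  (hunr : Irreducible ((q : ℕ) : ↥(A.comap (algebraMap L K))))
  (hq : q.Prime) {ζ : K} (hζ : IsPrimitiveRoot ζ q)

include hunr hq hζ

/-- `Φ_q` is the minimal polynomial of `ζ` over `L` -/
theorem minpoly_eq_cyclotomic : minpoly L ζ = cyclotomic q L := by
  have hint := isIntegral_root (L := L) hq hζ
  refine (eq_of_monic_of_dvd_of_natDegree_le (minpoly.monic hint) (cyclotomic.monic q L)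
    (minpoly.dvd L ζ (aeval_cyclotomic_eq_zero hq hζ)) ?_).symm
  rw [natDegree_cyclotomic, Nat.totient_prime hq]
  by_contra hlt
  rw [not_le] at hlt
  set r := (minpoly L ζ).comp (X + C 1) with hr
  have hrmonic : r.Monic := (minpoly.monic hint).comp_X_add_C 1
  have hrdeg : r.natDegree = (minpoly L ζ).natDegree := by
    rw [hr, natDegree_comp, natDegree_X_add_C, mul_one]
  have h1 : aeval (ζ - 1) r = 0 := by
    rw [hr, aeval_comp]
    have : aeval (ζ - 1) (X + C (1 : L)) = ζ := by simp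
    rw [this, minpoly.aeval]
  rw [aeval_eq_sum_range' (hrdeg ▸ hlt)] at h1
  have h2 : ∑ i ∈ range (q - 1), algebraMap L K (r.coeff i) * (ζ - 1) ^ i = 0 := by
    rw [← h1]
    refine Finset.sum_congr rfl fun i _ => ?_
    rw [Algebra.smul_def]
  have h3 := coeff_eq_zero_of_sum_eq_zero A hunr hq hζ r.coeff h2 r.natDegree
    (Finset.mem_range.mpr (hrdeg ▸ hlt))
  rw [coeff_natDegree, hrmonic.leadingCoeff] at h3
  exact one_ne_zero h3

/-- the automorphism `ζ ↦ ζ ^ k` of `L(ζ) / L` -/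
theorem exists_algEquiv_pow (k : ℕ) (hk : ¬ q ∣ k) :
    ∃ σ : L⟮ζ⟯ ≃ₐ[L] L⟮ζ⟯, σ (AdjoinSimple.gen L ζ) = AdjoinSimple.gen L ζ ^ k := by
  have hint := isIntegral_root (L := L) hq hζ
  haveI : FiniteDimensional L L⟮ζ⟯ := adjoin.finiteDimensional hint
  have hcop : k.Coprime q := ((Nat.Prime.coprime_iff_not_dvd hq).mpr hk).symm
  have hζk : IsPrimitiveRoot (ζ ^ k) q := hζ.pow_of_coprime k hcop
  have hy : aeval (AdjoinSimple.gen L ζ ^ k) (minpoly L (adjoin.powerBasis hint).gen) = 0 := by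
    rw [adjoin.powerBasis_gen, minpoly_gen, minpoly_eq_cyclotomic A hunr hq hζ]
    apply (algebraMap L⟮ζ⟯ K).injective
    rw [map_zero, ← aeval_algebraMap_apply, map_pow, AdjoinSimple.algebraMap_gen]
    exact aeval_cyclotomic_eq_zero hq hζk
  let σ₀ : L⟮ζ⟯ →ₐ[L] L⟮ζ⟯ := (adjoin.powerBasis hint).lift _ hy
  refine ⟨AlgEquiv.ofBijective σ₀ (AlgHom.bijective σ₀), ?_⟩
  have := (adjoin.powerBasis hint).lift_gen _ hy
  rw [adjoin.powerBasis_gen] at this
  exact this

end Final

/-! ### The cyclotomic package -/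

section Package

open IntermediateField

variable {L K : Type} [Field L] [Field K] [Algebra L K] (A : ValuationSubring K) {q : ℕ}
  [IsDiscreteValuationRing ↥(A.comap (algebraMap L K))]
  (hunr : Irreducible ((q : ℕ) : ↥(A.comap (algebraMap L K))))
  (hq : q.Prime) {ζ : K} (hζ : IsPrimitiveRoot ζ q)

include hunr hq hζ

theorem gen_ne_zero : AdjoinSimple.gen L ζ ≠ 0 := by
  intro h0
  have := congrArg (algebraMap L⟮ζ⟯ K) h0
  rw [AdjoinSimple.algebraMap_gen, map_zero] at this
  exact hζ.ne_zero hq.ne_zero this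

/-- the value group of `A` on `L(ζ)` -/
theorem exists_zpow_adjoin (x : L⟮ζ⟯) (hx : x ≠ 0) :
    ∃ n : ℤ, A.valuation (algebraMap L⟮ζ⟯ K x) = A.valuation (ζ - 1) ^ n := by
  obtain ⟨c, hc⟩ := exists_repr (L := L) hq hζ (algebraMap L⟮ζ⟯ K x) x.2
  have hx0 : algebraMap L⟮ζ⟯ K x ≠ 0 := by rwa [Ne, map_eq_zero]
  rw [hc] at hx0 ⊢
  exact exists_zpow_of_sum A hunr hq hζ c hx0

theorem isDiscreteValuationRing_adjoin :
    IsDiscreteValuationRing ↥(A.comap (algebraMap L⟮ζ⟯ K)) := by
  have hg1 := valuation_sub_one_lt_one A hunr hq hζ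
  refine isDiscreteValuationRing_comap A (algebraMap L⟮ζ⟯ K) (AdjoinSimple.gen L ζ - 1) ?_ ?_ ?_
  · rw [map_sub, map_one, AdjoinSimple.algebraMap_gen, A.mem_nonunits_iff]
    exact hg1
  · intro h0
    have := congrArg (algebraMap L⟮ζ⟯ K) h0
    rw [map_sub, map_one, AdjoinSimple.algebraMap_gen, map_zero] at this
    exact (sub_ne_zero.mpr (hζ.ne_one hq.one_lt)) this
  · intro x hx
    rw [map_sub, map_one, AdjoinSimple.algebraMap_gen]
    exact exists_zpow_adjoin A hunr hq hζ x hx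

/-- **The cyclotomic package** for `L(ζ) ⊆ K`. -/
theorem cycData_adjoin :
    CycData (A.comap (algebraMap L K)) q (A.comap (algebraMap L⟮ζ⟯ K))
      (Units.mk0 (AdjoinSimple.gen L ζ) (gen_ne_zero A hunr hq hζ)) := by
  have hg0 := valuation_sub_one_pos A hunr hq hζ
  have hg1 := valuation_sub_one_lt_one A hunr hq hζ
  have hζA : ζ ∈ A := mem_of_pow_eq_one A hq.ne_zero hζ.pow_eq_one
  have hϖA : ζ - 1 ∈ A := A.sub_mem hζA A.one_mem
  have hζ1 : ζ - 1 ≠ 0 := sub_ne_zero.mpr (hζ.ne_one hq.one_lt)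
  have hinjE : Function.Injective (algebraMap L⟮ζ⟯ K) := (algebraMap L⟮ζ⟯ K).injective
  have hval1 : A.valuation (1 - ζ) = A.valuation (ζ - 1) := by
    rw [← Valuation.map_neg, neg_sub]
  refine ⟨?_, ?_, ?_, ?_, ?_⟩
  · -- prim
    refine IsPrimitiveRoot.of_map_of_injective (f := algebraMap L⟮ζ⟯ K) ?_ hinjE
    rw [Units.val_mk0, AdjoinSimple.algebraMap_gen]
    exact hζ
  · -- comap
    intro x
    rw [ValuationSubring.mem_comap, ValuationSubring.mem_comap,
      ← IsScalarTower.algebraMap_apply]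
  · -- unif
    intro x hx
    rw [ValuationSubring.mem_comap] at hx
    by_cases hx0 : x = 0
    · right
      exact ⟨0, (A.comap _).zero_mem, by rw [hx0, mul_zero]⟩
    obtain ⟨n, hn⟩ := exists_zpow_adjoin A hunr hq hζ x hx0
    have hle : A.valuation (ζ - 1) ^ n ≤ 1 := hn ▸ (A.valuation_le_one_iff _).mpr hx
    rw [zpow_le_one_iff_right_of_lt_one₀ hg0 hg1] at hle
    rcases hle.eq_or_lt with h0 | hpos
    · left
      rw [ValuationSubring.mem_comap, map_inv₀, ← A.valuation_le_one_iff, map_inv₀, hn, ← h0,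
        zpow_zero, inv_one]
    · right
      have hne : (1 : L⟮ζ⟯) - AdjoinSimple.gen L ζ ≠ 0 := by
        intro h0
        have := congrArg (algebraMap L⟮ζ⟯ K) h0
        rw [map_sub, map_one, AdjoinSimple.algebraMap_gen, map_zero] at this
        exact hζ1 (by rw [← neg_sub, this, neg_zero])
      refine ⟨x / (1 - AdjoinSimple.gen L ζ), ?_, ?_⟩
      · rw [ValuationSubring.mem_comap, map_div₀, map_sub, map_one, AdjoinSimple.algebraMap_gen,
          ← A.valuation_le_one_iff, map_div₀, hn, hval1]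
        have h1 : A.valuation (ζ - 1) ^ n / A.valuation (ζ - 1) = A.valuation (ζ - 1) ^ (n - 1) := by
          rw [zpow_sub_one₀ hg0.ne', div_eq_mul_inv]
        rw [h1, zpow_le_one_iff_right_of_lt_one₀ hg0 hg1]
        omega
      · rw [Units.val_mk0]
        field_simp
  · -- res
    intro x hx
    rw [ValuationSubring.mem_comap] at hx
    obtain ⟨c, hc⟩ := exists_repr (L := L) hq hζ (algebraMap L⟮ζ⟯ K x) x.2
    have hcA := coeff_mem_of_sum_mem A hunr hq hζ c (hc ▸ hx)
    obtain ⟨m, hm⟩ : ∃ m, q - 1 = m + 1 := ⟨q - 2, by have := hq.two_le; omega⟩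
    rw [hm] at hc hcA
    refine ⟨c 0, hcA 0 (Finset.mem_range.mpr (Nat.succ_pos m)),
      -∑ i ∈ range m, algebraMap L L⟮ζ⟯ (c (i + 1)) * (AdjoinSimple.gen L ζ - 1) ^ i, ?_, ?_⟩
    · rw [ValuationSubring.mem_comap, map_neg, map_sum]
      refine A.neg_mem _ (sum_mem fun i hi => ?_)
      rw [map_mul, map_pow, map_sub, map_one, AdjoinSimple.algebraMap_gen,
        ← IsScalarTower.algebraMap_apply]
      exact A.mul_mem _ _ (hcA (i + 1) (Finset.mem_range.mpr
        (Nat.succ_lt_succ (Finset.mem_range.mp hi)))) (pow_mem hϖA i)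
    · apply hinjE
      rw [Units.val_mk0, map_sub, map_mul, map_sub, map_one, AdjoinSimple.algebraMap_gen, map_neg,
        map_sum, hc, Finset.sum_range_succ', ← IsScalarTower.algebraMap_apply, pow_zero, mul_one,
        add_sub_cancel_right, mul_neg, ← neg_mul, neg_sub, Finset.mul_sum]
      refine Finset.sum_congr rfl fun i _ => ?_
      rw [map_mul, map_pow, map_sub, map_one, AdjoinSimple.algebraMap_gen,
        ← IsScalarTower.algebraMap_apply, pow_succ]
      ring
  · -- gal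
    intro k hk
    obtain ⟨σ, hσ⟩ := exists_algEquiv_pow A hunr hq hζ k hk
    refine ⟨σ, by rw [Units.val_mk0]; exact hσ, ?_⟩
    intro x hx
    rw [ValuationSubring.mem_comap] at hx ⊢
    obtain ⟨c, hc⟩ := exists_repr (L := L) hq hζ (algebraMap L⟮ζ⟯ K x) x.2
    have hcA := coeff_mem_of_sum_mem A hunr hq hζ c (hc ▸ hx)
    have hxE : x = ∑ i ∈ range (q - 1),
        algebraMap L L⟮ζ⟯ (c i) * (AdjoinSimple.gen L ζ - 1) ^ i := by
      apply hinjE
      rw [hc, map_sum]
      refine Finset.sum_congr rfl fun i _ => ?_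
      rw [map_mul, map_pow, map_sub, map_one, AdjoinSimple.algebraMap_gen,
        ← IsScalarTower.algebraMap_apply]
    rw [hxE, map_sum, map_sum]
    refine sum_mem fun i hi => ?_
    rw [map_mul, map_pow, map_sub, map_one, AlgEquiv.commutes, hσ, map_mul, map_pow, map_sub,
      map_one, map_pow, AdjoinSimple.algebraMap_gen, ← IsScalarTower.algebraMap_apply]
    exact A.mul_mem _ _ (hcA i hi) (pow_mem (A.sub_mem (pow_mem hζA k) A.one_mem) i)

end Package

/-- **(V0)** the cyclotomic package exists above an unramified level. -/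
theorem exists_cycData {L : Type} [Field L] (A : ValuationSubring (AlgebraicClosure ℚ)) (q : ℕ)
    [Fact q.Prime] (ι : L →+* AlgebraicClosure ℚ) [IsDiscreteValuationRing ↥(A.comap ι)]
    (hunr : Irreducible ((q : ℕ) : ↥(A.comap ι))) :
    ∃ (L' : Type) (_ : Field L') (_ : Algebra L L') (ι' : L' →+* AlgebraicClosure ℚ) (ζ : L'ˣ),
      (∀ x : L, ι' (algebraMap L L' x) = ι x) ∧ IsDiscreteValuationRing ↥(A.comap ι') ∧
        CycData (A.comap ι) q (A.comap ι') ζ := by
  have hq : q.Prime := Fact.out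
  letI : Algebra L (AlgebraicClosure ℚ) := ι.toAlgebra
  haveI : IsDiscreteValuationRing ↥(A.comap (algebraMap L (AlgebraicClosure ℚ))) :=
    ‹IsDiscreteValuationRing ↥(A.comap ι)›
  have hunr' : Irreducible ((q : ℕ) : ↥(A.comap (algebraMap L (AlgebraicClosure ℚ)))) := hunr
  -- a primitive `q`-th root of unity
  obtain ⟨ζ, hζ⟩ : ∃ ζ : AlgebraicClosure ℚ, IsPrimitiveRoot ζ q := by
    have hdeg : (cyclotomic q (AlgebraicClosure ℚ)).degree ≠ 0 :=
      (degree_cyclotomic_pos q _ hq.pos).ne'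
    obtain ⟨ζ, hζ⟩ := IsAlgClosed.exists_root _ hdeg
    haveI : NeZero ((q : ℕ) : AlgebraicClosure ℚ) := ⟨Nat.cast_ne_zero.mpr hq.ne_zero⟩
    exact ⟨ζ, isRoot_cyclotomic_iff.mp hζ⟩
  refine ⟨↥(IntermediateField.adjoin L {ζ}), inferInstance, inferInstance,
    algebraMap ↥(IntermediateField.adjoin L {ζ}) (AlgebraicClosure ℚ),
    Units.mk0 (IntermediateField.AdjoinSimple.gen L ζ) (gen_ne_zero A hunr' hq hζ), ?_,
    isDiscreteValuationRing_adjoin A hunr' hq hζ, cycData_adjoin A hunr' hq hζ⟩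
  intro x
  rfl

end Fermat.Agent.S36.CycData
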