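import Mathlib
import Fermat.Agent.S37.AtkinLehner
import Fermat.Agent.S28.SeriesBasic

/-!
# S36, package (V-mid), analytic core: the expansion at the middle cusps of `X₀(N q²)`

For `γ = [[1, 0], [N q k, 1]] ∈ SL(2, ℤ)` and integers `c, y` with `N k c + q y = 1`:

* `j(d · γ z) = j(d z)`, `j(d q · γ z) = j(d q z)`, `j(d q² · γ z) = j(d (z + c / q))` (`d ∣ N`);
* the function `z ↦ j(d (z + t))` (`t` real) is `1`-periodic, meromorphic at `i∞`, and its
  `q`-expansion is the twist `tw u (j(q^d))`, `u = exp (2 π i t)`.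

Consequently (`mid_rel_complex`) a polynomial relation among the series `j(q^(d qⁱ))`, `i ≤ 2`,
holds if and only if it holds for the series `j(q^d)`, `j(q^(d q))`, `tw u (j(q^d))`
(`u = exp (2 π i c / q)`).
-/

set_option autoImplicit false
set_option linter.style.haveILetI false
set_option linter.unusedSectionVars false

open UpperHalfPlane hiding I
open Complex Filter Function
open scoped Topology Manifold MatrixGroups Real

namespace Fermat.Agent.S36.MidAnalytic

open ModularCurve Fermat.Agent.S24 Fermat.Agent.S20 Fermat.Agent.S37.AtkinLehner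

/-! ### The three matrix identities -/

/-- the middle-cusp matrix `[[1, 0], [m, 1]]` -/
def lowSL (m : ℤ) : SL(2, ℤ) := mkSL 1 0 m 1 (by ring)

theorem jFun_dilH_low0 (d : ℕ) (hd : 0 < d) (m : ℤ) (z : ℍ) :
    jFun (dilH d hd (lowSL ((d : ℤ) * m) • z)) = jFun (dilH d hd z) := by
  have key : dilH d hd (lowSL ((d : ℤ) * m) • z) = lowSL m • dilH d hd z := by
    apply UpperHalfPlane.ext
    rw [coe_dilH, lowSL, lowSL, coe_mkSL_smul, coe_mkSL_smul, coe_dilH]
    have h1 := mkSL_denom_ne_zero 1 0 ((d : ℤ) * m) 1 (by ring) z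
    have h2 := mkSL_denom_ne_zero 1 0 m 1 (by ring) (dilH d hd z)
    rw [coe_dilH] at h2
    rw [← mul_div_assoc, div_eq_div_iff h1 h2]
    push_cast
    ring
  rw [key, jFun_smul]

/-- the translation `z ↦ z + t` of the upper half plane -/
noncomputable def trH (t : ℝ) (z : ℍ) : ℍ := t +ᵥ z

theorem coe_trH (t : ℝ) (z : ℍ) : ((trH t z : ℍ) : ℂ) = (t : ℂ) + z := by
  rw [trH, UpperHalfPlane.coe_vadd]

theorem jFun_dilH_low2 (d e q : ℕ) (hd : 0 < d) (hq : 0 < q) (k c y : ℤ)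
    (h : ((d * e : ℕ) : ℤ) * k * c + (q : ℤ) * y = 1) (z : ℍ) :
    jFun (dilH (d * q * q) (Nat.mul_pos (Nat.mul_pos hd hq) hq)
        (lowSL (((d * e : ℕ) : ℤ) * q * k) • z)) =
      jFun (dilH d hd (trH ((c : ℝ) / q) z)) := by
  have hdet : (q : ℤ) * y - (-(d * c)) * ((e : ℤ) * k) = 1 := by
    push_cast at h; linarith
  have key : dilH (d * q * q) (Nat.mul_pos (Nat.mul_pos hd hq) hq)
      (lowSL (((d * e : ℕ) : ℤ) * q * k) • z) =
      mkSL q (-(d * c)) ((e : ℤ) * k) y hdet • dilH d hd (trH ((c : ℝ) / q) z) := by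
    apply UpperHalfPlane.ext
    rw [coe_dilH, lowSL, coe_mkSL_smul, coe_mkSL_smul, coe_dilH, coe_trH]
    have h1 := mkSL_denom_ne_zero 1 0 (((d * e : ℕ) : ℤ) * q * k) 1 (by ring) z
    have h2 := mkSL_denom_ne_zero q (-(d * c)) ((e : ℤ) * k) y hdet
      (dilH d hd (trH ((c : ℝ) / q) z))
    rw [coe_dilH, coe_trH] at h2
    have hq0 : (q : ℂ) ≠ 0 := by exact_mod_cast hq.ne'
    have hC : ((d : ℂ) * e) * k * c + (q : ℂ) * y = 1 := by exact_mod_cast h
    rw [← mul_div_assoc, div_eq_div_iff h1 h2]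
    push_cast
    field_simp
    linear_combination ((d : ℂ) * q * z) * hC
  rw [key, jFun_smul]

/-! ### The `q`-expansion of a translate of `j(d z)` -/

/-- the unit `exp (2 π i t)` -/
noncomputable def expU (t : ℝ) : ℂˣ :=
  Units.mk0 (Complex.exp (2 * π * I * t)) (Complex.exp_ne_zero _)

theorem coe_expU (t : ℝ) : ((expU t : ℂˣ) : ℂ) = Complex.exp (2 * π * I * t) := rfl

theorem qParam_trH (t : ℝ) (z : ℍ) :
    Function.Periodic.qParam 1 ((trH t z : ℍ) : ℂ) =
      ((expU t : ℂˣ) : ℂ) * Function.Periodic.qParam 1 (z : ℂ) := by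
  rw [coe_trH, coe_expU, Function.Periodic.qParam, Function.Periodic.qParam, ← Complex.exp_add]
  congr 1
  push_cast
  ring

/-- The Laurent `q`-expansion of `z ↦ j (d (z + t))` is the twist by `exp (2 π i t)` of the
expansion of `j (d z)`.  Here `φ` is any map with `φ z = d (t + z)`. -/
theorem qLaurentFun_jd_tw (d : ℕ) [NeZero d] (t : ℝ) (φ : ℍ → ℍ)
    (hφ : ∀ z : ℍ, (φ z : ℂ) = d * ((t : ℂ) + z)) :
    IsPM (fun z => jFun (φ z)) ∧
    qLaurentFun (fun z => jFun (φ z))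
      = Fermat.Agent.S28.tw (expU t)
          (coeffMap (algebraMap ℚ ℂ) (qExpand ℚ d jq)) := by
  have hd : (0 : ℝ) < d := by exact_mod_cast NeZero.pos d
  have hmd : MDiff (fun z => jFun (φ z)) := by
    rw [UpperHalfPlane.mdifferentiable_iff]
    have hj := UpperHalfPlane.mdifferentiable_iff.mp mdiff_jFun
    have hmaps : Set.MapsTo (fun w : ℂ => (d : ℂ) * ((t : ℂ) + w)) {z : ℂ | 0 < z.im}
        {z : ℂ | 0 < z.im} := by
      intro w hw
      have hw' : 0 < w.im := hw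
      show 0 < ((d : ℂ) * ((t : ℂ) + w)).im
      simpa using mul_pos hd hw'
    have hcomp : DifferentiableOn ℂ
        ((jFun ∘ ofComplex) ∘ fun w : ℂ => (d : ℂ) * ((t : ℂ) + w)) {z : ℂ | 0 < z.im} :=
      hj.comp (by fun_prop) hmaps
    refine hcomp.congr fun w hw => ?_
    have hw' : 0 < ((d : ℂ) * ((t : ℂ) + w)).im := hmaps hw
    simp only [Function.comp_apply]
    congr 1
    apply UpperHalfPlane.ext
    rw [hφ, ofComplex_apply_of_im_pos hw, ofComplex_apply_of_im_pos hw']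
  have hper : Function.Periodic ((fun z => jFun (φ z)) ∘ ofComplex) ((1 : ℝ) : ℂ) := by
    refine periodic_comp_ofComplex_of fun z => ?_
    have e : φ ((1 : ℝ) +ᵥ z) = ModularGroup.T ^ (d : ℤ) • φ z := by
      apply UpperHalfPlane.ext
      rw [UpperHalfPlane.modular_T_zpow_smul, UpperHalfPlane.coe_vadd, hφ, hφ,
        UpperHalfPlane.coe_vadd]
      push_cast
      ring
    rw [e, jFun_smul]
  set u : ℂ := ((expU t : ℂˣ) : ℂ) with hu
  have hu0 : u ≠ 0 := Units.ne_zero _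
  have hsum : ∀ τ : ℍ, HasSum (fun m : ℕ =>
      ((((qExpand ℚ d jq).coeff ((m : ℤ) - d) : ℚ) : ℂ) * u ^ m * (u ^ d)⁻¹) * qH τ ^ m)
      (qH τ ^ d * jFun (φ τ)) := by
    intro τ
    have h0 : ((φ τ : ℍ) : ℂ) = d * ((trH t τ : ℍ) : ℂ) := by rw [hφ, coe_trH]
    have h1 := jq_hasSum d (trH t τ) (φ τ) h0
    rw [qParam_trH] at h1
    have h2 := h1.mul_left ((u ^ d)⁻¹)
    have e1 : (u ^ d)⁻¹ * ((u * Function.Periodic.qParam 1 (τ : ℂ)) ^ d * jFun (φ τ)) =
        qH τ ^ d * jFun (φ τ) := by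
      rw [mul_pow, qH]
      field_simp
    rw [e1] at h2
    refine h2.congr_fun fun m => ?_
    rw [mul_pow, qH]
    ring
  obtain ⟨hpm, hq⟩ := qLaurentFun_eq_of_hasSum hmd hper (n := d)
    (c := fun m : ℕ => (((qExpand ℚ d jq).coeff ((m : ℤ) - d) : ℚ) : ℂ) * u ^ m * (u ^ d)⁻¹)
    hsum
  refine ⟨hpm, ?_⟩
  rw [hq]
  ext k
  rw [HahnSeries.coeff_single_mul, one_mul, sub_neg_eq_add, Fermat.Agent.S28.tw_coeff,
    coeffMap_coeff]
  by_cases hk : k + (d : ℤ) < 0
  · rw [ofPowerSeries_coeff_of_neg _ hk, coeff_qExpand_jq_of_lt d (by omega)]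
    simp
  · push Not at hk
    obtain ⟨m, hm⟩ := Int.eq_ofNat_of_zero_le hk
    rw [hm, HahnSeries.ofPowerSeries_apply_coeff, PowerSeries.coeff_mk,
      show ((m : ℤ) - d) = k by omega, Units.val_zpow_eq_zpow_val]
    have hz : u ^ m * (u ^ d)⁻¹ = u ^ k := by
      rw [show k = (m : ℤ) - d by omega, zpow_sub₀ hu0, zpow_natCast, zpow_natCast]
      rfl
    rw [mul_assoc, hz, mul_comm]
    rfl

/-- `τ ↦ j(d (τ + t))` as a periodic function meromorphic at infinity -/
noncomputable def jPMtw (d : ℕ) (hd : 0 < d) (t : ℝ) : PM :=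
  ⟨fun z => jFun (dilH d hd (trH t z)),
    have : NeZero d := ⟨hd.ne'⟩
    (qLaurentFun_jd_tw d t (fun z => dilH d hd (trH t z))
      (fun z => by rw [coe_dilH, coe_trH])).1⟩

theorem jPMtw_apply (d : ℕ) (hd : 0 < d) (t : ℝ) (z : ℍ) :
    (jPMtw d hd t : ℍ → ℂ) z = jFun (dilH d hd (trH t z)) := rfl

theorem qLaurent_jPMtw (d : ℕ) (hd : 0 < d) (t : ℝ) :
    qLaurent (jPMtw d hd t) = Fermat.Agent.S28.tw (expU t) (jser ℂ d) := by
  haveI : NeZero d := ⟨hd.ne'⟩
  rw [jser_eq, qLaurent_apply]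
  exact (qLaurentFun_jd_tw d t (fun z => dilH d hd (trH t z))
    (fun z => by rw [coe_dilH, coe_trH])).2

/-! ### Transfer of relations along an element of `SL(2, ℤ)` -/

theorem aeval_PM_eq_zero_iff {ι : Type*} (G : ι → PM) (p : MvPolynomial ι ℂ) :
    MvPolynomial.aeval G p = 0 ↔
      ∀ z : ℍ, MvPolynomial.aeval (fun i => (G i : ℍ → ℂ) z) p = 0 := by
  constructor
  · intro h z
    have := congrArg (evalPM z) h
    rw [MvPolynomial.comp_aeval_apply, map_zero] at this
    exact this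
  · intro h
    apply Subtype.ext
    funext z
    have := h z
    rw [← evalPM_apply, MvPolynomial.comp_aeval_apply]
    exact this

theorem rel_transfer {ι : Type*} (G T : ι → PM) (g : SL(2, ℤ))
    (hGT : ∀ i z, (G i : ℍ → ℂ) (g • z) = (T i : ℍ → ℂ) z) (p : MvPolynomial ι ℂ) :
    MvPolynomial.aeval (fun i => qLaurent (G i)) p = 0 ↔
      MvPolynomial.aeval (fun i => qLaurent (T i)) p = 0 := by
  have e1 : MvPolynomial.aeval (fun i => qLaurent (G i)) p = qLaurent (MvPolynomial.aeval G p) :=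
    (MvPolynomial.comp_aeval_apply G qLaurent p).symm
  have e2 : MvPolynomial.aeval (fun i => qLaurent (T i)) p = qLaurent (MvPolynomial.aeval T p) :=
    (MvPolynomial.comp_aeval_apply T qLaurent p).symm
  rw [e1, e2, map_eq_zero_iff qLaurent qLaurent_injective,
    map_eq_zero_iff qLaurent qLaurent_injective, aeval_PM_eq_zero_iff, aeval_PM_eq_zero_iff]
  constructor
  · intro h z
    have h1 := h (g • z)
    simp only [hGT] at h1
    exact h1
  · intro h z
    have h1 := h (g⁻¹ • z)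
    have e : (fun i => (T i : ℍ → ℂ) (g⁻¹ • z)) = fun i => (G i : ℍ → ℂ) z := by
      funext i
      rw [← hGT, smul_inv_smul]
    rw [e] at h1
    exact h1

/-! ### The relations at the middle cusp -/

/-- the target series at the middle cusp: `j(q^d)`, `j(q^(d q))`, `tw u (j(q^d))` -/
noncomputable def midSeries (L : Type*) [Field L] [Algebra ℚ L] (u : Lˣ) (q d : ℕ)
    (t : Fin 3) : LaurentSeries L :=
  if t = 2 then Fermat.Agent.S28.tw u (jser L d) else jser L (d * q ^ (t : ℕ))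

/-- **Relations at the middle cusp, over `ℂ`.**  A polynomial relation among the series
`j(q^(d qⁱ))` (`d ∣ N`, `i ≤ 2`) holds iff it holds for the middle-cusp series
`j(q^d)`, `j(q^(d q))`, `tw u (j(q^d))`, `u = exp (2 π i c / q)`, whenever
`N k c + q y = 1`. -/
theorem mid_rel_complex (N q : ℕ) (hN : 0 < N) (hq : 0 < q) (k c y : ℤ)
    (h : (N : ℤ) * k * c + (q : ℤ) * y = 1)
    {ι : Type*} (dd : ι → ℕ) (hdd : ∀ i, dd i ∣ N) (ty : ι → Fin 3)
    (p : MvPolynomial ι ℂ) :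
    MvPolynomial.aeval (fun i => jser ℂ (dd i * q ^ (ty i : ℕ))) p = 0 ↔
      MvPolynomial.aeval (fun i => midSeries ℂ (expU ((c : ℝ) / q)) q (dd i) (ty i)) p = 0 := by
  have hdpos : ∀ i, 0 < dd i := fun i => Nat.pos_of_dvd_of_pos (hdd i) hN
  have hepos : ∀ i, 0 < dd i * q ^ (ty i : ℕ) := fun i => Nat.mul_pos (hdpos i) (pow_pos hq _)
  let G : ι → PM := fun i => jPM (dd i * q ^ (ty i : ℕ)) (hepos i)
  let T : ι → PM := fun i =>
    if ty i = 2 then jPMtw (dd i) (hdpos i) ((c : ℝ) / q) else jPM (dd i * q ^ (ty i : ℕ)) (hepos i)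
  have hG : (fun i => jser ℂ (dd i * q ^ (ty i : ℕ))) = fun i => qLaurent (G i) := by
    funext i
    exact (qLaurent_jPM _ _).symm
  have hT : (fun i => midSeries ℂ (expU ((c : ℝ) / q)) q (dd i) (ty i)) =
      fun i => qLaurent (T i) := by
    funext i
    by_cases h2 : ty i = 2
    · simp only [midSeries, T, if_pos h2]
      exact (qLaurent_jPMtw _ _ _).symm
    · simp only [midSeries, T, if_neg h2]
      exact (qLaurent_jPM _ _).symm
  rw [hG, hT]
  refine rel_transfer G T (lowSL ((N : ℤ) * q * k)) ?_ p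
  intro i z
  obtain ⟨e, he⟩ := hdd i
  by_cases h2 : ty i = 2
  · simp only [T, if_pos h2, G]
    rw [jPM_apply, jPMtw_apply]
    have hpow : dd i * q ^ (ty i : ℕ) = dd i * q * q := by
      rw [h2]; show dd i * q ^ 2 = _; ring
    rw [dilH_congr hpow (hepos i) (Nat.mul_pos (Nat.mul_pos (hdpos i) hq) hq)]
    have hh : ((dd i * e : ℕ) : ℤ) * k * c + (q : ℤ) * y = 1 := by rw [← he]; exact h
    have := jFun_dilH_low2 (dd i) e q (hdpos i) hq k c y hh z
    rw [← he] at this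
    exact this
  · simp only [T, if_neg h2, G]
    rw [jPM_apply, jPM_apply]
    have hm : ∃ m : ℤ, (N : ℤ) * q * k = ((dd i * q ^ (ty i : ℕ) : ℕ) : ℤ) * m := by
      have hty : (ty i : ℕ) = 0 ∨ (ty i : ℕ) = 1 := by
        have h3 := (ty i).2
        have h4 : (ty i : ℕ) ≠ 2 := fun h5 => h2 (Fin.ext h5)
        omega
      rcases hty with h0 | h1
      · exact ⟨(e : ℤ) * q * k, by rw [h0, he]; push_cast; ring⟩
      · exact ⟨(e : ℤ) * k, by rw [h1, he]; push_cast; ring⟩
    obtain ⟨m, hm⟩ := hm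
    rw [hm]
    exact jFun_dilH_low0 _ (hepos i) m z

end Fermat.Agent.S36.MidAnalytic
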