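import Mathlib
import Fermat.Agent.S36.MidAnalytic
import Fermat.Agent.S36.AtkinSq
import Fermat.Agent.S35.NormLevel

/-!
# S36, package (V-mid): the expansion of `FF L (N q²)` at the middle cusps

For a prime `q ∤ N`, a field `L ⊆ ℂ` and a primitive `q`-th root of unity `ζ ∈ L` there is an
`L`-algebra embedding `γ_ζ : FF L (N * q * q) → L((Q))` ("expansion at the middle cusp") with

* `γ_ζ (α₂ y) = y(Q)` for `y ∈ FF L (N q)`;
* `γ_ζ (β₂ (β₁ x)) = x(ζ Q)` for `x ∈ FF L N`;
* `γ_ζ (β₂ y) = (w₁ y)(ζ Q)` for every Atkin–Lehner automorphism `w₁` of level `N q`;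
* `γ_ζ (W x) = (γ_{ζ⁻¹} x)(ζ Q)` for the Atkin–Lehner involution `W = W_{q²}`.

It is unique (determined by its values on the generators `j(q^(d qⁱ))`).
-/

set_option autoImplicit false
set_option linter.style.haveILetI false
set_option linter.unusedSectionVars false

namespace Fermat.Agent.S36.MidEmb

open ModularCurve Fermat.Agent.S24 Fermat.Agent.S20 Fermat.Agent.S37.AtkinLehner
open Fermat.Agent.S36.AtkinSq Fermat.Agent.S36.MidAnalytic Fermat.Agent.S28

/-! ### Abstract construction of an embedding from a transfer of relations -/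

/-- If a generating family `g` of a field extension `K / L` and a family `T` in an `L`-field
`K'` satisfy the same polynomial relations, there is an `L`-embedding `K → K'` with
`g i ↦ T i`. -/
theorem exists_algHom_of_rel {L K K' : Type*} [Field L] [Field K] [Algebra L K] [Field K']
    [Algebra L K']
    {ι : Type*} (g : ι → K) (hgen : IntermediateField.adjoin L (Set.range g) = ⊤)
    (T : ι → K')
    (hker : ∀ p : MvPolynomial ι L, MvPolynomial.aeval g p = 0 → MvPolynomial.aeval T p = 0)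
    (hker' : ∀ p : MvPolynomial ι L, MvPolynomial.aeval T p = 0 → MvPolynomial.aeval g p = 0) :
    ∃ γ : K →ₐ[L] K', ∀ i, γ (g i) = T i := by
  classical
  let f : MvPolynomial ι L →ₐ[L] K := MvPolynomial.aeval g
  let f' : MvPolynomial ι L →ₐ[L] K' := MvPolynomial.aeval T
  let I : Ideal (MvPolynomial ι L) := RingHom.ker f.toRingHom
  have hI : ∀ a, a ∈ I ↔ f a = 0 := fun a => RingHom.mem_ker
  let fbar : (MvPolynomial ι L ⧸ I) →ₐ[L] K :=
    Ideal.Quotient.liftₐ I f (fun a ha => (hI a).mp ha)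
  have hfbar : ∀ p, fbar (Ideal.Quotient.mk I p) = f p := fun p => rfl
  have hfbar_inj : Function.Injective fbar := by
    rw [injective_iff_map_eq_zero]
    intro x hx
    obtain ⟨p, rfl⟩ := Ideal.Quotient.mk_surjective x
    rw [hfbar] at hx
    exact Ideal.Quotient.eq_zero_iff_mem.mpr ((hI p).mpr hx)
  let w₀ : (MvPolynomial ι L ⧸ I) →ₐ[L] K' :=
    Ideal.Quotient.liftₐ I f' (fun a ha => hker a ((hI a).mp ha))
  have hw₀ : ∀ p, w₀ (Ideal.Quotient.mk I p) = f' p := fun p => rfl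
  have hw₀_inj : Function.Injective w₀ := by
    rw [injective_iff_map_eq_zero]
    intro x hx
    obtain ⟨p, rfl⟩ := Ideal.Quotient.mk_surjective x
    rw [hw₀] at hx
    exact Ideal.Quotient.eq_zero_iff_mem.mpr ((hI p).mpr (hker' p hx))
  letI : Algebra (MvPolynomial ι L ⧸ I) K := fbar.toRingHom.toAlgebra
  have halg : ∀ x, algebraMap (MvPolynomial ι L ⧸ I) K x = fbar x := fun x => rfl
  haveI : IsScalarTower L (MvPolynomial ι L ⧸ I) K :=
    IsScalarTower.of_algebraMap_eq fun a => (fbar.commutes a).symm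
  haveI : FaithfulSMul (MvPolynomial ι L ⧸ I) K :=
    (faithfulSMul_iff_algebraMap_injective _ _).mpr hfbar_inj
  have hrange : ∀ r ∈ Algebra.adjoin L (Set.range g), ∃ p, f p = r := by
    intro r hr
    rw [← MvPolynomial.aeval_range] at hr
    exact hr
  haveI : IsFractionRing (MvPolynomial ι L ⧸ I) K := by
    refine IsFractionRing.of_field _ _ fun z => ?_
    have hz : z ∈ IntermediateField.adjoin L (Set.range g) := by
      rw [hgen]; exact IntermediateField.mem_top
    obtain ⟨r, hr, t, ht, rfl⟩ := IntermediateField.mem_adjoin_iff_div.mp hz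
    obtain ⟨p, rfl⟩ := hrange r hr
    obtain ⟨q, rfl⟩ := hrange t ht
    exact ⟨Ideal.Quotient.mk I p, Ideal.Quotient.mk I q, rfl⟩
  let w : K →ₐ[L] K' := IsFractionRing.liftAlgHom (K := K) hw₀_inj
  have hw : ∀ x, w (fbar x) = w₀ x := by
    intro x
    rw [← halg]
    exact IsFractionRing.lift_algebraMap hw₀_inj x
  refine ⟨w, fun i => ?_⟩
  have h1 : g i = fbar (Ideal.Quotient.mk I (MvPolynomial.X i)) := by
    rw [hfbar]
    exact (MvPolynomial.aeval_X g i).symm
  rw [h1, hw, hw₀]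
  exact MvPolynomial.aeval_X _ i

/-! ### The relations at the middle cusp over a field `L ⊆ ℂ` -/

section Rel

variable {L : Type*} [Field L] [Algebra ℚ L]

theorem coeffMap_midSeries (ι₀ : L →+* ℂ) (u : Lˣ) (q d : ℕ) (t : Fin 3) :
    coeffMap ι₀ (midSeries L u q d t) = midSeries ℂ (Units.map (ι₀ : L →* ℂ) u) q d t := by
  by_cases h2 : t = 2
  · simp only [midSeries, if_pos h2]
    rw [coeffMap_tw, coeffMap_jser]
  · simp only [midSeries, if_neg h2]
    rw [coeffMap_jser]

/-- a primitive `q`-th root of unity of `ℂ` is `exp (2 π i c / q)` -/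
theorem exists_expU_eq (q : ℕ) (hq : 0 < q) (u : ℂˣ) (hu : IsPrimitiveRoot u q) :
    ∃ c : ℕ, c.Coprime q ∧ u = expU (((c : ℤ) : ℝ) / q) := by
  have hu' : IsPrimitiveRoot ((u : ℂˣ) : ℂ) q := IsPrimitiveRoot.coe_units_iff.mpr hu
  obtain ⟨c, -, hc, hcu⟩ := (Complex.isPrimitiveRoot_iff _ q hq.ne').mp hu'
  refine ⟨c, hc, Units.ext ?_⟩
  rw [coe_expU, ← hcu]
  congr 1
  push_cast
  ring

/-- **Relations at the middle cusp.** -/
theorem mid_rel (ι₀ : L →+* ℂ) (N q : ℕ) (hN : 0 < N) (hq : q.Prime) (hNq : ¬ q ∣ N)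
    (ζ : Lˣ) (hζ : IsPrimitiveRoot ζ q)
    {ι : Type*} (dd : ι → ℕ) (hdd : ∀ i, dd i ∣ N) (ty : ι → Fin 3)
    (p : MvPolynomial ι L) :
    MvPolynomial.aeval (fun i => jser L (dd i * q ^ (ty i : ℕ))) p = 0 ↔
      MvPolynomial.aeval (fun i => midSeries L ζ q (dd i) (ty i)) p = 0 := by
  have hinj : Function.Injective (Units.map (ι₀ : L →* ℂ)) :=
    Units.map_injective ι₀.injective
  have hu : IsPrimitiveRoot (Units.map (ι₀ : L →* ℂ) ζ) q := hζ.map_of_injective hinj
  obtain ⟨c, hc, hcu⟩ := exists_expU_eq q hq.pos _ hu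
  -- Bezout
  have hcop : Nat.Coprime (N * c) q :=
    Nat.Coprime.mul_left ((Nat.Prime.coprime_iff_not_dvd hq).mpr hNq).symm hc
  obtain ⟨a, b, hab⟩ := Nat.isCoprime_iff_coprime.mpr hcop
  have hbez : (N : ℤ) * a * (c : ℤ) + (q : ℤ) * b = 1 := by
    push_cast at hab; linarith
  have key := mid_rel_complex N q hN hq.pos a (c : ℤ) b hbez dd hdd ty (MvPolynomial.map ι₀ p)
  rw [← hcu] at key
  have e1 : coeffMap ι₀ (MvPolynomial.aeval (fun i => jser L (dd i * q ^ (ty i : ℕ))) p) =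
      MvPolynomial.aeval (fun i => jser ℂ (dd i * q ^ (ty i : ℕ))) (MvPolynomial.map ι₀ p) := by
    rw [coeffMap_aeval]
    simp only [coeffMap_jser]
  have e2 : coeffMap ι₀ (MvPolynomial.aeval (fun i => midSeries L ζ q (dd i) (ty i)) p) =
      MvPolynomial.aeval (fun i => midSeries ℂ (Units.map (ι₀ : L →* ℂ) ζ) q (dd i) (ty i))
        (MvPolynomial.map ι₀ p) := by
    rw [coeffMap_aeval]
    simp only [coeffMap_midSeries]
  have hci := coeffMap_injective' ι₀ ι₀.injective
  constructor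
  · intro h
    apply hci
    rw [e2, map_zero]
    apply key.mp
    rw [← e1, h, map_zero]
  · intro h
    apply hci
    rw [e1, map_zero]
    apply key.mpr
    rw [← e2, h, map_zero]

end Rel

/-! ### The middle-cusp embedding -/

section Emb

variable {L : Type*} [Field L] [Algebra ℚ L]

/-- two ring homomorphisms out of `FF L M` agreeing on the constants and on the `j(q^d)`,
`d ∣ M`, are equal -/
theorem ringHom_ext_FF (M : ℕ) {K' : Type*} [Field K'] (φ₁ φ₂ : FF L M →+* K')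
    (hc : ∀ c : L, φ₁ (algebraMap L (FF L M) c) = φ₂ (algebraMap L (FF L M) c))
    (h : ∀ (d : ℕ), d ∣ M → ∀ x : FF L M, (x : LaurentSeries L) = jser L d → φ₁ x = φ₂ x) :
    φ₁ = φ₂ := by
  letI : Algebra L K' := (φ₂.comp (algebraMap L (FF L M))).toAlgebra
  let ψ₁ : FF L M →ₐ[L] K' := { φ₁ with commutes' := fun c => hc c }
  let ψ₂ : FF L M →ₐ[L] K' := { φ₂ with commutes' := fun c => rfl }
  have key := algHom_ext_FF M ψ₁ ψ₂ h
  exact RingHom.ext fun x => AlgHom.congr_fun key x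

theorem alpha_alpha_gen3 (N q : ℕ) [NeZero N] [NeZero q] (d : ℕ) (hd : d ∣ N) (x : FF L N)
    (hx : (x : LaurentSeries L) = jser L d) :
    heckeAlphaBar L (N * q) q (heckeAlphaBar L N q x) =
      gen3 L N q (NeZero.ne N) (NeZero.ne q) (⟨d, hd⟩, 0) := by
  apply Subtype.ext
  rw [coe_alpha_alpha, hx, coe_gen3]
  simp [lev3]

theorem alpha_beta_gen3 (N q : ℕ) [NeZero N] [NeZero q] (d : ℕ) (hd : d ∣ N) (x : FF L N)
    (hx : (x : LaurentSeries L) = jser L d) :
    heckeAlphaBar L (N * q) q (heckeBetaBar L N q x) =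
      gen3 L N q (NeZero.ne N) (NeZero.ne q) (⟨d, hd⟩, 1) := by
  have hd0 : d ≠ 0 := fun h => (NeZero.ne N) (by rw [h] at hd; exact Nat.eq_zero_of_zero_dvd hd)
  apply Subtype.ext
  rw [coe_alpha_beta, hx, coe_gen3, qExpand_jser q d hd0]
  simp [lev3]

theorem beta_beta_gen3 (N q : ℕ) [NeZero N] [NeZero q] (d : ℕ) (hd : d ∣ N) (x : FF L N)
    (hx : (x : LaurentSeries L) = jser L d) :
    heckeBetaBar L (N * q) q (heckeBetaBar L N q x) =
      gen3 L N q (NeZero.ne N) (NeZero.ne q) (⟨d, hd⟩, 2) := by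
  have hd0 : d ≠ 0 := fun h => (NeZero.ne N) (by rw [h] at hd; exact Nat.eq_zero_of_zero_dvd hd)
  apply Subtype.ext
  rw [coe_beta_beta, hx, coe_gen3, qExpand_jser q d hd0,
    qExpand_jser q (d * q) (Nat.mul_ne_zero hd0 (NeZero.ne q))]
  simp [lev3, pow_two, mul_assoc]

/-- **Existence of the middle-cusp expansion** (generator form). -/
theorem exists_midEmb (ι₀ : L →+* ℂ) (N q : ℕ) [NeZero N] [NeZero q] (hq : q.Prime)
    (hNq : ¬ q ∣ N) (ζ : Lˣ) (hζ : IsPrimitiveRoot ζ q) :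
    ∃ γ : FF L (N * q * q) →ₐ[L] LaurentSeries L,
      ∀ i : Idx3 N, γ (gen3 L N q (NeZero.ne N) (NeZero.ne q) i) = midSeries L ζ q i.1.1 i.2 := by
  have hN : N ≠ 0 := NeZero.ne N
  have hval : ∀ p : MvPolynomial (Idx3 N) L,
      ((MvPolynomial.aeval (gen3 L N q hN (NeZero.ne q)) p : FF L (N * q * q)) :
        LaurentSeries L) = MvPolynomial.aeval (fun i => jser L (i.1.1 * q ^ (i.2 : ℕ))) p := by
    intro p
    exact MvPolynomial.comp_aeval_apply (gen3 L N q hN (NeZero.ne q))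
      (IntermediateField.val (laurentBaseChange L (modularFunctionFieldFull (N * q * q)))) p
  have hrel := fun p : MvPolynomial (Idx3 N) L =>
    mid_rel ι₀ N q (Nat.pos_of_ne_zero hN) hq hNq ζ hζ (fun i : Idx3 N => i.1.1)
      (fun i => i.1.2) (fun i => i.2) p
  refine exists_algHom_of_rel (gen3 L N q hN (NeZero.ne q)) (adjoin_gen3 L N q hN hq)
    (fun i => midSeries L ζ q i.1.1 i.2) ?_ ?_
  · intro p hp
    apply (hrel p).mp
    rw [← hval, hp]
    rfl
  · intro p hp
    apply Subtype.ext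
    rw [hval]
    exact (hrel p).mpr hp

/-- **The middle-cusp expansion** `γ_ζ : FF L (N q²) → L((Q))` (junk value if the hypotheses
of `exists_midEmb` fail). -/
noncomputable def mid (L : Type*) [Field L] [Algebra ℚ L] (N q : ℕ) [NeZero N] [NeZero q]
    (ζ : Lˣ) : FF L (N * q * q) →ₐ[L] LaurentSeries L :=
  haveI : Nonempty (FF L (N * q * q) →ₐ[L] LaurentSeries L) :=
    ⟨IntermediateField.val (laurentBaseChange L (modularFunctionFieldFull (N * q * q)))⟩
  Classical.epsilon fun γ : FF L (N * q * q) →ₐ[L] LaurentSeries L =>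
    ∀ i : Idx3 N, γ (gen3 L N q (NeZero.ne N) (NeZero.ne q) i) = midSeries L ζ q i.1.1 i.2

theorem mid_gen3 (ι₀ : L →+* ℂ) (N q : ℕ) [NeZero N] [NeZero q] (hq : q.Prime)
    (hNq : ¬ q ∣ N) (ζ : Lˣ) (hζ : IsPrimitiveRoot ζ q) (i : Idx3 N) :
    mid L N q ζ (gen3 L N q (NeZero.ne N) (NeZero.ne q) i) = midSeries L ζ q i.1.1 i.2 := by
  have h := exists_midEmb ι₀ N q hq hNq ζ hζ
  exact Classical.epsilon_spec h i

/-- `γ_ζ ∘ α₂ = ` the inclusion of `FF L (N q)` -/
theorem mid_alpha (ι₀ : L →+* ℂ) (N q : ℕ) [NeZero N] [NeZero q] (hq : q.Prime)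
    (hNq : ¬ q ∣ N) (ζ : Lˣ) (hζ : IsPrimitiveRoot ζ q) (y : FF L (N * q)) :
    mid L N q ζ (heckeAlphaBar L (N * q) q y) = (y : LaurentSeries L) := by
  have key : (mid L N q ζ).comp (heckeAlphaBar L (N * q) q) =
      IntermediateField.val (laurentBaseChange L (modularFunctionFieldFull (N * q))) := by
    apply algHom_ext_FF
    intro e he y hy
    show mid L N q ζ (heckeAlphaBar L (N * q) q y) = (y : LaurentSeries L)
    by_cases hqe : q ∣ e
    · obtain ⟨c, rfl⟩ := hqe
      have hc : c ∣ N := by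
        rw [mul_comm N q] at he
        exact Nat.dvd_of_mul_dvd_mul_left hq.pos he
      have hc0 : c ≠ 0 := fun h => (NeZero.ne N) (by rw [h] at hc; exact Nat.eq_zero_of_zero_dvd hc)
      let y' : FF L N := ⟨jser L c, jser_mem L N c (NeZero.ne N) hc⟩
      have hy' : y = heckeBetaBar L N q y' := by
        apply Subtype.ext
        rw [hy, coe_heckeBetaBar]
        show jser L (q * c) = qExpand L q (jser L c)
        rw [qExpand_jser q c hc0, mul_comm]
      rw [hy', alpha_beta_gen3 N q c hc y' rfl, mid_gen3 ι₀ N q hq hNq ζ hζ, coe_heckeBetaBar]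
      show midSeries L ζ q c 1 = qExpand L q (jser L c)
      rw [qExpand_jser q c hc0]
      simp [midSeries]
    · have hc : e ∣ N := (Nat.Coprime.dvd_of_dvd_mul_right
        ((Nat.Prime.coprime_iff_not_dvd hq).mpr hqe).symm he)
      let y' : FF L N := ⟨jser L e, jser_mem L N e (NeZero.ne N) hc⟩
      have hy' : y = heckeAlphaBar L N q y' := by
        apply Subtype.ext
        rw [hy, coe_heckeAlphaBar]
      rw [hy', alpha_alpha_gen3 N q e hc y' rfl, mid_gen3 ι₀ N q hq hNq ζ hζ, coe_heckeAlphaBar]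
      show midSeries L ζ q e 0 = jser L e
      simp [midSeries]
  exact AlgHom.congr_fun key y

/-- `γ_ζ (β₂ (β₁ x)) = x(ζ Q)` -/
theorem mid_beta_beta (ι₀ : L →+* ℂ) (N q : ℕ) [NeZero N] [NeZero q] (hq : q.Prime)
    (hNq : ¬ q ∣ N) (ζ : Lˣ) (hζ : IsPrimitiveRoot ζ q) (x : FF L N) :
    mid L N q ζ (heckeBetaBar L (N * q) q (heckeBetaBar L N q x)) =
      tw ζ (x : LaurentSeries L) := by
  have key : ((mid L N q ζ : FF L (N * q * q) →+* LaurentSeries L).comp
      ((heckeBetaBar L (N * q) q : FF L (N * q) →+* FF L (N * q * q)).comp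
        (heckeBetaBar L N q : FF L N →+* FF L (N * q)))) =
      (tw ζ).comp (algebraMap (FF L N) (LaurentSeries L)) := by
    apply ringHom_ext_FF
    · intro c
      show mid L N q ζ (heckeBetaBar L (N * q) q (heckeBetaBar L N q (algebraMap L (FF L N) c))) =
        tw ζ ((algebraMap L (FF L N) c : FF L N) : LaurentSeries L)
      rw [AlgHom.commutes, AlgHom.commutes, AlgHom.commutes]
      have : ((algebraMap L (FF L N) c : FF L N) : LaurentSeries L) = HahnSeries.single 0 c := by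
        show algebraMap L (LaurentSeries L) c = HahnSeries.single 0 c
        exact algebraMap_laurentSeries_eq_single L c
      rw [this, algebraMap_laurentSeries_eq_single]
      ext m
      rw [tw_coeff]
      by_cases hm : m = 0
      · subst hm; simp
      · rw [HahnSeries.coeff_single_of_ne hm, mul_zero]
    · intro d hd x hx
      show mid L N q ζ (heckeBetaBar L (N * q) q (heckeBetaBar L N q x)) =
        tw ζ (x : LaurentSeries L)
      rw [beta_beta_gen3 N q d hd x hx, mid_gen3 ι₀ N q hq hNq ζ hζ, hx]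
      simp [midSeries]
  exact RingHom.congr_fun key x

end Emb

section More

variable {L : Type*} [Field L] [Algebra ℚ L]

theorem tw_algebraMap (ζ : Lˣ) (c : L) :
    tw ζ (algebraMap L (LaurentSeries L) c) = algebraMap L (LaurentSeries L) c := by
  rw [algebraMap_laurentSeries_eq_single]
  ext m
  rw [tw_coeff]
  by_cases hm : m = 0
  · subst hm; simp
  · rw [HahnSeries.coeff_single_of_ne hm, mul_zero]

theorem coe_algebraMap_FF (M : ℕ) (c : L) :
    ((algebraMap L (FF L M) c : FF L M) : LaurentSeries L) = algebraMap L (LaurentSeries L) c :=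
  rfl

/-- `γ_ζ (β₂ y) = (w₁ y)(ζ Q)` for an Atkin–Lehner automorphism `w₁` of level `N q`. -/
theorem mid_beta (ι₀ : L →+* ℂ) (N q : ℕ) [NeZero N] [NeZero q] (hq : q.Prime)
    (hNq : ¬ q ∣ N) (ζ : Lˣ) (hζ : IsPrimitiveRoot ζ q)
    (w₁ : FF L (N * q) ≃ₐ[L] FF L (N * q))
    (hwα : (w₁ : FF L (N * q) →ₐ[L] FF L (N * q)).comp (heckeAlphaBar L N q) = heckeBetaBar L N q)
    (hwβ : (w₁ : FF L (N * q) →ₐ[L] FF L (N * q)).comp (heckeBetaBar L N q) = heckeAlphaBar L N q)
    (y : FF L (N * q)) :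
    mid L N q ζ (heckeBetaBar L (N * q) q y) = tw ζ ((w₁ y : FF L (N * q)) : LaurentSeries L) := by
  have key : ((mid L N q ζ : FF L (N * q * q) →+* LaurentSeries L).comp
      (heckeBetaBar L (N * q) q : FF L (N * q) →+* FF L (N * q * q))) =
      ((tw ζ).comp (algebraMap (FF L (N * q)) (LaurentSeries L))).comp
        (w₁ : FF L (N * q) →+* FF L (N * q)) := by
    apply ringHom_ext_FF
    · intro c
      show mid L N q ζ (heckeBetaBar L (N * q) q (algebraMap L (FF L (N * q)) c)) =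
        tw ζ ((w₁ (algebraMap L (FF L (N * q)) c) : FF L (N * q)) : LaurentSeries L)
      rw [AlgHom.commutes, AlgHom.commutes, AlgEquiv.commutes, coe_algebraMap_FF, tw_algebraMap]
    · intro e he y hy
      show mid L N q ζ (heckeBetaBar L (N * q) q y) =
        tw ζ ((w₁ y : FF L (N * q)) : LaurentSeries L)
      rcases Fermat.Agent.S35.NormLevel.w_jser N q hq w₁ hwα hwβ e he y hy with
        ⟨y', hy1, hy2⟩ | ⟨y', hy1, hy2⟩
      · rw [hy2, hy1, mid_beta_beta ι₀ N q hq hNq ζ hζ, coe_heckeAlphaBar]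
      · rw [hy2, hy1, beta_alpha_eq_alpha_beta, mid_alpha ι₀ N q hq hNq ζ hζ, coe_heckeBetaBar,
          tw_qExpand_of_pow_eq_one ζ q hζ.pow_eq_one]
  exact RingHom.congr_fun key y

/-- `γ_ζ (W x) = (γ_{ζ⁻¹} x)(ζ Q)` for the Atkin–Lehner involution `W = W_{q²}`. -/
theorem mid_W (ι₀ : L →+* ℂ) (N q : ℕ) [NeZero N] [NeZero q] (hq : q.Prime)
    (hNq : ¬ q ∣ N) (ζ : Lˣ) (hζ : IsPrimitiveRoot ζ q)
    (W : FF L (N * q * q) ≃ₐ[L] FF L (N * q * q))
    (hW0 : ∀ x : FF L N, W (heckeAlphaBar L (N * q) q (heckeAlphaBar L N q x)) =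
        heckeBetaBar L (N * q) q (heckeBetaBar L N q x))
    (hW2 : ∀ x : FF L N, W (heckeBetaBar L (N * q) q (heckeBetaBar L N q x)) =
        heckeAlphaBar L (N * q) q (heckeAlphaBar L N q x))
    (hW1 : ∀ x : FF L N, W (heckeAlphaBar L (N * q) q (heckeBetaBar L N q x)) =
        heckeAlphaBar L (N * q) q (heckeBetaBar L N q x))
    (x : FF L (N * q * q)) :
    mid L N q ζ (W x) = tw ζ (mid L N q ζ⁻¹ x) := by
  have hζ' : IsPrimitiveRoot ζ⁻¹ q := hζ.inv
  have key : ((mid L N q ζ : FF L (N * q * q) →+* LaurentSeries L).comp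
      (W : FF L (N * q * q) →+* FF L (N * q * q))) =
      (tw ζ).comp (mid L N q ζ⁻¹ : FF L (N * q * q) →+* LaurentSeries L) := by
    apply ringHom_ext_FF
    · intro c
      show mid L N q ζ (W (algebraMap L (FF L (N * q * q)) c)) =
        tw ζ (mid L N q ζ⁻¹ (algebraMap L (FF L (N * q * q)) c))
      rw [AlgEquiv.commutes, AlgHom.commutes, AlgHom.commutes, tw_algebraMap]
    · intro e he x hx
      show mid L N q ζ (W x) = tw ζ (mid L N q ζ⁻¹ x)
      obtain ⟨⟨⟨d, hd⟩, t⟩, hi⟩ := exists_idx3 N q hq e he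
      have hd0 : d ≠ 0 := fun h => (NeZero.ne N) (by rw [h] at hd; exact Nat.eq_zero_of_zero_dvd hd)
      let xd : FF L N := ⟨jser L d, jser_mem L N d (NeZero.ne N) hd⟩
      have hx' : x = gen3 L N q (NeZero.ne N) (NeZero.ne q) (⟨d, hd⟩, t) := by
        apply Subtype.ext
        rw [hx, coe_gen3, hi]
      rw [hx', mid_gen3 ι₀ N q hq hNq ζ⁻¹ hζ']
      have ht : t = 0 ∨ t = 1 ∨ t = 2 := by
        have h3 := t.2
        rcases t with ⟨_ | _ | _ | n, hn⟩
        · exact Or.inl rfl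
        · exact Or.inr (Or.inl rfl)
        · exact Or.inr (Or.inr rfl)
        · omega
      rcases ht with rfl | rfl | rfl
      · rw [← alpha_alpha_gen3 N q d hd xd rfl, hW0, mid_beta_beta ι₀ N q hq hNq ζ hζ]
        show tw ζ (jser L d) = tw ζ (midSeries L ζ⁻¹ q d 0)
        have h2 : midSeries L ζ⁻¹ q d 0 = jser L d := by simp [midSeries]
        rw [h2]
      · rw [← alpha_beta_gen3 N q d hd xd rfl, hW1, alpha_beta_gen3 N q d hd xd rfl,
          mid_gen3 ι₀ N q hq hNq ζ hζ]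
        show midSeries L ζ q d 1 = tw ζ (midSeries L ζ⁻¹ q d 1)
        have h1 : midSeries L ζ q d 1 = qExpand L q (jser L d) := by
          rw [qExpand_jser q d hd0]; simp [midSeries]
        have h2 : midSeries L ζ⁻¹ q d 1 = qExpand L q (jser L d) := by
          rw [qExpand_jser q d hd0]; simp [midSeries]
        rw [h1, h2, tw_qExpand_of_pow_eq_one ζ q hζ.pow_eq_one]
      · rw [← beta_beta_gen3 N q d hd xd rfl, hW2, alpha_alpha_gen3 N q d hd xd rfl,
          mid_gen3 ι₀ N q hq hNq ζ hζ]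
        show midSeries L ζ q d 0 = tw ζ (midSeries L ζ⁻¹ q d 2)
        have h1 : midSeries L ζ q d 0 = jser L d := by simp [midSeries]
        have h2 : midSeries L ζ⁻¹ q d 2 = tw ζ⁻¹ (jser L d) := by simp [midSeries]
        rw [h1, h2, ← tw_mul, mul_inv_cancel, tw_one]
  exact RingHom.congr_fun key x

/-- the coefficient of `Q⁻¹` of `γ_ζ (j'')`, `j'' = β₂ (β₁ j)` -/
theorem mid_beta_beta_jBC_coeff (ι₀ : L →+* ℂ) (N q : ℕ) [NeZero N] [NeZero q] (hq : q.Prime)
    (hNq : ¬ q ∣ N) (ζ : Lˣ) (hζ : IsPrimitiveRoot ζ q) :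
    (mid L N q ζ (heckeBetaBar L (N * q) q (heckeBetaBar L N q (jBC L N)))).coeff (-1) =
      ((ζ⁻¹ : Lˣ) : L) := by
  rw [mid_beta_beta ι₀ N q hq hNq ζ hζ, coe_jBC, tw_coeff, coeffEmb, coeffMap_coeff,
    coeff_jq_neg_one, map_one, mul_one, zpow_neg_one]

end More

end Fermat.Agent.S36.MidEmb
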