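import Mathlib
import Fermat.Agent.S36.VDefs
import Fermat.Agent.S36.MidEmb

/-!
# S36, contract (V1): the two further expansion maps of `FF L (M q²)` exist

`exists_exp3` : for a prime `q ∤ M`, an Atkin–Lehner endomorphism `w₁` of `FF L (M q)`
(`w₁ ∘ α₁ = β₁`, `w₁ ∘ β₁ = α₁`) and a field `L' ⊇ L`, `L' ⊆ ℂ`, with a primitive `q`-th root of
unity `ζ`, the structure `VDefs.Exp3 M q w₁ ζ` is inhabited:

* `phi0 = coe ∘ W`, `W = W_{q²}` the Atkin–Lehner involution of level `M q²` (`AtkinSq`);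
* `psi = mid L' M q ζ ∘ bc`, the expansion at the middle cusp (`MidEmb`).
-/

set_option autoImplicit false
set_option linter.style.haveILetI false
set_option linter.unusedSectionVars false

namespace Fermat.Agent.S36.Exp3Exists

open ModularCurve Fermat.Agent.S24 Fermat.Agent.S20 Fermat.Agent.S37.AtkinLehner
open Fermat.Agent.S36.AtkinSq Fermat.Agent.S36.MidEmb Fermat.Agent.S36.VDefs Fermat.Agent.S28

/-- an Atkin–Lehner endomorphism of level `N q` is the Atkin–Lehner automorphism -/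
theorem algHom_eq_of_atkinLehner {L : Type*} [Field L] [Algebra ℚ L] (N q : ℕ) [NeZero N]
    [NeZero q] (hq : q.Prime)
    (w : FF L (N * q) ≃ₐ[L] FF L (N * q))
    (hwα : (w : FF L (N * q) →ₐ[L] FF L (N * q)).comp (heckeAlphaBar L N q) = heckeBetaBar L N q)
    (hwβ : (w : FF L (N * q) →ₐ[L] FF L (N * q)).comp (heckeBetaBar L N q) = heckeAlphaBar L N q)
    (w₁ : FF L (N * q) →ₐ[L] FF L (N * q))
    (hα : w₁.comp (heckeAlphaBar L N q) = heckeBetaBar L N q)
    (hβ : w₁.comp (heckeBetaBar L N q) = heckeAlphaBar L N q) (y : FF L (N * q)) :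
    w₁ y = w y := by
  have key : w₁ = (w : FF L (N * q) →ₐ[L] FF L (N * q)) := by
    apply algHom_ext_FF
    intro e he y hy
    show w₁ y = w y
    rcases Fermat.Agent.S35.NormLevel.w_jser N q hq w hwα hwβ e he y hy with
      ⟨y', hy1, hy2⟩ | ⟨y', hy1, hy2⟩
    · rw [hy2, hy1]
      exact AlgHom.congr_fun hβ y'
    · rw [hy2, hy1]
      exact AlgHom.congr_fun hα y'
  rw [key]
  rfl

/-- **(V1)** the two further expansion maps exist. -/
theorem exists_exp3 {L : Type} [Field L] [Algebra ℚ L] (M q : ℕ) [NeZero M] [NeZero q]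
    [Fact q.Prime] (w₁ : FF L (M * q) →ₐ[L] FF L (M * q))
    {L' : Type} [Field L'] [Algebra L L'] (ζ : L'ˣ)
    (hqM : ¬ q ∣ M) (hwα : w₁.comp (heckeAlphaBar L M q) = heckeBetaBar L M q)
    (hwβ : w₁.comp (heckeBetaBar L M q) = heckeAlphaBar L M q) (ι₀ : L' →+* ℂ)
    (hζ : IsPrimitiveRoot (ζ : L') q) : Nonempty (Exp3 M q w₁ ζ) := by
  have hq : q.Prime := Fact.out
  haveI : CharZero L := algebraRat.charZero L
  haveI : CharZero L' := charZero_of_injective_algebraMap (algebraMap L L').injective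
  letI : Algebra ℚ L' := DivisionRing.toRatAlgebra
  let τ : L →+* L' := algebraMap L L'
  let ι₁ : L →+* ℂ := ι₀.comp τ
  have hζu : IsPrimitiveRoot ζ q := IsPrimitiveRoot.coe_units_iff.mp hζ
  -- Atkin–Lehner at level `M q` over `L` and over `L'`
  obtain ⟨w, hwα₀, hwβ₀⟩ := exists_atkinLehner_of_emb ι₁ M q hq hqM
  obtain ⟨w', hwα', hwβ'⟩ := exists_atkinLehner_of_emb ι₀ M q hq hqM
  have hw₁ : ∀ y, w₁ y = w y := algHom_eq_of_atkinLehner M q hq w hwα₀ hwβ₀ w₁ hwα hwβ
  -- Atkin–Lehner at level `M q²` over `L`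
  obtain ⟨W, -, -, -, -, hW⟩ := exists_atkinLehnerSq_of_emb ι₁ M q hq hqM
  obtain ⟨hWα, hWβ⟩ := hW w hwα₀ hwβ₀
  refine ⟨{
    phi0 := (algebraMap (FF L (M * q * q)) (LaurentSeries L)).comp
      (W : FF L (M * q * q) →+* FF L (M * q * q))
    psi := (mid L' M q ζ : FF L' (M * q * q) →+* LaurentSeries L').comp
      (CoeffBC.bc τ (modularFunctionFieldFull (M * q * q)))
    phi0_alpha := ?_
    phi0_beta := ?_
    psi_alpha := ?_
    psi_beta := ?_ }⟩
  · intro b
    show ((W (heckeAlphaBar L (M * q) q b) : FF L (M * q * q)) : LaurentSeries L) = _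
    rw [hWα, coe_heckeBetaBar, hw₁]
  · intro b
    show ((W (heckeBetaBar L (M * q) q b) : FF L (M * q * q)) : LaurentSeries L) = _
    rw [hWβ, coe_heckeAlphaBar, hw₁]
  · intro b
    show mid L' M q ζ (CoeffBC.bc τ (modularFunctionFieldFull (M * q * q))
      (heckeAlphaBar L (M * q) q b)) = _
    rw [Fermat.Agent.S35.NormLevel.bc_alpha, mid_alpha ι₀ M q hq hqM ζ hζu, CoeffBC.coe_bc]
  · intro b
    show mid L' M q ζ (CoeffBC.bc τ (modularFunctionFieldFull (M * q * q))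
      (heckeBetaBar L (M * q) q b)) = _
    rw [Fermat.Agent.S35.NormLevel.bc_beta, mid_beta ι₀ M q hq hqM ζ hζu w' hwα' hwβ',
      ← Fermat.Agent.S35.NormLevel.bc_atkinLehner τ M q hq w hwα₀ hwβ₀ w' hwα' hwβ',
      CoeffBC.coe_bc, hw₁]

end Fermat.Agent.S36.Exp3Exists
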