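/-
S36 (wave 8), K2: coefficient extension `L((Q)) → L'((Q))` and the content rings of `W ⊆ L`,
`W' ⊆ L'` with `W = W' ∩ L`.

* `exists_resMap`      : units of the content ring of `W` (with reductions) go to units of the
                         content ring of `W'`;
* `mem_contentRing_of_cL`, `mem_contentRing_of_qExpand` : reflection of content-integrality;
* `isU_one_of_cL`      : a series over `L` whose coefficient extension is a unit of reduction `1`
                         is a unit of reduction `1`.
-/
import Mathlib
import Fermat.Agent.S35.EsSeries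
import Fermat.Agent.S34.TwoGauss

set_option autoImplicit false
set_option linter.unusedSectionVars false

noncomputable section

namespace Fermat.Agent.S36.CLRes

open ModularCurve Fermat.Agent.S18.Gauss Fermat.Agent.S28 Fermat.Agent.S35.EsSeries
open Fermat.Agent.S37.LevelChange

variable {L : Type*} [Field L] (W : ValuationSubring L)
  {L' : Type*} [Field L'] (τ : L →+* L') (W' : ValuationSubring L')
  (hW : ∀ c : L, c ∈ W ↔ τ c ∈ W')

include hW

/-- units of the content ring go to units of the content ring, the reduction being transported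
by the map of residue fields -/
theorem isU_cL {u : LaurentSeries L} {r : LaurentSeries (IsLocalRing.ResidueField W)}
    (h : IsU W u r) : IsU W' (coeffMap τ u) (coeffMap (resMap τ W W' hW) r) := by
  obtain ⟨hu, h1, h2⟩ := h
  refine ⟨coeffMap_mem_contentRing τ W W' hW hu, ?_, ?_⟩
  · rw [red_coeffMap τ W W' hW hu, h1]
  · intro h0
    apply h2
    apply Fermat.Agent.S28.Tower.coeffMap_injective (resMap τ W W' hW)
    rw [map_zero]
    exact h0

theorem coeffMap_resMap_one :
    coeffMap (resMap τ W W' hW) (1 : LaurentSeries (IsLocalRing.ResidueField W)) = 1 :=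
  map_one _

/-- a unit of the content ring of `W` whose coefficient extension has reduction `1` has
reduction `1` -/
theorem isU_one_of_cL {u : LaurentSeries L} {r : LaurentSeries (IsLocalRing.ResidueField W)}
    (h : IsU W u r) (h' : IsU W' (coeffMap τ u) 1) : IsU W u 1 := by
  have h1 := (isU_cL W τ W' hW h).unique h'
  have h2 : r = 1 := by
    apply Fermat.Agent.S28.Tower.coeffMap_injective (resMap τ W W' hW)
    rw [h1, map_one]
  rw [← h2]
  exact h

variable [IsDiscreteValuationRing W]

/-- reflection of content-integrality along the coefficient extension -/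
theorem mem_contentRing_of_cL {z : LaurentSeries L} (hz : z ∈ fracInt W)
    (h : coeffMap τ z ∈ contentRing W') : z ∈ contentRing W := by
  by_contra hnot
  obtain ⟨hinv, hred⟩ := inv_mem_contentRing_of_not_mem W hz hnot
  have hz0 : z ≠ 0 := fun h0 => hnot (by rw [h0]; exact zero_mem _)
  have h1 := red_coeffMap_eq_zero τ W W' hW hinv hred
  have hmem := coeffMap_mem_contentRing τ W W' hW hinv
  have hprod : coeffMap τ z * coeffMap τ z⁻¹ = 1 := by
    rw [← map_mul, mul_inv_cancel₀ hz0, map_one]
  have h2 : (⟨coeffMap τ z, h⟩ : contentRing W') * ⟨coeffMap τ z⁻¹, hmem⟩ = 1 :=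
    Subtype.ext hprod
  have h3 := congrArg (red W') h2
  rw [map_mul, h1, mul_zero, map_one] at h3
  exact zero_ne_one h3

omit hW in
/-- reflection of content-integrality along `Q ↦ Q ^ d` -/
theorem mem_contentRing_of_qExpand (d : ℕ) [NeZero d] {z : LaurentSeries L}
    (hz : z ∈ fracInt W) (h : qExpand L d z ∈ contentRing W) : z ∈ contentRing W := by
  by_contra hnot
  obtain ⟨hinv, hred⟩ := inv_mem_contentRing_of_not_mem W hz hnot
  have hz0 : z ≠ 0 := fun h0 => hnot (by rw [h0]; exact zero_mem _)
  have hmem := qExpand_mem_contentRing W d hinv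
  have h1 : red W ⟨qExpand L d z⁻¹, hmem⟩ = 0 := by
    rw [red_qExpand W d hinv, hred, map_zero]
  have hprod : qExpand L d z * qExpand L d z⁻¹ = 1 := by
    rw [← map_mul, mul_inv_cancel₀ hz0, map_one]
  have h2 : (⟨qExpand L d z, h⟩ : contentRing W) * ⟨qExpand L d z⁻¹, hmem⟩ = 1 :=
    Subtype.ext hprod
  have h3 := congrArg (red W) h2
  rw [map_mul, h1, mul_zero, map_one] at h3
  exact zero_ne_one h3

end Fermat.Agent.S36.CLRes
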