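import Mathlib
import Fermat.Agent.S36.VDefs
import Fermat.Agent.S36.DegreeDvd
import Fermat.Agent.S35.EsOrd
import Fermat.Agent.S34.DegreeL
import Fermat.Agent.S28.SeriesBasic

/-!
# S36 (wave 8), package (V-CONJ): the conjugates at level `M q²` over level `M q`

`F = FF L (M q²)`, `K₁ = FF L (M q)`, `α₂ β₂ : K₁ → F` the two degeneracy maps (both of degree
`q`).  From the three expansions of `F` (`coe`, `E.phi0`, `E.psi`, see `S36.VDefs.Exp3`) and
automorphisms `s k` of `L' / L` with `s k ζ = ζ ^ k` we build the four complete families of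
conjugate embeddings `F → L'((Q))`:

* `embA` (over `α₂`, extending `coe`)            : `coe`, `s k ∘ psi` (`k = 1, …, q - 1`);
* `embB` (over `α₂`, extending `V_q ∘ coe ∘ w₁`) : `tw ζ^b ∘ phi0` (`b < q`);
* `embC` (over `β₂`, extending `V_q ∘ coe`)      : `tw ζ^b ∘ coe` (`b < q`);
* `embD` (over `β₂`, extending `coe ∘ w₁`)       : `phi0`, `tw ζ^{-k} ∘ s k ∘ psi` (`k = 1, …, q - 1`);

each with its restriction property (`embX_base`), injectivity (`embX_injective`) and cardinality,
and the resulting product formulas: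

* `finrank_alpha2`, `finrank_beta2` (C0): both degrees are `q`;
* `norm_alpha_inf` (C1), `norm_alpha_zero` (C2), `norm_beta_inf` (C3), `norm_beta_zero` (C4):
  the norms along `α₂`, `β₂` expanded at the cusps `∞` and `0`;
* `exists_poly_alpha` (C5), `exists_poly_beta`: the characteristic polynomial of `x` over
  `α₂ K₁` (resp. `β₂ K₁`), with both expansions factored;
* `trace_alpha_inf`, … : the trace forms.
-/

set_option autoImplicit false
set_option linter.style.haveILetI false
set_option linter.unusedSectionVars false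
set_option linter.unusedVariables false

noncomputable section

namespace Fermat.Agent.S36.Conj3

open ModularCurve AlgebraicCurve Polynomial Fermat.Agent.S28
open Fermat.Agent.S24 Fermat.Agent.S36.VDefs Fermat.Agent.S35.EsOrd

section Abbrevs

variable {L : Type} [Field L] [Algebra ℚ L] (M q : ℕ) [NeZero M] [NeZero q] [Fact q.Prime]
  (w₁ : FF L (M * q) →ₐ[L] FF L (M * q))
  {L' : Type} [Field L'] [Algebra L L'] (ζ : L'ˣ)

/-- the inclusion `FF L N → L((Q))` as a ring homomorphism -/
abbrev coeH (N : ℕ) : FF L N →+* LaurentSeries L := algebraMap (FF L N) (LaurentSeries L)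

/-- coefficient extension `L((Q)) → L'((Q))` -/
abbrev cL : LaurentSeries L →+* LaurentSeries L' := coeffMap (algebraMap L L')

end Abbrevs

section Families

variable {L : Type} [Field L] [Algebra ℚ L] {M q : ℕ} [NeZero M] [NeZero q]
  {w₁ : FF L (M * q) →ₐ[L] FF L (M * q)}
  {L' : Type} [Field L'] [Algebra L L'] {ζ : L'ˣ}

/-! ### Small lemmas -/

theorem coeffMap_sigma_cm (σ : L' ≃ₐ[L] L') (x : LaurentSeries L) :
    coeffMap ((σ : L' ≃ₐ[L] L') : L' →+* L') (coeffMap (algebraMap L L') x) =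
      coeffMap (algebraMap L L') x := by
  rw [coeffMap_coeffMap]
  exact coeffMap_congr (RingHom.ext fun a => σ.commutes a) x

theorem cm_jBC_coeff (N : ℕ) [NeZero N] :
    (coeffMap (algebraMap L L') ((jBC L N : FF L N) : LaurentSeries L)).coeff (-1) = 1 := by
  rw [coeffMap_coeff, coe_jBC, coeffEmb, coeffMap_coeff, coeff_jq_neg_one, map_one, map_one]

theorem w₁_beta_jBC (hwβ : w₁.comp (heckeBetaBar L M q) = heckeAlphaBar L M q) :
    w₁ (heckeBetaBar L M q (jBC L M)) = jBC L (M * q) := by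
  rw [← Fermat.Agent.S34.DegreeL.heckeAlphaBar_jBC_level L M q]
  exact AlgHom.congr_fun hwβ _

theorem not_dvd_neg_one (hq : q.Prime) : ¬ ((q : ℤ) ∣ (-1 : ℤ)) := by
  intro h
  have h1 : ((q : ℤ)) ∣ 1 := (dvd_neg.mp h)
  have h2 : (q : ℤ) = 1 := Int.eq_one_of_dvd_one (by positivity) h1
  have h3 : q = 1 := by exact_mod_cast h2
  exact hq.one_lt.ne' h3

theorem units_map_sigma (σ : L' ≃ₐ[L] L') (k : ℕ) (h : σ (ζ : L') = (ζ : L') ^ k) :
    Units.map ((σ : L' →+* L') : L' →* L') ζ = ζ ^ k :=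
  Units.ext (by rw [Units.val_pow_eq_pow_val]; exact h)

theorem tw_cm_jBC_coeff (u : L'ˣ) (N : ℕ) [NeZero N] :
    (tw u (coeffMap (algebraMap L L') ((jBC L N : FF L N) : LaurentSeries L))).coeff (-1) =
      ((u⁻¹ : L'ˣ) : L') := by
  rw [tw_coeff, cm_jBC_coeff, mul_one, zpow_neg_one]

theorem pow_inj_of_lt (hζ : IsPrimitiveRoot (ζ : L') q) {a b : ℕ} (ha : a < q) (hb : b < q)
    (h : ζ ^ a = ζ ^ b) : a = b := by
  have hζ' : IsPrimitiveRoot ζ q := by
    rw [← IsPrimitiveRoot.coe_units_iff]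
    exact hζ
  exact hζ'.pow_inj ha hb h

/-! ### Family A: over `α₂`, extending `coe` -/

/-- the base embedding of family A: `g ↦ g(Q)` with coefficients in `L'` -/
def baseA (L' : Type) [Field L'] [Algebra L L'] (M q : ℕ) :
    FF L (M * q) →+* LaurentSeries L' :=
  (coeffMap (algebraMap L L')).comp (coeH (M * q))

/-- family A: `coe` and the `q - 1` Galois conjugates of the middle expansion -/
def embA (E : Exp3 M q w₁ ζ) (s : ℕ → L' ≃ₐ[L] L') :
    Option (Fin (q - 1)) → (FF L (M * q * q) →+* LaurentSeries L')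
  | none => (coeffMap (algebraMap L L')).comp (coeH (M * q * q))
  | some i => (coeffMap ((s (i + 1) : L' ≃ₐ[L] L') : L' →+* L')).comp E.psi

theorem embA_none (E : Exp3 M q w₁ ζ) (s : ℕ → L' ≃ₐ[L] L') (x : FF L (M * q * q)) :
    embA E s none x = coeffMap (algebraMap L L') (x : LaurentSeries L) := rfl

theorem embA_some (E : Exp3 M q w₁ ζ) (s : ℕ → L' ≃ₐ[L] L') (i : Fin (q - 1))
    (x : FF L (M * q * q)) :
    embA E s (some i) x = coeffMap ((s (i + 1) : L' ≃ₐ[L] L') : L' →+* L') (E.psi x) := rfl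

theorem embA_base (E : Exp3 M q w₁ ζ) (s : ℕ → L' ≃ₐ[L] L') (i : Option (Fin (q - 1)))
    (g : FF L (M * q)) :
    embA E s i (heckeAlphaBar L (M * q) q g) = baseA L' M q g := by
  rcases i with _ | i
  · rw [embA_none, coe_heckeAlphaBar]; rfl
  · rw [embA_some, E.psi_alpha, coeffMap_sigma_cm]; rfl

theorem embA_some_coeff (hwβ : w₁.comp (heckeBetaBar L M q) = heckeAlphaBar L M q)
    (E : Exp3 M q w₁ ζ) (s : ℕ → L' ≃ₐ[L] L')
    (hs : ∀ k : ℕ, 1 ≤ k → k < q → s k (ζ : L') = (ζ : L') ^ k) (i : Fin (q - 1)) :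
    (embA E s (some i) (heckeBetaBar L (M * q) q (heckeBetaBar L M q (jBC L M)))).coeff (-1) =
      (((ζ ^ ((i : ℕ) + 1))⁻¹ : L'ˣ) : L') := by
  have hi : (i : ℕ) + 1 < q := by have := i.2; omega
  rw [embA_some, E.psi_beta, w₁_beta_jBC hwβ, coeffMap_tw, coeffMap_sigma_cm,
    units_map_sigma _ _ (hs _ (Nat.succ_pos _) hi), tw_cm_jBC_coeff]

theorem embA_none_coeff (hq : q.Prime) (E : Exp3 M q w₁ ζ) (s : ℕ → L' ≃ₐ[L] L')
    (g : FF L (M * q)) :
    (embA E s none (heckeBetaBar L (M * q) q g)).coeff (-1) = 0 := by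
  rw [embA_none, coe_heckeBetaBar, coeffMap_coeff, qExpand_coeff_of_not_dvd q _ (not_dvd_neg_one hq),
    map_zero]

theorem embA_injective (hq : q.Prime) (hζ : IsPrimitiveRoot (ζ : L') q)
    (hwβ : w₁.comp (heckeBetaBar L M q) = heckeAlphaBar L M q)
    (E : Exp3 M q w₁ ζ) (s : ℕ → L' ≃ₐ[L] L')
    (hs : ∀ k : ℕ, 1 ≤ k → k < q → s k (ζ : L') = (ζ : L') ^ k) :
    Function.Injective (embA E s) := by
  have key : ∀ i : Fin (q - 1), embA E s none ≠ embA E s (some i) := by
    intro i h
    have h1 := congrArg (fun χ : FF L (M * q * q) →+* LaurentSeries L' =>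
      (χ (heckeBetaBar L (M * q) q (heckeBetaBar L M q (jBC L M)))).coeff (-1)) h
    rw [embA_none_coeff hq, embA_some_coeff hwβ E s hs] at h1
    exact Units.ne_zero _ h1.symm
  intro i j hij
  rcases i with _ | b <;> rcases j with _ | b'
  · rfl
  · exact absurd hij (key b')
  · exact absurd hij.symm (key b)
  · have h1 := congrArg (fun χ : FF L (M * q * q) →+* LaurentSeries L' =>
      (χ (heckeBetaBar L (M * q) q (heckeBetaBar L M q (jBC L M)))).coeff (-1)) hij
    rw [embA_some_coeff hwβ E s hs, embA_some_coeff hwβ E s hs] at h1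
    have h2 : ζ ^ ((b : ℕ) + 1) = ζ ^ ((b' : ℕ) + 1) := inv_injective (Units.ext h1)
    have hb : (b : ℕ) + 1 < q := by have := b.2; omega
    have hb' : (b' : ℕ) + 1 < q := by have := b'.2; omega
    have h3 := pow_inj_of_lt hζ hb hb' h2
    exact congrArg some (Fin.ext (by omega))

theorem card_option_fin (hq : q.Prime) : Fintype.card (Option (Fin (q - 1))) = q := by
  rw [Fintype.card_option, Fintype.card_fin]
  have := hq.one_lt
  omega

/-! ### Family B: over `α₂`, extending `V_q ∘ coe ∘ w₁` -/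

/-- the base embedding of family B: `g ↦ (w₁ g)(Q^q)` with coefficients in `L'` -/
def baseB (L' : Type) [Field L'] [Algebra L L'] (w₁ : FF L (M * q) →ₐ[L] FF L (M * q)) :
    FF L (M * q) →+* LaurentSeries L' :=
  (coeffMap (algebraMap L L')).comp
    ((qExpand L q).comp ((coeH (M * q)).comp (w₁ : FF L (M * q) →+* FF L (M * q))))

theorem baseB_apply (g : FF L (M * q)) :
    baseB L' w₁ g =
      coeffMap (algebraMap L L') (qExpand L q ((w₁ g : FF L (M * q)) : LaurentSeries L)) := rfl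

/-- family B: the `q` rotations of the expansion at the cusp `0` -/
def embB (E : Exp3 M q w₁ ζ) : Fin q → (FF L (M * q * q) →+* LaurentSeries L') :=
  fun b => (tw (ζ ^ (b : ℕ))).comp ((coeffMap (algebraMap L L')).comp E.phi0)

theorem embB_apply (E : Exp3 M q w₁ ζ) (b : Fin q) (x : FF L (M * q * q)) :
    embB E b x = tw (ζ ^ (b : ℕ)) (coeffMap (algebraMap L L') (E.phi0 x)) := rfl

theorem zeta_pow_pow (hζ : IsPrimitiveRoot (ζ : L') q) (b : ℕ) : (ζ ^ b) ^ q = 1 := by
  apply Units.ext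
  rw [← pow_mul, mul_comm, pow_mul, Units.val_pow_eq_pow_val, Units.val_pow_eq_pow_val,
    hζ.pow_eq_one, one_pow, Units.val_one]

theorem embB_base (hζ : IsPrimitiveRoot (ζ : L') q) (E : Exp3 M q w₁ ζ) (b : Fin q)
    (g : FF L (M * q)) :
    embB E b (heckeAlphaBar L (M * q) q g) = baseB L' w₁ g := by
  rw [embB_apply, E.phi0_alpha, baseB_apply, Fermat.Agent.S28.coeffMap_qExpand]
  exact tw_qExpand_of_pow_eq_one _ q (zeta_pow_pow hζ b) _

theorem embB_coeff (hwβ : w₁.comp (heckeBetaBar L M q) = heckeAlphaBar L M q)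
    (E : Exp3 M q w₁ ζ) (b : Fin q) :
    (embB E b (heckeBetaBar L (M * q) q (heckeBetaBar L M q (jBC L M)))).coeff (-1) =
      (((ζ ^ (b : ℕ))⁻¹ : L'ˣ) : L') := by
  rw [embB_apply, E.phi0_beta, w₁_beta_jBC hwβ, tw_cm_jBC_coeff]

theorem embB_injective (hζ : IsPrimitiveRoot (ζ : L') q)
    (hwβ : w₁.comp (heckeBetaBar L M q) = heckeAlphaBar L M q) (E : Exp3 M q w₁ ζ) :
    Function.Injective (embB E) := by
  intro b b' hij
  have h1 := congrArg (fun χ : FF L (M * q * q) →+* LaurentSeries L' =>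
    (χ (heckeBetaBar L (M * q) q (heckeBetaBar L M q (jBC L M)))).coeff (-1)) hij
  rw [embB_coeff hwβ E, embB_coeff hwβ E] at h1
  have h2 : ζ ^ (b : ℕ) = ζ ^ (b' : ℕ) := inv_injective (Units.ext h1)
  exact Fin.ext (pow_inj_of_lt hζ b.2 b'.2 h2)

/-! ### Family C: over `β₂`, extending `V_q ∘ coe` -/

/-- the base embedding of family C: `g ↦ g(Q^q)` with coefficients in `L'` -/
def baseC (L' : Type) [Field L'] [Algebra L L'] (M q : ℕ) [NeZero q] :
    FF L (M * q) →+* LaurentSeries L' :=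
  (coeffMap (algebraMap L L')).comp ((qExpand L q).comp (coeH (M * q)))

theorem baseC_apply (g : FF L (M * q)) :
    baseC L' M q g = coeffMap (algebraMap L L') (qExpand L q (g : LaurentSeries L)) := rfl

/-- family C: the `q` rotations of the expansion at the cusp `∞` -/
def embC (L' : Type) [Field L'] [Algebra L L'] (M q : ℕ) (ζ : L'ˣ) :
    Fin q → (FF L (M * q * q) →+* LaurentSeries L') :=
  fun b => (tw (ζ ^ (b : ℕ))).comp
    ((coeffMap (algebraMap L L')).comp (coeH (M * q * q)))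

theorem embC_apply (b : Fin q) (x : FF L (M * q * q)) :
    embC L' M q ζ b x = tw (ζ ^ (b : ℕ)) (coeffMap (algebraMap L L') (x : LaurentSeries L)) :=
  rfl

theorem embC_base (hζ : IsPrimitiveRoot (ζ : L') q) (b : Fin q) (g : FF L (M * q)) :
    embC L' M q ζ b (heckeBetaBar L (M * q) q g) = baseC L' M q g := by
  rw [embC_apply, coe_heckeBetaBar, baseC_apply, Fermat.Agent.S28.coeffMap_qExpand]
  exact tw_qExpand_of_pow_eq_one _ q (zeta_pow_pow hζ b) _

theorem embC_coeff (b : Fin q) :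
    (embC L' M q ζ b (jBC L (M * q * q))).coeff (-1) = (((ζ ^ (b : ℕ))⁻¹ : L'ˣ) : L') := by
  rw [embC_apply, tw_cm_jBC_coeff]

theorem embC_injective (hζ : IsPrimitiveRoot (ζ : L') q) :
    Function.Injective (embC (L := L) L' M q ζ) := by
  intro b b' hij
  have h1 := congrArg (fun χ : FF L (M * q * q) →+* LaurentSeries L' =>
    (χ (jBC L (M * q * q))).coeff (-1)) hij
  rw [embC_coeff, embC_coeff] at h1
  have h2 : ζ ^ (b : ℕ) = ζ ^ (b' : ℕ) := inv_injective (Units.ext h1)
  exact Fin.ext (pow_inj_of_lt hζ b.2 b'.2 h2)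

/-! ### Family D: over `β₂`, extending `coe ∘ w₁` -/

/-- the base embedding of family D: `g ↦ (w₁ g)(Q)` with coefficients in `L'` -/
def baseD (L' : Type) [Field L'] [Algebra L L'] (w₁ : FF L (M * q) →ₐ[L] FF L (M * q)) :
    FF L (M * q) →+* LaurentSeries L' :=
  (coeffMap (algebraMap L L')).comp
    ((coeH (M * q)).comp (w₁ : FF L (M * q) →+* FF L (M * q)))

theorem baseD_apply (g : FF L (M * q)) :
    baseD L' w₁ g = coeffMap (algebraMap L L') ((w₁ g : FF L (M * q)) : LaurentSeries L) := rfl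

/-- family D: the expansion at the cusp `0` and the `q - 1` untwisted Galois conjugates of the
middle expansion -/
def embD (E : Exp3 M q w₁ ζ) (s : ℕ → L' ≃ₐ[L] L') :
    Option (Fin (q - 1)) → (FF L (M * q * q) →+* LaurentSeries L')
  | none => (coeffMap (algebraMap L L')).comp E.phi0
  | some i => (tw (ζ ^ ((i : ℕ) + 1))⁻¹).comp
      ((coeffMap ((s (i + 1) : L' ≃ₐ[L] L') : L' →+* L')).comp E.psi)

theorem embD_none (E : Exp3 M q w₁ ζ) (s : ℕ → L' ≃ₐ[L] L') (x : FF L (M * q * q)) :
    embD E s none x = coeffMap (algebraMap L L') (E.phi0 x) := rfl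

theorem embD_some (E : Exp3 M q w₁ ζ) (s : ℕ → L' ≃ₐ[L] L') (i : Fin (q - 1))
    (x : FF L (M * q * q)) :
    embD E s (some i) x = tw (ζ ^ ((i : ℕ) + 1))⁻¹
      (coeffMap ((s (i + 1) : L' ≃ₐ[L] L') : L' →+* L') (E.psi x)) := rfl

theorem embD_base (E : Exp3 M q w₁ ζ) (s : ℕ → L' ≃ₐ[L] L')
    (hs : ∀ k : ℕ, 1 ≤ k → k < q → s k (ζ : L') = (ζ : L') ^ k) (i : Option (Fin (q - 1)))
    (g : FF L (M * q)) :
    embD E s i (heckeBetaBar L (M * q) q g) = baseD L' w₁ g := by
  rcases i with _ | i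
  · rw [embD_none, E.phi0_beta, baseD_apply]
  · have hi : (i : ℕ) + 1 < q := by have := i.2; omega
    rw [embD_some, E.psi_beta, coeffMap_tw, coeffMap_sigma_cm,
      units_map_sigma _ _ (hs _ (Nat.succ_pos _) hi), ← tw_mul, inv_mul_cancel, tw_one,
      baseD_apply]

theorem embD_none_coeff (hq : q.Prime) (E : Exp3 M q w₁ ζ) (s : ℕ → L' ≃ₐ[L] L')
    (g : FF L (M * q)) :
    (embD E s none (heckeAlphaBar L (M * q) q g)).coeff (-1) = 0 := by
  rw [embD_none, E.phi0_alpha, coeffMap_coeff,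
    qExpand_coeff_of_not_dvd q _ (not_dvd_neg_one hq), map_zero]

theorem embD_some_coeff (E : Exp3 M q w₁ ζ) (s : ℕ → L' ≃ₐ[L] L') (i : Fin (q - 1)) :
    (embD E s (some i) (heckeAlphaBar L (M * q) q (jBC L (M * q)))).coeff (-1) =
      ((ζ ^ ((i : ℕ) + 1) : L'ˣ) : L') := by
  rw [embD_some, E.psi_alpha, coeffMap_sigma_cm, tw_cm_jBC_coeff, inv_inv]

theorem embD_injective (hq : q.Prime) (hζ : IsPrimitiveRoot (ζ : L') q)
    (E : Exp3 M q w₁ ζ) (s : ℕ → L' ≃ₐ[L] L') :
    Function.Injective (embD E s) := by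
  have key : ∀ i : Fin (q - 1), embD E s none ≠ embD E s (some i) := by
    intro i h
    have h1 := congrArg (fun χ : FF L (M * q * q) →+* LaurentSeries L' =>
      (χ (heckeAlphaBar L (M * q) q (jBC L (M * q)))).coeff (-1)) h
    rw [embD_none_coeff hq, embD_some_coeff E s] at h1
    exact Units.ne_zero _ h1.symm
  intro i j hij
  rcases i with _ | b <;> rcases j with _ | b'
  · rfl
  · exact absurd hij (key b')
  · exact absurd hij.symm (key b)
  · have h1 := congrArg (fun χ : FF L (M * q * q) →+* LaurentSeries L' =>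
      (χ (heckeAlphaBar L (M * q) q (jBC L (M * q)))).coeff (-1)) hij
    rw [embD_some_coeff E s, embD_some_coeff E s] at h1
    have h2 : ζ ^ ((b : ℕ) + 1) = ζ ^ ((b' : ℕ) + 1) := Units.ext h1
    have hb : (b : ℕ) + 1 < q := by have := b.2; omega
    have hb' : (b' : ℕ) + 1 < q := by have := b'.2; omega
    have h3 := pow_inj_of_lt hζ hb hb' h2
    exact congrArg some (Fin.ext (by omega))

theorem prod_fin_pred {β : Type*} [CommMonoid β] (hq : 1 ≤ q) (f : ℕ → β) :
    ∏ i : Fin (q - 1), f ((i : ℕ) + 1) = ∏ k ∈ Finset.Ico 1 q, f k := by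
  rw [Fin.prod_univ_eq_prod_range (fun i => f (i + 1)) (q - 1), Finset.range_eq_Ico,
    Finset.prod_Ico_add' f 0 (q - 1) 1, zero_add, Nat.sub_add_cancel hq]

end Families

/-! ### The contract statements (C0)–(C5) -/

section Contract

variable {L : Type} [Field L] [Algebra ℚ L] (M q : ℕ) [NeZero M] [NeZero q] [Fact q.Prime]
  (w₁ : FF L (M * q) →ₐ[L] FF L (M * q))
  {L' : Type} [Field L'] [Algebra L L'] (ζ : L'ˣ)

-- Over the concrete function fields the default instance search for `Module.Free` explores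
-- expensive branches once a `Module.Finite` instance is in scope; this makes it immediate.
attribute [local instance 10000] Module.Free.of_divisionRing

/-- **(C0)** degrees. -/
theorem finrank_alpha2 (ι₀ : L →+* ℂ) :
    letI := algebraAlong (heckeAlphaBar L (M * q) q)
    FiniteDimensional (FF L (M * q)) (FF L (M * q * q)) ∧
      Module.finrank (FF L (M * q)) (FF L (M * q * q)) = q :=
  DegreeDvd.finrank_alpha_of_dvd L ι₀ (M * q) q (Dvd.intro_left M rfl)

theorem finrank_beta2 (ι₀ : L →+* ℂ) :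
    letI := algebraAlong (heckeBetaBar L (M * q) q)
    FiniteDimensional (FF L (M * q)) (FF L (M * q * q)) ∧
      Module.finrank (FF L (M * q)) (FF L (M * q * q)) = q :=
  DegreeDvd.finrank_beta_of_dvd L ι₀ (M * q) q Fact.out (Dvd.intro_left M rfl)

/-- **(C1)** norm along `α₂`, expansion at `∞`. -/
theorem norm_alpha_inf (hqM : ¬ q ∣ M)
    (hwα : w₁.comp (heckeAlphaBar L M q) = heckeBetaBar L M q)
    (hwβ : w₁.comp (heckeBetaBar L M q) = heckeAlphaBar L M q) (ι₀ : L' →+* ℂ)
    (hζ : IsPrimitiveRoot (ζ : L') q) (E : Exp3 M q w₁ ζ) (σ : ℕ → (L' ≃ₐ[L] L'))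
    (hσ : ∀ k : ℕ, 1 ≤ k → k < q → σ k (ζ : L') = (ζ : L') ^ k)
    (x : FF L (M * q * q)) :
    (cL : LaurentSeries L →+* LaurentSeries L')
        ((normAlong (heckeAlphaBar L (M * q) q) x : FF L (M * q)) : LaurentSeries L) =
      (cL : LaurentSeries L →+* LaurentSeries L') (x : LaurentSeries L) *
        ∏ k ∈ Finset.Ico 1 q, coeffMap ((σ k : L' ≃ₐ[L] L') : L' →+* L') (E.psi x) := by
  have hq : q.Prime := Fact.out
  letI := algebraAlong (heckeAlphaBar L (M * q) q)
  obtain ⟨hfin, hrank⟩ := finrank_alpha2 (L := L) M q (ι₀.comp (algebraMap L L'))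
  haveI : FiniteDimensional (FF L (M * q)) (FF L (M * q * q)) := hfin
  haveI : CharZero L := algebraRat.charZero L
  haveI : CharZero (FF L (M * q)) :=
    charZero_of_injective_algebraMap (algebraMap L (FF L (M * q))).injective
  have hcard : Fintype.card (Option (Fin (q - 1))) =
      Module.finrank (FF L (M * q)) (FF L (M * q * q)) := by
    rw [hrank]; exact card_option_fin hq
  have key := Fermat.Agent.S37.Conjugates.norm_map_eq_prod (baseA L' M q) (embA E σ)
    (fun i g => embA_base E σ i g) (embA_injective hq hζ hwβ E σ hσ) hcard x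
  rw [Fintype.prod_option] at key
  rw [← prod_fin_pred hq.one_lt.le
    (fun k => coeffMap ((σ k : L' ≃ₐ[L] L') : L' →+* L') (E.psi x))]
  exact key

/-- **(C2)** norm along `α₂`, expansion at `0`. -/
theorem norm_alpha_zero (hqM : ¬ q ∣ M)
    (hwα : w₁.comp (heckeAlphaBar L M q) = heckeBetaBar L M q)
    (hwβ : w₁.comp (heckeBetaBar L M q) = heckeAlphaBar L M q) (ι₀ : L' →+* ℂ)
    (hζ : IsPrimitiveRoot (ζ : L') q) (E : Exp3 M q w₁ ζ) (σ : ℕ → (L' ≃ₐ[L] L'))
    (hσ : ∀ k : ℕ, 1 ≤ k → k < q → σ k (ζ : L') = (ζ : L') ^ k)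
    (x : FF L (M * q * q)) :
    (cL : LaurentSeries L →+* LaurentSeries L') (qExpand L q
        ((w₁ (normAlong (heckeAlphaBar L (M * q) q) x) : FF L (M * q)) : LaurentSeries L)) =
      ∏ b ∈ Finset.range q,
        tw (ζ ^ b) ((cL : LaurentSeries L →+* LaurentSeries L') (E.phi0 x)) := by
  have hq : q.Prime := Fact.out
  letI := algebraAlong (heckeAlphaBar L (M * q) q)
  obtain ⟨hfin, hrank⟩ := finrank_alpha2 (L := L) M q (ι₀.comp (algebraMap L L'))
  haveI : FiniteDimensional (FF L (M * q)) (FF L (M * q * q)) := hfin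
  haveI : CharZero L := algebraRat.charZero L
  haveI : CharZero (FF L (M * q)) :=
    charZero_of_injective_algebraMap (algebraMap L (FF L (M * q))).injective
  have hcard : Fintype.card (Fin q) = Module.finrank (FF L (M * q)) (FF L (M * q * q)) := by
    rw [hrank, Fintype.card_fin]
  have key := Fermat.Agent.S37.Conjugates.norm_map_eq_prod (baseB L' w₁) (embB E)
    (fun i g => embB_base hζ E i g) (embB_injective hζ hwβ E) hcard x
  rw [← Fin.prod_univ_eq_prod_range
    (fun b => tw (ζ ^ b) ((cL : LaurentSeries L →+* LaurentSeries L') (E.phi0 x))) q]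
  exact key

/-- **(C3)** norm along `β₂`, expansion at `∞`. -/
theorem norm_beta_inf (hqM : ¬ q ∣ M)
    (hwα : w₁.comp (heckeAlphaBar L M q) = heckeBetaBar L M q)
    (hwβ : w₁.comp (heckeBetaBar L M q) = heckeAlphaBar L M q) (ι₀ : L' →+* ℂ)
    (hζ : IsPrimitiveRoot (ζ : L') q) (E : Exp3 M q w₁ ζ) (σ : ℕ → (L' ≃ₐ[L] L'))
    (hσ : ∀ k : ℕ, 1 ≤ k → k < q → σ k (ζ : L') = (ζ : L') ^ k)
    (x : FF L (M * q * q)) :
    (cL : LaurentSeries L →+* LaurentSeries L') (qExpand L q
        ((normAlong (heckeBetaBar L (M * q) q) x : FF L (M * q)) : LaurentSeries L)) =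
      ∏ b ∈ Finset.range q,
        tw (ζ ^ b) ((cL : LaurentSeries L →+* LaurentSeries L') (x : LaurentSeries L)) := by
  have hq : q.Prime := Fact.out
  letI := algebraAlong (heckeBetaBar L (M * q) q)
  obtain ⟨hfin, hrank⟩ := finrank_beta2 (L := L) M q (ι₀.comp (algebraMap L L'))
  haveI : FiniteDimensional (FF L (M * q)) (FF L (M * q * q)) := hfin
  haveI : CharZero L := algebraRat.charZero L
  haveI : CharZero (FF L (M * q)) :=
    charZero_of_injective_algebraMap (algebraMap L (FF L (M * q))).injective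
  have hcard : Fintype.card (Fin q) = Module.finrank (FF L (M * q)) (FF L (M * q * q)) := by
    rw [hrank, Fintype.card_fin]
  have key := Fermat.Agent.S37.Conjugates.norm_map_eq_prod (baseC L' M q) (embC L' M q ζ)
    (fun i g => embC_base hζ i g) (embC_injective hζ) hcard x
  rw [← Fin.prod_univ_eq_prod_range
    (fun b => tw (ζ ^ b) ((cL : LaurentSeries L →+* LaurentSeries L') (x : LaurentSeries L))) q]
  exact key

/-- **(C4)** norm along `β₂`, expansion at `0`. -/
theorem norm_beta_zero (hqM : ¬ q ∣ M)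
    (hwα : w₁.comp (heckeAlphaBar L M q) = heckeBetaBar L M q)
    (hwβ : w₁.comp (heckeBetaBar L M q) = heckeAlphaBar L M q) (ι₀ : L' →+* ℂ)
    (hζ : IsPrimitiveRoot (ζ : L') q) (E : Exp3 M q w₁ ζ) (σ : ℕ → (L' ≃ₐ[L] L'))
    (hσ : ∀ k : ℕ, 1 ≤ k → k < q → σ k (ζ : L') = (ζ : L') ^ k)
    (x : FF L (M * q * q)) :
    (cL : LaurentSeries L →+* LaurentSeries L')
        ((w₁ (normAlong (heckeBetaBar L (M * q) q) x) : FF L (M * q)) : LaurentSeries L) =
      (cL : LaurentSeries L →+* LaurentSeries L') (E.phi0 x) *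
        ∏ k ∈ Finset.Ico 1 q,
          tw ((ζ ^ k)⁻¹) (coeffMap ((σ k : L' ≃ₐ[L] L') : L' →+* L') (E.psi x)) := by
  have hq : q.Prime := Fact.out
  letI := algebraAlong (heckeBetaBar L (M * q) q)
  obtain ⟨hfin, hrank⟩ := finrank_beta2 (L := L) M q (ι₀.comp (algebraMap L L'))
  haveI : FiniteDimensional (FF L (M * q)) (FF L (M * q * q)) := hfin
  haveI : CharZero L := algebraRat.charZero L
  haveI : CharZero (FF L (M * q)) :=
    charZero_of_injective_algebraMap (algebraMap L (FF L (M * q))).injective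
  have hcard : Fintype.card (Option (Fin (q - 1))) =
      Module.finrank (FF L (M * q)) (FF L (M * q * q)) := by
    rw [hrank]; exact card_option_fin hq
  have key := Fermat.Agent.S37.Conjugates.norm_map_eq_prod (baseD L' w₁) (embD E σ)
    (fun i g => embD_base E σ hσ i g) (embD_injective hq hζ E σ) hcard x
  rw [Fintype.prod_option] at key
  rw [← prod_fin_pred hq.one_lt.le
    (fun k => tw ((ζ ^ k)⁻¹) (coeffMap ((σ k : L' ≃ₐ[L] L') : L' →+* L') (E.psi x)))]
  exact key

/-- Cayley–Hamilton for the multiplication by `x` in a finite field extension. -/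
theorem eval₂_charpoly_mulLeft {F F' : Type*} [Field F] [Field F'] [Algebra F F']
    [FiniteDimensional F F'] (x : F') :
    ((LinearMap.mulLeft F x).charpoly).eval₂ (algebraMap F F') x = 0 := by
  have h1 := LinearMap.aeval_self_charpoly (LinearMap.mulLeft F x)
  have h2 : Polynomial.aeval (LinearMap.mulLeft F x) (LinearMap.mulLeft F x).charpoly =
      LinearMap.mulLeft F (Polynomial.aeval x (LinearMap.mulLeft F x).charpoly) :=
    Polynomial.aeval_algHom_apply (Algebra.lmul F F') x _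
  rw [h2] at h1
  have h3 := LinearMap.congr_fun h1 1
  rw [LinearMap.mulLeft_apply, mul_one, LinearMap.zero_apply] at h3
  rw [← Polynomial.aeval_def]
  exact h3

/-- **(C5)** a monic polynomial over `α₂ K₁` killing `x`, with both expansions factored. -/
theorem exists_poly_alpha (hqM : ¬ q ∣ M)
    (hwα : w₁.comp (heckeAlphaBar L M q) = heckeBetaBar L M q)
    (hwβ : w₁.comp (heckeBetaBar L M q) = heckeAlphaBar L M q) (ι₀ : L' →+* ℂ)
    (hζ : IsPrimitiveRoot (ζ : L') q) (E : Exp3 M q w₁ ζ) (σ : ℕ → (L' ≃ₐ[L] L'))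
    (hσ : ∀ k : ℕ, 1 ≤ k → k < q → σ k (ζ : L') = (ζ : L') ^ k)
    (x : FF L (M * q * q)) :
    ∃ P : (FF L (M * q))[X], P.Monic ∧
      P.eval₂ ((heckeAlphaBar L (M * q) q : FF L (M * q) →ₐ[L] FF L (M * q * q)) :
        FF L (M * q) →+* FF L (M * q * q)) x = 0 ∧
      P.map ((cL : LaurentSeries L →+* LaurentSeries L').comp (coeH (M * q))) =
        (X - C ((cL : LaurentSeries L →+* LaurentSeries L') (x : LaurentSeries L))) *
          ∏ k ∈ Finset.Ico 1 q,
            (X - C (coeffMap ((σ k : L' ≃ₐ[L] L') : L' →+* L') (E.psi x))) ∧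
      P.map ((cL : LaurentSeries L →+* LaurentSeries L').comp ((qExpand L q).comp
          ((coeH (M * q)).comp (w₁ : FF L (M * q) →+* FF L (M * q))))) =
        ∏ b ∈ Finset.range q,
          (X - C (tw (ζ ^ b) ((cL : LaurentSeries L →+* LaurentSeries L') (E.phi0 x)))) := by
  have hq : q.Prime := Fact.out
  letI := algebraAlong (heckeAlphaBar L (M * q) q)
  obtain ⟨hfin, hrank⟩ := finrank_alpha2 (L := L) M q (ι₀.comp (algebraMap L L'))
  haveI : FiniteDimensional (FF L (M * q)) (FF L (M * q * q)) := hfin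
  haveI : CharZero L := algebraRat.charZero L
  haveI : CharZero (FF L (M * q)) :=
    charZero_of_injective_algebraMap (algebraMap L (FF L (M * q))).injective
  have hcardA : Fintype.card (Option (Fin (q - 1))) =
      Module.finrank (FF L (M * q)) (FF L (M * q * q)) := by
    rw [hrank]; exact card_option_fin hq
  have hcardB : Fintype.card (Fin q) = Module.finrank (FF L (M * q)) (FF L (M * q * q)) := by
    rw [hrank, Fintype.card_fin]
  refine ⟨(LinearMap.mulLeft (FF L (M * q)) x).charpoly, LinearMap.charpoly_monic _,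
    eval₂_charpoly_mulLeft x, ?_, ?_⟩
  · have key := Fermat.Agent.S37.Conjugates.charpoly_map_eq_prod (baseA L' M q) (embA E σ)
      (fun i g => embA_base E σ i g) (embA_injective hq hζ hwβ E σ hσ) hcardA x
    rw [Fintype.prod_option] at key
    rw [← prod_fin_pred hq.one_lt.le
      (fun k => X - C (coeffMap ((σ k : L' ≃ₐ[L] L') : L' →+* L') (E.psi x)))]
    exact key
  · have key := Fermat.Agent.S37.Conjugates.charpoly_map_eq_prod (baseB L' w₁) (embB E)
      (fun i g => embB_base hζ E i g) (embB_injective hζ hwβ E) hcardB x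
    rw [← Fin.prod_univ_eq_prod_range
      (fun b => X - C (tw (ζ ^ b) ((cL : LaurentSeries L →+* LaurentSeries L') (E.phi0 x)))) q]
    exact key

/-- the twin of (C5) over `β₂ K₁`. -/
theorem exists_poly_beta (hqM : ¬ q ∣ M)
    (hwα : w₁.comp (heckeAlphaBar L M q) = heckeBetaBar L M q)
    (hwβ : w₁.comp (heckeBetaBar L M q) = heckeAlphaBar L M q) (ι₀ : L' →+* ℂ)
    (hζ : IsPrimitiveRoot (ζ : L') q) (E : Exp3 M q w₁ ζ) (σ : ℕ → (L' ≃ₐ[L] L'))
    (hσ : ∀ k : ℕ, 1 ≤ k → k < q → σ k (ζ : L') = (ζ : L') ^ k)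
    (x : FF L (M * q * q)) :
    ∃ P : (FF L (M * q))[X], P.Monic ∧
      P.eval₂ ((heckeBetaBar L (M * q) q : FF L (M * q) →ₐ[L] FF L (M * q * q)) :
        FF L (M * q) →+* FF L (M * q * q)) x = 0 ∧
      P.map ((cL : LaurentSeries L →+* LaurentSeries L').comp
          ((qExpand L q).comp (coeH (M * q)))) =
        ∏ b ∈ Finset.range q,
          (X - C (tw (ζ ^ b)
            ((cL : LaurentSeries L →+* LaurentSeries L') (x : LaurentSeries L)))) ∧
      P.map ((cL : LaurentSeries L →+* LaurentSeries L').comp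
          ((coeH (M * q)).comp (w₁ : FF L (M * q) →+* FF L (M * q)))) =
        (X - C ((cL : LaurentSeries L →+* LaurentSeries L') (E.phi0 x))) *
          ∏ k ∈ Finset.Ico 1 q,
            (X - C (tw ((ζ ^ k)⁻¹)
              (coeffMap ((σ k : L' ≃ₐ[L] L') : L' →+* L') (E.psi x)))) := by
  have hq : q.Prime := Fact.out
  letI := algebraAlong (heckeBetaBar L (M * q) q)
  obtain ⟨hfin, hrank⟩ := finrank_beta2 (L := L) M q (ι₀.comp (algebraMap L L'))
  haveI : FiniteDimensional (FF L (M * q)) (FF L (M * q * q)) := hfin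
  haveI : CharZero L := algebraRat.charZero L
  haveI : CharZero (FF L (M * q)) :=
    charZero_of_injective_algebraMap (algebraMap L (FF L (M * q))).injective
  have hcardD : Fintype.card (Option (Fin (q - 1))) =
      Module.finrank (FF L (M * q)) (FF L (M * q * q)) := by
    rw [hrank]; exact card_option_fin hq
  have hcardC : Fintype.card (Fin q) = Module.finrank (FF L (M * q)) (FF L (M * q * q)) := by
    rw [hrank, Fintype.card_fin]
  refine ⟨(LinearMap.mulLeft (FF L (M * q)) x).charpoly, LinearMap.charpoly_monic _,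
    eval₂_charpoly_mulLeft x, ?_, ?_⟩
  · have key := Fermat.Agent.S37.Conjugates.charpoly_map_eq_prod (baseC L' M q)
      (embC L' M q ζ) (fun i g => embC_base hζ i g) (embC_injective hζ) hcardC x
    rw [← Fin.prod_univ_eq_prod_range
      (fun b => X - C (tw (ζ ^ b)
        ((cL : LaurentSeries L →+* LaurentSeries L') (x : LaurentSeries L)))) q]
    exact key
  · have key := Fermat.Agent.S37.Conjugates.charpoly_map_eq_prod (baseD L' w₁) (embD E σ)
      (fun i g => embD_base E σ hσ i g) (embD_injective hq hζ E σ) hcardD x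
    rw [Fintype.prod_option] at key
    rw [← prod_fin_pred hq.one_lt.le
      (fun k => X - C (tw ((ζ ^ k)⁻¹)
        (coeffMap ((σ k : L' ≃ₐ[L] L') : L' →+* L') (E.psi x))))]
    exact key

end Contract

end Fermat.Agent.S36.Conj3
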