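/-
S36 (wave 8), K2: consequences of the cyclotomic package `VDefs.CycData W q W' ζ`.
-/
import Mathlib
import Fermat.Agent.S36.VDefs
import Fermat.Agent.S36.CycData
import Fermat.Agent.S35.EsSeries

set_option autoImplicit false
set_option linter.unusedSectionVars false
set_option linter.unusedVariables false

noncomputable section

namespace Fermat.Agent.S36.CycLemmas

open ModularCurve Fermat.Agent.S18.Gauss Fermat.Agent.S28 Fermat.Agent.S35.EsSeries
open Fermat.Agent.S36.VDefs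

variable {L : Type} [Field L] (W : ValuationSubring L) [IsDiscreteValuationRing W]
  (q : ℕ) [Fact q.Prime] [CharP (IsLocalRing.ResidueField W) q]
  {L' : Type} [Field L'] [Algebra L L'] (W' : ValuationSubring L') [IsDiscreteValuationRing W']
  (ζ : L'ˣ)

/-- (c1) the residue characteristic of `W'` is `q` -/
theorem charP_residueField (hcyc : CycData W q W' ζ) :
    CharP (IsLocalRing.ResidueField W') q := by
  have hq : q.Prime := Fact.out
  rw [CharP.charP_iff_prime_eq_zero hq]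
  have h1 : ((q : ℕ) : IsLocalRing.ResidueField W) = 0 := CharP.cast_eq_zero _ q
  have h2 : ((q : ℕ) : ↥W) ∈ IsLocalRing.maximalIdeal ↥W := by
    rw [← IsLocalRing.residue_eq_zero_iff, map_natCast]
    exact h1
  have h3 : ((q : ℕ) : ↥W') ∈ IsLocalRing.maximalIdeal ↥W' := by
    rw [IsLocalRing.mem_maximalIdeal, mem_nonunits_iff]
    intro hu
    apply (IsLocalRing.mem_maximalIdeal _).mp h2
    obtain ⟨d, hd⟩ := hu.exists_right_inv
    have hd' : ((q : ℕ) : L') * (d : L') = 1 := congrArg Subtype.val hd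
    have hq0 : ((q : ℕ) : L') ≠ 0 := left_ne_zero_of_mul_eq_one hd'
    have hqL : ((q : ℕ) : L) ≠ 0 := by
      intro h0
      apply hq0
      rw [← map_natCast (algebraMap L L'), h0, map_zero]
    have hinv : ((q : ℕ) : L)⁻¹ ∈ W := by
      rw [← hcyc.comap, map_inv₀, map_natCast, inv_eq_of_mul_eq_one_right hd']
      exact d.2
    exact IsUnit.of_mul_eq_one (⟨((q : ℕ) : L)⁻¹, hinv⟩ : ↥W) (Subtype.ext (mul_inv_cancel₀ hqL))
  rw [← map_natCast (IsLocalRing.residue ↥W'), IsLocalRing.residue_eq_zero_iff]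
  exact h3

theorem zeta_pow (hcyc : CycData W q W' ζ) : ζ ^ q = 1 :=
  Units.ext (by rw [Units.val_pow_eq_pow_val, hcyc.prim.pow_eq_one, Units.val_one])

theorem zeta_mem (hcyc : CycData W q W' ζ) : (ζ : L') ∈ W' :=
  root_mem ζ (Fact.out : q.Prime).pos (zeta_pow W q W' ζ hcyc)

/-- (c2a) `1 - ζ ∈ W'` -/
theorem one_sub_mem (hcyc : CycData W q W' ζ) : (1 - (ζ : L')) ∈ W' :=
  W'.sub_mem W'.one_mem (zeta_mem W q W' ζ hcyc)

theorem one_sub_ne_zero (hcyc : CycData W q W' ζ) : (1 - (ζ : L')) ≠ 0 := by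
  have hq : q.Prime := Fact.out
  exact sub_ne_zero.mpr (hcyc.prim.ne_one hq.one_lt).symm

/-- `1 - ζ` is not a unit of `W'` -/
theorem one_sub_mem_maximalIdeal (hcyc : CycData W q W' ζ) :
    (⟨1 - (ζ : L'), one_sub_mem W q W' ζ hcyc⟩ : ↥W') ∈ IsLocalRing.maximalIdeal ↥W' := by
  have hchar := charP_residueField W q W' ζ hcyc
  have h := map_residue_rootUnit (W := W') ζ (zeta_pow W q W' ζ hcyc)
  have h1 : IsLocalRing.residue ↥W'
      (rootUnit (W := W') ζ (Fact.out : q.Prime).pos (zeta_pow W q W' ζ hcyc) : ↥W') = 1 :=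
    congrArg Units.val h
  rw [← IsLocalRing.residue_eq_zero_iff]
  have h2 : (⟨1 - (ζ : L'), one_sub_mem W q W' ζ hcyc⟩ : ↥W') =
      1 - (rootUnit (W := W') ζ (Fact.out : q.Prime).pos (zeta_pow W q W' ζ hcyc) : ↥W') :=
    Subtype.ext rfl
  rw [h2, map_sub, map_one, h1, sub_self]

/-- the maximal ideal of `W'` is generated by `1 - ζ` -/
theorem maximalIdeal_eq (hcyc : CycData W q W' ζ) :
    IsLocalRing.maximalIdeal ↥W' =
      Ideal.span {(⟨1 - (ζ : L'), one_sub_mem W q W' ζ hcyc⟩ : ↥W')} := by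
  apply le_antisymm
  · intro x hx
    rw [Ideal.mem_span_singleton]
    rcases hcyc.unif (x : L') x.2 with hinv | ⟨y, hy, hxy⟩
    · by_cases hx0 : (x : L') = 0
      · have : x = 0 := Subtype.ext hx0
        rw [this]
        exact dvd_zero _
      · exfalso
        apply (IsLocalRing.mem_maximalIdeal _).mp hx
        exact IsUnit.of_mul_eq_one (⟨(x : L')⁻¹, hinv⟩ : ↥W') (Subtype.ext (mul_inv_cancel₀ hx0))
    · exact ⟨⟨y, hy⟩, Subtype.ext hxy⟩
  · rw [Ideal.span_singleton_le_iff_mem]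
    exact one_sub_mem_maximalIdeal W q W' ζ hcyc

/-- (c2b) `1 - ζ` is a uniformiser of `W'` -/
theorem irreducible_one_sub (hcyc : CycData W q W' ζ) :
    Irreducible (⟨1 - (ζ : L'), one_sub_mem W q W' ζ hcyc⟩ : ↥W') :=
  (IsDiscreteValuationRing.irreducible_iff_uniformizer _).mpr (maximalIdeal_eq W q W' ζ hcyc)

/-- (c3) `q = (1 - ζ) ^ (q - 1) * unit` in `W'` -/
theorem exists_unit_q (hcyc : CycData W q W' ζ) :
    ∃ u : L', u ∈ W' ∧ u⁻¹ ∈ W' ∧ ((q : ℕ) : L') = (1 - (ζ : L')) ^ (q - 1) * u := by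
  have hq : q.Prime := Fact.out
  have h0 := one_sub_ne_zero W q W' ζ hcyc
  have hv := CycData.valuation_sub_one_pow W' hq hcyc.prim
  have hv1 : W'.valuation (1 - (ζ : L')) = W'.valuation ((ζ : L') - 1) := by
    rw [← Valuation.map_neg, neg_sub]
  have hpow0 : W'.valuation (1 - (ζ : L')) ^ (q - 1) ≠ 0 :=
    pow_ne_zero _ ((W'.valuation.ne_zero_iff).mpr h0)
  have hu1 : W'.valuation (((q : ℕ) : L') / (1 - (ζ : L')) ^ (q - 1)) = 1 := by
    rw [map_div₀, map_pow, ← hv, hv1]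
    exact div_self (hv1 ▸ hpow0)
  refine ⟨((q : ℕ) : L') / (1 - (ζ : L')) ^ (q - 1), ?_, ?_, ?_⟩
  · rw [← W'.valuation_le_one_iff, hu1]
  · rw [← W'.valuation_le_one_iff, map_inv₀, hu1, inv_one]
  · field_simp

/-- `σ` maps the maximal ideal of `W'` into itself -/
theorem gal_mem_nonunits (hcyc : CycData W q W' ζ) (σ : L' ≃ₐ[L] L') (k : ℕ)
    (hσ : σ (ζ : L') = (ζ : L') ^ k) (hσW : ∀ x ∈ W', σ x ∈ W') (y : L') (hy : y ∈ W') :
    ∃ z ∈ W', σ ((1 - (ζ : L')) * y) = (1 - (ζ : L')) * z := by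
  have hζ := zeta_mem W q W' ζ hcyc
  refine ⟨(∑ i ∈ Finset.range k, (ζ : L') ^ i) * σ y, ?_, ?_⟩
  · exact W'.mul_mem _ _ (sum_mem fun i _ => pow_mem hζ i) (hσW y hy)
  · rw [map_mul, map_sub, map_one, hσ, ← mul_assoc]
    congr 1
    have := mul_geom_sum (ζ : L') k
    rw [← neg_sub, ← this]
    ring

/-- (c4a) the automorphisms `σ_k` preserve `W'` in both directions -/
theorem mem_iff_of_gal (hcyc : CycData W q W' ζ) (σ : L' ≃ₐ[L] L') (k : ℕ)
    (hσ : σ (ζ : L') = (ζ : L') ^ k) (hσW : ∀ x ∈ W', σ x ∈ W') (c : L') :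
    c ∈ W' ↔ (σ : L' →+* L') c ∈ W' := by
  refine ⟨fun h => hσW c h, fun h => ?_⟩
  by_contra hc
  have hc0 : c ≠ 0 := by
    rintro rfl
    exact hc W'.zero_mem
  have hcinv : c⁻¹ ∈ W' := (W'.mem_or_inv_mem c).resolve_left hc
  rcases hcyc.unif c⁻¹ hcinv with hinv | ⟨y, hy, hxy⟩
  · rw [inv_inv] at hinv
    exact hc hinv
  · obtain ⟨z, hz, hσz⟩ := gal_mem_nonunits W q W' ζ hcyc σ k hσ hσW y hy
    rw [← hxy] at hσz
    -- `σ c * ((1 - ζ) * z) = 1` makes `1 - ζ` a unit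
    have h1 : (σ : L' →+* L') c * ((1 - (ζ : L')) * z) = 1 := by
      rw [← hσz]
      show σ c * σ c⁻¹ = 1
      rw [← map_mul, mul_inv_cancel₀ hc0, map_one]
    have hunit : IsUnit (⟨1 - (ζ : L'), one_sub_mem W q W' ζ hcyc⟩ : ↥W') := by
      refine IsUnit.of_mul_eq_one (⟨(σ : L' →+* L') c, h⟩ * ⟨z, hz⟩ : ↥W') (Subtype.ext ?_)
      show (1 - (ζ : L')) * ((σ : L' →+* L') c * z) = 1
      linear_combination h1
    exact (IsLocalRing.mem_maximalIdeal _).mp (one_sub_mem_maximalIdeal W q W' ζ hcyc) hunit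

/-- the residue map induced by `σ_k` is the identity -/
theorem resMap_gal (hcyc : CycData W q W' ζ) (σ : L' ≃ₐ[L] L') (k : ℕ)
    (hσ : σ (ζ : L') = (ζ : L') ^ k) (hσW : ∀ x ∈ W', σ x ∈ W') :
    Fermat.Agent.S37.LevelChange.resMap (σ : L' →+* L') W' W'
      (mem_iff_of_gal W q W' ζ hcyc σ k hσ hσW) = RingHom.id _ := by
  apply RingHom.ext
  intro r
  obtain ⟨x, rfl⟩ := IsLocalRing.residue_surjective r
  rw [Fermat.Agent.S37.LevelChange.resMap_residue, RingHom.id_apply]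
  rw [← sub_eq_zero, ← map_sub, IsLocalRing.residue_eq_zero_iff, maximalIdeal_eq W q W' ζ hcyc,
    Ideal.mem_span_singleton]
  obtain ⟨y, hy, z, hz, hxyz⟩ := hcyc.res (x : L') x.2
  obtain ⟨z', hz', hσz⟩ := gal_mem_nonunits W q W' ζ hcyc σ k hσ hσW z hz
  refine ⟨⟨z' - z, W'.sub_mem hz' hz⟩, Subtype.ext ?_⟩
  show (σ : L' →+* L') (x : L') - (x : L') = (1 - (ζ : L')) * (z' - z)
  have hx : (x : L') = algebraMap L L' y + (1 - (ζ : L')) * z := by
    rw [← hxyz]; ring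
  have h1 : (σ : L' →+* L') (x : L') = algebraMap L L' y + (1 - (ζ : L')) * z' := by
    conv_lhs => rw [hx]
    show σ (algebraMap L L' y + (1 - (ζ : L')) * z) = _
    rw [map_add, AlgEquiv.commutes, hσz]
  rw [h1]
  conv_lhs => rw [hx]
  ring

/-- (c4b) the coefficientwise action of `σ_k` preserves units of the content ring of `W'`
together with their reductions (the residue extension is trivial) -/
theorem isU_coeffMap_of_gal (hcyc : CycData W q W' ζ) (σ : L' ≃ₐ[L] L') (k : ℕ)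
    (hσ : σ (ζ : L') = (ζ : L') ^ k) (hσW : ∀ x ∈ W', σ x ∈ W')
    (u : LaurentSeries L') (r : LaurentSeries (IsLocalRing.ResidueField W'))
    (h : IsU W' u r) : IsU W' (coeffMap (σ : L' →+* L') u) r := by
  have h1 := h.cmap (σ : L' →+* L') (mem_iff_of_gal W q W' ζ hcyc σ k hσ hσW)
  rw [resMap_gal W q W' ζ hcyc σ k hσ hσW, coeffMap_id] at h1
  exact h1

/-- (c4c) … and the content ring itself -/
theorem coeffMap_mem_of_gal (hcyc : CycData W q W' ζ) (σ : L' ≃ₐ[L] L') (k : ℕ)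
    (hσ : σ (ζ : L') = (ζ : L') ^ k) (hσW : ∀ x ∈ W', σ x ∈ W')
    (u : LaurentSeries L') (h : u ∈ contentRing W') :
    coeffMap (σ : L' →+* L') u ∈ contentRing W' :=
  Fermat.Agent.S37.LevelChange.coeffMap_mem_contentRing (σ : L' →+* L') W' W'
    (mem_iff_of_gal W q W' ζ hcyc σ k hσ hσW) h

end Fermat.Agent.S36.CycLemmas
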