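/-
S36 (wave 8), K2: the two further expansions of `VDefs.Exp3` take values in the fields of
quotients of integral series.

* `qExpand_mem_fracInt`, `tw_mem_fracInt`, `coeffMap_mem_fracInt`: the substitution `Q ↦ Q ^ d`,
  the twist by a root of unity and coefficient extension preserve quotients of integral series.
* `forall_mem_of_alpha_beta`: a subfield of `FF L (M q²)` containing `α₂ K₁` and `β₂ K₁` is
  everything (every divisor of `M q · q` divides `M q` or is `e · q` with `e ∣ M q`).
* `phi0_mem_fracInt` (e1), `psi_mem_fracInt` (e2), `phi0_algebraMap`, `psi_algebraMap` (e3).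
-/
import Mathlib
import Fermat.Agent.S36.VDefs
import Fermat.Agent.S35.EsSeries
import Fermat.Agent.S36.AtkinSq

set_option autoImplicit false
set_option linter.unusedSectionVars false
set_option linter.unusedVariables false

noncomputable section

namespace Fermat.Agent.S36.Exp3Lemmas

open ModularCurve Fermat.Agent.S18.Gauss Fermat.Agent.S28 Fermat.Agent.S35.EsSeries
open Fermat.Agent.S24 Fermat.Agent.S36.VDefs

/-! ### Operations on series preserving quotients of integral series -/

section Series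

variable {L : Type*} [Field L] (W : ValuationSubring L)

/-- `Q ↦ Q ^ d` preserves `fracInt W` -/
theorem qExpand_mem_fracInt (d : ℕ) [NeZero d] {f : LaurentSeries L} (hf : f ∈ fracInt W) :
    qExpand L d f ∈ fracInt W := by
  obtain ⟨x, y, hy, h⟩ := hf
  refine ⟨qExpand _ d x, qExpand _ d y, ?_, ?_⟩
  · exact fun h0 => hy (qExpand_injective d (by rw [h0, map_zero]))
  · rw [toL_qExpand, toL_qExpand, ← map_mul, h]

/-- the twist by a root of unity preserves `fracInt W` -/
theorem tw_mem_fracInt (ζ : Lˣ) {q : ℕ} (hq : 0 < q) (hζ : ζ ^ q = 1) {f : LaurentSeries L}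
    (hf : f ∈ fracInt W) : tw ζ f ∈ fracInt W := by
  obtain ⟨x, y, hy, h⟩ := hf
  have hL : ∀ z : LaurentSeries W,
      toL W (tw (rootUnit (W := W) ζ hq hζ) z) = tw ζ (toL W z) := by
    intro z
    show coeffMap W.subtype (tw (rootUnit (W := W) ζ hq hζ) z) = tw ζ (toL W z)
    rw [coeffMap_tw]
    rfl
  refine ⟨tw (rootUnit (W := W) ζ hq hζ) x, tw (rootUnit (W := W) ζ hq hζ) y, ?_, ?_⟩
  · exact fun h0 => hy (tw_injective _ (by rw [h0, map_zero]))
  · rw [hL, hL, ← map_mul, h]

/-- coefficient extension maps `fracInt W₀` into `fracInt W` -/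
theorem coeffMap_mem_fracInt {L₀ : Type*} [Field L₀] (τ : L₀ →+* L) (W₀ : ValuationSubring L₀)
    (hW : ∀ c : L₀, c ∈ W₀ ↔ τ c ∈ W) {f : LaurentSeries L₀} (hf : f ∈ fracInt W₀) :
    coeffMap τ f ∈ fracInt W := by
  obtain ⟨x, y, hy, h⟩ := hf
  refine ⟨coeffMap (Fermat.Agent.S37.LevelChange.incl τ W₀ W hW) x,
    coeffMap (Fermat.Agent.S37.LevelChange.incl τ W₀ W hW) y, ?_, ?_⟩
  · intro h0
    apply hy
    apply Fermat.Agent.S28.Descent.coeffMap_injective _
      (Fermat.Agent.S37.LevelChange.incl_injective τ W₀ W hW)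
    rw [h0, map_zero]
  · rw [Fermat.Agent.S37.LevelChange.toL_coeffMap_incl,
      Fermat.Agent.S37.LevelChange.toL_coeffMap_incl, ← h, map_mul]

end Series

/-! ### Generation of `FF L (M q²)` by `α₂ K₁ ∪ β₂ K₁` -/

/-- a subfield of `FF L (M q²)` containing `α₂ K₁` and `β₂ K₁` is everything -/
theorem forall_mem_of_alpha_beta {L : Type*} [Field L] [Algebra ℚ L] (M q : ℕ) [NeZero M]
    [NeZero q] (hq : q.Prime) (S : Subfield (FF L (M * q * q)))
    (hα : ∀ b : FF L (M * q), heckeAlphaBar L (M * q) q b ∈ S)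
    (hβ : ∀ b : FF L (M * q), heckeBetaBar L (M * q) q b ∈ S) (x : FF L (M * q * q)) :
    x ∈ S := by
  let E : IntermediateField L (FF L (M * q * q)) :=
    S.toIntermediateField (fun c => by
      have h1 : algebraMap L (FF L (M * q * q)) c =
          heckeAlphaBar L (M * q) q (algebraMap L (FF L (M * q)) c) :=
        (AlgHom.commutes _ c).symm
      rw [h1]
      exact hα _)
  have hE : E = ⊤ := by
    apply Fermat.Agent.S37.AtkinLehner.eq_top_of_jser_mem
    intro d hd y hy
    show y ∈ S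
    obtain ⟨a, b, ha, hb, rfl⟩ := (Nat.dvd_mul).mp hd
    have hMq : M * q ≠ 0 := NeZero.ne _
    have ha0 : a ≠ 0 := fun h => hMq (by rw [h] at ha; exact Nat.eq_zero_of_zero_dvd ha)
    let y₀ : FF L (M * q) :=
      ⟨Fermat.Agent.S37.AtkinLehner.jser L a,
        Fermat.Agent.S37.AtkinLehner.jser_mem L (M * q) a hMq ha⟩
    rcases (Nat.dvd_prime hq).mp hb with hb1 | hbq
    · have : y = heckeAlphaBar L (M * q) q y₀ := by
        apply Subtype.ext
        rw [hy, coe_heckeAlphaBar, hb1, mul_one]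
      rw [this]
      exact hα _
    · have : y = heckeBetaBar L (M * q) q y₀ := by
        apply Subtype.ext
        rw [hy, coe_heckeBetaBar, hbq]
        exact (Fermat.Agent.S36.AtkinSq.qExpand_jser q a ha0).symm
      rw [this]
      exact hβ _
  have hx : x ∈ E := by
    rw [hE]
    exact IntermediateField.mem_top
  exact hx

/-! ### The contract lemmas -/

variable {L : Type} [Field L] [Algebra ℚ L] (W : ValuationSubring L) [IsDiscreteValuationRing W]
  (M q : ℕ) [NeZero M] [NeZero q] [Fact q.Prime]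
  (w₁ : FF L (M * q) →ₐ[L] FF L (M * q))
  {L' : Type} [Field L'] [Algebra L L'] (W' : ValuationSubring L') [IsDiscreteValuationRing W']
  (ζ : L'ˣ)

/-- (e1) the expansion at the cusp `0` lands in `fracInt W` -/
theorem phi0_mem_fracInt (E : Exp3 M q w₁ ζ) (x : FF L (M * q * q)) :
    E.phi0 x ∈ fracInt W := by
  have hq : q.Prime := Fact.out
  refine forall_mem_of_alpha_beta M q hq ((fracInt W).comap E.phi0) ?_ ?_ x
  · intro b
    show E.phi0 (heckeAlphaBar L (M * q) q b) ∈ fracInt W
    rw [E.phi0_alpha]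
    exact qExpand_mem_fracInt W q (Fermat.Agent.S34.TwoGauss.coe_mem_fracInt W (M * q) (w₁ b))
  · intro b
    show E.phi0 (heckeBetaBar L (M * q) q b) ∈ fracInt W
    rw [E.phi0_beta]
    exact Fermat.Agent.S34.TwoGauss.coe_mem_fracInt W (M * q) (w₁ b)

/-- (e2) the middle expansion lands in `fracInt W'` -/
theorem psi_mem_fracInt [CharP (IsLocalRing.ResidueField W') q]
    (hWW' : ∀ c : L, c ∈ W ↔ algebraMap L L' c ∈ W') (hζ : (ζ : L') ^ q = 1)
    (E : Exp3 M q w₁ ζ) (x : FF L (M * q * q)) :
    E.psi x ∈ fracInt W' := by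
  have hq : q.Prime := Fact.out
  have hζ' : ζ ^ q = 1 := Units.ext (by rw [Units.val_pow_eq_pow_val, hζ, Units.val_one])
  refine forall_mem_of_alpha_beta M q hq ((fracInt W').comap E.psi) ?_ ?_ x
  · intro b
    show E.psi (heckeAlphaBar L (M * q) q b) ∈ fracInt W'
    rw [E.psi_alpha]
    exact coeffMap_mem_fracInt W' (algebraMap L L') W hWW'
      (Fermat.Agent.S34.TwoGauss.coe_mem_fracInt W (M * q) b)
  · intro b
    show E.psi (heckeBetaBar L (M * q) q b) ∈ fracInt W'
    rw [E.psi_beta]
    exact tw_mem_fracInt W' ζ hq.pos hζ' (coeffMap_mem_fracInt W' (algebraMap L L') W hWW'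
      (Fermat.Agent.S34.TwoGauss.coe_mem_fracInt W (M * q) (w₁ b)))

/-- (e3) constants: `phi0` is `L`-linear -/
theorem phi0_algebraMap (E : Exp3 M q w₁ ζ) (c : L) :
    E.phi0 (algebraMap L (FF L (M * q * q)) c) = HahnSeries.C c := by
  have h1 : algebraMap L (FF L (M * q * q)) c =
      heckeAlphaBar L (M * q) q (algebraMap L (FF L (M * q)) c) :=
    (AlgHom.commutes _ c).symm
  rw [h1, E.phi0_alpha, AlgHom.commutes]
  show qExpand L q (algebraMap L (LaurentSeries L) c) = HahnSeries.C c
  rw [Fermat.Agent.S28.Content.algebraMap_eq_C_of_field, qExpand_C]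

/-- (e3) constants: `psi` is `L`-linear -/
theorem psi_algebraMap (E : Exp3 M q w₁ ζ) (c : L) :
    E.psi (algebraMap L (FF L (M * q * q)) c) = HahnSeries.C (algebraMap L L' c) := by
  have h1 : algebraMap L (FF L (M * q * q)) c =
      heckeAlphaBar L (M * q) q (algebraMap L (FF L (M * q)) c) :=
    (AlgHom.commutes _ c).symm
  rw [h1, E.psi_alpha]
  show coeffMap (algebraMap L L') (algebraMap L (LaurentSeries L) c) = _
  rw [Fermat.Agent.S28.Content.algebraMap_eq_C_of_field, Fermat.Agent.S28.Descent.coeffMap_C]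

end Fermat.Agent.S36.Exp3Lemmas
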