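/-
S36 (wave 8), contract K2/K3, series part: normalised residues.

`W ⊆ K` a valuation ring, `c ∈ K` a nonzero element of the maximal ideal of `W` (the normaliser:
the constant `q`, or a uniformiser).  A Laurent series `y ∈ K((Q))` is *normalised* if
`y = C c ^ n * u` with `u` a unit of the content ring of `W`; `n` (the normalised valuation) and
the reduction `r` of `u` (the normalised residue) are then unique.

* `IsN W c y n r`, with `IsN.mul`, `IsN.inv`, `IsN.pow`, `IsN.prod`, `IsN.unique`, `IsN.map`;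
* `nval W c y`, `nres W c y` : the normalised valuation / residue as total functions.
-/
import Mathlib
import Fermat.Agent.S35.EsSeries
import Fermat.Agent.S34.TwoGauss

set_option autoImplicit false
set_option linter.unusedSectionVars false

noncomputable section

namespace Fermat.Agent.S36.NRes

open ModularCurve Fermat.Agent.S18.Gauss Fermat.Agent.S28 Fermat.Agent.S35.EsSeries

variable {K : Type*} [Field K] (W : ValuationSubring K)

/-- `y = C c ^ n * u` with `u` a unit of the content ring of reduction `r`. -/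
def IsN (c : K) (y : LaurentSeries K) (n : ℤ)
    (r : LaurentSeries (IsLocalRing.ResidueField W)) : Prop :=
  ∃ u : LaurentSeries K, IsU W u r ∧ y = HahnSeries.C c ^ n * u

variable {W} {c : K}

theorem IsN.ne_zero (hc : c ≠ 0) {y : LaurentSeries K} {n : ℤ}
    {r : LaurentSeries (IsLocalRing.ResidueField W)} (h : IsN W c y n r) : y ≠ 0 := by
  obtain ⟨u, hu, rfl⟩ := h
  exact mul_ne_zero (zpow_ne_zero _ (HahnSeries.C_ne_zero hc)) hu.ne_zero

theorem IsN.res_ne_zero {y : LaurentSeries K} {n : ℤ}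
    {r : LaurentSeries (IsLocalRing.ResidueField W)} (h : IsN W c y n r) : r ≠ 0 := by
  obtain ⟨u, hu, rfl⟩ := h
  exact hu.2.2

theorem isN_one : IsN W c (1 : LaurentSeries K) 0 1 :=
  ⟨1, isU_one, by rw [zpow_zero, one_mul]⟩

theorem isN_of_isU {u : LaurentSeries K} {r : LaurentSeries (IsLocalRing.ResidueField W)}
    (h : IsU W u r) : IsN W c u 0 r :=
  ⟨u, h, by rw [zpow_zero, one_mul]⟩

theorem isN_C_zpow (n : ℤ) : IsN W c (HahnSeries.C c ^ n : LaurentSeries K) n 1 :=
  ⟨1, isU_one, by rw [mul_one]⟩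

theorem IsN.mul (hc : c ≠ 0) {y y' : LaurentSeries K} {n n' : ℤ}
    {r r' : LaurentSeries (IsLocalRing.ResidueField W)} (h : IsN W c y n r)
    (h' : IsN W c y' n' r') : IsN W c (y * y') (n + n') (r * r') := by
  obtain ⟨u, hu, rfl⟩ := h
  obtain ⟨u', hu', rfl⟩ := h'
  refine ⟨u * u', hu.mul hu', ?_⟩
  rw [zpow_add₀ (HahnSeries.C_ne_zero hc)]
  ring

theorem IsN.inv {y : LaurentSeries K} {n : ℤ}
    {r : LaurentSeries (IsLocalRing.ResidueField W)} (h : IsN W c y n r) :
    IsN W c y⁻¹ (-n) r⁻¹ := by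
  obtain ⟨u, hu, rfl⟩ := h
  refine ⟨u⁻¹, hu.inv, ?_⟩
  rw [mul_inv, zpow_neg]

theorem IsN.pow (hc : c ≠ 0) {y : LaurentSeries K} {n : ℤ}
    {r : LaurentSeries (IsLocalRing.ResidueField W)} (h : IsN W c y n r) (k : ℕ) :
    IsN W c (y ^ k) ((k : ℤ) * n) (r ^ k) := by
  induction k with
  | zero => simpa using isN_one (W := W) (c := c)
  | succ k ih =>
    have h1 := ih.mul hc h
    rw [pow_succ, pow_succ]
    have e : ((k + 1 : ℕ) : ℤ) * n = (k : ℤ) * n + n := by push_cast; ring
    rw [e]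
    exact h1

theorem IsN.prod (hc : c ≠ 0) {ι : Type*} (s : Finset ι) (f : ι → LaurentSeries K) {n : ℤ}
    {r : LaurentSeries (IsLocalRing.ResidueField W)} (h : ∀ i ∈ s, IsN W c (f i) n r) :
    IsN W c (∏ i ∈ s, f i) ((s.card : ℤ) * n) (r ^ s.card) := by
  classical
  induction s using Finset.induction_on with
  | empty => simpa using isN_one (W := W) (c := c)
  | insert a s ha ih =>
    rw [Finset.prod_insert ha, Finset.card_insert_of_notMem ha]
    have h1 := (h a (Finset.mem_insert_self a s)).mul hc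
      (ih fun i hi => h i (Finset.mem_insert_of_mem hi))
    have e : ((s.card + 1 : ℕ) : ℤ) * n = n + (s.card : ℤ) * n := by push_cast; ring
    rw [e, pow_succ, mul_comm (r ^ s.card) r]
    exact h1

/-- ring endomorphisms preserving units of the content ring with their reductions, and fixing the
normaliser, preserve normalised series. -/
theorem IsN.map (Φ : LaurentSeries K →+* LaurentSeries K)
    (hΦ : ∀ (u : LaurentSeries K) (r : LaurentSeries (IsLocalRing.ResidueField W)),
      IsU W u r → IsU W (Φ u) r)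
    (hΦc : Φ (HahnSeries.C c) = HahnSeries.C c) {y : LaurentSeries K} {n : ℤ}
    {r : LaurentSeries (IsLocalRing.ResidueField W)} (h : IsN W c y n r) :
    IsN W c (Φ y) n r := by
  obtain ⟨u, hu, rfl⟩ := h
  refine ⟨Φ u, hΦ u r hu, ?_⟩
  rw [map_mul, map_zpow₀, hΦc]

/-- the reduction of a multiple of the normaliser vanishes -/
theorem red_C_mul_eq_zero (hcW : c ∈ W) (hres : IsLocalRing.residue W ⟨c, hcW⟩ = 0)
    {v : LaurentSeries K} (hv : v ∈ contentRing W)
    (hmem : HahnSeries.C c * v ∈ contentRing W) :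
    red W ⟨HahnSeries.C c * v, hmem⟩ = 0 := by
  have h1 : (⟨HahnSeries.C c * v, hmem⟩ : contentRing W) =
      ⟨HahnSeries.C c, C_mem_contentRing W ⟨c, hcW⟩⟩ * ⟨v, hv⟩ := rfl
  rw [h1, map_mul, red_C W ⟨c, hcW⟩, hres, map_zero, zero_mul]

theorem IsN.unique_aux (hc : c ≠ 0) (hcW : c ∈ W)
    (hres : IsLocalRing.residue W ⟨c, hcW⟩ = 0) {y : LaurentSeries K} {n n' : ℤ}
    {r r' : LaurentSeries (IsLocalRing.ResidueField W)} (h : IsN W c y n r)
    (h' : IsN W c y n' r') : ¬ n < n' := by
  intro hlt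
  obtain ⟨u, hu, rfl⟩ := h
  obtain ⟨u', hu', h2⟩ := h'
  have hC : (HahnSeries.C c : LaurentSeries K) ≠ 0 := HahnSeries.C_ne_zero hc
  obtain ⟨m, hm⟩ : ∃ m : ℕ, n' = n + 1 + m := ⟨(n' - n - 1).toNat, by omega⟩
  have h3 : u = HahnSeries.C c * (HahnSeries.C c ^ m * u') := by
    have h4 : HahnSeries.C c ^ n * u =
        HahnSeries.C c ^ n * (HahnSeries.C c * (HahnSeries.C c ^ m * u')) := by
      rw [h2, hm, zpow_add₀ hC, zpow_add₀ hC, zpow_one, zpow_natCast]
      ring
    exact mul_left_cancel₀ (zpow_ne_zero _ hC) h4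
  have hv : HahnSeries.C c ^ m * u' ∈ contentRing W :=
    mul_mem (pow_mem (C_mem_contentRing W ⟨c, hcW⟩) m) hu'.mem
  obtain ⟨hmem, hr, hr0⟩ := hu
  apply hr0
  rw [← hr]
  have hmem' : HahnSeries.C c * (HahnSeries.C c ^ m * u') ∈ contentRing W := by
    rw [← h3]; exact hmem
  have h5 : (⟨u, hmem⟩ : contentRing W) =
      ⟨HahnSeries.C c * (HahnSeries.C c ^ m * u'), hmem'⟩ := Subtype.ext h3
  rw [h5]
  exact red_C_mul_eq_zero hcW hres hv hmem'

/-- the normalised valuation and residue are unique -/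
theorem IsN.unique (hc : c ≠ 0) (hcW : c ∈ W)
    (hres : IsLocalRing.residue W ⟨c, hcW⟩ = 0) {y : LaurentSeries K} {n n' : ℤ}
    {r r' : LaurentSeries (IsLocalRing.ResidueField W)} (h : IsN W c y n r)
    (h' : IsN W c y n' r') : n = n' ∧ r = r' := by
  have h1 := IsN.unique_aux hc hcW hres h h'
  have h2 := IsN.unique_aux hc hcW hres h' h
  have hn : n = n' := by omega
  subst hn
  refine ⟨rfl, ?_⟩
  obtain ⟨u, hu, rfl⟩ := h
  obtain ⟨u', hu', h3⟩ := h'
  have hC : (HahnSeries.C c : LaurentSeries K) ≠ 0 := HahnSeries.C_ne_zero hc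
  have h4 : u = u' := mul_left_cancel₀ (zpow_ne_zero _ hC) h3
  subst h4
  exact hu.unique hu'

variable (W c)

open Classical in
/-- the normalised valuation (`0` if the series is not normalised) -/
def nval (y : LaurentSeries K) : ℤ :=
  if h : ∃ (n : ℤ) (r : LaurentSeries (IsLocalRing.ResidueField W)), IsN W c y n r
  then h.choose else 0

open Classical in
/-- the normalised residue (`0` if the series is not normalised) -/
def nres (y : LaurentSeries K) : LaurentSeries (IsLocalRing.ResidueField W) :=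
  if h : ∃ (n : ℤ) (r : LaurentSeries (IsLocalRing.ResidueField W)), IsN W c y n r
  then h.choose_spec.choose else 0

variable {W c}

theorem isN_nval_nres {y : LaurentSeries K}
    (h : ∃ (n : ℤ) (r : LaurentSeries (IsLocalRing.ResidueField W)), IsN W c y n r) :
    IsN W c y (nval W c y) (nres W c y) := by
  unfold nval nres
  rw [dif_pos h, dif_pos h]
  exact h.choose_spec.choose_spec

theorem IsN.nval_eq (hc : c ≠ 0) (hcW : c ∈ W)
    (hres : IsLocalRing.residue W ⟨c, hcW⟩ = 0) {y : LaurentSeries K} {n : ℤ}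
    {r : LaurentSeries (IsLocalRing.ResidueField W)} (h : IsN W c y n r) : nval W c y = n :=
  ((isN_nval_nres ⟨n, r, h⟩).unique hc hcW hres h).1

theorem IsN.nres_eq (hc : c ≠ 0) (hcW : c ∈ W)
    (hres : IsLocalRing.residue W ⟨c, hcW⟩ = 0) {y : LaurentSeries K} {n : ℤ}
    {r : LaurentSeries (IsLocalRing.ResidueField W)} (h : IsN W c y n r) : nres W c y = r :=
  ((isN_nval_nres ⟨n, r, h⟩).unique hc hcW hres h).2

end Fermat.Agent.S36.NRes
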