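import Mathlib
import Fermat.Agent.S36.Conj3
import Fermat.Agent.S36.ConstPow

/-!
# S36 (wave 8), K2: the six expansion rules of `A = α₂ ∘ N_α` and `B = β₂ ∘ N_β`

`F = FF L (M q²)`, `α₂ β₂ : FF L (M q) → F`, `N_α`, `N_β` the norms (`S35.EsOrd.normAlong`),
`E : Exp3 M q w₁ ζ` the two further expansions.  For `x : F` write

`x₁ = cL (coe x)`, `x₂ = E.psi x`, `x₃ = cL (E.phi0 x)`   (all in `L'((Q))`),
`prodA x = x₁ * ∏_{k=1}^{q-1} σ_k x₂`,  `prodB x = x₃ * ∏_{k=1}^{q-1} tw ζ^{-k} (σ_k x₂)`.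

Direct corollaries of `S36.Conj3` (C1)–(C4) and the four fields of `Exp3`:

* `A_inf`  : `(A x)₁ = prodA x`        `A_mid` : `(A x)₂ = prodA x`
  `A_zero` : `(A x)₃ = ∏_{b<q} tw ζ^b x₃`
* `B_inf`  : `(B x)₁ = ∏_{b<q} tw ζ^b x₁`   `B_mid` : `(B x)₂ = tw ζ (prodB x)`
  `B_zero` : `(B x)₃ = prodB x`
* `omega_inf`, `omega_mid`, `omega_zero` : the three expansions of `Ω x = A x * B x`
  (`S36.ConstPow.omega`).
-/

set_option autoImplicit false
set_option linter.unusedSectionVars false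
set_option linter.unusedVariables false

noncomputable section

namespace Fermat.Agent.S36.Omega3

open ModularCurve AlgebraicCurve Polynomial Fermat.Agent.S28
open Fermat.Agent.S24 Fermat.Agent.S36.VDefs Fermat.Agent.S35.EsOrd Fermat.Agent.S36.Conj3

variable {L : Type} [Field L] [Algebra ℚ L] (M q : ℕ) [NeZero M] [NeZero q] [Fact q.Prime]
  (w₁ : FF L (M * q) →ₐ[L] FF L (M * q))
  {L' : Type} [Field L'] [Algebra L L'] (ζ : L'ˣ)

/-- `x₁ * ∏_{k=1}^{q-1} σ_k x₂`: the common value of the expansions of `A x` at `∞` and at the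
middle cusp. -/
def prodA (E : Exp3 M q w₁ ζ) (σ : ℕ → (L' ≃ₐ[L] L')) (x : FF L (M * q * q)) :
    LaurentSeries L' :=
  (cL : LaurentSeries L →+* LaurentSeries L') (x : LaurentSeries L) *
    ∏ k ∈ Finset.Ico 1 q, coeffMap ((σ k : L' ≃ₐ[L] L') : L' →+* L') (E.psi x)

/-- `x₃ * ∏_{k=1}^{q-1} tw ζ^{-k} (σ_k x₂)`: the expansion of `B x` at `0`. -/
def prodB (E : Exp3 M q w₁ ζ) (σ : ℕ → (L' ≃ₐ[L] L')) (x : FF L (M * q * q)) :
    LaurentSeries L' :=
  (cL : LaurentSeries L →+* LaurentSeries L') (E.phi0 x) *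
    ∏ k ∈ Finset.Ico 1 q,
      tw ((ζ ^ k)⁻¹) (coeffMap ((σ k : L' ≃ₐ[L] L') : L' →+* L') (E.psi x))

section Rules

variable (hqM : ¬ q ∣ M)
  (hwα : w₁.comp (heckeAlphaBar L M q) = heckeBetaBar L M q)
  (hwβ : w₁.comp (heckeBetaBar L M q) = heckeAlphaBar L M q) (ι₀ : L' →+* ℂ)
  (hζ : IsPrimitiveRoot (ζ : L') q) (E : Exp3 M q w₁ ζ) (σ : ℕ → (L' ≃ₐ[L] L'))
  (hσ : ∀ k : ℕ, 1 ≤ k → k < q → σ k (ζ : L') = (ζ : L') ^ k)
  (x : FF L (M * q * q))

include hqM hwα hwβ ι₀ hζ E hσ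

/-- **(A1)** the expansion at `∞` of `A x = α₂ (N_α x)`. -/
theorem A_inf :
    (cL : LaurentSeries L →+* LaurentSeries L')
        ((heckeAlphaBar L (M * q) q (normAlong (heckeAlphaBar L (M * q) q) x) :
          FF L (M * q * q)) : LaurentSeries L) = prodA M q w₁ ζ E σ x := by
  rw [coe_heckeAlphaBar]
  exact norm_alpha_inf M q w₁ ζ hqM hwα hwβ ι₀ hζ E σ hσ x

/-- **(A2)** the middle expansion of `A x`. -/
theorem A_mid :
    E.psi (heckeAlphaBar L (M * q) q (normAlong (heckeAlphaBar L (M * q) q) x)) =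
      prodA M q w₁ ζ E σ x := by
  rw [E.psi_alpha]
  exact norm_alpha_inf M q w₁ ζ hqM hwα hwβ ι₀ hζ E σ hσ x

/-- **(A3)** the expansion at `0` of `A x`. -/
theorem A_zero :
    (cL : LaurentSeries L →+* LaurentSeries L')
        (E.phi0 (heckeAlphaBar L (M * q) q (normAlong (heckeAlphaBar L (M * q) q) x))) =
      ∏ b ∈ Finset.range q,
        tw (ζ ^ b) ((cL : LaurentSeries L →+* LaurentSeries L') (E.phi0 x)) := by
  rw [E.phi0_alpha]
  exact norm_alpha_zero M q w₁ ζ hqM hwα hwβ ι₀ hζ E σ hσ x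

/-- **(B1)** the expansion at `∞` of `B x = β₂ (N_β x)`. -/
theorem B_inf :
    (cL : LaurentSeries L →+* LaurentSeries L')
        ((heckeBetaBar L (M * q) q (normAlong (heckeBetaBar L (M * q) q) x) :
          FF L (M * q * q)) : LaurentSeries L) =
      ∏ b ∈ Finset.range q,
        tw (ζ ^ b) ((cL : LaurentSeries L →+* LaurentSeries L') (x : LaurentSeries L)) := by
  rw [coe_heckeBetaBar]
  exact norm_beta_inf M q w₁ ζ hqM hwα hwβ ι₀ hζ E σ hσ x

/-- **(B2)** the middle expansion of `B x`. -/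
theorem B_mid :
    E.psi (heckeBetaBar L (M * q) q (normAlong (heckeBetaBar L (M * q) q) x)) =
      tw ζ (prodB M q w₁ ζ E σ x) := by
  rw [E.psi_beta]
  exact congrArg (tw ζ) (norm_beta_zero M q w₁ ζ hqM hwα hwβ ι₀ hζ E σ hσ x)

/-- **(B3)** the expansion at `0` of `B x`. -/
theorem B_zero :
    (cL : LaurentSeries L →+* LaurentSeries L')
        (E.phi0 (heckeBetaBar L (M * q) q (normAlong (heckeBetaBar L (M * q) q) x))) =
      prodB M q w₁ ζ E σ x := by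
  rw [E.phi0_beta]
  exact norm_beta_zero M q w₁ ζ hqM hwα hwβ ι₀ hζ E σ hσ x

/-- the expansion at `∞` of `Ω x`. -/
theorem omega_inf :
    (cL : LaurentSeries L →+* LaurentSeries L')
        ((ConstPow.omega (heckeAlphaBar L (M * q) q) (heckeBetaBar L (M * q) q) x :
          FF L (M * q * q)) : LaurentSeries L) =
      prodA M q w₁ ζ E σ x *
        ∏ b ∈ Finset.range q,
          tw (ζ ^ b) ((cL : LaurentSeries L →+* LaurentSeries L') (x : LaurentSeries L)) := by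
  unfold ConstPow.omega
  rw [MulMemClass.coe_mul, map_mul, A_inf M q w₁ ζ hqM hwα hwβ ι₀ hζ E σ hσ x,
    B_inf M q w₁ ζ hqM hwα hwβ ι₀ hζ E σ hσ x]

/-- the middle expansion of `Ω x`. -/
theorem omega_mid :
    E.psi (ConstPow.omega (heckeAlphaBar L (M * q) q) (heckeBetaBar L (M * q) q) x) =
      prodA M q w₁ ζ E σ x * tw ζ (prodB M q w₁ ζ E σ x) := by
  unfold ConstPow.omega
  rw [map_mul, A_mid M q w₁ ζ hqM hwα hwβ ι₀ hζ E σ hσ x,
    B_mid M q w₁ ζ hqM hwα hwβ ι₀ hζ E σ hσ x]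

/-- the expansion at `0` of `Ω x`. -/
theorem omega_zero :
    (cL : LaurentSeries L →+* LaurentSeries L')
        (E.phi0 (ConstPow.omega (heckeAlphaBar L (M * q) q) (heckeBetaBar L (M * q) q) x)) =
      (∏ b ∈ Finset.range q,
        tw (ζ ^ b) ((cL : LaurentSeries L →+* LaurentSeries L') (E.phi0 x))) *
        prodB M q w₁ ζ E σ x := by
  unfold ConstPow.omega
  rw [map_mul, map_mul, A_zero M q w₁ ζ hqM hwα hwβ ι₀ hζ E σ hσ x,
    B_zero M q w₁ ζ hqM hwα hwβ ι₀ hζ E σ hσ x]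

end Rules

end Fermat.Agent.S36.Omega3
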