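/-
S36 (wave 8), K2, cut (R): the six expansion rules of `A = α₂ ∘ N_α`, `B = β₂ ∘ N_β` for
`q`-normalised series (`NRes.IsN W' q`).

For `x : FF L (M q²)` write `x₁ = cL (coe x)`, `x₂ = E.psi x`, `x₃ = cL (E.phi0 x)` (in
`L'((Q))`).  If `x_i = C q ^ n_i * u_i` with `u_i` a unit of the content ring of `W'` of
reduction `r_i`, then

* `isN_A_inf`, `isN_A_mid` : `(A x)₁`, `(A x)₂` are normalised with `(n₁ + (q-1) n₂, r₁ r₂^(q-1))`;
* `isN_A_zero`             : `(A x)₃` with `(q n₃, r₃^q)`;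
* `isN_B_inf`              : `(B x)₁` with `(q n₁, r₁^q)`;
* `isN_B_mid`, `isN_B_zero`: `(B x)₂`, `(B x)₃` with `((q-1) n₂ + n₃, r₂^(q-1) r₃)`.

Inputs: `Omega3` (the six expansion rules), `NRes` (`IsN.mul`, `IsN.prod`, `IsN.map`),
`CycLemmas.isU_coeffMap_of_gal` (`σ_k` acts trivially on reductions), `EsSeries.IsU.twist`
(twists by `q`-th roots of unity act trivially on reductions).
-/
import Mathlib
import Fermat.Agent.S36.VDefs
import Fermat.Agent.S36.Conj3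
import Fermat.Agent.S36.Omega3
import Fermat.Agent.S36.CycLemmas
import Fermat.Agent.S36.NRes

set_option autoImplicit false
set_option linter.unusedSectionVars false
set_option linter.unusedVariables false

noncomputable section

namespace Fermat.Agent.S36.NRules

open ModularCurve Polynomial Fermat.Agent.S18 Fermat.Agent.S18.Gauss Fermat.Agent.S28
open Fermat.Agent.S24 Fermat.Agent.S36.VDefs Fermat.Agent.S35.EsSeries Fermat.Agent.S35.EsOrd
open Fermat.Agent.S36.NRes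

variable {L : Type} [Field L] [Algebra ℚ L] (W : ValuationSubring L) [IsDiscreteValuationRing W]
  (M q : ℕ) [NeZero M] [NeZero q] [Fact q.Prime] [CharP (IsLocalRing.ResidueField W) q]
  (w₁ : FF L (M * q) →ₐ[L] FF L (M * q))
  {L' : Type} [Field L'] [Algebra L L'] (W' : ValuationSubring L') [IsDiscreteValuationRing W']
  (ζ : L'ˣ)

/-- the normaliser `q` is nonzero in `L'` (characteristic zero). -/
theorem natCast_ne_zero' (L : Type) [Field L] [Algebra ℚ L] {L' : Type} [Field L']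
    [Algebra L L'] (q : ℕ) [NeZero q] : ((q : ℕ) : L') ≠ 0 := by
  have : CharZero L := algebraRat.charZero L
  have h : ((q : ℕ) : L') = algebraMap L L' ((q : ℕ) : L) := (map_natCast _ q).symm
  rw [h]
  exact (map_ne_zero (algebraMap L L')).mpr (Nat.cast_ne_zero.mpr (NeZero.ne q))

omit [Algebra ℚ L] [IsDiscreteValuationRing W] [NeZero q] [Fact q.Prime]
  [CharP (IsLocalRing.ResidueField W) q] [IsDiscreteValuationRing W'] in
/-- coefficientwise maps fix the constant `q`. -/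
theorem coeffMap_C_natCast (τ : L' →+* L') :
    coeffMap τ (HahnSeries.C ((q : ℕ) : L') : LaurentSeries L') = HahnSeries.C ((q : ℕ) : L') := by
  rw [HahnSeries.C_apply, coeffMap_single, map_natCast]

/-- `σ_k` acts trivially on `q`-normalised series (it fixes `q` and the residue field). -/
theorem isN_coeffMap_gal (hcyc : CycData W q W' ζ) (σ : L' ≃ₐ[L] L') (k : ℕ)
    (hσ : σ (ζ : L') = (ζ : L') ^ k) (hσW : ∀ x ∈ W', σ x ∈ W') {z : LaurentSeries L'} {n : ℤ}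
    {r : LaurentSeries (IsLocalRing.ResidueField W')} (h : IsN W' ((q : ℕ) : L') z n r) :
    IsN W' ((q : ℕ) : L') (coeffMap ((σ : L' ≃ₐ[L] L') : L' →+* L') z) n r :=
  IsN.map (coeffMap ((σ : L' ≃ₐ[L] L') : L' →+* L'))
    (fun u r hu => CycLemmas.isU_coeffMap_of_gal W q W' ζ hcyc σ k hσ hσW u r hu)
    (coeffMap_C_natCast q _) h

/-- the twist `Q ↦ uQ`, `u ^ q = 1`, acts trivially on `q`-normalised series. -/
theorem isN_tw (hcyc : CycData W q W' ζ) (u : L'ˣ) (hu : u ^ q = 1) {z : LaurentSeries L'}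
    {n : ℤ} {r : LaurentSeries (IsLocalRing.ResidueField W')}
    (h : IsN W' ((q : ℕ) : L') z n r) : IsN W' ((q : ℕ) : L') (tw u z) n r := by
  have : CharP (IsLocalRing.ResidueField W') q := CycLemmas.charP_residueField W q W' ζ hcyc
  exact IsN.map (tw u) (fun v r hv => hv.twist u hu) (tw_C' u _) h

section Rules

variable (hqM : ¬ q ∣ M)
  (hwα : w₁.comp (heckeAlphaBar L M q) = heckeBetaBar L M q)
  (hwβ : w₁.comp (heckeBetaBar L M q) = heckeAlphaBar L M q) (ι₀ : L' →+* ℂ)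
  (hcyc : CycData W q W' ζ) (E : Exp3 M q w₁ ζ) (σ : ℕ → (L' ≃ₐ[L] L'))
  (hσ : ∀ k : ℕ, 1 ≤ k → k < q → σ k (ζ : L') = (ζ : L') ^ k ∧ ∀ x ∈ W', σ k x ∈ W')
  (x : FF L (M * q * q)) {n₁ n₂ n₃ : ℤ}
  {r₁ r₂ r₃ : LaurentSeries (IsLocalRing.ResidueField W')}
  (h₁ : IsN W' ((q : ℕ) : L') ((Conj3.cL : LaurentSeries L →+* LaurentSeries L')
    (x : LaurentSeries L)) n₁ r₁)
  (h₂ : IsN W' ((q : ℕ) : L') (E.psi x) n₂ r₂)
  (h₃ : IsN W' ((q : ℕ) : L') ((Conj3.cL : LaurentSeries L →+* LaurentSeries L') (E.phi0 x))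
    n₃ r₃)

include hcyc in
/-- powers of `ζ` are `q`-th roots of unity -/
theorem zeta_pow_pow (b : ℕ) : (ζ ^ b) ^ q = 1 := by
  rw [← pow_mul, mul_comm, pow_mul, CycLemmas.zeta_pow W q W' ζ hcyc, one_pow]

include hcyc in
theorem zeta_pow_inv_pow (b : ℕ) : ((ζ ^ b)⁻¹) ^ q = 1 := by
  rw [inv_pow, zeta_pow_pow W q W' ζ hcyc b, inv_one]

include hcyc hσ h₁ h₂ in
/-- `prodA x` is normalised with `(n₁ + (q-1) n₂, r₁ r₂^(q-1))`. -/
theorem isN_prodA :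
    IsN W' ((q : ℕ) : L') (Omega3.prodA M q w₁ ζ E σ x) (n₁ + ((q - 1 : ℕ) : ℤ) * n₂)
      (r₁ * r₂ ^ (q - 1)) := by
  have hc : ((q : ℕ) : L') ≠ 0 := natCast_ne_zero' L q
  have hprod := IsN.prod (W := W') hc (Finset.Ico 1 q)
    (fun k => coeffMap ((σ k : L' ≃ₐ[L] L') : L' →+* L') (E.psi x))
    (n := n₂) (r := r₂) (fun k hk => by
      have hk' := Finset.mem_Ico.mp hk
      exact isN_coeffMap_gal W q W' ζ hcyc (σ k) k (hσ k hk'.1 hk'.2).1 (hσ k hk'.1 hk'.2).2 h₂)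
  rw [Nat.card_Ico] at hprod
  exact h₁.mul hc hprod

include hcyc hσ h₂ h₃ in
/-- `prodB x` is normalised with `((q-1) n₂ + n₃, r₂^(q-1) r₃)`. -/
theorem isN_prodB :
    IsN W' ((q : ℕ) : L') (Omega3.prodB M q w₁ ζ E σ x) (((q - 1 : ℕ) : ℤ) * n₂ + n₃)
      (r₂ ^ (q - 1) * r₃) := by
  have hc : ((q : ℕ) : L') ≠ 0 := natCast_ne_zero' L q
  have hprod := IsN.prod (W := W') hc (Finset.Ico 1 q)
    (fun k => tw ((ζ ^ k)⁻¹) (coeffMap ((σ k : L' ≃ₐ[L] L') : L' →+* L') (E.psi x)))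
    (n := n₂) (r := r₂) (fun k hk => by
      have hk' := Finset.mem_Ico.mp hk
      exact isN_tw W q W' ζ hcyc _ (zeta_pow_inv_pow W q W' ζ hcyc k)
        (isN_coeffMap_gal W q W' ζ hcyc (σ k) k (hσ k hk'.1 hk'.2).1 (hσ k hk'.1 hk'.2).2 h₂))
  rw [Nat.card_Ico] at hprod
  have h := h₃.mul hc hprod
  rw [add_comm, mul_comm r₃] at h
  exact h

include hcyc in
/-- `∏_{b<q} tw ζ^b z` is normalised with `(q n, r^q)`. -/
theorem isN_prod_tw {z : LaurentSeries L'} {n : ℤ}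
    {r : LaurentSeries (IsLocalRing.ResidueField W')} (h : IsN W' ((q : ℕ) : L') z n r) :
    IsN W' ((q : ℕ) : L') (∏ b ∈ Finset.range q, tw (ζ ^ b) z) (((q : ℕ) : ℤ) * n) (r ^ q) := by
  have hc : ((q : ℕ) : L') ≠ 0 := natCast_ne_zero' L q
  have hprod := IsN.prod (W := W') hc (Finset.range q) (fun b => tw (ζ ^ b) z)
    (n := n) (r := r) (fun b _ => isN_tw W q W' ζ hcyc _ (zeta_pow_pow W q W' ζ hcyc b) h)
  rw [Finset.card_range] at hprod
  exact hprod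

include hqM hwα hwβ ι₀ hcyc hσ h₁ h₂ h₃

theorem isN_A_inf :
    IsN W' ((q : ℕ) : L') ((Conj3.cL : LaurentSeries L →+* LaurentSeries L')
      ((heckeAlphaBar L (M * q) q (normAlong (heckeAlphaBar L (M * q) q) x) :
        FF L (M * q * q)) : LaurentSeries L)) (n₁ + ((q - 1 : ℕ) : ℤ) * n₂) (r₁ * r₂ ^ (q - 1)) := by
  rw [Omega3.A_inf M q w₁ ζ hqM hwα hwβ ι₀ hcyc.prim E σ (fun k h1 h2 => (hσ k h1 h2).1) x]
  exact isN_prodA W M q w₁ W' ζ hcyc E σ hσ x h₁ h₂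

theorem isN_A_mid :
    IsN W' ((q : ℕ) : L')
      (E.psi (heckeAlphaBar L (M * q) q (normAlong (heckeAlphaBar L (M * q) q) x)))
      (n₁ + ((q - 1 : ℕ) : ℤ) * n₂) (r₁ * r₂ ^ (q - 1)) := by
  rw [Omega3.A_mid M q w₁ ζ hqM hwα hwβ ι₀ hcyc.prim E σ (fun k h1 h2 => (hσ k h1 h2).1) x]
  exact isN_prodA W M q w₁ W' ζ hcyc E σ hσ x h₁ h₂

theorem isN_A_zero :
    IsN W' ((q : ℕ) : L') ((Conj3.cL : LaurentSeries L →+* LaurentSeries L')
      (E.phi0 (heckeAlphaBar L (M * q) q (normAlong (heckeAlphaBar L (M * q) q) x))))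
      (((q : ℕ) : ℤ) * n₃) (r₃ ^ q) := by
  rw [Omega3.A_zero M q w₁ ζ hqM hwα hwβ ι₀ hcyc.prim E σ (fun k h1 h2 => (hσ k h1 h2).1) x]
  exact isN_prod_tw W q W' ζ hcyc h₃

theorem isN_B_inf :
    IsN W' ((q : ℕ) : L') ((Conj3.cL : LaurentSeries L →+* LaurentSeries L')
      ((heckeBetaBar L (M * q) q (normAlong (heckeBetaBar L (M * q) q) x) :
        FF L (M * q * q)) : LaurentSeries L)) (((q : ℕ) : ℤ) * n₁) (r₁ ^ q) := by
  rw [Omega3.B_inf M q w₁ ζ hqM hwα hwβ ι₀ hcyc.prim E σ (fun k h1 h2 => (hσ k h1 h2).1) x]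
  exact isN_prod_tw W q W' ζ hcyc h₁

theorem isN_B_mid :
    IsN W' ((q : ℕ) : L')
      (E.psi (heckeBetaBar L (M * q) q (normAlong (heckeBetaBar L (M * q) q) x)))
      (((q - 1 : ℕ) : ℤ) * n₂ + n₃) (r₂ ^ (q - 1) * r₃) := by
  rw [Omega3.B_mid M q w₁ ζ hqM hwα hwβ ι₀ hcyc.prim E σ (fun k h1 h2 => (hσ k h1 h2).1) x]
  exact isN_tw W q W' ζ hcyc ζ (CycLemmas.zeta_pow W q W' ζ hcyc)
    (isN_prodB W M q w₁ W' ζ hcyc E σ hσ x h₂ h₃)

theorem isN_B_zero :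
    IsN W' ((q : ℕ) : L') ((Conj3.cL : LaurentSeries L →+* LaurentSeries L')
      (E.phi0 (heckeBetaBar L (M * q) q (normAlong (heckeBetaBar L (M * q) q) x))))
      (((q - 1 : ℕ) : ℤ) * n₂ + n₃) (r₂ ^ (q - 1) * r₃) := by
  rw [Omega3.B_zero M q w₁ ζ hqM hwα hwβ ι₀ hcyc.prim E σ (fun k h1 h2 => (hσ k h1 h2).1) x]
  exact isN_prodB W M q w₁ W' ζ hcyc E σ hσ x h₂ h₃

end Rules

end Fermat.Agent.S36.NRules
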