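/-
S36 (wave 8), K2: every nonzero function of level `M q²` is `q`-normalisable at the cusps `∞`
and `0`, and its `(q - 1)`-th power is `q`-normalisable at the middle valuation.

`c = q ∈ L'` is the normaliser of `NRes.IsN W' c`.

* `q_ne_zero`, `q_mem`, `residue_q` : the normaliser is nonzero, in `W'`, of residue `0`;
* `exists_isN_inf`, `exists_isN_zero` : `cL (coe x)`, `cL (E.phi0 x)` are normalised
  (`q` is a uniformiser of `W`);
* `exists_isN_mid_pow` : `E.psi (y ^ (q - 1))` is normalised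
  (`psi y = C (1 - ζ) ^ b * unit`, `(1 - ζ) ^ (q - 1) = q * unit`).
-/
import Mathlib
import Fermat.Agent.S36.VDefs
import Fermat.Agent.S36.Conj3
import Fermat.Agent.S36.CycLemmas
import Fermat.Agent.S36.Exp3Lemmas
import Fermat.Agent.S36.NRes
import Fermat.Agent.S36.CLRes

set_option autoImplicit false
set_option linter.unusedSectionVars false
set_option linter.unusedVariables false
set_option linter.style.haveILetI false

noncomputable section

namespace Fermat.Agent.S36.Nble3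

open ModularCurve Polynomial Fermat.Agent.S18 Fermat.Agent.S18.Gauss Fermat.Agent.S28
open Fermat.Agent.S24 Fermat.Agent.S36.VDefs Fermat.Agent.S35.EsSeries
open Fermat.Agent.S36.NRes

/-- integer powers of normalised series are normalised -/
theorem isN_zpow {K : Type*} [Field K] {W : ValuationSubring K} {c : K} (hc : c ≠ 0)
    {y : LaurentSeries K} {n : ℤ} {r : LaurentSeries (IsLocalRing.ResidueField W)}
    (h : IsN W c y n r) (b : ℤ) : IsN W c (y ^ b) (b * n) (r ^ b) := by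
  cases b with
  | ofNat k =>
    have h1 := h.pow hc k
    rw [Int.ofNat_eq_natCast, zpow_natCast, zpow_natCast]
    exact h1
  | negSucc k =>
    have h1 := (h.pow hc (k + 1)).inv
    rw [zpow_negSucc, zpow_negSucc]
    have e : Int.negSucc k * n = -(((k + 1 : ℕ) : ℤ) * n) := by
      rw [Int.negSucc_eq]
      push_cast
      ring
    rw [e]
    exact h1

variable {L : Type} [Field L] [Algebra ℚ L] (W : ValuationSubring L) [IsDiscreteValuationRing W]
  (M q : ℕ) [NeZero M] [NeZero q] [Fact q.Prime] [CharP (IsLocalRing.ResidueField W) q]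
  (w₁ : FF L (M * q) →ₐ[L] FF L (M * q))
  {L' : Type} [Field L'] [Algebra L L'] (W' : ValuationSubring L') [IsDiscreteValuationRing W']
  (ζ : L'ˣ)

/-- the normaliser `q ∈ L'`: nonzero, in `W'`, of residue `0`. -/
theorem q_ne_zero (hcyc : CycData W q W' ζ) : ((q : ℕ) : L') ≠ 0 := by
  have hq : q.Prime := Fact.out
  haveI : CharZero L := algebraRat.charZero L
  have h1 : ((q : ℕ) : L') = algebraMap L L' ((q : ℕ) : L) := (map_natCast _ q).symm
  rw [h1]
  exact (_root_.map_ne_zero (algebraMap L L')).mpr (Nat.cast_ne_zero.mpr hq.ne_zero)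

theorem q_mem (hcyc : CycData W q W' ζ) : ((q : ℕ) : L') ∈ W' := natCast_mem W' q

theorem residue_q (hcyc : CycData W q W' ζ) :
    IsLocalRing.residue W' ⟨((q : ℕ) : L'), q_mem W q W' ζ hcyc⟩ = 0 := by
  haveI : CharP (IsLocalRing.ResidueField W') q :=
    Fermat.Agent.S36.CycLemmas.charP_residueField W q W' ζ hcyc
  have h1 : (⟨((q : ℕ) : L'), q_mem W q W' ζ hcyc⟩ : ↥W') = ((q : ℕ) : ↥W') :=
    Subtype.ext rfl
  rw [h1, map_natCast]
  exact CharP.cast_eq_zero _ q

/-- the coefficient extension of a nonzero quotient of `W`-integral series is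
`q`-normalised over `W'` -/
theorem exists_isN_cL (hunr : Irreducible ((q : ℕ) : ↥W)) (hcyc : CycData W q W' ζ)
    {f : LaurentSeries L} (hf : f ∈ fracInt W) (hf0 : f ≠ 0) :
    ∃ (n : ℤ) (r : LaurentSeries (IsLocalRing.ResidueField W')),
      IsN W' ((q : ℕ) : L') (coeffMap (algebraMap L L') f) n r := by
  have hWW' : ∀ c : L, c ∈ W ↔ algebraMap L L' c ∈ W' := fun c => (hcyc.comap c).symm
  obtain ⟨n, u, hu, hured, rfl⟩ := fracInt_exists_zpow_mul_unit W hunr hf hf0
  have hU : IsU W u (red W ⟨u, hu⟩) := ⟨hu, rfl, hured⟩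
  refine ⟨n, _, coeffMap (algebraMap L L') u,
    Fermat.Agent.S36.CLRes.isU_cL W (algebraMap L L') W' hWW' hU, ?_⟩
  rw [map_mul, map_zpow₀, Fermat.Agent.S28.Descent.coeffMap_C]
  have h1 : algebraMap L L' ((((q : ℕ) : ↥W) : ↥W) : L) = ((q : ℕ) : L') := map_natCast _ q
  rw [h1]

/-- at `∞` every nonzero function is `q`-normalisable (`q` is a uniformiser of `W`). -/
theorem exists_isN_inf (hunr : Irreducible ((q : ℕ) : ↥W)) (hcyc : CycData W q W' ζ)
    (x : FF L (M * q * q)) (hx : x ≠ 0) :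
    ∃ (n : ℤ) (r : LaurentSeries (IsLocalRing.ResidueField W')),
      IsN W' ((q : ℕ) : L') ((Conj3.cL : LaurentSeries L →+* LaurentSeries L')
        (x : LaurentSeries L)) n r := by
  refine exists_isN_cL W q W' ζ hunr hcyc
    (Fermat.Agent.S34.TwoGauss.coe_mem_fracInt W (M * q * q) x) ?_
  intro h0
  exact hx (Subtype.ext h0)

/-- at `0` every nonzero function is `q`-normalisable. -/
theorem exists_isN_zero (hunr : Irreducible ((q : ℕ) : ↥W)) (hcyc : CycData W q W' ζ)
    (E : Exp3 M q w₁ ζ) (x : FF L (M * q * q)) (hx : x ≠ 0) :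
    ∃ (n : ℤ) (r : LaurentSeries (IsLocalRing.ResidueField W')),
      IsN W' ((q : ℕ) : L') ((Conj3.cL : LaurentSeries L →+* LaurentSeries L') (E.phi0 x))
        n r :=
  exists_isN_cL W q W' ζ hunr hcyc
    (Fermat.Agent.S36.Exp3Lemmas.phi0_mem_fracInt W M q w₁ ζ E x)
    ((_root_.map_ne_zero E.phi0).mpr hx)

/-- at the middle valuation (ramification index `q - 1`) every `(q - 1)`-th power of a nonzero
function is `q`-normalisable: `psi y = C (1 - ζ) ^ b * unit` and `(1 - ζ) ^ (q - 1) = q * unit`. -/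
theorem exists_isN_mid_pow (hunr : Irreducible ((q : ℕ) : ↥W)) (hcyc : CycData W q W' ζ)
    (E : Exp3 M q w₁ ζ) (y : FF L (M * q * q)) (hy : y ≠ 0) :
    ∃ (n : ℤ) (r : LaurentSeries (IsLocalRing.ResidueField W')),
      IsN W' ((q : ℕ) : L') (E.psi (y ^ (q - 1))) n r := by
  have hq : q.Prime := Fact.out
  haveI : CharP (IsLocalRing.ResidueField W') q :=
    Fermat.Agent.S36.CycLemmas.charP_residueField W q W' ζ hcyc
  have hWW' : ∀ c : L, c ∈ W ↔ algebraMap L L' c ∈ W' := fun c => (hcyc.comap c).symm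
  have hc : ((q : ℕ) : L') ≠ 0 := q_ne_zero W q W' ζ hcyc
  have hfrac : E.psi y ∈ fracInt W' :=
    Fermat.Agent.S36.Exp3Lemmas.psi_mem_fracInt W M q w₁ W' ζ hWW' hcyc.prim.pow_eq_one E y
  have hψ0 : E.psi y ≠ 0 := (_root_.map_ne_zero E.psi).mpr hy
  obtain ⟨b, u, hu, hured, hyu⟩ := fracInt_exists_zpow_mul_unit W'
    (Fermat.Agent.S36.CycLemmas.irreducible_one_sub W q W' ζ hcyc) hfrac hψ0
  obtain ⟨v, hv, hvinv, hqv⟩ := Fermat.Agent.S36.CycLemmas.exists_unit_q W q W' ζ hcyc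
  have hv0 : v ≠ 0 := by
    rintro rfl
    rw [mul_zero] at hqv
    exact hc hqv
  have hres : IsLocalRing.residue W' ⟨v⁻¹, hvinv⟩ ≠ 0 := by
    intro h0
    have h1 : (⟨v⁻¹, hvinv⟩ : ↥W') * ⟨v, hv⟩ = 1 := Subtype.ext (inv_mul_cancel₀ hv0)
    have h2 := congrArg (IsLocalRing.residue W') h1
    rw [map_mul, h0, zero_mul, map_one] at h2
    exact zero_ne_one h2
  -- `C (1 - ζ) ^ (q - 1) = C q * C v⁻¹`
  have ht : IsN W' ((q : ℕ) : L')
      ((HahnSeries.C (1 - (ζ : L')) : LaurentSeries L') ^ (q - 1)) 1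
      (HahnSeries.C (IsLocalRing.residue W' ⟨v⁻¹, hvinv⟩)) := by
    refine ⟨HahnSeries.C v⁻¹, isU_C (W := W') ⟨v⁻¹, hvinv⟩ hres, ?_⟩
    rw [zpow_one, ← map_pow, ← map_mul]
    congr 1
    rw [hqv, mul_assoc, mul_inv_cancel₀ hv0, mul_one]
  have hU : IsN W' ((q : ℕ) : L') u 0 (red W' ⟨u, hu⟩) := isN_of_isU ⟨hu, rfl, hured⟩
  have hz := isN_zpow hc ht b
  have hpow := hU.pow hc (q - 1)
  have hmul := hz.mul hc hpow
  have e : E.psi (y ^ (q - 1)) =
      ((HahnSeries.C (1 - (ζ : L')) : LaurentSeries L') ^ (q - 1)) ^ b * u ^ (q - 1) := by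
    rw [map_pow, hyu, mul_pow]
    congr 1
    rw [← zpow_natCast (HahnSeries.C _ ^ b), ← zpow_mul, mul_comm b, zpow_mul, zpow_natCast]
  exact ⟨_, _, e ▸ hmul⟩

end Fermat.Agent.S36.Nble3
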