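/-
S36 (wave 8), K2: integrality over the base ring `O₀ = L(j) ∩ contentRing W` of `L((Q))`.

* `isIntegral_of_monic_root` : a root of a monic polynomial with integral coefficients is
  integral;
* `coeff_prod_X_sub_C_mem`   : the coefficients of `∏ (X - C a_i)` lie in any subring containing
  the `a_i`;
* `tw_mem_contentRing`       : the twist by a `q`-th root of unity preserves the content ring;
* `exists_isIntegralElem_of_isIntegral_O0`, `inC_of_isIntegral_O0` : an element of `FF L N` whose
  `q`-expansion is integral over `O₀` is Gauss-integral over `W[j]` (the currency of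
  `S18.Endgame`).
-/
import Mathlib
import Fermat.Agent.S34.TwoGauss
import Fermat.Agent.S35.EsSeries

set_option autoImplicit false
set_option linter.unusedSectionVars false

noncomputable section

namespace Fermat.Agent.S36.IntO0

open ModularCurve Polynomial Fermat.Agent.S18 Fermat.Agent.S18.Gauss Fermat.Agent.S28
open Fermat.Agent.S35.EsSeries Fermat.Agent.S34.TwoGauss

/-- a root of a monic polynomial with integral coefficients is integral -/
theorem isIntegral_of_monic_root {R A : Type*} [CommRing R] [CommRing A] [Algebra R A] (x : A)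
    (p : A[X]) (hp : p.Monic) (hx : p.eval x = 0) (hc : ∀ i, IsIntegral R (p.coeff i)) :
    IsIntegral R x := by
  have hlift : p ∈ Polynomial.lifts (algebraMap (integralClosure R A) A) := by
    rw [Polynomial.lifts_iff_coeff_lifts]
    intro i
    exact ⟨⟨p.coeff i, hc i⟩, rfl⟩
  obtain ⟨p', hp', -, hmon⟩ := Polynomial.lifts_and_natDegree_eq_and_monic hlift hp
  have h1 : IsIntegral (integralClosure R A) x :=
    ⟨p', hmon, by rw [← Polynomial.eval_map, hp', hx]⟩
  have h2 : x ∈ integralClosure (integralClosure R A) A := h1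
  rw [integralClosure_idem] at h2
  obtain ⟨y, rfl⟩ := h2
  exact y.2

/-- the coefficients of `∏ (X - C a_i)` lie in any subring containing the `a_i` -/
theorem coeff_prod_X_sub_C_mem {A : Type*} [CommRing A] (S : Subring A) {ι : Type*}
    (s : Finset ι) (a : ι → A) (ha : ∀ i ∈ s, a i ∈ S) (k : ℕ) :
    (∏ i ∈ s, (X - C (a i))).coeff k ∈ S := by
  classical
  have key : ∏ i ∈ s, (X - C (a i)) =
      (∏ i ∈ s.attach, (X - C (⟨a i.1, ha i.1 i.2⟩ : S))).map S.subtype := by
    rw [Polynomial.map_prod, ← Finset.prod_attach s (fun i => (X - C (a i)))]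
    refine Finset.prod_congr rfl fun i _ => ?_
    rw [Polynomial.map_sub, Polynomial.map_X, Polynomial.map_C]
    rfl
  rw [key, Polynomial.coeff_map]
  exact Subtype.mem _

theorem coeff_mul_mem {A : Type*} [CommRing A] (S : Subring A) (p r : A[X])
    (hp : ∀ k, p.coeff k ∈ S) (hr : ∀ k, r.coeff k ∈ S) (k : ℕ) : (p * r).coeff k ∈ S := by
  rw [Polynomial.coeff_mul]
  exact Subring.sum_mem _ fun i _ => Subring.mul_mem _ (hp _) (hr _)

theorem coeff_X_sub_C_mem {A : Type*} [CommRing A] (S : Subring A) {a : A} (ha : a ∈ S)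
    (k : ℕ) : (X - C a : A[X]).coeff k ∈ S := by
  rw [Polynomial.coeff_sub, Polynomial.coeff_X, Polynomial.coeff_C]
  refine Subring.sub_mem _ ?_ ?_
  · split_ifs
    · exact Subring.one_mem _
    · exact Subring.zero_mem _
  · split_ifs
    · exact ha
    · exact Subring.zero_mem _

section Twist

variable {L : Type*} [Field L] (W : ValuationSubring L)

/-- the twist by a `q`-th root of unity preserves the content ring -/
theorem tw_mem_contentRing (ζ : Lˣ) {q : ℕ} [hq : Fact q.Prime]
    [CharP (IsLocalRing.ResidueField W) q] (hζ : ζ ^ q = 1) {u : LaurentSeries L}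
    (hu : u ∈ contentRing W) : tw ζ u ∈ contentRing W := by
  obtain ⟨x, y, hy, hxy⟩ := id hu
  have hL : ∀ z : LaurentSeries W,
      toL W (tw (rootUnit (W := W) ζ hq.out.pos hζ) z) = tw ζ (toL W z) := by
    intro z
    show coeffMap W.subtype (tw (rootUnit (W := W) ζ hq.out.pos hζ) z) = tw ζ (toL W z)
    rw [coeffMap_tw]
    rfl
  have hK : ∀ z : LaurentSeries W,
      toK W (tw (rootUnit (W := W) ζ hq.out.pos hζ) z) = toK W z := by
    intro z
    show coeffMap (IsLocalRing.residue W) (tw (rootUnit (W := W) ζ hq.out.pos hζ) z) = toK W z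
    rw [coeffMap_tw]
    have e : Units.map ((IsLocalRing.residue W : ↥W →+* IsLocalRing.ResidueField W) :
        ↥W →* IsLocalRing.ResidueField W) (rootUnit (W := W) ζ hq.out.pos hζ) = 1 :=
      map_residue_rootUnit ζ hζ
    rw [e, tw_one]
    rfl
  have hy' : toK W (tw (rootUnit (W := W) ζ hq.out.pos hζ) y) ≠ 0 := by rw [hK]; exact hy
  have hxy' : tw ζ u * toL W (tw (rootUnit (W := W) ζ hq.out.pos hζ) y) =
      toL W (tw (rootUnit (W := W) ζ hq.out.pos hζ) x) := by
    rw [hL, hL, ← map_mul, hxy]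
  exact ⟨_, _, hy', hxy'⟩

end Twist

section InC

variable {L : Type*} [Field L] [Algebra ℚ L] (W : ValuationSubring L)
  [IsDiscreteValuationRing W] (N : ℕ) [NeZero N]

/-- an element of `FF L N` whose `q`-expansion is integral over `O₀ = L(j) ∩ contentRing W` is
Gauss-integral over `W[j]` -/
theorem exists_isIntegralElem_of_isIntegral_O0 (x : Fermat.Agent.S24.FF L N)
    (hx : IsIntegral (PGGlue.O0 W) (x : LaurentSeries L)) :
    ∃ S : (↥W)[X], S.map (IsLocalRing.residue W) ≠ 0 ∧
      (PGGlue.evF W N).IsIntegralElem (PGGlue.evF W N S * x) := by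
  classical
  obtain ⟨p, hp, hpx⟩ := hx
  have hcoeff : ∀ k : ℕ, ∃ P Q : (↥W)[X], Q.map (IsLocalRing.residue W) ≠ 0 ∧
      ((p.coeff k : PGGlue.O0 W) : LaurentSeries L) * PGGlue.evL W Q = PGGlue.evL W P :=
    fun k => PGGlue.exists_quot_of_mem_O0 W (p.coeff k).2
  choose P Q hQ hPQ using hcoeff
  refine ⟨∏ k ∈ Finset.range p.natDegree, Q k, ?_, ?_⟩
  · rw [Polynomial.map_prod]
    exact Finset.prod_ne_zero_iff.mpr fun k _ => hQ k
  · rw [PGGlue.isIntegralElem_evF_iff]
    have h1 : ((PGGlue.evF W N (∏ k ∈ Finset.range p.natDegree, Q k) * x :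
        Fermat.Agent.S24.FF L N) : LaurentSeries L) =
        PGGlue.evL W (∏ k ∈ Finset.range p.natDegree, Q k) * (x : LaurentSeries L) := by
      rw [← PGGlue.coe_evF W N]
      rfl
    rw [h1]
    have hmonic : (p.map (algebraMap (PGGlue.O0 W) (LaurentSeries L))).Monic := hp.map _
    have hroot : (p.map (algebraMap (PGGlue.O0 W) (LaurentSeries L))).eval
        (x : LaurentSeries L) = 0 := by
      rw [Polynomial.eval_map]
      exact hpx
    refine PGGlue.isIntegralElem_mul_of_coeff (PGGlue.evL W) (x : LaurentSeries L) _ hmonic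
      hroot _ ?_
    intro k hk
    have hk' : k ∈ Finset.range p.natDegree := by
      rw [Finset.mem_range]
      exact lt_of_lt_of_le hk (Polynomial.natDegree_map_le)
    refine ⟨P k * ∏ i ∈ (Finset.range p.natDegree).erase k, Q i, ?_⟩
    rw [Polynomial.coeff_map, ← Finset.mul_prod_erase _ _ hk', map_mul, map_mul, ← mul_assoc]
    congr 1
    exact hPQ k

/-- the same in the currency of `S18.Endgame` -/
theorem inC_of_isIntegral_O0 [Algebra ↥W (Fermat.Agent.S24.FF L N)]
    [IsScalarTower ↥W L (Fermat.Agent.S24.FF L N)] {π : ↥W} (hπ : ¬ IsUnit π)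
    (x : Fermat.Agent.S24.FF L N)
    (hx : IsIntegral (PGGlue.O0 W) (x : LaurentSeries L)) :
    Endgame.InC π (Fermat.Agent.S24.jBC L N) x := by
  obtain ⟨S, hS, hint⟩ := exists_isIntegralElem_of_isIntegral_O0 W N x hx
  refine ⟨S, not_C_dvd_of_map_ne_zero W hπ hS, ?_⟩
  show (Endgame.ev ↥W (Fermat.Agent.S24.jBC L N)).IsIntegralElem
    (Endgame.ev ↥W (Fermat.Agent.S24.jBC L N) S * x)
  have hev : Endgame.ev ↥W (Fermat.Agent.S24.jBC L N) = PGGlue.evF W N := by
    apply Polynomial.ringHom_ext
    · intro a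
      rw [Endgame.ev_C, PGGlue.evF_C,
        IsScalarTower.algebraMap_apply ↥W L (Fermat.Agent.S24.FF L N)]
      rfl
    · rw [Endgame.ev_X, PGGlue.evF, Polynomial.coe_eval₂RingHom, Polynomial.eval₂_X]
  rw [hev]
  exact hint

end InC

end Fermat.Agent.S36.IntO0
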