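/-
S36 (wave 8), K2/K3: the integrality criterion at level `M q²`.

An element of `F = FF L (M q²)` whose three expansions (`∞`: the `q`-expansion, `0`: `E.phi0`,
middle: `E.psi`) are content-integral is Gauss-integral over `W[j]`:

* `isIntegral_O0_of_three` : its `q`-expansion is integral over `O₀ = L(j) ∩ contentRing W`;
* `inC_of_three`           : `Endgame.InC π j x`;
* `gaussOne_of_three`      : the congruence form, `GaussOne π j w`.

Proof: by `Conj3.exists_poly_alpha` the element is a root of a monic polynomial over `α₂ K₁`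
whose coefficients have content-integral expansions at both cusps of level `M q`, hence are
integral over `O₀` by `S34.TwoGauss.exists_monic_of_mem_both`.
-/
import Mathlib
import Fermat.Agent.S36.VDefs
import Fermat.Agent.S36.Conj3
import Fermat.Agent.S36.CycLemmas
import Fermat.Agent.S36.Exp3Lemmas
import Fermat.Agent.S36.CLRes
import Fermat.Agent.S36.IntO0
import Fermat.Agent.S34.KummerStep

set_option autoImplicit false
set_option linter.unusedSectionVars false
set_option linter.unusedVariables false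

noncomputable section

namespace Fermat.Agent.S36.ThreeInC

open ModularCurve Polynomial Fermat.Agent.S18 Fermat.Agent.S18.Gauss Fermat.Agent.S28
open Fermat.Agent.S24 Fermat.Agent.S36.VDefs Fermat.Agent.S34.TwoGauss
open Fermat.Agent.S37.LevelChange Fermat.Agent.S34.KummerStep

variable {L : Type} [Field L] [Algebra ℚ L] (W : ValuationSubring L) [IsDiscreteValuationRing W]
  (M q : ℕ) [NeZero M] [NeZero q] [Fact q.Prime] [CharP (IsLocalRing.ResidueField W) q]
  (w₁ : FF L (M * q) →ₐ[L] FF L (M * q))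
  {L' : Type} [Field L'] [Algebra L L'] (W' : ValuationSubring L') [IsDiscreteValuationRing W']
  (ζ : L'ˣ)

/-- the chosen automorphisms `σ_k : ζ ↦ ζ ^ k` of `L' / L` preserving `W'` -/
theorem exists_sigma (hcyc : CycData W q W' ζ) :
    ∃ σ : ℕ → (L' ≃ₐ[L] L'), ∀ k : ℕ, 1 ≤ k → k < q →
      σ k (ζ : L') = (ζ : L') ^ k ∧ ∀ x ∈ W', σ k x ∈ W' := by
  have hgal : ∀ k : ℕ, ∃ σ : L' ≃ₐ[L] L', (1 ≤ k → k < q →
      σ (ζ : L') = (ζ : L') ^ k ∧ ∀ x ∈ W', σ x ∈ W') := by
    intro k
    by_cases hk : 1 ≤ k ∧ k < q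
    · have hnd : ¬ q ∣ k := fun hd => by
        have := Nat.le_of_dvd (by omega) hd
        omega
      obtain ⟨σ, h1, h2⟩ := hcyc.gal k hnd
      exact ⟨σ, fun _ _ => ⟨h1, h2⟩⟩
    · exact ⟨AlgEquiv.refl, fun h1 h2 => absurd ⟨h1, h2⟩ hk⟩
  choose σ hσ using hgal
  exact ⟨σ, hσ⟩

omit [IsDiscreteValuationRing W] [CharP (IsLocalRing.ResidueField W) q]
  [IsDiscreteValuationRing W'] in
theorem zeta_pow_eq_one (hcyc : CycData W q W' ζ) : ζ ^ q = 1 := by
  apply Units.ext
  rw [Units.val_pow_eq_pow_val, Units.val_one]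
  exact hcyc.prim.pow_eq_one

/-- an element of `FF L (M q)` with both expansions content-integral has `q`-expansion integral
over `O₀` -/
theorem isIntegral_O0_of_mem_both (hqM : ¬ q ∣ M)
    (hwα : w₁.comp (heckeAlphaBar L M q) = heckeBetaBar L M q)
    (hwβ : w₁.comp (heckeBetaBar L M q) = heckeAlphaBar L M q) (c : FF L (M * q))
    (h1 : (c : LaurentSeries L) ∈ contentRing W)
    (h2 : ((w₁ c : FF L (M * q)) : LaurentSeries L) ∈ contentRing W) :
    IsIntegral (PGGlue.O0 W) (c : LaurentSeries L) := by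
  obtain ⟨p, hp, hpc⟩ := exists_monic_of_mem_both W M q w₁ hqM hwα hwβ c h1 h2
  have hmem : ∀ a : ↥(baseRing W M q),
      (psi0 L M q).comp (baseRing W M q).subtype a ∈ PGGlue.O0 W :=
    fun a => ⟨a.2, psi0_mem_adjoin _⟩
  refine ⟨p.map (((psi0 L M q).comp (baseRing W M q).subtype).codRestrict (PGGlue.O0 W) hmem),
    hp.map _, ?_⟩
  rw [Polynomial.eval₂_map]
  have hcomp : (algebraMap (PGGlue.O0 W) (LaurentSeries L)).comp
      (((psi0 L M q).comp (baseRing W M q).subtype).codRestrict (PGGlue.O0 W) hmem) =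
      (algebraMap (FF L (M * q)) (LaurentSeries L)).comp
        ((algebraMap ↥(baseField L M q) (FF L (M * q))).comp (baseRing W M q).subtype) := by
    refine RingHom.ext fun a => ?_
    rw [RingHom.comp_apply, RingHom.comp_apply, RingHom.comp_apply]
    rfl
  rw [hcomp]
  have h := Polynomial.hom_eval₂ p
    ((algebraMap ↥(baseField L M q) (FF L (M * q))).comp (baseRing W M q).subtype)
    (algebraMap (FF L (M * q)) (LaurentSeries L)) c
  rw [hpc, map_zero] at h
  exact h.symm

/-- the coefficients of a polynomial over `FF L (M q)` whose two expansions split with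
content-integral roots are content-integral at both cusps -/
theorem coeff_mem_both (hcyc : CycData W q W' ζ) (P : (FF L (M * q))[X])
    {ι₁ ι₂ : Type*} (s₁ : Finset ι₁) (a₁ : ι₁ → LaurentSeries L') (s₂ : Finset ι₂)
    (a₂ : ι₂ → LaurentSeries L')
    (hP1 : P.map ((Conj3.cL : LaurentSeries L →+* LaurentSeries L').comp (Conj3.coeH (M * q))) =
      ∏ k ∈ s₁, (X - C (a₁ k)))
    (hP2 : P.map ((Conj3.cL : LaurentSeries L →+* LaurentSeries L').comp ((qExpand L q).comp
        ((Conj3.coeH (M * q)).comp (w₁ : FF L (M * q) →+* FF L (M * q))))) =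
      ∏ b ∈ s₂, (X - C (a₂ b)))
    (ha₁ : ∀ k ∈ s₁, a₁ k ∈ contentRing W') (ha₂ : ∀ b ∈ s₂, a₂ b ∈ contentRing W') (i : ℕ) :
    ((P.coeff i : FF L (M * q)) : LaurentSeries L) ∈ contentRing W ∧
      ((w₁ (P.coeff i) : FF L (M * q)) : LaurentSeries L) ∈ contentRing W := by
  have hWW' : ∀ c : L, c ∈ W ↔ algebraMap L L' c ∈ W' := fun c => (hcyc.comap c).symm
  constructor
  · apply CLRes.mem_contentRing_of_cL W (algebraMap L L') W' hWW'
      (coe_mem_fracInt W (M * q) (P.coeff i))
    have h := congrArg (fun p : (LaurentSeries L')[X] => p.coeff i) hP1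
    rw [Polynomial.coeff_map, RingHom.comp_apply] at h
    have e : coeffMap (algebraMap L L') ((P.coeff i : FF L (M * q)) : LaurentSeries L) =
        (Conj3.cL : LaurentSeries L →+* LaurentSeries L') (Conj3.coeH (M * q) (P.coeff i)) := rfl
    rw [e, h]
    exact IntO0.coeff_prod_X_sub_C_mem _ _ _ ha₁ i
  · apply CLRes.mem_contentRing_of_qExpand W q (coe_mem_fracInt W (M * q) (w₁ (P.coeff i)))
    have hfrac : qExpand L q ((w₁ (P.coeff i) : FF L (M * q)) : LaurentSeries L) ∈ fracInt W := by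
      have h0 := coe_heckeBetaBar (M * q) q (w₁ (P.coeff i))
      rw [← h0]
      exact coe_mem_fracInt W (M * q * q) _
    apply CLRes.mem_contentRing_of_cL W (algebraMap L L') W' hWW' hfrac
    have h := congrArg (fun p : (LaurentSeries L')[X] => p.coeff i) hP2
    rw [Polynomial.coeff_map, RingHom.comp_apply, RingHom.comp_apply, RingHom.comp_apply] at h
    have e : coeffMap (algebraMap L L')
        (qExpand L q ((w₁ (P.coeff i) : FF L (M * q)) : LaurentSeries L)) =
        (Conj3.cL : LaurentSeries L →+* LaurentSeries L') (qExpand L q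
          (Conj3.coeH (M * q) ((w₁ : FF L (M * q) →+* FF L (M * q)) (P.coeff i)))) := rfl
    rw [e, h]
    exact IntO0.coeff_prod_X_sub_C_mem _ _ _ ha₂ i

/-- a monic polynomial over `α₂ K₁` killing `x`, with coefficients content-integral at both
cusps of level `M q` -/
theorem exists_poly_both (hqM : ¬ q ∣ M)
    (hwα : w₁.comp (heckeAlphaBar L M q) = heckeBetaBar L M q)
    (hwβ : w₁.comp (heckeBetaBar L M q) = heckeAlphaBar L M q) (ι₀ : L' →+* ℂ)
    (hcyc : CycData W q W' ζ) (E : Exp3 M q w₁ ζ) (x : FF L (M * q * q))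
    (h₁ : (x : LaurentSeries L) ∈ contentRing W) (h₂ : E.phi0 x ∈ contentRing W)
    (h₃ : E.psi x ∈ contentRing W') :
    ∃ P : (FF L (M * q))[X], P.Monic ∧
      P.eval₂ ((heckeAlphaBar L (M * q) q : FF L (M * q) →ₐ[L] FF L (M * q * q)) :
        FF L (M * q) →+* FF L (M * q * q)) x = 0 ∧
      ∀ i, ((P.coeff i : FF L (M * q)) : LaurentSeries L) ∈ contentRing W ∧
        ((w₁ (P.coeff i) : FF L (M * q)) : LaurentSeries L) ∈ contentRing W := by
  classical
  have hchar := CycLemmas.charP_residueField W q W' ζ hcyc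
  obtain ⟨σ, hσ⟩ := exists_sigma W q W' ζ hcyc
  obtain ⟨P, hPm, hPx, hP1, hP2⟩ := Conj3.exists_poly_alpha M q w₁ ζ hqM hwα hwβ ι₀ hcyc.prim E σ
    (fun k h1 h2 => (hσ k h1 h2).1) x
  have hWW' : ∀ c : L, c ∈ W ↔ algebraMap L L' c ∈ W' := fun c => (hcyc.comap c).symm
  have hζq : ζ ^ q = 1 := zeta_pow_eq_one W q W' ζ hcyc
  -- rewrite the first factorisation as a single product
  have hP1' : P.map ((Conj3.cL : LaurentSeries L →+* LaurentSeries L').comp
      (Conj3.coeH (M * q))) =
      ∏ k ∈ insert 0 (Finset.Ico 1 q), (X - C (if k = 0 then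
        (Conj3.cL : LaurentSeries L →+* LaurentSeries L') (x : LaurentSeries L)
        else coeffMap ((σ k : L' ≃ₐ[L] L') : L' →+* L') (E.psi x))) := by
    rw [hP1, Finset.prod_insert (by simp), if_pos rfl]
    congr 1
    refine Finset.prod_congr rfl fun k hk => ?_
    rw [Finset.mem_Ico] at hk
    rw [if_neg (by omega)]
  refine ⟨P, hPm, hPx, coeff_mem_both W M q w₁ W' ζ hcyc P _ _ _ _ hP1' hP2 ?_ ?_⟩
  · intro k hk
    by_cases hk0 : k = 0
    · rw [if_pos hk0]
      exact coeffMap_mem_contentRing (algebraMap L L') W W' hWW' h₁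
    · rw [if_neg hk0]
      rw [Finset.mem_insert, Finset.mem_Ico] at hk
      have hk' : 1 ≤ k ∧ k < q := hk.resolve_left hk0
      exact CycLemmas.coeffMap_mem_of_gal W q W' ζ hcyc (σ k) k (hσ k hk'.1 hk'.2).1
        (hσ k hk'.1 hk'.2).2 _ h₃
  · intro b hb
    have hb1 : (ζ ^ b) ^ q = 1 := by rw [← pow_mul, mul_comm, pow_mul, hζq, one_pow]
    exact @IntO0.tw_mem_contentRing L' _ W' (ζ ^ b) q _ hchar hb1 _
      (coeffMap_mem_contentRing (algebraMap L L') W W' hWW' h₂)

omit [IsDiscreteValuationRing W] [Fact q.Prime] [CharP (IsLocalRing.ResidueField W) q] in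
theorem alphaBar_coe_apply (b : FF L (M * q)) :
    ((heckeAlphaBar L (M * q) q : FF L (M * q) →ₐ[L] FF L (M * q * q)) :
      FF L (M * q) →+* FF L (M * q * q)) b = heckeAlphaBar L (M * q) q b := rfl

omit [IsDiscreteValuationRing W] [Fact q.Prime] [CharP (IsLocalRing.ResidueField W) q] in
theorem coe_alphaBar_coe_apply (b : FF L (M * q)) :
    algebraMap (FF L (M * q * q)) (LaurentSeries L)
      (((heckeAlphaBar L (M * q) q : FF L (M * q) →ₐ[L] FF L (M * q * q)) :
        FF L (M * q) →+* FF L (M * q * q)) b) =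
      algebraMap (FF L (M * q)) (LaurentSeries L) b := by
  have h := coe_heckeAlphaBar (L := L) (M * q) q b
  rw [alphaBar_coe_apply]
  exact h

omit [IsDiscreteValuationRing W] [Fact q.Prime] [CharP (IsLocalRing.ResidueField W) q] in
/-- transport of a root along `α₂` to `q`-expansions -/
theorem eval_map_coe (P : (FF L (M * q))[X]) (x : FF L (M * q * q))
    (hPx : P.eval₂ ((heckeAlphaBar L (M * q) q : FF L (M * q) →ₐ[L] FF L (M * q * q)) :
        FF L (M * q) →+* FF L (M * q * q)) x = 0) :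
    (P.map (algebraMap (FF L (M * q)) (LaurentSeries L))).eval
      (algebraMap (FF L (M * q * q)) (LaurentSeries L) x) = 0 := by
  rw [Polynomial.eval_map]
  have h := Polynomial.hom_eval₂ P
    ((heckeAlphaBar L (M * q) q : FF L (M * q) →ₐ[L] FF L (M * q * q)) :
      FF L (M * q) →+* FF L (M * q * q))
    (algebraMap (FF L (M * q * q)) (LaurentSeries L)) x
  rw [hPx, map_zero] at h
  have hcomp : (algebraMap (FF L (M * q * q)) (LaurentSeries L)).comp
      ((heckeAlphaBar L (M * q) q : FF L (M * q) →ₐ[L] FF L (M * q * q)) :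
        FF L (M * q) →+* FF L (M * q * q)) =
      algebraMap (FF L (M * q)) (LaurentSeries L) :=
    RingHom.ext fun c => by
      rw [RingHom.comp_apply]
      exact coe_alphaBar_coe_apply M q c
  rw [hcomp] at h
  exact h.symm

/-- **(V2 ⇐), series form.** -/
theorem isIntegral_O0_of_three (hqM : ¬ q ∣ M)
    (hwα : w₁.comp (heckeAlphaBar L M q) = heckeBetaBar L M q)
    (hwβ : w₁.comp (heckeBetaBar L M q) = heckeAlphaBar L M q) (ι₀ : L' →+* ℂ)
    (hcyc : CycData W q W' ζ) (E : Exp3 M q w₁ ζ) (x : FF L (M * q * q))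
    (h₁ : (x : LaurentSeries L) ∈ contentRing W) (h₂ : E.phi0 x ∈ contentRing W)
    (h₃ : E.psi x ∈ contentRing W') :
    IsIntegral (PGGlue.O0 W) (x : LaurentSeries L) := by
  obtain ⟨P, hPm, hPx, hboth⟩ := exists_poly_both W M q w₁ W' ζ hqM hwα hwβ ι₀ hcyc E x h₁ h₂ h₃
  -- `x` is a root of the monic polynomial `P` transported to `L((Q))`
  have hroot := eval_map_coe M q P x hPx
  have hcoeff : ∀ i, IsIntegral (PGGlue.O0 W)
      ((P.map (algebraMap (FF L (M * q)) (LaurentSeries L))).coeff i) := by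
    intro i
    rw [Polynomial.coeff_map]
    exact isIntegral_O0_of_mem_both W M q w₁ hqM hwα hwβ (P.coeff i) (hboth i).1 (hboth i).2
  exact IntO0.isIntegral_of_monic_root _ _ (hPm.map _) hroot hcoeff

variable [Algebra ↥W (FF L (M * q * q))] [IsScalarTower ↥W L (FF L (M * q * q))]

/-- **(V2 ⇐)** an element of `FF L (M q²)` with three content-integral expansions is
Gauss-integral over `W[j]`. -/
theorem inC_of_three (hqM : ¬ q ∣ M)
    (hwα : w₁.comp (heckeAlphaBar L M q) = heckeBetaBar L M q)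
    (hwβ : w₁.comp (heckeBetaBar L M q) = heckeAlphaBar L M q) (ι₀ : L' →+* ℂ)
    (hcyc : CycData W q W' ζ) (E : Exp3 M q w₁ ζ) {π : ↥W} (hπ : ¬ IsUnit π)
    (x : FF L (M * q * q))
    (h₁ : (x : LaurentSeries L) ∈ contentRing W) (h₂ : E.phi0 x ∈ contentRing W)
    (h₃ : E.psi x ∈ contentRing W') :
    Endgame.InC π (jBC L (M * q * q)) x :=
  IntO0.inC_of_isIntegral_O0 W (M * q * q) hπ x
    (isIntegral_O0_of_three W M q w₁ W' ζ hqM hwα hwβ ι₀ hcyc E x h₁ h₂ h₃)

/-- **(V3)** the strong congruence `w ≡ 1 mod π` on the three expansions gives `GaussOne`. -/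
theorem gaussOne_of_three (hqM : ¬ q ∣ M)
    (hwα : w₁.comp (heckeAlphaBar L M q) = heckeBetaBar L M q)
    (hwβ : w₁.comp (heckeBetaBar L M q) = heckeAlphaBar L M q) (ι₀ : L' →+* ℂ)
    (hcyc : CycData W q W' ζ) (E : Exp3 M q w₁ ζ) {π : ↥W} (hπ : Irreducible π)
    (w : FF L (M * q * q)) (g₁ g₂ : LaurentSeries L) (g₃ : LaurentSeries L')
    (hg₁ : g₁ ∈ contentRing W) (hg₂ : g₂ ∈ contentRing W) (hg₃ : g₃ ∈ contentRing W')
    (h₁ : (w : LaurentSeries L) - 1 = HahnSeries.C ((π : W) : L) * g₁)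
    (h₂ : E.phi0 w - 1 = HahnSeries.C ((π : W) : L) * g₂)
    (h₃ : E.psi w - 1 = HahnSeries.C (algebraMap L L' ((π : W) : L)) * g₃) :
    GaussOne π (jBC L (M * q * q)) w := by
  have hπ0 : ((π : W) : L) ≠ 0 := fun h => hπ.ne_zero (Subtype.ext h)
  have hπF : algebraMap L (FF L (M * q * q)) ((π : W) : L) ≠ 0 := by
    rw [Ne, map_eq_zero_iff _ (algebraMap L (FF L (M * q * q))).injective]
    exact hπ0
  have hCπ : (HahnSeries.C ((π : W) : L) : LaurentSeries L) ≠ 0 := by
    rw [Ne, map_eq_zero_iff _ (HahnSeries.C : L →+* LaurentSeries L).injective]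
    exact hπ0
  have hCπ' : (HahnSeries.C (algebraMap L L' ((π : W) : L)) : LaurentSeries L') ≠ 0 := by
    rw [Ne, map_eq_zero_iff _ (HahnSeries.C : L' →+* LaurentSeries L').injective,
      map_eq_zero_iff _ (algebraMap L L').injective]
    exact hπ0
  have htower : algebraMap ↥W (FF L (M * q * q)) π =
      algebraMap L (FF L (M * q * q)) ((π : W) : L) :=
    IsScalarTower.algebraMap_apply ↥W L (FF L (M * q * q)) π
  set c : FF L (M * q * q) := (w - 1) / algebraMap L (FF L (M * q * q)) ((π : W) : L) with hc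
  have hwc : w - 1 = algebraMap L (FF L (M * q * q)) ((π : W) : L) * c := by
    rw [hc, mul_div_cancel₀ _ hπF]
  have hcoeπ : ((algebraMap L (FF L (M * q * q)) ((π : W) : L) : FF L (M * q * q)) :
      LaurentSeries L) = HahnSeries.C ((π : W) : L) := by
    show algebraMap L (LaurentSeries L) ((π : W) : L) = HahnSeries.C ((π : W) : L)
    rw [Fermat.Agent.S28.Content.algebraMap_eq_C_of_field]
  have e1 : (c : LaurentSeries L) = g₁ := by
    have h := congrArg (fun z : FF L (M * q * q) => (z : LaurentSeries L)) hwc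
    push_cast at h
    rw [Fermat.Agent.S28.Content.algebraMap_eq_C_of_field, h₁] at h
    exact (mul_left_cancel₀ hCπ h).symm
  have e2 : E.phi0 c = g₂ := by
    have h := congrArg E.phi0 hwc
    rw [map_sub, map_one, map_mul, Exp3Lemmas.phi0_algebraMap, h₂] at h
    exact (mul_left_cancel₀ hCπ h).symm
  have e3 : E.psi c = g₃ := by
    have h := congrArg E.psi hwc
    rw [map_sub, map_one, map_mul, Exp3Lemmas.psi_algebraMap, h₃] at h
    exact (mul_left_cancel₀ hCπ' h).symm
  have hinC : Endgame.InC π (jBC L (M * q * q)) c :=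
    inC_of_three W M q w₁ W' ζ hqM hwα hwβ ι₀ hcyc E hπ.not_isUnit c
      (by rw [e1]; exact hg₁) (by rw [e2]; exact hg₂) (by rw [e3]; exact hg₃)
  exact gaussOne_of_inC ⟨c, hinC, by rw [htower]; exact hwc⟩

end Fermat.Agent.S36.ThreeInC
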