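/-
S36 (wave 8), K2 core: the three expansions of `E36 (y ^ (q - 1))` at level `M q²` are units of
the content ring of `W'` with reduction `1`.

Setting: unramified level `(L, W)` (`q` a uniformiser of `W`), cyclotomic package
`hcyc : CycData W q W' ζ`, the three expansions `x₁ = cL (coe x)`, `x₂ = E.psi x`,
`x₃ = cL (E.phi0 x)` in `L'((Q))`.  With the normaliser `c = q ∈ W'` every nonzero `x` is
`q`-normalisable at `∞` and `0` (`Nble3`), and the class

`H = {x ≠ 0 | x₂ is q-normalisable}`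

is stable under `A = α₂ ∘ N_α`, `B = β₂ ∘ N_β` (`NRules`), contains the `(q - 1)`-th powers
(`Nble3.exists_isN_mid_pow`), and on it the normalised residues `ρ_i = nres (x_i)` and the
normalised valuations `ν_i = nval (x_i)` obey the six rules of Claim R₃ (`ClaimR36`).  Hence
`ρ_i (E36 h) = 1` and `ν_i (E36 h) = 0` for `h ∈ H`.
-/
import Mathlib
import Fermat.Agent.S36.VDefs
import Fermat.Agent.S36.Conj3
import Fermat.Agent.S36.Omega3
import Fermat.Agent.S36.ClaimR36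
import Fermat.Agent.S36.CycLemmas
import Fermat.Agent.S36.Exp3Lemmas
import Fermat.Agent.S36.NRes
import Fermat.Agent.S36.CLRes
import Fermat.Agent.S36.NRules
import Fermat.Agent.S36.Nble3
import Fermat.Agent.S36.ThreeInC

set_option autoImplicit false
set_option linter.unusedSectionVars false
set_option linter.unusedVariables false

noncomputable section

namespace Fermat.Agent.S36.Norm36

open ModularCurve Polynomial Fermat.Agent.S18 Fermat.Agent.S18.Gauss Fermat.Agent.S28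
open Fermat.Agent.S24 Fermat.Agent.S36.VDefs Fermat.Agent.S35.EsSeries Fermat.Agent.S35.EsOrd
open Fermat.Agent.S36.NRes

section Generic

variable {K : Type*} [Field K] {W : ValuationSubring K} {c : K}

theorem nres_mul (hc : c ≠ 0) (hcW : c ∈ W) (hres : IsLocalRing.residue W ⟨c, hcW⟩ = 0)
    {z z' : LaurentSeries K}
    (h : ∃ (n : ℤ) (r : LaurentSeries (IsLocalRing.ResidueField W)), IsN W c z n r)
    (h' : ∃ (n : ℤ) (r : LaurentSeries (IsLocalRing.ResidueField W)), IsN W c z' n r) :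
    nres W c (z * z') = nres W c z * nres W c z' :=
  ((isN_nval_nres h).mul hc (isN_nval_nres h')).nres_eq hc hcW hres

theorem nval_mul (hc : c ≠ 0) (hcW : c ∈ W) (hres : IsLocalRing.residue W ⟨c, hcW⟩ = 0)
    {z z' : LaurentSeries K}
    (h : ∃ (n : ℤ) (r : LaurentSeries (IsLocalRing.ResidueField W)), IsN W c z n r)
    (h' : ∃ (n : ℤ) (r : LaurentSeries (IsLocalRing.ResidueField W)), IsN W c z' n r) :
    nval W c (z * z') = nval W c z + nval W c z' :=
  ((isN_nval_nres h).mul hc (isN_nval_nres h')).nval_eq hc hcW hres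

/-- a series normalised with valuation `0` and residue `1` is a unit of reduction `1`. -/
theorem isU_one_of_nval_nres {z : LaurentSeries K}
    (h : ∃ (n : ℤ) (r : LaurentSeries (IsLocalRing.ResidueField W)), IsN W c z n r)
    (hv : nval W c z = 0) (hr : nres W c z = 1) : IsU W z 1 := by
  have h1 := isN_nval_nres h
  rw [hv, hr] at h1
  obtain ⟨u, hu, he⟩ := h1
  rw [zpow_zero, one_mul] at he
  rw [he]
  exact hu

end Generic

variable {L : Type} [Field L] [Algebra ℚ L] (W : ValuationSubring L) [IsDiscreteValuationRing W]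
  (M q : ℕ) [NeZero M] [NeZero q] [Fact q.Prime] [CharP (IsLocalRing.ResidueField W) q]
  (w₁ : FF L (M * q) →ₐ[L] FF L (M * q))
  {L' : Type} [Field L'] [Algebra L L'] (W' : ValuationSubring L') [IsDiscreteValuationRing W']
  (ζ : L'ˣ)

/-- the class `H`: nonzero functions whose middle expansion is `q`-normalisable. -/
def HH (E : Exp3 M q w₁ ζ) (x : FF L (M * q * q)) : Prop :=
  x ≠ 0 ∧ ∃ (n : ℤ) (r : LaurentSeries (IsLocalRing.ResidueField W')),
    IsN W' ((q : ℕ) : L') (E.psi x) n r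

/-- the three normalised residues -/
def rho1 (x : FF L (M * q * q)) : LaurentSeries (IsLocalRing.ResidueField W') :=
  nres W' ((q : ℕ) : L')
    ((Conj3.cL : LaurentSeries L →+* LaurentSeries L') (x : LaurentSeries L))

def rho2 (E : Exp3 M q w₁ ζ) (x : FF L (M * q * q)) :
    LaurentSeries (IsLocalRing.ResidueField W') :=
  nres W' ((q : ℕ) : L') (E.psi x)

def rho3 (E : Exp3 M q w₁ ζ) (x : FF L (M * q * q)) :
    LaurentSeries (IsLocalRing.ResidueField W') :=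
  nres W' ((q : ℕ) : L') ((Conj3.cL : LaurentSeries L →+* LaurentSeries L') (E.phi0 x))

/-- the three normalised valuations -/
def nu1 (x : FF L (M * q * q)) : ℤ :=
  nval W' ((q : ℕ) : L')
    ((Conj3.cL : LaurentSeries L →+* LaurentSeries L') (x : LaurentSeries L))

def nu2 (E : Exp3 M q w₁ ζ) (x : FF L (M * q * q)) : ℤ :=
  nval W' ((q : ℕ) : L') (E.psi x)

def nu3 (E : Exp3 M q w₁ ζ) (x : FF L (M * q * q)) : ℤ :=
  nval W' ((q : ℕ) : L') ((Conj3.cL : LaurentSeries L →+* LaurentSeries L') (E.phi0 x))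

section Main

variable (hunr : Irreducible ((q : ℕ) : ↥W)) (hqM : ¬ q ∣ M)
  (hwα : w₁.comp (heckeAlphaBar L M q) = heckeBetaBar L M q)
  (hwβ : w₁.comp (heckeBetaBar L M q) = heckeAlphaBar L M q) (ι₀ : L' →+* ℂ)
  (hcyc : CycData W q W' ζ) (E : Exp3 M q w₁ ζ)

include hunr hcyc in
theorem isN1 (x : FF L (M * q * q)) (hx : x ≠ 0) :
    IsN W' ((q : ℕ) : L')
      ((Conj3.cL : LaurentSeries L →+* LaurentSeries L') (x : LaurentSeries L))
      (nu1 M q W' x) (rho1 M q W' x) :=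
  isN_nval_nres (Nble3.exists_isN_inf W M q W' ζ hunr hcyc x hx)

include hunr hcyc in
theorem isN3 (x : FF L (M * q * q)) (hx : x ≠ 0) :
    IsN W' ((q : ℕ) : L')
      ((Conj3.cL : LaurentSeries L →+* LaurentSeries L') (E.phi0 x))
      (nu3 M q w₁ W' ζ E x) (rho3 M q w₁ W' ζ E x) :=
  isN_nval_nres (Nble3.exists_isN_zero W M q w₁ W' ζ hunr hcyc E x hx)

omit [IsDiscreteValuationRing W] [CharP (IsLocalRing.ResidueField W) q]
  [IsDiscreteValuationRing W'] in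
theorem isN2 (x : FF L (M * q * q)) (hx : HH M q w₁ W' ζ E x) :
    IsN W' ((q : ℕ) : L') (E.psi x) (nu2 M q w₁ W' ζ E x) (rho2 M q w₁ W' ζ E x) :=
  isN_nval_nres hx.2

include hcyc in
theorem HH_one : HH M q w₁ W' ζ E 1 :=
  ⟨one_ne_zero, 0, 1, by rw [map_one]; exact isN_one⟩

include hcyc in
theorem HH_mul (x y : FF L (M * q * q)) (hx : HH M q w₁ W' ζ E x) (hy : HH M q w₁ W' ζ E y) :
    HH M q w₁ W' ζ E (x * y) := by
  obtain ⟨n, r, h⟩ := hx.2
  obtain ⟨n', r', h'⟩ := hy.2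
  exact ⟨mul_ne_zero hx.1 hy.1, n + n', r * r', by
    rw [map_mul]; exact h.mul (Nble3.q_ne_zero W q W' ζ hcyc) h'⟩

include hcyc in
theorem HH_inv (x : FF L (M * q * q)) (hx : HH M q w₁ W' ζ E x) :
    HH M q w₁ W' ζ E x⁻¹ := by
  obtain ⟨n, r, h⟩ := hx.2
  exact ⟨inv_ne_zero hx.1, -n, r⁻¹, by rw [map_inv₀]; exact h.inv⟩

include hunr hqM hwα hwβ ι₀ hcyc in
theorem HH_A (x : FF L (M * q * q)) (hx : HH M q w₁ W' ζ E x) :
    HH M q w₁ W' ζ E
      (heckeAlphaBar L (M * q) q (normAlong (heckeAlphaBar L (M * q) q) x)) := by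
  obtain ⟨σ, hσ⟩ := ThreeInC.exists_sigma W q W' ζ hcyc
  have h := NRules.isN_A_mid W M q w₁ W' ζ hqM hwα hwβ ι₀ hcyc E σ hσ x
    (isN1 W M q W' ζ hunr hcyc x hx.1) (isN2 M q w₁ W' ζ E x hx)
    (isN3 W M q w₁ W' ζ hunr hcyc E x hx.1)
  refine ⟨fun h0 => ?_, _, _, h⟩
  have h1 := h.ne_zero (Nble3.q_ne_zero W q W' ζ hcyc)
  rw [h0, map_zero] at h1
  exact h1 rfl

include hunr hqM hwα hwβ ι₀ hcyc in
theorem HH_B (x : FF L (M * q * q)) (hx : HH M q w₁ W' ζ E x) :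
    HH M q w₁ W' ζ E
      (heckeBetaBar L (M * q) q (normAlong (heckeBetaBar L (M * q) q) x)) := by
  obtain ⟨σ, hσ⟩ := ThreeInC.exists_sigma W q W' ζ hcyc
  have h := NRules.isN_B_mid W M q w₁ W' ζ hqM hwα hwβ ι₀ hcyc E σ hσ x
    (isN1 W M q W' ζ hunr hcyc x hx.1) (isN2 M q w₁ W' ζ E x hx)
    (isN3 W M q w₁ W' ζ hunr hcyc E x hx.1)
  refine ⟨fun h0 => ?_, _, _, h⟩
  have h1 := h.ne_zero (Nble3.q_ne_zero W q W' ζ hcyc)
  rw [h0, map_zero] at h1
  exact h1 rfl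

include hunr hqM hwα hwβ ι₀ hcyc in
/-- **K2 core.** The three expansions of `E36 (y ^ (q - 1))` are units of the content ring of
`W'` with reduction `1`. -/
theorem isU_one_E36 (y : FF L (M * q * q)) (hy : y ≠ 0) :
    IsU W' ((Conj3.cL : LaurentSeries L →+* LaurentSeries L')
        ((ConstPow.E36 (heckeAlphaBar L (M * q) q) (heckeBetaBar L (M * q) q) q (y ^ (q - 1)) :
          FF L (M * q * q)) : LaurentSeries L)) 1 ∧
      IsU W' (E.psi
        (ConstPow.E36 (heckeAlphaBar L (M * q) q) (heckeBetaBar L (M * q) q) q (y ^ (q - 1)))) 1 ∧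
      IsU W' ((Conj3.cL : LaurentSeries L →+* LaurentSeries L') (E.phi0
        (ConstPow.E36 (heckeAlphaBar L (M * q) q) (heckeBetaBar L (M * q) q) q (y ^ (q - 1))))) 1 := by
  classical
  obtain ⟨σ, hσ⟩ := ThreeInC.exists_sigma W q W' ζ hcyc
  have hc0 : ((q : ℕ) : L') ≠ 0 := Nble3.q_ne_zero W q W' ζ hcyc
  have hcW : ((q : ℕ) : L') ∈ W' := Nble3.q_mem W q W' ζ hcyc
  have hres := Nble3.residue_q W q W' ζ hcyc
  have hq1 : 1 ≤ q := (Fact.out : q.Prime).one_le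
  -- the three normalised forms on `H`
  have k1 : ∀ x : FF L (M * q * q), HH M q w₁ W' ζ E x → _ :=
    fun x hx => isN1 W M q W' ζ hunr hcyc x hx.1
  have k2 : ∀ x : FF L (M * q * q), HH M q w₁ W' ζ E x → _ :=
    fun x hx => isN2 M q w₁ W' ζ E x hx
  have k3 : ∀ x : FF L (M * q * q), HH M q w₁ W' ζ E x → _ :=
    fun x hx => isN3 W M q w₁ W' ζ hunr hcyc E x hx.1
  have hH0 : ∀ x : FF L (M * q * q), HH M q w₁ W' ζ E x → x ≠ 0 := fun x hx => hx.1
  have hH1 := HH_one W M q w₁ W' ζ hcyc E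
  have hHmul := HH_mul W M q w₁ W' ζ hcyc E
  have hHinv := HH_inv W M q w₁ W' ζ hcyc E
  have hHA := HH_A W M q w₁ W' ζ hunr hqM hwα hwβ ι₀ hcyc E
  have hHB := HH_B W M q w₁ W' ζ hunr hqM hwα hwβ ι₀ hcyc E
  have hh : HH M q w₁ W' ζ E (y ^ (q - 1)) :=
    ⟨pow_ne_zero _ hy, Nble3.exists_isN_mid_pow W M q w₁ W' ζ hunr hcyc E y hy⟩
  have hE := ClaimR36.E36_mem (heckeAlphaBar L (M * q) q) (heckeBetaBar L (M * q) q) q hq1
    (HH M q w₁ W' ζ E) hH1 hHmul hHinv hHA hHB hh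
  -- multiplicativity of the three expansions
  have m1 : ∀ x y : FF L (M * q * q),
      (Conj3.cL : LaurentSeries L →+* LaurentSeries L') ((x * y : FF L (M * q * q)) :
        LaurentSeries L) =
      (Conj3.cL : LaurentSeries L →+* LaurentSeries L') (x : LaurentSeries L) *
        (Conj3.cL : LaurentSeries L →+* LaurentSeries L') (y : LaurentSeries L) := by
    intro x y
    rw [MulMemClass.coe_mul, map_mul]
  have m3 : ∀ x y : FF L (M * q * q),
      (Conj3.cL : LaurentSeries L →+* LaurentSeries L') (E.phi0 (x * y)) =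
      (Conj3.cL : LaurentSeries L →+* LaurentSeries L') (E.phi0 x) *
        (Conj3.cL : LaurentSeries L →+* LaurentSeries L') (E.phi0 y) := by
    intro x y
    rw [map_mul, map_mul]
  -- residues
  have hmul := ClaimR36.mul_E36_field (heckeAlphaBar L (M * q) q) (heckeBetaBar L (M * q) q) q
    hq1 (HH M q w₁ W' ζ E) hH0 hH1 hHmul hHinv hHA hHB
    (rho1 M q W') (rho2 M q w₁ W' ζ E) (rho3 M q w₁ W' ζ E)
    (fun x hx => (k1 x hx).res_ne_zero) (fun x hx => (k2 x hx).res_ne_zero)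
    (fun x hx => (k3 x hx).res_ne_zero)
    (fun x y hx hy => by
      unfold rho1
      rw [m1]
      exact nres_mul hc0 hcW hres ⟨_, _, k1 x hx⟩ ⟨_, _, k1 y hy⟩)
    (fun x y hx hy => by
      unfold rho2
      rw [map_mul]
      exact nres_mul hc0 hcW hres ⟨_, _, k2 x hx⟩ ⟨_, _, k2 y hy⟩)
    (fun x y hx hy => by
      unfold rho3
      rw [m3]
      exact nres_mul hc0 hcW hres ⟨_, _, k3 x hx⟩ ⟨_, _, k3 y hy⟩)
    (fun x hx => (NRules.isN_A_inf W M q w₁ W' ζ hqM hwα hwβ ι₀ hcyc E σ hσ x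
      (k1 x hx) (k2 x hx) (k3 x hx)).nres_eq hc0 hcW hres)
    (fun x hx => (NRules.isN_A_mid W M q w₁ W' ζ hqM hwα hwβ ι₀ hcyc E σ hσ x
      (k1 x hx) (k2 x hx) (k3 x hx)).nres_eq hc0 hcW hres)
    (fun x hx => (NRules.isN_A_zero W M q w₁ W' ζ hqM hwα hwβ ι₀ hcyc E σ hσ x
      (k1 x hx) (k2 x hx) (k3 x hx)).nres_eq hc0 hcW hres)
    (fun x hx => (NRules.isN_B_inf W M q w₁ W' ζ hqM hwα hwβ ι₀ hcyc E σ hσ x
      (k1 x hx) (k2 x hx) (k3 x hx)).nres_eq hc0 hcW hres)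
    (fun x hx => (NRules.isN_B_mid W M q w₁ W' ζ hqM hwα hwβ ι₀ hcyc E σ hσ x
      (k1 x hx) (k2 x hx) (k3 x hx)).nres_eq hc0 hcW hres)
    (fun x hx => (NRules.isN_B_zero W M q w₁ W' ζ hqM hwα hwβ ι₀ hcyc E σ hσ x
      (k1 x hx) (k2 x hx) (k3 x hx)).nres_eq hc0 hcW hres)
    hh
  -- valuations
  have hadd := ClaimR36.add_E36 (heckeAlphaBar L (M * q) q) (heckeBetaBar L (M * q) q) q
    hq1 (HH M q w₁ W' ζ E) hH0 hH1 hHmul hHinv hHA hHB
    (nu1 M q W') (nu2 M q w₁ W' ζ E) (nu3 M q w₁ W' ζ E)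
    (fun x y hx hy => by
      unfold nu1
      rw [m1]
      exact nval_mul hc0 hcW hres ⟨_, _, k1 x hx⟩ ⟨_, _, k1 y hy⟩)
    (fun x y hx hy => by
      unfold nu2
      rw [map_mul]
      exact nval_mul hc0 hcW hres ⟨_, _, k2 x hx⟩ ⟨_, _, k2 y hy⟩)
    (fun x y hx hy => by
      unfold nu3
      rw [m3]
      exact nval_mul hc0 hcW hres ⟨_, _, k3 x hx⟩ ⟨_, _, k3 y hy⟩)
    (fun x hx => by
      rw [nsmul_eq_mul]
      exact (NRules.isN_A_inf W M q w₁ W' ζ hqM hwα hwβ ι₀ hcyc E σ hσ x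
        (k1 x hx) (k2 x hx) (k3 x hx)).nval_eq hc0 hcW hres)
    (fun x hx => by
      rw [nsmul_eq_mul]
      exact (NRules.isN_A_mid W M q w₁ W' ζ hqM hwα hwβ ι₀ hcyc E σ hσ x
        (k1 x hx) (k2 x hx) (k3 x hx)).nval_eq hc0 hcW hres)
    (fun x hx => by
      rw [nsmul_eq_mul]
      exact (NRules.isN_A_zero W M q w₁ W' ζ hqM hwα hwβ ι₀ hcyc E σ hσ x
        (k1 x hx) (k2 x hx) (k3 x hx)).nval_eq hc0 hcW hres)
    (fun x hx => by
      rw [nsmul_eq_mul]
      exact (NRules.isN_B_inf W M q w₁ W' ζ hqM hwα hwβ ι₀ hcyc E σ hσ x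
        (k1 x hx) (k2 x hx) (k3 x hx)).nval_eq hc0 hcW hres)
    (fun x hx => by
      rw [nsmul_eq_mul]
      exact (NRules.isN_B_mid W M q w₁ W' ζ hqM hwα hwβ ι₀ hcyc E σ hσ x
        (k1 x hx) (k2 x hx) (k3 x hx)).nval_eq hc0 hcW hres)
    (fun x hx => by
      rw [nsmul_eq_mul]
      exact (NRules.isN_B_zero W M q w₁ W' ζ hqM hwα hwβ ι₀ hcyc E σ hσ x
        (k1 x hx) (k2 x hx) (k3 x hx)).nval_eq hc0 hcW hres)
    hh
  exact ⟨isU_one_of_nval_nres ⟨_, _, k1 _ hE⟩ hadd.1 hmul.1,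
    isU_one_of_nval_nres ⟨_, _, k2 _ hE⟩ hadd.2.1 hmul.2.1,
    isU_one_of_nval_nres ⟨_, _, k3 _ hE⟩ hadd.2.2 hmul.2.2⟩

end Main

end Fermat.Agent.S36.Norm36
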