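/-
S36 (wave 8), K2 tail: from "the three expansions are `≡ 1` modulo `1 - ζ`" to `GaussOne` for the
`q`-th power.

* `sub_one_of_isU_one`     : a unit of the content ring of reduction `1` is `1 + C ϖ * g`;
* `isU_one_of_cL_fracInt`  : descent of "unit of reduction `1`" from `W'` to `W`;
* `pow_sub_one_of_isU_one` : `(1 + C ϖ g) ^ q = 1 + C q g'` when `ϖ ^ q ∈ q W`;
* `gaussOne_pow_of_isU_one`: the tail of K2.
-/
import Mathlib
import Fermat.Agent.S36.VDefs
import Fermat.Agent.S36.Conj3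
import Fermat.Agent.S36.CycLemmas
import Fermat.Agent.S36.Exp3Lemmas
import Fermat.Agent.S36.CLRes
import Fermat.Agent.S36.ThreeInC

set_option autoImplicit false
set_option linter.unusedSectionVars false
set_option linter.unusedVariables false

noncomputable section

namespace Fermat.Agent.S36.QTail

open ModularCurve Polynomial Fermat.Agent.S18 Fermat.Agent.S18.Gauss Fermat.Agent.S28
open Fermat.Agent.S24 Fermat.Agent.S36.VDefs Fermat.Agent.S34.KummerStep
open Fermat.Agent.S35.EsSeries Fermat.Agent.S37.LevelChange Fermat.Agent.S34.TwoGauss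

section Generic

variable {K : Type*} [Field K] (V : ValuationSubring K) [IsDiscreteValuationRing V]

/-- a unit of the content ring of reduction `1` is `1 + C ϖ * g`. -/
theorem sub_one_of_isU_one {ϖ : ↥V} (hϖ : Irreducible ϖ) {z : LaurentSeries K}
    (h : IsU V z 1) : ∃ g ∈ contentRing V, z - 1 = HahnSeries.C ((ϖ : ↥V) : K) * g := by
  obtain ⟨hz, hred, _⟩ := h
  have hmem : z - 1 ∈ contentRing V := Subring.sub_mem _ hz (Subring.one_mem _)
  have h0 : red V ⟨z - 1, hmem⟩ = 0 := by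
    have e : (⟨z - 1, hmem⟩ : contentRing V) = ⟨z, hz⟩ - 1 := rfl
    rw [e, map_sub, hred, map_one, sub_self]
  obtain ⟨g, hg⟩ := (red_eq_zero_iff V hϖ _).mp h0
  exact ⟨g, g.2, hg⟩

/-- `(1 + C ϖ g) ^ q ≡ 1` modulo `q` as soon as `ϖ ^ q ∈ q V`. -/
theorem pow_sub_one_of_eq (q : ℕ) (hq : q.Prime) {ϖ v : K} (hϖV : ϖ ∈ V) (hv : v ∈ V)
    (hϖq : ϖ ^ q = ((q : ℕ) : K) * v) {z g : LaurentSeries K} (hg : g ∈ contentRing V)
    (hz : z - 1 = HahnSeries.C ϖ * g) :
    ∃ g' ∈ contentRing V, z ^ q - 1 = HahnSeries.C ((q : ℕ) : K) * g' := by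
  have hCϖ : HahnSeries.C ϖ ∈ contentRing V := C_mem_contentRing V ⟨ϖ, hϖV⟩
  have hCv : HahnSeries.C v ∈ contentRing V := C_mem_contentRing V ⟨v, hv⟩
  have hb : HahnSeries.C ϖ * g ∈ contentRing V := Subring.mul_mem _ hCϖ hg
  obtain ⟨r, hr⟩ := exists_add_pow_prime_eq hq (⟨HahnSeries.C ϖ * g, hb⟩ : contentRing V) 1
  have hr' := congrArg (fun t : contentRing V => (t : LaurentSeries K)) hr
  simp only [Subring.coe_add, Subring.coe_mul, Subring.coe_pow, Subring.coe_one,
    Subring.coe_natCast] at hr'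
  have hzb : z = HahnSeries.C ϖ * g + 1 := by rw [← hz]; ring
  have hCq : ((q : ℕ) : LaurentSeries K) = HahnSeries.C ((q : ℕ) : K) := (map_natCast _ q).symm
  have hpow : (HahnSeries.C ϖ * g) ^ q = HahnSeries.C ((q : ℕ) : K) * (HahnSeries.C v * g ^ q) := by
    rw [mul_pow, ← map_pow, hϖq, map_mul]
    ring
  refine ⟨HahnSeries.C v * g ^ q + HahnSeries.C ϖ * g * (r : LaurentSeries K),
    Subring.add_mem _ (Subring.mul_mem _ hCv (Subring.pow_mem _ hg q))
      (Subring.mul_mem _ hb r.2), ?_⟩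
  rw [hzb, hr', hpow, hCq]
  ring

end Generic

section Descent

variable {L : Type*} [Field L] (W : ValuationSubring L) [IsDiscreteValuationRing W]
  {L' : Type*} [Field L'] (τ : L →+* L') (W' : ValuationSubring L')
  (hW : ∀ c : L, c ∈ W ↔ τ c ∈ W')

include hW in
/-- descent of "unit of reduction `1`" along the coefficient extension. -/
theorem isU_one_of_cL_fracInt {z : LaurentSeries L} (hz : z ∈ fracInt W)
    (h : IsU W' (coeffMap τ z) 1) : IsU W z 1 := by
  have hmem : z ∈ contentRing W := CLRes.mem_contentRing_of_cL W τ W' hW hz h.mem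
  have hne : red W ⟨z, hmem⟩ ≠ 0 := by
    intro h0
    obtain ⟨hu, h1, h2⟩ := h
    have h3 := red_coeffMap τ W W' hW hmem
    rw [h0, map_zero] at h3
    exact one_ne_zero (h1.symm.trans h3)
  exact CLRes.isU_one_of_cL W τ W' hW ⟨hmem, rfl, hne⟩ h

end Descent

variable {L : Type} [Field L] [Algebra ℚ L] (W : ValuationSubring L) [IsDiscreteValuationRing W]
  (M q : ℕ) [NeZero M] [NeZero q] [Fact q.Prime] [CharP (IsLocalRing.ResidueField W) q]
  (w₁ : FF L (M * q) →ₐ[L] FF L (M * q))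
  {L' : Type} [Field L'] [Algebra L L'] (W' : ValuationSubring L') [IsDiscreteValuationRing W']
  (ζ : L'ˣ)

omit [Algebra ℚ L] [NeZero q] [Fact q.Prime] [CharP (IsLocalRing.ResidueField W) q] in
/-- at an unramified level: a content unit of `W` of reduction `1` has `q`-th power `≡ 1`
modulo `q`. -/
theorem pow_sub_one_unram (hunr : Irreducible ((q : ℕ) : ↥W)) {z : LaurentSeries L}
    (h : IsU W z 1) : ∃ g ∈ contentRing W, z ^ q - 1 = HahnSeries.C ((q : ℕ) : L) * g := by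
  obtain ⟨g, hg, hzg⟩ := sub_one_of_isU_one W hunr h
  have hz : z ∈ contentRing W := h.mem
  refine ⟨g * ∑ i ∈ Finset.range q, z ^ i,
    Subring.mul_mem _ hg (Subring.sum_mem _ fun i _ => Subring.pow_mem _ hz i), ?_⟩
  have h1 : (((q : ℕ) : ↥W) : L) = ((q : ℕ) : L) := by push_cast; rfl
  rw [← mul_geom_sum z q, hzg, h1]
  ring

/-- at the middle valuation: a content unit of `W'` of reduction `1` has `q`-th power `≡ 1`
modulo `q`. -/
theorem pow_sub_one_mid (hcyc : CycData W q W' ζ) {z : LaurentSeries L'} (h : IsU W' z 1) :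
    ∃ g ∈ contentRing W', z ^ q - 1 = HahnSeries.C ((q : ℕ) : L') * g := by
  have hq : q.Prime := Fact.out
  obtain ⟨g, hg, hzg⟩ := sub_one_of_isU_one W' (CycLemmas.irreducible_one_sub W q W' ζ hcyc) h
  obtain ⟨u, hu, hu', hqu⟩ := CycLemmas.exists_unit_q W q W' ζ hcyc
  have hϖ : (1 - (ζ : L')) ∈ W' := CycLemmas.one_sub_mem W q W' ζ hcyc
  have hu0 : u ≠ 0 := by
    intro h0
    rw [h0, mul_zero] at hqu
    have h1 : ((q : ℕ) : L') = algebraMap L L' ((q : ℕ) : L) := (map_natCast _ q).symm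
    rw [h1, map_eq_zero_iff _ (algebraMap L L').injective] at hqu
    have hcz : CharZero L := algebraRat.charZero L
    exact hq.ne_zero (Nat.cast_eq_zero.mp hqu)
  have hϖq : (1 - (ζ : L')) ^ q = ((q : ℕ) : L') * (u⁻¹ * (1 - (ζ : L'))) := by
    rw [hqu]
    have e : q = (q - 1) + 1 := (Nat.sub_add_cancel hq.one_le).symm
    conv_lhs => rw [e, pow_succ]
    field_simp
  exact pow_sub_one_of_eq W' q hq hϖ (W'.mul_mem _ _ hu' hϖ) hϖq hg hzg

variable [Algebra ↥W (FF L (M * q * q))] [IsScalarTower ↥W L (FF L (M * q * q))]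

/-- **K2 tail.** If the three expansions of `e` are units of the content ring of `W'` with
reduction `1`, then `e ^ q ≡ 1` on the Gauss ring of level `M q²` (unramified level: `q` is a
uniformiser of `W`). -/
theorem gaussOne_pow_of_isU_one (hunr : Irreducible ((q : ℕ) : ↥W)) (hqM : ¬ q ∣ M)
    (hwα : w₁.comp (heckeAlphaBar L M q) = heckeBetaBar L M q)
    (hwβ : w₁.comp (heckeBetaBar L M q) = heckeAlphaBar L M q) (ι₀ : L' →+* ℂ)
    (hcyc : CycData W q W' ζ) (E : Exp3 M q w₁ ζ) (e : FF L (M * q * q))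
    (h₁ : IsU W' ((Conj3.cL : LaurentSeries L →+* LaurentSeries L') (e : LaurentSeries L)) 1)
    (h₂ : IsU W' (E.psi e) 1)
    (h₃ : IsU W' ((Conj3.cL : LaurentSeries L →+* LaurentSeries L') (E.phi0 e)) 1) :
    GaussOne ((q : ℕ) : ↥W) (jBC L (M * q * q)) (e ^ q) := by
  have hWW' : ∀ c : L, c ∈ W ↔ algebraMap L L' c ∈ W' := fun c => (hcyc.comap c).symm
  have u1 : IsU W (e : LaurentSeries L) 1 :=
    isU_one_of_cL_fracInt W (algebraMap L L') W' hWW' (coe_mem_fracInt W (M * q * q) e) h₁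
  have u3 : IsU W (E.phi0 e) 1 :=
    isU_one_of_cL_fracInt W (algebraMap L L') W' hWW'
      (Exp3Lemmas.phi0_mem_fracInt W M q w₁ ζ E e) h₃
  obtain ⟨g₁, hg₁, e1⟩ := pow_sub_one_unram W q hunr u1
  obtain ⟨g₂, hg₂, e2⟩ := pow_sub_one_unram W q hunr u3
  obtain ⟨g₃, hg₃, e3⟩ := pow_sub_one_mid W q W' ζ hcyc h₂
  have hπ : (((q : ℕ) : ↥W) : L) = ((q : ℕ) : L) := by push_cast; rfl
  refine ThreeInC.gaussOne_of_three W M q w₁ W' ζ hqM hwα hwβ ι₀ hcyc E hunr (e ^ q)
    g₁ g₂ g₃ hg₁ hg₂ hg₃ ?_ ?_ ?_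
  · rw [hπ, ← e1]
    push_cast
    rfl
  · rw [hπ, ← e2, map_pow]
  · rw [hπ, map_natCast, ← e3, map_pow]

end Fermat.Agent.S36.QTail
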