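/-
S36 (wave 8), K2 = `Core36.Gauss36 (M * q) q A`: at every unramified level and for every
`y ≠ 0`, `ecoreL y = E36 (y ^ (q - 1)) ^ q ≡ 1` on the Gauss ring of level `M q²`.

Assembly: the cyclotomic package (`CycData.exists_cycData`), the three expansions
(`Exp3Exists.exists_exp3`), the residue computation (`Norm36.isU_one_E36`: the three expansions of
`E36 (y ^ (q - 1))` are `≡ 1` modulo `1 - ζ`) and the tail (`QTail.gaussOne_pow_of_isU_one`: the
`q`-th power is `≡ 1` modulo `q` at the three valuations, hence `GaussOne`).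
-/
import Mathlib
import Fermat.Agent.S36.Core36
import Fermat.Agent.S36.VDefs
import Fermat.Agent.S36.CycData
import Fermat.Agent.S36.Exp3Exists
import Fermat.Agent.S36.QTail
import Fermat.Agent.S36.Norm36
import Fermat.Agent.S37.AtkinLehner
import Fermat.Agent.S34.DegreeL
import Fermat.Agent.S34.GLevel

set_option autoImplicit false

noncomputable section

namespace Fermat.Agent.S36.Gauss36Thm

open ModularCurve Fermat.Agent.S37 Fermat.Agent.S34 Fermat.Agent.S36.VDefs

local notation "Qb" => AlgebraicClosure ℚ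

/-- **K2 (GAUSS36).** -/
theorem gauss36 (M q : ℕ) [NeZero M] [NeZero q] (hq : q.Prime) (hqM : ¬ q ∣ M)
    (A : ValuationSubring Qb) (hA : A.LiesOverPrime q) : Core36.Gauss36 (M * q) q A := by
  refine ⟨∅, fun a ha => absurd ha (Finset.notMem_empty a), ?_⟩
  intro L _ _ ι hlev hirr y hy
  haveI : Fact q.Prime := ⟨hq⟩
  haveI := hlev.2.2.1
  haveI := hlev.2.2.2.2.2.1
  haveI := GLevel.isScalarTower_FF (M * q * q) (A.comap ι)
  obtain ⟨L', _, _, ι', ζ, hι', hdvr', hcyc⟩ := CycData.exists_cycData A q ι hirr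
  haveI := hdvr'
  obtain ⟨ιC⟩ := DegreeL.nonempty_bar_to_complex
  obtain ⟨w, hwα, hwβ⟩ := AtkinLehner.exists_atkinLehner_of_emb (ιC.comp ι) M q hq hqM
  obtain ⟨E⟩ := Exp3Exists.exists_exp3 M q
    (w : S24.FF L (M * q) →ₐ[L] S24.FF L (M * q)) ζ hqM hwα hwβ (ιC.comp ι') hcyc.prim
  have h3 := Norm36.isU_one_E36 (A.comap ι) M q
    (w : S24.FF L (M * q) →ₐ[L] S24.FF L (M * q)) (A.comap ι') ζ hirr hqM hwα hwβ
    (ιC.comp ι') hcyc E y hy
  exact QTail.gaussOne_pow_of_isU_one (A.comap ι) M q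
    (w : S24.FF L (M * q) →ₐ[L] S24.FF L (M * q)) (A.comap ι') ζ hirr hqM hwα hwβ
    (ιC.comp ι') hcyc E _ h3.1 h3.2.1 h3.2.2

end Fermat.Agent.S36.Gauss36Thm
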