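/-
S36 (wave 8), package K6/K7 of the ledger: **the coefficient rings `W[x₀]` of the two charts.**

`W` a UFD (a discrete valuation ring in the application), `F` a field over `W`, `x₀ ∈ F`
transcendental over `W` (`x₀ = j` or `x₀ = 1/j`), `R = Algebra.adjoin W {x₀} ≅ W[X]`.

* `adjoinEquiv x₀ hx : W[X] ≃+* R` (evaluation at `x₀`);
* `isIntegrallyClosed_adjoin` : `R` is integrally closed;
* `prime_algebraMap_adjoin` : a prime `π` of `W` stays prime in `R`;
* `exists_isIntegral_mul_of_inC` : if `x - 1 = π * c` with `c` in the integral closure of the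
  Gauss ring `W[x₀]_(π)` (`S18.Endgame.InC π x₀ c`), then `g * x` is integral over `R` for some
  `g ∈ R`, `π ∤ g`;
* `gaussOne_int`, `gaussOne_int_inv` : the same from `KummerStep.GaussOne π j x`, on the chart
  `W[j]` and on the chart `W[1/j]` — the hypothesis `hG1int` of `HLocAbs.hloc_of_chain`;
* `transcendental_of_fraction` : transcendence over `L = Frac W` implies transcendence over `W`.

Level instances (`W = ` a discrete valuation subring of `L`, `F = FF L N`, `j = jBC L N`):
`isIntegrallyClosed_fin/_inf`, `prime_fin/_inf`, `gaussOne_int_fin/_inf`.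
-/
import Mathlib
import Fermat.Agent.S34.KummerStep
import Fermat.Agent.S34.GLevel
import Fermat.Agent.S18.Endgame
import Fermat.Agent.S18.RamJIdeal

set_option autoImplicit false
set_option linter.unusedSectionVars false
set_option linter.style.haveILetI false

noncomputable section

namespace Fermat.Agent.S36.GaussInt

open Polynomial Fermat.Agent.S18 Fermat.Agent.S18.Endgame Fermat.Agent.S34.KummerStep

/-! ### The abstract chart coefficient ring -/

section Abstract

variable {W F : Type*} [CommRing W] [IsDomain W] [Field F] [Algebra W F]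

/-- evaluation at `x₀`, with values in `W[x₀]` -/
def adjoinHom (x₀ : F) : W[X] →+* ↥(Algebra.adjoin W {x₀}) :=
  (((aeval x₀ : W[X] →ₐ[W] F).codRestrict (Algebra.adjoin W {x₀})
    (fun _ => aeval_mem_adjoin_singleton W x₀) : W[X] →ₐ[W] ↥(Algebra.adjoin W {x₀})) :
      W[X] →+* ↥(Algebra.adjoin W {x₀}))

theorem adjoinHom_coe (x₀ : F) (p : W[X]) :
    ((adjoinHom x₀ p : ↥(Algebra.adjoin W {x₀})) : F) = aeval x₀ p := rfl

theorem adjoinHom_C (x₀ : F) (a : W) :
    adjoinHom x₀ (C a) = algebraMap W ↥(Algebra.adjoin W {x₀}) a := by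
  apply Subtype.ext
  rw [adjoinHom_coe, aeval_C]
  rfl

theorem adjoinHom_surjective (x₀ : F) : Function.Surjective (adjoinHom (W := W) x₀) := by
  rintro ⟨z, hz⟩
  rw [Algebra.adjoin_singleton_eq_range_aeval] at hz
  obtain ⟨p, rfl⟩ := hz
  exact ⟨p, Subtype.ext (adjoinHom_coe x₀ p)⟩

theorem adjoinHom_injective (x₀ : F) (hx : Transcendental W x₀) :
    Function.Injective (adjoinHom (W := W) x₀) := by
  intro p q hpq
  have h1 : aeval x₀ p = aeval x₀ q := by
    rw [← adjoinHom_coe, ← adjoinHom_coe, hpq]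
  exact (transcendental_iff_injective.mp hx) h1

/-- **`W[X] ≃ W[x₀]`** for transcendental `x₀`. -/
def adjoinEquiv (x₀ : F) (hx : Transcendental W x₀) : W[X] ≃+* ↥(Algebra.adjoin W {x₀}) :=
  RingEquiv.ofBijective (adjoinHom x₀) ⟨adjoinHom_injective x₀ hx, adjoinHom_surjective x₀⟩

theorem adjoinEquiv_apply (x₀ : F) (hx : Transcendental W x₀) (p : W[X]) :
    adjoinEquiv x₀ hx p = adjoinHom x₀ p := rfl

/-- `W[x₀]` is integrally closed. -/
theorem isIntegrallyClosed_adjoin [UniqueFactorizationMonoid W] (x₀ : F)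
    (hx : Transcendental W x₀) : IsIntegrallyClosed ↥(Algebra.adjoin W {x₀}) :=
  IsIntegrallyClosed.of_equiv (adjoinEquiv x₀ hx)

/-- a prime of `W` stays prime in `W[x₀]`. -/
theorem prime_algebraMap_adjoin (x₀ : F) (hx : Transcendental W x₀) {π : W} (hπ : Prime π) :
    Prime (algebraMap W ↥(Algebra.adjoin W {x₀}) π) := by
  rw [← adjoinHom_C, ← adjoinEquiv_apply x₀ hx]
  exact (MulEquiv.prime_iff (adjoinEquiv x₀ hx).toMulEquiv).mpr (prime_C_iff.mpr hπ)

/-- divisibility by `π` in `W[x₀]` is divisibility by `C π` in `W[X]`. -/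
theorem algebraMap_dvd_adjoinHom_iff (x₀ : F) (hx : Transcendental W x₀) (π : W) (p : W[X]) :
    algebraMap W ↥(Algebra.adjoin W {x₀}) π ∣ adjoinHom x₀ p ↔ C π ∣ p := by
  rw [← adjoinHom_C, ← adjoinEquiv_apply x₀ hx, ← adjoinEquiv_apply x₀ hx]
  exact map_dvd_iff (adjoinEquiv x₀ hx)

/-- **The integral multiple.**  If `x - 1 = π * c` with `c` in the integral closure of the Gauss
ring `W[x₀]_(π)`, then `g * x` is integral over `W[x₀]` for some `g ∈ W[x₀]`, `π ∤ g`. -/
theorem exists_isIntegral_mul_of_inC (x₀ : F) (hx : Transcendental W x₀) {π : W} {c x : F}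
    (hc : InC π x₀ c) (hxc : x - 1 = algebraMap W F π * c) :
    ∃ g : ↥(Algebra.adjoin W {x₀}), ¬ algebraMap W ↥(Algebra.adjoin W {x₀}) π ∣ g ∧
      IsIntegral ↥(Algebra.adjoin W {x₀}) (algebraMap ↥(Algebra.adjoin W {x₀}) F g * x) := by
  obtain ⟨p, hp, hint⟩ := hc
  refine ⟨adjoinHom x₀ p, fun h => hp ((algebraMap_dvd_adjoinHom_iff x₀ hx π p).mp h), ?_⟩
  have hint' : IsIntegral ↥(Algebra.adjoin W {x₀}) (aeval x₀ p * c) :=
    (isInt_iff_isIntegral_adjoin (Y := F) x₀ _).mp hint
  have hx' : x = 1 + algebraMap W F π * c := by rw [← hxc]; ring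
  have e : algebraMap ↥(Algebra.adjoin W {x₀}) F (adjoinHom x₀ p) * x =
      algebraMap ↥(Algebra.adjoin W {x₀}) F (adjoinHom x₀ p) +
        algebraMap ↥(Algebra.adjoin W {x₀}) F (algebraMap W ↥(Algebra.adjoin W {x₀}) π) *
          (aeval x₀ p * c) := by
    have h1 : algebraMap ↥(Algebra.adjoin W {x₀}) F (adjoinHom x₀ p) = aeval x₀ p := rfl
    have h2 : algebraMap ↥(Algebra.adjoin W {x₀}) F
        (algebraMap W ↥(Algebra.adjoin W {x₀}) π) = algebraMap W F π := rfl
    rw [h1, h2, hx']
    ring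
  rw [e]
  exact isIntegral_algebraMap.add (isIntegral_algebraMap.mul hint')

/-- **`hG1int` on the chart `W[j]`.** -/
theorem gaussOne_int (j : F) (hj : Transcendental W j) {π : W} (hπF : algebraMap W F π ≠ 0)
    {x : F} (h : GaussOne π j x) :
    ∃ g : ↥(Algebra.adjoin W {j}), ¬ algebraMap W ↥(Algebra.adjoin W {j}) π ∣ g ∧
      IsIntegral ↥(Algebra.adjoin W {j}) (algebraMap ↥(Algebra.adjoin W {j}) F g * x) := by
  obtain ⟨c, hc, hxc⟩ := h.inC hπF
  exact exists_isIntegral_mul_of_inC j hj hc hxc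

/-- **`hG1int` on the chart `W[1/j]`.** -/
theorem gaussOne_int_inv (j : F) (hj : Transcendental W j) {π : W}
    (hπF : algebraMap W F π ≠ 0) {x : F} (h : GaussOne π j x) :
    ∃ g : ↥(Algebra.adjoin W {j⁻¹}), ¬ algebraMap W ↥(Algebra.adjoin W {j⁻¹}) π ∣ g ∧
      IsIntegral ↥(Algebra.adjoin W {j⁻¹}) (algebraMap ↥(Algebra.adjoin W {j⁻¹}) F g * x) := by
  obtain ⟨c, hc, hxc⟩ := h.inC hπF
  exact exists_isIntegral_mul_of_inC j⁻¹ (transcendental_inv hj)
    (InC.to_inv (ne_zero_of_transcendental hj) hc) hxc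

end Abstract

/-- transcendence over the fraction field implies transcendence over the ring -/
theorem transcendental_of_fraction {W L F : Type*} [CommRing W] [IsDomain W] [Field L]
    [Algebra W L] [IsFractionRing W L] [Field F] [Algebra L F] [Algebra W F]
    [IsScalarTower W L F] {j : F} (hj : Transcendental L j) : Transcendental W j := by
  intro ⟨p, hp0, hp⟩
  refine hj ⟨p.map (algebraMap W L),
    (Polynomial.map_ne_zero_iff (IsFractionRing.injective W L)).mpr hp0, ?_⟩
  rw [aeval_map_algebraMap]; exact hp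

/-! ### The two charts of a level -/

section Level

open ModularCurve

local notation "Qb" => AlgebraicClosure ℚ

variable {L : Type} [Field L] [Algebra ℚ L] (ι : L →+* Qb) (W : ValuationSubring L)
  [IsDiscreteValuationRing W] (N : ℕ) [NeZero N]

set_option maxHeartbeats 800000 in
-- the instance `Algebra ↥W (FF L N)` is found slowly
include ι in
/-- `j` is transcendental over `W`. -/
theorem transcendental_jBC : Transcendental ↥W (Fermat.Agent.S24.jBC L N) := by
  haveI : IsScalarTower ↥W L (Fermat.Agent.S24.FF L N) :=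
    Fermat.Agent.S34.GLevel.isScalarTower_FF N W
  exact transcendental_of_fraction (L := L) (Fermat.Agent.S18.RamJ.transcendental_jBC ι N)

set_option maxHeartbeats 800000 in
-- the instance `Algebra ↥W (FF L N)` is found slowly
include ι in
/-- `W[j]` is integrally closed. -/
theorem isIntegrallyClosed_fin :
    IsIntegrallyClosed ↥(Algebra.adjoin ↥W {Fermat.Agent.S24.jBC L N}) :=
  isIntegrallyClosed_adjoin _ (transcendental_jBC ι W N)

set_option maxHeartbeats 800000 in
-- the instance `Algebra ↥W (FF L N)` is found slowly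
include ι in
/-- `W[1/j]` is integrally closed. -/
theorem isIntegrallyClosed_inf :
    IsIntegrallyClosed ↥(Algebra.adjoin ↥W {(Fermat.Agent.S24.jBC L N)⁻¹}) :=
  isIntegrallyClosed_adjoin _ (transcendental_inv (transcendental_jBC ι W N))

set_option maxHeartbeats 800000 in
-- the instance `Algebra ↥W (FF L N)` is found slowly
include ι in
/-- a uniformiser of `W` is prime in `W[j]`. -/
theorem prime_fin {π : W} (hπ : Irreducible π) :
    Prime (algebraMap ↥W ↥(Algebra.adjoin ↥W {Fermat.Agent.S24.jBC L N}) π) :=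
  prime_algebraMap_adjoin _ (transcendental_jBC ι W N) hπ.prime

set_option maxHeartbeats 800000 in
-- the instance `Algebra ↥W (FF L N)` is found slowly
include ι in
/-- a uniformiser of `W` is prime in `W[1/j]`. -/
theorem prime_inf {π : W} (hπ : Irreducible π) :
    Prime (algebraMap ↥W ↥(Algebra.adjoin ↥W {(Fermat.Agent.S24.jBC L N)⁻¹}) π) :=
  prime_algebraMap_adjoin _ (transcendental_inv (transcendental_jBC ι W N)) hπ.prime

set_option maxHeartbeats 800000 in
-- the instance `Algebra ↥W (FF L N)` is found slowly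
theorem algebraMap_ne_zero {π : W} (hπ : Irreducible π) :
    algebraMap ↥W (Fermat.Agent.S24.FF L N) π ≠ 0 := by
  have hπL : (π : L) ≠ 0 := fun h0 => hπ.ne_zero (Subtype.ext h0)
  show algebraMap L (Fermat.Agent.S24.FF L N) (π : L) ≠ 0
  exact (_root_.map_ne_zero _).mpr hπL

set_option maxHeartbeats 800000 in
-- the instance `Algebra ↥W (FF L N)` is found slowly
include ι in
/-- **`hG1int` on the finite chart of a level.** -/
theorem gaussOne_int_fin {π : W} (hπ : Irreducible π) {x : Fermat.Agent.S24.FF L N}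
    (h : GaussOne π (Fermat.Agent.S24.jBC L N) x) :
    ∃ g : ↥(Algebra.adjoin ↥W {Fermat.Agent.S24.jBC L N}),
      ¬ algebraMap ↥W ↥(Algebra.adjoin ↥W {Fermat.Agent.S24.jBC L N}) π ∣ g ∧
      IsIntegral ↥(Algebra.adjoin ↥W {Fermat.Agent.S24.jBC L N})
        (algebraMap ↥(Algebra.adjoin ↥W {Fermat.Agent.S24.jBC L N})
          (Fermat.Agent.S24.FF L N) g * x) :=
  gaussOne_int _ (transcendental_jBC ι W N) (algebraMap_ne_zero W N hπ) h

set_option maxHeartbeats 800000 in
-- the instance `Algebra ↥W (FF L N)` is found slowly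
include ι in
/-- **`hG1int` on the chart at infinity of a level.** -/
theorem gaussOne_int_inf {π : W} (hπ : Irreducible π) {x : Fermat.Agent.S24.FF L N}
    (h : GaussOne π (Fermat.Agent.S24.jBC L N) x) :
    ∃ g : ↥(Algebra.adjoin ↥W {(Fermat.Agent.S24.jBC L N)⁻¹}),
      ¬ algebraMap ↥W ↥(Algebra.adjoin ↥W {(Fermat.Agent.S24.jBC L N)⁻¹}) π ∣ g ∧
      IsIntegral ↥(Algebra.adjoin ↥W {(Fermat.Agent.S24.jBC L N)⁻¹})
        (algebraMap ↥(Algebra.adjoin ↥W {(Fermat.Agent.S24.jBC L N)⁻¹})
          (Fermat.Agent.S24.FF L N) g * x) :=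
  gaussOne_int_inv _ (transcendental_jBC ι W N) (algebraMap_ne_zero W N hπ) h

end Level

end Fermat.Agent.S36.GaussInt
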