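import Mathlib

/-!
# S36 (K6, HLOC-S): horizontal units, pull-back and norm

Multiplier currency.  `ι : B →+* F` is the inclusion of a chart ring into its function field.

* `UnitAt ι 𝔮 h` : `h` is a unit of the local ring `B_𝔮` (`h = a / d` with `a, d ∉ 𝔮`).
* `HU ι π T h`   : `h` is a unit of `B_𝔮` for every prime `𝔮 ∌ π` lying below a member of `T`
  (`h` has neither zeros nor poles along the horizontal primes through the points of `T`).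

Main statements:

* `HU.pull` (PULL): along `ψ : B' →+* B`, `φ : F₁ →+* F` (`φ ∘ ι' = ι ∘ ψ`), if every member of `T`
  contracts into a member of `T'` then `HU ι' π' T' g → HU ι (ψ π') T (φ g)`.
* `HU.norm` (NORM): if moreover `ψ` is integral, `B'` is integrally closed in `F₁` and `T`
  contains every prime of `B` lying over a member of `T'`, then
  `HU ι (ψ π') T h → HU ι' π' T' (N h)`, `N` the norm of `F / F₁` along `φ`.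
* `HU.omega_step` : both degeneracy maps at once, for `Ω h = φα (N_α h) * φβ (N_β h)`.
-/

set_option autoImplicit false
set_option linter.style.haveILetI false

namespace Fermat.Agent.S36.HUnit

variable {B F : Type*} [CommRing B] [Field F]

/-- `h` is a unit of the local ring `B_𝔮`. -/
def UnitAt (ι : B →+* F) (𝔮 : Ideal B) (h : F) : Prop :=
  ∃ a d : B, a ∉ 𝔮 ∧ d ∉ 𝔮 ∧ ι d * h = ι a

/-- `h` is a unit at every prime `𝔮 ∌ π` below a member of `T`. -/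
def HU (ι : B →+* F) (π : B) (T : Set (Ideal B)) (h : F) : Prop :=
  ∀ 𝔮 : Ideal B, 𝔮.IsPrime → π ∉ 𝔮 → (∃ 𝔫 ∈ T, 𝔮 ≤ 𝔫) → UnitAt ι 𝔮 h

namespace UnitAt

variable {ι : B →+* F} {𝔮 : Ideal B} {h h' : F}

theorem one (h𝔮 : 𝔮.IsPrime) : UnitAt ι 𝔮 1 :=
  ⟨1, 1, fun h1 => h𝔮.ne_top ((Ideal.eq_top_iff_one _).mpr h1),
    fun h1 => h𝔮.ne_top ((Ideal.eq_top_iff_one _).mpr h1), by rw [mul_one]⟩

theorem mul (h𝔮 : 𝔮.IsPrime) (hh : UnitAt ι 𝔮 h) (hh' : UnitAt ι 𝔮 h') :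
    UnitAt ι 𝔮 (h * h') := by
  obtain ⟨a, d, ha, hd, e⟩ := hh
  obtain ⟨a', d', ha', hd', e'⟩ := hh'
  refine ⟨a * a', d * d', fun hm => ?_, fun hm => ?_, ?_⟩
  · rcases h𝔮.mem_or_mem hm with h1 | h1
    exacts [ha h1, ha' h1]
  · rcases h𝔮.mem_or_mem hm with h1 | h1
    exacts [hd h1, hd' h1]
  · rw [map_mul, map_mul, ← e, ← e']; ring

theorem ne_zero (hι : Function.Injective ι) (hh : UnitAt ι 𝔮 h) : h ≠ 0 := by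
  obtain ⟨a, d, ha, -, e⟩ := hh
  rintro rfl
  rw [mul_zero] at e
  have : a = 0 := hι (by rw [← e, map_zero])
  exact ha (this ▸ zero_mem _)

theorem inv (hι : Function.Injective ι) (hh : UnitAt ι 𝔮 h) : UnitAt ι 𝔮 h⁻¹ := by
  have h0 := hh.ne_zero hι
  obtain ⟨a, d, ha, hd, e⟩ := hh
  refine ⟨d, a, hd, ha, ?_⟩
  rw [← e]
  field_simp

theorem pow (h𝔮 : 𝔮.IsPrime) (hh : UnitAt ι 𝔮 h) (n : ℕ) : UnitAt ι 𝔮 (h ^ n) := by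
  induction n with
  | zero => rw [pow_zero]; exact one h𝔮
  | succ n ih => rw [pow_succ]; exact ih.mul h𝔮 hh

theorem div (hι : Function.Injective ι) (h𝔮 : 𝔮.IsPrime) (hh : UnitAt ι 𝔮 h)
    (hh' : UnitAt ι 𝔮 h') : UnitAt ι 𝔮 (h / h') := by
  rw [div_eq_mul_inv]
  exact hh.mul h𝔮 (hh'.inv hι)

/-- the image of an element outside `𝔮` -/
theorem of_notMem {b : B} (h𝔮 : 𝔮.IsPrime) (hb : b ∉ 𝔮) : UnitAt ι 𝔮 (ι b) :=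
  ⟨b, 1, hb, fun h1 => h𝔮.ne_top ((Ideal.eq_top_iff_one _).mpr h1), by rw [map_one, one_mul]⟩

end UnitAt

namespace HU

variable {ι : B →+* F} {π : B} {T : Set (Ideal B)} {h h' : F}

theorem one : HU ι π T 1 := fun _ h𝔮 _ _ => UnitAt.one h𝔮

theorem mul (hh : HU ι π T h) (hh' : HU ι π T h') : HU ι π T (h * h') :=
  fun 𝔮 h𝔮 hπ hT => (hh 𝔮 h𝔮 hπ hT).mul h𝔮 (hh' 𝔮 h𝔮 hπ hT)

theorem inv (hι : Function.Injective ι) (hh : HU ι π T h) : HU ι π T h⁻¹ :=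
  fun 𝔮 h𝔮 hπ hT => (hh 𝔮 h𝔮 hπ hT).inv hι

theorem pow (hh : HU ι π T h) (n : ℕ) : HU ι π T (h ^ n) :=
  fun 𝔮 h𝔮 hπ hT => (hh 𝔮 h𝔮 hπ hT).pow h𝔮 n

theorem div (hι : Function.Injective ι) (hh : HU ι π T h) (hh' : HU ι π T h') :
    HU ι π T (h / h') :=
  fun 𝔮 h𝔮 hπ hT => (hh 𝔮 h𝔮 hπ hT).div hι h𝔮 (hh' 𝔮 h𝔮 hπ hT)

theorem mono {T₀ : Set (Ideal B)} (hT : T₀ ⊆ T) (hh : HU ι π T h) : HU ι π T₀ h :=
  fun 𝔮 h𝔮 hπ ⟨𝔫, h𝔫, hle⟩ => hh 𝔮 h𝔮 hπ ⟨𝔫, hT h𝔫, hle⟩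

theorem ne_zero_of_mem (hι : Function.Injective ι) {𝔫 : Ideal B} (h𝔫 : 𝔫 ∈ T)
    [IsDomain B] (hh : HU ι π T h) (hπ : π ≠ 0) : h ≠ 0 :=
  (hh ⊥ Ideal.isPrime_bot (fun h0 => hπ ((Ideal.mem_bot).mp h0)) ⟨𝔫, h𝔫, bot_le⟩).ne_zero hι

variable {B' F₁ : Type*} [CommRing B'] [Field F₁]

/-- **(PULL)** -/
theorem pull (ι' : B' →+* F₁) (ι : B →+* F) (ψ : B' →+* B) (φ : F₁ →+* F)
    (hcomm : ∀ b : B', φ (ι' b) = ι (ψ b)) (π' : B') (T' : Set (Ideal B')) (T : Set (Ideal B))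
    (hT : ∀ 𝔫 ∈ T, ∃ 𝔫' ∈ T', 𝔫.comap ψ ≤ 𝔫') {g : F₁} (hg : HU ι' π' T' g) :
    HU ι (ψ π') T (φ g) := by
  intro 𝔮 h𝔮 hπ ⟨𝔫, h𝔫, hle⟩
  obtain ⟨𝔫', h𝔫', hle'⟩ := hT 𝔫 h𝔫
  have hprime : (𝔮.comap ψ).IsPrime := Ideal.comap_isPrime ψ 𝔮
  obtain ⟨a, d, ha, hd, e⟩ := hg (𝔮.comap ψ) hprime (fun h1 => hπ h1)
    ⟨𝔫', h𝔫', (Ideal.comap_mono hle).trans hle'⟩
  refine ⟨ψ a, ψ d, fun h1 => ha h1, fun h1 => hd h1, ?_⟩
  rw [← hcomm, ← hcomm, ← map_mul, e]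

/-- **(NORM)** -/
theorem norm (ι' : B' →+* F₁) (hι' : Function.Injective ι') (ι : B →+* F)
    (hι : Function.Injective ι) (ψ : B' →+* B) (hψ : ψ.IsIntegral) (φ : F₁ →+* F)
    (hcomm : ∀ b : B', φ (ι' b) = ι (ψ b))
    (hclosed : ∀ x : F₁, ι'.IsIntegralElem x → ∃ b : B', ι' b = x)
    (π' : B') (T' : Set (Ideal B')) (hT'prime : ∀ 𝔫' ∈ T', 𝔫'.IsPrime) (T : Set (Ideal B))
    (hT : ∀ 𝔫' ∈ T', ∀ 𝔫 : Ideal B, 𝔫.IsPrime → 𝔫.comap ψ = 𝔫' → 𝔫 ∈ T)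
    {h : F} (hh : HU ι (ψ π') T h) :
    HU ι' π' T' (@Algebra.norm F₁ F _ _ φ.toAlgebra h) := by
  intro 𝔮' h𝔮' hπ ⟨𝔫', h𝔫', hle⟩
  letI : Algebra B' B := ψ.toAlgebra
  haveI : Algebra.IsIntegral B' B := ⟨hψ⟩
  haveI := hT'prime 𝔫' h𝔫'
  -- `h` is a unit at every prime over `𝔮'`
  have hunit : ∀ Q : Ideal B, Q.IsPrime → Q.comap ψ = 𝔮' → UnitAt ι Q h := by
    intro Q hQ hQc
    have hQle : Q.comap (algebraMap B' B) ≤ 𝔫' := by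
      show Q.comap ψ ≤ 𝔫'
      rw [hQc]; exact hle
    obtain ⟨𝔫, h𝔫Q, h𝔫prime, h𝔫c⟩ := Ideal.exists_ideal_over_prime_of_isIntegral 𝔫' Q hQle
    refine hh Q hQ (fun h1 => hπ ?_) ⟨𝔫, hT 𝔫' h𝔫' 𝔫 h𝔫prime h𝔫c, h𝔫Q⟩
    rw [← hQc]; exact h1
  -- clearing denominators by an element of `B' ∖ 𝔮'`
  have hclear : ∀ x : F, (∀ Q : Ideal B, Q.IsPrime → Q.comap ψ = 𝔮' → UnitAt ι Q x) →
      ∃ d' : B', d' ∉ 𝔮' ∧ ∃ b : B, ι (ψ d') * x = ι b := by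
    intro x hx
    let I : Ideal B :=
      { carrier := {d | ∃ b : B, ι d * x = ι b}
        zero_mem' := ⟨0, by rw [map_zero, zero_mul]⟩
        add_mem' := by
          rintro d₁ d₂ ⟨b₁, h₁⟩ ⟨b₂, h₂⟩
          exact ⟨b₁ + b₂, by rw [map_add, map_add, add_mul, h₁, h₂]⟩
        smul_mem' := by
          rintro c d ⟨b, hb⟩
          exact ⟨c * b, by rw [smul_eq_mul, map_mul, map_mul, mul_assoc, hb]⟩ }
    by_contra hcon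
    have hIle : I.comap (algebraMap B' B) ≤ 𝔮' := by
      intro d' hd'
      by_contra hd'q
      exact hcon ⟨d', hd'q, hd'⟩
    obtain ⟨Q, hQI, hQprime, hQc⟩ := Ideal.exists_ideal_over_prime_of_isIntegral 𝔮' I hIle
    obtain ⟨a, d, -, hd, e⟩ := hx Q hQprime hQc
    exact hd (hQI ⟨a, e⟩)
  have hunit' : ∀ Q : Ideal B, Q.IsPrime → Q.comap ψ = 𝔮' → UnitAt ι Q h⁻¹ :=
    fun Q hQ hQc => (hunit Q hQ hQc).inv hι
  obtain ⟨d₁, hd₁, b₁, e₁⟩ := hclear h hunit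
  obtain ⟨d₂, hd₂, b₂, e₂⟩ := hclear h⁻¹ hunit'
  -- `ψ` is injective, so there is a prime over `𝔮'`
  have hψinj : Function.Injective ψ := by
    intro x y hxy
    have h1 : φ (ι' x) = φ (ι' y) := by rw [hcomm, hcomm, hxy]
    exact hι' (φ.injective h1)
  have hh0 : h ≠ 0 := by
    have hbot : (⊥ : Ideal B).comap (algebraMap B' B) ≤ 𝔮' := by
      intro x hx
      have hx0 : ψ x = 0 := by
        have h1 : algebraMap B' B x = 0 := by simpa using hx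
        exact h1
      have : x = 0 := hψinj (by rw [hx0, map_zero])
      rw [this]; exact zero_mem _
    obtain ⟨Q, -, hQprime, hQc⟩ :=
      Ideal.exists_ideal_over_prime_of_isIntegral 𝔮' (⊥ : Ideal B) hbot
    exact (hunit Q hQprime hQc).ne_zero hι
  -- norms of elements of `B` lie in `B'`
  letI : Algebra F₁ F := φ.toAlgebra
  letI : Algebra B' F₁ := ι'.toAlgebra
  letI : Algebra B' F := (φ.comp ι').toAlgebra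
  haveI : IsScalarTower B' F₁ F := IsScalarTower.of_algebraMap_eq (fun _ => rfl)
  have hint : ∀ b : B, IsIntegral B' (ι b) := by
    intro b
    obtain ⟨P, hmonic, hP⟩ := hψ b
    refine ⟨P, hmonic, ?_⟩
    have h1 : (algebraMap B' F) = ι.comp ψ := RingHom.ext (fun x => hcomm x)
    rw [h1, ← Polynomial.hom_eval₂, hP, map_zero]
  have hnorm : ∀ b : B, ∃ c : B', ι' c = Algebra.norm F₁ (ι b) := fun b =>
    hclosed _ (Algebra.isIntegral_norm F₁ (hint b))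
  have hnormψ : ∀ d : B', Algebra.norm F₁ (ι (ψ d)) = ι' d ^ Module.finrank F₁ F := by
    intro d
    rw [← hcomm]
    exact Algebra.norm_algebraMap (ι' d)
  obtain ⟨c₁, hc₁⟩ := hnorm b₁
  obtain ⟨c₂, hc₂⟩ := hnorm b₂
  have E₁ : ι' d₁ ^ Module.finrank F₁ F * Algebra.norm F₁ h = ι' c₁ := by
    rw [hc₁, ← e₁, map_mul, hnormψ]
  have E₂ : ι' d₂ ^ Module.finrank F₁ F * Algebra.norm F₁ h⁻¹ = ι' c₂ := by
    rw [hc₂, ← e₂, map_mul, hnormψ]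
  have hN : Algebra.norm F₁ h * Algebra.norm F₁ h⁻¹ = 1 := by
    rw [← map_mul, mul_inv_cancel₀ hh0, map_one]
  have hprod : c₁ * c₂ = d₁ ^ Module.finrank F₁ F * d₂ ^ Module.finrank F₁ F := by
    apply hι'
    rw [map_mul, map_mul, map_pow, map_pow, ← E₁, ← E₂]
    linear_combination (ι' d₁ ^ Module.finrank F₁ F * ι' d₂ ^ Module.finrank F₁ F) * hN
  have hc₁q : c₁ ∉ 𝔮' := by
    intro hc
    have : d₁ ^ Module.finrank F₁ F * d₂ ^ Module.finrank F₁ F ∈ 𝔮' := by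
      rw [← hprod]; exact Ideal.mul_mem_right _ _ hc
    rcases h𝔮'.mem_or_mem this with h1 | h1
    · exact hd₁ (h𝔮'.mem_of_pow_mem _ h1)
    · exact hd₂ (h𝔮'.mem_of_pow_mem _ h1)
  exact ⟨c₁, d₁ ^ Module.finrank F₁ F, hc₁q, fun h1 => hd₁ (h𝔮'.mem_of_pow_mem _ h1), by
    rw [map_pow]; exact E₁⟩

/-- **(OMEGA-STEP)** both degeneracy maps at once: `Ω h = φα (N_α h) * φβ (N_β h)`. -/
theorem omega_step (ι' : B' →+* F₁) (hι' : Function.Injective ι') (ι : B →+* F)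
    (hι : Function.Injective ι)
    (ψα ψβ : B' →+* B) (hψα : ψα.IsIntegral) (hψβ : ψβ.IsIntegral) (φα φβ : F₁ →+* F)
    (hcommα : ∀ b : B', φα (ι' b) = ι (ψα b)) (hcommβ : ∀ b : B', φβ (ι' b) = ι (ψβ b))
    (hclosed : ∀ x : F₁, ι'.IsIntegralElem x → ∃ b : B', ι' b = x)
    (π' : B') (π : B) (hπα : ψα π' = π) (hπβ : ψβ π' = π)
    (T₀ T₁ : Set (Ideal B)) (hT₀prime : ∀ 𝔫 ∈ T₀, 𝔫.IsPrime)
    (hTα : ∀ 𝔫 ∈ T₀, ∀ 𝔫₂ : Ideal B, 𝔫₂.IsPrime → 𝔫₂.comap ψα = 𝔫.comap ψα → 𝔫₂ ∈ T₁)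
    (hTβ : ∀ 𝔫 ∈ T₀, ∀ 𝔫₂ : Ideal B, 𝔫₂.IsPrime → 𝔫₂.comap ψβ = 𝔫.comap ψβ → 𝔫₂ ∈ T₁)
    {h : F} (hh : HU ι π T₁ h) :
    HU ι π T₀ (φα (@Algebra.norm F₁ F _ _ φα.toAlgebra h) *
      φβ (@Algebra.norm F₁ F _ _ φβ.toAlgebra h)) := by
  refine HU.mul ?_ ?_
  · have h1 : HU ι' π' ((fun 𝔫 : Ideal B => 𝔫.comap ψα) '' T₀)
        (@Algebra.norm F₁ F _ _ φα.toAlgebra h) := by
      refine norm ι' hι' ι hι ψα hψα φα hcommα hclosed π' _ ?_ T₁ ?_ (hπα ▸ hh)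
      · rintro _ ⟨𝔫, h𝔫, rfl⟩
        haveI := hT₀prime 𝔫 h𝔫
        exact Ideal.comap_isPrime ψα 𝔫
      · rintro _ ⟨𝔫, h𝔫, rfl⟩ 𝔫₂ h𝔫₂ hc
        exact hTα 𝔫 h𝔫 𝔫₂ h𝔫₂ hc
    have h2 := pull ι' ι ψα φα hcommα π' ((fun 𝔫 : Ideal B => 𝔫.comap ψα) '' T₀) T₀
      (fun 𝔫 h𝔫 => ⟨𝔫.comap ψα, ⟨𝔫, h𝔫, rfl⟩, le_rfl⟩) h1
    rwa [hπα] at h2
  · have h1 : HU ι' π' ((fun 𝔫 : Ideal B => 𝔫.comap ψβ) '' T₀)
        (@Algebra.norm F₁ F _ _ φβ.toAlgebra h) := by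
      refine norm ι' hι' ι hι ψβ hψβ φβ hcommβ hclosed π' _ ?_ T₁ ?_ (hπβ ▸ hh)
      · rintro _ ⟨𝔫, h𝔫, rfl⟩
        haveI := hT₀prime 𝔫 h𝔫
        exact Ideal.comap_isPrime ψβ 𝔫
      · rintro _ ⟨𝔫, h𝔫, rfl⟩ 𝔫₂ h𝔫₂ hc
        exact hTβ 𝔫 h𝔫 𝔫₂ h𝔫₂ hc
    have h2 := pull ι' ι ψβ φβ hcommβ π' ((fun 𝔫 : Ideal B => 𝔫.comap ψβ) '' T₀) T₀
      (fun 𝔫 h𝔫 => ⟨𝔫.comap ψβ, ⟨𝔫, h𝔫, rfl⟩, le_rfl⟩) h1
    rwa [hπβ] at h2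

end HU

end Fermat.Agent.S36.HUnit
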