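/-
S36 (wave 8), package (HLOC), contract K6 (FACT), abstract part (Mathlib only).

* `exists_common_gen` (CRT-GEN): an ideal that is principal locally at each of finitely many
  maximal ideals has ONE generator at all of them (multiplier currency, no localisation).
* `le_of_localGen` : a locally principal prime of a Noetherian domain has height one.
* `exists_factor` (FACT): `B` a Noetherian domain with fraction field `F`, `T` a finite set of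
  maximal ideals, every nonzero prime below `T` not containing `π` locally principal, and `f ∈ F`
  whose valuation at each such prime is divisible by `m`.  Then `f = u * G ^ m` with `u` a unit at
  every prime below `T` not containing `π`.
* `exists_factor_HU`, `exists_factor_HU_set` : the same with the conclusion `HUnit.HU φ π T u`.
-/
import Mathlib
import Fermat.Agent.S36.HUnit

set_option autoImplicit false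
set_option linter.unusedSectionVars false

namespace Fermat.Agent.S36.HorizFact

section CRT

variable {B : Type*} [CommRing B]

/-- separating elements for finitely many maximal ideals -/
theorem exists_sep (T : Finset (Ideal B)) (hT : ∀ 𝔫 ∈ T, 𝔫.IsMaximal) (𝔫 : Ideal B)
    (h𝔫 : 𝔫 ∈ T) : ∃ e : B, e ∉ 𝔫 ∧ ∀ 𝔫' ∈ T, 𝔫' ≠ 𝔫 → e ∈ 𝔫' := by
  classical
  have h𝔫p : 𝔫.IsPrime := (hT 𝔫 h𝔫).isPrime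
  have hc : ∀ 𝔫' ∈ T.erase 𝔫, ∃ c : B, c ∈ 𝔫' ∧ c ∉ 𝔫 := by
    intro 𝔫' h'
    obtain ⟨hne, hmem⟩ := Finset.mem_erase.mp h'
    by_contra hcon
    push Not at hcon
    have hle : 𝔫' ≤ 𝔫 := fun c hc => hcon c hc
    exact hne ((hT 𝔫' hmem).eq_of_le h𝔫p.ne_top hle)
  choose! c hc1 hc2 using hc
  refine ⟨∏ 𝔫' ∈ T.erase 𝔫, c 𝔫', ?_, ?_⟩
  · intro hmem
    obtain ⟨𝔫', h', h''⟩ := (h𝔫p.prod_mem_iff).mp hmem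
    exact hc2 𝔫' h' h''
  · intro 𝔫' h' hne
    have hm : 𝔫' ∈ T.erase 𝔫 := Finset.mem_erase.mpr ⟨hne, h'⟩
    exact Ideal.mem_of_dvd _ (Finset.dvd_prod_of_mem c hm) (hc1 𝔫' hm)

/-- an element `e₀ * a + (sum of terms in 𝔫₀)` with `e₀ * a ∉ 𝔫₀` is not in `𝔫₀` -/
theorem sum_notMem (T : Finset (Ideal B)) (𝔫₀ : Ideal B) [𝔫₀.IsPrime] (h₀ : 𝔫₀ ∈ T)
    (e g : Ideal B → B) (he₀ : e 𝔫₀ ∉ 𝔫₀) (he : ∀ 𝔫' ∈ T, 𝔫' ≠ 𝔫₀ → e 𝔫' ∈ 𝔫₀)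
    (hg : g 𝔫₀ ∉ 𝔫₀) : ∑ 𝔫 ∈ T, e 𝔫 * g 𝔫 ∉ 𝔫₀ := by
  classical
  intro hmem
  rw [← Finset.add_sum_erase T _ h₀] at hmem
  have h2 : ∑ 𝔫 ∈ T.erase 𝔫₀, e 𝔫 * g 𝔫 ∈ 𝔫₀ :=
    Ideal.sum_mem _ fun 𝔫 h𝔫 =>
      Ideal.mul_mem_right _ _ (he 𝔫 (Finset.mem_of_mem_erase h𝔫) (Finset.ne_of_mem_erase h𝔫))
  have h3 : e 𝔫₀ * g 𝔫₀ ∈ 𝔫₀ := (Ideal.add_mem_iff_left _ h2).mp hmem
  exact (Ideal.IsPrime.mem_or_mem inferInstance h3).elim he₀ hg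

/-- **(CRT-GEN)** An ideal that is principal locally at each of finitely many maximal ideals has
one generator at all of them. -/
theorem exists_common_gen (T : Finset (Ideal B)) (hT : ∀ 𝔫 ∈ T, 𝔫.IsMaximal) (𝔮 : Ideal B)
    (hloc : ∀ 𝔫 ∈ T, ∃ x ∈ 𝔮, ∃ d : B, d ∉ 𝔫 ∧ ∀ y ∈ 𝔮, x ∣ d * y) :
    ∃ x ∈ 𝔮, ∃ d : B, (∀ 𝔫 ∈ T, d ∉ 𝔫) ∧ ∀ y ∈ 𝔮, x ∣ d * y := by
  classical
  choose! x hx d hd hdiv using hloc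
  have hsep := fun 𝔫 (h𝔫 : 𝔫 ∈ T) => exists_sep T hT 𝔫 h𝔫
  choose! e he1 he2 using hsep
  set X : B := ∑ 𝔫 ∈ T, e 𝔫 * x 𝔫 with hX
  have hXmem : X ∈ 𝔮 := Ideal.sum_mem _ fun 𝔫 h𝔫 => Ideal.mul_mem_left _ _ (hx 𝔫 h𝔫)
  -- `X` is a local generator at each `𝔫₀ ∈ T`
  have hlocX : ∀ 𝔫₀ ∈ T, ∃ δ : B, δ ∉ 𝔫₀ ∧ ∀ y ∈ 𝔮, X ∣ δ * y := by
    intro 𝔫₀ h₀
    have : 𝔫₀.IsPrime := (hT 𝔫₀ h₀).isPrime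
    have hcc : ∀ 𝔫 ∈ T, ∃ c : B, d 𝔫₀ * x 𝔫 = x 𝔫₀ * c := fun 𝔫 h𝔫 => hdiv 𝔫₀ h₀ _ (hx 𝔫 h𝔫)
    choose! cc hcc using hcc
    set ε : B := e 𝔫₀ * d 𝔫₀ + ∑ 𝔫 ∈ T.erase 𝔫₀, e 𝔫 * cc 𝔫 with hε
    have hdX : d 𝔫₀ * X = x 𝔫₀ * ε := by
      rw [hX, ← Finset.add_sum_erase T _ h₀, hε, mul_add, mul_add, Finset.mul_sum,
        Finset.mul_sum]
      congr 1
      · ring
      · refine Finset.sum_congr rfl fun 𝔫 h𝔫 => ?_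
        have := hcc 𝔫 (Finset.mem_of_mem_erase h𝔫)
        calc d 𝔫₀ * (e 𝔫 * x 𝔫) = e 𝔫 * (d 𝔫₀ * x 𝔫) := by ring
          _ = e 𝔫 * (x 𝔫₀ * cc 𝔫) := by rw [this]
          _ = x 𝔫₀ * (e 𝔫 * cc 𝔫) := by ring
    have hεn : ε ∉ 𝔫₀ := by
      intro hmem
      have h2 : ∑ 𝔫 ∈ T.erase 𝔫₀, e 𝔫 * cc 𝔫 ∈ 𝔫₀ :=
        Ideal.sum_mem _ fun 𝔫 h𝔫 => Ideal.mul_mem_right _ _
          (he2 𝔫 (Finset.mem_of_mem_erase h𝔫) 𝔫₀ h₀ (Finset.ne_of_mem_erase h𝔫).symm)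
      have h3 : e 𝔫₀ * d 𝔫₀ ∈ 𝔫₀ := (Ideal.add_mem_iff_left _ h2).mp hmem
      exact (Ideal.IsPrime.mem_or_mem inferInstance h3).elim (he1 𝔫₀ h₀) (hd 𝔫₀ h₀)
    refine ⟨ε * d 𝔫₀, fun h => (Ideal.IsPrime.mem_or_mem inferInstance h).elim hεn (hd 𝔫₀ h₀),
      fun y hy => ?_⟩
    obtain ⟨c, hc⟩ := hdiv 𝔫₀ h₀ y hy
    refine ⟨d 𝔫₀ * c, ?_⟩
    calc ε * d 𝔫₀ * y = ε * (d 𝔫₀ * y) := by ring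
      _ = ε * (x 𝔫₀ * c) := by rw [hc]
      _ = (x 𝔫₀ * ε) * c := by ring
      _ = (d 𝔫₀ * X) * c := by rw [hdX]
      _ = X * (d 𝔫₀ * c) := by ring
  choose! δ hδ hδdiv using hlocX
  refine ⟨X, hXmem, ∑ 𝔫 ∈ T, e 𝔫 * δ 𝔫, fun 𝔫₀ h₀ => ?_, fun y hy => ?_⟩
  · have : 𝔫₀.IsPrime := (hT 𝔫₀ h₀).isPrime
    exact sum_notMem T 𝔫₀ h₀ e δ (he1 𝔫₀ h₀)
      (fun 𝔫' h' hne => he2 𝔫' h' 𝔫₀ h₀ hne.symm) (hδ 𝔫₀ h₀)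
  · rw [Finset.sum_mul]
    refine Finset.dvd_sum fun 𝔫 h𝔫 => ?_
    rw [mul_assoc]
    exact Dvd.dvd.mul_left (hδdiv 𝔫 h𝔫 y hy) _

end CRT

section Height

variable {B : Type*} [CommRing B] [IsDomain B] [IsNoetherianRing B]

/-- **A locally principal prime has height one**: a nonzero prime inside a prime `𝔮` that is
generated by `x` up to a multiplier `d ∉ 𝔮` equals `𝔮`. -/
theorem le_of_localGen (𝔮 : Ideal B) [h𝔮 : 𝔮.IsPrime] (x d : B) (hx𝔮 : x ∈ 𝔮) (hd : d ∉ 𝔮)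
    (hgen : ∀ y ∈ 𝔮, x ∣ d * y) (𝔭 : Ideal B) [h𝔭 : 𝔭.IsPrime] (h0 : 𝔭 ≠ ⊥) (hle : 𝔭 ≤ 𝔮) :
    𝔮 ≤ 𝔭 := by
  have hd𝔭 : d ∉ 𝔭 := fun h => hd (hle h)
  by_cases hx : x ∈ 𝔭
  · intro y hy
    obtain ⟨c, hc⟩ := hgen y hy
    have h1 : d * y ∈ 𝔭 := by
      rw [hc]
      exact Ideal.mul_mem_right _ _ hx
    exact (h𝔭.mem_or_mem h1).resolve_left hd𝔭
  · exfalso
    apply h0
    rw [eq_bot_iff]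
    intro y₀ hy₀
    rw [Ideal.mem_bot]
    -- `d ^ n * y₀ = x ^ n * c` with `c ∈ 𝔭`
    have key : ∀ n : ℕ, ∃ c ∈ 𝔭, d ^ n * y₀ = x ^ n * c := by
      intro n
      induction n with
      | zero => exact ⟨y₀, hy₀, by simp⟩
      | succ n ih =>
        obtain ⟨c, hc, e⟩ := ih
        obtain ⟨c', hc'⟩ := hgen c (hle hc)
        have hc'mem : c' ∈ 𝔭 := by
          have h1 : x * c' ∈ 𝔭 := by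
            rw [← hc']
            exact Ideal.mul_mem_left _ _ hc
          exact (h𝔭.mem_or_mem h1).resolve_left hx
        refine ⟨c', hc'mem, ?_⟩
        calc d ^ (n + 1) * y₀ = d * (d ^ n * y₀) := by ring
          _ = d * (x ^ n * c) := by rw [e]
          _ = x ^ n * (d * c) := by ring
          _ = x ^ n * (x * c') := by rw [hc']
          _ = x ^ (n + 1) * c' := by ring
    -- pass to the local ring at `𝔮`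
    have hinj : Function.Injective (algebraMap B (Localization.AtPrime 𝔮)) :=
      IsLocalization.injective (Localization.AtPrime 𝔮) 𝔮.primeCompl_le_nonZeroDivisors
    have hdu : IsUnit (algebraMap B (Localization.AtPrime 𝔮) d) :=
      IsLocalization.map_units (Localization.AtPrime 𝔮) (⟨d, hd⟩ : 𝔮.primeCompl)
    have hxm : algebraMap B (Localization.AtPrime 𝔮) x ∈
        IsLocalRing.maximalIdeal (Localization.AtPrime 𝔮) :=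
      (IsLocalization.AtPrime.to_map_mem_maximal_iff (Localization.AtPrime 𝔮) 𝔮 x).mpr hx𝔮
    have hall : ∀ n : ℕ, algebraMap B (Localization.AtPrime 𝔮) y₀ ∈
        IsLocalRing.maximalIdeal (Localization.AtPrime 𝔮) ^ n := by
      intro n
      obtain ⟨c, -, e⟩ := key n
      have e' : algebraMap B (Localization.AtPrime 𝔮) d ^ n *
          algebraMap B (Localization.AtPrime 𝔮) y₀ =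
          algebraMap B (Localization.AtPrime 𝔮) x ^ n *
            algebraMap B (Localization.AtPrime 𝔮) c := by
        rw [← map_pow, ← map_mul, e, map_mul, map_pow]
      have h1 : algebraMap B (Localization.AtPrime 𝔮) d ^ n *
          algebraMap B (Localization.AtPrime 𝔮) y₀ ∈
          IsLocalRing.maximalIdeal (Localization.AtPrime 𝔮) ^ n := by
        rw [e']
        exact Ideal.mul_mem_right _ _ (Ideal.pow_mem_pow hxm n)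
      exact (Ideal.unit_mul_mem_iff_mem _ (hdu.pow n)).mp h1
    have hbot : (⨅ i : ℕ, IsLocalRing.maximalIdeal (Localization.AtPrime 𝔮) ^ i) = ⊥ :=
      Ideal.iInf_pow_eq_bot_of_isLocalRing _ (IsLocalRing.maximalIdeal.isMaximal _).ne_top
    have hzero : algebraMap B (Localization.AtPrime 𝔮) y₀ = 0 := by
      have : algebraMap B (Localization.AtPrime 𝔮) y₀ ∈
          (⨅ i : ℕ, IsLocalRing.maximalIdeal (Localization.AtPrime 𝔮) ^ i) :=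
        (Ideal.mem_iInf).mpr hall
      rw [hbot] at this
      exact (Ideal.mem_bot).mp this
    exact hinj (by rw [hzero, map_zero])

end Height

section Fact

variable {B F : Type*} [CommRing B] [IsDomain B] [Field F] (φ : B →+* F)

/-- `z ∈ F` is a unit at the prime `𝔮` of `B` (multiplier form) -/
def UnitAt (𝔮 : Ideal B) (z : F) : Prop := ∃ a b : B, a ∉ 𝔮 ∧ b ∉ 𝔮 ∧ z * φ b = φ a

variable {φ}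

theorem unitAt_map {𝔮 : Ideal B} [h𝔮 : 𝔮.IsPrime] {x : B} (hx : x ∉ 𝔮) : UnitAt φ 𝔮 (φ x) :=
  ⟨x, 1, hx, (Ideal.ne_top_iff_one 𝔮).mp h𝔮.ne_top, by simp⟩

theorem unitAt_one {𝔮 : Ideal B} [h𝔮 : 𝔮.IsPrime] : UnitAt φ 𝔮 (1 : F) :=
  ⟨1, 1, (Ideal.ne_top_iff_one 𝔮).mp h𝔮.ne_top, (Ideal.ne_top_iff_one 𝔮).mp h𝔮.ne_top, by simp⟩

theorem UnitAt.mul {𝔮 : Ideal B} [h𝔮 : 𝔮.IsPrime] {z₁ z₂ : F} (h₁ : UnitAt φ 𝔮 z₁)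
    (h₂ : UnitAt φ 𝔮 z₂) : UnitAt φ 𝔮 (z₁ * z₂) := by
  obtain ⟨a₁, b₁, ha₁, hb₁, e₁⟩ := h₁
  obtain ⟨a₂, b₂, ha₂, hb₂, e₂⟩ := h₂
  refine ⟨a₁ * a₂, b₁ * b₂, fun h => (h𝔮.mem_or_mem h).elim ha₁ ha₂,
    fun h => (h𝔮.mem_or_mem h).elim hb₁ hb₂, ?_⟩
  rw [map_mul, map_mul, ← e₁, ← e₂]
  ring

theorem UnitAt.inv (hφ : Function.Injective φ) {𝔮 : Ideal B} {z : F} (h : UnitAt φ 𝔮 z) :
    UnitAt φ 𝔮 z⁻¹ := by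
  obtain ⟨a, b, ha, hb, e⟩ := h
  have ha0 : φ a ≠ 0 := (map_ne_zero_iff φ hφ).mpr (fun h0 => ha (h0 ▸ 𝔮.zero_mem))
  have hz : z ≠ 0 := by
    rintro rfl
    rw [zero_mul] at e
    exact ha0 e.symm
  refine ⟨b, a, hb, ha, ?_⟩
  rw [← e]
  field_simp

theorem UnitAt.pow {𝔮 : Ideal B} [h𝔮 : 𝔮.IsPrime] {z : F} (h : UnitAt φ 𝔮 z) (n : ℕ) :
    UnitAt φ 𝔮 (z ^ n) := by
  induction n with
  | zero => rw [pow_zero]; exact unitAt_one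
  | succ n ih => rw [pow_succ]; exact ih.mul h

theorem UnitAt.zpow (hφ : Function.Injective φ) {𝔮 : Ideal B} [h𝔮 : 𝔮.IsPrime] {z : F}
    (h : UnitAt φ 𝔮 z) (n : ℤ) : UnitAt φ 𝔮 (z ^ n) := by
  obtain ⟨k, rfl | rfl⟩ := n.eq_nat_or_neg
  · rw [zpow_natCast]
    exact h.pow k
  · rw [zpow_neg, zpow_natCast]
    exact (h.pow k).inv hφ

theorem unitAt_prod {𝔮 : Ideal B} [h𝔮 : 𝔮.IsPrime] {ι : Type*} (s : Finset ι) (g : ι → F)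
    (h : ∀ i ∈ s, UnitAt φ 𝔮 (g i)) : UnitAt φ 𝔮 (∏ i ∈ s, g i) := by
  classical
  induction s using Finset.induction_on with
  | empty => rw [Finset.prod_empty]; exact unitAt_one
  | insert a s ha ih =>
    rw [Finset.prod_insert ha]
    exact (h a (Finset.mem_insert_self a s)).mul
      (ih fun i hi => h i (Finset.mem_insert_of_mem hi))

/-- **(FACT)**  `B` a Noetherian domain with fraction field `F` (via `φ`), `T` a finite set of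
maximal ideals, `π ∈ B`.  Assume every nonzero prime `𝔮 ∌ π` below a member of `T` is locally
principal there (`hreg`, the shape of REG36), and the `𝔮`-adic valuation of `f` is divisible by
`m` for each such prime and each local generator `t` of it (`hbc`, the output of
`HorizOrd.exists_decomp_of_forall_dvd`).  Then `f = u * G ^ m` where `u` is a unit at every prime
`𝔮 ∌ π` below a member of `T`. -/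
theorem exists_factor [IsNoetherianRing B] (hφ : Function.Injective φ)
    (hfrac : ∀ g : F, ∃ y₁ y₂ : B, y₂ ≠ 0 ∧ g * φ y₂ = φ y₁)
    (π : B) (T : Finset (Ideal B)) (hT : ∀ 𝔫 ∈ T, 𝔫.IsMaximal)
    (hreg : ∀ 𝔫 ∈ T, ∀ 𝔮 : Ideal B, 𝔮.IsPrime → 𝔮 ≤ 𝔫 → 𝔮 ≠ ⊥ → π ∉ 𝔮 →
      ∃ x ∈ 𝔮, ∃ d : B, d ∉ 𝔫 ∧ ∀ y ∈ 𝔮, x ∣ d * y)
    (m : ℕ) (f : F) (hf : f ≠ 0)
    (hbc : ∀ 𝔮 : Ideal B, 𝔮.IsPrime → 𝔮 ≠ ⊥ → π ∉ 𝔮 → (∃ 𝔫 ∈ T, 𝔮 ≤ 𝔫) → ∀ t ∈ 𝔮,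
      (∀ x ∈ 𝔮, ∃ s : B, s ∉ 𝔮 ∧ ∃ c : B, s * x = t * c) →
      ∃ (k : ℤ) (u v : B), u ∉ 𝔮 ∧ v ∉ 𝔮 ∧ f * φ v = φ u * φ t ^ ((m : ℤ) * k)) :
    ∃ G u : F, G ≠ 0 ∧ f = u * G ^ m ∧
      ∀ 𝔮 : Ideal B, 𝔮.IsPrime → π ∉ 𝔮 → (∃ 𝔫 ∈ T, 𝔮 ≤ 𝔫) →
        ∃ a b : B, a ∉ 𝔮 ∧ b ∉ 𝔮 ∧ u * φ b = φ a := by
  classical
  obtain ⟨a₀, b₀, hb₀, e₀⟩ := hfrac f
  have ha₀ : a₀ ≠ 0 := by
    rintro rfl
    rw [map_zero] at e₀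
    exact (mul_ne_zero hf ((map_ne_zero_iff φ hφ).mpr hb₀)) e₀
  have hc₀ : a₀ * b₀ ≠ 0 := mul_ne_zero ha₀ hb₀
  -- the finite set of primes where `f` may fail to be a unit
  have hfin : (Ideal.span {a₀ * b₀}).minimalPrimes.Finite :=
    Ideal.finite_minimalPrimes_of_isNoetherianRing B _
  set Q : Finset (Ideal B) := hfin.toFinset.filter (fun 𝔮 => π ∉ 𝔮 ∧ ∃ 𝔫 ∈ T, 𝔮 ≤ 𝔫) with hQdef
  have hQ : ∀ 𝔮 ∈ Q, 𝔮 ∈ (Ideal.span {a₀ * b₀}).minimalPrimes ∧ π ∉ 𝔮 ∧ ∃ 𝔫 ∈ T, 𝔮 ≤ 𝔫 := by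
    intro 𝔮 h𝔮
    rw [hQdef, Finset.mem_filter, Set.Finite.mem_toFinset] at h𝔮
    exact h𝔮
  have hQp : ∀ 𝔮 ∈ Q, 𝔮.IsPrime := fun 𝔮 h𝔮 => (hQ 𝔮 h𝔮).1.1.1
  have hQc : ∀ 𝔮 ∈ Q, a₀ * b₀ ∈ 𝔮 := fun 𝔮 h𝔮 =>
    (Ideal.span_singleton_le_iff_mem _).mp (hQ 𝔮 h𝔮).1.1.2
  have hQne : ∀ 𝔮 ∈ Q, 𝔮 ≠ ⊥ := by
    intro 𝔮 h𝔮 hbot
    have := hQc 𝔮 h𝔮
    rw [hbot, Ideal.mem_bot] at this
    exact hc₀ this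
  -- common generators
  have hgenQ : ∀ 𝔮 ∈ Q, ∃ x ∈ 𝔮, ∃ d : B, (∀ 𝔫 ∈ T, d ∉ 𝔫) ∧ ∀ y ∈ 𝔮, x ∣ d * y := by
    intro 𝔮 h𝔮
    apply exists_common_gen T hT 𝔮
    intro 𝔫 h𝔫
    by_cases hle : 𝔮 ≤ 𝔫
    · exact hreg 𝔫 h𝔫 𝔮 (hQp 𝔮 h𝔮) hle (hQne 𝔮 h𝔮) (hQ 𝔮 h𝔮).2.1
    · obtain ⟨x, hx, hxn⟩ := SetLike.not_le_iff_exists.mp hle
      exact ⟨x, hx, x, hxn, fun y _ => Dvd.intro _ rfl⟩
  choose! x hx d hd hdiv using hgenQ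
  have hk : ∀ 𝔮 ∈ Q, ∃ (k : ℤ) (u v : B), u ∉ 𝔮 ∧ v ∉ 𝔮 ∧
      f * φ v = φ u * φ (x 𝔮) ^ ((m : ℤ) * k) := by
    intro 𝔮 h𝔮
    refine hbc 𝔮 (hQp 𝔮 h𝔮) (hQne 𝔮 h𝔮) (hQ 𝔮 h𝔮).2.1 (hQ 𝔮 h𝔮).2.2 (x 𝔮) (hx 𝔮 h𝔮)
      (fun y hy => ?_)
    obtain ⟨𝔫, h𝔫, hle⟩ := (hQ 𝔮 h𝔮).2.2
    obtain ⟨c, hc⟩ := hdiv 𝔮 h𝔮 y hy
    exact ⟨d 𝔮, fun h => hd 𝔮 h𝔮 𝔫 h𝔫 (hle h), c, hc⟩
  choose! k u' v' hu' hv' hkeq using hk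
  have hx0 : ∀ 𝔮 ∈ Q, φ (x 𝔮) ≠ 0 := by
    intro 𝔮 h𝔮
    refine (map_ne_zero_iff φ hφ).mpr fun hx0 => hQne 𝔮 h𝔮 ?_
    obtain ⟨𝔫, h𝔫, hle⟩ := (hQ 𝔮 h𝔮).2.2
    have hd0 : d 𝔮 ≠ 0 := fun h0 => hd 𝔮 h𝔮 𝔫 h𝔫 (h0 ▸ 𝔫.zero_mem)
    rw [eq_bot_iff]
    intro y hy
    obtain ⟨c, hc⟩ := hdiv 𝔮 h𝔮 y hy
    rw [hx0, zero_mul] at hc
    exact Ideal.mem_bot.mpr ((mul_eq_zero.mp hc).resolve_left hd0)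
  set G : F := ∏ 𝔮 ∈ Q, φ (x 𝔮) ^ (k 𝔮) with hG
  have hG0 : G ≠ 0 := Finset.prod_ne_zero_iff.mpr fun 𝔮 h𝔮 => zpow_ne_zero _ (hx0 𝔮 h𝔮)
  refine ⟨G, f * (G ^ m)⁻¹, hG0, ?_, ?_⟩
  · have : G ^ m ≠ 0 := pow_ne_zero _ hG0
    field_simp
  intro 𝔮 hp hπ hT'
  obtain ⟨𝔫₀, h𝔫₀, hle₀⟩ := hT'
  show UnitAt φ 𝔮 (f * (G ^ m)⁻¹)
  -- `x 𝔮' ∈ 𝔮` forces `𝔮' ≤ 𝔮`
  have hsub : ∀ 𝔮' ∈ Q, x 𝔮' ∈ 𝔮 → 𝔮' ≤ 𝔮 := by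
    intro 𝔮' h' hxmem y hy
    obtain ⟨c, hc⟩ := hdiv 𝔮' h' y hy
    have h1 : d 𝔮' * y ∈ 𝔮 := by
      rw [hc]
      exact Ideal.mul_mem_right _ _ hxmem
    exact (hp.mem_or_mem h1).resolve_left (fun h => hd 𝔮' h' 𝔫₀ h𝔫₀ (hle₀ h))
  by_cases hc𝔮 : a₀ * b₀ ∈ 𝔮
  · -- `𝔮` is one of the primes of `Q`
    have hne : 𝔮 ≠ ⊥ := by
      intro hbot
      rw [hbot, Ideal.mem_bot] at hc𝔮
      exact hc₀ hc𝔮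
    obtain ⟨𝔮', h𝔮'min, h𝔮'le⟩ := Ideal.exists_minimalPrimes_le
      (show Ideal.span {a₀ * b₀} ≤ 𝔮 from (Ideal.span_singleton_le_iff_mem _).mpr hc𝔮)
    have h𝔮'p : 𝔮'.IsPrime := h𝔮'min.1.1
    have h𝔮'ne : 𝔮' ≠ ⊥ := by
      intro hbot
      have := (Ideal.span_singleton_le_iff_mem _).mp h𝔮'min.1.2
      rw [hbot, Ideal.mem_bot] at this
      exact hc₀ this
    obtain ⟨x₁, hx₁, d₁, hd₁, hdiv₁⟩ := hreg 𝔫₀ h𝔫₀ 𝔮 hp hle₀ hne hπ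
    have hEq : 𝔮' = 𝔮 := le_antisymm h𝔮'le
      (le_of_localGen 𝔮 x₁ d₁ hx₁ (fun h => hd₁ (hle₀ h)) hdiv₁ 𝔮' h𝔮'ne h𝔮'le)
    have h𝔮min : 𝔮 ∈ (Ideal.span {a₀ * b₀}).minimalPrimes := hEq ▸ h𝔮'min
    have h𝔮Q : 𝔮 ∈ Q := by
      rw [hQdef, Finset.mem_filter, Set.Finite.mem_toFinset]
      exact ⟨h𝔮min, hπ, 𝔫₀, h𝔫₀, hle₀⟩
    have hsplit : G = φ (x 𝔮) ^ (k 𝔮) * ∏ 𝔮'' ∈ Q.erase 𝔮, φ (x 𝔮'') ^ (k 𝔮'') :=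
      (Finset.mul_prod_erase Q _ h𝔮Q).symm
    have hA0 : φ (x 𝔮) ^ ((m : ℤ) * k 𝔮) ≠ 0 := zpow_ne_zero _ (hx0 𝔮 h𝔮Q)
    have h1 : UnitAt φ 𝔮 (f * (φ (x 𝔮) ^ ((m : ℤ) * k 𝔮))⁻¹) := by
      refine ⟨u' 𝔮, v' 𝔮, hu' 𝔮 h𝔮Q, hv' 𝔮 h𝔮Q, ?_⟩
      rw [mul_right_comm, hkeq 𝔮 h𝔮Q, mul_assoc, mul_inv_cancel₀ hA0, mul_one]
    have h2 : UnitAt φ 𝔮 (∏ 𝔮'' ∈ Q.erase 𝔮, φ (x 𝔮'') ^ (k 𝔮'')) := by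
      refine unitAt_prod _ _ fun 𝔮'' h'' => ?_
      have h''Q : 𝔮'' ∈ Q := Finset.mem_of_mem_erase h''
      have hxn : x 𝔮'' ∉ 𝔮 := by
        intro hxmem
        have hle := hsub 𝔮'' h''Q hxmem
        have hge : 𝔮 ≤ 𝔮'' := h𝔮min.2 (hQ 𝔮'' h''Q).1.1 hle
        exact (Finset.ne_of_mem_erase h'') (le_antisymm hle hge)
      exact (unitAt_map hxn).zpow hφ _
    have hrw : f * (G ^ m)⁻¹ = (f * (φ (x 𝔮) ^ ((m : ℤ) * k 𝔮))⁻¹) *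
        ((∏ 𝔮'' ∈ Q.erase 𝔮, φ (x 𝔮'') ^ (k 𝔮'')) ^ m)⁻¹ := by
      rw [hsplit, mul_pow, mul_inv, zpow_mul', zpow_natCast]
      ring
    rw [hrw]
    exact h1.mul ((h2.pow m).inv hφ)
  · -- `f` and all generators are units at `𝔮`
    have hfU : UnitAt φ 𝔮 f :=
      ⟨a₀, b₀, fun h => hc𝔮 (Ideal.mul_mem_right _ _ h), fun h => hc𝔮 (Ideal.mul_mem_left _ _ h),
        e₀⟩
    have hGU : UnitAt φ 𝔮 G := by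
      refine unitAt_prod _ _ fun 𝔮' h' => ?_
      have hxn : x 𝔮' ∉ 𝔮 := fun hxmem => hc𝔮 (hsub 𝔮' h' hxmem (hQc 𝔮' h'))
      exact (unitAt_map hxn).zpow hφ _
    exact hfU.mul ((hGU.pow m).inv hφ)

end Fact

section HUForm

variable {B F : Type*} [CommRing B] [IsDomain B] [IsNoetherianRing B] [Field F] {φ : B →+* F}

/-- **(FACT), `HU` form** (`T` a `Finset`). -/
theorem exists_factor_HU (hφ : Function.Injective φ)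
    (hfrac : ∀ g : F, ∃ y₁ y₂ : B, y₂ ≠ 0 ∧ g * φ y₂ = φ y₁)
    (π : B) (T : Finset (Ideal B)) (hT : ∀ 𝔫 ∈ T, 𝔫.IsMaximal)
    (hreg : ∀ 𝔫 ∈ T, ∀ 𝔮 : Ideal B, 𝔮.IsPrime → 𝔮 ≤ 𝔫 → 𝔮 ≠ ⊥ → π ∉ 𝔮 →
      ∃ x ∈ 𝔮, ∃ d : B, d ∉ 𝔫 ∧ ∀ y ∈ 𝔮, x ∣ d * y)
    (m : ℕ) (f : F) (hf : f ≠ 0)
    (hbc : ∀ 𝔮 : Ideal B, 𝔮.IsPrime → 𝔮 ≠ ⊥ → π ∉ 𝔮 → (∃ 𝔫 ∈ T, 𝔮 ≤ 𝔫) → ∀ t ∈ 𝔮,
      (∀ x ∈ 𝔮, ∃ s : B, s ∉ 𝔮 ∧ ∃ c : B, s * x = t * c) →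
      ∃ (k : ℤ) (u v : B), u ∉ 𝔮 ∧ v ∉ 𝔮 ∧ f * φ v = φ u * φ t ^ ((m : ℤ) * k)) :
    ∃ G u : F, G ≠ 0 ∧ f = u * G ^ m ∧
      Fermat.Agent.S36.HUnit.HU φ π (↑T : Set (Ideal B)) u := by
  obtain ⟨G, u, hG, e, hu⟩ := exists_factor hφ hfrac π T hT hreg m f hf hbc
  refine ⟨G, u, hG, e, fun 𝔮 h𝔮 hπ hT' => ?_⟩
  obtain ⟨𝔫, h𝔫, hle⟩ := hT'
  obtain ⟨a, b, ha, hb, e'⟩ := hu 𝔮 h𝔮 hπ ⟨𝔫, Finset.mem_coe.mp h𝔫, hle⟩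
  exact ⟨a, b, ha, hb, by rw [mul_comm]; exact e'⟩

/-- **(FACT), `HU` form** (`T` a finite `Set`). -/
theorem exists_factor_HU_set (hφ : Function.Injective φ)
    (hfrac : ∀ g : F, ∃ y₁ y₂ : B, y₂ ≠ 0 ∧ g * φ y₂ = φ y₁)
    (π : B) (T : Set (Ideal B)) (hTfin : T.Finite) (hT : ∀ 𝔫 ∈ T, 𝔫.IsMaximal)
    (hreg : ∀ 𝔫 ∈ T, ∀ 𝔮 : Ideal B, 𝔮.IsPrime → 𝔮 ≤ 𝔫 → 𝔮 ≠ ⊥ → π ∉ 𝔮 →
      ∃ x ∈ 𝔮, ∃ d : B, d ∉ 𝔫 ∧ ∀ y ∈ 𝔮, x ∣ d * y)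
    (m : ℕ) (f : F) (hf : f ≠ 0)
    (hbc : ∀ 𝔮 : Ideal B, 𝔮.IsPrime → 𝔮 ≠ ⊥ → π ∉ 𝔮 → (∃ 𝔫 ∈ T, 𝔮 ≤ 𝔫) → ∀ t ∈ 𝔮,
      (∀ x ∈ 𝔮, ∃ s : B, s ∉ 𝔮 ∧ ∃ c : B, s * x = t * c) →
      ∃ (k : ℤ) (u v : B), u ∉ 𝔮 ∧ v ∉ 𝔮 ∧ f * φ v = φ u * φ t ^ ((m : ℤ) * k)) :
    ∃ G u : F, G ≠ 0 ∧ f = u * G ^ m ∧ Fermat.Agent.S36.HUnit.HU φ π T u := by
  have hmem : ∀ 𝔫 : Ideal B, 𝔫 ∈ hTfin.toFinset ↔ 𝔫 ∈ T := fun 𝔫 => hTfin.mem_toFinset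
  obtain ⟨G, u, hG, e, hu⟩ := exists_factor_HU hφ hfrac π hTfin.toFinset
    (fun 𝔫 h𝔫 => hT 𝔫 ((hmem 𝔫).mp h𝔫))
    (fun 𝔫 h𝔫 => hreg 𝔫 ((hmem 𝔫).mp h𝔫)) m f hf
    (fun 𝔮 h𝔮 h0 hπ hT' => hbc 𝔮 h𝔮 h0 hπ
      (by obtain ⟨𝔫, h𝔫, hle⟩ := hT'; exact ⟨𝔫, (hmem 𝔫).mp h𝔫, hle⟩))
  refine ⟨G, u, hG, e, ?_⟩
  rwa [Set.Finite.coe_toFinset] at hu

end HUForm

end Fermat.Agent.S36.HorizFact
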