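/-
S36 (wave 8), package (HLOC), contract K6 (FACT) in the exact shape of LEDGER v1.1.

`exists_factor` : `B` a Noetherian domain, `ι : B →+* F` injective into a field, `S` a finite set
of maximal ideals, every prime `𝔮 ∌ π` below `S` locally principal (`hreg`), `f ∈ F` a quotient
of elements of `B` whose `𝔮`-adic valuations are divisible by `m` (`hdiv`, the output of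
`HorizOrd.exists_decomp_of_forall_dvd`).  Then there is `G ≠ 0` with `HU ι π S (f / G ^ m)`.

Same proof as `HorizFact.exists_factor` (which asks `F = Frac B`); here only `f` itself has to be
a quotient.
-/
import Mathlib
import Fermat.Agent.S36.HUnit
import Fermat.Agent.S36.HorizFact

set_option autoImplicit false
set_option linter.unusedSectionVars false

namespace Fermat.Agent.S36.HFact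

open Fermat.Agent.S36

section

variable {B F : Type*} [CommRing B] [IsDomain B] [Field F] {φ : B →+* F}

/-- (FACT), core form: as `HorizFact.exists_factor`, but only `f` is assumed to be a quotient of
elements of `B`. -/
theorem exists_factor_core [IsNoetherianRing B] (hφ : Function.Injective φ)
    (π : B) (T : Finset (Ideal B)) (hT : ∀ 𝔫 ∈ T, 𝔫.IsMaximal)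
    (hreg : ∀ 𝔫 ∈ T, ∀ 𝔮 : Ideal B, 𝔮.IsPrime → 𝔮 ≤ 𝔫 → 𝔮 ≠ ⊥ → π ∉ 𝔮 →
      ∃ x ∈ 𝔮, ∃ d : B, d ∉ 𝔫 ∧ ∀ y ∈ 𝔮, x ∣ d * y)
    (m : ℕ) (f : F) (hf : f ≠ 0) (hfrac : ∃ a b : B, b ≠ 0 ∧ f * φ b = φ a)
    (hbc : ∀ 𝔮 : Ideal B, 𝔮.IsPrime → 𝔮 ≠ ⊥ → π ∉ 𝔮 → (∃ 𝔫 ∈ T, 𝔮 ≤ 𝔫) → ∀ t ∈ 𝔮,
      (∀ x ∈ 𝔮, ∃ s : B, s ∉ 𝔮 ∧ ∃ c : B, s * x = t * c) →
      ∃ (k : ℤ) (u v : B), u ∉ 𝔮 ∧ v ∉ 𝔮 ∧ f * φ v = φ u * φ t ^ ((m : ℤ) * k)) :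
    ∃ G u : F, G ≠ 0 ∧ f = u * G ^ m ∧
      ∀ 𝔮 : Ideal B, 𝔮.IsPrime → π ∉ 𝔮 → (∃ 𝔫 ∈ T, 𝔮 ≤ 𝔫) →
        ∃ a b : B, a ∉ 𝔮 ∧ b ∉ 𝔮 ∧ u * φ b = φ a := by
  classical
  obtain ⟨a₀, b₀, hb₀, e₀⟩ := hfrac
  have ha₀ : a₀ ≠ 0 := by
    rintro rfl
    rw [map_zero] at e₀
    exact (mul_ne_zero hf ((map_ne_zero_iff φ hφ).mpr hb₀)) e₀
  have hc₀ : a₀ * b₀ ≠ 0 := mul_ne_zero ha₀ hb₀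
  -- the finite set of primes where `f` may fail to be a unit
  have hfin : (Ideal.span {a₀ * b₀}).minimalPrimes.Finite :=
    Ideal.finite_minimalPrimes_of_isNoetherianRing B _
  set Q : Finset (Ideal B) := hfin.toFinset.filter (fun 𝔮 => π ∉ 𝔮 ∧ ∃ 𝔫 ∈ T, 𝔮 ≤ 𝔫) with hQdef
  have hQ : ∀ 𝔮 ∈ Q, 𝔮 ∈ (Ideal.span {a₀ * b₀}).minimalPrimes ∧ π ∉ 𝔮 ∧ ∃ 𝔫 ∈ T, 𝔮 ≤ 𝔫 := by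
    intro 𝔮 h𝔮
    rw [hQdef, Finset.mem_filter, Set.Finite.mem_toFinset] at h𝔮
    exact h𝔮
  have hQp : ∀ 𝔮 ∈ Q, 𝔮.IsPrime := fun 𝔮 h𝔮 => (hQ 𝔮 h𝔮).1.1.1
  have hQc : ∀ 𝔮 ∈ Q, a₀ * b₀ ∈ 𝔮 := fun 𝔮 h𝔮 =>
    (Ideal.span_singleton_le_iff_mem _).mp (hQ 𝔮 h𝔮).1.1.2
  have hQne : ∀ 𝔮 ∈ Q, 𝔮 ≠ ⊥ := by
    intro 𝔮 h𝔮 hbot
    have := hQc 𝔮 h𝔮
    rw [hbot, Ideal.mem_bot] at this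
    exact hc₀ this
  -- common generators
  have hgenQ : ∀ 𝔮 ∈ Q, ∃ x ∈ 𝔮, ∃ d : B, (∀ 𝔫 ∈ T, d ∉ 𝔫) ∧ ∀ y ∈ 𝔮, x ∣ d * y := by
    intro 𝔮 h𝔮
    apply HorizFact.exists_common_gen T hT 𝔮
    intro 𝔫 h𝔫
    by_cases hle : 𝔮 ≤ 𝔫
    · exact hreg 𝔫 h𝔫 𝔮 (hQp 𝔮 h𝔮) hle (hQne 𝔮 h𝔮) (hQ 𝔮 h𝔮).2.1
    · obtain ⟨x, hx, hxn⟩ := SetLike.not_le_iff_exists.mp hle
      exact ⟨x, hx, x, hxn, fun y _ => Dvd.intro _ rfl⟩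
  choose! x hx d hd hdiv using hgenQ
  have hk : ∀ 𝔮 ∈ Q, ∃ (k : ℤ) (u v : B), u ∉ 𝔮 ∧ v ∉ 𝔮 ∧
      f * φ v = φ u * φ (x 𝔮) ^ ((m : ℤ) * k) := by
    intro 𝔮 h𝔮
    refine hbc 𝔮 (hQp 𝔮 h𝔮) (hQne 𝔮 h𝔮) (hQ 𝔮 h𝔮).2.1 (hQ 𝔮 h𝔮).2.2 (x 𝔮) (hx 𝔮 h𝔮)
      (fun y hy => ?_)
    obtain ⟨𝔫, h𝔫, hle⟩ := (hQ 𝔮 h𝔮).2.2
    obtain ⟨c, hc⟩ := hdiv 𝔮 h𝔮 y hy
    exact ⟨d 𝔮, fun h => hd 𝔮 h𝔮 𝔫 h𝔫 (hle h), c, hc⟩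
  choose! k u' v' hu' hv' hkeq using hk
  have hx0 : ∀ 𝔮 ∈ Q, φ (x 𝔮) ≠ 0 := by
    intro 𝔮 h𝔮
    refine (map_ne_zero_iff φ hφ).mpr fun hx0 => hQne 𝔮 h𝔮 ?_
    obtain ⟨𝔫, h𝔫, hle⟩ := (hQ 𝔮 h𝔮).2.2
    have hd0 : d 𝔮 ≠ 0 := fun h0 => hd 𝔮 h𝔮 𝔫 h𝔫 (h0 ▸ 𝔫.zero_mem)
    rw [eq_bot_iff]
    intro y hy
    obtain ⟨c, hc⟩ := hdiv 𝔮 h𝔮 y hy
    rw [hx0, zero_mul] at hc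
    exact Ideal.mem_bot.mpr ((mul_eq_zero.mp hc).resolve_left hd0)
  set G : F := ∏ 𝔮 ∈ Q, φ (x 𝔮) ^ (k 𝔮) with hG
  have hG0 : G ≠ 0 := Finset.prod_ne_zero_iff.mpr fun 𝔮 h𝔮 => zpow_ne_zero _ (hx0 𝔮 h𝔮)
  refine ⟨G, f * (G ^ m)⁻¹, hG0, ?_, ?_⟩
  · have : G ^ m ≠ 0 := pow_ne_zero _ hG0
    field_simp
  intro 𝔮 hp hπ hT'
  obtain ⟨𝔫₀, h𝔫₀, hle₀⟩ := hT'
  show HorizFact.UnitAt φ 𝔮 (f * (G ^ m)⁻¹)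
  -- `x 𝔮' ∈ 𝔮` forces `𝔮' ≤ 𝔮`
  have hsub : ∀ 𝔮' ∈ Q, x 𝔮' ∈ 𝔮 → 𝔮' ≤ 𝔮 := by
    intro 𝔮' h' hxmem y hy
    obtain ⟨c, hc⟩ := hdiv 𝔮' h' y hy
    have h1 : d 𝔮' * y ∈ 𝔮 := by
      rw [hc]
      exact Ideal.mul_mem_right _ _ hxmem
    exact (hp.mem_or_mem h1).resolve_left (fun h => hd 𝔮' h' 𝔫₀ h𝔫₀ (hle₀ h))
  by_cases hc𝔮 : a₀ * b₀ ∈ 𝔮
  · -- `𝔮` is one of the primes of `Q`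
    have hne : 𝔮 ≠ ⊥ := by
      intro hbot
      rw [hbot, Ideal.mem_bot] at hc𝔮
      exact hc₀ hc𝔮
    obtain ⟨𝔮', h𝔮'min, h𝔮'le⟩ := Ideal.exists_minimalPrimes_le
      (show Ideal.span {a₀ * b₀} ≤ 𝔮 from (Ideal.span_singleton_le_iff_mem _).mpr hc𝔮)
    have h𝔮'p : 𝔮'.IsPrime := h𝔮'min.1.1
    have h𝔮'ne : 𝔮' ≠ ⊥ := by
      intro hbot
      have := (Ideal.span_singleton_le_iff_mem _).mp h𝔮'min.1.2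
      rw [hbot, Ideal.mem_bot] at this
      exact hc₀ this
    obtain ⟨x₁, hx₁, d₁, hd₁, hdiv₁⟩ := hreg 𝔫₀ h𝔫₀ 𝔮 hp hle₀ hne hπ
    have hEq : 𝔮' = 𝔮 := le_antisymm h𝔮'le
      (HorizFact.le_of_localGen 𝔮 x₁ d₁ hx₁ (fun h => hd₁ (hle₀ h)) hdiv₁ 𝔮' h𝔮'ne h𝔮'le)
    have h𝔮min : 𝔮 ∈ (Ideal.span {a₀ * b₀}).minimalPrimes := hEq ▸ h𝔮'min
    have h𝔮Q : 𝔮 ∈ Q := by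
      rw [hQdef, Finset.mem_filter, Set.Finite.mem_toFinset]
      exact ⟨h𝔮min, hπ, 𝔫₀, h𝔫₀, hle₀⟩
    have hsplit : G = φ (x 𝔮) ^ (k 𝔮) * ∏ 𝔮'' ∈ Q.erase 𝔮, φ (x 𝔮'') ^ (k 𝔮'') :=
      (Finset.mul_prod_erase Q _ h𝔮Q).symm
    have hA0 : φ (x 𝔮) ^ ((m : ℤ) * k 𝔮) ≠ 0 := zpow_ne_zero _ (hx0 𝔮 h𝔮Q)
    have h1 : HorizFact.UnitAt φ 𝔮 (f * (φ (x 𝔮) ^ ((m : ℤ) * k 𝔮))⁻¹) := by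
      refine ⟨u' 𝔮, v' 𝔮, hu' 𝔮 h𝔮Q, hv' 𝔮 h𝔮Q, ?_⟩
      rw [mul_right_comm, hkeq 𝔮 h𝔮Q, mul_assoc, mul_inv_cancel₀ hA0, mul_one]
    have h2 : HorizFact.UnitAt φ 𝔮 (∏ 𝔮'' ∈ Q.erase 𝔮, φ (x 𝔮'') ^ (k 𝔮'')) := by
      refine HorizFact.unitAt_prod _ _ fun 𝔮'' h'' => ?_
      have h''Q : 𝔮'' ∈ Q := Finset.mem_of_mem_erase h''
      have hxn : x 𝔮'' ∉ 𝔮 := by
        intro hxmem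
        have hle := hsub 𝔮'' h''Q hxmem
        have hge : 𝔮 ≤ 𝔮'' := h𝔮min.2 (hQ 𝔮'' h''Q).1.1 hle
        exact (Finset.ne_of_mem_erase h'') (le_antisymm hle hge)
      exact (HorizFact.unitAt_map hxn).zpow hφ _
    have hrw : f * (G ^ m)⁻¹ = (f * (φ (x 𝔮) ^ ((m : ℤ) * k 𝔮))⁻¹) *
        ((∏ 𝔮'' ∈ Q.erase 𝔮, φ (x 𝔮'') ^ (k 𝔮'')) ^ m)⁻¹ := by
      rw [hsplit, mul_pow, mul_inv, zpow_mul', zpow_natCast]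
      ring
    rw [hrw]
    exact h1.mul ((h2.pow m).inv hφ)
  · -- `f` and all generators are units at `𝔮`
    have hfU : HorizFact.UnitAt φ 𝔮 f :=
      ⟨a₀, b₀, fun h => hc𝔮 (Ideal.mul_mem_right _ _ h), fun h => hc𝔮 (Ideal.mul_mem_left _ _ h),
        e₀⟩
    have hGU : HorizFact.UnitAt φ 𝔮 G := by
      refine HorizFact.unitAt_prod _ _ fun 𝔮' h' => ?_
      have hxn : x 𝔮' ∉ 𝔮 := fun hxmem => hc𝔮 (hsub 𝔮' h' hxmem (hQc 𝔮' h'))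
      exact (HorizFact.unitAt_map hxn).zpow hφ _
    exact hfU.mul ((hGU.pow m).inv hφ)


end

/-- **(FACT), LEDGER v1.1 shape.** -/
theorem exists_factor {B F : Type*} [CommRing B] [IsDomain B] [IsNoetherianRing B] [Field F]
    (ι : B →+* F) (hι : Function.Injective ι) (π : B) (S : Finset (Ideal B))
    (hmax : ∀ 𝔫 ∈ S, 𝔫.IsMaximal)
    (hreg : ∀ 𝔫 ∈ S, ∀ 𝔮 : Ideal B, 𝔮.IsPrime → 𝔮 ≤ 𝔫 → π ∉ 𝔮 →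
      ∃ x ∈ 𝔮, ∃ d, d ∉ 𝔫 ∧ ∀ y ∈ 𝔮, x ∣ d * y)
    (m : ℕ) (f : F) (hf : f ≠ 0) (hfrac : ∃ a b : B, b ≠ 0 ∧ f * ι b = ι a)
    (hdiv : ∀ 𝔮 : Ideal B, 𝔮.IsPrime → 𝔮 ≠ ⊥ → π ∉ 𝔮 → (∃ 𝔫 ∈ S, 𝔮 ≤ 𝔫) → ∀ t ∈ 𝔮,
      (∀ x ∈ 𝔮, ∃ s, s ∉ 𝔮 ∧ ∃ c, s * x = t * c) →
      ∃ (k : ℤ) (u v : B), u ∉ 𝔮 ∧ v ∉ 𝔮 ∧ f * ι v = ι u * ι t ^ ((m : ℤ) * k)) :
    ∃ G : F, G ≠ 0 ∧ HUnit.HU ι π (↑S) (f / G ^ m) := by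
  obtain ⟨G, u, hG, e, hu⟩ := exists_factor_core hι π S hmax
    (fun 𝔫 h𝔫 𝔮 h𝔮 hle _ hπ => hreg 𝔫 h𝔫 𝔮 h𝔮 hle hπ) m f hf hfrac hdiv
  refine ⟨G, hG, fun 𝔮 h𝔮 hπ hT' => ?_⟩
  obtain ⟨𝔫, h𝔫, hle⟩ := hT'
  obtain ⟨a, b, ha, hb, e'⟩ := hu 𝔮 h𝔮 hπ ⟨𝔫, Finset.mem_coe.mp h𝔫, hle⟩
  have hGm : G ^ m ≠ 0 := pow_ne_zero _ hG
  have hu' : f / G ^ m = u := by
    rw [e]
    field_simp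
  rw [hu']
  exact ⟨a, b, ha, hb, by rw [mul_comm]; exact e'⟩

/-- the same with `S` a finite `Set`. -/
theorem exists_factor_set {B F : Type*} [CommRing B] [IsDomain B] [IsNoetherianRing B] [Field F]
    (ι : B →+* F) (hι : Function.Injective ι) (π : B) (S : Set (Ideal B)) (hSfin : S.Finite)
    (hmax : ∀ 𝔫 ∈ S, 𝔫.IsMaximal)
    (hreg : ∀ 𝔫 ∈ S, ∀ 𝔮 : Ideal B, 𝔮.IsPrime → 𝔮 ≤ 𝔫 → π ∉ 𝔮 →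
      ∃ x ∈ 𝔮, ∃ d, d ∉ 𝔫 ∧ ∀ y ∈ 𝔮, x ∣ d * y)
    (m : ℕ) (f : F) (hf : f ≠ 0) (hfrac : ∃ a b : B, b ≠ 0 ∧ f * ι b = ι a)
    (hdiv : ∀ 𝔮 : Ideal B, 𝔮.IsPrime → 𝔮 ≠ ⊥ → π ∉ 𝔮 → (∃ 𝔫 ∈ S, 𝔮 ≤ 𝔫) → ∀ t ∈ 𝔮,
      (∀ x ∈ 𝔮, ∃ s, s ∉ 𝔮 ∧ ∃ c, s * x = t * c) →
      ∃ (k : ℤ) (u v : B), u ∉ 𝔮 ∧ v ∉ 𝔮 ∧ f * ι v = ι u * ι t ^ ((m : ℤ) * k)) :
    ∃ G : F, G ≠ 0 ∧ HUnit.HU ι π S (f / G ^ m) := by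
  have hmem : ∀ 𝔫 : Ideal B, 𝔫 ∈ hSfin.toFinset ↔ 𝔫 ∈ S := fun 𝔫 => hSfin.mem_toFinset
  obtain ⟨G, hG, hu⟩ := exists_factor ι hι π hSfin.toFinset
    (fun 𝔫 h𝔫 => hmax 𝔫 ((hmem 𝔫).mp h𝔫))
    (fun 𝔫 h𝔫 => hreg 𝔫 ((hmem 𝔫).mp h𝔫)) m f hf hfrac
    (fun 𝔮 h𝔮 h0 hπ hT' => hdiv 𝔮 h𝔮 h0 hπ
      (by obtain ⟨𝔫, h𝔫, hle⟩ := hT'; exact ⟨𝔫, (hmem 𝔫).mp h𝔫, hle⟩))
  refine ⟨G, hG, ?_⟩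
  rwa [Set.Finite.coe_toFinset] at hu

end Fermat.Agent.S36.HFact
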