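/-
S36 (wave 8), package (HLOC), piece (H-ORD): places of the function field over `ℚ̄` are
unramified over every level.

`exists_ord_eq_one` : for every place `P` of `F_ℚ̄ = modularFunctionFieldBar N` and every level
`ι : L → ℚ̄` there is `y ∈ FF L N` with `ord_P (bc y) = 1`.  No rationality hypothesis on `P`.

`ord_localGen_eq_one` (chart form) : if `t` is a local generator of a prime `𝔮` of a chart ring
`B ⊆ FF L N` and `P` dominates `𝔮`, then `ord_P (bc t) = 1`.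

`exists_decomp_of_dvd_ord` : hence `m ∣ ord_P (bc f)` for all `P` implies
`f = (u / v) * t ^ (m * k)` with `u, v ∉ 𝔮` : the `𝔮`-adic valuation of `f` is divisible by `m`.
-/
import Mathlib
import Fermat.Agent.S24.CoeffBC
import Fermat.Agent.S24.Places
import Fermat.Agent.S18.Witness
import Fermat.Agent.S37.Inertia
import Fermat.Agent.S37.LocalGenPlace
import Fermat.Agent.S37.ExtPlace

set_option autoImplicit false

namespace Fermat.Agent.S36.HorizOrd

open AlgebraicCurve ModularCurve Polynomial Fermat.Agent.S37.GaloisValue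
  Fermat.Agent.S37.LocalGenPlace

local notation "Qb" => AlgebraicClosure ℚ

section Abstract

variable {K F : Type*} [Field K] [Field F] [Algebra K F]
variable {L E : Type*} [Field L] [Field E] [Algebra L E]

/-- the value of a polynomial expression -/
theorem isValueAt_aeval {P : Place K F} {u : F} {c : K} (h : IsValueAt P u c) (G : K[X]) :
    IsValueAt P (aeval u G) (G.eval c) := by
  induction G using Polynomial.induction_on' with
  | add p q hp hq =>
    rw [map_add, eval_add]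
    exact hp.add hq
  | monomial n a =>
    rw [← C_mul_X_pow_eq_monomial, map_mul, map_pow, aeval_C, aeval_X, eval_mul, eval_pow,
      eval_C, eval_X]
    exact (isValueAt_algebraMap P a).mul (h.pow n)

/-- a function with a nonzero value is not zero -/
theorem ne_zero_of_isValueAt {P : Place K F} {s : F} {c : K} (h : IsValueAt P s c)
    (hc : c ≠ 0) : s ≠ 0 := by
  rintro rfl
  have h0 : IsValueAt P (0 : F) (0 : K) := by
    have := isValueAt_algebraMap P (0 : K)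
    rwa [map_zero] at this
  exact hc (h.unique h0)

/-- the ring generated by the constants and the functions of the level that are regular at `P` -/
def Obar (P : Place K F) (β : E →+* F) : Subalgebra K F :=
  Algebra.adjoin K (β '' {y : E | β y ∈ P.toValuationSubring})

theorem obar_le (P : Place K F) (β : E →+* F) {a : F} (ha : a ∈ Obar P β) :
    a ∈ P.toValuationSubring := by
  induction ha using Algebra.adjoin_induction with
  | mem x hx =>
    obtain ⟨y, hy, rfl⟩ := hx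
    exact hy
  | algebraMap r => exact P.algebraMap_mem' r
  | add x y _ _ hx hy => exact add_mem hx hy
  | mul x y _ _ hx hy => exact mul_mem hx hy

theorem aeval_mem_obar (P : Place K F) (β : E →+* F) {a : F} (ha : a ∈ Obar P β) (G : K[X]) :
    aeval a G ∈ Obar P β := by
  have h : aeval a G = ((aeval (⟨a, ha⟩ : Obar P β) G : Obar P β) : F) :=
    Subalgebra.aeval_coe (Obar P β) (⟨a, ha⟩ : Obar P β) G
  rw [h]
  exact (aeval (⟨a, ha⟩ : Obar P β) G).2

/-- **The core.**  Every element `a` of `Obar` has a value `c`, and `a - c` is divisible by `τ`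
up to a unit at `P` lying in `Obar`. -/
theorem core (P : Place K F)
    (hval : ∀ u : F, u ∈ P.toValuationSubring → ∃ a : K, IsValueAt P u a)
    (ι : L →+* K) (β : E →+* F)
    (hβ : ∀ a : L, β (algebraMap L E a) = algebraMap K F (ι a))
    (hsep : ∀ c : K, ∃ g : L[X], g.Separable ∧ (g.map ι).eval c = 0)
    (τ : F)
    (hτ : ∀ z : E, IsValueAt P (β z) 0 →
      ∃ y : E, β y ∈ P.toValuationSubring ∧ β z = τ * β y)
    {a : F} (ha : a ∈ Obar P β) :
    ∃ (c : K) (s : F), IsValueAt P a c ∧ s ∈ Obar P β ∧ (∃ c' : K, c' ≠ 0 ∧ IsValueAt P s c') ∧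
      ∃ a' : F, a' ∈ Obar P β ∧ s * (a - algebraMap K F c) = τ * a' := by
  induction ha using Algebra.adjoin_induction with
  | mem x hx =>
    obtain ⟨y, hy, rfl⟩ := hx
    obtain ⟨c, hc⟩ := hval (β y) hy
    obtain ⟨g, hgsep, hgc⟩ := hsep c
    have hyO : β y ∈ Obar P β := Algebra.subset_adjoin ⟨y, hy, rfl⟩
    -- factor `g.map ι = (X - C c) * h`
    set G : K[X] := g.map ι with hG
    have hroot : G.IsRoot c := hgc
    set h : K[X] := G /ₘ (X - C c) with hh
    have hfac : (X - C c) * h = G := mul_divByMonic_eq_iff_isRoot.mpr hroot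
    have hGsep : G.Separable := hgsep.map
    have hhc : h.eval c ≠ 0 := by
      have h1 : aeval c (derivative G) ≠ 0 :=
        hGsep.aeval_derivative_ne_zero (by simpa [aeval_def, eval₂_eq_eval_map] using hgc)
      have h2 : derivative G = h + (X - C c) * derivative h := by
        rw [← hfac, derivative_mul]
        simp
      rw [h2] at h1
      simpa using h1
    -- `β (g(y)) = G(β y)`
    have hbc : β (aeval y g) = aeval (β y) G := by
      rw [hG, aeval_def, aeval_def, hom_eval₂, eval₂_map]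
      congr 1
      ext a
      simp [hβ]
    have hval0 : IsValueAt P (β (aeval y g)) 0 := by
      have := isValueAt_aeval hc G
      rwa [show G.eval c = 0 from hgc, ← hbc] at this
    obtain ⟨y', hy', hy'e⟩ := hτ (aeval y g) hval0
    refine ⟨c, aeval (β y) h, hc, aeval_mem_obar P β hyO h, ⟨h.eval c, hhc, isValueAt_aeval hc h⟩,
      β y', Algebra.subset_adjoin ⟨y', hy', rfl⟩, ?_⟩
    rw [← hy'e, hbc, ← hfac, map_mul, map_sub, aeval_X, aeval_C]
    ring
  | algebraMap r =>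
    refine ⟨r, 1, isValueAt_algebraMap P r, one_mem _, ⟨1, one_ne_zero, ?_⟩, 0, zero_mem _, ?_⟩
    · have := isValueAt_algebraMap P (1 : K)
      rwa [map_one] at this
    · simp
  | add x y _ _ hx hy =>
    obtain ⟨c₁, s₁, hv₁, hs₁, ⟨d₁, hd₁, hsv₁⟩, a₁, ha₁, e₁⟩ := hx
    obtain ⟨c₂, s₂, hv₂, hs₂, ⟨d₂, hd₂, hsv₂⟩, a₂, ha₂, e₂⟩ := hy
    refine ⟨c₁ + c₂, s₁ * s₂, hv₁.add hv₂, mul_mem hs₁ hs₂,
      ⟨d₁ * d₂, mul_ne_zero hd₁ hd₂, hsv₁.mul hsv₂⟩,
      s₂ * a₁ + s₁ * a₂, add_mem (mul_mem hs₂ ha₁) (mul_mem hs₁ ha₂), ?_⟩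
    rw [map_add]
    linear_combination s₂ * e₁ + s₁ * e₂
  | mul x y hxO hyO hx hy =>
    obtain ⟨c₁, s₁, hv₁, hs₁, ⟨d₁, hd₁, hsv₁⟩, a₁, ha₁, e₁⟩ := hx
    obtain ⟨c₂, s₂, hv₂, hs₂, ⟨d₂, hd₂, hsv₂⟩, a₂, ha₂, e₂⟩ := hy
    refine ⟨c₁ * c₂, s₁ * s₂, hv₁.mul hv₂, mul_mem hs₁ hs₂,
      ⟨d₁ * d₂, mul_ne_zero hd₁ hd₂, hsv₁.mul hsv₂⟩,
      s₂ * y * a₁ + algebraMap K F c₁ * s₁ * a₂,
      add_mem (mul_mem (mul_mem hs₂ hyO) ha₁)
        (mul_mem (mul_mem (Subalgebra.algebraMap_mem _ c₁) hs₁) ha₂), ?_⟩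
    rw [map_mul]
    linear_combination s₂ * y * e₁ + algebraMap K F c₁ * s₁ * e₂

/-- elements of `Obar` with value `0` are divisible by `τ` up to a unit at `P` -/
theorem core_zero (P : Place K F)
    (hval : ∀ u : F, u ∈ P.toValuationSubring → ∃ a : K, IsValueAt P u a)
    (ι : L →+* K) (β : E →+* F)
    (hβ : ∀ a : L, β (algebraMap L E a) = algebraMap K F (ι a))
    (hsep : ∀ c : K, ∃ g : L[X], g.Separable ∧ (g.map ι).eval c = 0)
    (τ : F)
    (hτ : ∀ z : E, IsValueAt P (β z) 0 →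
      ∃ y : E, β y ∈ P.toValuationSubring ∧ β z = τ * β y)
    {a : F} (ha : a ∈ Obar P β) (ha0 : IsValueAt P a 0) :
    ∃ s : F, s ≠ 0 ∧ P.ord s = 0 ∧ ∃ a' : F, a' ∈ Obar P β ∧ s * a = τ * a' := by
  obtain ⟨c, s, hv, -, ⟨d, hd, hsv⟩, a', ha', e⟩ := core P hval ι β hβ hsep τ hτ ha
  have hc : c = 0 := hv.unique ha0
  subst hc
  rw [map_zero, sub_zero] at e
  exact ⟨s, ne_zero_of_isValueAt hsv hd, ord_eq_zero_of_isValueAt hsv hd, a', ha', e⟩

/-- the order of every element of `Obar` is divisible by the order of `β t` -/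
theorem dvd_ord (P : Place K F)
    (hval : ∀ u : F, u ∈ P.toValuationSubring → ∃ a : K, IsValueAt P u a)
    (ι : L →+* K) (β : E →+* F)
    (hβ : ∀ a : L, β (algebraMap L E a) = algebraMap K F (ι a))
    (hsep : ∀ c : K, ∃ g : L[X], g.Separable ∧ (g.map ι).eval c = 0)
    (t : E) (ht : 0 < P.ord (β t))
    (hτ : ∀ z : E, IsValueAt P (β z) 0 →
      ∃ y : E, β y ∈ P.toValuationSubring ∧ β z = β t * β y) :
    ∀ a : F, a ∈ Obar P β → a ≠ 0 → P.ord (β t) ∣ P.ord a := by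
  have ht0 : β t ≠ 0 := by
    intro h0
    rw [h0, Place.ord_zero] at ht
    exact lt_irrefl _ ht
  have key : ∀ (n : ℕ) (a : F), a ∈ Obar P β → a ≠ 0 → (P.ord a).toNat ≤ n →
      P.ord (β t) ∣ P.ord a := by
    intro n
    induction n with
    | zero =>
      intro a ha ha0 hn
      have hmem := obar_le P β ha
      have hnn : 0 ≤ P.ord a := (Fermat.Agent.S24.Places.ord_nonneg_iff_mem P ha0).mpr hmem
      have : P.ord a = 0 := by omega
      rw [this]
      exact dvd_zero _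
    | succ n ih =>
      intro a ha ha0 hn
      have hmem := obar_le P β ha
      have hnn : 0 ≤ P.ord a := (Fermat.Agent.S24.Places.ord_nonneg_iff_mem P ha0).mpr hmem
      by_cases hz : P.ord a = 0
      · rw [hz]
        exact dvd_zero _
      · have hv0 : IsValueAt P a 0 := isValueAt_zero_of_ord_ne_zero hmem hz
        obtain ⟨s, hs0, hsord, a', ha', e⟩ := core_zero P hval ι β hβ hsep (β t) hτ ha hv0
        have ha'0 : a' ≠ 0 := by
          rintro rfl
          rw [mul_zero] at e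
          exact (mul_ne_zero hs0 ha0) e
        have e2 : P.ord s + P.ord a = P.ord (β t) + P.ord a' := by
          rw [← P.ord_mul hs0 ha0, e, P.ord_mul ht0 ha'0]
        have hnn' : 0 ≤ P.ord a' :=
          (Fermat.Agent.S24.Places.ord_nonneg_iff_mem P ha'0).mpr (obar_le P β ha')
        have h3 : (P.ord a').toNat ≤ n := by omega
        have h4 := ih a' ha' ha'0 h3
        have h5 : P.ord a = P.ord (β t) + P.ord a' := by omega
        rw [h5]
        exact dvd_add dvd_rfl h4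
  intro a ha ha0
  exact key (P.ord a).toNat a ha ha0 le_rfl

/-- `F` is the fraction field of `Obar` -/
theorem exists_frac (P : Place K F) (β : E →+* F)
    (hgen : ∀ x : F, x ∈ Subfield.closure (Set.range (algebraMap K F) ∪ Set.range β)) (x : F) :
    ∃ a b : F, a ∈ Obar P β ∧ b ∈ Obar P β ∧ b ≠ 0 ∧ x * b = a := by
  have hx := hgen x
  induction hx using Subfield.closure_induction with
  | mem y hy =>
    rcases hy with ⟨c, rfl⟩ | ⟨z, rfl⟩
    · exact ⟨algebraMap K F c, 1, Subalgebra.algebraMap_mem _ c, one_mem _, one_ne_zero,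
        mul_one _⟩
    · by_cases hz : β z ∈ P.toValuationSubring
      · exact ⟨β z, 1, Algebra.subset_adjoin ⟨z, hz, rfl⟩, one_mem _, one_ne_zero, mul_one _⟩
      · have hz0 : z ≠ 0 := by
          rintro rfl
          rw [map_zero] at hz
          exact hz (zero_mem _)
        have hinv : (β z)⁻¹ ∈ P.toValuationSubring :=
          (P.toValuationSubring.mem_or_inv_mem (β z)).resolve_left hz
        have hβz : β z ≠ 0 := (map_ne_zero β).mpr hz0
        refine ⟨1, β z⁻¹, one_mem _, Algebra.subset_adjoin ⟨z⁻¹, ?_, rfl⟩, ?_, ?_⟩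
        · show β z⁻¹ ∈ P.toValuationSubring
          rw [map_inv₀]
          exact hinv
        · exact (map_ne_zero β).mpr (inv_ne_zero hz0)
        · rw [map_inv₀, mul_inv_cancel₀ hβz]
  | one => exact ⟨1, 1, one_mem _, one_mem _, one_ne_zero, mul_one _⟩
  | add x y _ _ hx hy =>
    obtain ⟨a₁, b₁, ha₁, hb₁, hb₁0, e₁⟩ := hx
    obtain ⟨a₂, b₂, ha₂, hb₂, hb₂0, e₂⟩ := hy
    refine ⟨a₁ * b₂ + a₂ * b₁, b₁ * b₂, add_mem (mul_mem ha₁ hb₂) (mul_mem ha₂ hb₁),
      mul_mem hb₁ hb₂, mul_ne_zero hb₁0 hb₂0, ?_⟩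
    rw [← e₁, ← e₂]
    ring
  | neg x _ hx =>
    obtain ⟨a₁, b₁, ha₁, hb₁, hb₁0, e₁⟩ := hx
    exact ⟨-a₁, b₁, neg_mem ha₁, hb₁, hb₁0, by rw [← e₁]; ring⟩
  | inv x _ hx =>
    obtain ⟨a₁, b₁, ha₁, hb₁, hb₁0, e₁⟩ := hx
    by_cases hx0 : x = 0
    · subst hx0
      exact ⟨0, 1, zero_mem _, one_mem _, one_ne_zero, by simp⟩
    · have ha₁0 : a₁ ≠ 0 := by
        rw [← e₁]
        exact mul_ne_zero hx0 hb₁0
      refine ⟨b₁, a₁, hb₁, ha₁, ha₁0, ?_⟩
      rw [← e₁]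
      field_simp
  | mul x y _ _ hx hy =>
    obtain ⟨a₁, b₁, ha₁, hb₁, hb₁0, e₁⟩ := hx
    obtain ⟨a₂, b₂, ha₂, hb₂, hb₂0, e₂⟩ := hy
    refine ⟨a₁ * a₂, b₁ * b₂, mul_mem ha₁ ha₂, mul_mem hb₁ hb₂, mul_ne_zero hb₁0 hb₂0, ?_⟩
    rw [← e₁, ← e₂]
    ring

/-- **Unramifiedness, abstract form.**  `P` a place of `F/K` at which every regular function has
a value in `K`; `β : E → F` a semilinear embedding of a field `E/L` whose image generates `F`
over `K`; every element of `K` is a root of a separable polynomial over `L`.  Then some element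
of `E` has order `1` at `P`. -/
theorem exists_ord_eq_one_abs (P : Place K F)
    (hval : ∀ u : F, u ∈ P.toValuationSubring → ∃ a : K, IsValueAt P u a)
    (ι : L →+* K) (β : E →+* F)
    (hβ : ∀ a : L, β (algebraMap L E a) = algebraMap K F (ι a))
    (hsep : ∀ c : K, ∃ g : L[X], g.Separable ∧ (g.map ι).eval c = 0)
    (hgen : ∀ x : F, x ∈ Subfield.closure (Set.range (algebraMap K F) ∪ Set.range β)) :
    ∃ y : E, P.ord (β y) = 1 := by
  classical
  obtain ⟨ϖ, hϖ⟩ := IsDiscreteValuationRing.exists_irreducible P.toValuationSubring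
  have hϖord : P.ord (ϖ : F) = 1 := P.ord_coe_irreducible hϖ
  have hϖ0 : (ϖ : F) ≠ 0 := by
    intro h0
    rw [h0, Place.ord_zero] at hϖord
    exact zero_ne_one hϖord
  obtain ⟨a, b, ha, hb, hb0, e⟩ := exists_frac P β hgen (ϖ : F)
  have ha0 : a ≠ 0 := by
    rw [← e]
    exact mul_ne_zero hϖ0 hb0
  have hord : P.ord a = 1 + P.ord b := by
    rw [← e, P.ord_mul hϖ0 hb0, hϖord]
  by_cases hS : ∃ z : E, 0 < P.ord (β z)
  · -- an element of minimal positive order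
    have hS' : ∃ n : ℕ, 0 < n ∧ ∃ z : E, P.ord (β z) = n := by
      obtain ⟨z, hz⟩ := hS
      exact ⟨(P.ord (β z)).toNat, by omega, z, by omega⟩
    obtain ⟨hn₀pos, t, ht⟩ := Nat.find_spec hS'
    have hmin : ∀ z : E, 0 < P.ord (β z) → P.ord (β t) ≤ P.ord (β z) := by
      intro z hz
      have h1 : Nat.find hS' ≤ (P.ord (β z)).toNat :=
        Nat.find_min' hS' ⟨by omega, z, by omega⟩
      omega
    have htpos : 0 < P.ord (β t) := by
      rw [ht]
      exact_mod_cast hn₀pos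
    have ht0 : t ≠ 0 := by
      rintro rfl
      rw [map_zero, Place.ord_zero] at htpos
      exact lt_irrefl _ htpos
    have hβt0 : β t ≠ 0 := (map_ne_zero β).mpr ht0
    have hτ : ∀ z : E, IsValueAt P (β z) 0 →
        ∃ y : E, β y ∈ P.toValuationSubring ∧ β z = β t * β y := by
      intro z hz
      by_cases hz0 : z = 0
      · subst hz0
        exact ⟨0, by rw [map_zero]; exact zero_mem _, by simp⟩
      · have hβz0 : β z ≠ 0 := (map_ne_zero β).mpr hz0
        have hzpos : 0 < P.ord (β z) := ord_pos_of_isValueAt_zero hβz0 hz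
        have hle := hmin z hzpos
        refine ⟨z / t, ?_, ?_⟩
        · have hne : β (z / t) ≠ 0 := (map_ne_zero β).mpr (div_ne_zero hz0 ht0)
          rw [← Fermat.Agent.S24.Places.ord_nonneg_iff_mem P hne, map_div₀, div_eq_mul_inv,
            P.ord_mul hβz0 (inv_ne_zero hβt0), P.ord_inv]
          omega
        · rw [map_div₀]
          field_simp
    have hda := dvd_ord P hval ι β hβ hsep t htpos hτ a ha ha0
    have hdb := dvd_ord P hval ι β hβ hsep t htpos hτ b hb hb0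
    have hd1 : P.ord (β t) ∣ 1 := by
      have : (1 : ℤ) = P.ord a - P.ord b := by omega
      rw [this]
      exact dvd_sub hda hdb
    refine ⟨t, ?_⟩
    exact Int.eq_one_of_dvd_one htpos.le hd1
  · -- no element of positive order: then `Obar` consists of constants, which is absurd
    exfalso
    have hτ : ∀ z : E, IsValueAt P (β z) 0 →
        ∃ y : E, β y ∈ P.toValuationSubring ∧ β z = (0 : F) * β y := by
      intro z hz
      by_cases hz0 : z = 0
      · subst hz0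
        exact ⟨0, by rw [map_zero]; exact zero_mem _, by simp⟩
      · exact absurd ⟨z, ord_pos_of_isValueAt_zero ((map_ne_zero β).mpr hz0) hz⟩ hS
    have hconst : ∀ x : F, x ∈ Obar P β → ∃ c : K, x = algebraMap K F c := by
      intro x hx
      obtain ⟨c, s, -, -, ⟨d, hd, hsv⟩, a', -, e'⟩ := core P hval ι β hβ hsep 0 hτ hx
      rw [zero_mul] at e'
      have hs0 : s ≠ 0 := ne_zero_of_isValueAt hsv hd
      exact ⟨c, sub_eq_zero.mp ((mul_eq_zero.mp e').resolve_left hs0)⟩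
    obtain ⟨ca, hca⟩ := hconst a ha
    obtain ⟨cb, hcb⟩ := hconst b hb
    have hca0 : ca ≠ 0 := by
      rintro rfl
      rw [map_zero] at hca
      exact ha0 hca
    have hcb0 : cb ≠ 0 := by
      rintro rfl
      rw [map_zero] at hcb
      exact hb0 hcb
    have h1 : P.ord a = 0 := by
      rw [hca]
      exact ord_eq_zero_of_isValueAt (isValueAt_algebraMap P ca) hca0
    have h2 : P.ord b = 0 := by
      rw [hcb]
      exact ord_eq_zero_of_isValueAt (isValueAt_algebraMap P cb) hcb0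
    omega

end Abstract

/-- the field computation behind `exists_decomp_of_dvd_ord` -/
theorem field_aux {F : Type*} [Field F] (f y₁ y₂ s₁ s₂ c₁ c₂ t : F) (k₁ k₂ : ℕ)
    (e : f * y₂ = y₁) (E₁ : s₁ * y₁ = t ^ k₁ * c₁) (E₂ : s₂ * y₂ = t ^ k₂ * c₂)
    (ht : t ≠ 0) (hs₂ : s₂ ≠ 0) (hy₂ : y₂ ≠ 0) :
    f * (c₂ * s₁) = c₁ * s₂ * t ^ ((k₁ : ℤ) - k₂) := by
  rw [zpow_sub₀ ht, zpow_natCast, zpow_natCast]
  have hpow : t ^ k₂ ≠ 0 := pow_ne_zero _ ht
  have hmain : f * (c₂ * s₁) * t ^ k₂ * (s₂ * y₂) = c₁ * s₂ * t ^ k₁ * (s₂ * y₂) := by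
    calc f * (c₂ * s₁) * t ^ k₂ * (s₂ * y₂)
        = (f * y₂) * s₁ * s₂ * (t ^ k₂ * c₂) := by ring
      _ = y₁ * s₁ * s₂ * (s₂ * y₂) := by rw [e, E₂]
      _ = (s₁ * y₁) * s₂ * (s₂ * y₂) := by ring
      _ = c₁ * s₂ * t ^ k₁ * (s₂ * y₂) := by rw [E₁]; ring
  have hcancel := mul_right_cancel₀ (mul_ne_zero hs₂ hy₂) hmain
  rw [← mul_div_assoc, eq_div_iff hpow, hcancel]

section Modular

variable (N : ℕ) [NeZero N] {L : Type} [Field L] [Algebra ℚ L] (ι : L →+* Qb)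

/-- every element of `ℚ̄` is a root of a separable polynomial over any level -/
theorem exists_separable (c : Qb) : ∃ g : L[X], g.Separable ∧ (g.map ι).eval c = 0 := by
  have hint : IsIntegral ℚ c := ((AlgebraicClosure.isAlgebraic ℚ).isAlgebraic c).isIntegral
  refine ⟨(minpoly ℚ c).map (algebraMap ℚ L), ((minpoly.irreducible hint).separable).map, ?_⟩
  rw [Polynomial.map_map]
  have h1 : ι.comp (algebraMap ℚ L) = algebraMap ℚ Qb := Subsingleton.elim _ _
  rw [h1, eval_map_algebraMap]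
  exact minpoly.aeval ℚ c

omit [NeZero N] in
/-- `F_ℚ̄` is generated by the constants and the image of the level -/
theorem mem_closure_bc (x : ↥(modularFunctionFieldBar N)) :
    x ∈ Subfield.closure (Set.range (algebraMap Qb ↥(modularFunctionFieldBar N)) ∪
      Set.range (Fermat.Agent.S24.CoeffBC.bc ι (modularFunctionFieldFull N))) := by
  set S : Subfield ↥(modularFunctionFieldBar N) :=
    Subfield.closure (Set.range (algebraMap Qb ↥(modularFunctionFieldBar N)) ∪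
      Set.range (Fermat.Agent.S24.CoeffBC.bc ι (modularFunctionFieldFull N))) with hS
  have key : ∀ z : LaurentSeries Qb, z ∈ laurentBaseChange Qb (modularFunctionFieldFull N) →
      ∃ x' : ↥(modularFunctionFieldBar N), x' ∈ S ∧ (x' : LaurentSeries Qb) = z := by
    intro z hz
    rw [mem_laurentBaseChange_iff] at hz
    induction hz using Subfield.closure_induction with
    | mem y hy =>
      rcases hy with ⟨a, rfl⟩ | ⟨w, hw, rfl⟩
      · exact ⟨algebraMap Qb _ a, Subfield.subset_closure (Or.inl ⟨a, rfl⟩), rfl⟩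
      · refine ⟨Fermat.Agent.S24.CoeffBC.bc ι (modularFunctionFieldFull N)
          ⟨coeffEmb L w, coeffEmb_mem_laurentBaseChange L hw⟩,
          Subfield.subset_closure (Or.inr ⟨_, rfl⟩), ?_⟩
        rw [Fermat.Agent.S24.CoeffBC.coe_bc]
        exact Fermat.Agent.S24.CoeffBC.coeffMap_coeffEmb' ι w
    | one => exact ⟨1, one_mem _, rfl⟩
    | add x y _ _ hx hy =>
      obtain ⟨x', hx', rfl⟩ := hx
      obtain ⟨y', hy', rfl⟩ := hy
      exact ⟨x' + y', add_mem hx' hy', rfl⟩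
    | neg x _ hx =>
      obtain ⟨x', hx', rfl⟩ := hx
      exact ⟨-x', neg_mem hx', rfl⟩
    | inv x _ hx =>
      obtain ⟨x', hx', rfl⟩ := hx
      exact ⟨x'⁻¹, inv_mem hx', rfl⟩
    | mul x y _ _ hx hy =>
      obtain ⟨x', hx', rfl⟩ := hx
      obtain ⟨y', hy', rfl⟩ := hy
      exact ⟨x' * y', mul_mem hx' hy', rfl⟩
  obtain ⟨x', hx', e⟩ := key (x : LaurentSeries Qb) x.2
  have : x' = x := Subtype.ext e
  rwa [this] at hx'

/-- **(U) Places of `F_ℚ̄` are unramified over every level.** -/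
theorem exists_ord_eq_one (P : Place Qb ↥(modularFunctionFieldBar N)) :
    ∃ y : Fermat.Agent.S24.FF L N,
      P.ord (Fermat.Agent.S24.CoeffBC.bc ι (modularFunctionFieldFull N) y) = 1 :=
  exists_ord_eq_one_abs P
    (fun _ hu => Fermat.Agent.S37.Inertia.exists_isValueAt_of_deg_eq_one
      (Fermat.Agent.S18.Witness.bar_deg_eq_one N P) hu)
    ι (Fermat.Agent.S24.CoeffBC.bc ι (modularFunctionFieldFull N))
    (Fermat.Agent.S24.CoeffBC.bc_algebraMap ι (modularFunctionFieldFull N))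
    (exists_separable ι) (mem_closure_bc N ι)

/-- **(U-chart)** A local generator `t` of a prime `𝔮` of a chart ring `B` (with fraction field
`FF L N`) has order `1` at every place of `F_ℚ̄` dominating `𝔮`. -/
theorem ord_localGen_eq_one {B : Type*} [CommRing B] [IsDomain B]
    (φ : B →+* Fermat.Agent.S24.FF L N) (hφ : Function.Injective φ)
    (hfrac : ∀ g : Fermat.Agent.S24.FF L N, ∃ y₁ y₂ : B, y₂ ≠ 0 ∧ g * φ y₂ = φ y₁)
    (𝔮 : Ideal B) [𝔮.IsPrime] (P : Place Qb ↥(modularFunctionFieldBar N))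
    (hP : ∀ y : B,
      Fermat.Agent.S24.CoeffBC.bc ι (modularFunctionFieldFull N) (φ y) ∈ P.toValuationSubring ∧
      (y ∈ 𝔮 ↔
        IsValueAt P (Fermat.Agent.S24.CoeffBC.bc ι (modularFunctionFieldFull N) (φ y)) 0))
    (t : B) (ht : t ∈ 𝔮) (ht0 : t ≠ 0)
    (hgen : ∀ x ∈ 𝔮, ∃ s : B, s ∉ 𝔮 ∧ ∃ c : B, s * x = t * c) :
    P.ord (Fermat.Agent.S24.CoeffBC.bc ι (modularFunctionFieldFull N) (φ t)) = 1 := by
  set bc := Fermat.Agent.S24.CoeffBC.bc ι (modularFunctionFieldFull N) with hbc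
  set ψ : B →+* ↥(modularFunctionFieldBar N) := bc.comp φ with hψdef
  have hψ : Function.Injective ψ := bc.injective.comp hφ
  have hD : Dom ψ 𝔮 P := hP
  obtain ⟨y, hy⟩ := exists_ord_eq_one N ι P
  have hy0 : y ≠ 0 := by
    rintro rfl
    rw [map_zero, Place.ord_zero] at hy
    exact zero_ne_one hy
  obtain ⟨y₁, y₂, hy₂, e⟩ := hfrac y
  have hy₁ : y₁ ≠ 0 := by
    rintro rfl
    rw [map_zero] at e
    exact (mul_ne_zero hy0 ((map_ne_zero_iff φ hφ).mpr hy₂)) e
  obtain ⟨k₁, s₁, c₁, hs₁, hc₁, e₁⟩ := hD.exists_decomp hψ ht ht0 hgen y₁ hy₁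
  obtain ⟨k₂, s₂, c₂, hs₂, hc₂, e₂⟩ := hD.exists_decomp hψ ht ht0 hgen y₂ hy₂
  have o₁ := hD.ord_of_decomp hψ ht0 hy₁ hs₁ hc₁ e₁
  have o₂ := hD.ord_of_decomp hψ ht0 hy₂ hs₂ hc₂ e₂
  have hpos : 0 < P.ord (ψ t) := hD.ord_pos hψ ht ht0
  have e' : bc y * ψ y₂ = ψ y₁ := by
    show bc y * bc (φ y₂) = bc (φ y₁)
    rw [← map_mul, e]
  have o₃ : P.ord (bc y) + P.ord (ψ y₂) = P.ord (ψ y₁) := by
    rw [← P.ord_mul ((map_ne_zero bc).mpr hy0) ((map_ne_zero_iff ψ hψ).mpr hy₂), e']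
  rw [hy, o₁, o₂] at o₃
  have hd : P.ord (ψ t) ∣ 1 := ⟨(k₁ : ℤ) - k₂, by linear_combination o₃⟩
  exact Int.eq_one_of_dvd_one hpos.le hd

/-- **(U-dvd), one place.**  If `m` divides the order of `f` at a place dominating `𝔮`, then
`f = (u / v) * t ^ (m * k)` with `u, v ∉ 𝔮`. -/
theorem exists_decomp_of_dvd_ord {B : Type*} [CommRing B] [IsDomain B]
    (φ : B →+* Fermat.Agent.S24.FF L N) (hφ : Function.Injective φ)
    (hfrac : ∀ g : Fermat.Agent.S24.FF L N, ∃ y₁ y₂ : B, y₂ ≠ 0 ∧ g * φ y₂ = φ y₁)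
    (𝔮 : Ideal B) [𝔮.IsPrime] (P : Place Qb ↥(modularFunctionFieldBar N))
    (hP : ∀ y : B,
      Fermat.Agent.S24.CoeffBC.bc ι (modularFunctionFieldFull N) (φ y) ∈ P.toValuationSubring ∧
      (y ∈ 𝔮 ↔
        IsValueAt P (Fermat.Agent.S24.CoeffBC.bc ι (modularFunctionFieldFull N) (φ y)) 0))
    (t : B) (ht : t ∈ 𝔮) (ht0 : t ≠ 0)
    (hgen : ∀ x ∈ 𝔮, ∃ s : B, s ∉ 𝔮 ∧ ∃ c : B, s * x = t * c)
    (m : ℕ) (f : Fermat.Agent.S24.FF L N) (hf : f ≠ 0)
    (hm : (m : ℤ) ∣ P.ord (Fermat.Agent.S24.CoeffBC.bc ι (modularFunctionFieldFull N) f)) :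
    ∃ (k : ℤ) (u v : B), u ∉ 𝔮 ∧ v ∉ 𝔮 ∧ f * φ v = φ u * φ t ^ ((m : ℤ) * k) := by
  have hone := ord_localGen_eq_one N ι φ hφ hfrac 𝔮 P hP t ht ht0 hgen
  set bc := Fermat.Agent.S24.CoeffBC.bc ι (modularFunctionFieldFull N) with hbc
  set ψ : B →+* ↥(modularFunctionFieldBar N) := bc.comp φ with hψdef
  have hψ : Function.Injective ψ := bc.injective.comp hφ
  have hD : Dom ψ 𝔮 P := hP
  obtain ⟨y₁, y₂, hy₂, e⟩ := hfrac f
  have hy₁ : y₁ ≠ 0 := by
    rintro rfl
    rw [map_zero] at e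
    exact (mul_ne_zero hf ((map_ne_zero_iff φ hφ).mpr hy₂)) e
  obtain ⟨k₁, s₁, c₁, hs₁, hc₁, e₁⟩ := hD.exists_decomp hψ ht ht0 hgen y₁ hy₁
  obtain ⟨k₂, s₂, c₂, hs₂, hc₂, e₂⟩ := hD.exists_decomp hψ ht ht0 hgen y₂ hy₂
  have o₁ := hD.ord_of_decomp hψ ht0 hy₁ hs₁ hc₁ e₁
  have o₂ := hD.ord_of_decomp hψ ht0 hy₂ hs₂ hc₂ e₂
  have hone' : P.ord (ψ t) = 1 := hone
  rw [hone', mul_one] at o₁ o₂
  have e' : bc f * ψ y₂ = ψ y₁ := by
    show bc f * bc (φ y₂) = bc (φ y₁)
    rw [← map_mul, e]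
  have o₃ : P.ord (bc f) + P.ord (ψ y₂) = P.ord (ψ y₁) := by
    rw [← P.ord_mul ((map_ne_zero bc).mpr hf) ((map_ne_zero_iff ψ hψ).mpr hy₂), e']
  rw [o₁, o₂] at o₃
  obtain ⟨k, hk⟩ := hm
  have hkk : (m : ℤ) * k = (k₁ : ℤ) - k₂ := by rw [← hk]; linarith
  have hφt : φ t ≠ 0 := (map_ne_zero_iff φ hφ).mpr ht0
  have hφs₁ : φ s₁ ≠ 0 := (map_ne_zero_iff φ hφ).mpr (fun h => hs₁ (h ▸ 𝔮.zero_mem))
  have hφs₂ : φ s₂ ≠ 0 := (map_ne_zero_iff φ hφ).mpr (fun h => hs₂ (h ▸ 𝔮.zero_mem))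
  have hφy₂ : φ y₂ ≠ 0 := (map_ne_zero_iff φ hφ).mpr hy₂
  have E₁ : φ s₁ * φ y₁ = φ t ^ k₁ * φ c₁ := by rw [← map_mul, e₁, map_mul, map_pow]
  have E₂ : φ s₂ * φ y₂ = φ t ^ k₂ * φ c₂ := by rw [← map_mul, e₂, map_mul, map_pow]
  refine ⟨k, c₁ * s₂, c₂ * s₁, fun h => (Ideal.IsPrime.mem_or_mem inferInstance h).elim hc₁ hs₂,
    fun h => (Ideal.IsPrime.mem_or_mem inferInstance h).elim hc₂ hs₁, ?_⟩
  rw [hkk, map_mul, map_mul]
  exact field_aux f (φ y₁) (φ y₂) (φ s₁) (φ s₂) (φ c₁) (φ c₂) (φ t) k₁ k₂ e E₁ E₂ hφt hφs₂ hφy₂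

/-- **(U-dvd), chart form.**  `W` a discrete valuation ring of the level `L` with uniformiser
`π`, `B` a chart ring (or a localisation of one) with fraction field `FF L N` containing the
constants of `W`, `𝔮` a nonzero prime of `B` not containing `π` with local generator `t`.  If
`m` divides the order of `f` at every place of `F_ℚ̄`, then `f = (u / v) * t ^ (m * k)` with
`u, v ∉ 𝔮`: the `𝔮`-adic valuation of `f` is divisible by `m`. -/
theorem exists_decomp_of_forall_dvd (W : ValuationSubring L) [IsDiscreteValuationRing W]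
    {π : W} (hπ : Irreducible π) {B : Type*} [CommRing B] [IsDomain B]
    (φ : B →+* Fermat.Agent.S24.FF L N) (hφ : Function.Injective φ)
    (hfrac : ∀ g : Fermat.Agent.S24.FF L N, ∃ y₁ y₂ : B, y₂ ≠ 0 ∧ g * φ y₂ = φ y₁)
    (hW : ∀ w : W, ∃ b : B, φ b = algebraMap L (Fermat.Agent.S24.FF L N) (w : L))
    (𝔮 : Ideal B) [𝔮.IsPrime] (h0 : 𝔮 ≠ ⊥)
    (hπ𝔮 : ∀ b : B, φ b = algebraMap L (Fermat.Agent.S24.FF L N) (π : L) → b ∉ 𝔮)
    (t : B) (ht : t ∈ 𝔮)
    (hgen : ∀ x ∈ 𝔮, ∃ s : B, s ∉ 𝔮 ∧ ∃ c : B, s * x = t * c)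
    (m : ℕ) (f : Fermat.Agent.S24.FF L N) (hf : f ≠ 0)
    (hm : ∀ P : Place Qb ↥(modularFunctionFieldBar N),
      (m : ℤ) ∣ P.ord (Fermat.Agent.S24.CoeffBC.bc ι (modularFunctionFieldFull N) f)) :
    ∃ (k : ℤ) (u v : B), u ∉ 𝔮 ∧ v ∉ 𝔮 ∧ f * φ v = φ u * φ t ^ ((m : ℤ) * k) := by
  have ht0 : t ≠ 0 := by
    rintro rfl
    apply h0
    rw [eq_bot_iff]
    intro x hx
    obtain ⟨s, hs, c, hc⟩ := hgen x hx
    rw [zero_mul] at hc
    have hs0 : s ≠ 0 := fun h => hs (h ▸ 𝔮.zero_mem)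
    exact Ideal.mem_bot.mpr ((mul_eq_zero.mp hc).resolve_left hs0)
  obtain ⟨P, hP⟩ := Fermat.Agent.S37.ExtPlace.exists_place_of_prime_chart N ι W hπ φ hφ hW 𝔮 h0
    hπ𝔮
  exact exists_decomp_of_dvd_ord N ι φ hφ hfrac 𝔮 P hP t ht ht0 hgen m f hf (hm P)

end Modular

end Fermat.Agent.S36.HorizOrd
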