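/-
S36 (wave 8), package (HLOC), contract K6 (FACT) at a chart: K5 (`HorizOrd`) + K6 (`HorizFact`).

`exists_factor_chart` : `B` a Noetherian chart ring of the level `(L, ι)` over the discrete
valuation ring `W` (uniformiser `π`), `T` a finite set of maximal ideals such that every nonzero
prime `𝔮 ∌ π` below `T` is locally principal (REG36).  If `m` divides the order of `f` at every
place of `F_ℚ̄`, then `f = u * G ^ m` with `HU φ π T u`.

`exists_factor_carrier` : the same for a carrier `B` with `[Algebra B (FF L N)]`,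
`[IsFractionRing B (FF L N)]`, `[Algebra W B]` (the S34 `KLocInst` pattern).
-/
import Mathlib
import Fermat.Agent.S36.HorizOrd
import Fermat.Agent.S36.HorizFact

set_option autoImplicit false

namespace Fermat.Agent.S36.HorizFactInst

open AlgebraicCurve ModularCurve

local notation "Qb" => AlgebraicClosure ℚ

/-- the multiplier form of `IsFractionRing` -/
theorem hfrac_of_isFractionRing {B F : Type*} [CommRing B] [IsDomain B] [Field F] [Algebra B F]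
    [IsFractionRing B F] (g : F) :
    ∃ y₁ y₂ : B, y₂ ≠ 0 ∧ g * algebraMap B F y₂ = algebraMap B F y₁ := by
  obtain ⟨y₁, y₂, hy₂, rfl⟩ := IsFractionRing.div_surjective (A := B) g
  have h0 : (y₂ : B) ≠ 0 := nonZeroDivisors.ne_zero hy₂
  have h1 : algebraMap B F y₂ ≠ 0 :=
    (map_ne_zero_iff _ (IsFractionRing.injective B F)).mpr h0
  exact ⟨y₁, y₂, h0, by field_simp⟩

variable (N : ℕ) [NeZero N] {L : Type} [Field L] [Algebra ℚ L] (ι : L →+* Qb)

/-- **(FACT) at a chart**, `φ`-form. -/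
theorem exists_factor_chart (W : ValuationSubring L) [IsDiscreteValuationRing W]
    {π : W} (hπ : Irreducible π) {B : Type*} [CommRing B] [IsDomain B] [IsNoetherianRing B]
    (φ : B →+* Fermat.Agent.S24.FF L N) (hφ : Function.Injective φ)
    (hfrac : ∀ g : Fermat.Agent.S24.FF L N, ∃ y₁ y₂ : B, y₂ ≠ 0 ∧ g * φ y₂ = φ y₁)
    (hW : ∀ w : W, ∃ b : B, φ b = algebraMap L (Fermat.Agent.S24.FF L N) (w : L))
    (πB : B) (hπB : φ πB = algebraMap L (Fermat.Agent.S24.FF L N) (π : L))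
    (T : Set (Ideal B)) (hTfin : T.Finite) (hT : ∀ 𝔫 ∈ T, 𝔫.IsMaximal)
    (hreg : ∀ 𝔫 ∈ T, ∀ 𝔮 : Ideal B, 𝔮.IsPrime → 𝔮 ≤ 𝔫 → 𝔮 ≠ ⊥ → πB ∉ 𝔮 →
      ∃ x ∈ 𝔮, ∃ d : B, d ∉ 𝔫 ∧ ∀ y ∈ 𝔮, x ∣ d * y)
    (m : ℕ) (f : Fermat.Agent.S24.FF L N) (hf : f ≠ 0)
    (hm : ∀ P : Place Qb ↥(modularFunctionFieldBar N),
      (m : ℤ) ∣ P.ord (Fermat.Agent.S24.CoeffBC.bc ι (modularFunctionFieldFull N) f)) :
    ∃ G u : Fermat.Agent.S24.FF L N, G ≠ 0 ∧ f = u * G ^ m ∧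
      Fermat.Agent.S36.HUnit.HU φ πB T u := by
  refine Fermat.Agent.S36.HorizFact.exists_factor_HU_set hφ hfrac πB T hTfin hT hreg m f hf ?_
  intro 𝔮 h𝔮 h0 hπ𝔮 _ t ht hgen
  have := h𝔮
  refine Fermat.Agent.S36.HorizOrd.exists_decomp_of_forall_dvd N ι W hπ φ hφ hfrac hW 𝔮 h0 ?_ t ht
    hgen m f hf hm
  intro b hb hmem
  have : b = πB := hφ (by rw [hb, hπB])
  exact hπ𝔮 (this ▸ hmem)

/-- **(FACT) at a chart**, carrier form (`B` with its algebra structures, as in S34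
`KLocInst`). -/
theorem exists_factor_carrier (W : ValuationSubring L) [IsDiscreteValuationRing W]
    {π : W} (hπ : Irreducible π) {B : Type*} [CommRing B] [IsDomain B] [IsNoetherianRing B]
    [Algebra B (Fermat.Agent.S24.FF L N)] [IsFractionRing B (Fermat.Agent.S24.FF L N)]
    [Algebra W B]
    (hBW : ∀ c : W, algebraMap B (Fermat.Agent.S24.FF L N) (algebraMap W B c) =
      algebraMap L (Fermat.Agent.S24.FF L N) (c : L))
    (T : Set (Ideal B)) (hTfin : T.Finite) (hT : ∀ 𝔫 ∈ T, 𝔫.IsMaximal)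
    (hreg : ∀ 𝔫 ∈ T, ∀ 𝔮 : Ideal B, 𝔮.IsPrime → 𝔮 ≤ 𝔫 → 𝔮 ≠ ⊥ → algebraMap W B π ∉ 𝔮 →
      ∃ x ∈ 𝔮, ∃ d : B, d ∉ 𝔫 ∧ ∀ y ∈ 𝔮, x ∣ d * y)
    (m : ℕ) (f : Fermat.Agent.S24.FF L N) (hf : f ≠ 0)
    (hm : ∀ P : Place Qb ↥(modularFunctionFieldBar N),
      (m : ℤ) ∣ P.ord (Fermat.Agent.S24.CoeffBC.bc ι (modularFunctionFieldFull N) f)) :
    ∃ G u : Fermat.Agent.S24.FF L N, G ≠ 0 ∧ f = u * G ^ m ∧
      Fermat.Agent.S36.HUnit.HU (algebraMap B (Fermat.Agent.S24.FF L N)) (algebraMap W B π) T u :=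
  exists_factor_chart N ι W hπ (algebraMap B (Fermat.Agent.S24.FF L N))
    (IsFractionRing.injective B (Fermat.Agent.S24.FF L N)) hfrac_of_isFractionRing
    (fun w => ⟨algebraMap W B w, hBW w⟩) (algebraMap W B π) (hBW π) T hTfin hT hreg m f hf hm

end Fermat.Agent.S36.HorizFactInst
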