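/-
S36 (wave 8), contract K6 (FACT) on the LITERAL chart rings of `Core36.Loc36₁` / `Core36.Loc36₂`
(`integralClosure (Algebra.adjoin W {j}) (FF L N)` and the twin with `j⁻¹`), in exactly the shape
of the hypothesis `hfact` of `HLocAbs.hloc_of_chain`.

* `exists_factor_adjoin`     : the finite chart, with the regularity hypothesis in `HFact` shape;
* `exists_factor_adjoin_inv` : the chart `W[1/j]`;
* `exists_factor_adjoin_reg`, `exists_factor_adjoin_inv_reg` : the same with the regularity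
  hypothesis in the literal shape of the clauses of `RegDefs.Reg36₁` / `RegDefs.Reg36₂`.

Inputs: `S` a finite set of maximal ideals of the chart ring, regularity of the horizontal primes
below `S` (K4), and `m ∣ P.ord (bc f)` at every place `P` of `F_ℚ̄` (K5 = `HorizOrd`).
Output: `∃ G ≠ 0, HU … S (f / G ^ m)`.
-/
import Mathlib
import Fermat.Agent.S36.HFact
import Fermat.Agent.S36.HorizOrd
import Fermat.Agent.S36.HorizFactInst
import Fermat.Agent.S34.KLocInst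

set_option autoImplicit false
set_option linter.unusedSectionVars false
set_option linter.style.haveILetI false

noncomputable section

namespace Fermat.Agent.S36.FactAdjoin

open Polynomial ModularCurve AlgebraicCurve Fermat.Agent.S18 Fermat.Agent.S18.Gauss
  Fermat.Agent.S24 Fermat.Agent.S34

local notation "Qb" => AlgebraicClosure ℚ

variable {L : Type} [Field L] [Algebra ℚ L] (W : ValuationSubring L) (N : ℕ) [NeZero N]
  [IsDiscreteValuationRing W]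

set_option maxHeartbeats 800000 in
set_option synthInstance.maxHeartbeats 400000 in
-- the instances `Algebra ↥W (FF L N)`, `Algebra W[j] (integralClosure W[j] F)` are found slowly
/-- **(FACT) on a chart ring `integralClosure W[x₀]`** (`x₀ = j` or `j⁻¹`), given that the chart
ring is noetherian with fraction field `FF L N`. -/
theorem exists_factor_of_chart (ι : L →+* Qb) {π : W} (hπ : Irreducible π) (x₀ : FF L N)
    (hnoeth : IsNoetherianRing ↥(integralClosure (Algebra.adjoin ↥W {x₀}) (FF L N)))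
    (hfr : IsFractionRing ↥(integralClosure (Algebra.adjoin ↥W {x₀}) (FF L N)) (FF L N))
    (πB : integralClosure (Algebra.adjoin ↥W {x₀}) (FF L N))
    (hπB : (πB : FF L N) = algebraMap L (FF L N) ((π : W) : L))
    (S : Set (Ideal (integralClosure (Algebra.adjoin ↥W {x₀}) (FF L N)))) (hSfin : S.Finite)
    (hmax : ∀ 𝔫 ∈ S, 𝔫.IsMaximal)
    (hreg : ∀ 𝔫 ∈ S, ∀ 𝔮 : Ideal (integralClosure (Algebra.adjoin ↥W {x₀}) (FF L N)),
      𝔮.IsPrime → 𝔮 ≤ 𝔫 → πB ∉ 𝔮 → ∃ x ∈ 𝔮, ∃ d, d ∉ 𝔫 ∧ ∀ y ∈ 𝔮, x ∣ d * y)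
    (m : ℕ) (f : FF L N) (hf : f ≠ 0)
    (hm : ∀ P : Place Qb ↥(modularFunctionFieldBar N),
      (m : ℤ) ∣ P.ord (CoeffBC.bc ι (modularFunctionFieldFull N) f)) :
    ∃ G : FF L N, G ≠ 0 ∧
      Fermat.Agent.S36.HUnit.HU
        (integralClosure (Algebra.adjoin ↥W {x₀}) (FF L N)).val.toRingHom πB S (f / G ^ m) := by
  haveI := hnoeth
  haveI := hfr
  have hφ : Function.Injective
      (integralClosure (Algebra.adjoin ↥W {x₀}) (FF L N)).val.toRingHom :=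
    Subtype.val_injective
  have hfrac : ∀ g : FF L N, ∃ y₁ y₂ : integralClosure (Algebra.adjoin ↥W {x₀}) (FF L N),
      y₂ ≠ 0 ∧ g * (integralClosure (Algebra.adjoin ↥W {x₀}) (FF L N)).val.toRingHom y₂ =
        (integralClosure (Algebra.adjoin ↥W {x₀}) (FF L N)).val.toRingHom y₁ :=
    fun g => Fermat.Agent.S36.HorizFactInst.hfrac_of_isFractionRing
      (B := ↥(integralClosure (Algebra.adjoin ↥W {x₀}) (FF L N))) g
  have hW : ∀ w : W, ∃ b : integralClosure (Algebra.adjoin ↥W {x₀}) (FF L N),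
      (integralClosure (Algebra.adjoin ↥W {x₀}) (FF L N)).val.toRingHom b =
        algebraMap L (FF L N) (w : L) := by
    intro w
    refine ⟨⟨algebraMap L (FF L N) (w : L), ?_⟩, rfl⟩
    have h1 : (algebraMap L (FF L N) (w : L)) =
        algebraMap (Algebra.adjoin ↥W {x₀}) (FF L N) (algebraMap ↥W _ w) := rfl
    rw [h1]
    exact isIntegral_algebraMap
  refine Fermat.Agent.S36.HFact.exists_factor_set _ hφ πB S hSfin hmax hreg m f hf (hfrac f) ?_
  intro 𝔮 h𝔮 h0 hπ𝔮 _ t ht hgen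
  haveI := h𝔮
  refine Fermat.Agent.S36.HorizOrd.exists_decomp_of_forall_dvd N ι W hπ _ hφ hfrac hW 𝔮 h0 ?_ t ht
    hgen m f hf hm
  intro b hb hmem
  have : b = πB := hφ (by rw [hb]; exact hπB.symm)
  exact hπ𝔮 (this ▸ hmem)

set_option maxHeartbeats 800000 in
set_option synthInstance.maxHeartbeats 400000 in
-- the instances `Algebra ↥W (FF L N)`, `Algebra W[j] (integralClosure W[j] F)` are found slowly
/-- **(FACT) on the finite chart ring of `Core36.Loc36₁`.** -/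
theorem exists_factor_adjoin (ι : L →+* Qb) {π : W} (hπ : Irreducible π)
    (πB : integralClosure (Algebra.adjoin ↥W {jBC L N}) (FF L N))
    (hπB : (πB : FF L N) = algebraMap L (FF L N) ((π : W) : L))
    (S : Set (Ideal (integralClosure (Algebra.adjoin ↥W {jBC L N}) (FF L N)))) (hSfin : S.Finite)
    (hmax : ∀ 𝔫 ∈ S, 𝔫.IsMaximal)
    (hreg : ∀ 𝔫 ∈ S, ∀ 𝔮 : Ideal (integralClosure (Algebra.adjoin ↥W {jBC L N}) (FF L N)),
      𝔮.IsPrime → 𝔮 ≤ 𝔫 → πB ∉ 𝔮 → ∃ x ∈ 𝔮, ∃ d, d ∉ 𝔫 ∧ ∀ y ∈ 𝔮, x ∣ d * y)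
    (m : ℕ) (f : FF L N) (hf : f ≠ 0)
    (hm : ∀ P : Place Qb ↥(modularFunctionFieldBar N),
      (m : ℤ) ∣ P.ord (CoeffBC.bc ι (modularFunctionFieldFull N) f)) :
    ∃ G : FF L N, G ≠ 0 ∧
      Fermat.Agent.S36.HUnit.HU
        (integralClosure (Algebra.adjoin ↥W {jBC L N}) (FF L N)).val.toRingHom πB S
        (f / G ^ m) := by
  have hj : Transcendental L (jBC L N) := Bridge.transcendental_j ι N
  haveI : CharZero L := algebraRat.charZero L
  haveI : IsScalarTower ↥W L (FF L N) := IsScalarTower.of_algebraMap_eq (fun _ => rfl)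
  haveI : FiniteDimensional (IntermediateField.adjoin L {jBC L N}) (FF L N) :=
    (Gauss.finrank_FF_le (L := L) (N := N)).1
  exact exists_factor_of_chart W N ι hπ (jBC L N)
    (ChartRing.isNoetherianRing (W := ↥W) (jBC L N) hj)
    (ChartRing.isFractionRing (W := ↥W) (jBC L N) hj) πB hπB S hSfin hmax hreg m f hf hm

set_option maxHeartbeats 800000 in
set_option synthInstance.maxHeartbeats 400000 in
-- the instances `Algebra ↥W (FF L N)`, `Algebra W[j] (integralClosure W[j] F)` are found slowly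
/-- **(FACT) on the chart ring `W[1/j]` of `Core36.Loc36₂`.** -/
theorem exists_factor_adjoin_inv (ι : L →+* Qb) {π : W} (hπ : Irreducible π)
    (πB : integralClosure (Algebra.adjoin ↥W {(jBC L N)⁻¹}) (FF L N))
    (hπB : (πB : FF L N) = algebraMap L (FF L N) ((π : W) : L))
    (S : Set (Ideal (integralClosure (Algebra.adjoin ↥W {(jBC L N)⁻¹}) (FF L N))))
    (hSfin : S.Finite) (hmax : ∀ 𝔫 ∈ S, 𝔫.IsMaximal)
    (hreg : ∀ 𝔫 ∈ S, ∀ 𝔮 : Ideal (integralClosure (Algebra.adjoin ↥W {(jBC L N)⁻¹}) (FF L N)),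
      𝔮.IsPrime → 𝔮 ≤ 𝔫 → πB ∉ 𝔮 → ∃ x ∈ 𝔮, ∃ d, d ∉ 𝔫 ∧ ∀ y ∈ 𝔮, x ∣ d * y)
    (m : ℕ) (f : FF L N) (hf : f ≠ 0)
    (hm : ∀ P : Place Qb ↥(modularFunctionFieldBar N),
      (m : ℤ) ∣ P.ord (CoeffBC.bc ι (modularFunctionFieldFull N) f)) :
    ∃ G : FF L N, G ≠ 0 ∧
      Fermat.Agent.S36.HUnit.HU
        (integralClosure (Algebra.adjoin ↥W {(jBC L N)⁻¹}) (FF L N)).val.toRingHom πB S
        (f / G ^ m) := by
  have hj : Transcendental L (jBC L N) := Bridge.transcendental_j ι N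
  haveI : CharZero L := algebraRat.charZero L
  haveI : IsScalarTower ↥W L (FF L N) := IsScalarTower.of_algebraMap_eq (fun _ => rfl)
  haveI : FiniteDimensional (IntermediateField.adjoin L {jBC L N}) (FF L N) :=
    (Gauss.finrank_FF_le (L := L) (N := N)).1
  exact exists_factor_of_chart W N ι hπ (jBC L N)⁻¹
    (ChartRing.isNoetherianRing_inv (W := ↥W) (jBC L N) hj)
    (ChartRing.isFractionRing_inv (W := ↥W) (jBC L N) hj) πB hπB S hSfin hmax hreg m f hf hm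

set_option maxHeartbeats 800000 in
set_option synthInstance.maxHeartbeats 400000 in
-- the instances `Algebra ↥W (FF L N)`, `Algebra W[j] (integralClosure W[j] F)` are found slowly
/-- **(FACT) on the finite chart**, regularity in the literal shape of the clause of
`RegDefs.Reg36₁` (`N = M * q * q`, `π = q`). -/
theorem exists_factor_adjoin_reg (ι : L →+* Qb) {π : W} (hπ : Irreducible π)
    (πB : integralClosure (Algebra.adjoin ↥W {jBC L N}) (FF L N))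
    (hπB : (πB : FF L N) = algebraMap ↥W (FF L N) π)
    (S : Set (Ideal (integralClosure (Algebra.adjoin ↥W {jBC L N}) (FF L N)))) (hSfin : S.Finite)
    (hmax : ∀ 𝔫 ∈ S, 𝔫.IsMaximal)
    (hSπ : ∀ 𝔫 ∈ S, πB ∈ 𝔫)
    (hreg : ∀ 𝔫 : Ideal (integralClosure (Algebra.adjoin ↥W {jBC L N}) (FF L N)), 𝔫.IsMaximal →
      (∀ r : integralClosure (Algebra.adjoin ↥W {jBC L N}) (FF L N),
        (r : FF L N) = algebraMap ↥W (FF L N) π → r ∈ 𝔫) →
      ∀ 𝔮 : Ideal (integralClosure (Algebra.adjoin ↥W {jBC L N}) (FF L N)), 𝔮.IsPrime → 𝔮 ≤ 𝔫 →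
        (∃ r : integralClosure (Algebra.adjoin ↥W {jBC L N}) (FF L N),
          (r : FF L N) = algebraMap ↥W (FF L N) π ∧ r ∉ 𝔮) →
        ∃ x ∈ 𝔮, ∃ d, d ∉ 𝔫 ∧ ∀ y ∈ 𝔮, x ∣ d * y)
    (m : ℕ) (f : FF L N) (hf : f ≠ 0)
    (hm : ∀ P : Place Qb ↥(modularFunctionFieldBar N),
      (m : ℤ) ∣ P.ord (CoeffBC.bc ι (modularFunctionFieldFull N) f)) :
    ∃ G : FF L N, G ≠ 0 ∧
      Fermat.Agent.S36.HUnit.HU
        (integralClosure (Algebra.adjoin ↥W {jBC L N}) (FF L N)).val.toRingHom πB S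
        (f / G ^ m) := by
  refine exists_factor_adjoin W N ι hπ πB hπB S hSfin hmax ?_ m f hf hm
  intro 𝔫 h𝔫 𝔮 h𝔮 hle hπ𝔮
  refine hreg 𝔫 (hmax 𝔫 h𝔫) (fun r hr => ?_) 𝔮 h𝔮 hle ⟨πB, hπB, hπ𝔮⟩
  have : r = πB := Subtype.ext (hr.trans hπB.symm)
  exact this ▸ hSπ 𝔫 h𝔫

set_option maxHeartbeats 800000 in
set_option synthInstance.maxHeartbeats 400000 in
-- the instances `Algebra ↥W (FF L N)`, `Algebra W[j] (integralClosure W[j] F)` are found slowly
/-- **(FACT) on the chart `W[1/j]`**, regularity in the literal shape of the clause of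
`RegDefs.Reg36₂`. -/
theorem exists_factor_adjoin_inv_reg (ι : L →+* Qb) {π : W} (hπ : Irreducible π)
    (πB : integralClosure (Algebra.adjoin ↥W {(jBC L N)⁻¹}) (FF L N))
    (hπB : (πB : FF L N) = algebraMap ↥W (FF L N) π)
    (S : Set (Ideal (integralClosure (Algebra.adjoin ↥W {(jBC L N)⁻¹}) (FF L N))))
    (hSfin : S.Finite) (hmax : ∀ 𝔫 ∈ S, 𝔫.IsMaximal)
    (hSπ : ∀ 𝔫 ∈ S, πB ∈ 𝔫)
    (hSj : ∀ 𝔫 ∈ S, ∀ r : integralClosure (Algebra.adjoin ↥W {(jBC L N)⁻¹}) (FF L N),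
      (r : FF L N) = (jBC L N)⁻¹ → r ∈ 𝔫)
    (hreg : ∀ 𝔫 : Ideal (integralClosure (Algebra.adjoin ↥W {(jBC L N)⁻¹}) (FF L N)),
      𝔫.IsMaximal →
      (∀ r : integralClosure (Algebra.adjoin ↥W {(jBC L N)⁻¹}) (FF L N),
        (r : FF L N) = algebraMap ↥W (FF L N) π → r ∈ 𝔫) →
      (∀ r : integralClosure (Algebra.adjoin ↥W {(jBC L N)⁻¹}) (FF L N),
        (r : FF L N) = (jBC L N)⁻¹ → r ∈ 𝔫) →
      ∀ 𝔮 : Ideal (integralClosure (Algebra.adjoin ↥W {(jBC L N)⁻¹}) (FF L N)), 𝔮.IsPrime →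
        𝔮 ≤ 𝔫 →
        (∃ r : integralClosure (Algebra.adjoin ↥W {(jBC L N)⁻¹}) (FF L N),
          (r : FF L N) = algebraMap ↥W (FF L N) π ∧ r ∉ 𝔮) →
        ∃ x ∈ 𝔮, ∃ d, d ∉ 𝔫 ∧ ∀ y ∈ 𝔮, x ∣ d * y)
    (m : ℕ) (f : FF L N) (hf : f ≠ 0)
    (hm : ∀ P : Place Qb ↥(modularFunctionFieldBar N),
      (m : ℤ) ∣ P.ord (CoeffBC.bc ι (modularFunctionFieldFull N) f)) :
    ∃ G : FF L N, G ≠ 0 ∧
      Fermat.Agent.S36.HUnit.HU
        (integralClosure (Algebra.adjoin ↥W {(jBC L N)⁻¹}) (FF L N)).val.toRingHom πB S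
        (f / G ^ m) := by
  refine exists_factor_adjoin_inv W N ι hπ πB hπB S hSfin hmax ?_ m f hf hm
  intro 𝔫 h𝔫 𝔮 h𝔮 hle hπ𝔮
  refine hreg 𝔫 (hmax 𝔫 h𝔫) (fun r hr => ?_) (hSj 𝔫 h𝔫) 𝔮 h𝔮 hle ⟨πB, hπB, hπ𝔮⟩
  have : r = πB := Subtype.ext (hr.trans hπB.symm)
  exact this ▸ hSπ 𝔫 h𝔫

end Fermat.Agent.S36.FactAdjoin
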