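/-
S36 (wave 8), package K6 of the ledger, abstract: **saturation** and the **end lemma** of the
local Kummer data.

* `isIntegral_of_mul` : `R` an integrally closed domain, `π` prime in `R`, `g ∈ R` with `π ∤ g`,
  `y` in a field `F ⊇ R`: if `π y` and `g y` are integral over `R`, so is `y`.
  (The minimal polynomials of `g (π y) = π (g y)` computed in two ways by
  `IsIntegrallyClosed.minpoly_smul`; compare coefficients.)
* `isIntegral_of_pow_mul` : the same with `π ^ k`.
* `exists_notMem_mul_mem` : **(END)** `B ⊆ F` a ring with the saturation property for `π, g`,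
  `𝔫` a prime of `B`, `x ∈ F` a unit at every prime `𝔮 ≤ 𝔫` not containing `π`
  (`HUnit.HU ι π {𝔫} x`) with `g x ∈ B`: then `d x ∈ B` for some `d ∉ 𝔫`.
  (Prime avoidance for the denominator ideal of `x`; no normality, no height-one primes.)
* `exists_notMem_isIntegral` : (END) for the integral closure of `R` in `F`.
-/
import Mathlib
import Fermat.Agent.S36.HUnit

set_option autoImplicit false
set_option linter.unusedSectionVars false

namespace Fermat.Agent.S36.HEnd

open Polynomial Fermat.Agent.S36.HUnit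

/-! ### Saturation -/

section Sat

variable {R F : Type*} [CommRing R] [IsDomain R] [IsIntegrallyClosed R] [Field F] [Algebra R F]

/-- **Saturation.**  If `π` is prime in the integrally closed domain `R`, `π ∤ g`, and both
`π y` and `g y` are integral over `R`, then `y` is integral over `R`. -/
theorem isIntegral_of_mul (hinj : Function.Injective (algebraMap R F)) {π g : R} (hπ : Prime π)
    (hg : ¬ π ∣ g) {y : F} (h1 : IsIntegral R (algebraMap R F π * y))
    (h2 : IsIntegral R (algebraMap R F g * y)) : IsIntegral R y := by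
  classical
  have : FaithfulSMul R F := (faithfulSMul_iff_algebraMap_injective R F).mpr hinj
  have hπ0 : π ≠ 0 := hπ.ne_zero
  have hg0 : g ≠ 0 := fun h0 => hg (h0 ▸ dvd_zero π)
  set b : F := algebraMap R F π * y with hb
  set c : F := algebraMap R F g * y with hc
  have hbc : g • b = π • c := by
    rw [hb, hc, Algebra.smul_def, Algebra.smul_def]
    ring
  have hmin : (minpoly R b).scaleRoots g = (minpoly R c).scaleRoots π := by
    rw [← IsIntegrallyClosed.minpoly_smul hg0 h1, ← IsIntegrallyClosed.minpoly_smul hπ0 h2, hbc]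
  set d := (minpoly R b).natDegree with hd
  have hdc : (minpoly R c).natDegree = d := by
    have h := congrArg natDegree hmin
    rw [natDegree_scaleRoots, natDegree_scaleRoots] at h
    exact h.symm
  -- divisibility of the coefficients
  have hdiv : ∀ i, π ^ (d - i) ∣ (minpoly R b).coeff i := by
    intro i
    have h := congrArg (fun p => p.coeff i) hmin
    simp only [coeff_scaleRoots] at h
    rw [hdc, ← hd] at h
    have h3 : π ^ (d - i) ∣ (minpoly R b).coeff i * g ^ (d - i) := by
      rw [h]
      exact dvd_mul_left _ _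
    exact hπ.pow_dvd_of_dvd_mul_right (d - i) (fun h' => hg (hπ.dvd_of_dvd_pow h')) h3
  choose a ha using hdiv
  -- the monic polynomial killing `y`
  let p : R[X] := X ^ d + ∑ i ∈ Finset.range d, C (a i) * X ^ i
  have hpm : p.Monic := by
    refine monic_X_pow_add ?_
    rw [← Fin.sum_univ_eq_sum_range (fun i => C (a i) * X ^ i) d]
    exact degree_sum_fin_lt _
  refine ⟨p, hpm, ?_⟩
  have hq := (minpoly.monic h1).as_sum
  have hroot : aeval b (minpoly R b) = 0 := minpoly.aeval R b
  rw [hq] at hroot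
  rw [← hd] at hroot
  simp only [map_add, map_pow, aeval_X, map_sum, map_mul, aeval_C] at hroot
  have hφ : algebraMap R F π ≠ 0 := fun h0 => hπ0 (hinj (h0.trans (map_zero _).symm))
  have key : algebraMap R F π ^ d * aeval y p = 0 := by
    rw [← hroot]
    simp only [p, map_add, map_pow, aeval_X, map_sum, map_mul, aeval_C]
    rw [mul_add, Finset.mul_sum, hb, mul_pow]
    congr 1
    refine Finset.sum_congr rfl fun i hi => ?_
    have hi' : i ≤ d := (Finset.mem_range.mp hi).le
    rw [ha i, map_mul, map_pow, mul_pow]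
    have : algebraMap R F π ^ d = algebraMap R F π ^ (d - i) * algebraMap R F π ^ i := by
      rw [← pow_add, Nat.sub_add_cancel hi']
    rw [this]
    ring
  rw [← aeval_def]
  exact (mul_eq_zero.mp key).resolve_left (pow_ne_zero d hφ)

/-- Saturation with a power of `π`. -/
theorem isIntegral_of_pow_mul (hinj : Function.Injective (algebraMap R F)) {π g : R}
    (hπ : Prime π) (hg : ¬ π ∣ g) (k : ℕ) {y : F}
    (h1 : IsIntegral R (algebraMap R F π ^ k * y))
    (h2 : IsIntegral R (algebraMap R F g * y)) : IsIntegral R y := by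
  induction k generalizing y with
  | zero => simpa using h1
  | succ k ih =>
    have h3 : IsIntegral R (algebraMap R F π * y) := by
      refine ih ?_ ?_
      · have : algebraMap R F π ^ k * (algebraMap R F π * y) = algebraMap R F π ^ (k + 1) * y := by
          ring
        rw [this]
        exact h1
      · have : algebraMap R F g * (algebraMap R F π * y) =
            algebraMap R F π * (algebraMap R F g * y) := by ring
        rw [this]
        exact isIntegral_algebraMap.mul h2
    exact isIntegral_of_mul hinj hπ hg h3 h2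

end Sat

/-! ### The end lemma -/

section End

variable {B F : Type*} [CommRing B] [Field F]

/-- **(END)**, abstract.  `ι : B → F`, `𝔫` a prime of `B`, `x ∈ F` a unit at every prime
`𝔮 ≤ 𝔫` not containing `π`, `g x ∈ B`, and `B` saturated for `π, g`
(`π ^ k y ∈ B`, `g y ∈ B` imply `y ∈ B`).  Then `d x ∈ B` for some `d ∉ 𝔫`. -/
theorem exists_notMem_mul_mem (ι : B →+* F) (π : B) (𝔫 : Ideal B) [h𝔫 : 𝔫.IsPrime] (x : F)
    (hHU : HU ι π {𝔫} x) (g : B) (hgx : ∃ c : B, ι c = ι g * x)
    (hsat : ∀ (k : ℕ) (y : F), (∃ b : B, ι b = ι π ^ k * y) → (∃ c : B, ι c = ι g * y) →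
      ∃ t : B, ι t = y) :
    ∃ d : B, d ∉ 𝔫 ∧ ∃ t : B, ι t = ι d * x := by
  classical
  -- the denominator ideal of `x`
  let I : Ideal B :=
    { carrier := {r | ∃ t : B, ι t = ι r * x}
      add_mem' := by
        rintro r s ⟨t, ht⟩ ⟨u, hu⟩
        exact ⟨t + u, by rw [map_add, map_add, ht, hu, add_mul]⟩
      zero_mem' := ⟨0, by rw [map_zero, zero_mul]⟩
      smul_mem' := by
        rintro a r ⟨t, ht⟩
        exact ⟨a * t, by rw [smul_eq_mul, map_mul, map_mul, ht, mul_assoc]⟩ }
  have hI : ∀ r : B, r ∈ I ↔ ∃ t : B, ι t = ι r * x := fun r => Iff.rfl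
  -- the multiplicative set `{d * π ^ k : d ∉ 𝔫}`
  let S : Submonoid B :=
    { carrier := {s | ∃ (d : B) (k : ℕ), d ∉ 𝔫 ∧ s = d * π ^ k}
      mul_mem' := by
        rintro s s' ⟨d, k, hd, rfl⟩ ⟨d', k', hd', rfl⟩
        refine ⟨d * d', k + k', fun h => ?_, by ring⟩
        rcases h𝔫.mem_or_mem h with h1 | h1
        · exact hd h1
        · exact hd' h1
      one_mem' := ⟨1, 0, fun h => h𝔫.ne_top ((Ideal.eq_top_iff_one _).mpr h), by simp⟩ }
  have hS : ∀ s : B, s ∈ S ↔ ∃ (d : B) (k : ℕ), d ∉ 𝔫 ∧ s = d * π ^ k := fun s => Iff.rfl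
  -- `I` meets `S`
  have hmeet : ∃ s : B, s ∈ I ∧ s ∈ S := by
    by_contra hcon
    have hdisj : Disjoint (I : Set B) (S : Set B) := by
      rw [Set.disjoint_left]
      intro s hsI hsS
      exact hcon ⟨s, hsI, hsS⟩
    obtain ⟨𝔮, h𝔮, hI𝔮, h𝔮S⟩ := Ideal.exists_le_prime_disjoint I S hdisj
    rw [Set.disjoint_left] at h𝔮S
    have h𝔮𝔫 : 𝔮 ≤ 𝔫 := by
      intro r hr
      by_contra hr𝔫
      exact h𝔮S hr ((hS r).mpr ⟨r, 0, hr𝔫, by simp⟩)
    have hπ𝔮 : π ∉ 𝔮 := by
      intro hπ
      exact h𝔮S hπ ((hS π).mpr ⟨1, 1, fun h => h𝔫.ne_top ((Ideal.eq_top_iff_one _).mpr h),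
        by simp⟩)
    obtain ⟨a, d, -, hd, e⟩ := hHU 𝔮 h𝔮 hπ𝔮 ⟨𝔫, rfl, h𝔮𝔫⟩
    exact hd (hI𝔮 ((hI d).mpr ⟨a, e.symm⟩))
  obtain ⟨s, hsI, d, k, hd, rfl⟩ := hmeet
  obtain ⟨t, ht⟩ := (hI _).mp hsI
  -- saturation for `y := d * x`
  have h1 : ∃ b : B, ι b = ι π ^ k * (ι d * x) :=
    ⟨t, by rw [ht, map_mul, map_pow]; ring⟩
  obtain ⟨c, hc⟩ := hgx
  have h2 : ∃ c' : B, ι c' = ι g * (ι d * x) :=
    ⟨d * c, by rw [map_mul, hc]; ring⟩
  obtain ⟨t', ht'⟩ := hsat k (ι d * x) h1 h2
  exact ⟨d, hd, t', ht'⟩

end End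

/-! ### The end lemma for an integral closure -/

section Closure

variable {R F : Type*} [CommRing R] [IsDomain R] [IsIntegrallyClosed R] [Field F] [Algebra R F]

/-- **(END)** for the integral closure `B` of the integrally closed domain `R` in a field `F`:
`π` prime in `R`, `π ∤ g`, `𝔫` a prime of `B`, `x ∈ F` a unit at every prime `𝔮 ≤ 𝔫` of `B` not
containing `π`, and `g x` integral.  Then `d x` is integral for some `d ∈ B`, `d ∉ 𝔫`. -/
theorem exists_notMem_isIntegral (hinj : Function.Injective (algebraMap R F)) {π g : R}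
    (hπ : Prime π) (hg : ¬ π ∣ g) (𝔫 : Ideal (integralClosure R F)) [𝔫.IsPrime] (x : F)
    (hHU : HU (integralClosure R F).val.toRingHom (algebraMap R (integralClosure R F) π) {𝔫} x)
    (hgx : IsIntegral R (algebraMap R F g * x)) :
    ∃ d : integralClosure R F, d ∉ 𝔫 ∧ IsIntegral R ((d : F) * x) := by
  have hsat : ∀ (k : ℕ) (y : F),
      (∃ b : integralClosure R F, (integralClosure R F).val.toRingHom b =
        (integralClosure R F).val.toRingHom (algebraMap R (integralClosure R F) π) ^ k * y) →
      (∃ c : integralClosure R F, (integralClosure R F).val.toRingHom c =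
        (integralClosure R F).val.toRingHom (algebraMap R (integralClosure R F) g) * y) →
      ∃ t : integralClosure R F, (integralClosure R F).val.toRingHom t = y := by
    rintro k y ⟨b, hb⟩ ⟨c, hc⟩
    have h1 : IsIntegral R (algebraMap R F π ^ k * y) := by
      have : algebraMap R F π ^ k * y = (b : F) := hb.symm
      rw [this]
      exact b.2
    have h2 : IsIntegral R (algebraMap R F g * y) := by
      have : algebraMap R F g * y = (c : F) := hc.symm
      rw [this]
      exact c.2
    exact ⟨⟨y, isIntegral_of_pow_mul hinj hπ hg k h1 h2⟩, rfl⟩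
  obtain ⟨d, hd, t, ht⟩ := exists_notMem_mul_mem (integralClosure R F).val.toRingHom
    (algebraMap R (integralClosure R F) π) 𝔫 x hHU (algebraMap R (integralClosure R F) g)
    ⟨⟨algebraMap R F g * x, hgx⟩, rfl⟩ hsat
  refine ⟨d, hd, ?_⟩
  have : ((d : F) * x) = (t : F) := ht.symm
  rw [this]
  exact t.2

end Closure

end Fermat.Agent.S36.HEnd
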