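/-
S36 (wave 8), package K6/K7 of the ledger: **the local Kummer datum of `ecore f`, abstract form.**

Setting: fields `F' → F` (two `K`-embeddings `α β`), `E36 = ConstPow.E36 α β q`,
`ec h := E36 (h ^ (q - 1)) ^ q`; `R` an integrally closed domain with a prime `π`, `B` the
integral closure of `R` in `F`, `𝔫` a prime of `B`.

Inputs:
* `hchain` : a set `S` of primes of `B` such that `E36` maps elements which are units at the
  primes `∌ π` below `S` to elements which are units at the primes `∌ π` below `𝔫`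
  (`HUChain`: `S = cl³ {𝔫}`);
* `hfact`  : `f = u * G ^ m` with `u` a unit at the primes `∌ π` below `S` (`HFact`: from the
  local principality of horizontal primes and `m ∣ v_𝔮(f)`);
* `hG1`    : a predicate `G1` ("`≡ 1` on the Gauss ring") satisfied by `ec h` for EVERY `h ≠ 0`,
  whose members have an integral multiple by some `g ∈ R` with `π ∤ g`.

Output (`hloc_of_chain`): `∃ g, G1 g ∧ ∃ d ∉ 𝔫, IsIntegral R (d * (ec f * g ^ m))` — the shape of
`hloc₁`/`hloc₂` of `S34.GLevel.kummer_at_level`.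

Proof: `g := ec G⁻¹`, `ec f * g ^ m = ec u`; `ec u` is a unit at the primes `∌ π` below `𝔫`, and
`g₀ * ec u` is integral for some `g₀ ∈ R`, `π ∤ g₀` (because `G1 (ec u)`); conclude by the end
lemma `HEnd.exists_notMem_isIntegral` (saturation).
-/
import Mathlib
import Fermat.Agent.S36.HUnit
import Fermat.Agent.S36.HEnd
import Fermat.Agent.S36.ConstPow

set_option autoImplicit false
set_option linter.unusedSectionVars false

namespace Fermat.Agent.S36.HLocAbs

open Fermat.Agent.S36.HUnit Fermat.Agent.S36.ConstPow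

variable {K F' F : Type*} [Field K] [Field F'] [Field F] [Algebra K F'] [Algebra K F]
  (α β : F' →ₐ[K] F) (q : ℕ)

/-- `ec h = E36 (h ^ (q - 1)) ^ q` is multiplicative. -/
theorem ec_mul (y z : F) :
    E36 α β q ((y * z) ^ (q - 1)) ^ q =
      E36 α β q (y ^ (q - 1)) ^ q * E36 α β q (z ^ (q - 1)) ^ q := by
  rw [mul_pow, E36_mul, mul_pow]

theorem ec_pow (y : F) (n : ℕ) :
    E36 α β q ((y ^ n) ^ (q - 1)) ^ q = (E36 α β q (y ^ (q - 1)) ^ q) ^ n := by
  rw [← pow_mul, mul_comm n (q - 1), pow_mul, E36_pow, ← pow_mul, mul_comm n q, pow_mul]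

variable {R : Type*} [CommRing R] [IsDomain R] [IsIntegrallyClosed R] [Algebra R F]

/-- **The local datum from the chain, the factorisation and the Gauss contract.** -/
theorem hloc_of_chain (hinj : Function.Injective (algebraMap R F)) {π : R} (hπ : Prime π)
    (𝔫 : Ideal (integralClosure R F)) [𝔫.IsPrime]
    (S : Set (Ideal (integralClosure R F)))
    (hchain : ∀ u : F,
      HU (integralClosure R F).val.toRingHom (algebraMap R (integralClosure R F) π) S u →
      HU (integralClosure R F).val.toRingHom (algebraMap R (integralClosure R F) π) {𝔫}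
        (E36 α β q u))
    (m : ℕ) (f : F)
    (hfact : ∃ G : F, G ≠ 0 ∧
      HU (integralClosure R F).val.toRingHom (algebraMap R (integralClosure R F) π) S
        (f / G ^ m))
    (G1 : F → Prop) (hG1 : ∀ h : F, h ≠ 0 → G1 (E36 α β q (h ^ (q - 1)) ^ q))
    (hG1int : ∀ x : F, G1 x → ∃ g : R, ¬ π ∣ g ∧ IsIntegral R (algebraMap R F g * x))
    (hf : f ≠ 0) :
    ∃ g : F, G1 g ∧ ∃ d : integralClosure R F, d ∉ 𝔫 ∧
      IsIntegral R ((d : F) * (E36 α β q (f ^ (q - 1)) ^ q * g ^ m)) := by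
  obtain ⟨G, hG0, hu⟩ := hfact
  have hu0 : f / G ^ m ≠ 0 := div_ne_zero hf (pow_ne_zero m hG0)
  refine ⟨E36 α β q (G⁻¹ ^ (q - 1)) ^ q, hG1 G⁻¹ (inv_ne_zero hG0), ?_⟩
  -- `ec f * (ec G⁻¹) ^ m = ec u`
  have hprod : E36 α β q (f ^ (q - 1)) ^ q * (E36 α β q (G⁻¹ ^ (q - 1)) ^ q) ^ m =
      E36 α β q ((f / G ^ m) ^ (q - 1)) ^ q := by
    rw [← ec_pow, ← ec_mul, div_eq_mul_inv, inv_pow]
  rw [hprod]
  -- `ec u` is a unit at the primes below `𝔫` not containing `π`
  have hHU : HU (integralClosure R F).val.toRingHom (algebraMap R (integralClosure R F) π) {𝔫}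
      (E36 α β q ((f / G ^ m) ^ (q - 1)) ^ q) :=
    (hchain _ (hu.pow (q - 1))).pow q
  -- a multiple by some `g₀ ∈ R`, `π ∤ g₀`, is integral
  obtain ⟨g₀, hg₀, hint⟩ := hG1int _ (hG1 (f / G ^ m) hu0)
  exact HEnd.exists_notMem_isIntegral hinj hπ hg₀ 𝔫 _ hHU hint

end Fermat.Agent.S36.HLocAbs
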