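/-
S36 (wave 8), contract K4 with a LEVEL PREDICATE: the definitions `RegDefs.Reg36₁`, `RegDefs.Reg36₂`
where the unramified levels are restricted by an additional property `Φ` (`Core36P.LevelPred`; in
the application `Φ L ι := FrobStable A q ι`, some Frobenius lift at `A` restricts to `L`).

* `Reg36P₁ Φ M q A`, `Reg36P₂ Φ M q A` : LITERALLY `RegDefs.Reg36₁ M q A`, `RegDefs.Reg36₂ M q A`
  with the level quantifier
  `LevelChange.IsLevel A q S₀ ι → Irreducible ((q : ℕ) : ↥(A.comap ι)) → Φ L ι → …`;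
* `reg36P₁_of_reg36₁`, `reg36P₂_of_reg36₂` : the unrestricted statements imply the restricted ones;
* `Reg36P₁.mono`, `Reg36P₂.mono` : a stronger level predicate gives a weaker statement.
-/
import Mathlib
import Fermat.Agent.S36.RegDefs
import Fermat.Agent.S36.Core36P

set_option autoImplicit false

noncomputable section

namespace Fermat.Agent.S36.RegDefsP

open ModularCurve Fermat.Agent.S37 Fermat.Agent.S36.Core36P Fermat.Agent.S36.RegDefs

local notation "Qb" => AlgebraicClosure ℚ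

/-- **(REG36₁), restricted levels.** horizontal primes through the closed points of the special
fibre of the finite chart of level `M q²` are locally principal. -/
def Reg36P₁ (Φ : LevelPred) (M q : ℕ) [NeZero M] [NeZero q] (A : ValuationSubring Qb) : Prop :=
  ∃ S₀ : Finset Qb, (∀ a ∈ S₀, ∀ τ ∈ A.inertiaSubgroupIn ℚ, τ a = a) ∧
    ∀ (L : Type) [Field L] [Algebra ℚ L] (ι : L →+* Qb),
      LevelChange.IsLevel A q S₀ ι → Irreducible ((q : ℕ) : ↥(A.comap ι)) → Φ L ι →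
      ∀ 𝔫 : Ideal (integralClosure (Algebra.adjoin ↥(A.comap ι) {S24.jBC L (M * q * q)})
          (S24.FF L (M * q * q))), 𝔫.IsMaximal →
        (∀ r : integralClosure (Algebra.adjoin ↥(A.comap ι) {S24.jBC L (M * q * q)})
            (S24.FF L (M * q * q)),
          (r : S24.FF L (M * q * q)) =
            algebraMap ↥(A.comap ι) (S24.FF L (M * q * q)) ((q : ℕ) : ↥(A.comap ι)) → r ∈ 𝔫) →
        ∀ 𝔮 : Ideal (integralClosure (Algebra.adjoin ↥(A.comap ι) {S24.jBC L (M * q * q)})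
            (S24.FF L (M * q * q))), 𝔮.IsPrime → 𝔮 ≤ 𝔫 →
          (∃ r : integralClosure (Algebra.adjoin ↥(A.comap ι) {S24.jBC L (M * q * q)})
              (S24.FF L (M * q * q)),
            (r : S24.FF L (M * q * q)) =
              algebraMap ↥(A.comap ι) (S24.FF L (M * q * q)) ((q : ℕ) : ↥(A.comap ι)) ∧
              r ∉ 𝔮) →
          ∃ x ∈ 𝔮, ∃ d, d ∉ 𝔫 ∧ ∀ y ∈ 𝔮, x ∣ d * y

/-- **(REG36₂), restricted levels.** horizontal primes through the cusps of the special fibre of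
the chart `W[1/j]` of level `M q²` are locally principal. -/
def Reg36P₂ (Φ : LevelPred) (M q : ℕ) [NeZero M] [NeZero q] (A : ValuationSubring Qb) : Prop :=
  ∃ S₀ : Finset Qb, (∀ a ∈ S₀, ∀ τ ∈ A.inertiaSubgroupIn ℚ, τ a = a) ∧
    ∀ (L : Type) [Field L] [Algebra ℚ L] (ι : L →+* Qb),
      LevelChange.IsLevel A q S₀ ι → Irreducible ((q : ℕ) : ↥(A.comap ι)) → Φ L ι →
      ∀ 𝔫 : Ideal (integralClosure (Algebra.adjoin ↥(A.comap ι) {(S24.jBC L (M * q * q))⁻¹})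
          (S24.FF L (M * q * q))), 𝔫.IsMaximal →
        (∀ r : integralClosure (Algebra.adjoin ↥(A.comap ι) {(S24.jBC L (M * q * q))⁻¹})
            (S24.FF L (M * q * q)),
          (r : S24.FF L (M * q * q)) =
            algebraMap ↥(A.comap ι) (S24.FF L (M * q * q)) ((q : ℕ) : ↥(A.comap ι)) → r ∈ 𝔫) →
        (∀ r : integralClosure (Algebra.adjoin ↥(A.comap ι) {(S24.jBC L (M * q * q))⁻¹})
            (S24.FF L (M * q * q)),
          (r : S24.FF L (M * q * q)) = (S24.jBC L (M * q * q))⁻¹ → r ∈ 𝔫) →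
        ∀ 𝔮 : Ideal (integralClosure (Algebra.adjoin ↥(A.comap ι) {(S24.jBC L (M * q * q))⁻¹})
            (S24.FF L (M * q * q))), 𝔮.IsPrime → 𝔮 ≤ 𝔫 →
          (∃ r : integralClosure (Algebra.adjoin ↥(A.comap ι) {(S24.jBC L (M * q * q))⁻¹})
              (S24.FF L (M * q * q)),
            (r : S24.FF L (M * q * q)) =
              algebraMap ↥(A.comap ι) (S24.FF L (M * q * q)) ((q : ℕ) : ↥(A.comap ι)) ∧
              r ∉ 𝔮) →
          ∃ x ∈ 𝔮, ∃ d, d ∉ 𝔫 ∧ ∀ y ∈ 𝔮, x ∣ d * y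

/-! ### Comparison with `RegDefs` and monotonicity -/

section Compare

variable (Φ : LevelPred) (M q : ℕ) [NeZero M] [NeZero q] (A : ValuationSubring Qb)

theorem reg36P₁_of_reg36₁ (h : Reg36₁ M q A) : Reg36P₁ Φ M q A := by
  obtain ⟨S₀, hS₀, h⟩ := h
  exact ⟨S₀, hS₀, fun L _ _ ι hlev hπ _ => h L ι hlev hπ⟩

theorem reg36P₂_of_reg36₂ (h : Reg36₂ M q A) : Reg36P₂ Φ M q A := by
  obtain ⟨S₀, hS₀, h⟩ := h
  exact ⟨S₀, hS₀, fun L _ _ ι hlev hπ _ => h L ι hlev hπ⟩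

variable {Φ} {Ψ : LevelPred}

theorem Reg36P₁.mono (hΦΨ : ∀ (L : Type) [Field L] [Algebra ℚ L] (ι : L →+* Qb), Ψ L ι → Φ L ι)
    (h : Reg36P₁ Φ M q A) : Reg36P₁ Ψ M q A := by
  obtain ⟨S₀, hS₀, h⟩ := h
  exact ⟨S₀, hS₀, fun L _ _ ι hlev hπ hΨ => h L ι hlev hπ (hΦΨ L ι hΨ)⟩

theorem Reg36P₂.mono (hΦΨ : ∀ (L : Type) [Field L] [Algebra ℚ L] (ι : L →+* Qb), Ψ L ι → Φ L ι)
    (h : Reg36P₂ Φ M q A) : Reg36P₂ Ψ M q A := by
  obtain ⟨S₀, hS₀, h⟩ := h
  exact ⟨S₀, hS₀, fun L _ _ ι hlev hπ hΨ => h L ι hlev hπ (hΦΨ L ι hΨ)⟩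

end Compare

end Fermat.Agent.S36.RegDefsP
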