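/-
S36 (wave 8), contract K7 on the CUSP chart: the local datum `Core36P.Loc36P₂` from the named
pieces (ledger v1.2).

Chart: `R = W[1/j]`, `B = integralClosure R (FF L (N * q))`, `T` the set of cusp points of the
special fibre (maximal ideals of `B` containing `q` and `1/j`).

* `loc_cusp_level` : ONE level.  From
    - the ring facts of `R` (`IsIntegrallyClosed`, `q` prime) and the Gauss-integrality of
      `GaussOne` elements over `R` (GaussInt),
    - the Gauss contract `GaussOne (ecoreL y)` for every `y ≠ 0` (K2),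
    - the chain `HU T u → HU {𝔫} (E36 u)` on the cusp set `T` (CuspPair),
    - the regularity of the horizontal primes through the cusps (K4 = `Reg36P₂`),
    - `m ∣ P.ord (bc f)` at every place,
  the local datum `∃ g, GaussOne g ∧ ∃ d ∉ 𝔫, IsIntegral R (d * (ecoreL f * g ^ m))`
  (`HLocAbs.hloc_of_chain` + `FactAdjoin.exists_factor_adjoin_inv_reg`).
-/
import Mathlib
import Fermat.Agent.S36.HLocAbs
import Fermat.Agent.S36.FactAdjoin
import Fermat.Agent.S36.Core36P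
import Fermat.Agent.S36.RegDefsP
import Fermat.Agent.S34.GalLevel

set_option autoImplicit false
set_option linter.unusedSectionVars false
set_option linter.style.haveILetI false

noncomputable section

namespace Fermat.Agent.S36.Loc36CuspAbs

open Polynomial ModularCurve AlgebraicCurve Fermat.Agent.S18 Fermat.Agent.S18.Gauss
  Fermat.Agent.S24 Fermat.Agent.S34 Fermat.Agent.S37
open Fermat.Agent.S34.KummerStep Fermat.Agent.S36.ConstPow Fermat.Agent.S36.Core36
  Fermat.Agent.S36.HUnit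

local notation "Qb" => AlgebraicClosure ℚ

variable {L : Type} [Field L] [Algebra ℚ L] (W : ValuationSubring L) (N q : ℕ) [NeZero N]
  [NeZero q] [IsDiscreteValuationRing W]

set_option maxHeartbeats 1600000 in
set_option synthInstance.maxHeartbeats 400000 in
-- the instances `Algebra ↥W (FF L N)`, `Algebra W[1/j] (integralClosure W[1/j] F)` are found slowly
/-- **The local datum at one level, cusp chart.** -/
theorem loc_cusp_level (ι : L →+* Qb) {ϖ : W} (hϖ : Irreducible ϖ)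
    (hicl : IsIntegrallyClosed ↥(Algebra.adjoin ↥W {(jBC L (N * q))⁻¹}))
    (hprime : Prime (algebraMap ↥W ↥(Algebra.adjoin ↥W {(jBC L (N * q))⁻¹}) ϖ))
    (hgint : ∀ x : FF L (N * q), GaussOne ϖ (jBC L (N * q)) x →
      ∃ g : ↥(Algebra.adjoin ↥W {(jBC L (N * q))⁻¹}),
        ¬ algebraMap ↥W ↥(Algebra.adjoin ↥W {(jBC L (N * q))⁻¹}) ϖ ∣ g ∧
        IsIntegral ↥(Algebra.adjoin ↥W {(jBC L (N * q))⁻¹})
          (algebraMap ↥(Algebra.adjoin ↥W {(jBC L (N * q))⁻¹}) (FF L (N * q)) g * x))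
    (hG : ∀ y : FF L (N * q), y ≠ 0 → GaussOne ϖ (jBC L (N * q)) (ecoreL L N q y))
    (T : Set (Ideal (integralClosure (Algebra.adjoin ↥W {(jBC L (N * q))⁻¹}) (FF L (N * q)))))
    (hTfin : T.Finite) (hTmax : ∀ 𝔪 ∈ T, 𝔪.IsMaximal)
    (hTπ : ∀ 𝔪 ∈ T, ∀ r : integralClosure (Algebra.adjoin ↥W {(jBC L (N * q))⁻¹}) (FF L (N * q)),
      (r : FF L (N * q)) = algebraMap ↥W (FF L (N * q)) ϖ → r ∈ 𝔪)
    (hTj : ∀ 𝔪 ∈ T, ∀ r : integralClosure (Algebra.adjoin ↥W {(jBC L (N * q))⁻¹}) (FF L (N * q)),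
      (r : FF L (N * q)) = (jBC L (N * q))⁻¹ → r ∈ 𝔪)
    (hchain : ∀ u : FF L (N * q),
      HU (integralClosure (Algebra.adjoin ↥W {(jBC L (N * q))⁻¹}) (FF L (N * q))).val.toRingHom
        (algebraMap ↥(Algebra.adjoin ↥W {(jBC L (N * q))⁻¹})
          (integralClosure (Algebra.adjoin ↥W {(jBC L (N * q))⁻¹}) (FF L (N * q)))
          (algebraMap ↥W ↥(Algebra.adjoin ↥W {(jBC L (N * q))⁻¹}) ϖ)) T u →
      ∀ 𝔪 ∈ T,
      HU (integralClosure (Algebra.adjoin ↥W {(jBC L (N * q))⁻¹}) (FF L (N * q))).val.toRingHom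
        (algebraMap ↥(Algebra.adjoin ↥W {(jBC L (N * q))⁻¹})
          (integralClosure (Algebra.adjoin ↥W {(jBC L (N * q))⁻¹}) (FF L (N * q)))
          (algebraMap ↥W ↥(Algebra.adjoin ↥W {(jBC L (N * q))⁻¹}) ϖ))
        ({𝔪} : Set (Ideal (integralClosure (Algebra.adjoin ↥W {(jBC L (N * q))⁻¹})
          (FF L (N * q)))))
        (E36 (heckeAlphaBar L N q) (heckeBetaBar L N q) q u))
    (hreg : ∀ 𝔫 : Ideal (integralClosure (Algebra.adjoin ↥W {(jBC L (N * q))⁻¹}) (FF L (N * q))),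
      𝔫.IsMaximal →
      (∀ r : integralClosure (Algebra.adjoin ↥W {(jBC L (N * q))⁻¹}) (FF L (N * q)),
        (r : FF L (N * q)) = algebraMap ↥W (FF L (N * q)) ϖ → r ∈ 𝔫) →
      (∀ r : integralClosure (Algebra.adjoin ↥W {(jBC L (N * q))⁻¹}) (FF L (N * q)),
        (r : FF L (N * q)) = (jBC L (N * q))⁻¹ → r ∈ 𝔫) →
      ∀ 𝔮 : Ideal (integralClosure (Algebra.adjoin ↥W {(jBC L (N * q))⁻¹}) (FF L (N * q))),
        𝔮.IsPrime → 𝔮 ≤ 𝔫 →
        (∃ r : integralClosure (Algebra.adjoin ↥W {(jBC L (N * q))⁻¹}) (FF L (N * q)),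
          (r : FF L (N * q)) = algebraMap ↥W (FF L (N * q)) ϖ ∧ r ∉ 𝔮) →
        ∃ x ∈ 𝔮, ∃ d, d ∉ 𝔫 ∧ ∀ y ∈ 𝔮, x ∣ d * y)
    (m : ℕ) (f : FF L (N * q)) (hf : f ≠ 0)
    (hm : ∀ P : Place Qb ↥(modularFunctionFieldBar (N * q)),
      (m : ℤ) ∣ P.ord (CoeffBC.bc ι (modularFunctionFieldFull (N * q)) f))
    (𝔫 : Ideal (integralClosure (Algebra.adjoin ↥W {(jBC L (N * q))⁻¹}) (FF L (N * q))))
    (h𝔫 : 𝔫 ∈ T) :
    ∃ g : FF L (N * q), GaussOne ϖ (jBC L (N * q)) g ∧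
      ∃ d : integralClosure (Algebra.adjoin ↥W {(jBC L (N * q))⁻¹}) (FF L (N * q)), d ∉ 𝔫 ∧
        IsIntegral ↥(Algebra.adjoin ↥W {(jBC L (N * q))⁻¹})
          ((d : FF L (N * q)) * (ecoreL L N q f * g ^ m)) := by
  haveI := hicl
  haveI : 𝔫.IsPrime := (hTmax 𝔫 h𝔫).isPrime
  have hinj : Function.Injective
      (algebraMap ↥(Algebra.adjoin ↥W {(jBC L (N * q))⁻¹}) (FF L (N * q))) :=
    Subtype.val_injective
  -- (FACT)
  have hfact := Fermat.Agent.S36.FactAdjoin.exists_factor_adjoin_inv_reg W (N * q) ι hϖ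
    (algebraMap ↥(Algebra.adjoin ↥W {(jBC L (N * q))⁻¹})
      (integralClosure (Algebra.adjoin ↥W {(jBC L (N * q))⁻¹}) (FF L (N * q)))
      (algebraMap ↥W ↥(Algebra.adjoin ↥W {(jBC L (N * q))⁻¹}) ϖ)) rfl T hTfin hTmax
    (fun 𝔪 h𝔪 => hTπ 𝔪 h𝔪 _ rfl) hTj hreg m f hf hm
  exact Fermat.Agent.S36.HLocAbs.hloc_of_chain (heckeAlphaBar L N q) (heckeBetaBar L N q) q hinj
    hprime 𝔫 T (fun u hu => hchain u hu 𝔫 h𝔫) m f hfact (GaussOne ϖ (jBC L (N * q)))
    (fun h hh => hG h hh) hgint hf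

/-! ### The assembly over all unramified levels -/

set_option maxHeartbeats 1600000 in
set_option synthInstance.maxHeartbeats 400000 in
-- the instances `Algebra ↥W (FF L N)`, `Algebra W[1/j] (integralClosure W[1/j] F)` are found slowly
/-- **The chart inputs on the cusp chart of level `N * q`** at every unramified level: the ring
facts of `R = W[1/j]` and the Gauss-integrality over `R` (GaussInt), and a finite set `T` of
maximal ideals of `B = integralClosure R F` containing every cusp point, stable under the chain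
`HU T u → HU {𝔪} (E36 u)` (CuspPair). -/
def CuspInputs (N q : ℕ) [NeZero N] [NeZero q] (A : ValuationSubring Qb) : Prop :=
  ∀ (L : Type) [Field L] [Algebra ℚ L] (ι : L →+* Qb) (S : Finset Qb),
    LevelChange.IsLevel A q S ι → Irreducible ((q : ℕ) : ↥(A.comap ι)) →
    IsIntegrallyClosed ↥(Algebra.adjoin ↥(A.comap ι) {(jBC L (N * q))⁻¹}) ∧
    Prime (algebraMap ↥(A.comap ι) ↥(Algebra.adjoin ↥(A.comap ι) {(jBC L (N * q))⁻¹})
      ((q : ℕ) : ↥(A.comap ι))) ∧
    (∀ x : FF L (N * q), GaussOne ((q : ℕ) : ↥(A.comap ι)) (jBC L (N * q)) x →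
      ∃ g : ↥(Algebra.adjoin ↥(A.comap ι) {(jBC L (N * q))⁻¹}),
        ¬ algebraMap ↥(A.comap ι) ↥(Algebra.adjoin ↥(A.comap ι) {(jBC L (N * q))⁻¹})
          ((q : ℕ) : ↥(A.comap ι)) ∣ g ∧
        IsIntegral ↥(Algebra.adjoin ↥(A.comap ι) {(jBC L (N * q))⁻¹})
          (algebraMap ↥(Algebra.adjoin ↥(A.comap ι) {(jBC L (N * q))⁻¹}) (FF L (N * q)) g * x)) ∧
    ∃ T : Set (Ideal (integralClosure (Algebra.adjoin ↥(A.comap ι) {(jBC L (N * q))⁻¹})
        (FF L (N * q)))),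
      T.Finite ∧ (∀ 𝔪 ∈ T, 𝔪.IsMaximal) ∧
      (∀ 𝔪 ∈ T, ∀ r : integralClosure (Algebra.adjoin ↥(A.comap ι) {(jBC L (N * q))⁻¹})
          (FF L (N * q)),
        (r : FF L (N * q)) = algebraMap ↥(A.comap ι) (FF L (N * q)) ((q : ℕ) : ↥(A.comap ι)) →
          r ∈ 𝔪) ∧
      (∀ 𝔪 ∈ T, ∀ r : integralClosure (Algebra.adjoin ↥(A.comap ι) {(jBC L (N * q))⁻¹})
          (FF L (N * q)),
        (r : FF L (N * q)) = (jBC L (N * q))⁻¹ → r ∈ 𝔪) ∧
      (∀ 𝔫 : Ideal (integralClosure (Algebra.adjoin ↥(A.comap ι) {(jBC L (N * q))⁻¹})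
          (FF L (N * q))), 𝔫.IsMaximal →
        (∀ r : integralClosure (Algebra.adjoin ↥(A.comap ι) {(jBC L (N * q))⁻¹}) (FF L (N * q)),
          (r : FF L (N * q)) = algebraMap ↥(A.comap ι) (FF L (N * q)) ((q : ℕ) : ↥(A.comap ι)) →
            r ∈ 𝔫) →
        (∀ r : integralClosure (Algebra.adjoin ↥(A.comap ι) {(jBC L (N * q))⁻¹}) (FF L (N * q)),
          (r : FF L (N * q)) = (jBC L (N * q))⁻¹ → r ∈ 𝔫) → 𝔫 ∈ T) ∧
      ∀ u : FF L (N * q),
        HU (integralClosure (Algebra.adjoin ↥(A.comap ι) {(jBC L (N * q))⁻¹})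
            (FF L (N * q))).val.toRingHom
          (algebraMap ↥(Algebra.adjoin ↥(A.comap ι) {(jBC L (N * q))⁻¹})
            (integralClosure (Algebra.adjoin ↥(A.comap ι) {(jBC L (N * q))⁻¹}) (FF L (N * q)))
            (algebraMap ↥(A.comap ι) ↥(Algebra.adjoin ↥(A.comap ι) {(jBC L (N * q))⁻¹})
              ((q : ℕ) : ↥(A.comap ι)))) T u →
        ∀ 𝔪 ∈ T,
        HU (integralClosure (Algebra.adjoin ↥(A.comap ι) {(jBC L (N * q))⁻¹})
            (FF L (N * q))).val.toRingHom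
          (algebraMap ↥(Algebra.adjoin ↥(A.comap ι) {(jBC L (N * q))⁻¹})
            (integralClosure (Algebra.adjoin ↥(A.comap ι) {(jBC L (N * q))⁻¹}) (FF L (N * q)))
            (algebraMap ↥(A.comap ι) ↥(Algebra.adjoin ↥(A.comap ι) {(jBC L (N * q))⁻¹})
              ((q : ℕ) : ↥(A.comap ι))))
          ({𝔪} : Set (Ideal (integralClosure (Algebra.adjoin ↥(A.comap ι) {(jBC L (N * q))⁻¹})
            (FF L (N * q)))))
          (E36 (heckeAlphaBar L N q) (heckeBetaBar L N q) q u)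

set_option maxHeartbeats 1600000 in
set_option synthInstance.maxHeartbeats 400000 in
-- the instances `Algebra ↥W (FF L N)`, `Algebra W[1/j] (integralClosure W[1/j] F)` are found slowly
/-- **(LOC36₂) from the named pieces**: the Gauss contract (K2), the regularity of the horizontal
primes through the cusps (K4) and the chart inputs (GaussInt + CuspPair). -/
theorem loc36P₂_of_inputs (Φ : Core36P.LevelPred) (M q p : ℕ) [NeZero M] [NeZero q]
    (A : ValuationSubring Qb) (hI : CuspInputs (M * q) q A)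
    (hG : Core36.Gauss36 (M * q) q A) (hR : Fermat.Agent.S36.RegDefsP.Reg36P₂ Φ M q A) :
    Core36P.Loc36P₂ Φ (M * q) q p A 1 := by
  intro n f hf hord _
  obtain ⟨SG, hSG, hG⟩ := hG
  obtain ⟨SR, hSR, hR⟩ := hR
  refine ⟨SG ∪ SR, ?_, ?_⟩
  · intro a ha τ hτ
    rcases Finset.mem_union.mp ha with h | h
    exacts [hSG a h τ hτ, hSR a h τ hτ]
  intro L _ _ ι hlev hirr hΦ fL hbc 𝔫 h𝔫max h𝔫π h𝔫j
  have hlG : LevelChange.IsLevel A q SG ι := GalLevel.isLevel_mono hlev Finset.subset_union_left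
  have hlR : LevelChange.IsLevel A q SR ι := GalLevel.isLevel_mono hlev Finset.subset_union_right
  haveI : IsDiscreteValuationRing ↥(A.comap ι) := hlev.2.2.1
  obtain ⟨hicl, hprime, hgint, T, hTfin, hTmax, hTπ, hTj, hTall, hchain⟩ := hI L ι _ hlev hirr
  have hfL : fL ≠ 0 := by
    rintro rfl
    exact hf (by rw [← hbc, map_zero])
  have hm : ∀ P : Place Qb ↥(modularFunctionFieldBar (M * q * q)),
      ((p ^ n : ℕ) : ℤ) ∣ P.ord (CoeffBC.bc ι (modularFunctionFieldFull (M * q * q)) fL) := by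
    intro P
    rw [hbc]
    exact_mod_cast hord P
  have key := loc_cusp_level (A.comap ι) (M * q) q ι hirr hicl hprime hgint (hG L ι hlG hirr) T
    hTfin hTmax hTπ hTj hchain (hR L ι hlR hirr hΦ) (p ^ n) fL hfL hm 𝔫
    (hTall 𝔫 h𝔫max h𝔫π h𝔫j)
  simpa only [pow_one] using key

end Fermat.Agent.S36.Loc36CuspAbs
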