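/-
S36 (wave 8), contract K7 on the CUSP chart, FINAL: `Core36P.Loc36P₂ Φ (M * q) q p A 1` from the
Gauss contract (K2) and the regularity of the horizontal primes through the cusps (K4).

* `cuspInputs` : `Loc36CuspAbs.CuspInputs N q A` — the ring facts of `W[1/j]` (`GaussInt`) and the
  chain on the cusp set (`CuspPair.cusp_chain`);
* `loc36P₂`    : the contract (`Loc36CuspAbs.loc36P₂_of_inputs`).
-/
import Mathlib
import Fermat.Agent.S36.Loc36CuspAbs
import Fermat.Agent.S36.CuspPair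
import Fermat.Agent.S36.GaussInt
import Fermat.Agent.S34.BridgeChart

set_option autoImplicit false
set_option linter.unusedSectionVars false
set_option linter.style.haveILetI false

noncomputable section

namespace Fermat.Agent.S36.Loc36Cusp

open Polynomial ModularCurve AlgebraicCurve Fermat.Agent.S18 Fermat.Agent.S18.Gauss
  Fermat.Agent.S24 Fermat.Agent.S34 Fermat.Agent.S37
open Fermat.Agent.S34.KummerStep Fermat.Agent.S36.ConstPow Fermat.Agent.S36.Core36
  Fermat.Agent.S36.HUnit Fermat.Agent.S36.Loc36CuspAbs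

local notation "Qb" => AlgebraicClosure ℚ

set_option maxHeartbeats 3200000 in
set_option synthInstance.maxHeartbeats 400000 in
-- the instances `Algebra ↥W (FF L N)`, `Algebra W[1/j] (integralClosure W[1/j] F)` are found slowly
/-- **The chart inputs of the cusp chart** at every unramified level. -/
theorem cuspInputs (N q : ℕ) [NeZero N] [NeZero q] (hq : q.Prime) (A : ValuationSubring Qb) :
    CuspInputs N q A := by
  intro L _ _ ι S₀ hlev hirr
  haveI : IsDiscreteValuationRing ↥(A.comap ι) := hlev.2.2.1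
  have hj : Transcendental L (jBC L (N * q)) := Bridge.transcendental_j ι (N * q)
  haveI : CharZero L := algebraRat.charZero L
  haveI : IsScalarTower ↥(A.comap ι) L (FF L (N * q)) :=
    IsScalarTower.of_algebraMap_eq (fun _ => rfl)
  haveI : FiniteDimensional (IntermediateField.adjoin L {jBC L (N * q)}) (FF L (N * q)) :=
    (Gauss.finrank_FF_le (L := L) (N := N * q)).1
  haveI : IsNoetherianRing ↥(integralClosure (Algebra.adjoin ↥(A.comap ι) {(jBC L (N * q))⁻¹})
      (FF L (N * q))) := ChartRing.isNoetherianRing_inv (W := ↥(A.comap ι)) (jBC L (N * q)) hj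
  obtain ⟨hfin, hmax, hπ, hchain⟩ := Fermat.Agent.S36.CuspPair.cusp_chain (A.comap ι) N q
    (R := ↥(Algebra.adjoin ↥(A.comap ι) {(jBC L (N * q))⁻¹}))
    (BridgeChart.isIntegral_adjoin_inv_iff (A.comap ι) (N * q)) hq
    ((q : ℕ) : ↥(A.comap ι)) hirr.not_isUnit
    (algebraMap ↥(A.comap ι) ↥(Algebra.adjoin ↥(A.comap ι) {(jBC L (N * q))⁻¹})
      ((q : ℕ) : ↥(A.comap ι)))
    (BridgeChart.algebraMap_eq (A.comap ι) (N * q) ((q : ℕ) : ↥(A.comap ι))) q
  refine ⟨Fermat.Agent.S36.GaussInt.isIntegrallyClosed_inf ι (A.comap ι) (N * q),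
    Fermat.Agent.S36.GaussInt.prime_inf ι (A.comap ι) (N * q) hirr,
    fun x hx => Fermat.Agent.S36.GaussInt.gaussOne_int_inf ι (A.comap ι) (N * q) hirr hx,
    Fermat.Agent.S36.CuspPair.cuspSet L (N * q)
      ↥(Algebra.adjoin ↥(A.comap ι) {(jBC L (N * q))⁻¹}), hfin, hmax, ?_, ?_, ?_, ?_⟩
  · intro 𝔪 h𝔪 r hr
    have : r = algebraMap ↥(Algebra.adjoin ↥(A.comap ι) {(jBC L (N * q))⁻¹})
        (integralClosure (Algebra.adjoin ↥(A.comap ι) {(jBC L (N * q))⁻¹}) (FF L (N * q)))
        (algebraMap ↥(A.comap ι) ↥(Algebra.adjoin ↥(A.comap ι) {(jBC L (N * q))⁻¹})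
          ((q : ℕ) : ↥(A.comap ι))) := Subtype.ext hr
    rw [this]
    exact hπ 𝔪 h𝔪
  · exact fun 𝔪 h𝔪 => h𝔪.2
  · exact fun 𝔫 h𝔫 _ hx => ⟨h𝔫, hx⟩
  · exact fun u hu 𝔪 h𝔪 => hchain u hu 𝔪 h𝔪

/-- **(LOC36₂)** — K7 on the cusp chart: the local datum of the Kummer descent at the cusp points
of the special fibre, from the Gauss contract (K2) and the regularity contract (K4). -/
theorem loc36P₂ (Φ : Core36P.LevelPred) (M q p : ℕ) [NeZero M] [NeZero q] (hq : q.Prime)
    (A : ValuationSubring Qb) (hG : Core36.Gauss36 (M * q) q A)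
    (hR : Fermat.Agent.S36.RegDefsP.Reg36P₂ Φ M q A) :
    Core36P.Loc36P₂ Φ (M * q) q p A 1 :=
  loc36P₂_of_inputs Φ M q p A (cuspInputs (M * q) q hq A) hG hR

end Fermat.Agent.S36.Loc36Cusp
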