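/-
S36 (wave 8), contract K7 of the ledger on the FINITE chart: the local Kummer datum
`Core36P.Loc36P₁` from the Gauss contract (K2), the regularity contract (K4) and the chain of
horizontal units (K6).

* `loc_abs` : ONE level `(L, ι)`, `W` a discrete valuation subring of `L` with uniformiser `π`,
  function field `F = FF L (N * q)`, `R ⊆ F` an integrally closed domain (in the application
  `W[j]`), `B = integralClosure R F` the chart ring, `πB ∈ B` and `πR ∈ R` the images of `π`.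
  Inputs:
  - `hG1`/`hG1int` (K2 + ring facts): a predicate `G1` ("`≡ 1` on the Gauss ring") satisfied by
    `ecoreL y` for every `y ≠ 0`, whose members have an integral multiple by some `g ∈ R`,
    `πR ∤ g`;
  - `hchain` (K6, `HUChain.exists_chain`): a finite set `S₃` of maximal ideals containing `πB`
    such that `E36` maps horizontal units on `S₃` to horizontal units at `𝔫`;
  - `hreg` (K4): the nonzero primes `𝔮 ∌ πB` below a maximal ideal `∋ πB` are locally
    principal;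
  - `hm`: `m` divides the order of `bc ι fL` at every place of `F_ℚ̄`.
  Output: `∃ g, G1 g ∧ ∃ d ∉ 𝔫, IsIntegral R (d * (ecoreL fL * g ^ m))` — the conclusion of
  `Loc36P₁` (`hloc₁` of `S34.GLevel.kummer_at_level`) at `𝔫`.
  Proof: `HorizFactInst.exists_factor_chart` (K5 + K6 FACT) on `S₃`, then
  `HLocAbs.hloc_of_chain` (K6 END).
* `ChainP₁ Φ M q A`, `RingP₁ M q A` : the two level-wise inputs on the literal chart rings
  (chain of `HUChain`; ring facts of `W[j]`), and `chainP₁` (`ChartHom.exists_chain_fin`),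
  `ringP₁` (`GaussInt`): they hold.
* `loc36P₁_of` : `Core36P.Loc36P₁ Φ (M * q) q p A 1` from `Core36.Gauss36`, `RegDefsP.Reg36P₁`,
  `ChainP₁`, `RingP₁`.
* **`loc36P₁`** : `Core36.Gauss36 (M * q) q A → RegDefsP.Reg36P₁ Φ M q A →
  Core36P.Loc36P₁ Φ (M * q) q p A 1` (for `q` prime, any level predicate `Φ`).
-/
import Mathlib
import Fermat.Agent.S36.Core36P
import Fermat.Agent.S36.HLocAbs
import Fermat.Agent.S36.HorizFactInst
import Fermat.Agent.S36.RegDefsP
import Fermat.Agent.S36.ChartHom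
import Fermat.Agent.S36.GaussInt
import Fermat.Agent.S34.ChartRing
import Fermat.Agent.S34.GalLevel
import Fermat.Agent.S34.GLevel
import Fermat.Agent.S18.RamJIdeal
import Fermat.Agent.S18.GaussDegree

set_option autoImplicit false
set_option linter.style.haveILetI false
set_option linter.unusedSectionVars false

noncomputable section

namespace Fermat.Agent.S36.Loc36Fin

open ModularCurve AlgebraicCurve Fermat.Agent.S37 Fermat.Agent.S34
open Fermat.Agent.S34.KummerStep Fermat.Agent.S36.ConstPow Fermat.Agent.S36.Core36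
open Fermat.Agent.S36.HUnit

local notation "Qb" => AlgebraicClosure ℚ

section Abs

variable (N q : ℕ) [NeZero N] [NeZero q] {L : Type} [Field L] [Algebra ℚ L] (ι : L →+* Qb)
  (W : ValuationSubring L)

/-- **(LOC36) at one level, abstract chart ring.** -/
theorem loc_abs [IsDiscreteValuationRing W] {π : W} (hπ : Irreducible π)
    {R : Type*} [CommRing R] [IsDomain R] [IsIntegrallyClosed R] [Algebra R (S24.FF L (N * q))]
    (hinj : Function.Injective (algebraMap R (S24.FF L (N * q))))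
    [IsNoetherianRing ↥(integralClosure R (S24.FF L (N * q)))]
    (hfrac : ∀ g : S24.FF L (N * q), ∃ y₁ y₂ : ↥(integralClosure R (S24.FF L (N * q))),
      y₂ ≠ 0 ∧ g * (y₂ : S24.FF L (N * q)) = (y₁ : S24.FF L (N * q)))
    (hW : ∀ w : W, ∃ b : ↥(integralClosure R (S24.FF L (N * q))),
      (b : S24.FF L (N * q)) = algebraMap L (S24.FF L (N * q)) (w : L))
    {πR : R} (hπR : Prime πR)
    (hπRW : algebraMap R (S24.FF L (N * q)) πR = algebraMap L (S24.FF L (N * q)) (π : L))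
    (πB : ↥(integralClosure R (S24.FF L (N * q))))
    (hπB : (πB : S24.FF L (N * q)) = algebraMap L (S24.FF L (N * q)) (π : L))
    (G1 : S24.FF L (N * q) → Prop)
    (hG1 : ∀ y : S24.FF L (N * q), y ≠ 0 → G1 (ecoreL L N q y))
    (hG1int : ∀ x : S24.FF L (N * q), G1 x →
      ∃ g : R, ¬ πR ∣ g ∧ IsIntegral R (algebraMap R (S24.FF L (N * q)) g * x))
    (𝔫 : Ideal ↥(integralClosure R (S24.FF L (N * q)))) (h𝔫 : 𝔫.IsMaximal)
    (hchain : ∃ S₃ : Set (Ideal ↥(integralClosure R (S24.FF L (N * q)))), S₃.Finite ∧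
      (∀ 𝔪 ∈ S₃, 𝔪.IsMaximal) ∧ (∀ 𝔪 ∈ S₃, πB ∈ 𝔪) ∧
      ∀ u : S24.FF L (N * q),
        HU (integralClosure R (S24.FF L (N * q))).val.toRingHom πB S₃ u →
        HU (integralClosure R (S24.FF L (N * q))).val.toRingHom πB {𝔫}
          (E36 (heckeAlphaBar L N q) (heckeBetaBar L N q) q u))
    (hreg : ∀ 𝔪 : Ideal ↥(integralClosure R (S24.FF L (N * q))), 𝔪.IsMaximal → πB ∈ 𝔪 →
      ∀ 𝔮 : Ideal ↥(integralClosure R (S24.FF L (N * q))), 𝔮.IsPrime → 𝔮 ≤ 𝔪 → πB ∉ 𝔮 →
        ∃ x ∈ 𝔮, ∃ d, d ∉ 𝔪 ∧ ∀ y ∈ 𝔮, x ∣ d * y)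
    (m : ℕ) (fL : S24.FF L (N * q)) (hf : fL ≠ 0)
    (hm : ∀ P : Place Qb (modularFunctionFieldBar (N * q)),
      (m : ℤ) ∣ P.ord (S24.CoeffBC.bc ι (modularFunctionFieldFull (N * q)) fL)) :
    ∃ g : S24.FF L (N * q), G1 g ∧
      ∃ d : ↥(integralClosure R (S24.FF L (N * q))), d ∉ 𝔫 ∧
        IsIntegral R ((d : S24.FF L (N * q)) * (ecoreL L N q fL * g ^ m)) := by
  haveI := h𝔫.isPrime
  have hπBR : πB = algebraMap R ↥(integralClosure R (S24.FF L (N * q))) πR :=
    Subtype.ext (by rw [hπB, ← hπRW]; rfl)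
  obtain ⟨S₃, hS₃fin, hS₃max, hS₃π, hch⟩ := hchain
  -- (FACT) on `S₃`
  obtain ⟨G, u, hG0, hfu, hu⟩ := HorizFactInst.exists_factor_chart (N * q) ι W hπ
    (integralClosure R (S24.FF L (N * q))).val.toRingHom Subtype.val_injective
    hfrac hW πB hπB S₃ hS₃fin hS₃max
    (fun 𝔪 h𝔪 𝔮 h𝔮 hle _ hπ𝔮 => hreg 𝔪 (hS₃max 𝔪 h𝔪) (hS₃π 𝔪 h𝔪) 𝔮 h𝔮 hle hπ𝔮)
    m fL hf hm
  have hfact : ∃ G : S24.FF L (N * q), G ≠ 0 ∧
      HU (integralClosure R (S24.FF L (N * q))).val.toRingHom πB S₃ (fL / G ^ m) := by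
    refine ⟨G, hG0, ?_⟩
    have : fL / G ^ m = u := by
      rw [hfu, mul_div_assoc, div_self (pow_ne_zero m hG0), mul_one]
    rw [this]
    exact hu
  subst hπBR
  exact HLocAbs.hloc_of_chain (heckeAlphaBar L N q) (heckeBetaBar L N q) q hinj hπR 𝔫 S₃ hch m fL
    hfact G1 (fun h hh => hG1 h hh) hG1int hf

end Abs

/-! ### The two level-wise inputs which are not contracts of `Core36P` -/

set_option synthInstance.maxHeartbeats 400000 in
set_option maxHeartbeats 4000000 in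
/-- **(CHAIN), finite chart** (= `HUChain.exists_chain` on the chart rings of levels `M q`,
`M q²`): at every unramified level with `Φ`, for every maximal ideal `𝔫 ∋ q` of the chart ring
`B₁` there is a finite set `S₃` of maximal ideals containing `q` such that `E36` maps horizontal
units on `S₃` to horizontal units at `𝔫`. -/
def ChainP₁ (Φ : Core36P.LevelPred) (M q : ℕ) [NeZero M] [NeZero q] (A : ValuationSubring Qb) :
    Prop :=
  ∀ (L : Type) [Field L] [Algebra ℚ L] (ι : L →+* Qb) (S₀ : Finset Qb),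
    LevelChange.IsLevel A q S₀ ι → Irreducible ((q : ℕ) : ↥(A.comap ι)) → Φ L ι →
    ∀ πB : ↥(integralClosure (Algebra.adjoin ↥(A.comap ι) {S24.jBC L (M * q * q)})
        (S24.FF L (M * q * q))),
      (πB : S24.FF L (M * q * q)) =
        algebraMap ↥(A.comap ι) (S24.FF L (M * q * q)) ((q : ℕ) : ↥(A.comap ι)) →
    ∀ 𝔫 : Ideal ↥(integralClosure (Algebra.adjoin ↥(A.comap ι) {S24.jBC L (M * q * q)})
        (S24.FF L (M * q * q))), 𝔫.IsMaximal → πB ∈ 𝔫 →
      ∃ S₃ : Set (Ideal ↥(integralClosure (Algebra.adjoin ↥(A.comap ι) {S24.jBC L (M * q * q)})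
          (S24.FF L (M * q * q)))), S₃.Finite ∧ (∀ 𝔪 ∈ S₃, 𝔪.IsMaximal) ∧ (∀ 𝔪 ∈ S₃, πB ∈ 𝔪) ∧
        ∀ u : S24.FF L (M * q * q),
          HU (integralClosure (Algebra.adjoin ↥(A.comap ι) {S24.jBC L (M * q * q)})
            (S24.FF L (M * q * q))).val.toRingHom πB S₃ u →
          HU (integralClosure (Algebra.adjoin ↥(A.comap ι) {S24.jBC L (M * q * q)})
            (S24.FF L (M * q * q))).val.toRingHom πB
            ({𝔫} : Set (Ideal ↥(integralClosure (Algebra.adjoin ↥(A.comap ι)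
              {S24.jBC L (M * q * q)}) (S24.FF L (M * q * q)))))
            (E36 (heckeAlphaBar L (M * q) q) (heckeBetaBar L (M * q) q) q u)

set_option synthInstance.maxHeartbeats 400000 in
set_option maxHeartbeats 4000000 in
/-- **(RING), finite chart**: at every unramified level, `W[j]` is integrally closed, `q` is
prime in it, and a Gauss-one element has an integral multiple by some `g ∈ W[j]`, `q ∤ g`. -/
def RingP₁ (M q : ℕ) [NeZero M] [NeZero q] (A : ValuationSubring Qb) : Prop :=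
  ∀ (L : Type) [Field L] [Algebra ℚ L] (ι : L →+* Qb) (S₀ : Finset Qb),
    LevelChange.IsLevel A q S₀ ι → Irreducible ((q : ℕ) : ↥(A.comap ι)) →
    IsIntegrallyClosed ↥(Algebra.adjoin ↥(A.comap ι) {S24.jBC L (M * q * q)}) ∧
    Prime (algebraMap ↥(A.comap ι) ↥(Algebra.adjoin ↥(A.comap ι) {S24.jBC L (M * q * q)})
      ((q : ℕ) : ↥(A.comap ι))) ∧
    ∀ x : S24.FF L (M * q * q),
      GaussOne ((q : ℕ) : ↥(A.comap ι)) (S24.jBC L (M * q * q)) x →
      ∃ g : ↥(Algebra.adjoin ↥(A.comap ι) {S24.jBC L (M * q * q)}),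
        ¬ algebraMap ↥(A.comap ι) ↥(Algebra.adjoin ↥(A.comap ι) {S24.jBC L (M * q * q)})
            ((q : ℕ) : ↥(A.comap ι)) ∣ g ∧
        IsIntegral ↥(Algebra.adjoin ↥(A.comap ι) {S24.jBC L (M * q * q)})
          (algebraMap ↥(Algebra.adjoin ↥(A.comap ι) {S24.jBC L (M * q * q)})
            (S24.FF L (M * q * q)) g * x)

/-! ### The assembly -/

set_option synthInstance.maxHeartbeats 400000 in
set_option maxHeartbeats 4000000 in
/-- **(LOC36₁) from the contracts**: K2 (`Gauss36`), K4 (`Reg36P₁`), the chain and the ring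
facts. -/
theorem loc36P₁_of (Φ : Core36P.LevelPred) (M q p : ℕ) [NeZero M] [NeZero q]
    (A : ValuationSubring Qb) (hG : Core36.Gauss36 (M * q) q A)
    (hR : RegDefsP.Reg36P₁ Φ M q A) (hC : ChainP₁ Φ M q A) (hRing : RingP₁ M q A) :
    Core36P.Loc36P₁ Φ (M * q) q p A 1 := by
  classical
  obtain ⟨SG, hSG, hG⟩ := hG
  obtain ⟨SR, hSR, hR⟩ := hR
  intro n f hf hdvd hfix
  refine ⟨SG ∪ SR, ?_, ?_⟩
  · intro a ha
    rcases Finset.mem_union.mp ha with h | h
    · exact hSG a h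
    · exact hSR a h
  intro L _ _ ι hlev hirr hΦ fL hfL 𝔫 h𝔫 hq𝔫
  have hlevG := GalLevel.isLevel_mono hlev Finset.subset_union_left
  have hlevR := GalLevel.isLevel_mono hlev Finset.subset_union_right
  haveI := hlev.2.2.1
  haveI : CharZero L := algebraRat.charZero L
  haveI := GLevel.isScalarTower_FF (M * q * q) (A.comap ι)
  haveI : FiniteDimensional (IntermediateField.adjoin L {S24.jBC L (M * q * q)})
      (S24.FF L (M * q * q)) := (Fermat.Agent.S18.Gauss.finrank_FF_le L (M * q * q)).1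
  have hj : Transcendental L (S24.jBC L (M * q * q)) :=
    Fermat.Agent.S18.RamJ.transcendental_jBC ι (M * q * q)
  haveI : IsNoetherianRing ↥(integralClosure (Algebra.adjoin ↥(A.comap ι)
      {S24.jBC L (M * q * q)}) (S24.FF L (M * q * q))) :=
    ChartRing.isNoetherianRing (W := ↥(A.comap ι)) _ hj
  haveI : IsFractionRing ↥(integralClosure (Algebra.adjoin ↥(A.comap ι)
      {S24.jBC L (M * q * q)}) (S24.FF L (M * q * q))) (S24.FF L (M * q * q)) :=
    ChartRing.isFractionRing (W := ↥(A.comap ι)) _ hj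
  obtain ⟨hic, hπR, hG1int⟩ := hRing L ι _ hlev hirr
  haveI := hic
  -- the image of `q` in the chart ring
  obtain ⟨πB, hπB⟩ : ∃ πB : ↥(integralClosure (Algebra.adjoin ↥(A.comap ι)
      {S24.jBC L (M * q * q)}) (S24.FF L (M * q * q))),
      (πB : S24.FF L (M * q * q)) =
        algebraMap ↥(A.comap ι) (S24.FF L (M * q * q)) ((q : ℕ) : ↥(A.comap ι)) :=
    ⟨⟨_, (integralClosure (Algebra.adjoin ↥(A.comap ι) {S24.jBC L (M * q * q)})
      (S24.FF L (M * q * q))).algebraMap_mem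
        (algebraMap ↥(A.comap ι) ↥(Algebra.adjoin ↥(A.comap ι) {S24.jBC L (M * q * q)})
          ((q : ℕ) : ↥(A.comap ι)))⟩, rfl⟩
  have hπB𝔫 : πB ∈ 𝔫 := hq𝔫 πB hπB
  have hfL0 : fL ≠ 0 := by
    rintro rfl
    rw [map_zero] at hfL
    exact hf hfL.symm
  have hm : ∀ P : Place Qb (modularFunctionFieldBar (M * q * q)),
      ((p ^ n : ℕ) : ℤ) ∣ P.ord (S24.CoeffBC.bc ι (modularFunctionFieldFull (M * q * q)) fL) := by
    intro P
    rw [hfL]
    have := hdvd P
    exact_mod_cast this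
  have key := loc_abs (M * q) q ι (A.comap ι) hirr
    (R := ↥(Algebra.adjoin ↥(A.comap ι) {S24.jBC L (M * q * q)})) Subtype.val_injective
    (fun g => HorizFactInst.hfrac_of_isFractionRing g)
    (fun w => ⟨⟨_, (integralClosure (Algebra.adjoin ↥(A.comap ι) {S24.jBC L (M * q * q)})
      (S24.FF L (M * q * q))).algebraMap_mem
        (algebraMap ↥(A.comap ι) ↥(Algebra.adjoin ↥(A.comap ι) {S24.jBC L (M * q * q)}) w)⟩, rfl⟩)
    hπR rfl πB hπB (GaussOne ((q : ℕ) : ↥(A.comap ι)) (S24.jBC L (M * q * q)))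
    (fun y hy => hG L ι hlevG hirr y hy) hG1int 𝔫 h𝔫
    (hC L ι _ hlev hirr hΦ πB hπB 𝔫 h𝔫 hπB𝔫)
    (fun 𝔪 h𝔪 hπ𝔪 𝔮 h𝔮 hle hπ𝔮 => hR L ι hlevR hirr hΦ 𝔪 h𝔪
      (fun r hr => by
        have : r = πB := Subtype.ext (hr.trans hπB.symm)
        rw [this]; exact hπ𝔪) 𝔮 h𝔮 hle ⟨πB, hπB, hπ𝔮⟩)
    (p ^ n) fL hfL0 hm
  rw [pow_one]
  exact key

/-! ### The two level-wise inputs, proved -/

set_option synthInstance.maxHeartbeats 400000 in
set_option maxHeartbeats 4000000 in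
/-- (RING) holds (`GaussInt`). -/
theorem ringP₁ (M q : ℕ) [NeZero M] [NeZero q] (A : ValuationSubring Qb) : RingP₁ M q A := by
  intro L _ _ ι S₀ hlev hirr
  haveI := hlev.2.2.1
  exact ⟨GaussInt.isIntegrallyClosed_fin ι (A.comap ι) (M * q * q),
    GaussInt.prime_fin ι (A.comap ι) (M * q * q) hirr,
    fun x hx => GaussInt.gaussOne_int_fin ι (A.comap ι) (M * q * q) hirr hx⟩

set_option synthInstance.maxHeartbeats 400000 in
set_option maxHeartbeats 4000000 in
set_option maxSynthPendingDepth 3 in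
/-- (CHAIN) holds on the finite chart (`ChartHom.exists_chain_fin`). -/
theorem chainP₁ (Φ : Core36P.LevelPred) (M q : ℕ) [NeZero M] [NeZero q] (hq : q.Prime)
    (A : ValuationSubring Qb) : ChainP₁ Φ M q A := by
  intro L _ _ ι S₀ hlev hirr hΦ πB hπB 𝔫 h𝔫 hπ𝔫
  haveI := hlev.2.2.1
  have e : πB = ChartHom.constB1 (A.comap ι) (M * q * q) ((q : ℕ) : ↥(A.comap ι)) :=
    Subtype.ext hπB
  subst e
  obtain ⟨S₃, hfin, -, hmax, hπ, hch⟩ := ChartHom.exists_chain_fin (A.comap ι) (M * q) q ι hq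
    ((q : ℕ) : ↥(A.comap ι)) q 𝔫 h𝔫 hπ𝔫
  exact ⟨S₃, hfin, hmax, hπ, hch⟩

/-- **(LOC36₁)**: the local Kummer datum on the finite chart from K2 (`Gauss36`) and K4
(`Reg36P₁`). -/
theorem loc36P₁ (Φ : Core36P.LevelPred) (M q p : ℕ) [NeZero M] [NeZero q] (hq : q.Prime)
    (A : ValuationSubring Qb) (hG : Core36.Gauss36 (M * q) q A)
    (hR : RegDefsP.Reg36P₁ Φ M q A) : Core36P.Loc36P₁ Φ (M * q) q p A 1 :=
  loc36P₁_of Φ M q p A hG hR (chainP₁ Φ M q hq A) (ringP₁ M q A)

end Fermat.Agent.S36.Loc36Fin
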