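/-
S36 (wave 8), contract K6 (HLOC-S), the CHAIN: the operators `Ω` and `E36` of
`Fermat.Agent.S36.ConstPow` map horizontal units on a fibre-closed set of primes to horizontal
units on the original set.

Setting: fields `K ⊆ F', F`, two `K`-embeddings `α β : F' → F`, rings `ι' : B' → F'`,
`ι : B → F` and ring homomorphisms `ψα ψβ : B' → B` compatible with `α`, `β`, both integral,
`B'` integrally closed in `F'`, `π = ψα π' = ψβ π'`.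

* `cl ψα ψβ T` : the (`α`-fibre `∪` `β`-fibre)-closure of a set `T` of primes of `B`: all primes
  with the same `ψα`-contraction or the same `ψβ`-contraction as a member of `T`;
* `subset_cl`, `cl_mono`, `isPrime_of_mem_cl`, `isMaximal_of_mem_cl`, `mem_of_mem_cl`,
  `finite_cl` (finite fibres), `finite_fibre_of_finite` (`ψ.Finite` has finite fibres);
* `omega_cl` : `HU ι π (cl T) h → HU ι π T (omega α β h)`;
* `E36_cl`   : `HU ι π (cl (cl (cl T))) h → HU ι π T (E36 α β q h)`;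
* `exists_chain` : for a maximal ideal `𝔫 ∋ π` there is a FINITE set `S₃ ∋ 𝔫` of maximal ideals
  containing `π` with `HU ι π S₃ u → HU ι π {𝔫} (E36 α β q u)` for every `u`.
-/
import Mathlib
import Fermat.Agent.S36.HUnit
import Fermat.Agent.S36.ConstPow

set_option autoImplicit false
set_option linter.style.haveILetI false

noncomputable section

namespace Fermat.Agent.S36.HUChain

open Fermat.Agent.S36.HUnit Fermat.Agent.S36.ConstPow Fermat.Agent.S35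

variable {B B' : Type*} [CommRing B] [CommRing B']

/-- The (`α`-fibre `∪` `β`-fibre)-closure of a set of primes of `B`. -/
def cl (ψα ψβ : B' →+* B) (T : Set (Ideal B)) : Set (Ideal B) :=
  {𝔫₂ | 𝔫₂.IsPrime ∧ ∃ 𝔫 ∈ T, 𝔫₂.comap ψα = 𝔫.comap ψα ∨ 𝔫₂.comap ψβ = 𝔫.comap ψβ}

theorem subset_cl (ψα ψβ : B' →+* B) {T : Set (Ideal B)} (hT : ∀ 𝔫 ∈ T, 𝔫.IsPrime) :
    T ⊆ cl ψα ψβ T :=
  fun 𝔫 h𝔫 => ⟨hT 𝔫 h𝔫, 𝔫, h𝔫, Or.inl rfl⟩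

theorem cl_mono (ψα ψβ : B' →+* B) {T T₁ : Set (Ideal B)} (h : T ⊆ T₁) :
    cl ψα ψβ T ⊆ cl ψα ψβ T₁ :=
  fun _ ⟨hp, 𝔫, h𝔫, hc⟩ => ⟨hp, 𝔫, h h𝔫, hc⟩

theorem isPrime_of_mem_cl (ψα ψβ : B' →+* B) (T : Set (Ideal B)) :
    ∀ 𝔫 ∈ cl ψα ψβ T, 𝔫.IsPrime :=
  fun _ h => h.1

/-- members of the closure of a set of maximal ideals are maximal (`ψα`, `ψβ` integral) -/
theorem isMaximal_of_mem_cl (ψα ψβ : B' →+* B) (hψα : ψα.IsIntegral) (hψβ : ψβ.IsIntegral)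
    {T : Set (Ideal B)} (hT : ∀ 𝔫 ∈ T, 𝔫.IsMaximal) : ∀ 𝔫 ∈ cl ψα ψβ T, 𝔫.IsMaximal := by
  rintro 𝔫₂ ⟨hp, 𝔫, h𝔫, hc | hc⟩
  · haveI := hT 𝔫 h𝔫
    haveI := hp
    have h1 := Ideal.isMaximal_comap_of_isIntegral_of_isMaximal' ψα hψα 𝔫
    rw [← hc] at h1
    exact Ideal.isMaximal_of_isIntegral_of_isMaximal_comap' ψα hψα 𝔫₂ h1
  · haveI := hT 𝔫 h𝔫
    haveI := hp
    have h1 := Ideal.isMaximal_comap_of_isIntegral_of_isMaximal' ψβ hψβ 𝔫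
    rw [← hc] at h1
    exact Ideal.isMaximal_of_isIntegral_of_isMaximal_comap' ψβ hψβ 𝔫₂ h1

/-- if `π = ψα π' = ψβ π'` lies in every member of `T`, it lies in every member of `cl T` -/
theorem mem_of_mem_cl (ψα ψβ : B' →+* B) (π' : B') (π : B) (hπα : ψα π' = π) (hπβ : ψβ π' = π)
    {T : Set (Ideal B)} (hT : ∀ 𝔫 ∈ T, π ∈ 𝔫) : ∀ 𝔫 ∈ cl ψα ψβ T, π ∈ 𝔫 := by
  rintro 𝔫₂ ⟨_, 𝔫, h𝔫, hc | hc⟩
  · have h1 : π' ∈ 𝔫.comap ψα := by rw [Ideal.mem_comap, hπα]; exact hT 𝔫 h𝔫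
    rw [← hc, Ideal.mem_comap, hπα] at h1
    exact h1
  · have h1 : π' ∈ 𝔫.comap ψβ := by rw [Ideal.mem_comap, hπβ]; exact hT 𝔫 h𝔫
    rw [← hc, Ideal.mem_comap, hπβ] at h1
    exact h1

/-- the closure of a finite set is finite when `ψα`, `ψβ` have finite fibres on primes -/
theorem finite_cl (ψα ψβ : B' →+* B)
    (hfα : ∀ 𝔭 : Ideal B', 𝔭.IsPrime → {𝔫 : Ideal B | 𝔫.IsPrime ∧ 𝔫.comap ψα = 𝔭}.Finite)
    (hfβ : ∀ 𝔭 : Ideal B', 𝔭.IsPrime → {𝔫 : Ideal B | 𝔫.IsPrime ∧ 𝔫.comap ψβ = 𝔭}.Finite)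
    {T : Set (Ideal B)} (hT : T.Finite) : (cl ψα ψβ T).Finite := by
  have hfα' : ∀ 𝔭 : Ideal B', {𝔫 : Ideal B | 𝔫.IsPrime ∧ 𝔫.comap ψα = 𝔭}.Finite := by
    intro 𝔭
    by_cases h𝔭 : 𝔭.IsPrime
    · exact hfα 𝔭 h𝔭
    · convert Set.finite_empty
      ext 𝔫
      simp only [Set.mem_ofPred_eq, Set.mem_empty_iff_false, iff_false, not_and]
      intro h𝔫 hc
      haveI := h𝔫
      exact h𝔭 (hc ▸ Ideal.comap_isPrime ψα 𝔫)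
  have hfβ' : ∀ 𝔭 : Ideal B', {𝔫 : Ideal B | 𝔫.IsPrime ∧ 𝔫.comap ψβ = 𝔭}.Finite := by
    intro 𝔭
    by_cases h𝔭 : 𝔭.IsPrime
    · exact hfβ 𝔭 h𝔭
    · convert Set.finite_empty
      ext 𝔫
      simp only [Set.mem_ofPred_eq, Set.mem_empty_iff_false, iff_false, not_and]
      intro h𝔫 hc
      haveI := h𝔫
      exact h𝔭 (hc ▸ Ideal.comap_isPrime ψβ 𝔫)
  refine (hT.biUnion fun 𝔫 _ => (hfα' (𝔫.comap ψα)).union (hfβ' (𝔫.comap ψβ))).subset ?_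
  rintro 𝔫₂ ⟨hp, 𝔫, h𝔫, hc | hc⟩
  · exact Set.mem_biUnion h𝔫 (Or.inl ⟨hp, hc⟩)
  · exact Set.mem_biUnion h𝔫 (Or.inr ⟨hp, hc⟩)

/-- a finite ring homomorphism has finite fibres on primes -/
theorem finite_fibre_of_finite (ψ : B' →+* B) (hψ : ψ.Finite) (𝔭 : Ideal B') :
    {𝔫 : Ideal B | 𝔫.IsPrime ∧ 𝔫.comap ψ = 𝔭}.Finite := by
  letI : Algebra B' B := ψ.toAlgebra
  haveI : Module.Finite B' B := hψ
  refine (Algebra.QuasiFinite.finite_primesOver (S := B) 𝔭).subset ?_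
  rintro 𝔫 ⟨hp, hc⟩
  exact ⟨hp, ⟨hc.symm⟩⟩

section Omega

variable {K F F' : Type*} [Field K] [Field F] [Field F'] [Algebra K F] [Algebra K F']

/-- **(OMEGA-CL)** `Ω` maps horizontal units on `cl T` to horizontal units on `T`. -/
theorem omega_cl (α β : F' →ₐ[K] F)
    (ι' : B' →+* F') (hι' : Function.Injective ι') (ι : B →+* F) (hι : Function.Injective ι)
    (ψα ψβ : B' →+* B) (hψα : ψα.IsIntegral) (hψβ : ψβ.IsIntegral)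
    (hcommα : ∀ b : B', α (ι' b) = ι (ψα b)) (hcommβ : ∀ b : B', β (ι' b) = ι (ψβ b))
    (hclosed : ∀ x : F', ι'.IsIntegralElem x → ∃ b : B', ι' b = x)
    (π' : B') (π : B) (hπα : ψα π' = π) (hπβ : ψβ π' = π)
    (T : Set (Ideal B)) (hT : ∀ 𝔫 ∈ T, 𝔫.IsPrime) {h : F}
    (hh : HU ι π (cl ψα ψβ T) h) : HU ι π T (omega α β h) :=
  HU.omega_step ι' hι' ι hι ψα ψβ hψα hψβ (α : F' →+* F) (β : F' →+* F) hcommα hcommβ hclosed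
    π' π hπα hπβ T (cl ψα ψβ T) hT
    (fun 𝔫 h𝔫 _ h𝔫₂ hc => ⟨h𝔫₂, 𝔫, h𝔫, Or.inl hc⟩)
    (fun 𝔫 h𝔫 _ h𝔫₂ hc => ⟨h𝔫₂, 𝔫, h𝔫, Or.inr hc⟩) hh

/-- **(E36-CL)** `E36` maps horizontal units on `cl (cl (cl T))` to horizontal units on `T`. -/
theorem E36_cl (α β : F' →ₐ[K] F)
    (ι' : B' →+* F') (hι' : Function.Injective ι') (ι : B →+* F) (hι : Function.Injective ι)
    (ψα ψβ : B' →+* B) (hψα : ψα.IsIntegral) (hψβ : ψβ.IsIntegral)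
    (hcommα : ∀ b : B', α (ι' b) = ι (ψα b)) (hcommβ : ∀ b : B', β (ι' b) = ι (ψβ b))
    (hclosed : ∀ x : F', ι'.IsIntegralElem x → ∃ b : B', ι' b = x)
    (π' : B') (π : B) (hπα : ψα π' = π) (hπβ : ψβ π' = π) (q : ℕ)
    (T : Set (Ideal B)) (hT : ∀ 𝔫 ∈ T, 𝔫.IsPrime) {h : F}
    (hh : HU ι π (cl ψα ψβ (cl ψα ψβ (cl ψα ψβ T))) h) : HU ι π T (E36 α β q h) := by
  have hT1 := isPrime_of_mem_cl ψα ψβ T
  have hT2 := isPrime_of_mem_cl ψα ψβ (cl ψα ψβ T)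
  have s01 : T ⊆ cl ψα ψβ T := subset_cl ψα ψβ hT
  have s12 : cl ψα ψβ T ⊆ cl ψα ψβ (cl ψα ψβ T) := subset_cl ψα ψβ hT1
  have s23 : cl ψα ψβ (cl ψα ψβ T) ⊆ cl ψα ψβ (cl ψα ψβ (cl ψα ψβ T)) := subset_cl ψα ψβ hT2
  -- `Ω h` on `cl (cl T)`, `Ω² h` on `cl T`, `Ω³ h` on `T`
  have h1 : HU ι π (cl ψα ψβ (cl ψα ψβ T)) (omega α β h) :=
    omega_cl α β ι' hι' ι hι ψα ψβ hψα hψβ hcommα hcommβ hclosed π' π hπα hπβ _ hT2 hh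
  have h2 : HU ι π (cl ψα ψβ T) (omega α β (omega α β h)) :=
    omega_cl α β ι' hι' ι hι ψα ψβ hψα hψβ hcommα hcommβ hclosed π' π hπα hπβ _ hT1 h1
  have h3 : HU ι π T (omega α β (omega α β (omega α β h))) :=
    omega_cl α β ι' hι' ι hι ψα ψβ hψα hψβ hcommα hcommβ hclosed π' π hπα hπβ _ hT h2
  have h0T : HU ι π T h := hh.mono (s01.trans (s12.trans s23))
  have h1T : HU ι π T (omega α β h) := h1.mono (s01.trans s12)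
  have h2T : HU ι π T (omega α β (omega α β h)) := h2.mono s01
  unfold E36
  exact ((h3.mul ((h2T.inv hι).pow _)).mul (h1T.pow _)).mul ((h0T.inv hι).pow _)

/-- **(CHAIN)** For a maximal ideal `𝔫 ∋ π` there is a finite set `S₃ ∋ 𝔫` of maximal ideals
containing `π` such that `E36` maps horizontal units on `S₃` to horizontal units at `𝔫`. -/
theorem exists_chain (α β : F' →ₐ[K] F)
    (ι' : B' →+* F') (hι' : Function.Injective ι') (ι : B →+* F) (hι : Function.Injective ι)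
    (ψα ψβ : B' →+* B) (hψα : ψα.IsIntegral) (hψβ : ψβ.IsIntegral)
    (hfα : ∀ 𝔭 : Ideal B', 𝔭.IsPrime → {𝔫 : Ideal B | 𝔫.IsPrime ∧ 𝔫.comap ψα = 𝔭}.Finite)
    (hfβ : ∀ 𝔭 : Ideal B', 𝔭.IsPrime → {𝔫 : Ideal B | 𝔫.IsPrime ∧ 𝔫.comap ψβ = 𝔭}.Finite)
    (hcommα : ∀ b : B', α (ι' b) = ι (ψα b)) (hcommβ : ∀ b : B', β (ι' b) = ι (ψβ b))
    (hclosed : ∀ x : F', ι'.IsIntegralElem x → ∃ b : B', ι' b = x)
    (π' : B') (π : B) (hπα : ψα π' = π) (hπβ : ψβ π' = π) (q : ℕ)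
    (𝔫 : Ideal B) (h𝔫 : 𝔫.IsMaximal) (hπ𝔫 : π ∈ 𝔫) :
    ∃ S₃ : Set (Ideal B), S₃.Finite ∧ 𝔫 ∈ S₃ ∧ (∀ 𝔪 ∈ S₃, 𝔪.IsMaximal) ∧ (∀ 𝔪 ∈ S₃, π ∈ 𝔪) ∧
      ∀ u : F, HU ι π S₃ u → HU ι π {𝔫} (E36 α β q u) := by
  have hT0 : ∀ 𝔪 ∈ ({𝔫} : Set (Ideal B)), 𝔪.IsMaximal := by
    rintro 𝔪 rfl
    exact h𝔫
  have hT0p : ∀ 𝔪 ∈ ({𝔫} : Set (Ideal B)), 𝔪.IsPrime := fun 𝔪 h => (hT0 𝔪 h).isPrime
  have hT0π : ∀ 𝔪 ∈ ({𝔫} : Set (Ideal B)), π ∈ 𝔪 := by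
    rintro 𝔪 rfl
    exact hπ𝔫
  refine ⟨cl ψα ψβ (cl ψα ψβ (cl ψα ψβ {𝔫})), ?_, ?_, ?_, ?_, ?_⟩
  · exact finite_cl ψα ψβ hfα hfβ (finite_cl ψα ψβ hfα hfβ
      (finite_cl ψα ψβ hfα hfβ (Set.finite_singleton 𝔫)))
  · exact subset_cl ψα ψβ (isPrime_of_mem_cl ψα ψβ _)
      (subset_cl ψα ψβ (isPrime_of_mem_cl ψα ψβ _) (subset_cl ψα ψβ hT0p rfl))
  · exact isMaximal_of_mem_cl ψα ψβ hψα hψβ (isMaximal_of_mem_cl ψα ψβ hψα hψβ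
      (isMaximal_of_mem_cl ψα ψβ hψα hψβ hT0))
  · exact mem_of_mem_cl ψα ψβ π' π hπα hπβ (mem_of_mem_cl ψα ψβ π' π hπα hπβ
      (mem_of_mem_cl ψα ψβ π' π hπα hπβ hT0π))
  · intro u hu
    exact E36_cl α β ι' hι' ι hι ψα ψβ hψα hψβ hcommα hcommβ hclosed π' π hπα hπβ q _ hT0p hu

end Omega

end Fermat.Agent.S36.HUChain
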