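/-
S36 (wave 8), K7 chart plumbing, part (a): the FINITE chart.

Setting: `W` a valuation subring of the coefficient field `L`, levels `N` and `N * ℓ`
(`ℓ` prime), `α = heckeAlphaBar L N ℓ`, `β = heckeBetaBar L N ℓ : FF L N → FF L (N * ℓ)`.
`B1 W N = integralClosure W[j] (FF L N)` is the finite chart ring (the carrier of
`S34.GLevel.kummer_at_level` / `Core36.Loc36₁`, automatic algebra structures).

* `psiA`, `psiB : B1 W N →+* B1 W (N * ℓ)` : the restrictions of `α`, `β` (`coe_psiA`, `coe_psiB`,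
  `hcommA`, `hcommB`);
* `psiA_isIntegral`, `psiB_isIntegral`, `psiA_finite`, `psiB_finite`;
* `hclosed_B1` : the chart ring is integrally closed in `FF L N` (shape of `HUnit.HU.norm`);
* `constB1 : W →+* B1 W N` (constants), `psiA_constB1`, `psiB_constB1`;
* `exists_chain_fin` : the one-call instance of `HUChain.exists_chain` on the finite chart.

Consumers working with these carriers may need `set_option maxSynthPendingDepth 3` (the
`CommRing` structure on `↥(B1 W N)` is found through a nested instance problem).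
-/
import Mathlib
import Fermat.Agent.S34.GLoc
import Fermat.Agent.S34.BetaInt
import Fermat.Agent.S34.CuspEq
import Fermat.Agent.S34.ChartRing
import Fermat.Agent.S36.HUnit
import Fermat.Agent.S36.ConstPow
import Fermat.Agent.S36.HUChain

set_option autoImplicit false
set_option linter.style.haveILetI false
set_option linter.unusedSectionVars false
set_option linter.unusedVariables false
set_option synthInstance.maxHeartbeats 200000
set_option maxHeartbeats 800000
set_option maxSynthPendingDepth 3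

noncomputable section

namespace Fermat.Agent.S36.ChartHom

open Polynomial ModularCurve Fermat.Agent.S18 Fermat.Agent.S18.Gauss Fermat.Agent.S34
open Fermat.Agent.S36.HUnit

/-! ### Part A: the finite chart -/

section Fin

variable {L : Type} [Field L] [Algebra ℚ L] (W : ValuationSubring L)

/-- instance shortcut (the automatic instance, found slowly) -/
@[reducible] def algWF (N : ℕ) [NeZero N] : Algebra ↥W (S24.FF L N) := Algebra.ofSubsemiring W

attribute [local instance 10000] algWF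

/-- The finite chart ring of level `N`: the integral closure of `W[j]` in `FF L N` (the carrier
of `S34.GLevel.kummer_at_level`). -/
abbrev B1 (N : ℕ) [NeZero N] : Subalgebra ↥(Algebra.adjoin ↥W {S24.jBC L N}) (S24.FF L N) :=
  integralClosure ↥(Algebra.adjoin ↥W {S24.jBC L N}) (S24.FF L N)

variable (N ℓ : ℕ) [NeZero N] [NeZero ℓ]

theorem mem_B1_iff (y : S24.FF L N) : y ∈ B1 W N ↔ (evF W N).IsIntegralElem y :=
  GLoc.isIntegral_adjoin_iff W N y

/-- `α` on the finite charts. -/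
def psiA : ↥(B1 W N) →+* ↥(B1 W (N * ℓ)) :=
  ((heckeAlphaBar L N ℓ).toRingHom.comp (algebraMap ↥(B1 W N) (S24.FF L N))).codRestrict
    (B1 W (N * ℓ))
    (fun b => (mem_B1_iff W (N * ℓ) _).mpr
      (BetaInt.isIntegralElem_alpha W N ℓ ((mem_B1_iff W N _).mp b.2)))

/-- `β` on the finite charts. -/
def psiB (hℓ : ℓ.Prime) : ↥(B1 W N) →+* ↥(B1 W (N * ℓ)) :=
  ((heckeBetaBar L N ℓ).toRingHom.comp (algebraMap ↥(B1 W N) (S24.FF L N))).codRestrict
    (B1 W (N * ℓ))
    (fun b => (mem_B1_iff W (N * ℓ) _).mpr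
      (BetaInt.isIntegralElem_beta W N ℓ hℓ ((mem_B1_iff W N _).mp b.2)))

theorem coe_psiA (b : ↥(B1 W N)) :
    ((psiA W N ℓ b : ↥(B1 W (N * ℓ))) : S24.FF L (N * ℓ)) =
      heckeAlphaBar L N ℓ (b : S24.FF L N) := rfl

theorem coe_psiB (hℓ : ℓ.Prime) (b : ↥(B1 W N)) :
    ((psiB W N ℓ hℓ b : ↥(B1 W (N * ℓ))) : S24.FF L (N * ℓ)) =
      heckeBetaBar L N ℓ (b : S24.FF L N) := rfl

/-- `hcomm` for `α` (the shape of `HUnit.HU.omega_step`). -/
theorem hcommA (b : ↥(B1 W N)) :
    (heckeAlphaBar L N ℓ).toRingHom (algebraMap ↥(B1 W N) (S24.FF L N) b) =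
      algebraMap ↥(B1 W (N * ℓ)) (S24.FF L (N * ℓ)) (psiA W N ℓ b) := rfl

/-- `hcomm` for `β`. -/
theorem hcommB (hℓ : ℓ.Prime) (b : ↥(B1 W N)) :
    (heckeBetaBar L N ℓ).toRingHom (algebraMap ↥(B1 W N) (S24.FF L N) b) =
      algebraMap ↥(B1 W (N * ℓ)) (S24.FF L (N * ℓ)) (psiB W N ℓ hℓ b) := rfl

/-! #### constants -/

/-- a constant of `W` as an element of the finite chart ring -/
def constB1 : ↥W →+* ↥(B1 W N) :=
  ((algebraMap L (S24.FF L N)).comp W.subtype).codRestrict (B1 W N)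
    (fun c => (mem_B1_iff W N _).mpr (by
      have h := (evF W N).isIntegralElem_map (x := C c)
      rwa [evF_C] at h))

theorem coe_constB1 (c : ↥W) :
    ((constB1 W N c : ↥(B1 W N)) : S24.FF L N) = algebraMap L (S24.FF L N) (c : L) := rfl

theorem eq_constB1 {r : ↥(B1 W N)} {c : ↥W}
    (hr : (r : S24.FF L N) = algebraMap L (S24.FF L N) (c : L)) : r = constB1 W N c :=
  Subtype.ext hr

theorem psiA_constB1 (c : ↥W) : psiA W N ℓ (constB1 W N c) = constB1 W (N * ℓ) c :=
  Subtype.ext ((heckeAlphaBar L N ℓ).commutes (c : L))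

theorem psiB_constB1 (hℓ : ℓ.Prime) (c : ↥W) :
    psiB W N ℓ hℓ (constB1 W N c) = constB1 W (N * ℓ) c :=
  Subtype.ext ((heckeBetaBar L N ℓ).commutes (c : L))

/-! #### the chart maps `W[X] → B1` -/

/-- `p ↦ p(j)` into the finite chart ring -/
def chartB1 : (↥W)[X] →+* ↥(B1 W N) :=
  (evF W N).codRestrict (B1 W N)
    (fun p => (mem_B1_iff W N _).mpr ((evF W N).isIntegralElem_map))

theorem coe_chartB1 (p : (↥W)[X]) :
    ((chartB1 W N p : ↥(B1 W N)) : S24.FF L N) = evF W N p := rfl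

theorem chartB1_C (c : ↥W) : chartB1 W N (C c) = constB1 W N c :=
  Subtype.ext (evF_C W N c)

theorem psiA_comp_chartB1 : (psiA W N ℓ).comp (chartB1 W N) = chartB1 W (N * ℓ) := by
  refine RingHom.ext fun p => ?_
  apply Subtype.ext
  have h := congrArg (fun f : (↥W)[X] →+* S24.FF L (N * ℓ) => f p) (BetaInt.alpha_comp_evF W N ℓ)
  exact h

/-! #### integrality -/

/-- integrality over a ring hom into a subalgebra can be tested in the ambient ring -/
theorem isIntegralElem_of_coe {R A T : Type*} [CommRing R] [CommRing A] [CommRing T]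
    [Algebra A T] (S : Subalgebra A T) (φ : R →+* ↥S) (x : ↥S)
    (hx : ((algebraMap ↥S T).comp φ).IsIntegralElem (x : T)) : φ.IsIntegralElem x := by
  obtain ⟨P, hP, hPx⟩ := hx
  refine ⟨P, hP, Subtype.ext ?_⟩
  have h := Polynomial.hom_eval₂ P φ (algebraMap ↥S T) x
  rw [ZeroMemClass.coe_zero]
  exact h.trans hPx

theorem isIntegralElem_of_comp {R R' T : Type*} [CommRing R] [CommRing R'] [CommRing T]
    (g : R →+* R') (φ : R' →+* T) {x : T} (hx : (φ.comp g).IsIntegralElem x) :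
    φ.IsIntegralElem x := by
  obtain ⟨P, hP, hPx⟩ := hx
  exact ⟨P.map g, hP.map g, by rw [eval₂_map]; exact hPx⟩

/-- every element of the finite chart ring is integral over `W[j]` (ring-hom form) -/
theorem chartB1_isIntegral : (chartB1 W N).IsIntegral := fun x =>
  isIntegralElem_of_coe (B1 W N) (chartB1 W N) x ((mem_B1_iff W N _).mp x.2)

/-- **`ψα` is integral.** -/
theorem psiA_isIntegral : (psiA W N ℓ).IsIntegral := fun x =>
  isIntegralElem_of_comp (chartB1 W N) (psiA W N ℓ)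
    (by rw [psiA_comp_chartB1]; exact chartB1_isIntegral W (N * ℓ) x)

/-- **`ψβ` is integral.** -/
theorem psiB_isIntegral (hℓ : ℓ.Prime) : (psiB W N ℓ hℓ).IsIntegral := by
  intro x
  refine BetaInt.isIntegralElem_trans (psiB W N ℓ hℓ) (chartB1 W (N * ℓ)) ?_ x
    (chartB1_isIntegral W (N * ℓ) x)
  intro p
  induction p using Polynomial.induction_on with
  | C a =>
    rw [chartB1_C, ← psiB_constB1 W N ℓ hℓ]
    exact RingHom.isIntegralElem_map _
  | add p q hp hq =>
    rw [map_add]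
    exact RingHom.IsIntegralElem.add _ hp hq
  | monomial n a ih =>
    rw [pow_succ, ← mul_assoc, map_mul]
    refine RingHom.IsIntegralElem.mul _ ih ?_
    apply isIntegralElem_of_coe (B1 W (N * ℓ)) (psiB W N ℓ hℓ)
    apply isIntegralElem_of_comp (chartB1 W N)
    have h := CuspEq.isIntegralElem_j_beta W N ℓ hℓ
    have e : ((algebraMap ↥(B1 W (N * ℓ)) (S24.FF L (N * ℓ))).comp (psiB W N ℓ hℓ)).comp
        (chartB1 W N) = CuspEq.evBeta W N ℓ := rfl
    rw [e]
    have e2 : ((chartB1 W (N * ℓ) X : ↥(B1 W (N * ℓ))) : S24.FF L (N * ℓ)) =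
        S24.jBC L (N * ℓ) := evF_X W (N * ℓ)
    rw [e2]
    exact h

/-- **`hclosed`** (the shape of `HUnit.HU.norm`): the finite chart ring is integrally closed in
its function field. -/
theorem hclosed_B1 (x : S24.FF L N)
    (hx : (algebraMap ↥(B1 W N) (S24.FF L N)).IsIntegralElem x) :
    ∃ b : ↥(B1 W N), algebraMap ↥(B1 W N) (S24.FF L N) b = x := by
  have h1 : IsIntegral ↥(B1 W N) x := hx
  have h2 : IsIntegral ↥(Algebra.adjoin ↥W {S24.jBC L N}) x := isIntegral_trans x h1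
  exact ⟨⟨x, h2⟩, rfl⟩

theorem injective_B1 : Function.Injective (algebraMap ↥(B1 W N) (S24.FF L N)) :=
  Subtype.val_injective

/-! #### conversions to the currencies of `HEnd` / `Core36` -/

theorem constB1_eq_algebraMap (c : ↥W) :
    constB1 W N c = algebraMap ↥(Algebra.adjoin ↥W {S24.jBC L N}) ↥(B1 W N)
      (algebraMap ↥W ↥(Algebra.adjoin ↥W {S24.jBC L N}) c) := rfl

theorem algebraMap_B1_eq :
    algebraMap ↥(B1 W N) (S24.FF L N) = (B1 W N).val.toRingHom := rfl

/-- the hypothesis `hπ𝔫` of `Core36.Loc36₁` / `kummer_at_level` gives `constB1 c ∈ 𝔫` -/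
theorem constB1_mem (c : ↥W) (𝔫 : Ideal ↥(B1 W N))
    (h : ∀ r : ↥(B1 W N), (r : S24.FF L N) = algebraMap ↥W (S24.FF L N) c → r ∈ 𝔫) :
    constB1 W N c ∈ 𝔫 := h _ rfl

/-! #### finiteness -/

section Finite

variable [IsDiscreteValuationRing ↥W] (ι : L →+* AlgebraicClosure ℚ)

include ι

/-- the finite chart ring is a finite `W[j]`-module -/
theorem module_finite_B1 :
    Module.Finite ↥(Algebra.adjoin ↥W {S24.jBC L N}) ↥(B1 W N) := by
  haveI : CharZero L := algebraRat.charZero L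
  haveI : IsScalarTower ↥W L (S24.FF L N) := IsScalarTower.of_algebraMap_eq (fun _ => rfl)
  haveI : FiniteDimensional (IntermediateField.adjoin L {S24.jBC L N}) (S24.FF L N) :=
    (Gauss.finrank_FF_le (L := L) (N := N)).1
  exact ChartRing.module_finite (W := ↥W) (S24.jBC L N) (Bridge.transcendental_j ι N)

/-- the finite chart ring is a `W`-algebra of finite type -/
theorem constB1_finiteType : (constB1 W N).FiniteType := by
  have h1 : (algebraMap ↥W ↥(Algebra.adjoin ↥W {S24.jBC L N})).FiniteType := by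
    refine RingHom.finiteType_algebraMap.mpr ((Subalgebra.fg_iff_finiteType _).mp ?_)
    have h := Subalgebra.fg_adjoin_finset (R := ↥W) ({S24.jBC L N} : Finset (S24.FF L N))
    rwa [Finset.coe_singleton] at h
  have h2 : (algebraMap ↥(Algebra.adjoin ↥W {S24.jBC L N}) ↥(B1 W N)).FiniteType :=
    RingHom.Finite.to_finiteType (RingHom.finite_algebraMap.mpr (module_finite_B1 W N ι))
  have e : constB1 W N = (algebraMap ↥(Algebra.adjoin ↥W {S24.jBC L N}) ↥(B1 W N)).comp
      (algebraMap ↥W ↥(Algebra.adjoin ↥W {S24.jBC L N})) :=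
    RingHom.ext fun c => Subtype.ext rfl
  rw [e]
  exact h2.comp h1

/-- **`ψα` is finite.** -/
theorem psiA_finite : (psiA W N ℓ).Finite := by
  refine RingHom.IsIntegral.to_finite (psiA_isIntegral W N ℓ) ?_
  refine RingHom.FiniteType.of_comp_finiteType (f := constB1 W N) ?_
  have e : (psiA W N ℓ).comp (constB1 W N) = constB1 W (N * ℓ) :=
    RingHom.ext (psiA_constB1 W N ℓ)
  rw [e]
  exact constB1_finiteType W (N * ℓ) ι

/-- **`ψβ` is finite.** -/
theorem psiB_finite (hℓ : ℓ.Prime) : (psiB W N ℓ hℓ).Finite := by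
  refine RingHom.IsIntegral.to_finite (psiB_isIntegral W N ℓ hℓ) ?_
  refine RingHom.FiniteType.of_comp_finiteType (f := constB1 W N) ?_
  have e : (psiB W N ℓ hℓ).comp (constB1 W N) = constB1 W (N * ℓ) :=
    RingHom.ext (psiB_constB1 W N ℓ hℓ)
  rw [e]
  exact constB1_finiteType W (N * ℓ) ι

/-- **The chain on the finite chart (one call).**  For a maximal ideal `𝔫 ∋ c` (`c` a constant of
`W`, e.g. the uniformiser) of the finite chart ring of level `N ℓ` there is a finite set
`S₃ ∋ 𝔫` of maximal ideals containing `c` such that `E36` (for the two degeneracy maps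
`FF L N → FF L (N ℓ)`) maps horizontal units on `S₃` to horizontal units at `𝔫`. -/
theorem exists_chain_fin (hℓ : ℓ.Prime) (c : ↥W) (q : ℕ)
    (𝔫 : Ideal ↥(B1 W (N * ℓ))) (h𝔫 : 𝔫.IsMaximal) (hπ𝔫 : constB1 W (N * ℓ) c ∈ 𝔫) :
    ∃ S₃ : Set (Ideal ↥(B1 W (N * ℓ))), S₃.Finite ∧ 𝔫 ∈ S₃ ∧ (∀ 𝔪 ∈ S₃, 𝔪.IsMaximal) ∧
      (∀ 𝔪 ∈ S₃, constB1 W (N * ℓ) c ∈ 𝔪) ∧
      ∀ u : S24.FF L (N * ℓ),
        HU (algebraMap ↥(B1 W (N * ℓ)) (S24.FF L (N * ℓ))) (constB1 W (N * ℓ) c) S₃ u →
        HU (algebraMap ↥(B1 W (N * ℓ)) (S24.FF L (N * ℓ))) (constB1 W (N * ℓ) c) {𝔫}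
          (ConstPow.E36 (heckeAlphaBar L N ℓ) (heckeBetaBar L N ℓ) q u) :=
  HUChain.exists_chain (heckeAlphaBar L N ℓ) (heckeBetaBar L N ℓ)
    (algebraMap ↥(B1 W N) (S24.FF L N)) (injective_B1 W N)
    (algebraMap ↥(B1 W (N * ℓ)) (S24.FF L (N * ℓ))) (injective_B1 W (N * ℓ))
    (psiA W N ℓ) (psiB W N ℓ hℓ) (psiA_isIntegral W N ℓ) (psiB_isIntegral W N ℓ hℓ)
    (fun 𝔭 _ => HUChain.finite_fibre_of_finite _ (psiA_finite W N ℓ ι) 𝔭)
    (fun 𝔭 _ => HUChain.finite_fibre_of_finite _ (psiB_finite W N ℓ ι hℓ) 𝔭)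
    (hcommA W N ℓ) (hcommB W N ℓ hℓ) (hclosed_B1 W N)
    (constB1 W N c) (constB1 W (N * ℓ) c) (psiA_constB1 W N ℓ c) (psiB_constB1 W N ℓ hℓ c)
    q 𝔫 h𝔫 hπ𝔫

end Finite

end Fin

end Fermat.Agent.S36.ChartHom
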