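/-
S36 (wave 8), contract K4 on the finite chart: the ASSEMBLY of `RegDefsP.Reg36P₁ Φ M q A`
("horizontal primes through the closed points of the special fibre of the finite chart of level
`M q²` are locally principal") from three clauses, stated on the LITERAL chart rings
`ChartHom.B1 W N = integralClosure W[j] (FF L N)`, `W = A.comap ι`, `ψβ = ChartHom.psiB`
(the restriction of `β₂ = heckeBetaBar L (M q) q`), `𝔭₁ = {b | rd (coe b) = 0}` the first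
branch of the chart of level `M q`:

* `ClauseA` : K4 at the maximal ideals `𝔫` of level `M q²` with `ψβ(𝔭₁) ⊆ 𝔫`, given a local
  generator of `𝔭₁` at `ψβ⁻¹(𝔫)` (`hz`);
* `ClauseN` : `𝔭₁` is locally principal at the nodes of the chart of level `M q` (thickness one);
* `ClauseII` : K4 at the maximal ideals `𝔫 ∋ q` of level `M q²` with `ψβ(𝔭₁) ⊄ 𝔫`.

`reg36P₁_of_clauses` : the three clauses give `Reg36P₁ Φ M q A`.  At a point `ν = ψβ⁻¹(𝔫) ⊇ 𝔭₁`
which is not a node (the second branch `𝔭₂ = {b | rd (coe (w b)) = 0}` does not pass through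
`ν`), `𝔭₁` is generated by `q` at `ν` (`𝔭₁ ∩ 𝔭₂ = (q)`, `FinDich.s1_fin_level`); this is proved
here (`hz_smooth`).
-/
import Mathlib
import Fermat.Agent.S34.FrobPartner
import Fermat.Agent.S34.FinDich
import Fermat.Agent.S36.ChartHom
import Fermat.Agent.S36.RegDefsP

set_option autoImplicit false
set_option linter.style.haveILetI false
set_option linter.unusedSectionVars false
set_option maxSynthPendingDepth 3

noncomputable section

namespace Fermat.Agent.S36.RegFin36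

open Polynomial ModularCurve Fermat.Agent.S18 Fermat.Agent.S18.Gauss Fermat.Agent.S34
  Fermat.Agent.S37 Fermat.Agent.S36.Core36P Fermat.Agent.S36.ChartHom

local notation "Qb" => AlgebraicClosure ℚ

/-! ### The clause currency -/

section Defs

variable {L : Type} [Field L] [Algebra ℚ L] (W : ValuationSubring L)

/-- membership in the first branch `𝔭₁ = ker (rd ∘ coe)` of the finite chart of level `N` -/
def Br₁ (N : ℕ) [NeZero N] (b : ↥(B1 W N)) : Prop :=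
  TwoGauss.rd W (((b : S24.FF L N) : S24.FF L N) : LaurentSeries L) = 0

/-- membership in the branch `ker (rd ∘ coe ∘ w)` of the finite chart of level `N`, for an
automorphism `w` of the function field -/
def Br₂ (N : ℕ) [NeZero N] (w : S24.FF L N ≃ₐ[L] S24.FF L N) (b : ↥(B1 W N)) : Prop :=
  TwoGauss.rd W ((w (b : S24.FF L N) : S24.FF L N) : LaurentSeries L) = 0

/-- **K4 at a point `𝔫`** of the finite chart of level `N`: every prime `𝔮 ≤ 𝔫` not containing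
the constant `c` is principal in the local ring at `𝔫`. -/
def K4At (N : ℕ) [NeZero N] (c : ↥W) (𝔫 : Ideal ↥(B1 W N)) : Prop :=
  ∀ 𝔮 : Ideal ↥(B1 W N), 𝔮.IsPrime → 𝔮 ≤ 𝔫 → constB1 W N c ∉ 𝔮 →
    ∃ x ∈ 𝔮, ∃ d, d ∉ 𝔫 ∧ ∀ y ∈ 𝔮, x ∣ d * y

end Defs

/-- **Clause (A)**: K4 at the maximal ideals `𝔫 ∋ q` of the chart of level `M q²` lying over a
point of the first branch of level `M q` (`ψβ(𝔭₁) ⊆ 𝔫`), given a local generator of `𝔭₁` at
`ψβ⁻¹(𝔫)`. -/
def ClauseA (Φ : LevelPred) (M q : ℕ) [NeZero M] [NeZero q] (hq : q.Prime)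
    (A : ValuationSubring Qb) : Prop :=
  ∃ S₀ : Finset Qb, (∀ a ∈ S₀, ∀ τ ∈ A.inertiaSubgroupIn ℚ, τ a = a) ∧
    ∀ (L : Type) [Field L] [Algebra ℚ L] (ι : L →+* Qb),
      LevelChange.IsLevel A q S₀ ι → Irreducible ((q : ℕ) : ↥(A.comap ι)) → Φ L ι →
      ∀ 𝔫 : Ideal ↥(B1 (A.comap ι) (M * q * q)), 𝔫.IsMaximal →
        constB1 (A.comap ι) (M * q * q) ((q : ℕ) : ↥(A.comap ι)) ∈ 𝔫 →
        (∀ b : ↥(B1 (A.comap ι) (M * q)), Br₁ (A.comap ι) (M * q) b →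
          psiB (A.comap ι) (M * q) q hq b ∈ 𝔫) →
        (∃ z₀ s : ↥(B1 (A.comap ι) (M * q)), Br₁ (A.comap ι) (M * q) z₀ ∧
          psiB (A.comap ι) (M * q) q hq s ∉ 𝔫 ∧
          ∀ b : ↥(B1 (A.comap ι) (M * q)), Br₁ (A.comap ι) (M * q) b → z₀ ∣ s * b) →
        K4At (A.comap ι) (M * q * q) ((q : ℕ) : ↥(A.comap ι)) 𝔫

/-- **Clause (N)**: thickness one — at a node `ν` of the chart of level `M q` (both branches pass
through `ν`) the first branch `𝔭₁` is locally principal. -/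
def ClauseN (Φ : LevelPred) (M q : ℕ) [NeZero M] [NeZero q] (A : ValuationSubring Qb) : Prop :=
  ∃ S₀ : Finset Qb, (∀ a ∈ S₀, ∀ τ ∈ A.inertiaSubgroupIn ℚ, τ a = a) ∧
    ∀ (L : Type) [Field L] [Algebra ℚ L] (ι : L →+* Qb),
      LevelChange.IsLevel A q S₀ ι → Irreducible ((q : ℕ) : ↥(A.comap ι)) → Φ L ι →
      ∀ w : S24.FF L (M * q) ≃ₐ[L] S24.FF L (M * q),
        (w : S24.FF L (M * q) →ₐ[L] S24.FF L (M * q)).comp (heckeAlphaBar L M q) =
          heckeBetaBar L M q →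
        (w : S24.FF L (M * q) →ₐ[L] S24.FF L (M * q)).comp (heckeBetaBar L M q) =
          heckeAlphaBar L M q →
        ∀ ν : Ideal ↥(B1 (A.comap ι) (M * q)), ν.IsMaximal →
          (∀ b : ↥(B1 (A.comap ι) (M * q)), Br₁ (A.comap ι) (M * q) b → b ∈ ν) →
          (∀ b : ↥(B1 (A.comap ι) (M * q)), Br₂ (A.comap ι) (M * q) w b → b ∈ ν) →
          ∃ z₀ s : ↥(B1 (A.comap ι) (M * q)), Br₁ (A.comap ι) (M * q) z₀ ∧ s ∉ ν ∧
            ∀ b : ↥(B1 (A.comap ι) (M * q)), Br₁ (A.comap ι) (M * q) b → z₀ ∣ s * b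

/-- **Clause (II)**: K4 at the maximal ideals `𝔫 ∋ q` of the chart of level `M q²` which do NOT
lie over a point of the first branch of level `M q` (`ψβ(𝔭₁) ⊄ 𝔫`). -/
def ClauseII (Φ : LevelPred) (M q : ℕ) [NeZero M] [NeZero q] (hq : q.Prime)
    (A : ValuationSubring Qb) : Prop :=
  ∃ S₀ : Finset Qb, (∀ a ∈ S₀, ∀ τ ∈ A.inertiaSubgroupIn ℚ, τ a = a) ∧
    ∀ (L : Type) [Field L] [Algebra ℚ L] (ι : L →+* Qb),
      LevelChange.IsLevel A q S₀ ι → Irreducible ((q : ℕ) : ↥(A.comap ι)) → Φ L ι →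
      ∀ 𝔫 : Ideal ↥(B1 (A.comap ι) (M * q * q)), 𝔫.IsMaximal →
        constB1 (A.comap ι) (M * q * q) ((q : ℕ) : ↥(A.comap ι)) ∈ 𝔫 →
        ¬ (∀ b : ↥(B1 (A.comap ι) (M * q)), Br₁ (A.comap ι) (M * q) b →
          psiB (A.comap ι) (M * q) q hq b ∈ 𝔫) →
        K4At (A.comap ι) (M * q * q) ((q : ℕ) : ↥(A.comap ι)) 𝔫

/-! ### The smooth points of the first branch -/

section Smooth

variable {L : Type} [Field L] [Algebra ℚ L] (ι : L →+* Qb) (W : ValuationSubring L)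
  [IsDiscreteValuationRing ↥W] (M q : ℕ) [NeZero M] [NeZero q]

theorem coe_mem (N : ℕ) [NeZero N] (b : ↥(B1 W N)) :
    (((b : S24.FF L N) : S24.FF L N) : LaurentSeries L) ∈ contentRing W :=
  FrobPartner.mem_contentRing_of_int W N ((mem_B1_iff W N _).mp b.2)

theorem coe_w_mem (hq : q.Prime) (w : S24.FF L (M * q) ≃ₐ[L] S24.FF L (M * q))
    (hwα : (w : S24.FF L (M * q) →ₐ[L] S24.FF L (M * q)).comp (heckeAlphaBar L M q) =
      heckeBetaBar L M q) (b : ↥(B1 W (M * q))) :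
    ((w (b : S24.FF L (M * q)) : S24.FF L (M * q)) : LaurentSeries L) ∈ contentRing W :=
  FrobPartner.mem_contentRing_of_int W (M * q)
    (CompInst.isIntegralElem_atkin W M q hq w hwα ((mem_B1_iff W (M * q) _).mp b.2))

/-- the uniformiser lies on the first branch -/
theorem br₁_const {π : ↥W} (hπ : Irreducible π) (N : ℕ) [NeZero N] :
    Br₁ W N (constB1 W N π) := by
  unfold Br₁
  rw [coe_constB1, GaussPrime.coe_unif π, TwoGauss.rd_of_mem W (C_mem_contentRing W π)]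
  exact red_C_unif W hπ

theorem br₁_mul_right (N : ℕ) [NeZero N] (s b : ↥(B1 W N)) (hb : Br₁ W N b) :
    Br₁ W N (s * b) := by
  unfold Br₁ at hb ⊢
  have e : ((((s * b : ↥(B1 W N)) : S24.FF L N) : S24.FF L N) : LaurentSeries L) =
      (((s : S24.FF L N) : S24.FF L N) : LaurentSeries L) *
        (((b : S24.FF L N) : S24.FF L N) : LaurentSeries L) := rfl
  rw [e, TwoGauss.rd_mul W (coe_mem W N s) (coe_mem W N b), hb, mul_zero]

theorem br₂_mul_left (hq : q.Prime) (w : S24.FF L (M * q) ≃ₐ[L] S24.FF L (M * q))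
    (hwα : (w : S24.FF L (M * q) →ₐ[L] S24.FF L (M * q)).comp (heckeAlphaBar L M q) =
      heckeBetaBar L M q) (s b : ↥(B1 W (M * q))) (hs : Br₂ W (M * q) w s) :
    Br₂ W (M * q) w (s * b) := by
  unfold Br₂ at hs ⊢
  have e : ((w ((s * b : ↥(B1 W (M * q))) : S24.FF L (M * q)) : S24.FF L (M * q)) :
        LaurentSeries L) =
      ((w (s : S24.FF L (M * q)) : S24.FF L (M * q)) : LaurentSeries L) *
        ((w (b : S24.FF L (M * q)) : S24.FF L (M * q)) : LaurentSeries L) := by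
    have e0 : (((s * b : ↥(B1 W (M * q))) : S24.FF L (M * q))) =
        (s : S24.FF L (M * q)) * (b : S24.FF L (M * q)) := rfl
    rw [e0, map_mul]
    rfl
  rw [e, TwoGauss.rd_mul W (coe_w_mem W M q hq w hwα s) (coe_w_mem W M q hq w hwα b), hs,
    zero_mul]

include ι in
/-- **(S1)** on the literal chart: the two branches meet in `(π)`. -/
theorem dvd_of_br₁_br₂ [Fact q.Prime] [CharP (IsLocalRing.ResidueField ↥W) q]
    (hq : q.Prime) (hqM : ¬ q ∣ M) {π : ↥W} (hπ : Irreducible π)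
    (w : S24.FF L (M * q) ≃ₐ[L] S24.FF L (M * q))
    (hwα : (w : S24.FF L (M * q) →ₐ[L] S24.FF L (M * q)).comp (heckeAlphaBar L M q) =
      heckeBetaBar L M q)
    (hwβ : (w : S24.FF L (M * q) →ₐ[L] S24.FF L (M * q)).comp (heckeBetaBar L M q) =
      heckeAlphaBar L M q)
    (x : ↥(B1 W (M * q))) (h1 : Br₁ W (M * q) x) (h2 : Br₂ W (M * q) w x) :
    constB1 W (M * q) π ∣ x := by
  have hint := (mem_B1_iff W (M * q) _).mp x.2
  have hm1 := coe_mem W (M * q) x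
  have hm2 := coe_w_mem W M q hq w hwα x
  unfold Br₁ at h1
  unfold Br₂ at h2
  rw [TwoGauss.rd_of_mem W hm1] at h1
  rw [TwoGauss.rd_of_mem W hm2] at h2
  obtain ⟨y, hyI, hy⟩ := FinDich.s1_fin_level ι W M q hqM hπ w hwα hwβ
    (x : S24.FF L (M * q)) hint hm1 hm2 h1 h2
  exact ⟨⟨y, (mem_B1_iff W (M * q) y).mpr hyI⟩, Subtype.ext hy⟩

include ι in
/-- **`hz` at a smooth point of the first branch**: if the second branch does not pass through
`ν`, then `𝔭₁` is generated by `π` at `ν`. -/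
theorem hz_smooth [Fact q.Prime] [CharP (IsLocalRing.ResidueField ↥W) q]
    (hq : q.Prime) (hqM : ¬ q ∣ M) {π : ↥W} (hπ : Irreducible π)
    (w : S24.FF L (M * q) ≃ₐ[L] S24.FF L (M * q))
    (hwα : (w : S24.FF L (M * q) →ₐ[L] S24.FF L (M * q)).comp (heckeAlphaBar L M q) =
      heckeBetaBar L M q)
    (hwβ : (w : S24.FF L (M * q) →ₐ[L] S24.FF L (M * q)).comp (heckeBetaBar L M q) =
      heckeAlphaBar L M q)
    (ν : Ideal ↥(B1 W (M * q)))
    (hsm : ¬ ∀ b : ↥(B1 W (M * q)), Br₂ W (M * q) w b → b ∈ ν) :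
    ∃ z₀ s : ↥(B1 W (M * q)), Br₁ W (M * q) z₀ ∧ s ∉ ν ∧
      ∀ b : ↥(B1 W (M * q)), Br₁ W (M * q) b → z₀ ∣ s * b := by
  push Not at hsm
  obtain ⟨s, hs2, hsν⟩ := hsm
  exact ⟨constB1 W (M * q) π, s, br₁_const W hπ (M * q), hsν, fun b hb =>
    dvd_of_br₁_br₂ ι W M q hq hqM hπ w hwα hwβ (s * b) (br₁_mul_right W (M * q) s b hb)
      (br₂_mul_left W M q hq w hwα s b hs2)⟩

end Smooth

/-! ### The assembly -/

section Level

variable {L : Type} [Field L] [Algebra ℚ L] (ι : L →+* Qb) (W : ValuationSubring L)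
  [IsDiscreteValuationRing ↥W] (M q : ℕ) [NeZero M] [NeZero q]

include ι in
/-- **K4 at a level from the three clauses at that level.** -/
theorem k4At_of_level [Fact q.Prime] [CharP (IsLocalRing.ResidueField ↥W) q]
    (hq : q.Prime) (hqM : ¬ q ∣ M) {π : ↥W} (hπ : Irreducible π)
    (hA : ∀ 𝔫 : Ideal ↥(B1 W (M * q * q)), 𝔫.IsMaximal → constB1 W (M * q * q) π ∈ 𝔫 →
      (∀ b : ↥(B1 W (M * q)), Br₁ W (M * q) b → psiB W (M * q) q hq b ∈ 𝔫) →
      (∃ z₀ s : ↥(B1 W (M * q)), Br₁ W (M * q) z₀ ∧ psiB W (M * q) q hq s ∉ 𝔫 ∧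
        ∀ b : ↥(B1 W (M * q)), Br₁ W (M * q) b → z₀ ∣ s * b) →
      K4At W (M * q * q) π 𝔫)
    (hN : ∀ w : S24.FF L (M * q) ≃ₐ[L] S24.FF L (M * q),
      (w : S24.FF L (M * q) →ₐ[L] S24.FF L (M * q)).comp (heckeAlphaBar L M q) =
        heckeBetaBar L M q →
      (w : S24.FF L (M * q) →ₐ[L] S24.FF L (M * q)).comp (heckeBetaBar L M q) =
        heckeAlphaBar L M q →
      ∀ ν : Ideal ↥(B1 W (M * q)), ν.IsMaximal →
        (∀ b : ↥(B1 W (M * q)), Br₁ W (M * q) b → b ∈ ν) →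
        (∀ b : ↥(B1 W (M * q)), Br₂ W (M * q) w b → b ∈ ν) →
        ∃ z₀ s : ↥(B1 W (M * q)), Br₁ W (M * q) z₀ ∧ s ∉ ν ∧
          ∀ b : ↥(B1 W (M * q)), Br₁ W (M * q) b → z₀ ∣ s * b)
    (hII : ∀ 𝔫 : Ideal ↥(B1 W (M * q * q)), 𝔫.IsMaximal → constB1 W (M * q * q) π ∈ 𝔫 →
      ¬ (∀ b : ↥(B1 W (M * q)), Br₁ W (M * q) b → psiB W (M * q) q hq b ∈ 𝔫) →
      K4At W (M * q * q) π 𝔫)
    (𝔫 : Ideal ↥(B1 W (M * q * q))) (h𝔫 : 𝔫.IsMaximal) (hc𝔫 : constB1 W (M * q * q) π ∈ 𝔫) :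
    K4At W (M * q * q) π 𝔫 := by
  by_cases hcase : ∀ b : ↥(B1 W (M * q)), Br₁ W (M * q) b → psiB W (M * q) q hq b ∈ 𝔫
  · obtain ⟨w, hwα, hwβ⟩ := FrobPartner.exists_atkinLehner_level ι M q hq hqM
    have hz' : ∃ z₀ s : ↥(B1 W (M * q)), Br₁ W (M * q) z₀ ∧
        s ∉ 𝔫.comap (psiB W (M * q) q hq) ∧
        ∀ b : ↥(B1 W (M * q)), Br₁ W (M * q) b → z₀ ∣ s * b := by
      by_cases hnode : ∀ b : ↥(B1 W (M * q)), Br₂ W (M * q) w b →
          b ∈ 𝔫.comap (psiB W (M * q) q hq)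
      · haveI := h𝔫
        have hνmax : (𝔫.comap (psiB W (M * q) q hq)).IsMaximal :=
          Ideal.isMaximal_comap_of_isIntegral_of_isMaximal' _
            (psiB_isIntegral W (M * q) q hq) 𝔫
        exact hN w hwα hwβ _ hνmax (fun b hb => Ideal.mem_comap.mpr (hcase b hb)) hnode
      · exact hz_smooth ι W M q hq hqM hπ w hwα hwβ _ hnode
    obtain ⟨z₀, s, h1, hs, h3⟩ := hz'
    exact hA 𝔫 h𝔫 hc𝔫 hcase ⟨z₀, s, h1, fun h => hs (Ideal.mem_comap.mpr h), h3⟩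
  · exact hII 𝔫 h𝔫 hc𝔫 hcase

end Level

/-- **(REG36₁) from the three clauses.** -/
theorem reg36P₁_of_clauses (Φ : LevelPred) (M q : ℕ) [NeZero M] [NeZero q] (hq : q.Prime)
    (hqM : ¬ q ∣ M) (A : ValuationSubring Qb)
    (hA : ClauseA Φ M q hq A) (hN : ClauseN Φ M q A) (hII : ClauseII Φ M q hq A) :
    RegDefsP.Reg36P₁ Φ M q A := by
  obtain ⟨S₁, hS₁, h₁⟩ := hA
  obtain ⟨S₂, hS₂, h₂⟩ := hN
  obtain ⟨S₃, hS₃, h₃⟩ := hII
  refine ⟨S₁ ∪ S₂ ∪ S₃, ?_, ?_⟩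
  · intro a ha
    rcases Finset.mem_union.mp ha with ha | ha
    · rcases Finset.mem_union.mp ha with ha | ha
      · exact hS₁ a ha
      · exact hS₂ a ha
    · exact hS₃ a ha
  intro L _ _ ι hlev hirr hΦ 𝔫 h𝔫 hq𝔫 𝔮 h𝔮 h𝔮𝔫 hq𝔮
  have hl₁ : LevelChange.IsLevel A q S₁ ι := GalLevel.isLevel_mono hlev
    (Finset.subset_union_left.trans Finset.subset_union_left)
  have hl₂ : LevelChange.IsLevel A q S₂ ι := GalLevel.isLevel_mono hlev
    (Finset.subset_union_right.trans Finset.subset_union_left)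
  have hl₃ : LevelChange.IsLevel A q S₃ ι := GalLevel.isLevel_mono hlev
    Finset.subset_union_right
  obtain ⟨-, -, hdvr, -, -, hchar, -, -⟩ := hlev
  haveI := hdvr
  haveI := hchar
  haveI : Fact q.Prime := ⟨hq⟩
  have hc𝔫 : constB1 (A.comap ι) (M * q * q) ((q : ℕ) : ↥(A.comap ι)) ∈ 𝔫 := hq𝔫 _ rfl
  have hc𝔮 : constB1 (A.comap ι) (M * q * q) ((q : ℕ) : ↥(A.comap ι)) ∉ 𝔮 := by
    obtain ⟨r, hr, hr𝔮⟩ := hq𝔮
    have e : r = constB1 (A.comap ι) (M * q * q) ((q : ℕ) : ↥(A.comap ι)) := Subtype.ext hr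
    rwa [e] at hr𝔮
  exact k4At_of_level ι (A.comap ι) M q hq hqM hirr (h₁ L ι hl₁ hirr hΦ) (h₂ L ι hl₂ hirr hΦ)
    (h₃ L ι hl₃ hirr hΦ) 𝔫 h𝔫 hc𝔫 𝔮 h𝔮 h𝔮𝔫 hc𝔮

end Fermat.Agent.S36.RegFin36
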