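import Mathlib
import Fermat.Agent.S36.NodeOver
import Fermat.Agent.S34.CompInst
import Fermat.Agent.S34.FinDichLevel
import Fermat.Agent.S34.TwoGauss
import Fermat.Agent.S37.GaussNoeth

/-!
# S36 (R-ss), (T1-inst): the nodes of the finite chart of level `M q` are monogenic over level `M`

Instance of `NodeOver.node_over` on the carriers of `S34.CompInst.finite_chart_point_aux`:
`BM`, `B` integral closures of `W[X]` (`X ↦ j`) in `FF L M`, `FF L (M * q)`; an algebra structure
`BM → B` inducing `α = heckeAlphaBar` (hypothesis `hα`); `𝔫` a maximal ideal of `B` containing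
the kernels of the two reductions `red ∘ coe`, `red ∘ coe ∘ w` (a node), `P = α⁻¹ 𝔫`,
`R0 = BM_P`, `R1 = B_𝔫` (any localisations, with `R0 → R1` compatible).

* `node_mono_chart` : raw inputs as in `CompInst.finite_chart_point_aux`, with (K) in ring-hom
  form (`ς` preserving the finite chart, onto it, `red (β b) = red (ς b) ^ q`);
* `node_mono_level` : at a Galois-stable level `(L, ι)`, `W = A.comap ι`, no hypothesis left.

Conclusion: `Module.Finite R0 R1` and `∃ X ∈ 𝔫`, `rd (coe X) = 0` (`X` vanishes on the first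
branch), `R1 = R0 + R0 X + ⋯ + R0 X ^ q = R0[X]`, `X ^ (q + 1) ∈ 𝔪_{R0} R1`, `X ∉ 𝔪_{R0} R1`.
-/

set_option autoImplicit false
set_option linter.unusedSectionVars false
set_option linter.style.haveILetI false

noncomputable section

namespace Fermat.Agent.S36.NodeOverInst

open Polynomial ModularCurve Fermat.Agent.S18 Fermat.Agent.S18.Gauss Fermat.Agent.S37
  IsLocalRing Fermat.Agent.S34

local notation "Qb" => AlgebraicClosure ℚ

section Main

variable (M q : ℕ) [NeZero M] [NeZero q] {L : Type} [Field L] [Algebra ℚ L] (ι : L →+* Qb)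
  (W : ValuationSubring L) [IsDiscreteValuationRing ↥W]
  [IsAlgClosed (IsLocalRing.ResidueField ↥W)] [CharP (IsLocalRing.ResidueField ↥W) q]

/-- **(T1-inst), raw inputs.** -/
theorem node_mono_chart (hq : q.Prime) (hqM : ¬ q ∣ M)
    (hroots : ∀ x : Qb, (∃ n : ℕ, ¬ q ∣ n ∧ x ^ n = 1) → ∃ b : L, ι b = x)
    (π : ↥W) (hπ : Irreducible π)
    (w : Fermat.Agent.S24.FF L (M * q) ≃ₐ[L] Fermat.Agent.S24.FF L (M * q))
    (hwα : (w : Fermat.Agent.S24.FF L (M * q) →ₐ[L] Fermat.Agent.S24.FF L (M * q)).comp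
      (heckeAlphaBar L M q) = heckeBetaBar L M q)
    (hwβ : (w : Fermat.Agent.S24.FF L (M * q) →ₐ[L] Fermat.Agent.S24.FF L (M * q)).comp
      (heckeBetaBar L M q) = heckeAlphaBar L M q)
    (hInt : ∀ x : Fermat.Agent.S24.FF L (M * q), (evF W (M * q)).IsIntegralElem x →
      (x : LaurentSeries L) ∈ contentRing W)
    (hF1 : ∀ (x : Fermat.Agent.S24.FF L (M * q)) (hx : (x : LaurentSeries L) ∈ contentRing W),
      red W ⟨x, hx⟩ ∈ modularFunctionFieldFullC (IsLocalRing.ResidueField ↥W) M)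
    (hS1 : ∀ x : Fermat.Agent.S24.FF L (M * q), (evF W (M * q)).IsIntegralElem x →
      ∀ (h1 : (x : LaurentSeries L) ∈ contentRing W)
        (h2 : ((w x : Fermat.Agent.S24.FF L (M * q)) : LaurentSeries L) ∈ contentRing W),
        red W ⟨_, h1⟩ = 0 → red W ⟨_, h2⟩ = 0 →
        ∃ y, (evF W (M * q)).IsIntegralElem y ∧
          x = algebraMap L (Fermat.Agent.S24.FF L (M * q)) ((π : W) : L) * y)
    (ς : Fermat.Agent.S24.FF L M →+* Fermat.Agent.S24.FF L M)
    (hςint : ∀ y : Fermat.Agent.S24.FF L M, (evF W M).IsIntegralElem y →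
      (evF W M).IsIntegralElem (ς y))
    (hςsurj : ∀ y : Fermat.Agent.S24.FF L M, (evF W M).IsIntegralElem y →
      ∃ y' : Fermat.Agent.S24.FF L M, (evF W M).IsIntegralElem y' ∧ ς y' = y)
    (hςK : ∀ b : Fermat.Agent.S24.FF L M, (evF W M).IsIntegralElem b →
      ∀ (h1 : ((heckeBetaBar L M q b : Fermat.Agent.S24.FF L (M * q)) : LaurentSeries L) ∈
          contentRing W) (h2 : ((ς b : Fermat.Agent.S24.FF L M) : LaurentSeries L) ∈ contentRing W),
        red W ⟨_, h1⟩ = red W ⟨_, h2⟩ ^ q)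
    [Algebra (↥W)[X] (Fermat.Agent.S24.FF L M)]
    (halgM : algebraMap (↥W)[X] (Fermat.Agent.S24.FF L M) = evF W M)
    (BM : Type) [CommRing BM] [Algebra (↥W)[X] BM] [Algebra BM (Fermat.Agent.S24.FF L M)]
    [IsScalarTower (↥W)[X] BM (Fermat.Agent.S24.FF L M)]
    [IsIntegralClosure BM (↥W)[X] (Fermat.Agent.S24.FF L M)]
    [Algebra (↥W)[X] (Fermat.Agent.S24.FF L (M * q))]
    (halg : algebraMap (↥W)[X] (Fermat.Agent.S24.FF L (M * q)) = evF W (M * q))
    (B : Type*) [CommRing B] [Algebra (↥W)[X] B] [Algebra B (Fermat.Agent.S24.FF L (M * q))]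
    [IsScalarTower (↥W)[X] B (Fermat.Agent.S24.FF L (M * q))]
    [IsIntegralClosure B (↥W)[X] (Fermat.Agent.S24.FF L (M * q))]
    [Algebra BM B]
    (hα : ∀ c : BM, algebraMap B (Fermat.Agent.S24.FF L (M * q)) (algebraMap BM B c) =
      heckeAlphaBar L M q (algebraMap BM (Fermat.Agent.S24.FF L M) c))
    (𝔫 : Ideal B) [𝔫.IsMaximal]
    (hk₁ : ∀ b : B, TwoGauss.rd W ((algebraMap B (Fermat.Agent.S24.FF L (M * q)) b :
      Fermat.Agent.S24.FF L (M * q)) : LaurentSeries L) = 0 → b ∈ 𝔫)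
    (hk₂ : ∀ b : B, TwoGauss.rd W ((w (algebraMap B (Fermat.Agent.S24.FF L (M * q)) b) :
      Fermat.Agent.S24.FF L (M * q)) : LaurentSeries L) = 0 → b ∈ 𝔫)
    (P : Ideal BM) [P.IsPrime] (hP : 𝔫.comap (algebraMap BM B) = P)
    (R0 : Type*) [CommRing R0] [Algebra BM R0] [IsLocalization.AtPrime R0 P] [IsLocalRing R0]
    (R1 : Type*) [CommRing R1] [Algebra B R1] [IsLocalization.AtPrime R1 𝔫] [IsLocalRing R1]
    [Algebra R0 R1] [Algebra BM R1] [IsScalarTower BM R0 R1] [IsScalarTower BM B R1] :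
    Module.Finite R0 R1 ∧ ∃ X ∈ 𝔫,
      TwoGauss.rd W ((algebraMap B (Fermat.Agent.S24.FF L (M * q)) X :
        Fermat.Agent.S24.FF L (M * q)) : LaurentSeries L) = 0 ∧
      Submodule.span R0 (Set.range fun i : Fin (q + 1) => algebraMap B R1 X ^ (i : ℕ)) = ⊤ ∧
      Algebra.adjoin R0 {algebraMap B R1 X} = ⊤ ∧
      algebraMap B R1 X ^ (q + 1) ∈ Ideal.map (algebraMap R0 R1) (maximalIdeal R0) ∧
      algebraMap B R1 X ∉ Ideal.map (algebraMap R0 R1) (maximalIdeal R0) := by
  classical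
  haveI : Fact q.Prime := ⟨hq⟩
  have hBinj : Function.Injective (algebraMap B (Fermat.Agent.S24.FF L (M * q))) :=
    IsIntegralClosure.algebraMap_injective B (↥W)[X] (Fermat.Agent.S24.FF L (M * q))
  haveI : IsDomain B := hBinj.isDomain _
  have hBint := CompInst.isIntegralElem_algebraMap W (M * q) halg B
  have hBMint := CompInst.isIntegralElem_algebraMap W M halgM BM
  have hwInt : ∀ x : Fermat.Agent.S24.FF L (M * q), (evF W (M * q)).IsIntegralElem x →
      (evF W (M * q)).IsIntegralElem (w x) := fun x hx =>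
    CompInst.isIntegralElem_atkin W M q hq w hwα hx
  have hwα' : ∀ y, w (heckeAlphaBar L M q y) = heckeBetaBar L M q y := fun y =>
    congrArg (fun f => f y) hwα
  have hwβ' : ∀ y, w (heckeBetaBar L M q y) = heckeAlphaBar L M q y := fun y =>
    congrArg (fun f => f y) hwβ
  -- the two reduction maps of `B`
  have hmem₁ : ∀ b : B, ((algebraMap (Fermat.Agent.S24.FF L (M * q)) (LaurentSeries L)).comp
      (algebraMap B (Fermat.Agent.S24.FF L (M * q)))) b ∈ contentRing W := fun b =>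
    hInt _ (hBint b)
  have hmem₂ : ∀ b : B, ((algebraMap (Fermat.Agent.S24.FF L (M * q)) (LaurentSeries L)).comp
      ((w : Fermat.Agent.S24.FF L (M * q) →ₐ[L] Fermat.Agent.S24.FF L (M * q)).toRingHom.comp
      (algebraMap B (Fermat.Agent.S24.FF L (M * q))))) b ∈ contentRing W := fun b =>
    hInt _ (hwInt _ (hBint b))
  let r₁ : B →+* LaurentSeries (IsLocalRing.ResidueField ↥W) :=
    (red W).comp (((algebraMap (Fermat.Agent.S24.FF L (M * q)) (LaurentSeries L)).comp
      (algebraMap B (Fermat.Agent.S24.FF L (M * q)))).codRestrict (contentRing W) hmem₁)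
  let r₂ : B →+* LaurentSeries (IsLocalRing.ResidueField ↥W) :=
    (red W).comp (((algebraMap (Fermat.Agent.S24.FF L (M * q)) (LaurentSeries L)).comp
      ((w : Fermat.Agent.S24.FF L (M * q) →ₐ[L] Fermat.Agent.S24.FF L (M * q)).toRingHom.comp
      (algebraMap B (Fermat.Agent.S24.FF L (M * q))))).codRestrict (contentRing W) hmem₂)
  have hr₁def : ∀ (b : B) (h : ((algebraMap B (Fermat.Agent.S24.FF L (M * q)) b :
      Fermat.Agent.S24.FF L (M * q)) : LaurentSeries L) ∈ contentRing W),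
      r₁ b = red W ⟨_, h⟩ := fun b h => rfl
  have hr₂def : ∀ (b : B) (h : ((w (algebraMap B (Fermat.Agent.S24.FF L (M * q)) b) :
      Fermat.Agent.S24.FF L (M * q)) : LaurentSeries L) ∈ contentRing W),
      r₂ b = red W ⟨_, h⟩ := fun b h => rfl
  -- the special fibre of the finite chart of level `M`
  haveI : IsDedekindDomain (BM ⧸ Ideal.span {algebraMap (↥W)[X] BM (C π)}) :=
    ChartInstSplit.finite_chart_dedekind M hq hqM ι W hroots π hπ halgM BM
  have hmemM : ∀ c : BM, ((algebraMap BM (Fermat.Agent.S24.FF L M) c :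
      Fermat.Agent.S24.FF L M) : LaurentSeries L) ∈ contentRing W := fun c =>
    GaussRed.mem_contentRing_fin W M q BM hqM halgM c
  let ρM : BM →+* LaurentSeries (IsLocalRing.ResidueField ↥W) :=
    (red W).comp (((algebraMap (Fermat.Agent.S24.FF L M) (LaurentSeries L)).comp
      (algebraMap BM (Fermat.Agent.S24.FF L M))).codRestrict (contentRing W) hmemM)
  have hρM : ∀ (c : BM) (h : ((algebraMap BM (Fermat.Agent.S24.FF L M) c :
      Fermat.Agent.S24.FF L M) : LaurentSeries L) ∈ contentRing W),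
      ρM c = red W ⟨_, h⟩ := fun c h => rfl
  have hρπ : ∀ c : BM, ρM c = 0 ↔ algebraMap (↥W)[X] BM (C π) ∣ c :=
    fun c => (GaussRed.dvd_iff_red_fin W M q BM hqM hπ halgM c).symm
  let ε : (BM ⧸ Ideal.span {algebraMap (↥W)[X] BM (C π)}) →+*
      LaurentSeries (IsLocalRing.ResidueField ↥W) :=
    Ideal.Quotient.lift _ ρM (fun c hc => (hρπ c).mpr (Ideal.mem_span_singleton.mp hc))
  have hε : Function.Injective ε := by
    rw [injective_iff_map_eq_zero]
    intro c hc
    obtain ⟨c, rfl⟩ := Ideal.Quotient.mk_surjective c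
    rw [Ideal.Quotient.lift_mk] at hc
    exact Ideal.Quotient.eq_zero_iff_mem.mpr (Ideal.mem_span_singleton.mpr ((hρπ c).mp hc))
  have hεmk : ∀ (c : BM) (h : ((algebraMap BM (Fermat.Agent.S24.FF L M) c :
      Fermat.Agent.S24.FF L M) : LaurentSeries L) ∈ contentRing W),
      ε (Ideal.Quotient.mk _ c) = red W ⟨_, h⟩ := fun c h => rfl
  have hlift : ∀ (x : Fermat.Agent.S24.FF L (M * q)) (hx : (evF W (M * q)).IsIntegralElem x)
      (h : (x : LaurentSeries L) ∈ contentRing W),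
      ∃ e, red W ⟨_, h⟩ = ε e := by
    intro x hx h
    have hint := CompInst.redJ_isIntegralElem W (M * q) hx h
    obtain ⟨x', hx'I, hx'W, hx'⟩ :=
      BaseLift.exists_int_of_mem_fullC M ι W hq hqM hroots (hF1 x h) hint
    obtain ⟨c, rfl⟩ := CompInst.exists_algebraMap_eq W M halgM BM hx'I
    exact ⟨Ideal.Quotient.mk _ c, by rw [hεmk c hx'W, hx']⟩
  have red_congr : ∀ (f g : LaurentSeries L) (hf : f ∈ contentRing W) (hg : g ∈ contentRing W),
      f = g → red W ⟨f, hf⟩ = red W ⟨g, hg⟩ := by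
    intro f g hf hg h
    subst h
    rfl
  have hr₁ : ∀ b, ∃ e, r₁ b = ε e := fun b => hlift _ (hBint b) (hmem₁ b)
  have hr₂ : ∀ b, ∃ e, r₂ b = ε e := fun b => hlift _ (hwInt _ (hBint b)) (hmem₂ b)
  have hπF : algebraMap B (Fermat.Agent.S24.FF L (M * q)) (algebraMap (↥W)[X] B (C π)) =
      algebraMap L (Fermat.Agent.S24.FF L (M * q)) ((π : W) : L) := by
    rw [← IsScalarTower.algebraMap_apply, halg, evF_C]
  have hπ₁ : r₁ (algebraMap (↥W)[X] B (C π)) = 0 := by
    rw [hr₁def _ (hmem₁ _), ← red_C_unif W hπ]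
    apply red_congr
    rw [hπF]
    exact GaussPrime.coe_unif π
  have hπ₂ : r₂ (algebraMap (↥W)[X] B (C π)) = 0 := by
    rw [hr₂def _ (hmem₂ _), ← red_C_unif W hπ]
    apply red_congr
    rw [hπF, AlgEquiv.commutes]
    exact GaussPrime.coe_unif π
  have hS1' : ∀ b, r₁ b = 0 → r₂ b = 0 → algebraMap (↥W)[X] B (C π) ∣ b := by
    intro b h1 h2
    obtain ⟨y, hyI, hy⟩ := hS1 (algebraMap B (Fermat.Agent.S24.FF L (M * q)) b) (hBint b)
      (hmem₁ b) (hmem₂ b) h1 h2
    obtain ⟨c, rfl⟩ := CompInst.exists_algebraMap_eq W (M * q) halg B hyI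
    refine ⟨c, hBinj ?_⟩
    rw [map_mul, hπF, hy]
  -- `α` on polynomials
  have hαW : ∀ S : (↥W)[X], algebraMap BM B (algebraMap (↥W)[X] BM S) = algebraMap (↥W)[X] B S := by
    intro S
    apply hBinj
    rw [hα, ← IsScalarTower.algebraMap_apply (↥W)[X] BM (Fermat.Agent.S24.FF L M),
      ← IsScalarTower.algebraMap_apply (↥W)[X] B (Fermat.Agent.S24.FF L (M * q)), halgM, halg]
    apply Subtype.ext
    rw [coe_heckeAlphaBar, coe_evF, coe_evF]
  haveI : IsScalarTower (↥W)[X] BM B := IsScalarTower.of_algebraMap_eq (fun S => (hαW S).symm)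
  haveI : Module.Finite (↥W)[X] B := (GaussNoeth.noeth_fin W (M * q) halg B).2
  haveI : Module.Finite BM B := Module.Finite.of_restrictScalars_finite (↥W)[X] BM B
  -- the second reduction of level `M` (Kronecker)
  have hmemI : ∀ y : Fermat.Agent.S24.FF L M, (evF W M).IsIntegralElem y →
      (y : LaurentSeries L) ∈ contentRing W := by
    intro y hy
    obtain ⟨c, rfl⟩ := CompInst.exists_algebraMap_eq W M halgM BM hy
    exact hmemM c
  have hmemς : ∀ c : BM, ((algebraMap (Fermat.Agent.S24.FF L M) (LaurentSeries L)).comp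
      (ς.comp (algebraMap BM (Fermat.Agent.S24.FF L M)))) c ∈ contentRing W := fun c =>
    hmemI _ (hςint _ (hBMint c))
  let ρς : BM →+* LaurentSeries (IsLocalRing.ResidueField ↥W) :=
    (red W).comp (((algebraMap (Fermat.Agent.S24.FF L M) (LaurentSeries L)).comp
      (ς.comp (algebraMap BM (Fermat.Agent.S24.FF L M)))).codRestrict (contentRing W) hmemς)
  have hρςdef : ∀ (c : BM) (h : ((ς (algebraMap BM (Fermat.Agent.S24.FF L M) c) :
      Fermat.Agent.S24.FF L M) : LaurentSeries L) ∈ contentRing W),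
      ρς c = red W ⟨_, h⟩ := fun c h => rfl
  have hρς : ∀ c, ∃ e, ρς c = ε e := by
    intro c
    obtain ⟨c', hc'⟩ := CompInst.exists_algebraMap_eq W M halgM BM (hςint _ (hBMint c))
    refine ⟨Ideal.Quotient.mk _ c', ?_⟩
    rw [hεmk c' (hmemM c'), hρςdef c (hmemς c)]
    apply red_congr
    rw [hc']
  -- the four maps
  set s₁ := CompPts.factor r₁ ε hε hr₁ with hs₁def
  set s₂ := CompPts.factor r₂ ε hε hr₂ with hs₂def
  set p₂ := CompPts.factor ρς ε hε hρς with hp₂def
  have hp : Function.Surjective (Ideal.Quotient.mk (Ideal.span {algebraMap (↥W)[X] BM (C π)})) :=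
    Ideal.Quotient.mk_surjective
  have hpker : ∀ c : BM, Ideal.Quotient.mk (Ideal.span {algebraMap (↥W)[X] BM (C π)}) c = 0 →
      algebraMap (↥W)[X] BM (C π) ∣ c := fun c hc =>
    Ideal.mem_span_singleton.mp (Ideal.Quotient.eq_zero_iff_mem.mp hc)
  have hp₂ : Function.Surjective p₂ := by
    intro e
    obtain ⟨c, rfl⟩ := Ideal.Quotient.mk_surjective e
    obtain ⟨y', hy'I, hy'⟩ := hςsurj _ (hBMint c)
    obtain ⟨c', rfl⟩ := CompInst.exists_algebraMap_eq W M halgM BM hy'I
    refine ⟨c', ?_⟩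
    rw [hp₂def, CompPts.factor_eq_iff, hεmk c (hmemM c), hρςdef c' (hmemς c')]
    apply red_congr
    rw [hy']
  have hπ : Ideal.span {algebraMap BM B (algebraMap (↥W)[X] BM (C π))} =
      RingHom.ker s₁ ⊓ RingHom.ker s₂ := by
    rw [hαW]
    apply le_antisymm
    · rw [Ideal.span_le]
      intro x hx
      rw [Set.mem_singleton_iff.mp hx]
      exact Ideal.mem_inf.mpr ⟨(CompPts.factor_eq_zero_iff r₁ ε hε hr₁ _).mpr hπ₁,
        (CompPts.factor_eq_zero_iff r₂ ε hε hr₂ _).mpr hπ₂⟩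
    · intro x hx
      obtain ⟨hx1, hx2⟩ := Ideal.mem_inf.mp hx
      exact Ideal.mem_span_singleton.mpr (hS1' x
        ((CompPts.factor_eq_zero_iff r₁ ε hε hr₁ x).mp hx1)
        ((CompPts.factor_eq_zero_iff r₂ ε hε hr₂ x).mp hx2))
  have h₁ : ∀ c : BM, s₁ (algebraMap BM B c) =
      Ideal.Quotient.mk (Ideal.span {algebraMap (↥W)[X] BM (C π)}) c := by
    intro c
    rw [hs₁def, CompPts.factor_eq_iff, hr₁def _ (hmem₁ _), hεmk c (hmemM c)]
    apply red_congr
    rw [hα, coe_heckeAlphaBar]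
  have h₂ : ∀ c : BM, s₂ (algebraMap BM B c) = p₂ c ^ q := by
    intro c
    rw [hs₂def, CompPts.factor_eq_iff, map_pow, hp₂def, CompPts.factor_spec,
      hr₂def _ (hmem₂ _), hρςdef c (hmemς c)]
    have h1 : ((heckeBetaBar L M q (algebraMap BM (Fermat.Agent.S24.FF L M) c) :
        Fermat.Agent.S24.FF L (M * q)) : LaurentSeries L) ∈ contentRing W := by
      have h := hmem₂ (algebraMap BM B c)
      rw [RingHom.comp_apply, RingHom.comp_apply, hα] at h
      have e : (w : Fermat.Agent.S24.FF L (M * q) →ₐ[L]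
          Fermat.Agent.S24.FF L (M * q)).toRingHom
          (heckeAlphaBar L M q (algebraMap BM (Fermat.Agent.S24.FF L M) c)) =
          heckeBetaBar L M q (algebraMap BM (Fermat.Agent.S24.FF L M) c) := hwα' _
      rw [e] at h
      exact h
    rw [← hςK _ (hBMint c) h1 (hmemς c)]
    apply red_congr
    rw [hα, hwα']
  have hB : ∀ e, ∃ b, s₂ b = e ∧ ∃ e', s₁ b = e' ^ q := by
    intro e
    obtain ⟨c, rfl⟩ := Ideal.Quotient.mk_surjective e
    have hyI : (evF W M).IsIntegralElem (algebraMap BM (Fermat.Agent.S24.FF L M) c) := hBMint c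
    obtain ⟨b, hb⟩ := CompInst.exists_algebraMap_eq W (M * q) halg B
      (BetaInt.isIntegralElem_beta W M q hq hyI)
    refine ⟨b, ?_, p₂ c, ?_⟩
    · rw [hs₂def, CompPts.factor_eq_iff, hr₂def b (hmem₂ b), hεmk c (hmemM c)]
      apply red_congr
      rw [hb, hwβ', coe_heckeAlphaBar]
    · rw [hs₁def, CompPts.factor_eq_iff, map_pow, hp₂def, CompPts.factor_spec,
        hr₁def b (hmem₁ b), hρςdef c (hmemς c)]
      have h1 : ((heckeBetaBar L M q (algebraMap BM (Fermat.Agent.S24.FF L M) c) :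
          Fermat.Agent.S24.FF L (M * q)) : LaurentSeries L) ∈ contentRing W := by
        have h := hmem₁ b
        rw [RingHom.comp_apply, hb] at h
        exact h
      rw [← hςK _ hyI h1 (hmemς c)]
      apply red_congr
      rw [hb]
  -- the special fibre is not a field
  have hE : ¬ IsField (BM ⧸ Ideal.span {algebraMap (↥W)[X] BM (C π)}) := by
    intro hf
    haveI : Algebra.IsIntegral (↥W)[X] BM :=
      IsIntegralClosure.isIntegral_algebra (↥W)[X] (Fermat.Agent.S24.FF L M)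
    have hφ : ((Ideal.Quotient.mk (Ideal.span {algebraMap (↥W)[X] BM (C π)})).comp
        (algebraMap (↥W)[X] BM)).IsIntegral :=
      RingHom.IsIntegral.trans _ _ (algebraMap_isIntegral_iff.mpr inferInstance)
        (RingHom.isIntegral_of_surjective _ Ideal.Quotient.mk_surjective)
    have hεφ : ∀ S : (↥W)[X], ε ((Ideal.Quotient.mk (Ideal.span {algebraMap (↥W)[X] BM (C π)}))
        (algebraMap (↥W)[X] BM S)) = redJ W S := by
      intro S
      rw [hεmk _ (hmemM _)]
      apply red_congr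
      rw [← IsScalarTower.algebraMap_apply (↥W)[X] BM (Fermat.Agent.S24.FF L M), halgM, coe_evF]
    -- the class of `j` is nonzero
    have hj0 : (Ideal.Quotient.mk (Ideal.span {algebraMap (↥W)[X] BM (C π)}))
        (algebraMap (↥W)[X] BM X) ≠ 0 := by
      intro h0
      have h1 := hεφ X
      rw [h0, map_zero] at h1
      have h2 := (redJ_eq_zero_iff W X).mp h1.symm
      rw [Polynomial.map_X] at h2
      exact X_ne_zero h2
    obtain ⟨e, he⟩ := hf.mul_inv_cancel hj0
    -- `e` is a polynomial in the class of `j`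
    have hloc : IsLocalHom (RingHom.kerLift ((Ideal.Quotient.mk
        (Ideal.span {algebraMap (↥W)[X] BM (C π)})).comp (algebraMap (↥W)[X] BM))) :=
      RingHom.IsIntegral.isLocalHom
        (RingHom.IsIntegral.tower_top (Ideal.Quotient.mk _) _ (by
          have e1 : (RingHom.kerLift ((Ideal.Quotient.mk
              (Ideal.span {algebraMap (↥W)[X] BM (C π)})).comp (algebraMap (↥W)[X] BM))).comp
              (Ideal.Quotient.mk _) = (Ideal.Quotient.mk
              (Ideal.span {algebraMap (↥W)[X] BM (C π)})).comp (algebraMap (↥W)[X] BM) := by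
            ext x <;> rfl
          rw [e1]
          exact hφ))
        (RingHom.kerLift_injective _)
    have hu : IsUnit (Ideal.Quotient.mk (RingHom.ker ((Ideal.Quotient.mk
        (Ideal.span {algebraMap (↥W)[X] BM (C π)})).comp (algebraMap (↥W)[X] BM))) X) := by
      apply hloc.map_nonunit
      rw [RingHom.kerLift_mk]
      exact IsUnit.of_mul_eq_one _ he
    obtain ⟨v, hv⟩ := hu.exists_right_inv
    obtain ⟨S, rfl⟩ := Ideal.Quotient.mk_surjective v
    rw [← map_mul, ← map_one (Ideal.Quotient.mk _), Ideal.Quotient.eq, RingHom.mem_ker] at hv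
    have h3 := hεφ (X * S - 1)
    rw [RingHom.comp_apply] at hv
    rw [hv, map_zero] at h3
    have h4 := (redJ_eq_zero_iff W (X * S - 1)).mp h3.symm
    rw [Polynomial.map_sub, Polynomial.map_mul, Polynomial.map_X, Polynomial.map_one,
      sub_eq_zero] at h4
    exact Polynomial.not_isUnit_X (IsUnit.of_mul_eq_one _ h4)
  -- the node condition
  have hk₁' : RingHom.ker s₁ ≤ 𝔫 := by
    intro b hb
    apply hk₁
    have hm : ((algebraMap B (Fermat.Agent.S24.FF L (M * q)) b :
      Fermat.Agent.S24.FF L (M * q)) : LaurentSeries L) ∈ contentRing W := hmem₁ b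
    rw [TwoGauss.rd_of_mem W hm, ← hr₁def b hm]
    exact (CompPts.factor_eq_zero_iff r₁ ε hε hr₁ b).mp hb
  have hk₂' : RingHom.ker s₂ ≤ 𝔫 := by
    intro b hb
    apply hk₂
    have hm : ((w (algebraMap B (Fermat.Agent.S24.FF L (M * q)) b) :
      Fermat.Agent.S24.FF L (M * q)) : LaurentSeries L) ∈ contentRing W := hmem₂ b
    rw [TwoGauss.rd_of_mem W hm, ← hr₂def b hm]
    exact (CompPts.factor_eq_zero_iff r₂ ε hε hr₂ b).mp hb
  obtain ⟨hfin, X₀, hX₀𝔫, hX₀1, -, hspan, hadj, hpow, hnot⟩ :=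
    NodeOver.node_over hE (Ideal.Quotient.mk (Ideal.span {algebraMap (↥W)[X] BM (C π)})) p₂ s₁ s₂
      (algebraMap (↥W)[X] BM (C π)) q hq.two_le hp hpker hp₂ hπ h₁ h₂ hB 𝔫 hk₁' hk₂' P hP R0 R1
  refine ⟨hfin, X₀, hX₀𝔫, ?_, hspan, hadj, hpow, hnot⟩
  have hm : ((algebraMap B (Fermat.Agent.S24.FF L (M * q)) X₀ :
    Fermat.Agent.S24.FF L (M * q)) : LaurentSeries L) ∈ contentRing W := hmem₁ X₀
  rw [TwoGauss.rd_of_mem W hm, ← hr₁def X₀ hm]
  exact (CompPts.factor_eq_zero_iff r₁ ε hε hr₁ X₀).mp hX₀1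

end Main

section Level

variable (A : ValuationSubring Qb) {L : Type} [Field L] [Algebra ℚ L] (ι : L →+* Qb)
  (M q : ℕ) [NeZero M] [NeZero q]

/-- **(T1-inst) at a Galois-stable level.**  `W = A.comap ι`, `BM`, `B` carriers of the finite
charts of levels `M`, `M q`, `BM → B` inducing `α`; at every maximal ideal `𝔫` of `B` through
which both components of the special fibre pass, with `P = α⁻¹ 𝔫`, `R0 = BM_P`, `R1 = B_𝔫`:
`R1` is finite over `R0` and `R1 = R0[X]` for some `X ∈ 𝔫` vanishing on the first branch. -/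
theorem node_mono_level (hq : q.Prime) (hqM : ¬ q ∣ M) (S : Finset Qb)
    (hlev : Fermat.Agent.S37.LevelChange.IsLevel A q S ι)
    (hstab : Fermat.Agent.S34.GalLevel.IsStable ι) (hA : A.LiesOverPrime q)
    (π : ↥(A.comap ι)) (hπ : Irreducible π)
    (w : Fermat.Agent.S24.FF L (M * q) ≃ₐ[L] Fermat.Agent.S24.FF L (M * q))
    (hwα : (w : Fermat.Agent.S24.FF L (M * q) →ₐ[L] Fermat.Agent.S24.FF L (M * q)).comp
      (heckeAlphaBar L M q) = heckeBetaBar L M q)
    (hwβ : (w : Fermat.Agent.S24.FF L (M * q) →ₐ[L] Fermat.Agent.S24.FF L (M * q)).comp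
      (heckeBetaBar L M q) = heckeAlphaBar L M q)
    [Algebra (↥(A.comap ι))[X] (Fermat.Agent.S24.FF L M)]
    (halgM : algebraMap (↥(A.comap ι))[X] (Fermat.Agent.S24.FF L M) = evF (A.comap ι) M)
    (BM : Type) [CommRing BM] [Algebra (↥(A.comap ι))[X] BM]
    [Algebra BM (Fermat.Agent.S24.FF L M)]
    [IsScalarTower (↥(A.comap ι))[X] BM (Fermat.Agent.S24.FF L M)]
    [IsIntegralClosure BM (↥(A.comap ι))[X] (Fermat.Agent.S24.FF L M)]
    [Algebra (↥(A.comap ι))[X] (Fermat.Agent.S24.FF L (M * q))]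
    (halg : algebraMap (↥(A.comap ι))[X] (Fermat.Agent.S24.FF L (M * q)) =
      evF (A.comap ι) (M * q))
    (B : Type*) [CommRing B] [Algebra (↥(A.comap ι))[X] B]
    [Algebra B (Fermat.Agent.S24.FF L (M * q))]
    [IsScalarTower (↥(A.comap ι))[X] B (Fermat.Agent.S24.FF L (M * q))]
    [IsIntegralClosure B (↥(A.comap ι))[X] (Fermat.Agent.S24.FF L (M * q))]
    [Algebra BM B]
    (hα : ∀ c : BM, algebraMap B (Fermat.Agent.S24.FF L (M * q)) (algebraMap BM B c) =
      heckeAlphaBar L M q (algebraMap BM (Fermat.Agent.S24.FF L M) c))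
    (𝔫 : Ideal B) [𝔫.IsMaximal]
    (hk₁ : ∀ b : B, TwoGauss.rd (A.comap ι)
      ((algebraMap B (Fermat.Agent.S24.FF L (M * q)) b :
        Fermat.Agent.S24.FF L (M * q)) : LaurentSeries L) = 0 → b ∈ 𝔫)
    (hk₂ : ∀ b : B, TwoGauss.rd (A.comap ι)
      ((w (algebraMap B (Fermat.Agent.S24.FF L (M * q)) b) :
        Fermat.Agent.S24.FF L (M * q)) : LaurentSeries L) = 0 → b ∈ 𝔫)
    (P : Ideal BM) [P.IsPrime] (hP : 𝔫.comap (algebraMap BM B) = P)
    (R0 : Type*) [CommRing R0] [Algebra BM R0] [IsLocalization.AtPrime R0 P] [IsLocalRing R0]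
    (R1 : Type*) [CommRing R1] [Algebra B R1] [IsLocalization.AtPrime R1 𝔫] [IsLocalRing R1]
    [Algebra R0 R1] [Algebra BM R1] [IsScalarTower BM R0 R1] [IsScalarTower BM B R1] :
    Module.Finite R0 R1 ∧ ∃ X ∈ 𝔫,
      TwoGauss.rd (A.comap ι) ((algebraMap B (Fermat.Agent.S24.FF L (M * q)) X :
        Fermat.Agent.S24.FF L (M * q)) : LaurentSeries L) = 0 ∧
      Submodule.span R0 (Set.range fun i : Fin (q + 1) => algebraMap B R1 X ^ (i : ℕ)) = ⊤ ∧
      Algebra.adjoin R0 {algebraMap B R1 X} = ⊤ ∧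
      algebraMap B R1 X ^ (q + 1) ∈ Ideal.map (algebraMap R0 R1) (maximalIdeal R0) ∧
      algebraMap B R1 X ∉ Ideal.map (algebraMap R0 R1) (maximalIdeal R0) := by
  obtain ⟨-, hroots, hdvr, halgc, -, hchar, -, -⟩ := hlev
  haveI := hdvr
  haveI := halgc
  haveI := hchar
  haveI : Fact q.Prime := ⟨hq⟩
  obtain ⟨σ, hσ⟩ := Fermat.Agent.S34.GalLevel.exists_frobenius A hq hA
  obtain ⟨s, hs⟩ := hstab σ
  refine node_mono_chart M q ι (A.comap ι) hq hqM hroots π hπ w hwα hwβ
    (fun x hx => FrobPartner.mem_contentRing_of_int (A.comap ι) (M * q) hx)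
    (fun x hx => FinDichLevel.f1_level ι (A.comap ι) M q hq hqM x hx)
    (fun x hint h1 h2 hr1 hr2 =>
      FinDich.s1_fin_level ι (A.comap ι) M q hqM hπ w hwα hwβ x hint h1 h2 hr1 hr2)
    (FrobPartner.frobHom s M)
    (fun y hy => FrobPartner.frobHom_int A ι s hs M hσ.mem_decompositionSubgroup hy)
    (fun y hy => ⟨CoeffAut.act M s y, CoeffAut.isIntegralElem_evF_act (A.comap ι) M s
      (GalLevel.mem_comap_iff_of_mem_decomposition A ι s hs hσ.mem_decompositionSubgroup) hy,
      ?_⟩)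
    (fun b hb h1 h2 => FrobPartner.red_beta_eq_frobHom_pow A ι s hs q M hσ
      (FrobPartner.mem_contentRing_of_int (A.comap ι) M hb) h1 h2)
    halgM BM halg B hα 𝔫 hk₁ hk₂ P hP R0 R1
  rw [FrobPartner.frobHom_apply, ← CoeffAut.act_symm_apply, RingEquiv.symm_apply_apply]

end Level

/-! ### Carrier plumbing: the algebra `BM → B` and the concrete local rings -/

section Carrier

variable {L : Type} [Field L] [Algebra ℚ L] (W : ValuationSubring L) (M q : ℕ) [NeZero M]
  [NeZero q]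
  [Algebra (↥W)[X] (Fermat.Agent.S24.FF L M)]
  (halgM : algebraMap (↥W)[X] (Fermat.Agent.S24.FF L M) = evF W M)
  (BM : Type*) [CommRing BM] [Algebra (↥W)[X] BM] [Algebra BM (Fermat.Agent.S24.FF L M)]
  [IsScalarTower (↥W)[X] BM (Fermat.Agent.S24.FF L M)]
  [IsIntegralClosure BM (↥W)[X] (Fermat.Agent.S24.FF L M)]
  [Algebra (↥W)[X] (Fermat.Agent.S24.FF L (M * q))]
  (halg : algebraMap (↥W)[X] (Fermat.Agent.S24.FF L (M * q)) = evF W (M * q))
  (B : Type*) [CommRing B] [Algebra (↥W)[X] B] [Algebra B (Fermat.Agent.S24.FF L (M * q))]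
  [IsScalarTower (↥W)[X] B (Fermat.Agent.S24.FF L (M * q))]
  [IsIntegralClosure B (↥W)[X] (Fermat.Agent.S24.FF L (M * q))]

include halgM halg in
theorem exists_alpha (c : BM) : ∃ b : B,
    ((heckeAlphaBar L M q : Fermat.Agent.S24.FF L M →+* Fermat.Agent.S24.FF L (M * q)).comp
      (algebraMap BM (Fermat.Agent.S24.FF L M))) c =
      algebraMap B (Fermat.Agent.S24.FF L (M * q)) b := by
  obtain ⟨b, hb⟩ := CompInst.exists_algebraMap_eq W (M * q) halg B
    (BetaInt.isIntegralElem_alpha W M q (CompInst.isIntegralElem_algebraMap W M halgM BM c))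
  exact ⟨b, hb.symm⟩

/-- the ring homomorphism `BM → B` induced by `α = heckeAlphaBar` on the finite charts -/
def alphaHom : BM →+* B :=
  CompPts.factor
    ((heckeAlphaBar L M q : Fermat.Agent.S24.FF L M →+* Fermat.Agent.S24.FF L (M * q)).comp
      (algebraMap BM (Fermat.Agent.S24.FF L M)))
    (algebraMap B (Fermat.Agent.S24.FF L (M * q)))
    (IsIntegralClosure.algebraMap_injective B (↥W)[X] (Fermat.Agent.S24.FF L (M * q)))
    (exists_alpha W M q halgM BM halg B)

theorem alphaHom_spec (c : BM) :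
    algebraMap B (Fermat.Agent.S24.FF L (M * q)) (alphaHom W M q halgM BM halg B c) =
      heckeAlphaBar L M q (algebraMap BM (Fermat.Agent.S24.FF L M) c) :=
  CompPts.factor_spec _ _ _ _ c

end Carrier

section LevelLoc

variable (A : ValuationSubring Qb) {L : Type} [Field L] [Algebra ℚ L] (ι : L →+* Qb)
  (M q : ℕ) [NeZero M] [NeZero q]

/-- **(T1-inst), concrete local rings**: `R0 = Localization.AtPrime P`,
`R1 = Localization.AtPrime 𝔫` with the natural algebra structure (`IsLiesOverAlgebra`). -/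
theorem node_mono_level_loc (hq : q.Prime) (hqM : ¬ q ∣ M) (S : Finset Qb)
    (hlev : Fermat.Agent.S37.LevelChange.IsLevel A q S ι)
    (hstab : Fermat.Agent.S34.GalLevel.IsStable ι) (hA : A.LiesOverPrime q)
    (π : ↥(A.comap ι)) (hπ : Irreducible π)
    (w : Fermat.Agent.S24.FF L (M * q) ≃ₐ[L] Fermat.Agent.S24.FF L (M * q))
    (hwα : (w : Fermat.Agent.S24.FF L (M * q) →ₐ[L] Fermat.Agent.S24.FF L (M * q)).comp
      (heckeAlphaBar L M q) = heckeBetaBar L M q)
    (hwβ : (w : Fermat.Agent.S24.FF L (M * q) →ₐ[L] Fermat.Agent.S24.FF L (M * q)).comp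
      (heckeBetaBar L M q) = heckeAlphaBar L M q)
    [Algebra (↥(A.comap ι))[X] (Fermat.Agent.S24.FF L M)]
    (halgM : algebraMap (↥(A.comap ι))[X] (Fermat.Agent.S24.FF L M) = evF (A.comap ι) M)
    (BM : Type) [CommRing BM] [Algebra (↥(A.comap ι))[X] BM]
    [Algebra BM (Fermat.Agent.S24.FF L M)]
    [IsScalarTower (↥(A.comap ι))[X] BM (Fermat.Agent.S24.FF L M)]
    [IsIntegralClosure BM (↥(A.comap ι))[X] (Fermat.Agent.S24.FF L M)]
    [Algebra (↥(A.comap ι))[X] (Fermat.Agent.S24.FF L (M * q))]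
    (halg : algebraMap (↥(A.comap ι))[X] (Fermat.Agent.S24.FF L (M * q)) =
      evF (A.comap ι) (M * q))
    (B : Type*) [CommRing B] [Algebra (↥(A.comap ι))[X] B]
    [Algebra B (Fermat.Agent.S24.FF L (M * q))]
    [IsScalarTower (↥(A.comap ι))[X] B (Fermat.Agent.S24.FF L (M * q))]
    [IsIntegralClosure B (↥(A.comap ι))[X] (Fermat.Agent.S24.FF L (M * q))]
    [Algebra BM B]
    (hα : ∀ c : BM, algebraMap B (Fermat.Agent.S24.FF L (M * q)) (algebraMap BM B c) =
      heckeAlphaBar L M q (algebraMap BM (Fermat.Agent.S24.FF L M) c))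
    (𝔫 : Ideal B) [𝔫.IsMaximal]
    (hk₁ : ∀ b : B, TwoGauss.rd (A.comap ι)
      ((algebraMap B (Fermat.Agent.S24.FF L (M * q)) b :
        Fermat.Agent.S24.FF L (M * q)) : LaurentSeries L) = 0 → b ∈ 𝔫)
    (hk₂ : ∀ b : B, TwoGauss.rd (A.comap ι)
      ((w (algebraMap B (Fermat.Agent.S24.FF L (M * q)) b) :
        Fermat.Agent.S24.FF L (M * q)) : LaurentSeries L) = 0 → b ∈ 𝔫)
    (P : Ideal BM) [P.IsPrime] [𝔫.LiesOver P]
    [Algebra (Localization.AtPrime P) (Localization.AtPrime 𝔫)]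
    [Localization.AtPrime.IsLiesOverAlgebra P 𝔫] :
    Module.Finite (Localization.AtPrime P) (Localization.AtPrime 𝔫) ∧ ∃ X ∈ 𝔫,
      TwoGauss.rd (A.comap ι) ((algebraMap B (Fermat.Agent.S24.FF L (M * q)) X :
        Fermat.Agent.S24.FF L (M * q)) : LaurentSeries L) = 0 ∧
      Submodule.span (Localization.AtPrime P) (Set.range fun i : Fin (q + 1) =>
        algebraMap B (Localization.AtPrime 𝔫) X ^ (i : ℕ)) = ⊤ ∧
      Algebra.adjoin (Localization.AtPrime P) {algebraMap B (Localization.AtPrime 𝔫) X} = ⊤ ∧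
      algebraMap B (Localization.AtPrime 𝔫) X ^ (q + 1) ∈
        Ideal.map (algebraMap (Localization.AtPrime P) (Localization.AtPrime 𝔫))
          (maximalIdeal (Localization.AtPrime P)) ∧
      algebraMap B (Localization.AtPrime 𝔫) X ∉
        Ideal.map (algebraMap (Localization.AtPrime P) (Localization.AtPrime 𝔫))
          (maximalIdeal (Localization.AtPrime P)) :=
  node_mono_level A ι M q hq hqM S hlev hstab hA π hπ w hwα hwβ halgM BM halg B hα 𝔫 hk₁ hk₂ P
    (Ideal.LiesOver.over (P := 𝔫) (p := P)).symm (Localization.AtPrime P)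
    (Localization.AtPrime 𝔫)

end LevelLoc

end Fermat.Agent.S36.NodeOverInst
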