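import Mathlib
import Fermat.Agent.S36.NodeOverInst
import Fermat.Agent.S36.CuspModPolyZ
import Fermat.Agent.S34.KLocInst
import Fermat.Agent.S18.GaussDegree
import Fermat.Agent.S36.AtkinSq

/-!
# S36, chart plumbing: the degeneracy maps on the finite charts

Carriers as in `NodeOverInst.alphaHom` (S34 style): `B₁`, `B` any integral closures of `W[X]`
(`X ↦ j`) in `FF L N`, `FF L (N * ℓ)`.

* `isIntegralElem_jBC_beta` : `j` is integral over `β (W[j])` (`j` is a root of the modular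
  polynomial `Φ(T, β j)`, monic with integer coefficients).
* `isIntegralElem_beta_comp` : elements integral over `W[j]` (level `N ℓ`) are integral over
  `β (W[j])`.
* `betaHom`, `betaHom_spec` : the ring homomorphism `B₁ → B` induced by `β = heckeBetaBar`.
* `alphaHom_injective`, `betaHom_injective`, `alphaHom_isIntegral`, `betaHom_isIntegral`,
  `alphaHom_comap_isMaximal`, `betaHom_comap_isMaximal`.
* `wHom`, `wHom_spec`, `wHom_wHom` : an Atkin–Lehner automorphism on the chart of level `M q`.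
-/

set_option autoImplicit false
set_option linter.unusedSectionVars false
set_option linter.style.haveILetI false

noncomputable section

namespace Fermat.Agent.S36.BetaHom

open Polynomial ModularCurve Fermat.Agent.S18 Fermat.Agent.S18.Gauss Fermat.Agent.S37
  Fermat.Agent.S34 Fermat.Agent.S28

local notation "Qb" => AlgebraicClosure ℚ

/-! ### `j` is integral over `ℤ[j']` -/

section Root

variable {L : Type} [Field L] [Algebra ℚ L]

/-- For a function `j'` of level `N'` with expansion `j(Q^ℓ)` the function `j` is a root of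
the monic polynomial `Φ(T, j')` (the modular polynomial with integer coefficients). -/
theorem exists_monic_root_j (ι : L →+* Qb) (N' ℓ : ℕ) [NeZero N'] [NeZero ℓ] (hℓ : ℓ.Prime)
    (jp : S24.FF L N') (hjp : (jp : LaurentSeries L) = qExpand L ℓ (jS L)) :
    ∃ ΦZ : Polynomial (Polynomial ℤ),
      (ΦZ.map (eval₂RingHom (Int.castRingHom (S24.FF L N')) jp)).Monic ∧
      (ΦZ.map (eval₂RingHom (Int.castRingHom (S24.FF L N')) jp)).eval (S24.jBC L N') = 0 := by
  classical
  obtain ⟨ΦZ, hΦZ⟩ := Fermat.Agent.S36.CuspModPolyZ.exists_modPoly_Z ℓ hℓ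
  have : NeZero ((ℓ : ℕ) : Qb) := ⟨Nat.cast_ne_zero.mpr hℓ.ne_zero⟩
  obtain ⟨ζ₀, hζ₀⟩ := HasEnoughRootsOfUnity.exists_primitiveRoot Qb ℓ
  have hζ₀0 : ζ₀ ≠ 0 := hζ₀.ne_zero hℓ.ne_zero
  let ζ : Qbˣ := Units.mk0 ζ₀ hζ₀0
  have hζ : IsPrimitiveRoot (ζ : Qb) ℓ := hζ₀
  have hΦ := hΦZ ζ hζ
  refine ⟨ΦZ, ?_⟩
  -- the embedding into `ℚ̄((Q))`
  let ψ : S24.FF L N' →+* LaurentSeries Qb :=
    (coeffMap ι).comp (algebraMap (S24.FF L N') (LaurentSeries L))
  have hcminj : Function.Injective (coeffMap ι) := by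
    intro x y h
    ext n
    have h2 := congrArg (fun z : LaurentSeries Qb => z.coeff n) h
    exact ι.injective h2
  have hψinj : Function.Injective ψ := hcminj.comp Subtype.val_injective
  set j : S24.FF L N' := S24.jBC L N' with hjdef
  have hψj : ψ j = jS Qb := by
    show coeffMap ι ((S24.jBC L N' : S24.FF L N') : LaurentSeries L) = jS Qb
    rw [Fermat.Agent.S18.Gauss.coe_jBC_eq, ← jS_eq_jqModC, coeffMap_jS]
  have hψjp : ψ jp = qExpand Qb ℓ (jS Qb) := by
    show coeffMap ι (jp : LaurentSeries L) = _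
    rw [hjp, ModularCurve.coeffMap_qExpand, coeffMap_jS]
  let evF' : ℤ[X] →+* S24.FF L N' := eval₂RingHom (Int.castRingHom (S24.FF L N')) jp
  set R : (S24.FF L N')[X] := ΦZ.map evF' with hRdef
  have hcomp : ψ.comp evF' =
      (evalAt (qExpand Qb ℓ (jS Qb))).comp (mapRingHom (Int.castRingHom Qb)) := by
    apply Polynomial.ringHom_ext
    · intro n
      simp [evF', evalAt]
    · simp [evF', evalAt, hψjp]
  have hRψ : R.map ψ = (X - C (qExpand Qb (ℓ * ℓ) (jS Qb))) *
      ∏ c ∈ Finset.range ℓ, (X - C (tw (ζ ^ c) (jS Qb))) := by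
    rw [hRdef, Polynomial.map_map, hcomp, ← Polynomial.map_map]
    exact hΦ
  have hprod : (∏ c ∈ Finset.range ℓ, (X - C (tw (ζ ^ c) (jS Qb)))).Monic :=
    monic_prod_of_monic _ _ fun c _ => monic_X_sub_C _
  have hRmon : R.Monic := by
    apply Polynomial.monic_of_injective hψinj
    rw [hRψ]
    exact (monic_X_sub_C _).mul hprod
  have hrootj : R.eval j = 0 := by
    apply hψinj
    rw [map_zero, ← Polynomial.eval₂_at_apply, ← eval_map, hRψ, hψj, eval_mul, eval_prod]
    refine mul_eq_zero_of_right _ (Finset.prod_eq_zero (Finset.mem_range.mpr hℓ.pos) ?_)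
    rw [pow_zero, tw_one, eval_sub, eval_X, eval_C, sub_self]
  exact ⟨hRmon, hrootj⟩

variable (W : ValuationSubring L) (N ℓ : ℕ) [NeZero N] [NeZero ℓ]

/-- `β ∘ (W[X] → FF L N)` in terms of the integer chart map `X ↦ β j`. -/
theorem beta_comp_evF_comp_map :
    ((heckeBetaBar L N ℓ).toRingHom.comp (evF W N)).comp (mapRingHom (Int.castRingHom ↥W)) =
      eval₂RingHom (Int.castRingHom (S24.FF L (N * ℓ))) (heckeBetaBar L N ℓ (S24.jBC L N)) := by
  apply Polynomial.ringHom_ext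
  · intro n
    simp
  · simp [evF_X]

/-- **`j` is integral over `β (W[j])`.** -/
theorem isIntegralElem_jBC_beta (ι : L →+* Qb) (hℓ : ℓ.Prime) :
    ((heckeBetaBar L N ℓ).toRingHom.comp (evF W N)).IsIntegralElem (S24.jBC L (N * ℓ)) := by
  have hjp : ((heckeBetaBar L N ℓ (S24.jBC L N) : S24.FF L (N * ℓ)) : LaurentSeries L) =
      qExpand L ℓ (jS L) := by
    rw [coe_heckeBetaBar, Fermat.Agent.S18.Gauss.coe_jBC_eq, ← jS_eq_jqModC]
  obtain ⟨ΦZ, hmon, hroot⟩ := exists_monic_root_j ι (N * ℓ) ℓ hℓ _ hjp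
  have hinj : Function.Injective ((heckeBetaBar L N ℓ).toRingHom.comp (evF W N)) :=
    (heckeBetaBar L N ℓ).toRingHom.injective.comp (evF_injective W N)
  have hmap : (ΦZ.map (mapRingHom (Int.castRingHom ↥W))).map
      ((heckeBetaBar L N ℓ).toRingHom.comp (evF W N)) =
      ΦZ.map (eval₂RingHom (Int.castRingHom (S24.FF L (N * ℓ)))
        (heckeBetaBar L N ℓ (S24.jBC L N))) := by
    rw [Polynomial.map_map, beta_comp_evF_comp_map]
  refine ⟨ΦZ.map (mapRingHom (Int.castRingHom ↥W)), ?_, ?_⟩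
  · apply Polynomial.monic_of_injective hinj
    rw [hmap]
    exact hmon
  · rw [← eval_map, hmap]
    exact hroot

/-- **Elements integral over `W[j]` at level `N ℓ` are integral over `β (W[j])`.** -/
theorem isIntegralElem_beta_comp (ι : L →+* Qb) (hℓ : ℓ.Prime) {x : S24.FF L (N * ℓ)}
    (hx : (evF W (N * ℓ)).IsIntegralElem x) :
    ((heckeBetaBar L N ℓ).toRingHom.comp (evF W N)).IsIntegralElem x := by
  refine BetaInt.isIntegralElem_trans _ (evF W (N * ℓ)) ?_ x hx
  intro p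
  induction p using Polynomial.induction_on with
  | C a =>
    have e : evF W (N * ℓ) (C a) =
        ((heckeBetaBar L N ℓ).toRingHom.comp (evF W N)) (C a) := by
      rw [RingHom.comp_apply, Fermat.Agent.S18.Gauss.evF_C, Fermat.Agent.S18.Gauss.evF_C]
      exact (AlgHom.commutes _ _).symm
    rw [e]
    exact RingHom.isIntegralElem_map _
  | add p q hp hq =>
    rw [map_add]
    exact RingHom.IsIntegralElem.add _ hp hq
  | monomial n a ih =>
    rw [pow_succ, ← mul_assoc, map_mul]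
    refine RingHom.IsIntegralElem.mul _ ih ?_
    rw [Fermat.Agent.S18.Gauss.evF_X]
    exact isIntegralElem_jBC_beta W N ℓ ι hℓ

end Root

/-! ### The ring homomorphisms on the charts -/

section Carrier

variable {L : Type} [Field L] [Algebra ℚ L] (W : ValuationSubring L) (N ℓ : ℕ) [NeZero N]
  [NeZero ℓ]
  [Algebra (↥W)[X] (S24.FF L N)]
  (halgN : algebraMap (↥W)[X] (S24.FF L N) = evF W N)
  (B₁ : Type*) [CommRing B₁] [Algebra (↥W)[X] B₁] [Algebra B₁ (S24.FF L N)]
  [IsScalarTower (↥W)[X] B₁ (S24.FF L N)]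
  [IsIntegralClosure B₁ (↥W)[X] (S24.FF L N)]
  [Algebra (↥W)[X] (S24.FF L (N * ℓ))]
  (halg : algebraMap (↥W)[X] (S24.FF L (N * ℓ)) = evF W (N * ℓ))
  (B : Type*) [CommRing B] [Algebra (↥W)[X] B] [Algebra B (S24.FF L (N * ℓ))]
  [IsScalarTower (↥W)[X] B (S24.FF L (N * ℓ))]
  [IsIntegralClosure B (↥W)[X] (S24.FF L (N * ℓ))]

include halgN halg in
theorem exists_beta (hℓ : ℓ.Prime) (c : B₁) : ∃ b : B,
    ((heckeBetaBar L N ℓ : S24.FF L N →+* S24.FF L (N * ℓ)).comp
      (algebraMap B₁ (S24.FF L N))) c = algebraMap B (S24.FF L (N * ℓ)) b := by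
  obtain ⟨b, hb⟩ := CompInst.exists_algebraMap_eq W (N * ℓ) halg B
    (BetaInt.isIntegralElem_beta W N ℓ hℓ (CompInst.isIntegralElem_algebraMap W N halgN B₁ c))
  exact ⟨b, hb.symm⟩

/-- the ring homomorphism `B₁ → B` induced by `β = heckeBetaBar` on the finite charts -/
def betaHom (hℓ : ℓ.Prime) : B₁ →+* B :=
  CompPts.factor
    ((heckeBetaBar L N ℓ : S24.FF L N →+* S24.FF L (N * ℓ)).comp
      (algebraMap B₁ (S24.FF L N)))
    (algebraMap B (S24.FF L (N * ℓ)))
    (IsIntegralClosure.algebraMap_injective B (↥W)[X] (S24.FF L (N * ℓ)))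
    (exists_beta W N ℓ halgN B₁ halg B hℓ)

theorem betaHom_spec (hℓ : ℓ.Prime) (c : B₁) :
    algebraMap B (S24.FF L (N * ℓ)) (betaHom W N ℓ halgN B₁ halg B hℓ c) =
      heckeBetaBar L N ℓ (algebraMap B₁ (S24.FF L N) c) :=
  CompPts.factor_spec _ _ _ _ c

theorem alphaHom_injective :
    Function.Injective (NodeOverInst.alphaHom W N ℓ halgN B₁ halg B) := by
  intro x y h
  apply IsIntegralClosure.algebraMap_injective B₁ (↥W)[X] (S24.FF L N)
  apply (heckeAlphaBar L N ℓ).toRingHom.injective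
  show heckeAlphaBar L N ℓ _ = heckeAlphaBar L N ℓ _
  rw [← NodeOverInst.alphaHom_spec W N ℓ halgN B₁ halg B, ← NodeOverInst.alphaHom_spec W N ℓ halgN B₁ halg B, h]

theorem betaHom_injective (hℓ : ℓ.Prime) :
    Function.Injective (betaHom W N ℓ halgN B₁ halg B hℓ) := by
  intro x y h
  apply IsIntegralClosure.algebraMap_injective B₁ (↥W)[X] (S24.FF L N)
  apply (heckeBetaBar L N ℓ).toRingHom.injective
  show heckeBetaBar L N ℓ _ = heckeBetaBar L N ℓ _
  rw [← betaHom_spec W N ℓ halgN B₁ halg B hℓ, ← betaHom_spec W N ℓ halgN B₁ halg B hℓ, h]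

/-- the chart map of level `N ℓ` factors through `alphaHom` -/
theorem alphaHom_algebraMap (p : (↥W)[X]) :
    NodeOverInst.alphaHom W N ℓ halgN B₁ halg B (algebraMap (↥W)[X] B₁ p) =
      algebraMap (↥W)[X] B p := by
  apply IsIntegralClosure.algebraMap_injective B (↥W)[X] (S24.FF L (N * ℓ))
  rw [NodeOverInst.alphaHom_spec, ← IsScalarTower.algebraMap_apply,
    ← IsScalarTower.algebraMap_apply, halgN, halg]
  have h := congrArg (fun f : (↥W)[X] →+* S24.FF L (N * ℓ) => f p) (BetaInt.alpha_comp_evF W N ℓ)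
  exact h

/-- **`B` is integral over `α (B₁)`.** -/
theorem alphaHom_isIntegral : (NodeOverInst.alphaHom W N ℓ halgN B₁ halg B).IsIntegral := by
  intro b
  have hint : Algebra.IsIntegral (↥W)[X] B :=
    IsIntegralClosure.isIntegral_algebra (↥W)[X] (S24.FF L (N * ℓ))
  obtain ⟨P, hP, hroot⟩ := hint.isIntegral b
  refine ⟨P.map (algebraMap (↥W)[X] B₁), hP.map _, ?_⟩
  rw [eval₂_map]
  have hcomp : (NodeOverInst.alphaHom W N ℓ halgN B₁ halg B).comp (algebraMap (↥W)[X] B₁) =
      algebraMap (↥W)[X] B := by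
    apply RingHom.ext
    intro p
    exact alphaHom_algebraMap W N ℓ halgN B₁ halg B p
  rw [hcomp]
  exact hroot

/-- **`B` is integral over `β (B₁)`.** -/
theorem betaHom_isIntegral (ι : L →+* Qb) (hℓ : ℓ.Prime) :
    (betaHom W N ℓ halgN B₁ halg B hℓ).IsIntegral := by
  intro b
  obtain ⟨P, hP, hroot⟩ := isIntegralElem_beta_comp W N ℓ ι hℓ
    (CompInst.isIntegralElem_algebraMap W (N * ℓ) halg B b)
  refine ⟨P.map (algebraMap (↥W)[X] B₁), hP.map _, ?_⟩
  apply IsIntegralClosure.algebraMap_injective B (↥W)[X] (S24.FF L (N * ℓ))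
  rw [map_zero, eval₂_map, Polynomial.hom_eval₂]
  have hcomp : (algebraMap B (S24.FF L (N * ℓ))).comp
      ((betaHom W N ℓ halgN B₁ halg B hℓ).comp (algebraMap (↥W)[X] B₁)) =
      (heckeBetaBar L N ℓ).toRingHom.comp (evF W N) := by
    apply RingHom.ext
    intro p
    rw [RingHom.comp_apply, RingHom.comp_apply, betaHom_spec, ← IsScalarTower.algebraMap_apply,
      halgN]
    rfl
  rw [hcomp]
  exact hroot

theorem alphaHom_comap_isMaximal (𝔫 : Ideal B) [𝔫.IsMaximal] :
    (𝔫.comap (NodeOverInst.alphaHom W N ℓ halgN B₁ halg B)).IsMaximal :=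
  Ideal.isMaximal_comap_of_isIntegral_of_isMaximal' _
    (alphaHom_isIntegral W N ℓ halgN B₁ halg B) 𝔫

theorem betaHom_comap_isMaximal (ι : L →+* Qb) (hℓ : ℓ.Prime) (𝔫 : Ideal B) [𝔫.IsMaximal] :
    (𝔫.comap (betaHom W N ℓ halgN B₁ halg B hℓ)).IsMaximal :=
  Ideal.isMaximal_comap_of_isIntegral_of_isMaximal' _
    (betaHom_isIntegral W N ℓ halgN B₁ halg B ι hℓ) 𝔫

end Carrier

/-! ### The Atkin–Lehner automorphism on the chart of level `M q` -/

section Atkin

variable {L : Type} [Field L] [Algebra ℚ L] (W : ValuationSubring L) (M q : ℕ) [NeZero M]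
  [NeZero q]
  [Algebra (↥W)[X] (S24.FF L (M * q))]
  (halg : algebraMap (↥W)[X] (S24.FF L (M * q)) = evF W (M * q))
  (B₁ : Type*) [CommRing B₁] [Algebra (↥W)[X] B₁] [Algebra B₁ (S24.FF L (M * q))]
  [IsScalarTower (↥W)[X] B₁ (S24.FF L (M * q))]
  [IsIntegralClosure B₁ (↥W)[X] (S24.FF L (M * q))]

include halg in
theorem exists_w (hq : q.Prime) (w : S24.FF L (M * q) ≃ₐ[L] S24.FF L (M * q))
    (hwα : (w : S24.FF L (M * q) →ₐ[L] S24.FF L (M * q)).comp (heckeAlphaBar L M q) =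
      heckeBetaBar L M q) (c : B₁) : ∃ b : B₁,
    (((w : S24.FF L (M * q) →ₐ[L] S24.FF L (M * q)) : S24.FF L (M * q) →+* S24.FF L (M * q)).comp
      (algebraMap B₁ (S24.FF L (M * q)))) c = algebraMap B₁ (S24.FF L (M * q)) b := by
  obtain ⟨b, hb⟩ := CompInst.exists_algebraMap_eq W (M * q) halg B₁
    (CompInst.isIntegralElem_atkin W M q hq w hwα
      (CompInst.isIntegralElem_algebraMap W (M * q) halg B₁ c))
  exact ⟨b, hb.symm⟩

/-- the ring endomorphism of the chart of level `M q` induced by an Atkin–Lehner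
automorphism `w` (`w ∘ α = β`) -/
def wHom (hq : q.Prime) (w : S24.FF L (M * q) ≃ₐ[L] S24.FF L (M * q))
    (hwα : (w : S24.FF L (M * q) →ₐ[L] S24.FF L (M * q)).comp (heckeAlphaBar L M q) =
      heckeBetaBar L M q) : B₁ →+* B₁ :=
  CompPts.factor
    (((w : S24.FF L (M * q) →ₐ[L] S24.FF L (M * q)) : S24.FF L (M * q) →+* S24.FF L (M * q)).comp
      (algebraMap B₁ (S24.FF L (M * q))))
    (algebraMap B₁ (S24.FF L (M * q)))
    (IsIntegralClosure.algebraMap_injective B₁ (↥W)[X] (S24.FF L (M * q)))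
    (exists_w W M q halg B₁ hq w hwα)

theorem wHom_spec (hq : q.Prime) (w : S24.FF L (M * q) ≃ₐ[L] S24.FF L (M * q))
    (hwα : (w : S24.FF L (M * q) →ₐ[L] S24.FF L (M * q)).comp (heckeAlphaBar L M q) =
      heckeBetaBar L M q) (c : B₁) :
    algebraMap B₁ (S24.FF L (M * q)) (wHom W M q halg B₁ hq w hwα c) =
      w (algebraMap B₁ (S24.FF L (M * q)) c) :=
  CompPts.factor_spec _ _ _ _ c

/-- `w ∘ w = id` on the chart -/
theorem wHom_wHom (hq : q.Prime) (w : S24.FF L (M * q) ≃ₐ[L] S24.FF L (M * q))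
    (hwα : (w : S24.FF L (M * q) →ₐ[L] S24.FF L (M * q)).comp (heckeAlphaBar L M q) =
      heckeBetaBar L M q) (hww : ∀ x, w (w x) = x) (c : B₁) :
    wHom W M q halg B₁ hq w hwα (wHom W M q halg B₁ hq w hwα c) = c := by
  apply IsIntegralClosure.algebraMap_injective B₁ (↥W)[X] (S24.FF L (M * q))
  rw [wHom_spec, wHom_spec, hww]

theorem wHom_injective (hq : q.Prime) (w : S24.FF L (M * q) ≃ₐ[L] S24.FF L (M * q))
    (hwα : (w : S24.FF L (M * q) →ₐ[L] S24.FF L (M * q)).comp (heckeAlphaBar L M q) =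
      heckeBetaBar L M q) : Function.Injective (wHom W M q halg B₁ hq w hwα) := by
  intro x y h
  apply IsIntegralClosure.algebraMap_injective B₁ (↥W)[X] (S24.FF L (M * q))
  apply w.injective
  rw [← wHom_spec W M q halg B₁ hq w hwα, ← wHom_spec W M q halg B₁ hq w hwα, h]

variable [Algebra (↥W)[X] (S24.FF L M)]
  (halgM : algebraMap (↥W)[X] (S24.FF L M) = evF W M)
  (BM : Type*) [CommRing BM] [Algebra (↥W)[X] BM] [Algebra BM (S24.FF L M)]
  [IsScalarTower (↥W)[X] BM (S24.FF L M)]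
  [IsIntegralClosure BM (↥W)[X] (S24.FF L M)]

/-- `w ∘ α = β` on the charts -/
theorem wHom_alphaHom (hq : q.Prime) (w : S24.FF L (M * q) ≃ₐ[L] S24.FF L (M * q))
    (hwα : (w : S24.FF L (M * q) →ₐ[L] S24.FF L (M * q)).comp (heckeAlphaBar L M q) =
      heckeBetaBar L M q) (c : BM) :
    wHom W M q halg B₁ hq w hwα (NodeOverInst.alphaHom W M q halgM BM halg B₁ c) =
      betaHom W M q halgM BM halg B₁ hq c := by
  apply IsIntegralClosure.algebraMap_injective B₁ (↥W)[X] (S24.FF L (M * q))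
  rw [wHom_spec, NodeOverInst.alphaHom_spec, betaHom_spec]
  exact congrArg (fun f : S24.FF L M →ₐ[L] S24.FF L (M * q) =>
    f (algebraMap BM (S24.FF L M) c)) hwα

/-- `w ∘ β = α` on the charts -/
theorem wHom_betaHom (hq : q.Prime) (w : S24.FF L (M * q) ≃ₐ[L] S24.FF L (M * q))
    (hwα : (w : S24.FF L (M * q) →ₐ[L] S24.FF L (M * q)).comp (heckeAlphaBar L M q) =
      heckeBetaBar L M q)
    (hwβ : (w : S24.FF L (M * q) →ₐ[L] S24.FF L (M * q)).comp (heckeBetaBar L M q) =
      heckeAlphaBar L M q) (c : BM) :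
    wHom W M q halg B₁ hq w hwα (betaHom W M q halgM BM halg B₁ hq c) =
      NodeOverInst.alphaHom W M q halgM BM halg B₁ c := by
  apply IsIntegralClosure.algebraMap_injective B₁ (↥W)[X] (S24.FF L (M * q))
  rw [wHom_spec, NodeOverInst.alphaHom_spec, betaHom_spec]
  exact congrArg (fun f : S24.FF L M →ₐ[L] S24.FF L (M * q) =>
    f (algebraMap BM (S24.FF L M) c)) hwβ

variable [Algebra (↥W)[X] (S24.FF L (M * q * q))]
  (halg₂ : algebraMap (↥W)[X] (S24.FF L (M * q * q)) = evF W (M * q * q))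
  (B : Type*) [CommRing B] [Algebra (↥W)[X] B] [Algebra B (S24.FF L (M * q * q))]
  [IsScalarTower (↥W)[X] B (S24.FF L (M * q * q))]
  [IsIntegralClosure B (↥W)[X] (S24.FF L (M * q * q))]

/-- `a₂ ∘ b₁ = b₂ ∘ a₁` on the charts -/
theorem alphaHom_betaHom (hq : q.Prime) (c : BM) :
    NodeOverInst.alphaHom W (M * q) q halg B₁ halg₂ B (betaHom W M q halgM BM halg B₁ hq c) =
      betaHom W (M * q) q halg B₁ halg₂ B hq (NodeOverInst.alphaHom W M q halgM BM halg B₁ c) := by
  apply IsIntegralClosure.algebraMap_injective B (↥W)[X] (S24.FF L (M * q * q))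
  rw [NodeOverInst.alphaHom_spec, betaHom_spec, betaHom_spec, NodeOverInst.alphaHom_spec]
  exact (Fermat.Agent.S36.AtkinSq.beta_alpha_eq_alpha_beta M q _).symm

/-- the element `y₀ = a₂ (w h)` of the chart of level `M q²` -/
theorem alphaHom_wHom_spec (hq : q.Prime) (w : S24.FF L (M * q) ≃ₐ[L] S24.FF L (M * q))
    (hwα : (w : S24.FF L (M * q) →ₐ[L] S24.FF L (M * q)).comp (heckeAlphaBar L M q) =
      heckeBetaBar L M q) (h : B₁) :
    algebraMap B (S24.FF L (M * q * q))
      (NodeOverInst.alphaHom W (M * q) q halg B₁ halg₂ B (wHom W M q halg B₁ hq w hwα h)) =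
      heckeAlphaBar L (M * q) q (w (algebraMap B₁ (S24.FF L (M * q)) h)) := by
  rw [NodeOverInst.alphaHom_spec, wHom_spec]

/-- the element `b₂ (w h)` of the chart of level `M q²` (mirror) -/
theorem betaHom_wHom_spec (hq : q.Prime) (w : S24.FF L (M * q) ≃ₐ[L] S24.FF L (M * q))
    (hwα : (w : S24.FF L (M * q) →ₐ[L] S24.FF L (M * q)).comp (heckeAlphaBar L M q) =
      heckeBetaBar L M q) (h : B₁) :
    algebraMap B (S24.FF L (M * q * q))
      (betaHom W (M * q) q halg B₁ halg₂ B hq (wHom W M q halg B₁ hq w hwα h)) =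
      heckeBetaBar L (M * q) q (w (algebraMap B₁ (S24.FF L (M * q)) h)) := by
  rw [betaHom_spec, wHom_spec]

end Atkin

end Fermat.Agent.S36.BetaHom
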