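import Mathlib
import Fermat.Agent.S34.TwoExt

/-!
# S36 package (V), counting tool (NExt): finitely many extensions of a discrete valuation,
with ramification

`O` a discrete valuation ring with fraction field `K` and uniformiser `π`, `E / K` a finite
separable extension, `V i` (`i` in a finite index type) pairwise distinct valuation subrings of
`E` containing `O` in which `π` is not invertible.  For every `i` we are given *witnesses* for
lower bounds of the ramification index and of the residue degree:

* a non-unit `t i` of `V i` and a number `e i` with `π = (t i) ^ (e i) * u`, `u ∈ V i`;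
* a family `b i` of `m i` elements of `V i`, residually independent over the residue field
  of `O`.

If `[E : K] ≤ ∑ i, e i * m i`, then everything is forced: the ramification index of `V i` is
`e i`, its residue degree is `m i`, `t i` is a uniformiser of `V i`, `b i` is a basis of the
residue field, there is no further extension, and the integral closure of `O` in `E` is
`⋂ i, V i`.  This generalises `Fermat.Agent.S34.TwoExt` (two extensions, `e = 1`).
-/

set_option autoImplicit false

namespace Fermat.Agent.S36.NExt

open IsLocalRing Fermat.Agent.S34.TwoExt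

section Main

variable {O : Type*} (K : Type*) {E : Type*} [CommRing O] [IsDomain O] [IsDiscreteValuationRing O]
  [Field K] [Field E] [Algebra O K] [IsFractionRing O K] [Algebra K E] [Algebra O E]
  [IsScalarTower O K E]

/-- The standing hypotheses of the count with ramification. -/
structure Hyp {ι : Type*} [Fintype ι] (π : O) (V : ι → ValuationSubring E) (e : ι → ℕ)
    (t : ι → E) (m : ι → ℕ) (b : ∀ i, Fin (m i) → E) : Prop where
  irreducible : Irreducible π
  le : ∀ (i : ι) (a : O), algebraMap O E a ∈ V i
  inv_notMem : ∀ i, (algebraMap O E π)⁻¹ ∉ V i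
  injective : Function.Injective V
  mem_nonunits : ∀ i, t i ∈ (V i).nonunits
  ram : ∀ i, ∃ u ∈ V i, algebraMap O E π = t i ^ e i * u
  mem : ∀ i j, b i j ∈ V i
  indep : ∀ (i : ι) (c : Fin (m i) → O),
    (∑ j, algebraMap O E (c j) * b i j) ∈ (V i).nonunits → ∀ j, c j ∈ maximalIdeal O
  finrank_le : Module.finrank K E ≤ ∑ i, e i * m i

variable {K}

section Count

variable (K) [FiniteDimensional K E] [Algebra.IsSeparable K E]
include K

/-- An element of the integral closure of the shape `t ^ n * y` (`t` a non-unit of `V`, `y ∈ V`)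
lies in the `n`-th power of the centre of `V`. -/
theorem mem_pow_of_eq {π : O} (hπ : Irreducible π) (V : ValuationSubring E)
    (hV : ∀ a : O, algebraMap O E a ∈ V) (hinv : (algebraMap O E π)⁻¹ ∉ V) {n : ℕ} {t y : E}
    (ht : t ∈ V.nonunits) (hy : y ∈ V) (c : integralClosure O E)
    (h : algebraMap (integralClosure O E) E c = t ^ n * y) :
    c ∈ centre V (closure_le V hV) ^ n := by
  have hD : IsDedekindDomain (integralClosure O E) := integralClosure.isDedekindDomain O K E
  have hF : IsFractionRing (integralClosure O E) E :=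
    IsIntegralClosure.isFractionRing_of_finite_extension O K E (integralClosure O E)
  set P := centre V (closure_le V hV) with hP
  have hb : P ≠ ⊥ := centre_ne_bot hπ V hV hinv
  have htV : t ∈ V := by
    rw [← V.valuation_le_one_iff]; exact ((V.mem_nonunits_iff).1 ht).le
  obtain ⟨a, s, hs, hts⟩ := exists_mul_eq V (closure_le V hV) hb htV
  obtain ⟨a', s', hs', hys⟩ := exists_mul_eq V (closure_le V hV) hb hy
  have haP : a ∈ P := by
    rw [hP, mem_centre_iff, ← hts, map_mul, valuation_eq_one_of_notMem V _ hs, mul_one]
    exact (V.mem_nonunits_iff).1 ht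
  have hC : (s ^ n * s') * c = a ^ n * a' := by
    apply IsFractionRing.injective (integralClosure O E) E
    rw [map_mul, map_mul, map_mul, map_pow, map_pow, h, ← hts, ← hys]; ring
  have h1 : (s ^ n * s') * c ∈ P ^ n := by
    rw [hC]; exact Ideal.mul_mem_right _ _ (Ideal.pow_mem_pow haP n)
  rcases Ideal.IsPrime.mul_mem_pow P h1 with h2 | h2
  · exfalso
    rcases Ideal.IsPrime.mem_or_mem inferInstance h2 with h3 | h3
    · exact hs (Ideal.IsPrime.mem_of_pow_mem inferInstance n h3)
    · exact hs' h3
  · exact h2

/-- **Lower bound for the ramification index from a witness**: if `π = t ^ n * u` with `t` a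
non-unit of `V` and `u ∈ V`, then the ramification index of the centre of `V` is at least `n`. -/
theorem le_ramificationIdx {π : O} (hπ : Irreducible π) (V : ValuationSubring E)
    (hV : ∀ a : O, algebraMap O E a ∈ V) (hinv : (algebraMap O E π)⁻¹ ∉ V) {n : ℕ} {t u : E}
    (ht : t ∈ V.nonunits) (hu : u ∈ V) (h : algebraMap O E π = t ^ n * u) :
    n ≤ (centre V (closure_le V hV)).ramificationIdx O := by
  have hD : IsDedekindDomain (integralClosure O E) := integralClosure.isDedekindDomain O K E
  set P := centre V (closure_le V hV) with hP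
  have hl : P.LiesOver (maximalIdeal O) := ⟨(centre_under hπ V hV hinv).symm⟩
  have hmem : algebraMap O (integralClosure O E) π ∈ P ^ n :=
    mem_pow_of_eq K hπ V hV hinv ht hu _ h
  have hπ0 : algebraMap O (integralClosure O E) π ≠ 0 := by
    intro h0
    have h1 : algebraMap O E π = 0 := by
      have := congrArg (algebraMap (integralClosure O E) E) h0
      simpa using this
    exact hinv (by rw [h1, inv_zero]; exact V.zero_mem)
  have hmap : (maximalIdeal O).map (algebraMap O (integralClosure O E)) =
      Ideal.span {algebraMap O (integralClosure O E) π} := by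
    rw [hπ.maximalIdeal_eq, Ideal.map_span, Set.image_singleton]
  have hne : (maximalIdeal O).map (algebraMap O (integralClosure O E)) ≠ ⊥ := by
    rw [hmap, Ne, Ideal.span_singleton_eq_bot]; exact hπ0
  rw [Ideal.IsDedekindDomain.ramificationIdx_eq_multiplicity (maximalIdeal O) P hne]
  have hfin : FiniteMultiplicity P
      ((maximalIdeal O).map (algebraMap O (integralClosure O E))) :=
    FiniteMultiplicity.of_not_isUnit
      (by rw [Ideal.isUnit_iff]; exact Ideal.IsPrime.ne_top inferInstance) hne
  apply hfin.le_multiplicity_of_pow_dvd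
  rw [Ideal.dvd_iff_le, hmap, Ideal.span_singleton_le_iff_mem]
  exact hmem

/-- If the witness `π = t ^ n * u` is sharp (`n` is at least the ramification index of the
centre of `V`, `0 < n`), then `t` generates the non-units of `V`. -/
theorem exists_eq_mul_of_ram {π : O} (hπ : Irreducible π) (V : ValuationSubring E)
    (hV : ∀ a : O, algebraMap O E a ∈ V) (hinv : (algebraMap O E π)⁻¹ ∉ V) {n : ℕ} {t u : E}
    (ht : t ∈ V.nonunits) (hu : u ∈ V) (h : algebraMap O E π = t ^ n * u) (hn : 0 < n)
    (hle : (centre V (closure_le V hV)).ramificationIdx O ≤ n) {x : E} (hx : x ∈ V.nonunits) :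
    ∃ y ∈ V, x = t * y := by
  by_cases hxt : x / t ∈ V
  · have ht0 : t ≠ 0 := by
      rintro rfl
      apply hinv
      rw [h, zero_pow hn.ne', zero_mul, inv_zero]
      exact V.zero_mem
    exact ⟨x / t, hxt, by field_simp⟩
  · exfalso
    have ht0 : t ≠ 0 := by rintro rfl; simp at hxt
    have hx0 : x ≠ 0 := by rintro rfl; simp at hxt
    have hwn : t / x ∈ V.nonunits := by
      rw [V.mem_nonunits_iff, ← inv_div, map_inv₀]
      apply inv_lt_one_of_one_lt₀
      rw [← not_le, V.valuation_le_one_iff]
      exact hxt
    obtain ⟨z, c, hz, hc, htz⟩ : ∃ z c : E, z ∈ V.nonunits ∧ c ∈ V ∧ t = z ^ 2 * c := by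
      rcases V.mem_or_inv_mem (t / x / x) with hc | hc
      · exact ⟨x, t / x / x, hx, hc, by field_simp⟩
      · exact ⟨t / x, (t / x / x)⁻¹, hwn, hc, by field_simp⟩
    have h2 : algebraMap O E π = z ^ (2 * n) * (c ^ n * u) := by
      rw [h, htz]; ring
    have := le_ramificationIdx K hπ V hV hinv hz (V.mul_mem _ _ (pow_mem hc n) hu) h2
    omega

variable {ι : Type*} [Fintype ι] {π : O} {V : ι → ValuationSubring E} {e : ι → ℕ}
  {t : ι → E} {m : ι → ℕ} {b : ∀ i, Fin (m i) → E}

/-- **The count with ramification.** -/
theorem Hyp.core (h : Hyp K π V e t m b) :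
    (∀ i, (centre (V i) (closure_le (V i) (h.le i))).ramificationIdx O = e i) ∧
    (∀ i, (centre (V i) (closure_le (V i) (h.le i))).inertiaDeg O = m i) ∧
    Module.finrank K E = ∑ i, e i * m i ∧
    ∀ Q : Ideal (integralClosure O E), Q.IsPrime → Q.under O = maximalIdeal O →
      ∃ i, Q = centre (V i) (closure_le (V i) (h.le i)) := by
  classical
  have hD : IsDedekindDomain (integralClosure O E) := integralClosure.isDedekindDomain O K E
  have hF : IsFractionRing (integralClosure O E) E :=
    IsIntegralClosure.isFractionRing_of_finite_extension O K E (integralClosure O E)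
  have hfin : Module.Finite O (integralClosure O E) :=
    IsIntegralClosure.finite O K E (integralClosure O E)
  have hfaith : FaithfulSMul O E := by
    rw [faithfulSMul_iff_algebraMap_injective, IsScalarTower.algebraMap_eq O K E]
    exact (algebraMap K E).injective.comp (IsFractionRing.injective O K)
  have htf : Module.IsTorsionFree O E := inferInstance
  have htfC : Module.IsTorsionFree O (integralClosure O E) := IsIntegralClosure.isTorsionFree O E
  have hfree : Module.Free O (integralClosure O E) :=
    IsIntegralClosure.module_free O K E (integralClosure O E)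
  have hrank : Module.finrank O (integralClosure O E) = Module.finrank K E :=
    IsIntegralClosure.rank O K E (integralClosure O E)
  set p := maximalIdeal O with hp
  set P : ι → Ideal (integralClosure O E) := fun i => centre (V i) (closure_le (V i) (h.le i))
    with hP
  have hl : ∀ i, (P i).LiesOver p := fun i =>
    ⟨(centre_under h.irreducible (V i) (h.le i) (h.inv_notMem i)).symm⟩
  have hPinj : Function.Injective P := fun i j hij =>
    h.injective (eq_of_centre_eq K h.irreducible (V i) (V j) (h.le i) (h.inv_notMem i) (h.le j)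
      (h.inv_notMem j) hij)
  -- lower bounds
  have hf : ∀ i, m i ≤ (P i).inertiaDeg O := fun i =>
    le_inertiaDeg K h.irreducible (V i) (h.le i) (h.inv_notMem i) (h.mem i) (h.indep i)
  have he : ∀ i, e i ≤ (P i).ramificationIdx O := fun i => by
    obtain ⟨u, hu, hπu⟩ := h.ram i
    exact le_ramificationIdx K h.irreducible (V i) (h.le i) (h.inv_notMem i) (h.mem_nonunits i)
      hu hπu
  -- the sum formula
  have hsum := Ideal.sum_ramification_inertia_eq_finrank p (integralClosure O E)
  rw [hrank] at hsum
  let Qs : ι → p.primesOver (integralClosure O E) := fun i => ⟨P i, inferInstance, hl i⟩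
  have hQinj : Function.Injective Qs := fun i j hij => hPinj (congrArg Subtype.val hij)
  have hpos : ∀ q : p.primesOver (integralClosure O E),
      1 ≤ q.1.ramificationIdx O ∧ 1 ≤ q.1.inertiaDeg O := by
    intro q
    have : q.1.IsPrime := q.2.1
    exact ⟨Ideal.ramificationIdx_pos q.1 O, Ideal.inertiaDeg_pos q.1 O⟩
  have h2 : ∑ i, (P i).ramificationIdx O * (P i).inertiaDeg O ≤ Module.finrank K E := by
    rw [← hsum]
    have := Finset.sum_le_sum_of_subset (f := fun q : p.primesOver (integralClosure O E) =>
      q.1.ramificationIdx O * q.1.inertiaDeg O) (Finset.subset_univ (Finset.univ.image Qs))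
    rwa [Finset.sum_image (fun i _ j _ hij => hQinj hij)] at this
  have hterm : ∀ i ∈ Finset.univ, e i * m i ≤ (P i).ramificationIdx O * (P i).inertiaDeg O :=
    fun i _ => Nat.mul_le_mul (he i) (hf i)
  have h3 : ∑ i, e i * m i ≤ ∑ i, (P i).ramificationIdx O * (P i).inertiaDeg O :=
    Finset.sum_le_sum hterm
  have hle := h.finrank_le
  have h4 : ∑ i, e i * m i = ∑ i, (P i).ramificationIdx O * (P i).inertiaDeg O := by omega
  have h5 := (Finset.sum_eq_sum_iff_of_le hterm).1 h4
  have hn : Module.finrank K E = ∑ i, e i * m i := by omega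
  have hE : ∀ i, (P i).ramificationIdx O = e i := by
    intro i
    by_contra hne
    have hlt : e i < (P i).ramificationIdx O := lt_of_le_of_ne (he i) (Ne.symm hne)
    have h6 : e i * m i < (P i).ramificationIdx O * (P i).inertiaDeg O :=
      calc e i * m i ≤ e i * (P i).inertiaDeg O := Nat.mul_le_mul_left _ (hf i)
        _ < (P i).ramificationIdx O * (P i).inertiaDeg O :=
          Nat.mul_lt_mul_of_pos_right hlt (hpos (Qs i)).2
    have := h5 i (Finset.mem_univ i)
    omega
  have hFd : ∀ i, (P i).inertiaDeg O = m i := by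
    intro i
    by_contra hne
    have hlt : m i < (P i).inertiaDeg O := lt_of_le_of_ne (hf i) (Ne.symm hne)
    have h6 : e i * m i < (P i).ramificationIdx O * (P i).inertiaDeg O :=
      calc e i * m i ≤ (P i).ramificationIdx O * m i := Nat.mul_le_mul_right _ (he i)
        _ < (P i).ramificationIdx O * (P i).inertiaDeg O :=
          Nat.mul_lt_mul_of_pos_left hlt (hpos (Qs i)).1
    have := h5 i (Finset.mem_univ i)
    omega
  refine ⟨hE, hFd, hn, ?_⟩
  intro Q hQ hQp
  have hlQ : Q.LiesOver p := ⟨hQp.symm⟩
  let Q₃ : p.primesOver (integralClosure O E) := ⟨Q, hQ, hlQ⟩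
  by_contra hcon
  rw [not_exists] at hcon
  have hQ3 : Q₃ ∉ Finset.univ.image Qs := by
    rw [Finset.mem_image]
    rintro ⟨i, -, hi⟩
    exact hcon i (congrArg Subtype.val hi).symm
  have h7 := Finset.sum_le_sum_of_subset (f := fun q : p.primesOver (integralClosure O E) =>
      q.1.ramificationIdx O * q.1.inertiaDeg O)
      (Finset.subset_univ (insert Q₃ (Finset.univ.image Qs)))
  rw [Finset.sum_insert hQ3, Finset.sum_image (fun i _ j _ hij => hQinj hij), hsum] at h7
  obtain ⟨he₃, hf₃⟩ := hpos Q₃
  have hE3 : 1 ≤ Q.ramificationIdx O * Q.inertiaDeg O := Nat.mul_pos he₃ hf₃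
  have h7' : Q.ramificationIdx O * Q.inertiaDeg O +
      ∑ i, (P i).ramificationIdx O * (P i).inertiaDeg O ≤ Module.finrank K E := h7
  omega

section Consequences

/-- `[E : K] = ∑ i, e i * m i`. -/
theorem Hyp.finrank_eq (h : Hyp K π V e t m b) : Module.finrank K E = ∑ i, e i * m i :=
  h.core.2.2.1

/-- The `V i` are the only valuation subrings of `E` containing `O` in which `π` is not
invertible. -/
theorem Hyp.exists_eq (h : Hyp K π V e t m b) (V' : ValuationSubring E)
    (hV : ∀ a : O, algebraMap O E a ∈ V') (hinv : (algebraMap O E π)⁻¹ ∉ V') :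
    ∃ i, V' = V i := by
  obtain ⟨i, hi⟩ := h.core.2.2.2 (centre V' (closure_le V' hV)) inferInstance
    (centre_under h.irreducible V' hV hinv)
  exact ⟨i, eq_of_centre_eq K h.irreducible V' (V i) hV hinv (h.le i) (h.inv_notMem i) hi⟩

/-- **The integral closure of `O` in `E` is `⋂ i, V i`.** -/
theorem Hyp.isIntegral_iff (h : Hyp K π V e t m b) (x : E) :
    IsIntegral O x ↔ ∀ i, x ∈ V i := by
  refine ⟨fun hx i => mem_of_isIntegral (V i) (h.le i) hx, ?_⟩
  intro hx
  have hD : IsDedekindDomain (integralClosure O E) := integralClosure.isDedekindDomain O K E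
  have hF : IsFractionRing (integralClosure O E) E :=
    IsIntegralClosure.isFractionRing_of_finite_extension O K E (integralClosure O E)
  -- the denominator ideal of `x`
  let I : Ideal (integralClosure O E) :=
    { carrier := {c | ∃ a : integralClosure O E,
        x * algebraMap (integralClosure O E) E c = algebraMap (integralClosure O E) E a}
      add_mem' := by
        rintro c c' ⟨a, ha⟩ ⟨a', ha'⟩
        exact ⟨a + a', by rw [map_add, map_add, mul_add, ha, ha']⟩
      zero_mem' := ⟨0, by simp⟩
      smul_mem' := by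
        rintro r c ⟨a, ha⟩
        exact ⟨r * a, by rw [smul_eq_mul, map_mul, map_mul, mul_left_comm, ha]⟩ }
  by_cases hI : I = ⊤
  · have h1 : (1 : integralClosure O E) ∈ I := by rw [hI]; exact Submodule.mem_top
    obtain ⟨a, ha⟩ := h1
    rw [map_one, mul_one] at ha
    rw [ha]
    exact a.2
  · exfalso
    obtain ⟨M, hM, hIM⟩ := Ideal.exists_le_maximal I hI
    have hMu : (M.under O).IsMaximal :=
      Ideal.isMaximal_comap_of_isIntegral_of_isMaximal (R := O) M
    have hMp : M.under O = maximalIdeal O := IsLocalRing.eq_maximalIdeal hMu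
    obtain ⟨i, hi⟩ := h.core.2.2.2 M hM.isPrime hMp
    obtain ⟨a, s, hs, hxs⟩ := exists_mul_eq (V i) (closure_le (V i) (h.le i))
      (centre_ne_bot h.irreducible (V i) (h.le i) (h.inv_notMem i)) (hx i)
    exact hs (hi ▸ hIM ⟨a, hxs⟩)

/-- The ramification witnesses are sharp: `1 ≤ e i`. -/
theorem Hyp.one_le_e (h : Hyp K π V e t m b) (i : ι) : 1 ≤ e i := by
  have hfin : Module.Finite O (integralClosure O E) :=
    IsIntegralClosure.finite O K E (integralClosure O E)
  rw [← h.core.1 i]
  exact Ideal.ramificationIdx_pos _ O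

/-- The residue witnesses are sharp: `1 ≤ m i`. -/
theorem Hyp.one_le_m (h : Hyp K π V e t m b) (i : ι) : 1 ≤ m i := by
  have hfin : Module.Finite O (integralClosure O E) :=
    IsIntegralClosure.finite O K E (integralClosure O E)
  have hl : (centre (V i) (closure_le (V i) (h.le i))).LiesOver (maximalIdeal O) :=
    ⟨(centre_under h.irreducible (V i) (h.le i) (h.inv_notMem i)).symm⟩
  rw [← h.core.2.1 i]
  exact Ideal.inertiaDeg_pos _ O

/-- **`t i` is a uniformiser of `V i`.** -/
theorem Hyp.exists_eq_mul (h : Hyp K π V e t m b) (i : ι) {x : E} (hx : x ∈ (V i).nonunits) :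
    ∃ y ∈ V i, x = t i * y := by
  obtain ⟨u, hu, hπu⟩ := h.ram i
  exact exists_eq_mul_of_ram K h.irreducible (V i) (h.le i) (h.inv_notMem i) (h.mem_nonunits i)
    hu hπu (h.one_le_e K i) (h.core.1 i).le hx

/-- `π = (t i) ^ (e i) * u` with `u` a unit of `V i`. -/
theorem Hyp.exists_unit_ram (h : Hyp K π V e t m b) (i : ι) :
    ∃ u : E, u ∈ V i ∧ u⁻¹ ∈ V i ∧ algebraMap O E π = t i ^ e i * u := by
  obtain ⟨u, hu, hπu⟩ := h.ram i
  refine ⟨u, hu, ?_, hπu⟩
  by_contra hinv
  have hun : u ∈ (V i).nonunits := by
    rw [(V i).mem_nonunits_iff]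
    by_contra hlt
    rw [not_lt] at hlt
    apply hinv
    rw [← (V i).valuation_le_one_iff, map_inv₀]
    exact inv_le_one_of_one_le₀ hlt
  obtain ⟨y, hy, rfl⟩ := h.exists_eq_mul K i hun
  have h2 : algebraMap O E π = t i ^ (e i + 1) * y := by rw [hπu]; ring
  have := le_ramificationIdx K h.irreducible (V i) (h.le i) (h.inv_notMem i) (h.mem_nonunits i)
    hy h2
  rw [h.core.1 i] at this
  omega

/-- Non-units of `V i` have `n`-th powers divisible by `π` in `V i` as soon as `e i ≤ n`. -/
theorem Hyp.pow_div_mem (h : Hyp K π V e t m b) (i : ι) {x : E} (hx : x ∈ (V i).nonunits)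
    {n : ℕ} (hn : e i ≤ n) : x ^ n / algebraMap O E π ∈ V i := by
  obtain ⟨u, hu, hu', hπu⟩ := h.exists_unit_ram K i
  obtain ⟨y, hy, rfl⟩ := h.exists_eq_mul K i hx
  have hπ0 : algebraMap O E π ≠ 0 := by
    intro h0
    exact h.inv_notMem i (by rw [h0, inv_zero]; exact (V i).zero_mem)
  have ht0 : t i ^ e i ≠ 0 := by
    intro h0
    rw [hπu, h0, zero_mul] at hπ0
    exact hπ0 rfl
  have hu0 : u ≠ 0 := by
    rintro rfl
    rw [hπu, mul_zero] at hπ0
    exact hπ0 rfl
  have htV : t i ∈ V i := by
    rw [← (V i).valuation_le_one_iff]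
    exact (((V i).mem_nonunits_iff).1 (h.mem_nonunits i)).le
  have e1 : (t i * y) ^ n / algebraMap O E π = t i ^ (n - e i) * y ^ n * u⁻¹ := by
    rw [hπu, mul_pow, ← Nat.sub_add_cancel hn, pow_add, Nat.add_sub_cancel]
    field_simp
  rw [e1]
  exact (V i).mul_mem _ _ ((V i).mul_mem _ _ (pow_mem htV _) (pow_mem hy _)) hu'

/-- **Radical powers are divisible by `π` in the integral closure**: if `x` is a non-unit of
every `V i` and `e i ≤ n` for all `i`, then `x ^ n = π * z` with `z` integral over `O`. -/
theorem Hyp.exists_isIntegral_pow_eq (h : Hyp K π V e t m b) {x : E}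
    (hx : ∀ i, x ∈ (V i).nonunits) {n : ℕ} (hn : ∀ i, e i ≤ n) :
    ∃ z : E, IsIntegral O z ∧ x ^ n = algebraMap O E π * z := by
  classical
  by_cases hι : IsEmpty ι
  · exfalso
    have h1 := h.finrank_eq K
    rw [Finset.univ_eq_empty, Finset.sum_empty] at h1
    have h2 : 0 < Module.finrank K E := Module.finrank_pos
    omega
  · rw [not_isEmpty_iff] at hι
    obtain ⟨i₀⟩ := hι
    have hπ0 : algebraMap O E π ≠ 0 := by
      intro h0
      exact h.inv_notMem i₀ (by rw [h0, inv_zero]; exact (V i₀).zero_mem)
    refine ⟨x ^ n / algebraMap O E π, (h.isIntegral_iff K _).2 fun i =>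
      h.pow_div_mem K i (hx i) (hn i), ?_⟩
    field_simp

/-- The family `b i` spans the residue field of `V i` over the residue field of `O`. -/
theorem Hyp.exists_sub_sum_mem_nonunits (h : Hyp K π V e t m b) (i : ι) {x : E}
    (hx : x ∈ V i) :
    ∃ c : Fin (m i) → O, x - ∑ j, algebraMap O E (c j) * b i j ∈ (V i).nonunits :=
  Fermat.Agent.S34.TwoExt.exists_sub_sum_mem_nonunits K h.irreducible (V i) (h.le i)
    (h.inv_notMem i) (h.mem i) (h.indep i) (h.core.2.1 i) hx

/-- Weak approximation: prescribed residues at all the `V i` are realised by an integral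
element. -/
theorem Hyp.exists_isIntegral_approx (h : Hyp K π V e t m b) (x : ι → E)
    (hx : ∀ i, x i ∈ V i) :
    ∃ z : E, IsIntegral O z ∧ ∀ i, z - x i ∈ (V i).nonunits := by
  have hD : IsDedekindDomain (integralClosure O E) := integralClosure.isDedekindDomain O K E
  have hm : ∀ i, (centre (V i) (closure_le (V i) (h.le i))).IsMaximal := fun i =>
    Ideal.IsPrime.isMaximal inferInstance
      (centre_ne_bot h.irreducible (V i) (h.le i) (h.inv_notMem i))
  choose c hc using fun i =>
    exists_closure_sub_mem_nonunits K h.irreducible (V i) (h.le i) (h.inv_notMem i) (hx i)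
  have hcop : Pairwise (Function.onFun IsCoprime
      fun i => centre (V i) (closure_le (V i) (h.le i))) := by
    intro i j hij
    rw [Function.onFun, Ideal.isCoprime_iff_sup_eq]
    exact Ideal.IsMaximal.coprime_of_ne (hm i) (hm j) fun heq =>
      hij (h.injective (eq_of_centre_eq K h.irreducible (V i) (V j) (h.le i) (h.inv_notMem i)
        (h.le j) (h.inv_notMem j) heq))
  obtain ⟨r, hr⟩ := Ideal.exists_forall_sub_mem_ideal hcop c
  refine ⟨algebraMap (integralClosure O E) E r, r.2, fun i => ?_⟩
  have e1 : algebraMap (integralClosure O E) E r - x i =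
      algebraMap (integralClosure O E) E (r - c i) -
        (x i - algebraMap (integralClosure O E) E (c i)) := by
    rw [map_sub]; ring
  rw [e1]
  exact sub_mem (((V i).mem_nonunits_iff).2 ((mem_centre_iff (V i) _ _).1 (hr i))) (hc i)

end Consequences

end Count

end Main

end Fermat.Agent.S36.NExt
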