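import Mathlib
import Fermat.Agent.S36.NExt
import Fermat.Agent.S36.DegreeDvd
import Fermat.Agent.S34.ResField
import Fermat.Agent.S34.TwoGauss
import Fermat.Agent.S34.BetaInt
import Fermat.Agent.S34.FinDich

/-!
# S36 (wave 8), (R-ss) / K4 case (I): the vertical inputs at the `∞`-component of level `M q²`

Raw S18 / S34 currency (`contentRing`, `red`, `rd`, `IsIntegralElem`), no carriers.

* `hyp_beta` : **(II')** for a prime `ℓ ∣ N`, the hypotheses `NExt.Hyp` of the count with
  ramification for `FF L (N * ℓ)` over `FF L N` **through `β`**, the Gauss valuation ring of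
  level `N`, the single valuation ring `gaussVS W (N * ℓ)` (`e = 1`, `f = ℓ`) and the residue
  family `1, j, …, j ^ (ℓ - 1)`;
* `isIntegral_beta` : every Gauss-integral function of level `N * ℓ` is integral over the
  `β`-image of the Gauss valuation ring of level `N`;
* `exists_rd_eq_sum` : its reduction is `∑ r < ℓ, c̄_r(Q ^ ℓ) j̄ ^ r`, `c_r` Gauss-integral of
  level `N`;
* `red_mem_fullC_sq` : **(V-a)** the reduction of a Gauss-integral function of level `M q²` lies
  in the function field of level `M` over the residue field;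
* `exists_mul_isIntegralElem` : **(Loc1)** a Gauss-integral function of level `M q` becomes
  integral over `W[j]` after multiplication by an integral function with nonzero reduction;
* `exists_beta_mul_eq` : **(V-b)** an integral function `x` of level `M q²` with zero reduction
  satisfies `β s * x = π * c`, `s` integral of level `M q` with nonzero reduction, `c` integral.
-/

set_option autoImplicit false
set_option linter.style.haveILetI false
set_option linter.unusedSectionVars false

noncomputable section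

namespace Fermat.Agent.S36.InfVert

open ModularCurve AlgebraicCurve Fermat.Agent.S18 Fermat.Agent.S18.Gauss Fermat.Agent.S24
  Fermat.Agent.S34 Fermat.Agent.S34.ResField

local notation "Qb" => AlgebraicClosure ℚ

variable {L : Type*} [Field L] [Algebra ℚ L] (W : ValuationSubring L) [IsDiscreteValuationRing W]

/-! ### (II'): the count through `β` when `ℓ ∣ N` -/

section Inst

variable (N ℓ : ℕ) [NeZero N] [NeZero ℓ]

/-- Residual independence of `1, j, …, j ^ (ℓ - 1)` at the Gauss valuation of level `N * ℓ` over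
the Gauss valuation ring of level `N` acting through `β`. -/
theorem indep_beta (c : Fin ℓ → gaussVS W N)
    (hc : (∑ i, heckeBetaBar L N ℓ (c i : FF L N) * jBC L (N * ℓ) ^ (i : ℕ)) ∈
      (gaussVS W (N * ℓ)).nonunits)
    (i : Fin ℓ) : c i ∈ IsLocalRing.maximalIdeal (gaussVS W N) := by
  have hj : ((jBC L (N * ℓ) : FF L (N * ℓ)) : LaurentSeries L) = jqModC L := coe_jBC_eq L (N * ℓ)
  have hjmem : jqModC L ∈ contentRing W := jq_mem_contentRing W
  have hsc : ((∑ i, heckeBetaBar L N ℓ (c i : FF L N) * jBC L (N * ℓ) ^ (i : ℕ) :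
      FF L (N * ℓ)) : LaurentSeries L) =
      ∑ i, qExpand L ℓ ((c i : FF L N) : LaurentSeries L) * jqModC L ^ (i : ℕ) := by
    rw [← hj]
    simp only [AddSubmonoidClass.coe_finsetSum, MulMemClass.coe_mul,
      SubmonoidClass.coe_pow, coe_heckeBetaBar]
  have hterm : ∀ i : Fin ℓ, qExpand L ℓ ((c i : FF L N) : LaurentSeries L) ∈ contentRing W :=
    fun i => qExpand_mem_contentRing W ℓ (c i).2
  have hsmem : ((∑ i, heckeBetaBar L N ℓ (c i : FF L N) * jBC L (N * ℓ) ^ (i : ℕ) :
      FF L (N * ℓ)) : LaurentSeries L) ∈ contentRing W := by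
    rw [hsc]
    exact sum_mem fun i _ => mul_mem (hterm i) (pow_mem hjmem _)
  have hred := (mem_nonunits_gaussVS W hsmem).1 hc
  have e : (⟨_, hsmem⟩ : contentRing W) =
      ∑ i, (⟨qExpand L ℓ ((c i : FF L N) : LaurentSeries L), hterm i⟩ : contentRing W) *
        ⟨jqModC L, hjmem⟩ ^ (i : ℕ) := by
    apply Subtype.ext
    rw [hsc]
    simp only [AddSubmonoidClass.coe_finsetSum, MulMemClass.coe_mul, SubmonoidClass.coe_pow]
  rw [e, map_sum] at hred
  have hred' : ∑ i : Fin ℓ, qExpand (IsLocalRing.ResidueField W) ℓ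
      (red W ⟨((c i : FF L N) : LaurentSeries L), (c i).2⟩) *
      jqModC (IsLocalRing.ResidueField W) ^ (i : ℕ) = 0 := by
    rw [← hred]
    refine Finset.sum_congr rfl fun i _ => ?_
    rw [map_mul, map_pow, red_jq, red_qExpand W ℓ (c i).2]
  have hzero := eq_zero_of_sum_qExpand_mul_pow ℓ _ hred'
  rw [ValuationSubring.valuation_lt_one_iff, ← ValuationSubring.mem_nonunits_iff,
    mem_nonunits_gaussVS W (c i).2]
  exact hzero i

/-- **(II').** The hypotheses of the count with ramification for `FF L (N * ℓ)` over `FF L N`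
through `β` (`ℓ ∣ N` prime): one valuation ring, `e = 1`, residue family `j ^ r`, `r < ℓ`. -/
theorem hyp_beta (ι₀ : L →+* ℂ) (hℓ : ℓ.Prime) (hℓN : ℓ ∣ N) {ϖ : W} (hϖ : Irreducible ϖ) :
    letI := algebraAlong (heckeBetaBar L N ℓ)
    letI : Algebra (gaussVS W N) (FF L (N * ℓ)) :=
      ((algebraMap (FF L N) (FF L (N * ℓ))).comp (algebraMap (gaussVS W N) (FF L N))).toAlgebra
    NExt.Hyp (FF L N) (const N ϖ : gaussVS W N) (fun _ : Unit => gaussVS W (N * ℓ))
      (fun _ => 1) (fun _ => algebraMap L (FF L (N * ℓ)) ((ϖ : W) : L)) (fun _ => ℓ)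
      (fun _ (r : Fin ℓ) => jBC L (N * ℓ) ^ (r : ℕ)) := by
  letI := algebraAlong (heckeBetaBar L N ℓ)
  letI : Algebra (gaussVS W N) (FF L (N * ℓ)) :=
    ((algebraMap (FF L N) (FF L (N * ℓ))).comp (algebraMap (gaussVS W N) (FF L N))).toAlgebra
  have hmap : ∀ a : gaussVS W N, algebraMap (gaussVS W N) (FF L (N * ℓ)) a =
      heckeBetaBar L N ℓ (a : FF L N) := fun a => rfl
  have hπ : algebraMap (gaussVS W N) (FF L (N * ℓ)) (const N ϖ) =
      algebraMap L (FF L (N * ℓ)) ((ϖ : W) : L) := by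
    rw [hmap, coe_const]; exact (heckeBetaBar L N ℓ).commutes _
  have hj : ((jBC L (N * ℓ) : FF L (N * ℓ)) : LaurentSeries L) = jqModC L := coe_jBC_eq L (N * ℓ)
  have hjmem : jqModC L ∈ contentRing W := jq_mem_contentRing W
  refine ⟨irreducible_const N hϖ, ?_, ?_, ?_, ?_, ?_, ?_, ?_, ?_⟩
  · -- le
    intro _ a
    rw [hmap, mem_gaussVS, coe_heckeBetaBar]
    exact qExpand_mem_contentRing W ℓ a.2
  · -- inv_notMem
    intro _
    rw [hπ]
    exact algebraMap_inv_notMem (N * ℓ) hϖ
  · -- injective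
    intro a b _
    rfl
  · -- mem_nonunits
    intro _
    rw [mem_nonunits_iff_inv_notMem _ (algebraMap_unif_ne_zero (N * ℓ) hϖ)]
    exact algebraMap_inv_notMem (N * ℓ) hϖ
  · -- ram
    intro _
    exact ⟨1, one_mem _, by rw [hπ, pow_one, mul_one]⟩
  · -- mem
    intro _ r
    show ((jBC L (N * ℓ) ^ (r : ℕ) : FF L (N * ℓ)) : LaurentSeries L) ∈ contentRing W
    have e : ((jBC L (N * ℓ) ^ (r : ℕ) : FF L (N * ℓ)) : LaurentSeries L) =
        jqModC L ^ (r : ℕ) := by
      rw [← hj]; rfl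
    rw [e]
    exact pow_mem hjmem _
  · -- indep
    intro _ c hc j
    exact indep_beta W N ℓ c hc j
  · -- finrank_le
    rw [Fintype.sum_unique, one_mul]
    exact (DegreeDvd.finrank_beta_of_dvd L ι₀ N ℓ hℓ hℓN).2.le

end Inst

/-! ### Consequences of (II') in raw currency -/

section Cons

variable (N ℓ : ℕ) [NeZero N] [NeZero ℓ]

/-- Every Gauss-integral function of level `N * ℓ` (`ℓ ∣ N` prime) is integral over the
`β`-image of the Gauss valuation ring of level `N`. -/
theorem isIntegral_beta (ι₀ : L →+* ℂ) (hℓ : ℓ.Prime) (hℓN : ℓ ∣ N) (x : FF L (N * ℓ))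
    (hx : (x : LaurentSeries L) ∈ contentRing W) :
    ∃ P : Polynomial (gaussVS W N), P.Monic ∧
      P.eval₂ ((heckeBetaBar L N ℓ).toRingHom.comp (gaussVS W N).subtype) x = 0 := by
  obtain ⟨ϖ, hϖ⟩ := IsDiscreteValuationRing.exists_irreducible W
  have H := hyp_beta W N ℓ ι₀ hℓ hℓN hϖ
  letI := algebraAlong (heckeBetaBar L N ℓ)
  letI : Algebra (gaussVS W N) (FF L (N * ℓ)) :=
    ((algebraMap (FF L N) (FF L (N * ℓ))).comp (algebraMap (gaussVS W N) (FF L N))).toAlgebra
  haveI : IsScalarTower (gaussVS W N) (FF L N) (FF L (N * ℓ)) :=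
    IsScalarTower.of_algebraMap_eq (fun _ => rfl)
  haveI : FiniteDimensional (FF L N) (FF L (N * ℓ)) :=
    (DegreeDvd.finrank_beta_of_dvd L ι₀ N ℓ hℓ hℓN).1
  haveI : CharZero L := charZero_of_injective_algebraMap (algebraMap ℚ L).injective
  haveI : CharZero (FF L N) := charZero_of_injective_algebraMap (algebraMap L (FF L N)).injective
  haveI : Algebra.IsSeparable (FF L N) (FF L (N * ℓ)) := inferInstance
  have hint : IsIntegral (gaussVS W N) x := (H.isIntegral_iff (FF L N) x).2 (fun _ => hx)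
  obtain ⟨P, hP, hPx⟩ := hint
  exact ⟨P, hP, hPx⟩

/-- The reduction of a Gauss-integral function of level `N * ℓ` (`ℓ ∣ N` prime) is
`∑ r < ℓ, c̄_r(Q ^ ℓ) j̄ ^ r` with `c_r` Gauss-integral of level `N`. -/
theorem exists_rd_eq_sum (ι₀ : L →+* ℂ) (hℓ : ℓ.Prime) (hℓN : ℓ ∣ N) (x : FF L (N * ℓ))
    (hx : (x : LaurentSeries L) ∈ contentRing W) :
    ∃ c : Fin ℓ → FF L N, (∀ r, ((c r : FF L N) : LaurentSeries L) ∈ contentRing W) ∧
      TwoGauss.rd W (x : LaurentSeries L) =
        ∑ r : Fin ℓ, qExpand (IsLocalRing.ResidueField W) ℓ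
          (TwoGauss.rd W ((c r : FF L N) : LaurentSeries L)) *
            jqModC (IsLocalRing.ResidueField W) ^ (r : ℕ) := by
  obtain ⟨ϖ, hϖ⟩ := IsDiscreteValuationRing.exists_irreducible W
  have H := hyp_beta W N ℓ ι₀ hℓ hℓN hϖ
  letI := algebraAlong (heckeBetaBar L N ℓ)
  letI : Algebra (gaussVS W N) (FF L (N * ℓ)) :=
    ((algebraMap (FF L N) (FF L (N * ℓ))).comp (algebraMap (gaussVS W N) (FF L N))).toAlgebra
  haveI : IsScalarTower (gaussVS W N) (FF L N) (FF L (N * ℓ)) :=
    IsScalarTower.of_algebraMap_eq (fun _ => rfl)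
  haveI : FiniteDimensional (FF L N) (FF L (N * ℓ)) :=
    (DegreeDvd.finrank_beta_of_dvd L ι₀ N ℓ hℓ hℓN).1
  haveI : CharZero L := charZero_of_injective_algebraMap (algebraMap ℚ L).injective
  haveI : CharZero (FF L N) := charZero_of_injective_algebraMap (algebraMap L (FF L N)).injective
  haveI : Algebra.IsSeparable (FF L N) (FF L (N * ℓ)) := inferInstance
  obtain ⟨c, hc⟩ := H.exists_sub_sum_mem_nonunits (FF L N) () (x := x) hx
  refine ⟨fun r => (c r : FF L N), fun r => (c r).2, ?_⟩
  have hj : ((jBC L (N * ℓ) : FF L (N * ℓ)) : LaurentSeries L) = jqModC L := coe_jBC_eq L (N * ℓ)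
  have hjmem : jqModC L ∈ contentRing W := jq_mem_contentRing W
  have hmap : ∀ a : gaussVS W N, algebraMap (gaussVS W N) (FF L (N * ℓ)) a =
      heckeBetaBar L N ℓ (a : FF L N) := fun a => rfl
  have hsc : ((∑ i, algebraMap (gaussVS W N) (FF L (N * ℓ)) (c i) * jBC L (N * ℓ) ^ (i : ℕ) :
      FF L (N * ℓ)) : LaurentSeries L) =
      ∑ i, qExpand L ℓ ((c i : FF L N) : LaurentSeries L) * jqModC L ^ (i : ℕ) := by
    rw [← hj]
    simp only [hmap, AddSubmonoidClass.coe_finsetSum, MulMemClass.coe_mul,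
      SubmonoidClass.coe_pow, coe_heckeBetaBar]
  have hterm : ∀ i : Fin ℓ, qExpand L ℓ ((c i : FF L N) : LaurentSeries L) ∈ contentRing W :=
    fun i => qExpand_mem_contentRing W ℓ (c i).2
  have hsmem : (∑ i : Fin ℓ, qExpand L ℓ ((c i : FF L N) : LaurentSeries L) *
      jqModC L ^ (i : ℕ)) ∈ contentRing W :=
    sum_mem fun i _ => mul_mem (hterm i) (pow_mem hjmem _)
  have hsubc : ((x - ∑ i, algebraMap (gaussVS W N) (FF L (N * ℓ)) (c i) *
      jBC L (N * ℓ) ^ (i : ℕ) : FF L (N * ℓ)) : LaurentSeries L) =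
      (x : LaurentSeries L) - ∑ i, qExpand L ℓ ((c i : FF L N) : LaurentSeries L) *
        jqModC L ^ (i : ℕ) := by
    rw [← hsc]; rfl
  have hsub : ((x - ∑ i, algebraMap (gaussVS W N) (FF L (N * ℓ)) (c i) *
      jBC L (N * ℓ) ^ (i : ℕ) : FF L (N * ℓ)) : LaurentSeries L) ∈ contentRing W := by
    rw [hsubc]; exact sub_mem hx hsmem
  have hred := (mem_nonunits_gaussVS W hsub).1 hc
  have h1 : TwoGauss.rd W ((x : LaurentSeries L) -
      ∑ i, qExpand L ℓ ((c i : FF L N) : LaurentSeries L) * jqModC L ^ (i : ℕ)) = 0 := by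
    rw [← hsubc, TwoGauss.rd_of_mem W hsub]
    exact hred
  rw [TwoGauss.rd_sub W hx hsmem, sub_eq_zero] at h1
  rw [h1, TwoGauss.rd_sum W _ _ (fun i _ => mul_mem (hterm i) (pow_mem hjmem _))]
  refine Finset.sum_congr rfl fun i _ => ?_
  rw [TwoGauss.rd_mul W (hterm i) (pow_mem hjmem _), TwoGauss.rd_pow W hjmem, TwoGauss.rd_jq,
    TwoGauss.rd_qExpand W ℓ (c i).2]

end Cons

/-! ### (V-a): the residue field at the `∞`-valuation of level `M q²` is that of level `M` -/

section Va

variable (M q : ℕ) [NeZero M] [NeZero q]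

/-- **(V-a).** The reduction of a Gauss-integral function of level `M q²` lies in the function
field of level `M` over the residue field. -/
theorem red_mem_fullC_sq (ι : L →+* Qb) [hq : Fact q.Prime] (hqM : ¬ q ∣ M)
    [CharP (IsLocalRing.ResidueField W) q] (x : FF L (M * q * q))
    (hx : (x : LaurentSeries L) ∈ contentRing W) :
    red W ⟨x, hx⟩ ∈ modularFunctionFieldFullC (IsLocalRing.ResidueField W) M := by
  obtain ⟨c, hc, hsum⟩ := exists_rd_eq_sum W (M * q) q (DegreeL.toComplex L ι) hq.out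
    (Dvd.intro_left M rfl) x hx
  rw [← TwoGauss.rd_of_mem W hx, hsum]
  refine sum_mem fun r _ => mul_mem ?_ (pow_mem (jqModC_mem_full _ M) _)
  obtain ⟨y, hy, hyr⟩ := exists_red_eq_of_bar W M q ι hqM (c r) (hc r)
  have hβ : ((heckeBetaBar L M q y : FF L (M * q)) : LaurentSeries L) =
      qExpand L q (y : LaurentSeries L) := coe_heckeBetaBar M q y
  have hβmem : ((heckeBetaBar L M q y : FF L (M * q)) : LaurentSeries L) ∈ contentRing W := by
    rw [hβ]; exact qExpand_mem_contentRing W q hy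
  have h2 := red_mem_fullC_of_bar W M q ι hqM (heckeBetaBar L M q y) hβmem
  have h3 : red W ⟨_, hβmem⟩ = qExpand (IsLocalRing.ResidueField W) q
      (TwoGauss.rd W ((c r : FF L (M * q)) : LaurentSeries L)) := by
    rw [TwoGauss.rd_of_mem W (hc r), hyr, ← red_qExpand W q hy]
    congr 1
  rw [← h3]
  exact h2

end Va

/-! ### Generic integrality helpers -/

section Generic

theorem isIntegralElem_pow {R S : Type*} [CommRing R] [CommRing S] (f : R →+* S) {x : S}
    (hx : f.IsIntegralElem x) (n : ℕ) : f.IsIntegralElem (x ^ n) := by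
  induction n with
  | zero => rw [pow_zero]; exact f.isIntegralElem_one
  | succ n ih => rw [pow_succ]; exact RingHom.IsIntegralElem.mul f ih hx

theorem isIntegralElem_prod {R S ι : Type*} [CommRing R] [CommRing S] (f : R →+* S)
    (s : Finset ι) (x : ι → S) (hx : ∀ i ∈ s, f.IsIntegralElem (x i)) :
    f.IsIntegralElem (∏ i ∈ s, x i) := by
  classical
  induction s using Finset.induction_on with
  | empty => rw [Finset.prod_empty]; exact f.isIntegralElem_one
  | insert a s ha ih =>
    rw [Finset.prod_insert ha]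
    exact RingHom.IsIntegralElem.mul f (hx a (Finset.mem_insert_self a s))
      (ih fun i hi => hx i (Finset.mem_insert_of_mem hi))

omit [Algebra ℚ L] [IsDiscreteValuationRing W] in
theorem rd_prod_ne_zero {ι : Type*} (s : Finset ι) (f : ι → LaurentSeries L)
    (hf : ∀ i ∈ s, f i ∈ contentRing W ∧ TwoGauss.rd W (f i) ≠ 0) :
    (∏ i ∈ s, f i) ∈ contentRing W ∧ TwoGauss.rd W (∏ i ∈ s, f i) ≠ 0 := by
  classical
  induction s using Finset.induction_on with
  | empty =>
    rw [Finset.prod_empty, TwoGauss.rd_one]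
    exact ⟨one_mem _, one_ne_zero⟩
  | insert a s ha ih =>
    have h1 := hf a (Finset.mem_insert_self a s)
    have h2 := ih fun i hi => hf i (Finset.mem_insert_of_mem hi)
    rw [Finset.prod_insert ha, TwoGauss.rd_mul W h1.1 h2.1]
    exact ⟨mul_mem h1.1 h2.1, mul_ne_zero h1.2 h2.2⟩

end Generic

/-! ### (Loc1) and (V-b) -/

section Vb

variable (M q : ℕ) [NeZero M] [NeZero q]

/-- **(Loc1).** A Gauss-integral function of level `M q` becomes integral over `W[j]` after
multiplication by a function integral over `W[j]` with nonzero reduction. -/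
theorem exists_mul_isIntegralElem (ι : L →+* Qb) [hq : Fact q.Prime] (hqM : ¬ q ∣ M)
    [CharP (IsLocalRing.ResidueField W) q] (c : FF L (M * q))
    (hc : (c : LaurentSeries L) ∈ contentRing W) :
    ∃ s : FF L (M * q), (evF W (M * q)).IsIntegralElem s ∧
      (s : LaurentSeries L) ∈ contentRing W ∧ TwoGauss.rd W (s : LaurentSeries L) ≠ 0 ∧
      (evF W (M * q)).IsIntegralElem (s * c) := by
  classical
  obtain ⟨ϖ, hϖ⟩ := IsDiscreteValuationRing.exists_irreducible W
  obtain ⟨w, hwα, hwβ⟩ := Fermat.Agent.S37.AtkinLehner.exists_atkinLehner_of_emb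
    (DegreeL.toComplex L ι) M q hq.out hqM
  have hwα' : ∀ y, w (heckeAlphaBar L M q y) = heckeBetaBar L M q y := fun y =>
    AlgHom.congr_fun hwα y
  have hwβ' : ∀ y, w (heckeBetaBar L M q y) = heckeAlphaBar L M q y := fun y =>
    AlgHom.congr_fun hwβ y
  have hjmem : jqModC L ∈ contentRing W := jq_mem_contentRing W
  have hjdmem : qExpand L q (jqModC L) ∈ contentRing W := qExpand_mem_contentRing W q hjmem
  have hj : ((jBC L M : FF L M) : LaurentSeries L) = jqModC L := coe_jBC_eq L M
  -- the element `y₀ = α j - (β j) ^ q`: a unit at the first valuation, a non-unit at the second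
  set y₀ : FF L (M * q) :=
    heckeAlphaBar L M q (jBC L M) - heckeBetaBar L M q (jBC L M) ^ q with hy₀
  have hy₀c : ((y₀ : FF L (M * q)) : LaurentSeries L) =
      jqModC L - qExpand L q (jqModC L) ^ q := by
    show ((heckeAlphaBar L M q (jBC L M) : FF L (M * q)) : LaurentSeries L) -
      ((heckeBetaBar L M q (jBC L M) : FF L (M * q)) : LaurentSeries L) ^ q = _
    rw [coe_heckeBetaBar, coe_heckeAlphaBar, hj]
  have hy₀mem : ((y₀ : FF L (M * q)) : LaurentSeries L) ∈ contentRing W := by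
    rw [hy₀c]; exact sub_mem hjmem (pow_mem hjdmem q)
  have hy₀rd : TwoGauss.rd W ((y₀ : FF L (M * q)) : LaurentSeries L) ≠ 0 := by
    rw [hy₀c, TwoGauss.rd_sub W hjmem (pow_mem hjdmem q), TwoGauss.rd_pow W hjdmem,
      TwoGauss.rd_qExpand W q hjmem, TwoGauss.rd_jq]
    exact sub_ne_zero.mpr (jqModC_ne_qExpand_pow _ q hq.out.two_le)
  have hwy₀ : w y₀ = heckeBetaBar L M q (jBC L M) - heckeAlphaBar L M q (jBC L M) ^ q := by
    rw [hy₀, map_sub, map_pow, hwα', hwβ']
  have hwy₀c : ((w y₀ : FF L (M * q)) : LaurentSeries L) =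
      qExpand L q (jqModC L) - jqModC L ^ q := by
    rw [hwy₀]
    show ((heckeBetaBar L M q (jBC L M) : FF L (M * q)) : LaurentSeries L) -
      ((heckeAlphaBar L M q (jBC L M) : FF L (M * q)) : LaurentSeries L) ^ q = _
    rw [coe_heckeBetaBar, coe_heckeAlphaBar, hj]
  have hwy₀mem : ((w y₀ : FF L (M * q)) : LaurentSeries L) ∈ contentRing W := by
    rw [hwy₀c]; exact sub_mem hjdmem (pow_mem hjmem q)
  have hwy₀rd : TwoGauss.rd W ((w y₀ : FF L (M * q)) : LaurentSeries L) = 0 := by
    rw [hwy₀c, TwoGauss.rd_sub W hjdmem (pow_mem hjmem q), TwoGauss.rd_pow W hjmem,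
      TwoGauss.rd_qExpand W q hjmem, TwoGauss.rd_jq, qExpand_jqModC_eq_pow, sub_self]
  obtain ⟨g, hg, hwg⟩ := (TwoGauss.rd_eq_zero_iff W hϖ hwy₀mem).1 hwy₀rd
  have hy₀int : (evF W (M * q)).IsIntegralElem y₀ := by
    refine RingHom.IsIntegralElem.sub _ ?_
      (isIntegralElem_pow _ (BetaInt.isIntegralElem_beta_j W M q hq.out) q)
    have e : heckeAlphaBar L M q (jBC L M) = evF W (M * q) Polynomial.X := by
      rw [evF_X]
      exact Subtype.ext (by rw [coe_heckeAlphaBar, hj, coe_jBC_eq])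
    rw [e]
    exact RingHom.isIntegralElem_map _
  -- a power of `ϖ` clears the denominator of `w c`
  have hpow : ∃ n : ℕ, HahnSeries.C ((ϖ : W) : L) ^ n *
      ((w c : FF L (M * q)) : LaurentSeries L) ∈ contentRing W := by
    by_cases h0 : ((w c : FF L (M * q)) : LaurentSeries L) = 0
    · exact ⟨0, by rw [h0, mul_zero]; exact zero_mem _⟩
    obtain ⟨n, u, hu, -, hxu⟩ := fracInt_exists_zpow_mul_unit W hϖ
      (TwoGauss.coe_mem_fracInt W (M * q) (w c)) h0
    refine ⟨(-n).toNat, ?_⟩
    obtain ⟨k, hk⟩ : ∃ k : ℕ, ((-n).toNat : ℤ) + n = k := ⟨((-n).toNat + n).toNat, by omega⟩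
    rw [hxu, ← mul_assoc, ← zpow_natCast, ← zpow_add₀ (C_unif_ne_zero W hϖ), hk, zpow_natCast]
    exact mul_mem (pow_mem (C_mem_contentRing W ϖ) k) hu
  obtain ⟨n, hn⟩ := hpow
  have hx₁ : ((y₀ ^ n * c : FF L (M * q)) : LaurentSeries L) ∈ contentRing W := by
    show ((y₀ : FF L (M * q)) : LaurentSeries L) ^ n * (c : LaurentSeries L) ∈ contentRing W
    exact mul_mem (pow_mem hy₀mem n) hc
  have hx₂ : ((w (y₀ ^ n * c) : FF L (M * q)) : LaurentSeries L) ∈ contentRing W := by
    rw [map_mul, map_pow]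
    show ((w y₀ : FF L (M * q)) : LaurentSeries L) ^ n *
      ((w c : FF L (M * q)) : LaurentSeries L) ∈ contentRing W
    have e : ((w y₀ : FF L (M * q)) : LaurentSeries L) ^ n *
        ((w c : FF L (M * q)) : LaurentSeries L) =
        g ^ n * (HahnSeries.C ((ϖ : W) : L) ^ n * ((w c : FF L (M * q)) : LaurentSeries L)) := by
      rw [hwg, mul_pow]; ring
    rw [e]
    exact mul_mem (pow_mem hg n) hn
  obtain ⟨S, hS, hSint⟩ := FinDich.v3a W M q hqM w hwα hwβ (y₀ ^ n * c) hx₁ hx₂
  have e : ((evF W (M * q) S * y₀ ^ n : FF L (M * q)) : LaurentSeries L) =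
      evL W S * ((y₀ : FF L (M * q)) : LaurentSeries L) ^ n := rfl
  refine ⟨evF W (M * q) S * y₀ ^ n, ?_, ?_, ?_, ?_⟩
  · exact RingHom.IsIntegralElem.mul _ (RingHom.isIntegralElem_map _)
      (isIntegralElem_pow _ hy₀int n)
  · rw [e]
    exact mul_mem (evL_mem_contentRing W S) (pow_mem hy₀mem n)
  · rw [e, TwoGauss.rd_mul W (evL_mem_contentRing W S) (pow_mem hy₀mem n),
      TwoGauss.rd_pow W hy₀mem, TwoGauss.rd_of_mem W (evL_mem_contentRing W S), red_evL]
    exact mul_ne_zero (fun h => hS ((redJ_eq_zero_iff W S).1 h)) (pow_ne_zero n hy₀rd)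
  · rw [mul_assoc]
    exact hSint

/-- **(V-b).** A Gauss-integral function `x` of level `M q²` with zero reduction satisfies
`β s * x = ϖ * c` with `s` integral over `W[j]` of level `M q` with nonzero reduction and `c`
integral over `W[j]` of level `M q²`. -/
theorem exists_beta_mul_eq (ι : L →+* Qb) [hq : Fact q.Prime] (hqM : ¬ q ∣ M)
    [CharP (IsLocalRing.ResidueField W) q] {ϖ : W} (hϖ : Irreducible ϖ) (x : FF L (M * q * q))
    (hxW : (x : LaurentSeries L) ∈ contentRing W)
    (hx0 : TwoGauss.rd W (x : LaurentSeries L) = 0) :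
    ∃ s : FF L (M * q), (evF W (M * q)).IsIntegralElem s ∧
      (s : LaurentSeries L) ∈ contentRing W ∧ TwoGauss.rd W (s : LaurentSeries L) ≠ 0 ∧
      ∃ c : FF L (M * q * q), (evF W (M * q * q)).IsIntegralElem c ∧
        heckeBetaBar L (M * q) q s * x =
          algebraMap L (FF L (M * q * q)) ((ϖ : W) : L) * c := by
  classical
  obtain ⟨g, hg, hxg⟩ := (TwoGauss.rd_eq_zero_iff W hϖ hxW).1 hx0
  have h0 := algebraMap_unif_ne_zero (L := L) (M * q * q) hϖ
  set y : FF L (M * q * q) := (algebraMap L (FF L (M * q * q)) ((ϖ : W) : L))⁻¹ * x with hy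
  have hyc : ((y : FF L (M * q * q)) : LaurentSeries L) = g := by
    show ((algebraMap L (FF L (M * q * q)) ((ϖ : W) : L) : FF L (M * q * q)) :
      LaurentSeries L)⁻¹ * (x : LaurentSeries L) = g
    rw [coe_algebraMap, hxg, ← mul_assoc, inv_mul_cancel₀ (C_unif_ne_zero W hϖ), one_mul]
  have hyW : ((y : FF L (M * q * q)) : LaurentSeries L) ∈ contentRing W := by
    rw [hyc]; exact hg
  have hxy : x = algebraMap L (FF L (M * q * q)) ((ϖ : W) : L) * y := by
    rw [hy, ← mul_assoc, mul_inv_cancel₀ h0, one_mul]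
  obtain ⟨P, hP, hPy⟩ := isIntegral_beta W (M * q) q (DegreeL.toComplex L ι) hq.out
    (Dvd.intro_left M rfl) y hyW
  have hloc : ∀ k : ℕ, ∃ s : FF L (M * q), (evF W (M * q)).IsIntegralElem s ∧
      (s : LaurentSeries L) ∈ contentRing W ∧ TwoGauss.rd W (s : LaurentSeries L) ≠ 0 ∧
      (evF W (M * q)).IsIntegralElem (s * ((P.coeff k : gaussVS W (M * q)) : FF L (M * q))) :=
    fun k => exists_mul_isIntegralElem W M q ι hqM _ (P.coeff k).2
  choose s hsint hsW hsrd hsmul using hloc
  set S : FF L (M * q) := ∏ k ∈ Finset.range P.natDegree, s k with hS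
  have hSint : (evF W (M * q)).IsIntegralElem S :=
    isIntegralElem_prod _ _ _ (fun k _ => hsint k)
  have hSc : ((S : FF L (M * q)) : LaurentSeries L) =
      ∏ k ∈ Finset.range P.natDegree, ((s k : FF L (M * q)) : LaurentSeries L) := by
    rw [hS]
    exact SubmonoidClass.coe_finsetProd _ _
  have hSW := rd_prod_ne_zero W (Finset.range P.natDegree)
    (fun k => ((s k : FF L (M * q)) : LaurentSeries L)) (fun k _ => ⟨hsW k, hsrd k⟩)
  rw [← hSc] at hSW
  -- integrality of `β S * y` over the `β`-image of the level-`M q` integral functions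
  letI : Algebra (Polynomial W) (FF L (M * q)) := (evF W (M * q)).toAlgebra
  let φ : (integralClosure (Polynomial W) (FF L (M * q))).toSubring →+* FF L (M * q * q) :=
    (heckeBetaBar L (M * q) q).toRingHom.comp
      (integralClosure (Polynomial W) (FF L (M * q))).toSubring.subtype
  have hφint : ∀ a, (evF W (M * q * q)).IsIntegralElem (φ a) := fun a =>
    BetaInt.isIntegralElem_beta W (M * q) q hq.out a.2
  have hmain : φ.IsIntegralElem (φ ⟨S, hSint⟩ * y) := by
    refine PGGlue.isIntegralElem_mul_of_coeff φ y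
      (P.map ((heckeBetaBar L (M * q) q).toRingHom.comp (gaussVS W (M * q)).subtype))
      (hP.map _) ?_ ⟨S, hSint⟩ ?_
    · rw [Polynomial.eval_map]
      exact hPy
    · intro k hk
      have hk' : k ∈ Finset.range P.natDegree :=
        Finset.mem_range.mpr (lt_of_lt_of_le hk Polynomial.natDegree_map_le)
      refine ⟨⟨(s k * ((P.coeff k : gaussVS W (M * q)) : FF L (M * q))) *
        ∏ i ∈ (Finset.range P.natDegree).erase k, s i, ?_⟩, ?_⟩
      · exact RingHom.IsIntegralElem.mul _ (hsmul k)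
          (isIntegralElem_prod _ _ _ (fun i _ => hsint i))
      · rw [Polynomial.coeff_map]
        show heckeBetaBar L (M * q) q ((P.coeff k : gaussVS W (M * q)) : FF L (M * q)) *
          heckeBetaBar L (M * q) q S = heckeBetaBar L (M * q) q
            ((s k * ((P.coeff k : gaussVS W (M * q)) : FF L (M * q))) *
              ∏ i ∈ (Finset.range P.natDegree).erase k, s i)
        rw [← map_mul, hS, ← Finset.mul_prod_erase _ _ hk']
        congr 1
        ring
  have hc := BetaInt.isIntegralElem_trans (evF W (M * q * q)) φ hφint _ hmain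
  refine ⟨S, hSint, hSW.1, hSW.2, heckeBetaBar L (M * q) q S * y, hc, ?_⟩
  rw [hxy]
  ring

end Vb

end Fermat.Agent.S36.InfVert
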