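/-
S36 (wave 8), slice (R-ss), abstract part (T4): **thickness one of a node**.

`R` is a noetherian integrally closed domain (the local ring of the level-`M'q` chart at a
supersingular point), `𝔭₁ 𝔭₂` its two vertical branches (`𝔭₁ * 𝔭₂ ≤ (ϖ)`), `y` an element
(in the application `y = P'(X)`, the derivative of the minimal polynomial of the node coordinate)
with

* `y ∈ 𝔭₂`, `y ∉ 𝔭₁`;
* `y ∣ g` for an element `g` which generates `𝔭₂` locally at `𝔭₂`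
  (`g = ∂_Y Φ_q(j, j')`, `v₂(g) = 1`);
* no prime minimal over `(y)` avoids `ϖ` (no horizontal zero: the characteristic-zero
  unramifiedness contract).

Then `𝔭₂ = (y)`, `ϖ = y * z` and `𝔭₁ = (z)`: the node is `y * z = ϖ`.

Everything is pure commutative algebra: the algebraic Hartogs lemma
`S34.Hartogs.dvd_of_forall_minimalPrimes` and Krull's principal ideal theorem.
-/
import Mathlib
import Fermat.Agent.S34.Hartogs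

set_option autoImplicit false

namespace Fermat.Agent.S36.ThickOne

open Ideal

variable {R : Type*} [CommRing R] [IsDomain R] [IsNoetherianRing R] [IsIntegrallyClosed R]

/-- In a noetherian integrally closed domain, a prime `𝔭` which is the only prime minimal over
`(y)` and which is generated by `y` locally at `𝔭` is equal to `(y)`. -/
theorem eq_span_of_unique_minimal (𝔭 : Ideal R) (y : R) (hy0 : y ≠ 0) (hy : y ∈ 𝔭)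
    (hmin : ∀ 𝔮 ∈ (Ideal.span {y} : Ideal R).minimalPrimes, 𝔮 = 𝔭)
    (hloc : ∃ s : R, s ∉ 𝔭 ∧ ∀ a ∈ 𝔭, y ∣ s * a) :
    𝔭 = Ideal.span {y} := by
  obtain ⟨s, hs, hsa⟩ := hloc
  refine le_antisymm (fun a ha => ?_) ?_
  · rw [Ideal.mem_span_singleton]
    refine Fermat.Agent.S34.Hartogs.dvd_of_forall_minimalPrimes a y hy0 (fun 𝔮 h𝔮 => ?_)
    rw [hmin 𝔮 h𝔮]
    exact ⟨s, hs, hsa a ha⟩
  · rw [Ideal.span_le, Set.singleton_subset_iff]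
    exact hy

omit [IsIntegrallyClosed R] in
/-- A prime minimal over a principal ideal cannot strictly contain a nonzero prime. -/
theorem not_lt_of_mem_minimalPrimes (y : R) (𝔮 𝔭 : Ideal R) [𝔭.IsPrime]
    (h𝔮 : 𝔮 ∈ (Ideal.span {y} : Ideal R).minimalPrimes) (h𝔭 : 𝔭 ≠ ⊥) : ¬ 𝔭 < 𝔮 := by
  intro hlt
  have : 𝔮.IsPrime := h𝔮.1.1
  have hht : 𝔮.height ≤ 1 :=
    Ideal.height_le_one_of_isPrincipal_of_mem_minimalPrimes (Ideal.span {y}) 𝔮 h𝔮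
  have hfin : 𝔮.FiniteHeight := by
    rw [Ideal.finiteHeight_iff_lt]
    right
    exact lt_of_le_of_lt hht (by exact_mod_cast ENat.one_lt_top)
  have h1 : 𝔭.height < 𝔮.height := Ideal.height_strict_mono_of_isPrime_of_isPrime hlt
  have h2 : 𝔭.height = 0 := by
    have h3 : 𝔭.height < 1 := lt_of_lt_of_le h1 hht
    exact Order.lt_one_iff.mp h3
  exact h𝔭 (Ideal.height_eq_zero_iff_eq_bot.mp h2)

/-- **Thickness one** (abstract form of (T2)–(T4)). -/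
theorem thick_one (𝔭₁ 𝔭₂ : Ideal R) [𝔭₁.IsPrime] [𝔭₂.IsPrime] (ϖ y g : R)
    (hϖ0 : ϖ ≠ 0) (hϖ1 : ϖ ∈ 𝔭₁) (hϖ2 : ϖ ∈ 𝔭₂)
    (h12 : 𝔭₁ * 𝔭₂ ≤ Ideal.span {ϖ})
    (hy2 : y ∈ 𝔭₂) (hy1 : y ∉ 𝔭₁)
    (hyg : y ∣ g) (hg : ∃ s : R, s ∉ 𝔭₂ ∧ ∀ a ∈ 𝔭₂, g ∣ s * a)
    (hhor : ∀ 𝔮 ∈ (Ideal.span {y} : Ideal R).minimalPrimes, ϖ ∈ 𝔮) :
    𝔭₂ = Ideal.span {y} ∧ ∃ z : R, ϖ = y * z ∧ 𝔭₁ = Ideal.span {z} := by
  have hy0 : y ≠ 0 := fun h => hy1 (h ▸ 𝔭₁.zero_mem)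
  have h𝔭₁ : 𝔭₁ ≠ ⊥ := fun h => hϖ0 (by simpa [h] using hϖ1)
  -- the only prime minimal over `(y)` is `𝔭₂`
  have hmin : ∀ 𝔮 ∈ (Ideal.span {y} : Ideal R).minimalPrimes, 𝔮 = 𝔭₂ := by
    intro 𝔮 h𝔮
    have : 𝔮.IsPrime := h𝔮.1.1
    have hϖ𝔮 : ϖ ∈ 𝔮 := hhor 𝔮 h𝔮
    have hle : 𝔭₁ * 𝔭₂ ≤ 𝔮 :=
      h12.trans (by rw [Ideal.span_le, Set.singleton_subset_iff]; exact hϖ𝔮)
    rcases (Ideal.IsPrime.mul_le inferInstance).mp hle with h1 | h2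
    · -- `𝔭₁ ≤ 𝔮` is impossible
      exfalso
      have hne : 𝔭₁ ≠ 𝔮 := by
        intro h
        have : y ∈ 𝔮 := h𝔮.1.2 (Ideal.subset_span rfl)
        exact hy1 (h ▸ this)
      exact not_lt_of_mem_minimalPrimes y 𝔮 𝔭₁ h𝔮 h𝔭₁ (lt_of_le_of_ne h1 hne)
    · -- `𝔭₂ ≤ 𝔮`, and `𝔭₂` contains `y`
      have hy𝔭₂ : Ideal.span {y} ≤ 𝔭₂ := by
        rw [Ideal.span_le, Set.singleton_subset_iff]; exact hy2
      exact le_antisymm (h𝔮.2 ⟨inferInstance, hy𝔭₂⟩ h2) h2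
  have hloc : ∃ s : R, s ∉ 𝔭₂ ∧ ∀ a ∈ 𝔭₂, y ∣ s * a := by
    obtain ⟨s, hs, hsa⟩ := hg
    exact ⟨s, hs, fun a ha => hyg.trans (hsa a ha)⟩
  have h2eq : 𝔭₂ = Ideal.span {y} := eq_span_of_unique_minimal 𝔭₂ y hy0 hy2 hmin hloc
  refine ⟨h2eq, ?_⟩
  have hϖy : ϖ ∈ Ideal.span {y} := h2eq ▸ hϖ2
  obtain ⟨z, hz⟩ := Ideal.mem_span_singleton.mp hϖy
  refine ⟨z, hz, ?_⟩
  have hz1 : z ∈ 𝔭₁ := by
    have : y * z ∈ 𝔭₁ := hz ▸ hϖ1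
    rcases (Ideal.IsPrime.mem_or_mem inferInstance this) with h | h
    · exact absurd h hy1
    · exact h
  refine le_antisymm (fun a ha => ?_) ?_
  · have hay : a * y ∈ Ideal.span {ϖ} := h12 (Ideal.mul_mem_mul ha hy2)
    obtain ⟨c, hc⟩ := Ideal.mem_span_singleton.mp hay
    rw [Ideal.mem_span_singleton]
    refine ⟨c, ?_⟩
    have : y * a = y * (z * c) := by rw [mul_comm y a, hc, hz]; ring
    exact mul_left_cancel₀ hy0 this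
  · rw [Ideal.span_le, Set.singleton_subset_iff]
    exact hz1

/-- **Thickness one**, in the binder shape of the (R-ss) assembly: `𝔭₁ ⊓ 𝔭₂ = (ϖ)` (the S34 node
structure) and `g ∣ s * ϖ` with `s ∉ 𝔭₂` (`v₂(g) ≤ 1`, the output of the θ-trick). -/
theorem thick_one_inf (𝔭₁ 𝔭₂ : Ideal R) [𝔭₁.IsPrime] [𝔭₂.IsPrime] (ϖ y g : R)
    (hϖ0 : ϖ ≠ 0) (h12 : 𝔭₁ ⊓ 𝔭₂ = Ideal.span {ϖ})
    (hy2 : y ∈ 𝔭₂) (hy1 : y ∉ 𝔭₁)
    (hyg : y ∣ g) (hg : ∃ s : R, s ∉ 𝔭₂ ∧ g ∣ s * ϖ)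
    (hhor : ∀ 𝔮 ∈ (Ideal.span {y} : Ideal R).minimalPrimes, ϖ ∈ 𝔮) :
    𝔭₂ = Ideal.span {y} ∧ ∃ z : R, ϖ = y * z ∧ 𝔭₁ = Ideal.span {z} := by
  have hϖmem : ϖ ∈ 𝔭₁ ⊓ 𝔭₂ := h12 ▸ Ideal.subset_span rfl
  have hϖ1 : ϖ ∈ 𝔭₁ := hϖmem.1
  have hϖ2 : ϖ ∈ 𝔭₂ := hϖmem.2
  have hmul : 𝔭₁ * 𝔭₂ ≤ Ideal.span {ϖ} := h12 ▸ Ideal.mul_le_inf
  obtain ⟨s, hs, hsϖ⟩ := hg
  have hy0 : y ≠ 0 := fun h => hy1 (h ▸ 𝔭₁.zero_mem)
  -- an element of `𝔭₁` outside `𝔭₂`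
  have hex : ∃ s' : R, s' ∈ 𝔭₁ ∧ s' ∉ 𝔭₂ := by
    by_contra hcon0
    have hcon : ∀ x ∈ 𝔭₁, x ∈ 𝔭₂ := fun x hx => by_contra fun hx2 => hcon0 ⟨x, hx, hx2⟩
    have h1eq : 𝔭₁ = Ideal.span {ϖ} := by
      rw [← h12]
      exact le_antisymm (fun x hx => ⟨hx, hcon x hx⟩) inf_le_left
    obtain ⟨c, hc⟩ := hyg.trans hsϖ
    -- `y * c = s * ϖ ∈ 𝔭₁`, `y ∉ 𝔭₁`, so `c ∈ 𝔭₁ = (ϖ)`
    have hyc : y * c ∈ 𝔭₁ := by
      rw [← hc]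
      exact 𝔭₁.mul_mem_left s hϖ1
    have hc1 : c ∈ 𝔭₁ := by
      rcases Ideal.IsPrime.mem_or_mem inferInstance hyc with h | h
      · exact absurd h hy1
      · exact h
    rw [h1eq] at hc1
    obtain ⟨c', rfl⟩ := Ideal.mem_span_singleton.mp hc1
    have hs' : s = y * c' := by
      have : ϖ * s = ϖ * (y * c') := by rw [mul_comm ϖ s, hc]; ring
      exact mul_left_cancel₀ hϖ0 this
    exact hs (hs' ▸ 𝔭₂.mul_mem_right c' hy2)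
  obtain ⟨s', hs'1, hs'2⟩ := hex
  refine thick_one 𝔭₁ 𝔭₂ ϖ y g hϖ0 hϖ1 hϖ2 hmul hy2 hy1 hyg ⟨s * s', ?_, ?_⟩ hhor
  · intro h
    rcases Ideal.IsPrime.mem_or_mem inferInstance h with h | h
    · exact hs h
    · exact hs'2 h
  · intro a ha
    have hmem : s' * a ∈ 𝔭₁ ⊓ 𝔭₂ := ⟨𝔭₁.mul_mem_right a hs'1, 𝔭₂.mul_mem_left s' ha⟩
    rw [h12] at hmem
    obtain ⟨c, hc⟩ := Ideal.mem_span_singleton.mp hmem
    obtain ⟨e, he⟩ := hsϖ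
    refine ⟨e * c, ?_⟩
    rw [mul_assoc, hc, ← mul_assoc, he]
    ring

end Fermat.Agent.S36.ThickOne
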