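import Mathlib
import Fermat.Agent.S34.Comp
import Fermat.Agent.S36.ThickOne
import Fermat.Agent.S36.OrdAbs
import Fermat.Agent.S36.OrdPoint

/-!
# S36 (R-ss), level `M' q ^ 2`: `HorPrincipal` at a supersingular point, abstract chart form

`B'` is the chart ring of level `M' q`, `B` the chart ring of level `M' q ^ 2` (a noetherian
integrally closed domain), `β : B' → B` an integral ring homomorphism (the degeneracy map `β^*`),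
`𝔭₁ ⊂ B'` the first vertical prime of level `M' q`, `𝔭inf ⊂ B` a vertical prime of level
`M' q ^ 2` with `β⁻¹ 𝔭inf = 𝔭₁`, `𝔫 ⊇ 𝔭inf` a maximal ideal of `B` (a supersingular point),
`𝔫₁ = β⁻¹ 𝔫`.

Inputs, all in chart form:

* `hz`    : `𝔭₁` is principal at `𝔫₁`: `z₀ ∈ 𝔭₁`, `s ∉ 𝔫₁`, `z₀ ∣ s * b` for all `b ∈ 𝔭₁`
            (thickness one at the node of level `M' q`);
* `hab`   : the only primes between `𝔭₁` and `𝔫₁` are `𝔭₁` and `𝔫₁` (the branch is a curve);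
* `huniq` : `𝔭inf` is the only prime of `B` inside `𝔫` over `𝔭₁`;
* `hmult` : `𝔭inf` has multiplicity one: for `b ∈ 𝔭inf` there is `g ∉ 𝔭inf` with `π ∣ g * b`;
* the branch `B_𝔫 ⧸ 𝔭inf B_𝔫` is a principal ideal ring (e.g. `𝔭inf = ker r` for a surjection `r` of
  `B` onto a Dedekind domain).

Output: `𝔭inf B_𝔫 = (β z₀)` (`map_eq_span`), and every prime `𝔮 ≤ 𝔫` of `B` not containing `π`
is principal at `𝔫` in the shape of the contract `K4` (`horPrincipal_of_pir`, `ss_horPrincipal`,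
`ss_horPrincipal_of_prod`).
-/

set_option autoImplicit false
set_option linter.unusedSectionVars false
set_option linter.style.haveILetI false

namespace Fermat.Agent.S36.SsHor

open IsLocalRing Fermat.Agent.S34

/-! ### Chart-level auxiliaries -/

section Aux

variable {B' : Type*} [CommRing B']

/-- The only primes between the kernel of a surjection onto a domain of dimension `≤ 1` and a
proper ideal `𝔫₁` are the kernel and `𝔫₁`. -/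
theorem hab_of_surjective {E₁ : Type*} [CommRing E₁] [IsDomain E₁] [Ring.DimensionLEOne E₁]
    (s₁ : B' →+* E₁) (hs₁ : Function.Surjective s₁) (𝔫₁ : Ideal B') (h𝔫₁ : 𝔫₁ ≠ ⊤)
    (𝔞 : Ideal B') (h𝔞 : 𝔞.IsPrime) (hle : RingHom.ker s₁ ≤ 𝔞) (h𝔞𝔫 : 𝔞 ≤ 𝔫₁) :
    𝔞 = RingHom.ker s₁ ∨ 𝔞 = 𝔫₁ := by
  have hcm : (𝔞.map s₁).comap s₁ = 𝔞 := Comp.comap_map_eq s₁ hs₁ 𝔞 hle
  haveI hp : (𝔞.map s₁).IsPrime := Ideal.map_isPrime_of_surjective hs₁ hle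
  by_cases hbot : 𝔞.map s₁ = ⊥
  · left
    rw [← hcm, hbot]
    rfl
  · right
    haveI hmax : (𝔞.map s₁).IsMaximal := Ring.DimensionLEOne.maximalOfPrime hbot hp
    haveI : ((𝔞.map s₁).comap s₁).IsMaximal := Ideal.comap_isMaximal_of_surjective s₁ hs₁
    rw [hcm] at this
    exact this.eq_of_le h𝔫₁ h𝔞𝔫

variable {B : Type*} [CommRing B]

/-- A pointwise multiplier statement on a finitely generated ideal is uniform. -/
theorem exists_uniform_mult (π : B) (I 𝔭 : Ideal B) [𝔭.IsPrime] (hfg : I.FG)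
    (h : ∀ b ∈ I, ∃ g, g ∉ 𝔭 ∧ π ∣ g * b) : ∃ g, g ∉ 𝔭 ∧ ∀ b ∈ I, π ∣ g * b := by
  classical
  obtain ⟨G, hG⟩ := hfg
  choose! f hf using h
  refine ⟨∏ y ∈ G, f y, ?_, ?_⟩
  · intro hmem
    obtain ⟨y, hyG, hy⟩ := (Ideal.IsPrime.prod_mem_iff (hp := ‹𝔭.IsPrime›)).1 hmem
    exact (hf y (hG ▸ Ideal.subset_span hyG)).1 hy
  · intro y hy
    rw [← hG] at hy
    induction hy using Submodule.span_induction with
    | mem y hyG =>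
      obtain ⟨k, hk⟩ := (hf y (hG ▸ Ideal.subset_span hyG)).2
      obtain ⟨k', hk'⟩ := Finset.dvd_prod_of_mem f hyG
      refine ⟨k' * k, ?_⟩
      rw [hk']
      linear_combination k' * hk
    | zero => rw [mul_zero]; exact dvd_zero _
    | add y z _ _ hy hz => rw [mul_add]; exact dvd_add hy hz
    | smul c y _ hy =>
      rw [smul_eq_mul, mul_left_comm]
      exact Dvd.dvd.mul_left hy c

end Aux

/-! ### The branch is principal at the supersingular point -/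

section Core

variable {B' B : Type*} [CommRing B'] [CommRing B] [IsDomain B] [IsNoetherianRing B]
  [IsIntegrallyClosed B]

/-- **`𝔭inf B_𝔫 = (β z₀)`.**  Pull-back of the principal branch `𝔭₁` of level `M' q` along `β`. -/
theorem map_eq_span (β : B' →+* B) (hβ : β.IsIntegral) (𝔭₁ : Ideal B') (𝔭inf : Ideal B)
    [𝔭inf.IsPrime] (hinf : 𝔭inf.comap β = 𝔭₁) (𝔫 : Ideal B) [𝔫.IsMaximal] (h𝔫 : 𝔭inf ≤ 𝔫)
    (z₀ s : B') (hz₀ : z₀ ∈ 𝔭₁) (hs : β s ∉ 𝔫) (hz : ∀ b ∈ 𝔭₁, z₀ ∣ s * b)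
    (hab : ∀ 𝔞 : Ideal B', 𝔞.IsPrime → 𝔭₁ ≤ 𝔞 → 𝔞 ≤ 𝔫.comap β → 𝔞 = 𝔭₁ ∨ 𝔞 = 𝔫.comap β)
    (huniq : ∀ 𝔮 : Ideal B, 𝔮.IsPrime → 𝔮 ≤ 𝔫 → 𝔮.comap β = 𝔭₁ → 𝔮 = 𝔭inf)
    (hloc : ∃ g, g ∉ 𝔭inf ∧ ∀ b ∈ 𝔭inf, β z₀ ∣ g * b) (hz0 : β z₀ ≠ 0)
    (R : Type*) [CommRing R] [Algebra B R] [IsLocalization.AtPrime R 𝔫] :
    𝔭inf.map (algebraMap B R) = Ideal.span {algebraMap B R (β z₀)} := by
  have hle : 𝔫.primeCompl ≤ nonZeroDivisors B := 𝔫.primeCompl_le_nonZeroDivisors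
  haveI : IsDomain R := IsLocalization.isDomain_of_le_nonZeroDivisors (S := R) hle
  haveI : IsNoetherianRing R := IsLocalization.isNoetherianRing 𝔫.primeCompl R inferInstance
  haveI : IsIntegrallyClosed R := isIntegrallyClosed_of_isLocalization R 𝔫.primeCompl hle
  have hinj : Function.Injective (algebraMap B R) := IsLocalization.injective R hle
  have hdisj : Disjoint (𝔫.primeCompl : Set B) (𝔭inf : Set B) := by
    rw [Set.disjoint_left]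
    intro x hx hx𝔭
    exact hx (h𝔫 hx𝔭)
  haveI h𝔓 : (𝔭inf.map (algebraMap B R)).IsPrime :=
    IsLocalization.isPrime_of_isPrime_disjoint 𝔫.primeCompl R 𝔭inf inferInstance hdisj
  have hcomap : (𝔭inf.map (algebraMap B R)).comap (algebraMap B R) = 𝔭inf :=
    IsLocalization.under_map_of_isPrime_disjoint 𝔫.primeCompl R
      (inferInstance : 𝔭inf.IsPrime) hdisj
  have hzmeminf : β z₀ ∈ 𝔭inf := by
    have : z₀ ∈ 𝔭inf.comap β := hinf ▸ hz₀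
    exact this
  have hspan : Ideal.span {algebraMap B R (β z₀)} ≤ 𝔭inf.map (algebraMap B R) := by
    rw [Ideal.span_le, Set.singleton_subset_iff]
    exact Ideal.mem_map_of_mem _ hzmeminf
  refine Fermat.Agent.S36.ThickOne.eq_span_of_unique_minimal (𝔭inf.map (algebraMap B R))
    (algebraMap B R (β z₀)) ?_ (Ideal.mem_map_of_mem _ hzmeminf) ?_ ?_
  · intro h
    exact hz0 (hinj (by rw [h, map_zero]))
  · -- the minimal primes over `β z₀`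
    intro 𝔮' h𝔮'
    haveI h𝔮'p : 𝔮'.IsPrime := h𝔮'.1.1
    obtain ⟨𝔮₀, h𝔮₀def⟩ : ∃ 𝔮₀ : Ideal B, 𝔮₀ = 𝔮'.comap (algebraMap B R) := ⟨_, rfl⟩
    have h𝔮₀p : 𝔮₀.IsPrime := h𝔮₀def ▸ Ideal.comap_isPrime _ _
    have h𝔮₀le : 𝔮₀ ≤ 𝔫 := by
      intro x hx
      by_contra hx𝔫
      have hu : IsUnit (algebraMap B R x) := Comp.isUnit_algebraMap (R := R) hx𝔫
      rw [h𝔮₀def, Ideal.mem_comap] at hx
      exact h𝔮'p.ne_top (Ideal.eq_top_of_isUnit_mem _ hx hu)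
    have hmap : 𝔮₀.map (algebraMap B R) = 𝔮' := by
      rw [h𝔮₀def]
      exact IsLocalization.map_under 𝔫.primeCompl R 𝔮'
    have hzmem : β z₀ ∈ 𝔮₀ := by
      rw [h𝔮₀def, Ideal.mem_comap]
      exact h𝔮'.1.2 (Ideal.subset_span rfl)
    have h𝔞p : (𝔮₀.comap β).IsPrime := Ideal.comap_isPrime _ _
    have h𝔞𝔫 : 𝔮₀.comap β ≤ 𝔫.comap β := Ideal.comap_mono h𝔮₀le
    have h𝔭₁𝔞 : 𝔭₁ ≤ 𝔮₀.comap β := by
      intro b hb
      obtain ⟨c, hc⟩ := hz b hb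
      have h1 : β s * β b ∈ 𝔮₀ := by
        rw [← map_mul, hc, map_mul]
        exact Ideal.mul_mem_right _ _ hzmem
      rcases h𝔮₀p.mem_or_mem h1 with h | h
      · exact absurd (h𝔮₀le h) hs
      · exact h
    rcases hab (𝔮₀.comap β) h𝔞p h𝔭₁𝔞 h𝔞𝔫 with h | h
    · rw [← hmap, huniq 𝔮₀ h𝔮₀p h𝔮₀le h]
    · haveI : (𝔫.comap β).IsMaximal := Ideal.isMaximal_comap_of_isIntegral_of_isMaximal' β hβ 𝔫
      have hmax' : (𝔮₀.comap β).IsMaximal := h ▸ this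
      haveI := h𝔮₀p
      have hmax : 𝔮₀.IsMaximal := Ideal.isMaximal_of_isIntegral_of_isMaximal_comap' β hβ 𝔮₀ hmax'
      have h𝔮₀eq : 𝔮₀ = 𝔫 := hmax.eq_of_le (Ideal.IsPrime.ne_top inferInstance) h𝔮₀le
      have h𝔓le : 𝔭inf.map (algebraMap B R) ≤ 𝔮' := by
        rw [← hmap, h𝔮₀eq]
        exact Ideal.map_mono h𝔫
      exact le_antisymm (h𝔮'.2 ⟨h𝔓, hspan⟩ h𝔓le) h𝔓le
  · -- local generation
    obtain ⟨g, hg, hgb⟩ := hloc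
    refine ⟨algebraMap B R g, ?_, ?_⟩
    · intro hmem
      apply hg
      rw [← hcomap]
      exact Ideal.mem_comap.2 hmem
    · intro a ha
      obtain ⟨⟨b, t⟩, hbt⟩ := (IsLocalization.mem_map_algebraMap_iff 𝔫.primeCompl R).1 ha
      obtain ⟨c, hc⟩ := hgb b b.2
      obtain ⟨v, hv⟩ := Comp.isUnit_algebraMap (R := R) t.2
      refine ⟨algebraMap B R c * (v⁻¹ : Rˣ), ?_⟩
      have h1 : algebraMap B R g * a * (v : R) =
          algebraMap B R (β z₀) * algebraMap B R c := by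
        rw [hv, mul_assoc, hbt, ← map_mul, hc, map_mul]
      calc algebraMap B R g * a = algebraMap B R g * a * (v : R) * (v⁻¹ : Rˣ) := by
            rw [mul_assoc _ (v : R), Units.mul_inv, mul_one]
        _ = algebraMap B R (β z₀) * (algebraMap B R c * (v⁻¹ : Rˣ)) := by
            rw [h1, mul_assoc]

/-- **`HorPrincipal` at a supersingular point, local form of the branch hypothesis.**  If
moreover `B_𝔫 ⧸ 𝔭inf B_𝔫` is a principal ideal ring, every prime `𝔮 ≤ 𝔫` not containing `β π'`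
(`π' ∈ 𝔭₁`) is principal at `𝔫`. -/
theorem horPrincipal_of_pir (β : B' →+* B) (hβ : β.IsIntegral) (𝔭₁ : Ideal B') (𝔭inf : Ideal B)
    [𝔭inf.IsPrime] (hinf : 𝔭inf.comap β = 𝔭₁) (π' : B') (hπ' : π' ∈ 𝔭₁)
    (𝔫 : Ideal B) [𝔫.IsMaximal] (h𝔫 : 𝔭inf ≤ 𝔫)
    (hz : ∃ z₀ ∈ 𝔭₁, ∃ s, β s ∉ 𝔫 ∧ ∀ b ∈ 𝔭₁, z₀ ∣ s * b)
    (hab : ∀ 𝔞 : Ideal B', 𝔞.IsPrime → 𝔭₁ ≤ 𝔞 → 𝔞 ≤ 𝔫.comap β → 𝔞 = 𝔭₁ ∨ 𝔞 = 𝔫.comap β)
    (huniq : ∀ 𝔮 : Ideal B, 𝔮.IsPrime → 𝔮 ≤ 𝔫 → 𝔮.comap β = 𝔭₁ → 𝔮 = 𝔭inf)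
    (hmult : ∀ b ∈ 𝔭inf, ∃ g, g ∉ 𝔭inf ∧ β π' ∣ g * b)
    (R : Type*) [CommRing R] [Algebra B R] [IsLocalization.AtPrime R 𝔫] [IsLocalRing R]
    (hpir : IsPrincipalIdealRing (R ⧸ 𝔭inf.map (algebraMap B R)))
    (𝔮 : Ideal B) [𝔮.IsPrime] (h𝔮 : 𝔮 ≤ 𝔫) (hπ𝔮 : β π' ∉ 𝔮) :
    ∃ x ∈ 𝔮, ∃ d, d ∉ 𝔫 ∧ ∀ y ∈ 𝔮, x ∣ d * y := by
  obtain ⟨z₀, hz₀, s, hs, hzs⟩ := hz
  -- `β z₀ ∣ β s * β π'`
  obtain ⟨c₀, hc₀⟩ := hzs π' hπ'
  have hdvd : β s * β π' = β z₀ * β c₀ := by rw [← map_mul, hc₀, map_mul]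
  have hβs0 : β s ≠ 0 := fun h => hs (h ▸ 𝔫.zero_mem)
  have hβπ0 : β π' ≠ 0 := fun h => hπ𝔮 (h ▸ 𝔮.zero_mem)
  have hz0 : β z₀ ≠ 0 := by
    intro h
    rw [h, zero_mul] at hdvd
    exact (mul_ne_zero hβs0 hβπ0) hdvd
  have hsinf : β s ∉ 𝔭inf := fun h => hs (h𝔫 h)
  -- uniform local generation of `𝔭inf` by `β z₀`
  obtain ⟨g, hg, hgb⟩ := exists_uniform_mult (β π') 𝔭inf 𝔭inf (IsNoetherian.noetherian 𝔭inf) hmult
  have hloc : ∃ g', g' ∉ 𝔭inf ∧ ∀ b ∈ 𝔭inf, β z₀ ∣ g' * b := by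
    refine ⟨β s * g, ?_, ?_⟩
    · intro hmem
      rcases Ideal.IsPrime.mem_or_mem inferInstance hmem with h | h
      · exact hsinf h
      · exact hg h
    · intro b hb
      obtain ⟨k, hk⟩ := hgb b hb
      refine ⟨β c₀ * k, ?_⟩
      rw [mul_assoc, hk, ← mul_assoc, hdvd]
      ring
  have hspan : 𝔭inf.map (algebraMap B R) = Ideal.span {algebraMap B R (β z₀)} :=
    map_eq_span β hβ 𝔭₁ 𝔭inf hinf 𝔫 h𝔫 z₀ s hz₀ hs hzs hab huniq hloc hz0 R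
  haveI : IsPrincipalIdealRing (R ⧸ Ideal.span {algebraMap B R (β z₀)}) :=
    IsPrincipalIdealRing.of_surjective (Ideal.quotEquivOfEq hspan).toRingHom
      (Ideal.quotEquivOfEq hspan).surjective
  have hzmeminf : β z₀ ∈ 𝔭inf := by
    have : z₀ ∈ 𝔭inf.comap β := hinf ▸ hz₀
    exact this
  have hu : algebraMap B R (β z₀) ∈ maximalIdeal R := by
    rw [← IsLocalization.AtPrime.map_eq_maximalIdeal 𝔫 R]
    exact Ideal.mem_map_of_mem _ (h𝔫 hzmeminf)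
  have hdisj : Disjoint (𝔫.primeCompl : Set B) (𝔮 : Set B) := by
    rw [Set.disjoint_left]
    intro x hx hx𝔮
    exact hx (h𝔮 hx𝔮)
  have hu𝔮 : algebraMap B R (β z₀) ∉ 𝔮.map (algebraMap B R) := by
    intro hmem
    have h := IsLocalization.under_map_of_isPrime_disjoint 𝔫.primeCompl R
      (inferInstance : 𝔮.IsPrime) hdisj
    have hz𝔮 : β z₀ ∈ 𝔮 := by
      rw [← h]
      exact Ideal.mem_comap.2 hmem
    have h1 : β s * β π' ∈ 𝔮 := by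
      rw [hdvd]
      exact Ideal.mul_mem_right _ _ hz𝔮
    rcases Ideal.IsPrime.mem_or_mem inferInstance h1 with h' | h'
    · exact hs (h𝔮 h')
    · exact hπ𝔮 h'
  exact OrdPoint.horPrincipal_of_quotient_pir 𝔫 R (algebraMap B R (β z₀)) hu 𝔮 h𝔮 hu𝔮

end Core

/-! ### The branch as a surjection onto a Dedekind domain -/

section Branch

variable {B' B E : Type*} [CommRing B'] [CommRing B] [IsDomain B] [IsNoetherianRing B]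
  [IsIntegrallyClosed B] [CommRing E] [IsDedekindDomain E]

/-- The kernel of `B_𝔫 → E_𝔪` is the extension of `ker r`. -/
theorem ker_locMap_eq_map (r : B →+* E) (𝔫 : Ideal B) [𝔫.IsPrime]
    (R : Type*) [CommRing R] [Algebra B R] [IsLocalization.AtPrime R 𝔫]
    (𝔪 : Ideal E) [𝔪.IsPrime] (h𝔪 : 𝔪.comap r = 𝔫)
    (D : Type*) [CommRing D] [Algebra E D] [IsLocalization.AtPrime D 𝔪] :
    RingHom.ker (Comp.locMap r 𝔫 R 𝔪 h𝔪 D) = (RingHom.ker r).map (algebraMap B R) := by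
  apply le_antisymm
  · intro x hx
    obtain ⟨b, s, hs, hxs⟩ := Comp.exists_mul_eq (𝔫 := 𝔫) x
    have hb : r b = 0 := (Comp.locMap_eq_zero_iff h𝔪 hs hxs).mp hx
    obtain ⟨v, hv⟩ := Comp.isUnit_algebraMap (R := R) hs
    have h1 : x = algebraMap B R b * (v⁻¹ : Rˣ) := by
      rw [← hxs, ← hv, mul_assoc, Units.mul_inv, mul_one]
    rw [h1]
    exact Ideal.mul_mem_right _ _ (Ideal.mem_map_of_mem _ (RingHom.mem_ker.2 hb))
  · rw [Ideal.map_le_iff_le_comap]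
    intro b hb
    rw [Ideal.mem_comap, RingHom.mem_ker, Comp.locMap_algebraMap, RingHom.mem_ker.1 hb, map_zero]

/-- **`HorPrincipal` at a supersingular point of level `M' q ^ 2`, chart form.**  `r : B → E` the
reduction onto the branch `C_∞` (a Dedekind domain, not a field), `β⁻¹ (ker r) = 𝔭₁`. -/
theorem ss_horPrincipal (hE : ¬ IsField E) (β : B' →+* B) (hβ : β.IsIntegral)
    (r : B →+* E) (hr : Function.Surjective r)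
    (𝔭₁ : Ideal B') (hinf : ∀ b : B', r (β b) = 0 ↔ b ∈ 𝔭₁) (π' : B') (hπ' : π' ∈ 𝔭₁)
    (𝔫 : Ideal B) [𝔫.IsMaximal] (h𝔫 : RingHom.ker r ≤ 𝔫)
    (hz : ∃ z₀ ∈ 𝔭₁, ∃ s, β s ∉ 𝔫 ∧ ∀ b ∈ 𝔭₁, z₀ ∣ s * b)
    (hab : ∀ 𝔞 : Ideal B', 𝔞.IsPrime → 𝔭₁ ≤ 𝔞 → 𝔞 ≤ 𝔫.comap β → 𝔞 = 𝔭₁ ∨ 𝔞 = 𝔫.comap β)
    (huniq : ∀ 𝔮 : Ideal B, 𝔮.IsPrime → 𝔮 ≤ 𝔫 → 𝔮.comap β = 𝔭₁ → 𝔮 = RingHom.ker r)
    (hmult : ∀ b, r b = 0 → ∃ g, r g ≠ 0 ∧ β π' ∣ g * b)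
    (𝔮 : Ideal B) [𝔮.IsPrime] (h𝔮 : 𝔮 ≤ 𝔫) (hπ𝔮 : β π' ∉ 𝔮) :
    ∃ x ∈ 𝔮, ∃ d, d ∉ 𝔫 ∧ ∀ y ∈ 𝔮, x ∣ d * y := by
  haveI hkp : (RingHom.ker r).IsPrime := RingHom.ker_isPrime r
  haveI h𝔪max : (𝔫.map r).IsMaximal := Comp.map_isMaximal r hr 𝔫 h𝔫
  have h𝔪 : (𝔫.map r).comap r = 𝔫 := Comp.comap_map_eq r hr 𝔫 h𝔫
  have h𝔪ne : 𝔫.map r ≠ ⊥ := Ring.ne_bot_of_isMaximal_of_not_isField h𝔪max hE
  haveI : IsDiscreteValuationRing (Localization.AtPrime (𝔫.map r)) :=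
    IsLocalization.AtPrime.isDiscreteValuationRing_of_dedekind_domain E h𝔪ne _
  have hφs : Function.Surjective
      (Comp.locMap r 𝔫 (Localization.AtPrime 𝔫) (𝔫.map r) h𝔪 (Localization.AtPrime (𝔫.map r))) :=
    Comp.locMap_surjective h𝔪 hr
  have hker := ker_locMap_eq_map r 𝔫 (Localization.AtPrime 𝔫) (𝔫.map r) h𝔪
    (Localization.AtPrime (𝔫.map r))
  let e : (Localization.AtPrime 𝔫 ⧸ (RingHom.ker r).map (algebraMap B (Localization.AtPrime 𝔫)))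
      ≃+* Localization.AtPrime (𝔫.map r) :=
    (Ideal.quotEquivOfEq hker.symm).trans (RingHom.quotientKerEquivOfSurjective hφs)
  have hpir : IsPrincipalIdealRing
      (Localization.AtPrime 𝔫 ⧸ (RingHom.ker r).map (algebraMap B (Localization.AtPrime 𝔫))) :=
    IsPrincipalIdealRing.of_surjective (e.symm : Localization.AtPrime (𝔫.map r) →+* _)
      e.symm.surjective
  have hinf' : (RingHom.ker r).comap β = 𝔭₁ := by
    ext b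
    rw [Ideal.mem_comap, RingHom.mem_ker]
    exact hinf b
  exact horPrincipal_of_pir β hβ 𝔭₁ (RingHom.ker r) hinf' π' hπ' 𝔫 h𝔫 hz hab huniq
    (fun b hb => by
      obtain ⟨g, hg, hgb⟩ := hmult b (RingHom.mem_ker.1 hb)
      exact ⟨g, fun h => hg (RingHom.mem_ker.1 h), hgb⟩)
    (Localization.AtPrime 𝔫) hpir 𝔮 h𝔮 hπ𝔮

/-- **`HorPrincipal` at a supersingular point, product form of the vertical input.**  The
hypotheses `huniq`, `hmult` of `ss_horPrincipal` from the product relation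
`𝔭inf * 𝔭mid ^ e * 𝔭zero ⊆ (π)` and `β⁻¹ 𝔭mid, β⁻¹ 𝔭zero ⊄ 𝔭₁`. -/
theorem ss_horPrincipal_of_prod (hE : ¬ IsField E) (β : B' →+* B) (hβ : β.IsIntegral)
    (r : B →+* E) (hr : Function.Surjective r)
    (𝔭₁ : Ideal B') (hinf : ∀ b : B', r (β b) = 0 ↔ b ∈ 𝔭₁) (π' : B') (hπ' : π' ∈ 𝔭₁)
    (𝔫 : Ideal B) [𝔫.IsMaximal] (h𝔫 : RingHom.ker r ≤ 𝔫)
    (hz : ∃ z₀ ∈ 𝔭₁, ∃ s, β s ∉ 𝔫 ∧ ∀ b ∈ 𝔭₁, z₀ ∣ s * b)
    (hab : ∀ 𝔞 : Ideal B', 𝔞.IsPrime → 𝔭₁ ≤ 𝔞 → 𝔞 ≤ 𝔫.comap β → 𝔞 = 𝔭₁ ∨ 𝔞 = 𝔫.comap β)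
    (𝔭mid 𝔭zero : Ideal B) (e : ℕ)
    (hprod : ∀ x, r x = 0 → ∀ y ∈ 𝔭mid, ∀ z ∈ 𝔭zero, β π' ∣ x * y ^ e * z)
    (hmid : ¬ 𝔭mid.comap β ≤ 𝔭₁) (hzero : ¬ 𝔭zero.comap β ≤ 𝔭₁)
    (𝔮 : Ideal B) [𝔮.IsPrime] (h𝔮 : 𝔮 ≤ 𝔫) (hπ𝔮 : β π' ∉ 𝔮) :
    ∃ x ∈ 𝔮, ∃ d, d ∉ 𝔫 ∧ ∀ y ∈ 𝔮, x ∣ d * y := by
  haveI hkp : (RingHom.ker r).IsPrime := RingHom.ker_isPrime r
  have hinf' : (RingHom.ker r).comap β = 𝔭₁ := by
    ext b
    rw [Ideal.mem_comap, RingHom.mem_ker]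
    exact hinf b
  obtain ⟨cm, hcm, hcm1⟩ := SetLike.not_le_iff_exists.1 hmid
  obtain ⟨cz, hcz, hcz1⟩ := SetLike.not_le_iff_exists.1 hzero
  rw [Ideal.mem_comap] at hcm hcz
  have hrcm : r (β cm) ≠ 0 := fun h => hcm1 ((hinf cm).1 h)
  have hrcz : r (β cz) ≠ 0 := fun h => hcz1 ((hinf cz).1 h)
  refine ss_horPrincipal hE β hβ r hr 𝔭₁ hinf π' hπ' 𝔫 h𝔫 hz hab ?_ ?_ 𝔮 h𝔮 hπ𝔮
  · -- `huniq`
    intro 𝔮' h𝔮'p h𝔮'le h𝔮'c
    have hπmem : β π' ∈ 𝔮' := by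
      have : π' ∈ 𝔮'.comap β := h𝔮'c ▸ hπ'
      exact this
    have hcm𝔮 : β cm ∉ 𝔮' := fun h => hcm1 (h𝔮'c ▸ (Ideal.mem_comap.2 h))
    have hcz𝔮 : β cz ∉ 𝔮' := fun h => hcz1 (h𝔮'c ▸ (Ideal.mem_comap.2 h))
    have hkle : RingHom.ker r ≤ 𝔮' := by
      intro x hx
      obtain ⟨k, hk⟩ := hprod x (RingHom.mem_ker.1 hx) (β cm) hcm (β cz) hcz
      have h1 : x * β cm ^ e * β cz ∈ 𝔮' := by
        rw [hk]
        exact Ideal.mul_mem_right _ _ hπmem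
      rcases h𝔮'p.mem_or_mem h1 with h | h
      · rcases h𝔮'p.mem_or_mem h with h' | h'
        · exact h'
        · exact absurd (h𝔮'p.mem_of_pow_mem e h') hcm𝔮
      · exact absurd h hcz𝔮
    by_contra hne
    have hlt : RingHom.ker r < 𝔮' := lt_of_le_of_ne hkle (Ne.symm hne)
    letI : Algebra B' B := β.toAlgebra
    haveI : Algebra.IsIntegral B' B := ⟨hβ⟩
    have h2 := Ideal.IsIntegral.comap_lt_comap (R := B') hlt
    have h3 : (RingHom.ker r).comap (algebraMap B' B) = 𝔮'.comap (algebraMap B' B) := by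
      show (RingHom.ker r).comap β = 𝔮'.comap β
      rw [hinf', h𝔮'c]
    rw [h3] at h2
    exact lt_irrefl _ h2
  · -- `hmult`
    intro b hb
    refine ⟨β cm ^ e * β cz, ?_, ?_⟩
    · rw [map_mul, map_pow]
      exact mul_ne_zero (pow_ne_zero e hrcm) hrcz
    · have h := hprod b hb (β cm) hcm (β cz) hcz
      have e1 : β cm ^ e * β cz * b = b * β cm ^ e * β cz := by ring
      rw [e1]
      exact h

end Branch

end Fermat.Agent.S36.SsHor
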