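import Mathlib
import Fermat.Agent.S36.SsHor

/-!
# S36 (R-ss), level `M' q ^ 2`: `HorPrincipal` on the component `C_∞`, going-down form

Variants of `SsHor.ss_horPrincipal` in which the point `𝔫` of the chart `B` of level `M' q ^ 2` is
only known to lie over a point of the first component of level `M' q`:
`h𝔫β : 𝔭₁ ≤ 𝔫.comap β` (instead of `ker r ≤ 𝔫`), by going down along the integral injective map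
`β : B' → B` from the integrally closed domain `B'`.

* `ker_le_of_comap_le` : going down, `𝔭inf ≤ 𝔫`;
* `huniq_of_mult`, `hmult_of_mult` : the one-line vertical input
  `hmultβ : ∀ b ∈ 𝔭inf, ∃ s ∉ 𝔭₁, β π' ∣ β s * b`
  ("`𝔭inf` is the only prime over `𝔭₁`, with ramification index one") gives both `huniq` and
  `hmult` of `SsHor`;
* `ss_horPrincipal_down` : `HorPrincipal` from `huniq`, `hmult`, `h𝔫β`;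
* `ss_horPrincipal_of_mult` : the same from `hmultβ`, `h𝔫β`;
* `ss_horPrincipal_of_prod_down` : the same from the product relation, `h𝔫β`.
-/

set_option autoImplicit false
set_option linter.unusedSectionVars false
set_option linter.style.haveILetI false

namespace Fermat.Agent.S36.SsHorDown

open Fermat.Agent.S36

section Down

variable {B' B : Type*} [CommRing B'] [IsDomain B'] [IsIntegrallyClosed B'] [CommRing B]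
  [IsDomain B]

/-- **Going down.**  If `𝔭inf` is the only prime of `B` inside `𝔫` lying over `𝔭₁` and
`𝔭₁ ≤ β⁻¹ 𝔫`, then `𝔭inf ≤ 𝔫`. -/
theorem ker_le_of_comap_le (β : B' →+* B) (hβinj : Function.Injective β) (hβ : β.IsIntegral)
    (𝔭₁ : Ideal B') [𝔭₁.IsPrime] (𝔭inf : Ideal B) (𝔫 : Ideal B) [𝔫.IsPrime]
    (h𝔫β : 𝔭₁ ≤ 𝔫.comap β)
    (huniq : ∀ 𝔮 : Ideal B, 𝔮.IsPrime → 𝔮 ≤ 𝔫 → 𝔮.comap β = 𝔭₁ → 𝔮 = 𝔭inf) : 𝔭inf ≤ 𝔫 := by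
  letI : Algebra B' B := β.toAlgebra
  haveI : Algebra.IsIntegral B' B := ⟨hβ⟩
  haveI : FaithfulSMul B' B := (faithfulSMul_iff_algebraMap_injective B' B).mpr hβinj
  haveI : 𝔫.LiesOver (𝔫.under B') := ⟨rfl⟩
  have hle : 𝔭₁ ≤ 𝔫.under B' := h𝔫β
  obtain ⟨P, hP𝔫, hPprime, hPover⟩ :=
    Ideal.exists_ideal_le_liesOver_of_le (p := 𝔭₁) (q := 𝔫.under B') 𝔫 hle
  have hPc : P.comap β = 𝔭₁ := hPover.over.symm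
  rw [← huniq P hPprime hP𝔫 hPc]
  exact hP𝔫

end Down

section Mult

variable {B' B : Type*} [CommRing B'] [CommRing B]

/-- `huniq` from the strong multiplier statement. -/
theorem huniq_of_mult (β : B' →+* B) (hβ : β.IsIntegral) (𝔭₁ : Ideal B') (𝔭inf : Ideal B)
    [𝔭inf.IsPrime] (hinf : 𝔭inf.comap β = 𝔭₁) (π' : B') (hπ' : π' ∈ 𝔭₁)
    (hmultβ : ∀ b ∈ 𝔭inf, ∃ s, s ∉ 𝔭₁ ∧ β π' ∣ β s * b)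
    (𝔮 : Ideal B) (h𝔮 : 𝔮.IsPrime) (h𝔮c : 𝔮.comap β = 𝔭₁) : 𝔮 = 𝔭inf := by
  have hπmem : β π' ∈ 𝔮 := by
    have : π' ∈ 𝔮.comap β := h𝔮c ▸ hπ'
    exact this
  have hle : 𝔭inf ≤ 𝔮 := by
    intro b hb
    obtain ⟨s, hs, k, hk⟩ := hmultβ b hb
    have h1 : β s * b ∈ 𝔮 := by
      rw [hk]
      exact Ideal.mul_mem_right _ _ hπmem
    rcases h𝔮.mem_or_mem h1 with h | h
    · exact absurd (h𝔮c ▸ (Ideal.mem_comap.2 h) : s ∈ 𝔭₁) hs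
    · exact h
  by_contra hne
  have hlt : 𝔭inf < 𝔮 := lt_of_le_of_ne hle (Ne.symm hne)
  letI : Algebra B' B := β.toAlgebra
  haveI : Algebra.IsIntegral B' B := ⟨hβ⟩
  have h2 := Ideal.IsIntegral.comap_lt_comap (R := B') hlt
  have h3 : 𝔭inf.comap (algebraMap B' B) = 𝔮.comap (algebraMap B' B) := by
    show 𝔭inf.comap β = 𝔮.comap β
    rw [hinf, h𝔮c]
  rw [h3] at h2
  exact lt_irrefl _ h2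

/-- `hmult` from the strong multiplier statement. -/
theorem hmult_of_mult (β : B' →+* B) (𝔭₁ : Ideal B') (𝔭inf : Ideal B)
    (hinf : 𝔭inf.comap β = 𝔭₁) (π' : B')
    (hmultβ : ∀ b ∈ 𝔭inf, ∃ s, s ∉ 𝔭₁ ∧ β π' ∣ β s * b) :
    ∀ b ∈ 𝔭inf, ∃ g, g ∉ 𝔭inf ∧ β π' ∣ g * b := by
  intro b hb
  obtain ⟨s, hs, hdvd⟩ := hmultβ b hb
  exact ⟨β s, fun h => hs (hinf ▸ (Ideal.mem_comap.2 h)), hdvd⟩

end Mult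

section Main

variable {B' B E : Type*} [CommRing B'] [IsDomain B'] [IsIntegrallyClosed B'] [CommRing B]
  [IsDomain B] [IsNoetherianRing B] [IsIntegrallyClosed B] [CommRing E] [IsDedekindDomain E]

/-- **`HorPrincipal` on `C_∞`, going-down form.**  As `SsHor.ss_horPrincipal`, with
`h𝔫β : 𝔭₁ ≤ 𝔫.comap β` instead of `ker r ≤ 𝔫`. -/
theorem ss_horPrincipal_down (hE : ¬ IsField E) (β : B' →+* B) (hβinj : Function.Injective β)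
    (hβ : β.IsIntegral) (r : B →+* E) (hr : Function.Surjective r)
    (𝔭₁ : Ideal B') (hinf : ∀ b : B', r (β b) = 0 ↔ b ∈ 𝔭₁) (π' : B') (hπ' : π' ∈ 𝔭₁)
    (𝔫 : Ideal B) [𝔫.IsMaximal] (h𝔫β : 𝔭₁ ≤ 𝔫.comap β)
    (hz : ∃ z₀ ∈ 𝔭₁, ∃ s, β s ∉ 𝔫 ∧ ∀ b ∈ 𝔭₁, z₀ ∣ s * b)
    (hab : ∀ 𝔞 : Ideal B', 𝔞.IsPrime → 𝔭₁ ≤ 𝔞 → 𝔞 ≤ 𝔫.comap β → 𝔞 = 𝔭₁ ∨ 𝔞 = 𝔫.comap β)
    (huniq : ∀ 𝔮 : Ideal B, 𝔮.IsPrime → 𝔮 ≤ 𝔫 → 𝔮.comap β = 𝔭₁ → 𝔮 = RingHom.ker r)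
    (hmult : ∀ b, r b = 0 → ∃ g, r g ≠ 0 ∧ β π' ∣ g * b)
    (𝔮 : Ideal B) [𝔮.IsPrime] (h𝔮 : 𝔮 ≤ 𝔫) (hπ𝔮 : β π' ∉ 𝔮) :
    ∃ x ∈ 𝔮, ∃ d, d ∉ 𝔫 ∧ ∀ y ∈ 𝔮, x ∣ d * y := by
  haveI hkp : (RingHom.ker r).IsPrime := RingHom.ker_isPrime r
  have hinf' : (RingHom.ker r).comap β = 𝔭₁ := by
    ext b
    rw [Ideal.mem_comap, RingHom.mem_ker]
    exact hinf b
  haveI h𝔭₁ : 𝔭₁.IsPrime := hinf' ▸ Ideal.comap_isPrime β (RingHom.ker r)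
  have h𝔫 : RingHom.ker r ≤ 𝔫 :=
    ker_le_of_comap_le β hβinj hβ 𝔭₁ (RingHom.ker r) 𝔫 h𝔫β huniq
  exact SsHor.ss_horPrincipal hE β hβ r hr 𝔭₁ hinf π' hπ' 𝔫 h𝔫 hz hab huniq hmult 𝔮 h𝔮 hπ𝔮

/-- **`HorPrincipal` on `C_∞` from the strong multiplier statement**
`hmultβ : ∀ b ∈ ker r, ∃ s ∉ 𝔭₁, β π' ∣ β s * b`, going-down form. -/
theorem ss_horPrincipal_of_mult (hE : ¬ IsField E) (β : B' →+* B) (hβinj : Function.Injective β)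
    (hβ : β.IsIntegral) (r : B →+* E) (hr : Function.Surjective r)
    (𝔭₁ : Ideal B') (hinf : ∀ b : B', r (β b) = 0 ↔ b ∈ 𝔭₁) (π' : B') (hπ' : π' ∈ 𝔭₁)
    (𝔫 : Ideal B) [𝔫.IsMaximal] (h𝔫β : 𝔭₁ ≤ 𝔫.comap β)
    (hz : ∃ z₀ ∈ 𝔭₁, ∃ s, β s ∉ 𝔫 ∧ ∀ b ∈ 𝔭₁, z₀ ∣ s * b)
    (hab : ∀ 𝔞 : Ideal B', 𝔞.IsPrime → 𝔭₁ ≤ 𝔞 → 𝔞 ≤ 𝔫.comap β → 𝔞 = 𝔭₁ ∨ 𝔞 = 𝔫.comap β)
    (hmultβ : ∀ b, r b = 0 → ∃ s, s ∉ 𝔭₁ ∧ β π' ∣ β s * b)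
    (𝔮 : Ideal B) [𝔮.IsPrime] (h𝔮 : 𝔮 ≤ 𝔫) (hπ𝔮 : β π' ∉ 𝔮) :
    ∃ x ∈ 𝔮, ∃ d, d ∉ 𝔫 ∧ ∀ y ∈ 𝔮, x ∣ d * y := by
  haveI hkp : (RingHom.ker r).IsPrime := RingHom.ker_isPrime r
  have hinf' : (RingHom.ker r).comap β = 𝔭₁ := by
    ext b
    rw [Ideal.mem_comap, RingHom.mem_ker]
    exact hinf b
  have hm' : ∀ b ∈ RingHom.ker r, ∃ s, s ∉ 𝔭₁ ∧ β π' ∣ β s * b :=
    fun b hb => hmultβ b (RingHom.mem_ker.1 hb)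
  refine ss_horPrincipal_down hE β hβinj hβ r hr 𝔭₁ hinf π' hπ' 𝔫 h𝔫β hz hab ?_ ?_ 𝔮 h𝔮 hπ𝔮
  · intro 𝔮' h𝔮'p _ h𝔮'c
    exact huniq_of_mult β hβ 𝔭₁ (RingHom.ker r) hinf' π' hπ' hm' 𝔮' h𝔮'p h𝔮'c
  · intro b hb
    obtain ⟨g, hg, hgb⟩ := hmult_of_mult β 𝔭₁ (RingHom.ker r) hinf' π' hm' b (RingHom.mem_ker.2 hb)
    exact ⟨g, fun h => hg (RingHom.mem_ker.2 h), hgb⟩

/-- **`HorPrincipal` on `C_∞` from the product relation, going-down form.** -/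
theorem ss_horPrincipal_of_prod_down (hE : ¬ IsField E) (β : B' →+* B)
    (hβinj : Function.Injective β) (hβ : β.IsIntegral) (r : B →+* E) (hr : Function.Surjective r)
    (𝔭₁ : Ideal B') (hinf : ∀ b : B', r (β b) = 0 ↔ b ∈ 𝔭₁) (π' : B') (hπ' : π' ∈ 𝔭₁)
    (𝔫 : Ideal B) [𝔫.IsMaximal] (h𝔫β : 𝔭₁ ≤ 𝔫.comap β)
    (hz : ∃ z₀ ∈ 𝔭₁, ∃ s, β s ∉ 𝔫 ∧ ∀ b ∈ 𝔭₁, z₀ ∣ s * b)
    (hab : ∀ 𝔞 : Ideal B', 𝔞.IsPrime → 𝔭₁ ≤ 𝔞 → 𝔞 ≤ 𝔫.comap β → 𝔞 = 𝔭₁ ∨ 𝔞 = 𝔫.comap β)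
    (𝔭mid 𝔭zero : Ideal B) (e : ℕ)
    (hprod : ∀ x, r x = 0 → ∀ y ∈ 𝔭mid, ∀ z ∈ 𝔭zero, β π' ∣ x * y ^ e * z)
    (hmid : ¬ 𝔭mid.comap β ≤ 𝔭₁) (hzero : ¬ 𝔭zero.comap β ≤ 𝔭₁)
    (𝔮 : Ideal B) [𝔮.IsPrime] (h𝔮 : 𝔮 ≤ 𝔫) (hπ𝔮 : β π' ∉ 𝔮) :
    ∃ x ∈ 𝔮, ∃ d, d ∉ 𝔫 ∧ ∀ y ∈ 𝔮, x ∣ d * y := by
  obtain ⟨cm, hcm, hcm1⟩ := SetLike.not_le_iff_exists.1 hmid
  obtain ⟨cz, hcz, hcz1⟩ := SetLike.not_le_iff_exists.1 hzero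
  rw [Ideal.mem_comap] at hcm hcz
  refine ss_horPrincipal_of_mult hE β hβinj hβ r hr 𝔭₁ hinf π' hπ' 𝔫 h𝔫β hz hab ?_ 𝔮 h𝔮 hπ𝔮
  intro b hb
  refine ⟨cm ^ e * cz, ?_, ?_⟩
  · intro hmem
    have hinf' : ∀ c : B', c ∈ 𝔭₁ → r (β c) = 0 := fun c hc => (hinf c).2 hc
    have h1 : r (β (cm ^ e * cz)) = 0 := hinf' _ hmem
    rw [map_mul, map_mul, map_pow, map_pow] at h1
    rcases mul_eq_zero.1 h1 with h | h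
    · exact hcm1 ((hinf cm).1 (eq_zero_of_pow_eq_zero h))
    · exact hcz1 ((hinf cz).1 h)
  · have h := hprod b hb (β cm) hcm (β cz) hcz
    have e1 : β (cm ^ e * cz) * b = b * β cm ^ e * β cz := by
      rw [map_mul, map_pow]; ring
    rw [e1]
    exact h

end Main

end Fermat.Agent.S36.SsHorDown
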