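import Mathlib
import Fermat.Agent.S36.SsHorDown
import Fermat.Agent.S36.InfVert
import Fermat.Agent.S36.BetaHom
import Fermat.Agent.S36.NodeOverInst

/-!
# S36 (wave 8), (R-ss) / K4 case (I): `HorPrincipal` at the points of the `∞`-component of the
finite chart of level `M q²` — the chart instance

Carriers in the style of `S34.CompInst` / `NodeOverInst`: `BM`, `B₁`, `B₂` integral closures of
`W[X]` (`X ↦ j`) in `FF L M`, `FF L (M * q)`, `FF L (M * q * q)`; `β = BetaHom.betaHom : B₁ → B₂`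
induced by `heckeBetaBar L (M * q) q`.

* `ss_chart` : for a maximal ideal `𝔫` of `B₂` whose trace `β⁻¹ 𝔫` on `B₁` contains the first
  branch `𝔭₁ = {b | rd (coe b) = 0}` of level `M q` (hypothesis `h𝔫`), and a local generator
  `z₀` of `𝔭₁` at `β⁻¹ 𝔫` (hypothesis `hz`, the only point-dependent input: `z₀ = π` at a smooth
  point, `NodeThick.node_thick_one` at a node), every prime `𝔮 ≤ 𝔫` of `B₂` not containing `π`
  is principal at `𝔫`: `∃ x ∈ 𝔮, ∃ d ∉ 𝔫, ∀ y ∈ 𝔮, x ∣ d * y`.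
* `ss_chart_level` : the same at a level `W = A.comap ι`, `IsLevel A q S ι`.

Proof: `SsHorDown.ss_horPrincipal_of_mult` with `E = BM ⧸ π` (Dedekind, not a field),
`r = red ∘ coe : B₂ → E` (by (V-a) `InfVert.red_mem_fullC_sq` and `BaseLift`), the vertical input
`hmultβ` = (V-b) `InfVert.exists_beta_mul_eq`, and `hab` from `SsHor.hab_of_surjective`.
-/

set_option autoImplicit false
set_option linter.unusedSectionVars false
set_option linter.style.haveILetI false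

noncomputable section

namespace Fermat.Agent.S36.SsHorInst

open Polynomial ModularCurve Fermat.Agent.S18 Fermat.Agent.S18.Gauss Fermat.Agent.S37
  IsLocalRing Fermat.Agent.S34

local notation "Qb" => AlgebraicClosure ℚ

section Main

variable (M q : ℕ) [NeZero M] [NeZero q] {L : Type} [Field L] [Algebra ℚ L] (ι : L →+* Qb)
  (W : ValuationSubring L) [IsDiscreteValuationRing ↥W]
  [IsAlgClosed (IsLocalRing.ResidueField ↥W)] [CharP (IsLocalRing.ResidueField ↥W) q]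

/-- **`HorPrincipal` on the `∞`-component of the finite chart of level `M q²`.** -/
theorem ss_chart (hq : q.Prime) (hqM : ¬ q ∣ M)
    (hroots : ∀ x : Qb, (∃ n : ℕ, ¬ q ∣ n ∧ x ^ n = 1) → ∃ b : L, ι b = x)
    (π : ↥W) (hπ : Irreducible π)
    [Algebra (↥W)[X] (Fermat.Agent.S24.FF L M)]
    (halgM : algebraMap (↥W)[X] (Fermat.Agent.S24.FF L M) = evF W M)
    (BM : Type) [CommRing BM] [Algebra (↥W)[X] BM] [Algebra BM (Fermat.Agent.S24.FF L M)]
    [IsScalarTower (↥W)[X] BM (Fermat.Agent.S24.FF L M)]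
    [IsIntegralClosure BM (↥W)[X] (Fermat.Agent.S24.FF L M)]
    [Algebra (↥W)[X] (Fermat.Agent.S24.FF L (M * q))]
    (halg1 : algebraMap (↥W)[X] (Fermat.Agent.S24.FF L (M * q)) = evF W (M * q))
    (B₁ : Type) [CommRing B₁] [Algebra (↥W)[X] B₁] [Algebra B₁ (Fermat.Agent.S24.FF L (M * q))]
    [IsScalarTower (↥W)[X] B₁ (Fermat.Agent.S24.FF L (M * q))]
    [IsIntegralClosure B₁ (↥W)[X] (Fermat.Agent.S24.FF L (M * q))]
    [Algebra (↥W)[X] (Fermat.Agent.S24.FF L (M * q * q))]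
    (halg2 : algebraMap (↥W)[X] (Fermat.Agent.S24.FF L (M * q * q)) = evF W (M * q * q))
    (B₂ : Type) [CommRing B₂] [Algebra (↥W)[X] B₂]
    [Algebra B₂ (Fermat.Agent.S24.FF L (M * q * q))]
    [IsScalarTower (↥W)[X] B₂ (Fermat.Agent.S24.FF L (M * q * q))]
    [IsIntegralClosure B₂ (↥W)[X] (Fermat.Agent.S24.FF L (M * q * q))]
    (𝔫 : Ideal B₂) [𝔫.IsMaximal]
    (h𝔫 : ∀ b : B₁, TwoGauss.rd W ((algebraMap B₁ (Fermat.Agent.S24.FF L (M * q)) b :
      Fermat.Agent.S24.FF L (M * q)) : LaurentSeries L) = 0 →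
      BetaHom.betaHom W (M * q) q halg1 B₁ halg2 B₂ hq b ∈ 𝔫)
    (hz : ∃ z₀ : B₁, TwoGauss.rd W ((algebraMap B₁ (Fermat.Agent.S24.FF L (M * q)) z₀ :
        Fermat.Agent.S24.FF L (M * q)) : LaurentSeries L) = 0 ∧
      ∃ s : B₁, s ∉ 𝔫.comap (BetaHom.betaHom W (M * q) q halg1 B₁ halg2 B₂ hq) ∧
        ∀ b : B₁, TwoGauss.rd W ((algebraMap B₁ (Fermat.Agent.S24.FF L (M * q)) b :
          Fermat.Agent.S24.FF L (M * q)) : LaurentSeries L) = 0 → z₀ ∣ s * b)
    (𝔮 : Ideal B₂) [𝔮.IsPrime] (h𝔮 : 𝔮 ≤ 𝔫) (hπ𝔮 : algebraMap (↥W)[X] B₂ (C π) ∉ 𝔮) :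
    ∃ x ∈ 𝔮, ∃ d, d ∉ 𝔫 ∧ ∀ y ∈ 𝔮, x ∣ d * y := by
  classical
  haveI : Fact q.Prime := ⟨hq⟩
  have hβspec : ∀ c : B₁, algebraMap B₂ (Fermat.Agent.S24.FF L (M * q * q))
      (BetaHom.betaHom W (M * q) q halg1 B₁ halg2 B₂ hq c) =
      heckeBetaBar L (M * q) q (algebraMap B₁ (Fermat.Agent.S24.FF L (M * q)) c) :=
    fun c => BetaHom.betaHom_spec W (M * q) q halg1 B₁ halg2 B₂ hq c
  have hα₁ : ∀ c : BM, algebraMap B₁ (Fermat.Agent.S24.FF L (M * q))
      (NodeOverInst.alphaHom W M q halgM BM halg1 B₁ c) =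
      heckeAlphaBar L M q (algebraMap BM (Fermat.Agent.S24.FF L M) c) :=
    fun c => NodeOverInst.alphaHom_spec W M q halgM BM halg1 B₁ c
  have hα₂ : ∀ c : B₁, algebraMap B₂ (Fermat.Agent.S24.FF L (M * q * q))
      (NodeOverInst.alphaHom W (M * q) q halg1 B₁ halg2 B₂ c) =
      heckeAlphaBar L (M * q) q (algebraMap B₁ (Fermat.Agent.S24.FF L (M * q)) c) :=
    fun c => NodeOverInst.alphaHom_spec W (M * q) q halg1 B₁ halg2 B₂ c
  have hB₂inj : Function.Injective (algebraMap B₂ (Fermat.Agent.S24.FF L (M * q * q))) :=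
    IsIntegralClosure.algebraMap_injective B₂ (↥W)[X] (Fermat.Agent.S24.FF L (M * q * q))
  haveI : IsDomain B₁ := KLocInst.isDomain_fin W (M * q) B₁
  haveI : IsDomain B₂ := KLocInst.isDomain_fin W (M * q * q) B₂
  haveI : IsNoetherianRing B₂ := KLocInst.isNoetherianRing_fin W (M * q * q) halg2 B₂
  haveI : IsIntegrallyClosed B₁ := KLocInst.isIntegrallyClosed_fin W (M * q) halg1 B₁
  haveI : IsIntegrallyClosed B₂ := KLocInst.isIntegrallyClosed_fin W (M * q * q) halg2 B₂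
  have hB₁int := CompInst.isIntegralElem_algebraMap W (M * q) halg1 B₁
  have hB₂int := CompInst.isIntegralElem_algebraMap W (M * q * q) halg2 B₂
  have hBMint := CompInst.isIntegralElem_algebraMap W M halgM BM
  have hmem₁ : ∀ b : B₁, ((algebraMap B₁ (Fermat.Agent.S24.FF L (M * q)) b :
      Fermat.Agent.S24.FF L (M * q)) : LaurentSeries L) ∈ contentRing W := fun b =>
    FrobPartner.mem_contentRing_of_int W (M * q) (hB₁int b)
  have hmem₂ : ∀ b : B₂, ((algebraMap B₂ (Fermat.Agent.S24.FF L (M * q * q)) b :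
      Fermat.Agent.S24.FF L (M * q * q)) : LaurentSeries L) ∈ contentRing W := fun b =>
    FrobPartner.mem_contentRing_of_int W (M * q * q) (hB₂int b)
  let r₁ : B₁ →+* LaurentSeries (IsLocalRing.ResidueField ↥W) :=
    (red W).comp (((algebraMap (Fermat.Agent.S24.FF L (M * q)) (LaurentSeries L)).comp
      (algebraMap B₁ (Fermat.Agent.S24.FF L (M * q)))).codRestrict (contentRing W)
        (fun b => hmem₁ b))
  let r₂ : B₂ →+* LaurentSeries (IsLocalRing.ResidueField ↥W) :=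
    (red W).comp (((algebraMap (Fermat.Agent.S24.FF L (M * q * q)) (LaurentSeries L)).comp
      (algebraMap B₂ (Fermat.Agent.S24.FF L (M * q * q)))).codRestrict (contentRing W)
        (fun b => hmem₂ b))
  have hr₁def : ∀ (b : B₁) (h : ((algebraMap B₁ (Fermat.Agent.S24.FF L (M * q)) b :
      Fermat.Agent.S24.FF L (M * q)) : LaurentSeries L) ∈ contentRing W),
      r₁ b = red W ⟨_, h⟩ := fun b h => rfl
  have hr₂def : ∀ (b : B₂) (h : ((algebraMap B₂ (Fermat.Agent.S24.FF L (M * q * q)) b :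
      Fermat.Agent.S24.FF L (M * q * q)) : LaurentSeries L) ∈ contentRing W),
      r₂ b = red W ⟨_, h⟩ := fun b h => rfl
  have hr₁rd : ∀ b : B₁, r₁ b = TwoGauss.rd W ((algebraMap B₁ (Fermat.Agent.S24.FF L (M * q)) b :
      Fermat.Agent.S24.FF L (M * q)) : LaurentSeries L) := fun b =>
    (TwoGauss.rd_of_mem W (hmem₁ b)).symm
  have hr₂rd : ∀ b : B₂, r₂ b = TwoGauss.rd W
      ((algebraMap B₂ (Fermat.Agent.S24.FF L (M * q * q)) b :
      Fermat.Agent.S24.FF L (M * q * q)) : LaurentSeries L) := fun b =>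
    (TwoGauss.rd_of_mem W (hmem₂ b)).symm
  -- the special fibre of the finite chart of level `M`
  haveI : IsDedekindDomain (BM ⧸ Ideal.span {algebraMap (↥W)[X] BM (C π)}) :=
    ChartInstSplit.finite_chart_dedekind M hq hqM ι W hroots π hπ halgM BM
  have hmemM : ∀ c : BM, ((algebraMap BM (Fermat.Agent.S24.FF L M) c :
      Fermat.Agent.S24.FF L M) : LaurentSeries L) ∈ contentRing W := fun c =>
    GaussRed.mem_contentRing_fin W M q BM hqM halgM c
  let ρM : BM →+* LaurentSeries (IsLocalRing.ResidueField ↥W) :=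
    (red W).comp (((algebraMap (Fermat.Agent.S24.FF L M) (LaurentSeries L)).comp
      (algebraMap BM (Fermat.Agent.S24.FF L M))).codRestrict (contentRing W) hmemM)
  have hρπ : ∀ c : BM, ρM c = 0 ↔ algebraMap (↥W)[X] BM (C π) ∣ c :=
    fun c => (GaussRed.dvd_iff_red_fin W M q BM hqM hπ halgM c).symm
  let ε : (BM ⧸ Ideal.span {algebraMap (↥W)[X] BM (C π)}) →+*
      LaurentSeries (IsLocalRing.ResidueField ↥W) :=
    Ideal.Quotient.lift _ ρM (fun c hc => (hρπ c).mpr (Ideal.mem_span_singleton.mp hc))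
  have hε : Function.Injective ε := by
    rw [injective_iff_map_eq_zero]
    intro c hc
    obtain ⟨c, rfl⟩ := Ideal.Quotient.mk_surjective c
    rw [Ideal.Quotient.lift_mk] at hc
    exact Ideal.Quotient.eq_zero_iff_mem.mpr (Ideal.mem_span_singleton.mpr ((hρπ c).mp hc))
  have hεmk : ∀ (c : BM) (h : ((algebraMap BM (Fermat.Agent.S24.FF L M) c :
      Fermat.Agent.S24.FF L M) : LaurentSeries L) ∈ contentRing W),
      ε (Ideal.Quotient.mk _ c) = red W ⟨_, h⟩ := fun c h => rfl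
  have red_congr : ∀ (f g : LaurentSeries L) (hf : f ∈ contentRing W) (hg : g ∈ contentRing W),
      f = g → red W ⟨f, hf⟩ = red W ⟨g, hg⟩ := by
    intro f g hf hg h
    subst h
    rfl
  have hlift₁ : ∀ (x : Fermat.Agent.S24.FF L (M * q)) (hx : (evF W (M * q)).IsIntegralElem x)
      (h : (x : LaurentSeries L) ∈ contentRing W), ∃ e, red W ⟨_, h⟩ = ε e := by
    intro x hx h
    have hint := CompInst.redJ_isIntegralElem W (M * q) hx h
    obtain ⟨x', hx'I, hx'W, hx'⟩ := BaseLift.exists_int_of_mem_fullC M ι W hq hqM hroots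
      (ResField.red_mem_fullC_of_bar W M q ι hqM x h) hint
    obtain ⟨c, rfl⟩ := CompInst.exists_algebraMap_eq W M halgM BM hx'I
    exact ⟨Ideal.Quotient.mk _ c, by rw [hεmk c hx'W, hx']⟩
  have hlift₂ : ∀ (x : Fermat.Agent.S24.FF L (M * q * q))
      (hx : (evF W (M * q * q)).IsIntegralElem x)
      (h : (x : LaurentSeries L) ∈ contentRing W), ∃ e, red W ⟨_, h⟩ = ε e := by
    intro x hx h
    have hint := CompInst.redJ_isIntegralElem W (M * q * q) hx h
    obtain ⟨x', hx'I, hx'W, hx'⟩ := BaseLift.exists_int_of_mem_fullC M ι W hq hqM hroots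
      (InfVert.red_mem_fullC_sq W M q ι hqM x h) hint
    obtain ⟨c, rfl⟩ := CompInst.exists_algebraMap_eq W M halgM BM hx'I
    exact ⟨Ideal.Quotient.mk _ c, by rw [hεmk c hx'W, hx']⟩
  have hr₁ : ∀ b, ∃ e, r₁ b = ε e := fun b => hlift₁ _ (hB₁int b) (hmem₁ b)
  have hr₂ : ∀ b, ∃ e, r₂ b = ε e := fun b => hlift₂ _ (hB₂int b) (hmem₂ b)
  set s₁ := CompPts.factor r₁ ε hε hr₁ with hs₁def
  set s₂ := CompPts.factor r₂ ε hε hr₂ with hs₂def
  have hs₁surj : Function.Surjective s₁ := by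
    intro e
    obtain ⟨c, rfl⟩ := Ideal.Quotient.mk_surjective e
    refine ⟨NodeOverInst.alphaHom W M q halgM BM halg1 B₁ c, ?_⟩
    rw [hs₁def, CompPts.factor_eq_iff, hr₁def _ (hmem₁ _), hεmk c (hmemM c)]
    apply red_congr
    rw [hα₁, coe_heckeAlphaBar]
  have hs₂surj : Function.Surjective s₂ := by
    intro e
    obtain ⟨c, rfl⟩ := Ideal.Quotient.mk_surjective e
    refine ⟨NodeOverInst.alphaHom W (M * q) q halg1 B₁ halg2 B₂
      (NodeOverInst.alphaHom W M q halgM BM halg1 B₁ c), ?_⟩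
    rw [hs₂def, CompPts.factor_eq_iff, hr₂def _ (hmem₂ _), hεmk c (hmemM c)]
    apply red_congr
    rw [hα₂, coe_heckeAlphaBar, hα₁, coe_heckeAlphaBar]
  have hker₁ : ∀ b : B₁, b ∈ RingHom.ker s₁ ↔
      TwoGauss.rd W ((algebraMap B₁ (Fermat.Agent.S24.FF L (M * q)) b :
        Fermat.Agent.S24.FF L (M * q)) : LaurentSeries L) = 0 := by
    intro b
    rw [RingHom.mem_ker, hs₁def, CompPts.factor_eq_zero_iff, hr₁rd]
  have hker₂ : ∀ b : B₂, s₂ b = 0 ↔
      TwoGauss.rd W ((algebraMap B₂ (Fermat.Agent.S24.FF L (M * q * q)) b :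
        Fermat.Agent.S24.FF L (M * q * q)) : LaurentSeries L) = 0 := by
    intro b
    rw [hs₂def, CompPts.factor_eq_zero_iff, hr₂rd]
  -- the uniformiser
  have hπF₁ : algebraMap B₁ (Fermat.Agent.S24.FF L (M * q)) (algebraMap (↥W)[X] B₁ (C π)) =
      algebraMap L (Fermat.Agent.S24.FF L (M * q)) ((π : W) : L) := by
    rw [← IsScalarTower.algebraMap_apply, halg1, evF_C]
  have hπF₂ : algebraMap B₂ (Fermat.Agent.S24.FF L (M * q * q))
      (algebraMap (↥W)[X] B₂ (C π)) =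
      algebraMap L (Fermat.Agent.S24.FF L (M * q * q)) ((π : W) : L) := by
    rw [← IsScalarTower.algebraMap_apply, halg2, evF_C]
  have hβπ : BetaHom.betaHom W (M * q) q halg1 B₁ halg2 B₂ hq (algebraMap (↥W)[X] B₁ (C π)) =
      algebraMap (↥W)[X] B₂ (C π) := by
    apply hB₂inj
    rw [hβspec, hπF₁, hπF₂]
    exact (heckeBetaBar L (M * q) q).commutes _
  have hπ₁ : algebraMap (↥W)[X] B₁ (C π) ∈ RingHom.ker s₁ := by
    rw [hker₁, hπF₁, GaussPrime.coe_unif π, TwoGauss.rd_of_mem W (C_mem_contentRing W π)]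
    exact red_C_unif W hπ
  -- the five inputs of `SsHorDown.ss_horPrincipal_of_mult`
  have hinf : ∀ b : B₁, s₂ (BetaHom.betaHom W (M * q) q halg1 B₁ halg2 B₂ hq b) = 0 ↔
      b ∈ RingHom.ker s₁ := by
    intro b
    rw [hker₂, hker₁, hβspec, coe_heckeBetaBar, TwoGauss.rd_qExpand W q (hmem₁ b)]
    exact map_eq_zero_iff _ (RingHom.injective _)
  have h𝔫β : RingHom.ker s₁ ≤ 𝔫.comap (BetaHom.betaHom W (M * q) q halg1 B₁ halg2 B₂ hq) :=
    fun b hb => h𝔫 b ((hker₁ b).1 hb)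
  have hz' : ∃ z₀ ∈ RingHom.ker s₁, ∃ s,
      BetaHom.betaHom W (M * q) q halg1 B₁ halg2 B₂ hq s ∉ 𝔫 ∧
        ∀ b ∈ RingHom.ker s₁, z₀ ∣ s * b := by
    obtain ⟨z₀, hz₀, s, hs, hdiv⟩ := hz
    exact ⟨z₀, (hker₁ z₀).2 hz₀, s, hs, fun b hb => hdiv b ((hker₁ b).1 hb)⟩
  have hab : ∀ 𝔞 : Ideal B₁, 𝔞.IsPrime → RingHom.ker s₁ ≤ 𝔞 →
      𝔞 ≤ 𝔫.comap (BetaHom.betaHom W (M * q) q halg1 B₁ halg2 B₂ hq) →
      𝔞 = RingHom.ker s₁ ∨
        𝔞 = 𝔫.comap (BetaHom.betaHom W (M * q) q halg1 B₁ halg2 B₂ hq) := by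
    intro 𝔞 h𝔞 hle h𝔞𝔫
    exact SsHor.hab_of_surjective s₁ hs₁surj _
      (Ideal.comap_ne_top _ (Ideal.IsMaximal.ne_top inferInstance)) 𝔞 h𝔞 hle h𝔞𝔫
  have hmultβ : ∀ b : B₂, s₂ b = 0 → ∃ s, s ∉ RingHom.ker s₁ ∧
      BetaHom.betaHom W (M * q) q halg1 B₁ halg2 B₂ hq (algebraMap (↥W)[X] B₁ (C π)) ∣
        BetaHom.betaHom W (M * q) q halg1 B₁ halg2 B₂ hq s * b := by
    intro b hb
    obtain ⟨s₀, hs₀I, -, hs₀rd, c₀, hc₀I, hmul⟩ := InfVert.exists_beta_mul_eq W M q ι hqM hπ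
      (algebraMap B₂ (Fermat.Agent.S24.FF L (M * q * q)) b) (hmem₂ b) ((hker₂ b).1 hb)
    obtain ⟨s, rfl⟩ := CompInst.exists_algebraMap_eq W (M * q) halg1 B₁ hs₀I
    obtain ⟨c, rfl⟩ := CompInst.exists_algebraMap_eq W (M * q * q) halg2 B₂ hc₀I
    refine ⟨s, fun hs => hs₀rd ((hker₁ s).1 hs), c, hB₂inj ?_⟩
    rw [hβπ, map_mul, map_mul, hβspec, hπF₂, hmul]
  -- the special fibre is not a field
  have hE : ¬ IsField (BM ⧸ Ideal.span {algebraMap (↥W)[X] BM (C π)}) := by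
    intro hf
    haveI : Algebra.IsIntegral (↥W)[X] BM :=
      IsIntegralClosure.isIntegral_algebra (↥W)[X] (Fermat.Agent.S24.FF L M)
    have hφ : ((Ideal.Quotient.mk (Ideal.span {algebraMap (↥W)[X] BM (C π)})).comp
        (algebraMap (↥W)[X] BM)).IsIntegral :=
      RingHom.IsIntegral.trans _ _ (algebraMap_isIntegral_iff.mpr inferInstance)
        (RingHom.isIntegral_of_surjective _ Ideal.Quotient.mk_surjective)
    have hεφ : ∀ S : (↥W)[X], ε ((Ideal.Quotient.mk (Ideal.span {algebraMap (↥W)[X] BM (C π)}))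
        (algebraMap (↥W)[X] BM S)) = redJ W S := by
      intro S
      rw [hεmk _ (hmemM _)]
      apply red_congr
      rw [← IsScalarTower.algebraMap_apply (↥W)[X] BM (Fermat.Agent.S24.FF L M), halgM, coe_evF]
    have hj0 : (Ideal.Quotient.mk (Ideal.span {algebraMap (↥W)[X] BM (C π)}))
        (algebraMap (↥W)[X] BM X) ≠ 0 := by
      intro h0
      have h1 := hεφ X
      rw [h0, map_zero] at h1
      have h2 := (redJ_eq_zero_iff W X).mp h1.symm
      rw [Polynomial.map_X] at h2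
      exact X_ne_zero h2
    obtain ⟨e, he⟩ := hf.mul_inv_cancel hj0
    have hloc : IsLocalHom (RingHom.kerLift ((Ideal.Quotient.mk
        (Ideal.span {algebraMap (↥W)[X] BM (C π)})).comp (algebraMap (↥W)[X] BM))) :=
      RingHom.IsIntegral.isLocalHom
        (RingHom.IsIntegral.tower_top (Ideal.Quotient.mk _) _ (by
          have e1 : (RingHom.kerLift ((Ideal.Quotient.mk
              (Ideal.span {algebraMap (↥W)[X] BM (C π)})).comp (algebraMap (↥W)[X] BM))).comp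
              (Ideal.Quotient.mk _) = (Ideal.Quotient.mk
              (Ideal.span {algebraMap (↥W)[X] BM (C π)})).comp (algebraMap (↥W)[X] BM) := by
            ext x <;> rfl
          rw [e1]
          exact hφ))
        (RingHom.kerLift_injective _)
    have hu : IsUnit (Ideal.Quotient.mk (RingHom.ker ((Ideal.Quotient.mk
        (Ideal.span {algebraMap (↥W)[X] BM (C π)})).comp (algebraMap (↥W)[X] BM))) X) := by
      apply hloc.map_nonunit
      rw [RingHom.kerLift_mk]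
      exact IsUnit.of_mul_eq_one _ he
    obtain ⟨v, hv⟩ := hu.exists_right_inv
    obtain ⟨S, rfl⟩ := Ideal.Quotient.mk_surjective v
    rw [← map_mul, ← map_one (Ideal.Quotient.mk _), Ideal.Quotient.eq, RingHom.mem_ker] at hv
    have h3 := hεφ (X * S - 1)
    rw [RingHom.comp_apply] at hv
    rw [hv, map_zero] at h3
    have h4 := (redJ_eq_zero_iff W (X * S - 1)).mp h3.symm
    rw [Polynomial.map_sub, Polynomial.map_mul, Polynomial.map_X, Polynomial.map_one,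
      sub_eq_zero] at h4
    exact Polynomial.not_isUnit_X (IsUnit.of_mul_eq_one _ h4)
  have hπ𝔮' : BetaHom.betaHom W (M * q) q halg1 B₁ halg2 B₂ hq
      (algebraMap (↥W)[X] B₁ (C π)) ∉ 𝔮 := by
    rw [hβπ]; exact hπ𝔮
  exact SsHorDown.ss_horPrincipal_of_mult hE
    (BetaHom.betaHom W (M * q) q halg1 B₁ halg2 B₂ hq)
    (BetaHom.betaHom_injective W (M * q) q halg1 B₁ halg2 B₂ hq)
    (BetaHom.betaHom_isIntegral W (M * q) q halg1 B₁ halg2 B₂ ι hq) s₂ hs₂surj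
    (RingHom.ker s₁) hinf (algebraMap (↥W)[X] B₁ (C π)) hπ₁ 𝔫 h𝔫β hz' hab hmultβ 𝔮 h𝔮 hπ𝔮'

end Main

section Level

variable (A : ValuationSubring Qb) {L : Type} [Field L] [Algebra ℚ L] (ι : L →+* Qb)
  (M q : ℕ) [NeZero M] [NeZero q]

/-- **`HorPrincipal` on the `∞`-component of the finite chart of level `M q²`, at a level**
`W = A.comap ι`. -/
theorem ss_chart_level (hq : q.Prime) (hqM : ¬ q ∣ M) (S : Finset Qb)
    (hlev : Fermat.Agent.S37.LevelChange.IsLevel A q S ι)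
    (π : ↥(A.comap ι)) (hπ : Irreducible π)
    [Algebra (↥(A.comap ι))[X] (Fermat.Agent.S24.FF L M)]
    (halgM : algebraMap (↥(A.comap ι))[X] (Fermat.Agent.S24.FF L M) = evF (A.comap ι) M)
    (BM : Type) [CommRing BM] [Algebra (↥(A.comap ι))[X] BM]
    [Algebra BM (Fermat.Agent.S24.FF L M)]
    [IsScalarTower (↥(A.comap ι))[X] BM (Fermat.Agent.S24.FF L M)]
    [IsIntegralClosure BM (↥(A.comap ι))[X] (Fermat.Agent.S24.FF L M)]
    [Algebra (↥(A.comap ι))[X] (Fermat.Agent.S24.FF L (M * q))]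
    (halg1 : algebraMap (↥(A.comap ι))[X] (Fermat.Agent.S24.FF L (M * q)) =
      evF (A.comap ι) (M * q))
    (B₁ : Type) [CommRing B₁] [Algebra (↥(A.comap ι))[X] B₁]
    [Algebra B₁ (Fermat.Agent.S24.FF L (M * q))]
    [IsScalarTower (↥(A.comap ι))[X] B₁ (Fermat.Agent.S24.FF L (M * q))]
    [IsIntegralClosure B₁ (↥(A.comap ι))[X] (Fermat.Agent.S24.FF L (M * q))]
    [Algebra (↥(A.comap ι))[X] (Fermat.Agent.S24.FF L (M * q * q))]
    (halg2 : algebraMap (↥(A.comap ι))[X] (Fermat.Agent.S24.FF L (M * q * q)) =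
      evF (A.comap ι) (M * q * q))
    (B₂ : Type) [CommRing B₂] [Algebra (↥(A.comap ι))[X] B₂]
    [Algebra B₂ (Fermat.Agent.S24.FF L (M * q * q))]
    [IsScalarTower (↥(A.comap ι))[X] B₂ (Fermat.Agent.S24.FF L (M * q * q))]
    [IsIntegralClosure B₂ (↥(A.comap ι))[X] (Fermat.Agent.S24.FF L (M * q * q))]
    (𝔫 : Ideal B₂) [𝔫.IsMaximal]
    (h𝔫 : ∀ b : B₁, TwoGauss.rd (A.comap ι)
      ((algebraMap B₁ (Fermat.Agent.S24.FF L (M * q)) b :
      Fermat.Agent.S24.FF L (M * q)) : LaurentSeries L) = 0 →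
      BetaHom.betaHom (A.comap ι) (M * q) q halg1 B₁ halg2 B₂ hq b ∈ 𝔫)
    (hz : ∃ z₀ : B₁, TwoGauss.rd (A.comap ι)
        ((algebraMap B₁ (Fermat.Agent.S24.FF L (M * q)) z₀ :
        Fermat.Agent.S24.FF L (M * q)) : LaurentSeries L) = 0 ∧
      ∃ s : B₁, s ∉ 𝔫.comap (BetaHom.betaHom (A.comap ι) (M * q) q halg1 B₁ halg2 B₂ hq) ∧
        ∀ b : B₁, TwoGauss.rd (A.comap ι)
          ((algebraMap B₁ (Fermat.Agent.S24.FF L (M * q)) b :
          Fermat.Agent.S24.FF L (M * q)) : LaurentSeries L) = 0 → z₀ ∣ s * b)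
    (𝔮 : Ideal B₂) [𝔮.IsPrime] (h𝔮 : 𝔮 ≤ 𝔫)
    (hπ𝔮 : algebraMap (↥(A.comap ι))[X] B₂ (C π) ∉ 𝔮) :
    ∃ x ∈ 𝔮, ∃ d, d ∉ 𝔫 ∧ ∀ y ∈ 𝔮, x ∣ d * y := by
  obtain ⟨-, hroots, hdvr, halgc, -, hchar, -, -⟩ := hlev
  haveI := hdvr
  haveI := halgc
  haveI := hchar
  exact ss_chart M q ι (A.comap ι) hq hqM hroots π hπ halgM BM halg1 B₁ halg2 B₂ 𝔫 h𝔫 hz 𝔮 h𝔮
    hπ𝔮

end Level

end Fermat.Agent.S36.SsHorInst
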