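/-
S36 (wave 8), K4 on the finite chart, clause (A) of `RegFin36.reg36P₁_of_clauses`, on the
LITERAL chart rings `ChartHom.B1 W N = integralClosure W[j] (FF L N)`:

* `algF`, `algB`, `isScalarTower_B1`, `isIntegralClosure_B1` : the literal chart ring is an
  S34-style carrier of the finite chart (`W[X]`-algebra structures `X ↦ j`);
* `betaHom_eq_psiB` : on these carriers `BetaHom.betaHom = ChartHom.psiB`;
* `clauseA` : `RegFin36.ClauseA Φ M q hq A` for EVERY level predicate `Φ` — an instance of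
  `SsHorInst.ss_chart_level` (the `∞`-component of level `M q²`; vertical inputs `InfVert`).
-/
import Mathlib
import Fermat.Agent.S36.SsHorInst
import Fermat.Agent.S36.RegFin36

set_option autoImplicit false
set_option linter.style.haveILetI false
set_option linter.unusedSectionVars false
set_option linter.unusedVariables false
set_option synthInstance.maxHeartbeats 200000
set_option maxHeartbeats 800000
set_option maxSynthPendingDepth 3

noncomputable section

namespace Fermat.Agent.S36.ClauseAInst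

open Polynomial ModularCurve Fermat.Agent.S18 Fermat.Agent.S18.Gauss Fermat.Agent.S34
  Fermat.Agent.S37 Fermat.Agent.S36.Core36P Fermat.Agent.S36.ChartHom

local notation "Qb" => AlgebraicClosure ℚ

/-! ### The literal chart ring as an S34-style carrier -/

section Carrier

variable {L : Type} [Field L] [Algebra ℚ L] (W : ValuationSubring L) (N : ℕ) [NeZero N]

/-- the `W[X]`-algebra structure on `FF L N` through `X ↦ j` -/
@[reducible] def algF : Algebra (↥W)[X] (S24.FF L N) := (evF W N).toAlgebra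

/-- the `W[X]`-algebra structure on the literal finite chart ring -/
@[reducible] def algB : Algebra (↥W)[X] ↥(B1 W N) := (chartB1 W N).toAlgebra

theorem isScalarTower_B1 :
    letI := algF W N
    letI := algB W N
    IsScalarTower (↥W)[X] ↥(B1 W N) (S24.FF L N) := by
  letI := algF W N
  letI := algB W N
  exact IsScalarTower.of_algebraMap_eq (fun p => rfl)

theorem isIntegralClosure_B1 :
    letI := algF W N
    letI := algB W N
    IsIntegralClosure ↥(B1 W N) (↥W)[X] (S24.FF L N) := by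
  letI := algF W N
  letI := algB W N
  refine ⟨Subtype.val_injective, fun {x} => ⟨fun h => ?_, ?_⟩⟩
  · exact ⟨⟨x, (mem_B1_iff W N x).mpr h⟩, rfl⟩
  · rintro ⟨y, rfl⟩
    exact (mem_B1_iff W N _).mp y.2

theorem algebraMap_C_B1 (c : ↥W) :
    letI := algB W N
    algebraMap (↥W)[X] ↥(B1 W N) (C c) = constB1 W N c :=
  chartB1_C W N c

end Carrier

section Beta

variable {L : Type} [Field L] [Algebra ℚ L] (W : ValuationSubring L) (N ℓ : ℕ) [NeZero N]
  [NeZero ℓ]

/-- on the literal charts, `BetaHom.betaHom` is `ChartHom.psiB` -/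
theorem betaHom_eq_psiB (hℓ : ℓ.Prime) (b : ↥(B1 W N)) :
    letI := algF W N
    letI := algB W N
    letI := algF W (N * ℓ)
    letI := algB W (N * ℓ)
    haveI := isScalarTower_B1 W N
    haveI := isIntegralClosure_B1 W N
    haveI := isScalarTower_B1 W (N * ℓ)
    haveI := isIntegralClosure_B1 W (N * ℓ)
    BetaHom.betaHom W N ℓ rfl ↥(B1 W N) rfl ↥(B1 W (N * ℓ)) hℓ b = psiB W N ℓ hℓ b := by
  letI := algF W N
  letI := algB W N
  letI := algF W (N * ℓ)
  letI := algB W (N * ℓ)
  haveI := isScalarTower_B1 W N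
  haveI := isIntegralClosure_B1 W N
  haveI := isScalarTower_B1 W (N * ℓ)
  haveI := isIntegralClosure_B1 W (N * ℓ)
  apply Subtype.ext
  have h := BetaHom.betaHom_spec W N ℓ rfl ↥(B1 W N) rfl ↥(B1 W (N * ℓ)) hℓ b
  rw [coe_psiB]
  exact h

end Beta

/-! ### Clause (A) -/

/-- **Clause (A) of the K4 assembly on the finite chart**, for every level predicate. -/
theorem clauseA (Φ : LevelPred) (M q : ℕ) [NeZero M] [NeZero q] (hq : q.Prime) (hqM : ¬ q ∣ M)
    (A : ValuationSubring Qb) : RegFin36.ClauseA Φ M q hq A := by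
  refine ⟨∅, fun a ha => absurd ha (Finset.notMem_empty a), ?_⟩
  intro L _ _ ι hlev hirr _ 𝔫 h𝔫max _ h𝔫 hz 𝔮 h𝔮p h𝔮𝔫 hπ𝔮
  haveI := h𝔫max
  haveI := h𝔮p
  letI := algF (A.comap ι) M
  letI := algB (A.comap ι) M
  letI := algF (A.comap ι) (M * q)
  letI := algB (A.comap ι) (M * q)
  letI := algF (A.comap ι) (M * q * q)
  letI := algB (A.comap ι) (M * q * q)
  haveI := isScalarTower_B1 (A.comap ι) M
  haveI := isIntegralClosure_B1 (A.comap ι) M
  haveI := isScalarTower_B1 (A.comap ι) (M * q)
  haveI := isIntegralClosure_B1 (A.comap ι) (M * q)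
  haveI := isScalarTower_B1 (A.comap ι) (M * q * q)
  haveI := isIntegralClosure_B1 (A.comap ι) (M * q * q)
  have hβ := betaHom_eq_psiB (A.comap ι) (M * q) q hq
  have hC := algebraMap_C_B1 (A.comap ι) (M * q * q) ((q : ℕ) : ↥(A.comap ι))
  refine SsHorInst.ss_chart_level A ι M q hq hqM ∅ hlev ((q : ℕ) : ↥(A.comap ι)) hirr rfl
    ↥(B1 (A.comap ι) M) rfl ↥(B1 (A.comap ι) (M * q)) rfl ↥(B1 (A.comap ι) (M * q * q)) 𝔫
    ?_ ?_ 𝔮 h𝔮𝔫 ?_
  · intro b hb
    rw [hβ b]
    exact h𝔫 b hb
  · obtain ⟨z₀, s, hz₀, hs, hdiv⟩ := hz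
    refine ⟨z₀, hz₀, s, ?_, hdiv⟩
    rw [Ideal.mem_comap, hβ s]
    exact hs
  · rw [hC]
    exact hπ𝔮

end Fermat.Agent.S36.ClauseAInst
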