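import Mathlib
import Fermat.Agent.S36.NodeOverInst
import Fermat.Agent.S34.KLocInst
import Fermat.Agent.S34.DegreeL

/-!
# S36 (R-ss), carrier plumbing: local rings of charts inside the function fields

Construction of the commutative square used by the abstract lemmas of (R-ss) (`EulerDvd`,
`HorizDisc`, `HorizUnram`, `DerivBranchAbs`, `ThickOne`, `NodeOver`):

```
   A  ──→  A'            A, A' domains with fraction fields K, K',
   │       │             `[Algebra A A'] [Algebra K K']` compatible (`hcomp`),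
  R0 ──→  R1             P' a prime of A', P = P' ∩ A,
   │       │             R0 = locSub K P  = A_P  ⊆ K,
   K  ──→  K'            R1 = locSub K' P' = A'_{P'} ⊆ K'.
```

* `locSub K P : Subalgebra A K` — the localisation of `A` at `P` inside `K`, with instances
  `IsLocalization.AtPrime`, `IsFractionRing _ K` (Mathlib), `IsLocalRing`, and
  `isIntegrallyClosed_locSub`, `isNoetherianRing_locSub`, `mem_locSub`, `algebraMap_mem_locSub`,
  `exists_mul_mem` (denominators);
* `locSubMap` — the ring hom `A_P → A'_{P'}` induced by a field hom `φ : K → K'` compatible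
  with `f : A → A'`, `P'.comap f = P`;
* `with_square` — elimination form: to prove `C` one may assume local rings `R0`, `R1` with all
  the algebra structures and scalar towers of the square (generic, Mathlib only);
* `with_carriers` — the same for the finite charts `BM → B` of levels `M`, `M q` and the field
  extension `α : FF L M → FF L (M q)` (finite separable of degree `q + 1`);
* `algebraMap_C`, `algebraMap_X`, `algebraMap_X_top`, `hL_of_chart` — constants, `j` and
  `L ⊆ R0[1/π]` in `R0` (the hypotheses `hjK`, `hL` of `HorizUnram`);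
* `exists_den`, `isUnit_of_notMem`, `algebraMap_injective_loc`, `mem_map_iff`, `isPrime_map`,
  `mem_map_iff_num`, `map_inf_loc` — the element currency between a chart `B` and `R1 = B_𝔫`.
-/

set_option autoImplicit false
set_option linter.unusedSectionVars false
set_option linter.style.haveILetI false

noncomputable section

namespace Fermat.Agent.S36.NodeCarrier

open nonZeroDivisors Polynomial ModularCurve AlgebraicCurve Fermat.Agent.S18
  Fermat.Agent.S18.Gauss Fermat.Agent.S34 IsLocalRing

local notation "Qb" => AlgebraicClosure ℚ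
local notation "FF" => Fermat.Agent.S24.FF

/-! ### The localisation at a prime as a subalgebra of the fraction field -/

section LocSub

variable {A : Type*} [CommRing A] [IsDomain A] (K : Type*) [Field K] [Algebra A K]
  [IsFractionRing A K] (P : Ideal A) [P.IsPrime]

/-- the localisation of the domain `A` at the prime `P`, inside the fraction field `K` -/
def locSub : Subalgebra A K :=
  Localization.subalgebra.ofField K P.primeCompl P.primeCompl_le_nonZeroDivisors

instance locSub_isLocalization : IsLocalization.AtPrime (locSub K P) P :=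
  Localization.subalgebra.isLocalization_ofField K P.primeCompl P.primeCompl_le_nonZeroDivisors

instance locSub_isLocalRing : IsLocalRing (locSub K P) :=
  IsLocalization.AtPrime.isLocalRing (locSub K P) P

theorem mem_locSub {x : K} : x ∈ locSub K P ↔
    ∃ a s : A, s ∉ P ∧ x = algebraMap A K a * (algebraMap A K s)⁻¹ := by
  constructor
  · rintro ⟨a, s, hs, rfl⟩
    exact ⟨a, s, hs, rfl⟩
  · rintro ⟨a, s, hs, rfl⟩
    exact ⟨a, s, hs, rfl⟩

theorem algebraMap_mem_locSub (a : A) : algebraMap A K a ∈ locSub K P :=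
  (locSub K P).algebraMap_mem a

theorem coe_algebraMap_locSub (a : A) :
    ((algebraMap A (locSub K P) a : locSub K P) : K) = algebraMap A K a := rfl

/-- every element of `A_P` has a denominator outside `P` -/
theorem exists_mul_mem (x : locSub K P) :
    ∃ a s : A, s ∉ P ∧ (x : K) * algebraMap A K s = algebraMap A K a := by
  obtain ⟨a, s, hs, hx⟩ := (mem_locSub K P).mp x.2
  refine ⟨a, s, hs, ?_⟩
  have hs0 : algebraMap A K s ≠ 0 := by
    intro h0
    have : s = 0 := (IsFractionRing.injective A K) (by rw [h0, map_zero])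
    exact hs (this ▸ P.zero_mem)
  rw [hx, mul_assoc, inv_mul_cancel₀ hs0, mul_one]

theorem isIntegrallyClosed_locSub [IsIntegrallyClosed A] : IsIntegrallyClosed (locSub K P) :=
  isIntegrallyClosed_of_isLocalization (locSub K P) P.primeCompl P.primeCompl_le_nonZeroDivisors

theorem isNoetherianRing_locSub [h : IsNoetherianRing A] : IsNoetherianRing (locSub K P) :=
  IsLocalization.isNoetherianRing P.primeCompl (locSub K P) h

end LocSub

/-! ### The induced map between two local rings -/

section Map

variable {A : Type*} [CommRing A] [IsDomain A] (K : Type*) [Field K] [Algebra A K]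
  [IsFractionRing A K] (P : Ideal A) [P.IsPrime]
  {A' : Type*} [CommRing A'] [IsDomain A'] (K' : Type*) [Field K'] [Algebra A' K']
  [IsFractionRing A' K'] (P' : Ideal A') [P'.IsPrime]
  (f : A →+* A') (φ : K →+* K')
  (hφ : ∀ a : A, φ (algebraMap A K a) = algebraMap A' K' (f a)) (hP : P'.comap f = P)

include hφ hP in
theorem map_mem_locSub {x : K} (hx : x ∈ locSub K P) : φ x ∈ locSub K' P' := by
  obtain ⟨a, s, hs, rfl⟩ := (mem_locSub K P).mp hx
  refine (mem_locSub K' P').mpr ⟨f a, f s, ?_, ?_⟩
  · intro h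
    apply hs
    rw [← hP]
    exact h
  · rw [map_mul, map_inv₀, hφ, hφ]

/-- the ring homomorphism `A_P → A'_{P'}` induced by `φ : K → K'` -/
def locSubMap : locSub K P →+* locSub K' P' :=
  (φ.comp (algebraMap (locSub K P) K)).codRestrict (locSub K' P')
    (fun x => map_mem_locSub K P K' P' f φ hφ hP x.2)

theorem coe_locSubMap (x : locSub K P) :
    ((locSubMap K P K' P' f φ hφ hP x : locSub K' P') : K') = φ (x : K) := rfl

theorem locSubMap_algebraMap (a : A) :
    locSubMap K P K' P' f φ hφ hP (algebraMap A (locSub K P) a) =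
      algebraMap A' (locSub K' P') (f a) := by
  apply Subtype.ext
  rw [coe_locSubMap, coe_algebraMap_locSub, coe_algebraMap_locSub, hφ]

theorem locSubMap_injective : Function.Injective (locSubMap K P K' P' f φ hφ hP) := by
  intro x y h
  apply Subtype.ext
  have h1 := congrArg (fun z : locSub K' P' => (z : K')) h
  exact φ.injective h1

end Map

/-! ### The square of algebras -/

section Square

universe uA uK uA' uK'

variable {A : Type uA} [CommRing A] [IsDomain A] {K : Type uK} [Field K] [Algebra A K]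
  [IsFractionRing A K]
  {A' : Type uA'} [CommRing A'] [IsDomain A'] {K' : Type uK'} [Field K'] [Algebra A' K']
  [IsFractionRing A' K'] [Algebra A A'] [Algebra K K']
  (hcomp : ∀ a : A, algebraMap K K' (algebraMap A K a) = algebraMap A' K' (algebraMap A A' a))
  (P : Ideal A) [P.IsPrime] (P' : Ideal A') [P'.IsPrime]
  (hP : P'.comap (algebraMap A A') = P)

/-- the algebra structure `A_P → A'_{P'}` -/
@[reducible] def locAlgebra : Algebra (locSub K P) (locSub K' P') :=
  (locSubMap K P K' P' (algebraMap A A') (algebraMap K K') hcomp hP).toAlgebra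

/-- the algebra structure `A → A'_{P'}` (through `A'`) -/
@[reducible] def baseAlgebra : Algebra A (locSub K' P') :=
  ((algebraMap A' (locSub K' P')).comp (algebraMap A A')).toAlgebra

include hcomp hP in
/-- **The square of local rings, in elimination form.**  `A → A'` domains with fraction fields
`K → K'` (compatible), `P'` a prime of `A'` over `P`: there are local domains `R0 = A_P ⊆ K`,
`R1 = A'_{P'} ⊆ K'` with all the algebra structures and scalar towers of the square, noetherian
and integrally closed when `A`, `A'` are. -/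
theorem with_square [IsIntegrallyClosed A] [IsNoetherianRing A] [IsIntegrallyClosed A']
    [IsNoetherianRing A'] {C : Prop}
    (h : ∀ (R0 : Type uK) [CommRing R0] [IsDomain R0] [IsLocalRing R0] [IsNoetherianRing R0]
      [IsIntegrallyClosed R0] [Algebra A R0] [IsLocalization.AtPrime R0 P] [Algebra R0 K]
      [IsScalarTower A R0 K] [IsFractionRing R0 K]
      (R1 : Type uK') [CommRing R1] [IsDomain R1] [IsLocalRing R1] [IsNoetherianRing R1]
      [IsIntegrallyClosed R1] [Algebra A' R1] [IsLocalization.AtPrime R1 P'] [Algebra R1 K']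
      [IsScalarTower A' R1 K'] [IsFractionRing R1 K']
      [Algebra R0 R1] [Algebra A R1] [IsScalarTower A R0 R1] [IsScalarTower A A' R1]
      [Algebra R0 K'] [IsScalarTower R0 K K'] [IsScalarTower R0 R1 K'], C) : C := by
  haveI := isIntegrallyClosed_locSub K P
  haveI := isNoetherianRing_locSub K P
  haveI := isIntegrallyClosed_locSub K' P'
  haveI := isNoetherianRing_locSub K' P'
  letI i1 : Algebra (locSub K P) (locSub K' P') := locAlgebra hcomp P P' hP
  letI i2 : Algebra A (locSub K' P') := baseAlgebra (A := A) (K' := K') P'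
  haveI t1 : IsScalarTower A (locSub K P) (locSub K' P') :=
    IsScalarTower.of_algebraMap_eq (fun a =>
      (locSubMap_algebraMap K P K' P' (algebraMap A A') (algebraMap K K') hcomp hP a).symm)
  haveI t2 : IsScalarTower A A' (locSub K' P') := IsScalarTower.of_algebraMap_eq (fun _ => rfl)
  haveI t3 : IsScalarTower (locSub K P) K K' := inferInstance
  haveI t4 : IsScalarTower (locSub K P) (locSub K' P') K' :=
    IsScalarTower.of_algebraMap_eq (fun _ => rfl)
  exact h (locSub K P) (locSub K' P')

end Square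

/-! ### The finite charts of levels `M`, `M q` -/

section Chart

variable {L : Type} [Field L] [Algebra ℚ L] (ι : L →+* Qb) (W : ValuationSubring L)
  [IsDiscreteValuationRing ↥W] (M q : ℕ) [NeZero M] [NeZero q]
  [Algebra (↥W)[X] (FF L M)] (halgM : algebraMap (↥W)[X] (FF L M) = evF W M)
  (BM : Type) [CommRing BM] [Algebra (↥W)[X] BM] [Algebra BM (FF L M)]
  [IsScalarTower (↥W)[X] BM (FF L M)] [IsIntegralClosure BM (↥W)[X] (FF L M)]
  [Algebra (↥W)[X] (FF L (M * q))] (halg : algebraMap (↥W)[X] (FF L (M * q)) = evF W (M * q))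
  (B : Type) [CommRing B] [Algebra (↥W)[X] B] [Algebra B (FF L (M * q))]
  [IsScalarTower (↥W)[X] B (FF L (M * q))] [IsIntegralClosure B (↥W)[X] (FF L (M * q))]
  [Algebra BM B]
  (hα : ∀ c : BM, algebraMap B (FF L (M * q)) (algebraMap BM B c) =
    heckeAlphaBar L M q (algebraMap BM (FF L M) c))

include ι halgM halg hα in
/-- **The carriers of (R-ss), in elimination form.**  `BM`, `B` the finite charts of levels `M`,
`M q` with `BM → B` inducing `α`; `𝔫` a prime of `B`, `P = α⁻¹ 𝔫`.  To prove `C` one may assume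
the whole variable block of `EulerDvd` / `HorizDisc` / `HorizUnram` / `NodeOverInst`:
`K = FF L M → Y = FF L (M q)` finite separable of degree `q + 1` (algebra structure `α`),
`R0 = BM_P`, `R1 = B_𝔫` noetherian integrally closed local domains with fraction fields `K`, `Y`,
and all the scalar towers of the square. -/
theorem with_carriers (hq : q.Prime) (hqM : ¬ q ∣ M) (𝔫 : Ideal B) [𝔫.IsPrime] (P : Ideal BM)
    [P.IsPrime] (hP : 𝔫.comap (algebraMap BM B) = P) {C : Prop}
    (h : ∀ [Algebra (FF L M) (FF L (M * q))] [IsScalarTower L (FF L M) (FF L (M * q))]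
      [FiniteDimensional (FF L M) (FF L (M * q))] [Algebra.IsSeparable (FF L M) (FF L (M * q))]
      (R0 : Type) [CommRing R0] [IsDomain R0] [IsLocalRing R0] [IsNoetherianRing R0]
      [IsIntegrallyClosed R0] [Algebra BM R0] [IsLocalization.AtPrime R0 P] [Algebra R0 (FF L M)]
      [IsScalarTower BM R0 (FF L M)] [IsFractionRing R0 (FF L M)]
      (R1 : Type) [CommRing R1] [IsDomain R1] [IsLocalRing R1] [IsNoetherianRing R1]
      [IsIntegrallyClosed R1] [Algebra B R1] [IsLocalization.AtPrime R1 𝔫]
      [Algebra R1 (FF L (M * q))] [IsScalarTower B R1 (FF L (M * q))]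
      [IsFractionRing R1 (FF L (M * q))]
      [Algebra R0 R1] [Algebra BM R1] [IsScalarTower BM R0 R1] [IsScalarTower BM B R1]
      [Algebra R0 (FF L (M * q))] [IsScalarTower R0 (FF L M) (FF L (M * q))]
      [IsScalarTower R0 R1 (FF L (M * q))],
      (∀ x : FF L M, algebraMap (FF L M) (FF L (M * q)) x = heckeAlphaBar L M q x) →
      Module.finrank (FF L M) (FF L (M * q)) = q + 1 → C) : C := by
  letI iK : Algebra (FF L M) (FF L (M * q)) := algebraAlong (heckeAlphaBar L M q)
  haveI tK : IsScalarTower L (FF L M) (FF L (M * q)) := isScalarTower_along (heckeAlphaBar L M q)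
  obtain ⟨hfin, hrank⟩ := DegreeL.finrank_alpha_of_bar L ι M q hq hqM
  haveI : FiniteDimensional (FF L M) (FF L (M * q)) := hfin
  haveI : CharZero L := algebraRat.charZero L
  haveI : CharZero (FF L M) := charZero_of_injective_algebraMap (algebraMap L (FF L M)).injective
  haveI : Algebra.IsSeparable (FF L M) (FF L (M * q)) := inferInstance
  haveI := KLocInst.isDomain_fin W M BM
  haveI := KLocInst.isNoetherianRing_fin W M halgM BM
  haveI := KLocInst.isFractionRing_fin W M halgM BM
  haveI := KLocInst.isIntegrallyClosed_fin W M halgM BM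
  haveI := KLocInst.isDomain_fin W (M * q) B
  haveI := KLocInst.isNoetherianRing_fin W (M * q) halg B
  haveI := KLocInst.isFractionRing_fin W (M * q) halg B
  haveI := KLocInst.isIntegrallyClosed_fin W (M * q) halg B
  have hcomp : ∀ a : BM, algebraMap (FF L M) (FF L (M * q)) (algebraMap BM (FF L M) a) =
      algebraMap B (FF L (M * q)) (algebraMap BM B a) := fun a => (hα a).symm
  refine with_square (K := FF L M) (K' := FF L (M * q)) hcomp P 𝔫 hP ?_
  intro R0 _ _ _ _ _ _ _ _ _ _ R1 _ _ _ _ _ _ _ _ _ _ _ _ _ _ _ _ _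
  exact h R0 R1 (fun _ => rfl) hrank

end Chart

/-! ### Elements of the chart inside the local rings -/

section Elements

variable {L : Type} [Field L] [Algebra ℚ L] (W : ValuationSubring L)
  [IsDiscreteValuationRing ↥W] (M q : ℕ) [NeZero M] [NeZero q]
  [Algebra (↥W)[X] (FF L M)] (halgM : algebraMap (↥W)[X] (FF L M) = evF W M)
  (BM : Type*) [CommRing BM] [Algebra (↥W)[X] BM] [Algebra BM (FF L M)]
  [IsScalarTower (↥W)[X] BM (FF L M)]
  (R0 : Type*) [CommRing R0] [Algebra BM R0] [Algebra R0 (FF L M)]
  [IsScalarTower BM R0 (FF L M)]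

omit [IsDiscreteValuationRing ↥W] in
include halgM in
/-- constants of `W` in `R0 ⊆ FF L M` -/
theorem algebraMap_C (c : W) :
    algebraMap R0 (FF L M) (algebraMap BM R0 (algebraMap (↥W)[X] BM (C c))) =
      algebraMap L (FF L M) (c : L) := by
  rw [← IsScalarTower.algebraMap_apply BM R0 (FF L M),
    ← IsScalarTower.algebraMap_apply (↥W)[X] BM (FF L M), halgM, evF_C]

omit [IsDiscreteValuationRing ↥W] in
include halgM in
/-- `j` in `R0 ⊆ FF L M` -/
theorem algebraMap_X :
    algebraMap R0 (FF L M) (algebraMap BM R0 (algebraMap (↥W)[X] BM X)) =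
      Fermat.Agent.S24.jBC L M := by
  rw [← IsScalarTower.algebraMap_apply BM R0 (FF L M),
    ← IsScalarTower.algebraMap_apply (↥W)[X] BM (FF L M), halgM, evF_X]

omit [IsDiscreteValuationRing ↥W] in
include halgM in
/-- `j` in `R0`, seen in the upper function field: hypothesis `hjK` of
`HorizUnram.pi_mem_of_mem_minimalPrimes`. -/
theorem algebraMap_X_top [Algebra (FF L M) (FF L (M * q))] [Algebra R0 (FF L (M * q))]
    [IsScalarTower R0 (FF L M) (FF L (M * q))]
    (halgK : ∀ x : FF L M, algebraMap (FF L M) (FF L (M * q)) x = heckeAlphaBar L M q x) :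
    algebraMap R0 (FF L (M * q)) (algebraMap BM R0 (algebraMap (↥W)[X] BM X)) =
      Fermat.Agent.S24.jBC L (M * q) := by
  rw [IsScalarTower.algebraMap_apply R0 (FF L M) (FF L (M * q)), algebraMap_X W M halgM BM R0,
    halgK, CompInst.alpha_jBC]

include halgM in
/-- `L ⊆ R0[1/π]`: hypothesis `hL` of `HorizUnram.pi_mem_of_mem_minimalPrimes`, with
`ϖ = algebraMap BM R0 (algebraMap W[X] BM (C π))`. -/
theorem hL_of_chart {π : W} (hπ : Irreducible π) (c : L) :
    ∃ (k : ℕ) (r : R0),
      algebraMap R0 (FF L M) (algebraMap BM R0 (algebraMap (↥W)[X] BM (C π))) ^ k *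
        algebraMap L (FF L M) c = algebraMap R0 (FF L M) r := by
  rcases W.mem_or_inv_mem c with hc | hc
  · refine ⟨0, algebraMap BM R0 (algebraMap (↥W)[X] BM (C ⟨c, hc⟩)), ?_⟩
    rw [pow_zero, one_mul, algebraMap_C W M halgM BM R0]
  · by_cases hc0 : c = 0
    · exact ⟨0, 0, by rw [hc0, map_zero, mul_zero, map_zero]⟩
    have hne : (⟨c⁻¹, hc⟩ : W) ≠ 0 := by
      intro h0
      exact inv_ne_zero hc0 (congrArg Subtype.val h0)
    obtain ⟨k, u, hu⟩ := IsDiscreteValuationRing.eq_unit_mul_pow_irreducible hne hπ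
    refine ⟨k, algebraMap BM R0 (algebraMap (↥W)[X] BM (C ((u⁻¹ : Wˣ) : W))), ?_⟩
    rw [algebraMap_C W M halgM BM R0, algebraMap_C W M halgM BM R0, ← map_pow, ← map_mul]
    congr 1
    have h1 : c⁻¹ = ((u : W) : L) * ((π : W) : L) ^ k := by
      have := congrArg Subtype.val hu
      simpa using this
    have h2 : ((u : W) : L) * (((u⁻¹ : Wˣ) : W) : L) = 1 :=
      congrArg Subtype.val (Units.mul_inv u)
    have hu0 : ((u : W) : L) ≠ 0 := left_ne_zero_of_mul_eq_one h2
    have h3 : (((u⁻¹ : Wˣ) : W) : L) = ((u : W) : L)⁻¹ := eq_inv_of_mul_eq_one_right h2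
    rw [h3]
    have hc' : c = (((u : W) : L) * ((π : W) : L) ^ k)⁻¹ := by rw [← h1, inv_inv]
    have hπ0 : ((π : W) : L) ^ k ≠ 0 := by
      intro h0
      rw [h0, mul_zero] at h1
      exact inv_ne_zero hc0 h1
    rw [hc', mul_inv]
    field_simp

end Elements

section Local

variable {B : Type*} [CommRing B] [IsDomain B] (𝔫 : Ideal B) [𝔫.IsPrime]
  (R1 : Type*) [CommRing R1] [Algebra B R1] [IsLocalization.AtPrime R1 𝔫]

/-- every element of `R1 = B_𝔫` has a denominator outside `𝔫` -/
theorem exists_den (x : R1) :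
    ∃ b s : B, s ∉ 𝔫 ∧ x * algebraMap B R1 s = algebraMap B R1 b := by
  obtain ⟨⟨b, s⟩, h⟩ := IsLocalization.surj 𝔫.primeCompl x
  exact ⟨b, s, s.2, h⟩

/-- elements outside `𝔫` are units of `R1` -/
theorem isUnit_of_notMem {s : B} (hs : s ∉ 𝔫) : IsUnit (algebraMap B R1 s) :=
  IsLocalization.map_units R1 (⟨s, hs⟩ : 𝔫.primeCompl)

include 𝔫 in
theorem algebraMap_injective_loc : Function.Injective (algebraMap B R1) :=
  IsLocalization.injective R1 𝔫.primeCompl_le_nonZeroDivisors

/-- `b ∈ 𝔭 R1 ↔ b ∈ 𝔭` for a prime `𝔭 ≤ 𝔫` of `B` -/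
theorem mem_map_iff (𝔭 : Ideal B) [𝔭.IsPrime] (h𝔭 : 𝔭 ≤ 𝔫) (b : B) :
    algebraMap B R1 b ∈ 𝔭.map (algebraMap B R1) ↔ b ∈ 𝔭 := by
  have hd : Disjoint (𝔫.primeCompl : Set B) (𝔭 : Set B) := by
    rw [Set.disjoint_left]
    intro x hx hx'
    exact hx (h𝔭 hx')
  have hc := IsLocalization.under_map_of_isPrime_disjoint 𝔫.primeCompl R1
    (inferInstance : 𝔭.IsPrime) hd
  constructor
  · intro h
    have : b ∈ (𝔭.map (algebraMap B R1)).under B := h
    rwa [hc] at this
  · exact fun h => Ideal.mem_map_of_mem _ h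

/-- `𝔭 R1` is prime for a prime `𝔭 ≤ 𝔫` of `B` -/
theorem isPrime_map (𝔭 : Ideal B) [𝔭.IsPrime] (h𝔭 : 𝔭 ≤ 𝔫) :
    (𝔭.map (algebraMap B R1)).IsPrime := by
  have hd : Disjoint (𝔫.primeCompl : Set B) (𝔭 : Set B) := by
    rw [Set.disjoint_left]
    intro x hx hx'
    exact hx (h𝔭 hx')
  exact IsLocalization.isPrime_of_isPrime_disjoint 𝔫.primeCompl R1 𝔭 inferInstance hd

/-- `x ∈ 𝔭 R1` iff some (any) numerator of `x` lies in `𝔭` -/
theorem mem_map_iff_num (𝔭 : Ideal B) [𝔭.IsPrime] (h𝔭 : 𝔭 ≤ 𝔫) (x : R1) (b s : B) (hs : s ∉ 𝔫)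
    (hx : x * algebraMap B R1 s = algebraMap B R1 b) :
    x ∈ 𝔭.map (algebraMap B R1) ↔ b ∈ 𝔭 := by
  rw [← mem_map_iff 𝔫 R1 𝔭 h𝔭 b, ← hx]
  constructor
  · exact fun h => Ideal.mul_mem_right _ _ h
  · intro h
    obtain ⟨u, hu⟩ := isUnit_of_notMem 𝔫 R1 hs
    have : x = x * algebraMap B R1 s * ((u⁻¹ : R1ˣ) : R1) := by
      rw [mul_assoc, ← hu, Units.mul_inv, mul_one]
    rw [this]
    exact Ideal.mul_mem_right _ _ h

include 𝔫 in
/-- the intersection of two ideals of `B` localises -/
theorem map_inf_loc (I J : Ideal B) :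
    (I ⊓ J).map (algebraMap B R1) = I.map (algebraMap B R1) ⊓ J.map (algebraMap B R1) := by
  apply le_antisymm
  · exact le_inf (Ideal.map_mono inf_le_left) (Ideal.map_mono inf_le_right)
  · intro x ⟨hxI, hxJ⟩
    obtain ⟨⟨a, s⟩, ha⟩ := (IsLocalization.mem_map_algebraMap_iff 𝔫.primeCompl R1).mp hxI
    obtain ⟨⟨b, t⟩, hb⟩ := (IsLocalization.mem_map_algebraMap_iff 𝔫.primeCompl R1).mp hxJ
    rw [IsLocalization.mem_map_algebraMap_iff 𝔫.primeCompl R1]
    have hinj := algebraMap_injective_loc 𝔫 R1
    have key : (a : B) * (t : B) = (b : B) * (s : B) := by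
      apply hinj
      rw [map_mul, map_mul, ← ha, ← hb]
      ring
    refine ⟨⟨⟨(a : B) * (t : B), ⟨I.mul_mem_right _ a.2, ?_⟩⟩, s * t⟩, ?_⟩
    · rw [key]
      exact J.mul_mem_right _ b.2
    · show x * algebraMap B R1 ((s : B) * (t : B)) = algebraMap B R1 ((a : B) * (t : B))
      rw [map_mul, map_mul, ← ha]
      ring

end Local

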