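import Mathlib
import Fermat.Agent.S36.NodeCarrier
import Fermat.Agent.S34.FinDich
import Fermat.Agent.S37.GaussPrime

/-!
# S36 (R-ss): the two branches of the special fibre of the finite chart of level `M q`

`B` the finite chart of level `M q` over a DVR level `W`, `w` an Atkin–Lehner automorphism.

* `red₁`, `red₂ : B →+* κ((q))` — the two reductions `b ↦ rd (coe b)`, `b ↦ rd (coe (w b))`
  (`red₁_apply`, `red₂_apply`);
* `branch₁`, `branch₂ : Ideal B` — their kernels (`mem_branch₁`, `mem_branch₂`), prime ideals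
  containing `π` (`pi_mem_branch₁`, `pi_mem_branch₂`), with
  `branch₁ ⊓ branch₂ = (π)` (`branch_inf`, = (S1));
* at a point `𝔫` through which both branches pass (`hk₁`, `hk₂`), for any localisation
  `R1 = B_𝔫`: `branch_loc` — `𝔭₁ R1`, `𝔭₂ R1` are prime, `𝔭₁ R1 ⊓ 𝔭₂ R1 = (π)`, `π ≠ 0`, and
  membership is read on numerators: the hypotheses `h12`, `hϖ0` of `ThickOne.thick_one_inf`;
* `locRed` — the extension of a reduction to `R1` (kernel `𝔭ᵢ R1`: `ker_locRed`);
* `algebraMap_top` — `W[X] → BM → R0 → R1` and `W[X] → B → R1` agree (so the `ϖ` of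
  `HorizUnram` is the `π` here).
-/

set_option autoImplicit false
set_option linter.unusedSectionVars false
set_option linter.style.haveILetI false

noncomputable section

namespace Fermat.Agent.S36.NodeBranch

open Polynomial ModularCurve AlgebraicCurve Fermat.Agent.S18 Fermat.Agent.S18.Gauss
  Fermat.Agent.S34 Fermat.Agent.S37 IsLocalRing

local notation "Qb" => AlgebraicClosure ℚ
local notation "FF" => Fermat.Agent.S24.FF

section Chart

variable {L : Type} [Field L] [Algebra ℚ L] (W : ValuationSubring L)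
  [IsDiscreteValuationRing ↥W] (M q : ℕ) [NeZero M] [NeZero q]
  [Algebra (↥W)[X] (FF L (M * q))] (halg : algebraMap (↥W)[X] (FF L (M * q)) = evF W (M * q))
  (B : Type*) [CommRing B] [Algebra (↥W)[X] B] [Algebra B (FF L (M * q))]
  [IsScalarTower (↥W)[X] B (FF L (M * q))] [IsIntegralClosure B (↥W)[X] (FF L (M * q))]
  (hq : q.Prime) (w : FF L (M * q) ≃ₐ[L] FF L (M * q))
  (hwα : (w : FF L (M * q) →ₐ[L] FF L (M * q)).comp (heckeAlphaBar L M q) = heckeBetaBar L M q)

include halg in
theorem mem₁ (b : B) :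
    ((algebraMap (FF L (M * q)) (LaurentSeries L)).comp (algebraMap B (FF L (M * q)))) b ∈
      contentRing W :=
  FrobPartner.mem_contentRing_of_int W (M * q) (CompInst.isIntegralElem_algebraMap W (M * q) halg B b)

include halg hq hwα in
theorem mem₂ (b : B) :
    ((algebraMap (FF L (M * q)) (LaurentSeries L)).comp
      ((w : FF L (M * q) →ₐ[L] FF L (M * q)).toRingHom.comp (algebraMap B (FF L (M * q))))) b ∈
      contentRing W :=
  FrobPartner.mem_contentRing_of_int W (M * q)
    (CompInst.isIntegralElem_atkin W M q hq w hwα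
      (CompInst.isIntegralElem_algebraMap W (M * q) halg B b))

/-- the first reduction `b ↦ rd (coe b)` of the finite chart -/
def red₁ : B →+* LaurentSeries (IsLocalRing.ResidueField ↥W) :=
  (red W).comp (((algebraMap (FF L (M * q)) (LaurentSeries L)).comp
    (algebraMap B (FF L (M * q)))).codRestrict (contentRing W) (mem₁ W M q halg B))

/-- the second reduction `b ↦ rd (coe (w b))` of the finite chart -/
def red₂ : B →+* LaurentSeries (IsLocalRing.ResidueField ↥W) :=
  (red W).comp (((algebraMap (FF L (M * q)) (LaurentSeries L)).comp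
    ((w : FF L (M * q) →ₐ[L] FF L (M * q)).toRingHom.comp
      (algebraMap B (FF L (M * q))))).codRestrict (contentRing W) (mem₂ W M q halg B hq w hwα))

theorem red₁_apply (b : B) :
    red₁ W M q halg B b =
      TwoGauss.rd W ((algebraMap B (FF L (M * q)) b : FF L (M * q)) : LaurentSeries L) := by
  have hm : ((algebraMap B (FF L (M * q)) b : FF L (M * q)) : LaurentSeries L) ∈ contentRing W :=
    mem₁ W M q halg B b
  rw [TwoGauss.rd_of_mem W hm]
  rfl

theorem red₂_apply (b : B) :
    red₂ W M q halg B hq w hwα b =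
      TwoGauss.rd W ((w (algebraMap B (FF L (M * q)) b) : FF L (M * q)) : LaurentSeries L) := by
  have hm : ((w (algebraMap B (FF L (M * q)) b) : FF L (M * q)) : LaurentSeries L) ∈
      contentRing W := mem₂ W M q halg B hq w hwα b
  rw [TwoGauss.rd_of_mem W hm]
  rfl

/-- the first branch `𝔭₁ = ker (rd ∘ coe)` -/
def branch₁ : Ideal B := RingHom.ker (red₁ W M q halg B)

/-- the second branch `𝔭₂ = ker (rd ∘ coe ∘ w)` -/
def branch₂ : Ideal B := RingHom.ker (red₂ W M q halg B hq w hwα)

theorem mem_branch₁ (b : B) : b ∈ branch₁ W M q halg B ↔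
    TwoGauss.rd W ((algebraMap B (FF L (M * q)) b : FF L (M * q)) : LaurentSeries L) = 0 := by
  rw [← red₁_apply W M q halg B b]
  exact RingHom.mem_ker

theorem mem_branch₂ (b : B) : b ∈ branch₂ W M q halg B hq w hwα ↔
    TwoGauss.rd W ((w (algebraMap B (FF L (M * q)) b) : FF L (M * q)) : LaurentSeries L) = 0 := by
  rw [← red₂_apply W M q halg B hq w hwα b]
  exact RingHom.mem_ker

instance isPrime_branch₁ : (branch₁ W M q halg B).IsPrime :=
  RingHom.ker_isPrime _

instance isPrime_branch₂ : (branch₂ W M q halg B hq w hwα).IsPrime :=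
  RingHom.ker_isPrime _

include halg in
theorem algebraMap_pi (π : ↥W) :
    algebraMap B (FF L (M * q)) (algebraMap (↥W)[X] B (C π)) =
      algebraMap L (FF L (M * q)) ((π : W) : L) := by
  rw [← IsScalarTower.algebraMap_apply, halg, evF_C]

theorem pi_mem_branch₁ {π : ↥W} (hπ : Irreducible π) :
    algebraMap (↥W)[X] B (C π) ∈ branch₁ W M q halg B := by
  rw [mem_branch₁, algebraMap_pi W M q halg B π, GaussPrime.coe_unif π,
    TwoGauss.rd_of_mem W (C_mem_contentRing W π)]
  exact red_C_unif W hπ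

theorem pi_mem_branch₂ {π : ↥W} (hπ : Irreducible π) :
    algebraMap (↥W)[X] B (C π) ∈ branch₂ W M q halg B hq w hwα := by
  rw [mem_branch₂, algebraMap_pi W M q halg B π, AlgEquiv.commutes, GaussPrime.coe_unif π,
    TwoGauss.rd_of_mem W (C_mem_contentRing W π)]
  exact red_C_unif W hπ

include halg in
theorem algebraMap_chart_injective : Function.Injective (algebraMap B (FF L (M * q))) :=
  IsIntegralClosure.algebraMap_injective B (↥W)[X] (FF L (M * q))

include halg in
theorem pi_ne_zero {π : ↥W} (hπ : Irreducible π) : algebraMap (↥W)[X] B (C π) ≠ 0 := by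
  intro h0
  have h1 := congrArg (algebraMap B (FF L (M * q))) h0
  rw [algebraMap_pi W M q halg B π, map_zero] at h1
  have h2 : ((π : W) : L) = 0 := (algebraMap L (FF L (M * q))).injective (by rw [h1, map_zero])
  exact hπ.ne_zero (Subtype.ext h2)

/-- **(S1)**: the two branches meet in `(π)`. -/
theorem branch_inf (ι : L →+* Qb) [Fact q.Prime] [CharP (IsLocalRing.ResidueField ↥W) q]
    (hqM : ¬ q ∣ M) {π : ↥W} (hπ : Irreducible π)
    (hwβ : (w : FF L (M * q) →ₐ[L] FF L (M * q)).comp (heckeBetaBar L M q) =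
      heckeAlphaBar L M q) :
    branch₁ W M q halg B ⊓ branch₂ W M q halg B hq w hwα =
      Ideal.span {algebraMap (↥W)[X] B (C π)} := by
  apply le_antisymm
  · rintro b ⟨h1, h2⟩
    have hm1 : ((algebraMap B (FF L (M * q)) b : FF L (M * q)) : LaurentSeries L) ∈
        contentRing W := mem₁ W M q halg B b
    have hm2 : ((w (algebraMap B (FF L (M * q)) b) : FF L (M * q)) : LaurentSeries L) ∈
        contentRing W := mem₂ W M q halg B hq w hwα b
    have h1' := (mem_branch₁ W M q halg B b).mp h1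
    have h2' := (mem_branch₂ W M q halg B hq w hwα b).mp h2
    rw [TwoGauss.rd_of_mem W hm1] at h1'
    rw [TwoGauss.rd_of_mem W hm2] at h2'
    obtain ⟨y, hyI, hy⟩ := FinDich.s1_fin_level ι W M q hqM hπ w hwα hwβ
      (algebraMap B (FF L (M * q)) b) (CompInst.isIntegralElem_algebraMap W (M * q) halg B b)
      hm1 hm2 h1' h2'
    obtain ⟨c, rfl⟩ := CompInst.exists_algebraMap_eq W (M * q) halg B hyI
    refine Ideal.mem_span_singleton.mpr ⟨c, ?_⟩
    apply algebraMap_chart_injective W M q halg B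
    rw [map_mul, algebraMap_pi W M q halg B π, hy]
  · rw [Ideal.span_singleton_le_iff_mem]
    exact ⟨pi_mem_branch₁ W M q halg B hπ, pi_mem_branch₂ W M q halg B hq w hwα hπ⟩

end Chart

/-! ### Localisation at a point -/

section Loc

variable {B : Type*} [CommRing B] [IsDomain B] (𝔫 : Ideal B) [𝔫.IsPrime]
  (R1 : Type*) [CommRing R1] [Algebra B R1] [IsLocalization.AtPrime R1 𝔫]
  {E : Type*} [Field E] (r : B →+* E) (hr : RingHom.ker r ≤ 𝔫)

include hr in
theorem isUnit_of_notMem_ker (s : 𝔫.primeCompl) : IsUnit (r (s : B)) := by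
  rw [isUnit_iff_ne_zero]
  intro h0
  exact s.2 (hr (RingHom.mem_ker.mpr h0))

/-- the extension of a reduction `r : B → E` (a field) with `ker r ≤ 𝔫` to `R1 = B_𝔫` -/
def locRed : R1 →+* E :=
  IsLocalization.lift (M := 𝔫.primeCompl) (g := r) (isUnit_of_notMem_ker 𝔫 r hr)

theorem locRed_algebraMap (b : B) : locRed 𝔫 R1 r hr (algebraMap B R1 b) = r b :=
  IsLocalization.lift_eq _ b

/-- the kernel of the extended reduction is the extended kernel -/
theorem ker_locRed : RingHom.ker (locRed 𝔫 R1 r hr) = (RingHom.ker r).map (algebraMap B R1) := by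
  haveI : (RingHom.ker r).IsPrime := RingHom.ker_isPrime r
  ext x
  obtain ⟨b, s, hs, hx⟩ := NodeCarrier.exists_den 𝔫 R1 x
  rw [NodeCarrier.mem_map_iff_num 𝔫 R1 (RingHom.ker r) hr x b s hs hx, RingHom.mem_ker,
    RingHom.mem_ker]
  have h1 : locRed 𝔫 R1 r hr x * r s = r b := by
    rw [← locRed_algebraMap 𝔫 R1 r hr s, ← map_mul, hx, locRed_algebraMap]
  have hs0 : r s ≠ 0 := fun h0 => hs (hr (RingHom.mem_ker.mpr h0))
  constructor
  · intro h
    rw [← h1, h, zero_mul]
  · intro h
    rw [h] at h1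
    exact (mul_eq_zero.mp h1).resolve_right hs0

end Loc

section Node

variable {L : Type} [Field L] [Algebra ℚ L] (W : ValuationSubring L)
  [IsDiscreteValuationRing ↥W] (M q : ℕ) [NeZero M] [NeZero q]
  [Algebra (↥W)[X] (FF L (M * q))] (halg : algebraMap (↥W)[X] (FF L (M * q)) = evF W (M * q))
  (B : Type*) [CommRing B] [Algebra (↥W)[X] B] [Algebra B (FF L (M * q))]
  [IsScalarTower (↥W)[X] B (FF L (M * q))] [IsIntegralClosure B (↥W)[X] (FF L (M * q))]
  (hq : q.Prime) (w : FF L (M * q) ≃ₐ[L] FF L (M * q))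
  (hwα : (w : FF L (M * q) →ₐ[L] FF L (M * q)).comp (heckeAlphaBar L M q) = heckeBetaBar L M q)

/-- **The two branches in the local ring of a node**: the hypotheses `h12`, `hϖ0` (and the
primality instances) of `ThickOne.thick_one_inf`, with membership read on the chart. -/
theorem branch_loc (ι : L →+* Qb) [Fact q.Prime] [CharP (IsLocalRing.ResidueField ↥W) q]
    (hqM : ¬ q ∣ M) {π : ↥W} (hπ : Irreducible π)
    (hwβ : (w : FF L (M * q) →ₐ[L] FF L (M * q)).comp (heckeBetaBar L M q) =
      heckeAlphaBar L M q)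
    (𝔫 : Ideal B) [𝔫.IsPrime]
    (hk₁ : ∀ b : B, TwoGauss.rd W
      ((algebraMap B (FF L (M * q)) b : FF L (M * q)) : LaurentSeries L) = 0 → b ∈ 𝔫)
    (hk₂ : ∀ b : B, TwoGauss.rd W
      ((w (algebraMap B (FF L (M * q)) b) : FF L (M * q)) : LaurentSeries L) = 0 → b ∈ 𝔫)
    (R1 : Type*) [CommRing R1] [Algebra B R1] [IsLocalization.AtPrime R1 𝔫] :
    ((branch₁ W M q halg B).map (algebraMap B R1)).IsPrime ∧
    ((branch₂ W M q halg B hq w hwα).map (algebraMap B R1)).IsPrime ∧
    (branch₁ W M q halg B).map (algebraMap B R1) ⊓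
      (branch₂ W M q halg B hq w hwα).map (algebraMap B R1) =
        Ideal.span {algebraMap B R1 (algebraMap (↥W)[X] B (C π))} ∧
    algebraMap B R1 (algebraMap (↥W)[X] B (C π)) ≠ 0 ∧
    (∀ b : B, algebraMap B R1 b ∈ (branch₁ W M q halg B).map (algebraMap B R1) ↔
      TwoGauss.rd W ((algebraMap B (FF L (M * q)) b : FF L (M * q)) : LaurentSeries L) = 0) ∧
    (∀ b : B, algebraMap B R1 b ∈ (branch₂ W M q halg B hq w hwα).map (algebraMap B R1) ↔
      TwoGauss.rd W ((w (algebraMap B (FF L (M * q)) b) : FF L (M * q)) : LaurentSeries L) = 0) ∧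
    (∀ (x : R1) (b s : B), s ∉ 𝔫 → x * algebraMap B R1 s = algebraMap B R1 b →
      (x ∈ (branch₁ W M q halg B).map (algebraMap B R1) ↔
        TwoGauss.rd W ((algebraMap B (FF L (M * q)) b : FF L (M * q)) : LaurentSeries L) = 0)) ∧
    (∀ (x : R1) (b s : B), s ∉ 𝔫 → x * algebraMap B R1 s = algebraMap B R1 b →
      (x ∈ (branch₂ W M q halg B hq w hwα).map (algebraMap B R1) ↔
        TwoGauss.rd W ((w (algebraMap B (FF L (M * q)) b) : FF L (M * q)) :
          LaurentSeries L) = 0)) := by
  haveI : IsDomain B := (algebraMap_chart_injective W M q halg B).isDomain _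
  have h1 : branch₁ W M q halg B ≤ 𝔫 := fun b hb => hk₁ b ((mem_branch₁ W M q halg B b).mp hb)
  have h2 : branch₂ W M q halg B hq w hwα ≤ 𝔫 := fun b hb =>
    hk₂ b ((mem_branch₂ W M q halg B hq w hwα b).mp hb)
  refine ⟨NodeCarrier.isPrime_map 𝔫 R1 _ h1, NodeCarrier.isPrime_map 𝔫 R1 _ h2, ?_, ?_, ?_, ?_,
    ?_, ?_⟩
  · rw [← NodeCarrier.map_inf_loc 𝔫 R1, branch_inf W M q halg B hq w hwα ι hqM hπ hwβ,
      Ideal.map_span, Set.image_singleton]
  · intro h0
    exact pi_ne_zero W M q halg B hπ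
      (NodeCarrier.algebraMap_injective_loc 𝔫 R1 (by rw [h0, map_zero]))
  · intro b
    rw [NodeCarrier.mem_map_iff 𝔫 R1 _ h1 b, mem_branch₁]
  · intro b
    rw [NodeCarrier.mem_map_iff 𝔫 R1 _ h2 b, mem_branch₂]
  · intro x b s hs hx
    rw [NodeCarrier.mem_map_iff_num 𝔫 R1 _ h1 x b s hs hx, mem_branch₁]
  · intro x b s hs hx
    rw [NodeCarrier.mem_map_iff_num 𝔫 R1 _ h2 x b s hs hx, mem_branch₂]

end Node

/-! ### Compatibility of the two paths `W[X] → R1` -/

section Top

variable {L : Type} [Field L] [Algebra ℚ L] (W : ValuationSubring L) (M q : ℕ) [NeZero M]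
  [NeZero q]
  [Algebra (↥W)[X] (FF L M)] (halgM : algebraMap (↥W)[X] (FF L M) = evF W M)
  (BM : Type*) [CommRing BM] [Algebra (↥W)[X] BM] [Algebra BM (FF L M)]
  [IsScalarTower (↥W)[X] BM (FF L M)]
  [Algebra (↥W)[X] (FF L (M * q))] (halg : algebraMap (↥W)[X] (FF L (M * q)) = evF W (M * q))
  (B : Type*) [CommRing B] [Algebra (↥W)[X] B] [Algebra B (FF L (M * q))]
  [IsScalarTower (↥W)[X] B (FF L (M * q))] [IsIntegralClosure B (↥W)[X] (FF L (M * q))]
  [Algebra BM B]
  (hα : ∀ c : BM, algebraMap B (FF L (M * q)) (algebraMap BM B c) =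
    heckeAlphaBar L M q (algebraMap BM (FF L M) c))

include halgM halg hα in
/-- `α` is the identity on `W[X]` (`j ↦ j`) -/
theorem algebraMap_poly (S : (↥W)[X]) :
    algebraMap BM B (algebraMap (↥W)[X] BM S) = algebraMap (↥W)[X] B S := by
  apply IsIntegralClosure.algebraMap_injective B (↥W)[X] (FF L (M * q))
  rw [hα, ← IsScalarTower.algebraMap_apply (↥W)[X] BM (FF L M),
    ← IsScalarTower.algebraMap_apply (↥W)[X] B (FF L (M * q)), halgM, halg]
  apply Subtype.ext
  rw [coe_heckeAlphaBar, coe_evF, coe_evF]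

include halgM halg hα in
/-- the two paths `W[X] → BM → R0 → R1` and `W[X] → B → R1` agree -/
theorem algebraMap_top (R0 : Type*) [CommRing R0] [Algebra BM R0]
    (R1 : Type*) [CommRing R1] [Algebra B R1] [Algebra R0 R1] [Algebra BM R1]
    [IsScalarTower BM R0 R1] [IsScalarTower BM B R1] (S : (↥W)[X]) :
    algebraMap R0 R1 (algebraMap BM R0 (algebraMap (↥W)[X] BM S)) =
      algebraMap B R1 (algebraMap (↥W)[X] B S) := by
  rw [← IsScalarTower.algebraMap_apply BM R0 R1, IsScalarTower.algebraMap_apply BM B R1,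
    algebraMap_poly W M q halgM BM halg B hα S]

end Top

end Fermat.Agent.S36.NodeBranch
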