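/-
S36 (wave 8), slice (R-ss), abstract part (T2): **Euler's formula / dual-lattice inclusion**.

`A` an integrally closed domain with fraction field `K`, `B ⊇ A` a domain with fraction field `L`,
`L / K` finite separable.  If `B = A[X]` is monogenic and `θ ∈ B` is integral with `K(θ) = L`,
then in `B`

    `P'(X) ∣ f'(θ)`,       `P = minpoly A X`,  `f = minpoly A θ`.

(`A[θ] ⊆ A[X]` gives the reverse inclusion of the trace duals, which are `P'(X)⁻¹ A[X]` and
`f'(θ)⁻¹ A[θ]` by Mathlib's `traceForm_dualSubmodule_adjoin`.)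

In the application `A = R₀` (local ring of the level-`M'` chart at a supersingular point),
`B = R₁ = R₀[X]` (helper14's (T1)), `θ = j'`, `f = Φ_q(j, Y)`: the different `(P'(X))` divides
`∂_Y Φ_q(j, j')`, whose valuations at the two branches are computed on `q`-expansions.

Mathlib only.
-/
import Mathlib

set_option autoImplicit false

namespace Fermat.Agent.S36.EulerDvd

open Polynomial Algebra IntermediateField

section Field

variable {A K L : Type*} [CommRing A] [IsDomain A] [IsIntegrallyClosed A]
  [Field K] [Field L] [Algebra A K] [IsFractionRing A K] [Algebra K L] [Algebra A L]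
  [IsScalarTower A K L] [FiniteDimensional K L] [Algebra.IsSeparable K L]

/-- The derivative of the minimal polynomial of a separable element does not vanish at it. -/
theorem aeval_derivative_minpoly_ne_zero (x : L) :
    aeval x (derivative (minpoly K x)) ≠ 0 :=
  (Algebra.IsSeparable.isSeparable K x).aeval_derivative_ne_zero (minpoly.aeval K x)

/-- Field form: if `A[θ] ⊆ A[x]` and both generate `L` over `K`, then
`f_θ'(θ) = P_x'(x) * c` with `c ∈ A[θ]`. -/
theorem euler_dvd_field (x θ : L) (hx : Algebra.adjoin K {x} = ⊤)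
    (hθ : Algebra.adjoin K {θ} = ⊤) (hxint : IsIntegral A x) (hθint : IsIntegral A θ)
    (hθx : θ ∈ Algebra.adjoin A {x}) :
    ∃ c ∈ Algebra.adjoin A {θ},
      aeval θ (derivative (minpoly K θ)) = aeval x (derivative (minpoly K x)) * c := by
  set Dx : L := aeval x (derivative (minpoly K x)) with hDx
  set Dθ : L := aeval θ (derivative (minpoly K θ)) with hDθ
  have hDx0 : Dx ≠ 0 := aeval_derivative_minpoly_ne_zero x
  have hDθ0 : Dθ ≠ 0 := aeval_derivative_minpoly_ne_zero θ
  have hdualx := traceForm_dualSubmodule_adjoin A K hx hxint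
  have hdualθ := traceForm_dualSubmodule_adjoin A K hθ hθint
  -- `A[θ] ≤ A[x]`
  have hle : Algebra.adjoin A {θ} ≤ Algebra.adjoin A {x} :=
    Algebra.adjoin_le (Set.singleton_subset_iff.mpr hθx)
  -- `Dx⁻¹ ∈ dual (A[x])`
  have h1 : Dx⁻¹ ∈ (Algebra.traceForm K L).dualSubmodule
      (Subalgebra.toSubmodule (Algebra.adjoin A {x})) := by
    rw [hdualx, Submodule.mem_smul_pointwise_iff_exists]
    exact ⟨1, (Algebra.adjoin A {x}).one_mem, by rw [smul_eq_mul, mul_one]⟩
  -- hence `Dx⁻¹ ∈ dual (A[θ])`
  have h2 : Dx⁻¹ ∈ (Algebra.traceForm K L).dualSubmodule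
      (Subalgebra.toSubmodule (Algebra.adjoin A {θ})) := by
    rw [LinearMap.BilinForm.mem_dualSubmodule] at h1 ⊢
    intro y hy
    exact h1 y (hle hy)
  rw [hdualθ, Submodule.mem_smul_pointwise_iff_exists] at h2
  obtain ⟨c, hc, hceq⟩ := h2
  refine ⟨c, hc, ?_⟩
  rw [smul_eq_mul] at hceq
  -- `Dθ⁻¹ * c = Dx⁻¹`
  have hc' : c = Dθ * Dx⁻¹ := (inv_mul_eq_iff_eq_mul₀ hDθ0).mp hceq
  rw [hc', mul_comm Dθ, ← mul_assoc, mul_inv_cancel₀ hDx0, one_mul]

end Field

section Ring

variable {A B K L : Type*} [CommRing A] [IsDomain A] [IsIntegrallyClosed A]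
  [CommRing B] [IsDomain B] [Algebra A B]
  [Field K] [Field L] [Algebra A K] [IsFractionRing A K]
  [Algebra B L] [IsFractionRing B L] [Algebra K L] [Algebra A L]
  [IsScalarTower A K L] [IsScalarTower A B L]
  [FiniteDimensional K L] [Algebra.IsSeparable K L]

omit [IsDomain A] [IsIntegrallyClosed A] [IsDomain B] [Algebra A K] [IsFractionRing A K]
  [IsFractionRing B L] [IsScalarTower A K L] [FiniteDimensional K L] [Algebra.IsSeparable K L]
  [Field K] [Algebra K L] in
/-- The image in `L` of an element of `A[X] ⊆ B` lies in `A[x]`, `x` the image of `X`. -/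
theorem algebraMap_mem_adjoin (X : B) (b : B) (hb : b ∈ Algebra.adjoin A {X}) :
    algebraMap B L b ∈ Algebra.adjoin A {algebraMap B L X} := by
  rw [Algebra.adjoin_singleton_eq_range_aeval] at hb
  obtain ⟨p, rfl⟩ := (AlgHom.mem_range _).mp hb
  have : algebraMap B L (aeval X p) = aeval (algebraMap B L X) p := by
    rw [aeval_algebraMap_apply]
  rw [this]
  exact aeval_mem_adjoin_singleton A _

omit [IsDomain A] [IsIntegrallyClosed A] [IsDomain B] [Algebra A K] [IsFractionRing A K]
  [IsFractionRing B L] [IsScalarTower A K L] [FiniteDimensional K L] [Algebra.IsSeparable K L]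
  [Field K] [Algebra K L] in
/-- An element of `A[x]`, `x` the image of `X ∈ B`, is the image of an element of `B`. -/
theorem exists_algebraMap_eq_of_mem_adjoin (X : B) (c : L)
    (hc : c ∈ Algebra.adjoin A {algebraMap B L X}) : ∃ c' : B, algebraMap B L c' = c := by
  rw [Algebra.adjoin_singleton_eq_range_aeval] at hc
  obtain ⟨p, rfl⟩ := (AlgHom.mem_range _).mp hc
  exact ⟨aeval X p, by rw [aeval_algebraMap_apply]⟩

omit [IsIntegrallyClosed A] [Algebra.IsSeparable K L] in
/-- If `B = A[X]` then `L = K(x)`. -/
theorem adjoin_field_eq_top (X : B) (hX : Algebra.adjoin A {X} = ⊤) :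
    Algebra.adjoin K {algebraMap B L X} = ⊤ := by
  set x : L := algebraMap B L X with hx
  have hxint : IsIntegral K x := Algebra.IsIntegral.isIntegral x
  rw [← IntermediateField.adjoin_simple_toSubalgebra_of_isAlgebraic hxint.isAlgebraic, _root_.eq_top_iff]
  intro l _
  obtain ⟨b, s, hs, rfl⟩ := IsFractionRing.div_surjective (A := B) l
  have hmem : ∀ b : B, algebraMap B L b ∈ K⟮x⟯ := by
    intro b
    have hb : algebraMap B L b ∈ Algebra.adjoin A {x} :=
      algebraMap_mem_adjoin X b (hX ▸ Algebra.mem_top)
    have hle : Algebra.adjoin A {x} ≤ (K⟮x⟯.toSubalgebra).restrictScalars A := by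
      refine Algebra.adjoin_le ?_
      rw [Set.singleton_subset_iff]
      exact IntermediateField.mem_adjoin_simple_self K x
    exact hle hb
  exact K⟮x⟯.div_mem (hmem b) (hmem s)

omit [Algebra.IsSeparable K L] in
/-- Identification of the minimal polynomial by its degree. -/
theorem minpoly_eq_of_natDegree (X : B) (hx : Algebra.adjoin K {algebraMap B L X} = ⊤)
    (P : A[X]) (hP : P.Monic) (hPX : aeval X P = 0)
    (hdeg : P.natDegree = Module.finrank K L) : minpoly A X = P := by
  set x : L := algebraMap B L X with hxdef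
  have hXint : IsIntegral A X := ⟨P, hP, hPX⟩
  have hxint : IsIntegral K x := Algebra.IsIntegral.isIntegral x
  have hfr : minpoly K x = (minpoly A X).map (algebraMap A K) :=
    minpoly.isIntegrallyClosed_eq_field_fractions K L hXint
  -- degree of the minimal polynomial over `K`
  have hdegK : (minpoly K x).natDegree = Module.finrank K L := by
    have h1 := (Algebra.adjoin.powerBasis' hxint).finrank
    rw [Algebra.adjoin.powerBasis'_dim] at h1
    rw [← h1, hx]
    exact (Subalgebra.topEquiv (R := K) (A := L)).toLinearEquiv.finrank_eq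
  have hPx : aeval x (P.map (algebraMap A K)) = 0 := by
    rw [aeval_map_algebraMap, hxdef, aeval_algebraMap_apply, hPX, map_zero]
  have hdvd : minpoly K x ∣ P.map (algebraMap A K) := minpoly.dvd K x hPx
  have hPm : (P.map (algebraMap A K)).Monic := hP.map _
  have heq : P.map (algebraMap A K) = minpoly K x :=
    Polynomial.eq_of_monic_of_dvd_of_natDegree_le (minpoly.monic hxint) hPm hdvd
      (by rw [hP.natDegree_map, hdeg, hdegK])
  rw [hfr] at heq
  exact (Polynomial.map_injective _ (IsFractionRing.injective A K) heq).symm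

/-- **Euler divisibility** (T2-abs): if `B = A[X]` and `θ ∈ B` is integral over `A` with
`K(θ) = L`, then `P'(X) ∣ f'(θ)` in `B`, for the minimal polynomials `P`, `f` over `A`. -/
theorem euler_dvd (X θ : B) (hX : Algebra.adjoin A {X} = ⊤) (hXint : IsIntegral A X)
    (hθint : IsIntegral A θ) (hθ : Algebra.adjoin K {algebraMap B L θ} = ⊤) :
    aeval X (derivative (minpoly A X)) ∣ aeval θ (derivative (minpoly A θ)) := by
  set x : L := algebraMap B L X with hxdef
  set t : L := algebraMap B L θ with htdef
  have hinj : Function.Injective (algebraMap B L) := IsFractionRing.injective B L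
  have hx : Algebra.adjoin K {x} = ⊤ := adjoin_field_eq_top X hX
  have hxint : IsIntegral A x := hXint.map (IsScalarTower.toAlgHom A B L)
  have htint : IsIntegral A t := hθint.map (IsScalarTower.toAlgHom A B L)
  have htx : t ∈ Algebra.adjoin A {x} := algebraMap_mem_adjoin X θ (hX ▸ Algebra.mem_top)
  obtain ⟨c, hc, hceq⟩ := euler_dvd_field (A := A) (K := K) x t hx hθ hxint htint htx
  obtain ⟨c', rfl⟩ := exists_algebraMap_eq_of_mem_adjoin θ c hc
  have hfrx : minpoly K x = (minpoly A X).map (algebraMap A K) :=
    minpoly.isIntegrallyClosed_eq_field_fractions K L hXint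
  have hfrt : minpoly K t = (minpoly A θ).map (algebraMap A K) :=
    minpoly.isIntegrallyClosed_eq_field_fractions K L hθint
  have e1 : aeval x (derivative (minpoly K x)) =
      algebraMap B L (aeval X (derivative (minpoly A X))) := by
    rw [hfrx, derivative_map, aeval_map_algebraMap, hxdef, aeval_algebraMap_apply]
  have e2 : aeval t (derivative (minpoly K t)) =
      algebraMap B L (aeval θ (derivative (minpoly A θ))) := by
    rw [hfrt, derivative_map, aeval_map_algebraMap, htdef, aeval_algebraMap_apply]
  rw [e1, e2, ← map_mul] at hceq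
  exact ⟨c', hinj hceq⟩

/-- **Euler divisibility**, with the two polynomials given explicitly (monic, of degree
`[L : K]`, vanishing at `X` resp. `θ`). -/
theorem euler_dvd_of_monic (X θ : B) (hX : Algebra.adjoin A {X} = ⊤)
    (P f : A[X]) (hP : P.Monic) (hPX : aeval X P = 0) (hPdeg : P.natDegree = Module.finrank K L)
    (hf : f.Monic) (hfθ : aeval θ f = 0) (hfdeg : f.natDegree = Module.finrank K L)
    (hθ : Algebra.adjoin K {algebraMap B L θ} = ⊤) :
    aeval X (derivative P) ∣ aeval θ (derivative f) := by
  have hx : Algebra.adjoin K {algebraMap B L X} = ⊤ := adjoin_field_eq_top X hX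
  have h1 : minpoly A X = P := minpoly_eq_of_natDegree X hx P hP hPX hPdeg
  have h2 : minpoly A θ = f := minpoly_eq_of_natDegree θ hθ f hf hfθ hfdeg
  have := euler_dvd (K := K) (L := L) X θ hX ⟨P, hP, hPX⟩ ⟨f, hf, hfθ⟩ hθ
  rwa [h1, h2] at this

end Ring

end Fermat.Agent.S36.EulerDvd
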