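import Mathlib
import Fermat.Agent.S36.EulerDvd

/-!
# S36 (R-ord), steps (J5)(a), (J5)(c) and the hypothesis `hE` of `OrdDiff.ord_twoPoint`

`R₀ → B` the charts of levels `M` and `M q` (through `α`), with fraction fields `K₀ → K₁`
(finite separable), `R₀` integrally closed, `P` a prime of `R₀` and `h ∈ B` a local generator of
`B` over `R₀` at `P` in the sense of `MonoFibre.exists_generator`:
`∃ s ∉ P, ∀ b, s • b ∈ R₀[h]`.

* `adjoin_field_eq_top_of_smul` : `K₀(h) = K₁`;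
* `natDegree_minpoly_eq_finrank` : the minimal polynomial of `h` over `R₀` has degree `[K₁ : K₀]`;
* `euler_dvd_chart` : **Euler divisibility at the chart**: for `θ ∈ B` integral with
  `K₀(θ) = K₁` there is `s ∉ P` with `m_h'(h) ∣ s · m_θ'(θ)` in `B`
  (`EulerDvd.euler_dvd_field` over the local ring `(R₀)_P`, built inside the proof);
* `hE_of_chart` : the passage to the local ring `R = B_ν` at a point `ν` of the second branch
  `𝔭₂` only: from `D ∣ s Δ`, `x Δ = π b` with `s, x ∉ ν` and `b ∉ 𝔭₂` one gets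
  `∃ E, D ∣ π E ∧ ¬ π ∣ E` in `R`;
* `hE_of_fibre` : all of it at once, the hypothesis `hE` of `OrdFibre.ord_twoPoint_of_fibre` for
  `m := minpoly R₀ h`, from the `θ`-fact of the chart (`Δ = m_θ'(θ)` has second Gauss valuation
  exactly one).
-/

set_option autoImplicit false
set_option linter.style.haveILetI false

namespace Fermat.Agent.S36.OrdEuler

open Polynomial IntermediateField

section Chart

variable {R₀ B K₀ K₁ : Type*} [CommRing R₀] [IsDomain R₀] [IsIntegrallyClosed R₀]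
  [CommRing B] [IsDomain B] [Algebra R₀ B]
  [Field K₀] [Field K₁] [Algebra R₀ K₀] [IsFractionRing R₀ K₀]
  [Algebra B K₁] [IsFractionRing B K₁] [Algebra K₀ K₁] [Algebra R₀ K₁]
  [IsScalarTower R₀ K₀ K₁] [IsScalarTower R₀ B K₁] [FiniteDimensional K₀ K₁]

omit [IsDomain R₀] [IsIntegrallyClosed R₀] [IsDomain B] in
/-- `K₀(h) = K₁` for a local generator `h`. -/
theorem adjoin_field_eq_top_of_smul (h : B)
    (hgen : ∃ s : R₀, s ≠ 0 ∧ ∀ b : B, s • b ∈ Algebra.adjoin R₀ {h}) :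
    Algebra.adjoin K₀ {algebraMap B K₁ h} = ⊤ := by
  obtain ⟨s, hs, hgen⟩ := hgen
  set x : K₁ := algebraMap B K₁ h with hx
  have hxint : IsIntegral K₀ x := Algebra.IsIntegral.isIntegral x
  rw [← IntermediateField.adjoin_simple_toSubalgebra_of_isAlgebraic hxint.isAlgebraic,
    _root_.eq_top_iff]
  intro l _
  obtain ⟨b, t, -, rfl⟩ := IsFractionRing.div_surjective (A := B) l
  have hsK : algebraMap R₀ K₁ s ≠ 0 := by
    rw [IsScalarTower.algebraMap_apply R₀ K₀ K₁]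
    intro h0
    have h1 : algebraMap R₀ K₀ s = 0 := (algebraMap K₀ K₁).injective (by rw [h0, map_zero])
    exact hs ((IsFractionRing.injective R₀ K₀) (by rw [h1, map_zero]))
  have hsmem : algebraMap R₀ K₁ s ∈ K₀⟮x⟯ := by
    rw [IsScalarTower.algebraMap_apply R₀ K₀ K₁]
    exact K₀⟮x⟯.algebraMap_mem _
  have hmem : ∀ b : B, algebraMap B K₁ b ∈ K₀⟮x⟯ := by
    intro b
    have hb : algebraMap B K₁ (s • b) ∈ Algebra.adjoin R₀ {x} :=
      EulerDvd.algebraMap_mem_adjoin h (s • b) (hgen b)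
    have hle : Algebra.adjoin R₀ {x} ≤ (K₀⟮x⟯.toSubalgebra).restrictScalars R₀ := by
      refine Algebra.adjoin_le ?_
      rw [Set.singleton_subset_iff]
      exact IntermediateField.mem_adjoin_simple_self K₀ x
    have hb' : algebraMap B K₁ (s • b) ∈ K₀⟮x⟯ := hle hb
    have h2 : algebraMap B K₁ (s • b) = algebraMap R₀ K₁ s * algebraMap B K₁ b := by
      rw [Algebra.smul_def, map_mul, ← IsScalarTower.algebraMap_apply R₀ B K₁]
    have h3 : algebraMap B K₁ b = (algebraMap R₀ K₁ s)⁻¹ * algebraMap B K₁ (s • b) := by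
      rw [h2, ← mul_assoc, inv_mul_cancel₀ hsK, one_mul]
    rw [h3]
    exact K₀⟮x⟯.mul_mem (K₀⟮x⟯.inv_mem hsmem) hb'
  exact K₀⟮x⟯.div_mem (hmem b) (hmem t)

omit [IsDomain B] [IsFractionRing B K₁] in
/-- the degree of the minimal polynomial over `K₀` of a generator -/
theorem natDegree_minpoly_field_eq_finrank (x : K₁) (hx : Algebra.adjoin K₀ {x} = ⊤) :
    (minpoly K₀ x).natDegree = Module.finrank K₀ K₁ := by
  have hxint : IsIntegral K₀ x := Algebra.IsIntegral.isIntegral x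
  have h1 := (Algebra.adjoin.powerBasis' hxint).finrank
  rw [Algebra.adjoin.powerBasis'_dim] at h1
  rw [← h1, hx]
  exact (Subalgebra.topEquiv (R := K₀) (A := K₁)).toLinearEquiv.finrank_eq

/-- **(J5)(a)** The minimal polynomial over `R₀` of a local generator has degree `[K₁ : K₀]`. -/
theorem natDegree_minpoly_eq_finrank (h : B) (hh : IsIntegral R₀ h)
    (hgen : ∃ s : R₀, s ≠ 0 ∧ ∀ b : B, s • b ∈ Algebra.adjoin R₀ {h}) :
    (minpoly R₀ h).natDegree = Module.finrank K₀ K₁ := by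
  have hx : Algebra.adjoin K₀ {algebraMap B K₁ h} = ⊤ := adjoin_field_eq_top_of_smul h hgen
  have hfr : minpoly K₀ (algebraMap B K₁ h) = (minpoly R₀ h).map (algebraMap R₀ K₀) :=
    minpoly.isIntegrallyClosed_eq_field_fractions K₀ K₁ hh
  rw [← natDegree_minpoly_field_eq_finrank (algebraMap B K₁ h) hx, hfr,
    (minpoly.monic hh).natDegree_map]

variable [Algebra.IsSeparable K₀ K₁]

/-- **(J5)(c) Euler divisibility at the chart.**  `h` a local generator of `B` over `R₀` at the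
prime `P`, `θ ∈ B` integral over `R₀` with `K₀(θ) = K₁`: there is `s ∉ P` with
`m_h'(h) ∣ s · m_θ'(θ)` in `B`. -/
theorem euler_dvd_chart (P : Ideal R₀) [P.IsPrime] (h θ : B) (hh : IsIntegral R₀ h)
    (hθ : IsIntegral R₀ θ)
    (hgen : ∃ s : R₀, s ∉ P ∧ ∀ b : B, s • b ∈ Algebra.adjoin R₀ {h})
    (hθgen : Algebra.adjoin K₀ {algebraMap B K₁ θ} = ⊤) :
    ∃ s : R₀, s ∉ P ∧ aeval h (derivative (minpoly R₀ h)) ∣
      algebraMap R₀ B s * aeval θ (derivative (minpoly R₀ θ)) := by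
  classical
  obtain ⟨s, hsP, hgen⟩ := hgen
  have hs0 : s ≠ 0 := fun h0 => hsP (h0 ▸ P.zero_mem)
  set x : K₁ := algebraMap B K₁ h with hxdef
  set t : K₁ := algebraMap B K₁ θ with htdef
  have hx : Algebra.adjoin K₀ {x} = ⊤ := adjoin_field_eq_top_of_smul h ⟨s, hs0, hgen⟩
  -- the local ring `A = (R₀)_P` inside `K₀`
  let A := Localization.AtPrime P
  have hunits : ∀ y : P.primeCompl, IsUnit (algebraMap R₀ K₀ (y : R₀)) := by
    intro y
    refine IsUnit.mk0 _ ?_
    intro h0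
    have h1 : (y : R₀) = 0 := (IsFractionRing.injective R₀ K₀) (by rw [h0, map_zero])
    exact y.2 (h1 ▸ P.zero_mem)
  letI : Algebra A K₀ := (IsLocalization.lift (M := P.primeCompl) (S := A) hunits).toAlgebra
  haveI : IsScalarTower R₀ A K₀ :=
    IsScalarTower.of_algebraMap_eq (fun r => (IsLocalization.lift_eq hunits r).symm)
  haveI : IsDomain A :=
    IsLocalization.isDomain_localization (Ideal.primeCompl_le_nonZeroDivisors P)
  haveI : IsFractionRing A K₀ :=
    IsFractionRing.isFractionRing_of_isDomain_of_isLocalization P.primeCompl A K₀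
  haveI : IsIntegrallyClosed A :=
    isIntegrallyClosed_of_isLocalization A P.primeCompl (Ideal.primeCompl_le_nonZeroDivisors P)
  letI : Algebra A K₁ := ((algebraMap K₀ K₁).comp (algebraMap A K₀)).toAlgebra
  haveI : IsScalarTower A K₀ K₁ := IsScalarTower.of_algebraMap_eq (fun _ => rfl)
  haveI : IsScalarTower R₀ A K₁ := IsScalarTower.of_algebraMap_eq (fun r => by
    rw [IsScalarTower.algebraMap_apply R₀ K₀ K₁, IsScalarTower.algebraMap_apply R₀ A K₀,
      ← IsScalarTower.algebraMap_apply A K₀ K₁])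
  have hxintR : IsIntegral R₀ x := hh.map (IsScalarTower.toAlgHom R₀ B K₁)
  have htintR : IsIntegral R₀ t := hθ.map (IsScalarTower.toAlgHom R₀ B K₁)
  have hxint : IsIntegral A x := hxintR.tower_top
  have htint : IsIntegral A t := htintR.tower_top
  -- `t ∈ A[x]`
  have hle : Algebra.adjoin R₀ {x} ≤ (Algebra.adjoin A {x}).restrictScalars R₀ := by
    refine Algebra.adjoin_le ?_
    rw [Set.singleton_subset_iff]
    exact Algebra.self_mem_adjoin_singleton A x
  have hsu : IsUnit (algebraMap R₀ A s) :=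
    IsLocalization.map_units A (⟨s, hsP⟩ : P.primeCompl)
  have htx : t ∈ Algebra.adjoin A {x} := by
    have h1 : algebraMap B K₁ (s • θ) ∈ Algebra.adjoin R₀ {x} :=
      EulerDvd.algebraMap_mem_adjoin h (s • θ) (hgen θ)
    have h2 : algebraMap B K₁ (s • θ) ∈ Algebra.adjoin A {x} := hle h1
    have h3 : algebraMap B K₁ (s • θ) = algebraMap A K₁ (algebraMap R₀ A s) * t := by
      rw [Algebra.smul_def, map_mul, ← IsScalarTower.algebraMap_apply R₀ B K₁,
        IsScalarTower.algebraMap_apply R₀ A K₁]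
    obtain ⟨v, hv⟩ := hsu
    have h4 : t = algebraMap A K₁ ((v⁻¹ : Aˣ) : A) * algebraMap B K₁ (s • θ) := by
      rw [h3, ← mul_assoc, ← map_mul, ← hv, Units.inv_mul, map_one, one_mul]
    rw [h4]
    exact (Algebra.adjoin A {x}).mul_mem ((Algebra.adjoin A {x}).algebraMap_mem _) h2
  obtain ⟨c, hc, hceq⟩ := EulerDvd.euler_dvd_field (A := A) (K := K₀) x t hx hθgen hxint htint htx
  -- clear the denominators of `c`
  rw [Algebra.adjoin_singleton_eq_range_aeval] at hc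
  obtain ⟨p, rfl⟩ := (AlgHom.mem_range _).mp hc
  obtain ⟨s', hs', hp'⟩ := IsLocalization.integerNormalization_spec P.primeCompl p
  set p' : R₀[X] := IsLocalization.integerNormalization P.primeCompl p with hp'def
  have hc' : algebraMap R₀ K₁ s' * aeval t p = algebraMap B K₁ (aeval θ p') := by
    have h1 : aeval t (p'.map (algebraMap R₀ A)) = aeval t p' := aeval_map_algebraMap A t p'
    rw [hp', ← IsScalarTower.algebraMap_smul A s' p, map_smul, Algebra.smul_def,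
      ← IsScalarTower.algebraMap_apply R₀ A K₁] at h1
    rw [h1, htdef, aeval_algebraMap_apply]
  have hfrx : minpoly K₀ x = (minpoly R₀ h).map (algebraMap R₀ K₀) :=
    minpoly.isIntegrallyClosed_eq_field_fractions K₀ K₁ hh
  have hfrt : minpoly K₀ t = (minpoly R₀ θ).map (algebraMap R₀ K₀) :=
    minpoly.isIntegrallyClosed_eq_field_fractions K₀ K₁ hθ
  have e1 : aeval x (derivative (minpoly K₀ x)) =
      algebraMap B K₁ (aeval h (derivative (minpoly R₀ h))) := by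
    rw [hfrx, derivative_map, aeval_map_algebraMap, hxdef, aeval_algebraMap_apply]
  have e2 : aeval t (derivative (minpoly K₀ t)) =
      algebraMap B K₁ (aeval θ (derivative (minpoly R₀ θ))) := by
    rw [hfrt, derivative_map, aeval_map_algebraMap, htdef, aeval_algebraMap_apply]
  refine ⟨s', hs', aeval θ p', ?_⟩
  apply IsFractionRing.injective B K₁
  rw [map_mul, map_mul, ← IsScalarTower.algebraMap_apply R₀ B K₁, ← e2, hceq, e1, ← hc']
  ring

end Chart

/-! ### The hypothesis `hE` in the local ring of a point of the second branch -/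

section Local

variable {B : Type*} [CommRing B]

/-- **`hE` from Euler and `θ`, local form.**  `ν` a prime of `B`, `R = B_ν`, `𝔭₂ ≤ ν` a prime
containing `π`.  If `D ∣ s Δ` with `s ∉ ν` and `x Δ = π b` with `x ∉ ν`, `b ∉ 𝔭₂`, then in `R`:
`D ∣ π E` for some `E` not divisible by `π`. -/
theorem hE_of_chart (ν 𝔭₂ : Ideal B) [ν.IsPrime] [𝔭₂.IsPrime] (h𝔭₂ν : 𝔭₂ ≤ ν) (π D Δ s x b : B)
    (hπ : π ∈ 𝔭₂) (hD : D ∣ s * Δ) (hs : s ∉ ν) (hx : x ∉ ν) (hxΔ : x * Δ = π * b)
    (hb : b ∉ 𝔭₂) (R : Type*) [CommRing R] [Algebra B R] [IsLocalization.AtPrime R ν] :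
    ∃ E : R, algebraMap B R D ∣ algebraMap B R π * E ∧ ¬ algebraMap B R π ∣ E := by
  obtain ⟨v, hv⟩ := IsLocalization.map_units R (⟨x, hx⟩ : ν.primeCompl)
  have hv' : algebraMap B R x = (v : R) := hv.symm
  obtain ⟨k, hk⟩ := hD
  refine ⟨algebraMap B R (s * b) * ((v⁻¹ : Rˣ) : R), ?_, ?_⟩
  · -- `π E = s Δ = D k`
    refine ⟨algebraMap B R k, ?_⟩
    have h1 : algebraMap B R x * (algebraMap B R π * (algebraMap B R (s * b) * ((v⁻¹ : Rˣ) : R)))
        = algebraMap B R x * (algebraMap B R D * algebraMap B R k) := by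
      have h2 : algebraMap B R x * (algebraMap B R π * (algebraMap B R (s * b) *
          ((v⁻¹ : Rˣ) : R))) = algebraMap B R (s * (π * b)) * ((v : R) * ((v⁻¹ : Rˣ) : R)) := by
        rw [hv']
        simp only [map_mul]
        ring
      rw [h2, Units.mul_inv, mul_one, ← hxΔ, ← map_mul, ← map_mul, ← hk]
      congr 1
      ring
    have hxu : IsUnit (algebraMap B R x) := hv' ▸ v.isUnit
    exact hxu.mul_left_cancel h1
  · rintro ⟨k, hk⟩
    -- `s b ∈ π R ∩ B ⊆ 𝔭₂`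
    have h1 : algebraMap B R (s * b) = algebraMap B R π * (k * (v : R)) := by
      have h2 : algebraMap B R (s * b) = algebraMap B R (s * b) * ((v⁻¹ : Rˣ) : R) * (v : R) := by
        rw [mul_assoc, Units.inv_mul, mul_one]
      rw [h2, hk]
      ring
    have hdisj : Disjoint (ν.primeCompl : Set B) (𝔭₂ : Set B) := by
      rw [Set.disjoint_left]
      intro z hz hz𝔭
      exact hz (h𝔭₂ν hz𝔭)
    have h3 : algebraMap B R (s * b) ∈ 𝔭₂.map (algebraMap B R) := by
      rw [h1]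
      exact Ideal.mul_mem_right _ _ (Ideal.mem_map_of_mem _ hπ)
    have h4 : s * b ∈ (𝔭₂.map (algebraMap B R)).under B := h3
    rw [IsLocalization.under_map_of_isPrime_disjoint ν.primeCompl R inferInstance hdisj] at h4
    rcases Ideal.IsPrime.mem_or_mem inferInstance h4 with h5 | h5
    · exact hs (h𝔭₂ν h5)
    · exact hb h5

end Local

section Fibre

variable {R₀ B K₀ K₁ : Type*} [CommRing R₀] [IsDomain R₀] [IsIntegrallyClosed R₀]
  [CommRing B] [IsDomain B] [Algebra R₀ B]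
  [Field K₀] [Field K₁] [Algebra R₀ K₀] [IsFractionRing R₀ K₀]
  [Algebra B K₁] [IsFractionRing B K₁] [Algebra K₀ K₁] [Algebra R₀ K₁]
  [IsScalarTower R₀ K₀ K₁] [IsScalarTower R₀ B K₁] [FiniteDimensional K₀ K₁]
  [Algebra.IsSeparable K₀ K₁]

/-- **The hypothesis `hE` of `OrdFibre.ord_twoPoint_of_fibre`** for `m := minpoly R₀ h`, `h` a
local generator of `B` over `R₀` at `P`: `ν` a prime of `B` over (a prime inside) `P` lying on the
branch `𝔭₂` but not on `𝔭₁`, `𝔭₁ ⊓ 𝔭₂ ⊆ (ϖ)`, and `θ ∈ B` a generator of `K₁` over `K₀`, integral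
over `R₀`, whose different `Δ = m_θ'(θ)` lies in `𝔭₂` with second valuation exactly one
(`x Δ = ϖ b`, `x ∉ 𝔭₂` imply `b ∉ 𝔭₂`). -/
theorem hE_of_fibre (P : Ideal R₀) [P.IsPrime] (h θ : B) (hh : IsIntegral R₀ h)
    (hθ : IsIntegral R₀ θ)
    (hgen : ∃ s : R₀, s ∉ P ∧ ∀ b : B, s • b ∈ Algebra.adjoin R₀ {h})
    (hθgen : Algebra.adjoin K₀ {algebraMap B K₁ θ} = ⊤)
    (ν 𝔭₁ 𝔭₂ : Ideal B) [ν.IsPrime] [𝔭₂.IsPrime] (hνP : ν.comap (algebraMap R₀ B) ≤ P)
    (h𝔭₂ν : 𝔭₂ ≤ ν) (h𝔭₁ν : ¬ 𝔭₁ ≤ ν) (ϖ : R₀) (hϖ : algebraMap R₀ B ϖ ∈ 𝔭₂)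
    (h12 : ∀ b ∈ 𝔭₁, b ∈ 𝔭₂ → algebraMap R₀ B ϖ ∣ b)
    (hΔ : aeval θ (derivative (minpoly R₀ θ)) ∈ 𝔭₂)
    (hθ2 : ∀ x b : B, x * aeval θ (derivative (minpoly R₀ θ)) = algebraMap R₀ B ϖ * b →
      x ∉ 𝔭₂ → b ∉ 𝔭₂)
    (R : Type*) [CommRing R] [Algebra B R] [IsLocalization.AtPrime R ν] [Algebra R₀ R]
    [IsScalarTower R₀ B R] :
    ∃ E : R, aeval (algebraMap B R h) (derivative (minpoly R₀ h)) ∣ algebraMap R₀ R ϖ * E ∧
      ¬ algebraMap R₀ R ϖ ∣ E := by
  obtain ⟨s, hsP, hdvd⟩ := euler_dvd_chart (K₀ := K₀) (K₁ := K₁) P h θ hh hθ hgen hθgen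
  have hsν : algebraMap R₀ B s ∉ ν := fun hmem => hsP (hνP hmem)
  obtain ⟨x, hx𝔭₁, hxν⟩ := Set.not_subset.1 h𝔭₁ν
  have hx𝔭₂ : x ∉ 𝔭₂ := fun hmem => hxν (h𝔭₂ν hmem)
  obtain ⟨b, hb⟩ := h12 (x * aeval θ (derivative (minpoly R₀ θ)))
    (Ideal.mul_mem_right _ _ hx𝔭₁) (Ideal.mul_mem_left _ _ hΔ)
  have hb𝔭₂ : b ∉ 𝔭₂ := hθ2 x b hb hx𝔭₂
  have key := hE_of_chart ν 𝔭₂ h𝔭₂ν (algebraMap R₀ B ϖ) (aeval h (derivative (minpoly R₀ h)))
    (aeval θ (derivative (minpoly R₀ θ))) (algebraMap R₀ B s) x b hϖ hdvd hsν hxν hb hb𝔭₂ R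
  rw [← IsScalarTower.algebraMap_apply R₀ B R] at key
  rw [Polynomial.aeval_algebraMap_apply]
  exact key

end Fibre

end Fermat.Agent.S36.OrdEuler
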