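import Mathlib
import Fermat.Agent.S36.BetaHom
import Fermat.Agent.S36.OrdEuler
import Fermat.Agent.S34.CompLocal
import Fermat.Agent.S34.DegreeL

/-!
# S36 (R-ord), chart facts at level `M q` which do not involve the vertical components

Carriers: `BM`, `B` the finite charts of levels `M`, `M q` (S34 style), with the algebra structure
`BM → B` induced by `α` (`NodeOverInst.alphaHom`).

* `isScalarTower_alpha`, `moduleFinite_alpha` : `W[X] → BM → B` is a tower and `B` is a finite
  `BM`-module.
* `exists_const_sub_mem` : at a maximal ideal containing the uniformiser every element of a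
  chart is congruent to a constant of `W` (algebraically closed residue field).
* `hres` : `∀ b : B, ∃ c : BM, b - α c ∈ ν'`.
* `infinite_quot` : the residue fields of `BM` at the contractions are infinite.
* `hdeg` : the minimal polynomial over `BM` of a local generator of `B` has degree `q + 1`.
-/

set_option autoImplicit false
set_option linter.unusedSectionVars false
set_option linter.style.haveILetI false

noncomputable section

namespace Fermat.Agent.S36.OrdFacts0

open Polynomial ModularCurve AlgebraicCurve Fermat.Agent.S18 Fermat.Agent.S18.Gauss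
  Fermat.Agent.S37 Fermat.Agent.S34 IsLocalRing

local notation "Qb" => AlgebraicClosure ℚ

/-! ### One chart -/

section One

variable {L : Type} [Field L] [Algebra ℚ L] (W : ValuationSubring L)
  [IsDiscreteValuationRing ↥W] [IsAlgClosed (ResidueField ↥W)]
  (N : ℕ) [NeZero N]
  [Algebra (↥W)[X] (S24.FF L N)]
  (halg : algebraMap (↥W)[X] (S24.FF L N) = evF W N)
  (B : Type*) [CommRing B] [Algebra (↥W)[X] B] [Algebra B (S24.FF L N)]
  [IsScalarTower (↥W)[X] B (S24.FF L N)]
  [IsIntegralClosure B (↥W)[X] (S24.FF L N)]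

include N in
/-- **Residue fields at the closed points of the special fibre.**  At a maximal ideal of the
chart containing the uniformiser every element is congruent to a constant of `W`. -/
theorem exists_const_sub_mem {π : ↥W} (hπ : Irreducible π) (𝔫 : Ideal B) [𝔫.IsMaximal]
    (hπ𝔫 : algebraMap (↥W)[X] B (C π) ∈ 𝔫) (b : B) :
    ∃ a : ↥W, b - algebraMap (↥W)[X] B (C a) ∈ 𝔫 := by
  letI : Algebra ↥W B := ((algebraMap (↥W)[X] B).comp C).toAlgebra
  have halgW : ∀ a : ↥W, algebraMap ↥W B a = algebraMap (↥W)[X] B (C a) := fun _ => rfl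
  set j : B := algebraMap (↥W)[X] B X with hj
  have hint : ∀ b : B, IsIntegral (Algebra.adjoin ↥W {j}) b := by
    intro b
    have hb : IsIntegral (↥W)[X] b :=
      (IsIntegralClosure.isIntegral_algebra (↥W)[X] (S24.FF L N) (A := B)).isIntegral b
    let φ : (↥W)[X] →+* Algebra.adjoin ↥W {j} :=
      (Polynomial.aeval (⟨j, Algebra.self_mem_adjoin_singleton ↥W j⟩ :
        Algebra.adjoin ↥W {j})).toRingHom
    have hcomp : (algebraMap (Algebra.adjoin ↥W {j}) B).comp φ =
        (RingHom.id B).comp (algebraMap (↥W)[X] B) := by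
      apply Polynomial.ringHom_ext
      · intro a
        simp [φ, halgW]
      · simp [φ, hj]
    exact IsIntegral.map_of_comp_eq φ (RingHom.id B) hcomp hb
  have hW : ∀ a ∈ maximalIdeal ↥W, algebraMap ↥W B a ∈ 𝔫 := by
    intro a ha
    rw [hπ.maximalIdeal_eq, Ideal.mem_span_singleton] at ha
    obtain ⟨c, rfl⟩ := ha
    rw [halgW, C_mul, map_mul]
    exact 𝔫.mul_mem_right _ hπ𝔫
  obtain ⟨a, ha⟩ := CompLocal.residue_onto j hint 𝔫 hW b
  exact ⟨a, ha⟩

/-- The residue field of the chart at a prime containing the uniformiser is infinite. -/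
theorem infinite_quot {π : ↥W} (hπ : Irreducible π) (P : Ideal B) [P.IsPrime]
    (hπP : algebraMap (↥W)[X] B (C π) ∈ P) : Infinite (B ⧸ P) := by
  let g : ResidueField ↥W →+* B ⧸ P :=
    Ideal.Quotient.lift (maximalIdeal ↥W)
      ((Ideal.Quotient.mk P).comp ((algebraMap (↥W)[X] B).comp C))
      (fun a ha => by
        rw [hπ.maximalIdeal_eq, Ideal.mem_span_singleton] at ha
        obtain ⟨c, rfl⟩ := ha
        rw [RingHom.comp_apply, RingHom.comp_apply, C_mul, map_mul]
        exact Ideal.Quotient.eq_zero_iff_mem.mpr (P.mul_mem_right _ hπP))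
  haveI : Infinite (ResidueField ↥W) := IsAlgClosed.instInfinite
  exact Infinite.of_injective g g.injective

end One

/-! ### The pair of charts of levels `M`, `M q` -/

section Two

variable {L : Type} [Field L] [Algebra ℚ L] (W : ValuationSubring L)
  [IsDiscreteValuationRing ↥W]
  (M q : ℕ) [NeZero M] [NeZero q]
  [Algebra (↥W)[X] (S24.FF L M)]
  (halgM : algebraMap (↥W)[X] (S24.FF L M) = evF W M)
  (BM : Type*) [CommRing BM] [Algebra (↥W)[X] BM] [Algebra BM (S24.FF L M)]
  [IsScalarTower (↥W)[X] BM (S24.FF L M)]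
  [IsIntegralClosure BM (↥W)[X] (S24.FF L M)]
  [Algebra (↥W)[X] (S24.FF L (M * q))]
  (halg : algebraMap (↥W)[X] (S24.FF L (M * q)) = evF W (M * q))
  (B : Type*) [CommRing B] [Algebra (↥W)[X] B] [Algebra B (S24.FF L (M * q))]
  [IsScalarTower (↥W)[X] B (S24.FF L (M * q))]
  [IsIntegralClosure B (↥W)[X] (S24.FF L (M * q))]
  [Algebra BM B]
  (hα : algebraMap BM B = NodeOverInst.alphaHom W M q halgM BM halg B)

include hα in
/-- the chart maps commute with `α` -/
theorem algebraMap_algebraMap (p : (↥W)[X]) :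
    algebraMap BM B (algebraMap (↥W)[X] BM p) = algebraMap (↥W)[X] B p := by
  rw [hα]
  exact BetaHom.alphaHom_algebraMap W M q halgM BM halg B p

include hα in
/-- `W[X] → BM → B` is a tower -/
theorem isScalarTower_alpha : IsScalarTower (↥W)[X] BM B :=
  IsScalarTower.of_algebraMap_eq
    (fun p => (algebraMap_algebraMap W M q halgM BM halg B hα p).symm)

include hα in
/-- **`B` is a finite `BM`-module.** -/
theorem moduleFinite_alpha : Module.Finite BM B := by
  haveI := isScalarTower_alpha W M q halgM BM halg B hα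
  haveI : Module.Finite (↥W)[X] B := (GaussNoeth.noeth_fin W (M * q) halg B).2
  exact Module.Finite.of_restrictScalars_finite (↥W)[X] BM B

include hα in
/-- **(hres)**: at a maximal ideal of `B` containing the uniformiser every element of `B` is
congruent to an element of `BM` (indeed to a constant). -/
theorem hres [IsAlgClosed (ResidueField ↥W)] {π : ↥W} (hπ : Irreducible π) (ν' : Ideal B)
    (hν' : ν'.IsMaximal)
    (hπν' : algebraMap BM B (algebraMap (↥W)[X] BM (C π)) ∈ ν') (b : B) :
    ∃ c : BM, b - algebraMap BM B c ∈ ν' := by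
  haveI := hν'
  rw [algebraMap_algebraMap W M q halgM BM halg B hα] at hπν'
  obtain ⟨a, ha⟩ := exists_const_sub_mem W (M * q) B hπ ν' hπν' b
  refine ⟨algebraMap (↥W)[X] BM (C a), ?_⟩
  rw [algebraMap_algebraMap W M q halgM BM halg B hα]
  exact ha

include hα in
/-- **(Infinite)**: the residue field of `BM` at the contraction of a prime of `B` containing
the uniformiser is infinite. -/
theorem infinite_quot_comap [IsAlgClosed (ResidueField ↥W)] {π : ↥W} (hπ : Irreducible π)
    (ν : Ideal B) [ν.IsPrime]
    (hπν : algebraMap BM B (algebraMap (↥W)[X] BM (C π)) ∈ ν) :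
    Infinite (BM ⧸ ν.comap (algebraMap BM B)) :=
  infinite_quot W BM hπ (ν.comap (algebraMap BM B)) hπν

include hα in
/-- **(hdeg)**: the minimal polynomial over `BM` of a local generator of `B` has degree
`q + 1`. -/
theorem hdeg (ι : L →+* Qb) (hq : q.Prime) (hqM : ¬ q ∣ M) (h : B) (s : BM) (hs0 : s ≠ 0)
    (hs : ∀ b : B, s • b ∈ Algebra.adjoin BM {h}) :
    (minpoly BM h).natDegree = q + 1 := by
  letI iK : Algebra (S24.FF L M) (S24.FF L (M * q)) := algebraAlong (heckeAlphaBar L M q)
  haveI tK : IsScalarTower L (S24.FF L M) (S24.FF L (M * q)) :=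
    isScalarTower_along (heckeAlphaBar L M q)
  obtain ⟨hfin, hrank⟩ := DegreeL.finrank_alpha_of_bar L ι M q hq hqM
  haveI : FiniteDimensional (S24.FF L M) (S24.FF L (M * q)) := hfin
  haveI : CharZero L := algebraRat.charZero L
  haveI : CharZero (S24.FF L M) :=
    charZero_of_injective_algebraMap (algebraMap L (S24.FF L M)).injective
  haveI : Algebra.IsSeparable (S24.FF L M) (S24.FF L (M * q)) := inferInstance
  haveI := KLocInst.isDomain_fin W M BM
  haveI := KLocInst.isFractionRing_fin W M halgM BM
  haveI := KLocInst.isIntegrallyClosed_fin W M halgM BM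
  haveI := KLocInst.isDomain_fin W (M * q) B
  haveI := KLocInst.isFractionRing_fin W (M * q) halg B
  letI iA : Algebra BM (S24.FF L (M * q)) :=
    ((algebraMap B (S24.FF L (M * q))).comp (algebraMap BM B)).toAlgebra
  haveI t1 : IsScalarTower BM B (S24.FF L (M * q)) := IsScalarTower.of_algebraMap_eq (fun _ => rfl)
  haveI t2 : IsScalarTower BM (S24.FF L M) (S24.FF L (M * q)) :=
    IsScalarTower.of_algebraMap_eq (fun c => by
      show algebraMap B (S24.FF L (M * q)) (algebraMap BM B c) = _
      rw [hα, NodeOverInst.alphaHom_spec]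
      rfl)
  haveI := moduleFinite_alpha W M q halgM BM halg B hα
  have hint : IsIntegral BM h := Algebra.IsIntegral.isIntegral h
  rw [← hrank]
  exact OrdEuler.natDegree_minpoly_eq_finrank (K₀ := S24.FF L M) (K₁ := S24.FF L (M * q)) h hint ⟨s, hs0, hs⟩

include hα in
/-- **(hdeg)** in the shape of `OrdGlue2.exists_ord_data`. -/
theorem hdeg_of_comap (ι : L →+* Qb) (hq : q.Prime) (hqM : ¬ q ∣ M) (ν : Ideal B) :
    ∀ h : B, (∃ s : BM, s ∉ ν.comap (algebraMap BM B) ∧
      ∀ b : B, s • b ∈ Algebra.adjoin BM {h}) → (minpoly BM h).natDegree = q + 1 := by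
  rintro h ⟨s, hsν, hs⟩
  refine hdeg W M q halgM BM halg B hα ι hq hqM h s ?_ hs
  rintro rfl
  exact hsν (Ideal.zero_mem _)

include hα in
/-- the uniformiser is nonzero in `B` -/
theorem pi_ne_zero {π : ↥W} (hπ : Irreducible π) :
    algebraMap BM B (algebraMap (↥W)[X] BM (C π)) ≠ 0 := by
  rw [algebraMap_algebraMap W M q halgM BM halg B hα]
  intro h0
  have h1 : algebraMap (↥W)[X] (S24.FF L (M * q)) (C π) = 0 := by
    rw [IsScalarTower.algebraMap_apply (↥W)[X] B (S24.FF L (M * q)), h0, map_zero]
  rw [halg] at h1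
  have h2 : (C π : (↥W)[X]) = 0 := evF_injective W (M * q) (by rw [h1, map_zero])
  exact hπ.ne_zero (C_eq_zero.mp h2)

include hα in
/-- the uniformiser divides `q` in `B` at an unramified level -/
theorem pi_dvd_q {π : ↥W} (hunr : ∃ u : (↥W)ˣ, ((q : ℕ) : ↥W) = π * u) :
    algebraMap BM B (algebraMap (↥W)[X] BM (C π)) ∣ ((q : ℕ) : B) := by
  obtain ⟨u, hu⟩ := hunr
  rw [algebraMap_algebraMap W M q halgM BM halg B hα]
  refine ⟨algebraMap (↥W)[X] B (C (u : ↥W)), ?_⟩
  rw [← map_mul, ← C_mul, ← hu]
  simp

end Two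

end Fermat.Agent.S36.OrdFacts0
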