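import Mathlib
import Fermat.Agent.S36.OrdFacts0
import Fermat.Agent.S36.NodeBranch

/-!
# S36 (R-ord), chart facts at level `M q`: `hne` and `h𝔭₁`

Carriers: `BM`, `B` the finite charts of levels `M`, `M q` (S34 style), with the algebra structure
`BM → B` induced by `α` (`NodeOverInst.alphaHom`); `𝔭₁`, `𝔭₂` the two branches
(`NodeBranch.branch₁`, `NodeBranch.branch₂`) of the special fibre of `B`.

* `red₁_X_sub_C`, `red₂_X_sub_C` : the two reductions of `j - a` (`a : W`) are
  `j̄ - ā` and `j̄(Q^q) - ā`; both are nonzero.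
* `hne`, `hne₁` : no maximal ideal of `B` is contained in a branch (the `hne` hypothesis of
  `OrdInst2.ord_inst2_of_facts`).
* `comap_branch₁` : `𝔭₁ ∩ BM = π BM`;  `h𝔭₁` : `𝔭₁ ∩ BM ≤ ν ∩ BM` as soon as `π ∈ ν`
  (the `h𝔭₁` hypothesis of `OrdInst2.ord_inst2_of_facts`).
-/

set_option autoImplicit false
set_option linter.unusedSectionVars false
set_option linter.style.haveILetI false

noncomputable section

namespace Fermat.Agent.S36.OrdFacts2

open Polynomial ModularCurve AlgebraicCurve Fermat.Agent.S18 Fermat.Agent.S18.Gauss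
  Fermat.Agent.S37 Fermat.Agent.S34 IsLocalRing

local notation "FF" => Fermat.Agent.S24.FF

/-! ### Series facts -/

section Series

variable (κ : Type*) [Field κ] (q : ℕ) [NeZero q]

/-- `j̄(Q^q)` is not a constant. -/
theorem qExpand_jq_sub_C_ne_zero (a : κ) :
    qExpand κ q (jqModC κ) - HahnSeries.C a ≠ 0 := by
  intro h0
  have h1 : qExpand κ q (jqModC κ) = qExpand κ q (HahnSeries.C a) := by
    rw [qExpand_C]
    exact sub_eq_zero.mp h0
  have h2 : jqModC κ = HahnSeries.C a := qExpand_injective q h1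
  have h3 := TwoGauss.order_jq κ
  rw [h2, HahnSeries.order_C] at h3
  omega

/-- `j̄` is not a constant. -/
theorem jq_sub_C_ne_zero (a : κ) : jqModC κ - HahnSeries.C a ≠ 0 := by
  intro h0
  have h2 : jqModC κ = HahnSeries.C a := sub_eq_zero.mp h0
  have h3 := TwoGauss.order_jq κ
  rw [h2, HahnSeries.order_C] at h3
  omega

end Series

/-! ### One chart: no closed point is a whole branch -/

section One

variable {L : Type} [Field L] [Algebra ℚ L] (W : ValuationSubring L)
  [IsDiscreteValuationRing ↥W] (M q : ℕ) [NeZero M] [NeZero q]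
  [Algebra (↥W)[X] (FF L (M * q))] (halg : algebraMap (↥W)[X] (FF L (M * q)) = evF W (M * q))
  (B : Type*) [CommRing B] [Algebra (↥W)[X] B] [Algebra B (FF L (M * q))]
  [IsScalarTower (↥W)[X] B (FF L (M * q))] [IsIntegralClosure B (↥W)[X] (FF L (M * q))]
  (hq : q.Prime) (w : FF L (M * q) ≃ₐ[L] FF L (M * q))
  (hwα : (w : FF L (M * q) →ₐ[L] FF L (M * q)).comp (heckeAlphaBar L M q) = heckeBetaBar L M q)

include halg in
theorem algebraMap_X_sub_C (a : ↥W) :
    algebraMap B (FF L (M * q)) (algebraMap (↥W)[X] B (X - C a)) =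
      Fermat.Agent.S24.jBC L (M * q) - algebraMap L (FF L (M * q)) ((a : W) : L) := by
  rw [← IsScalarTower.algebraMap_apply, halg, map_sub, evF_X, evF_C]

/-- the first reduction of `j - a` -/
theorem red₁_X_sub_C (a : ↥W) :
    NodeBranch.red₁ W M q halg B (algebraMap (↥W)[X] B (X - C a)) =
      jqModC (ResidueField ↥W) - HahnSeries.C (residue ↥W a) := by
  rw [NodeBranch.red₁_apply, algebraMap_X_sub_C W M q halg B a]
  have h1 : ((Fermat.Agent.S24.jBC L (M * q) - algebraMap L (FF L (M * q)) ((a : W) : L) :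
      FF L (M * q)) : LaurentSeries L) = jqModC L - HahnSeries.C ((a : W) : L) := by
    have h2 := map_sub (algebraMap (FF L (M * q)) (LaurentSeries L))
      (Fermat.Agent.S24.jBC L (M * q)) (algebraMap L (FF L (M * q)) ((a : W) : L))
    have h3 : algebraMap (FF L (M * q)) (LaurentSeries L) (Fermat.Agent.S24.jBC L (M * q)) =
        jqModC L := coe_jBC_eq L (M * q)
    have h4 : algebraMap (FF L (M * q)) (LaurentSeries L)
        (algebraMap L (FF L (M * q)) ((a : W) : L)) = HahnSeries.C ((a : W) : L) :=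
      GaussPrime.coe_unif (N := M * q) a
    rw [h3, h4] at h2
    exact h2
  rw [h1, TwoGauss.rd_sub W (jq_mem_contentRing W) (C_mem_contentRing W a), TwoGauss.rd_jq,
    TwoGauss.rd_C]

/-- the second reduction of `j - a` -/
theorem red₂_X_sub_C (a : ↥W) :
    NodeBranch.red₂ W M q halg B hq w hwα (algebraMap (↥W)[X] B (X - C a)) =
      qExpand (ResidueField ↥W) q (jqModC (ResidueField ↥W)) -
        HahnSeries.C (residue ↥W a) := by
  rw [NodeBranch.red₂_apply, algebraMap_X_sub_C W M q halg B a]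
  have hw : w (Fermat.Agent.S24.jBC L (M * q) - algebraMap L (FF L (M * q)) ((a : W) : L)) =
      heckeBetaBar L M q (Fermat.Agent.S24.jBC L M) -
        algebraMap L (FF L (M * q)) ((a : W) : L) := by
    rw [map_sub, AlgEquiv.commutes, ← CompInst.alpha_jBC (L := L) (M := M) (q := q)]
    have h1 := AlgHom.congr_fun hwα (Fermat.Agent.S24.jBC L M)
    rw [AlgHom.comp_apply, AlgEquiv.coe_toAlgHom] at h1
    rw [h1]
  rw [hw]
  have h1 : ((heckeBetaBar L M q (Fermat.Agent.S24.jBC L M) -
      algebraMap L (FF L (M * q)) ((a : W) : L) : FF L (M * q)) : LaurentSeries L) =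
      qExpand L q (jqModC L) - HahnSeries.C ((a : W) : L) := by
    have h2 := map_sub (algebraMap (FF L (M * q)) (LaurentSeries L))
      (heckeBetaBar L M q (Fermat.Agent.S24.jBC L M))
      (algebraMap L (FF L (M * q)) ((a : W) : L))
    have h3 : algebraMap (FF L (M * q)) (LaurentSeries L)
        (heckeBetaBar L M q (Fermat.Agent.S24.jBC L M)) = qExpand L q (jqModC L) := by
      show ((heckeBetaBar L M q (Fermat.Agent.S24.jBC L M) : FF L (M * q)) : LaurentSeries L) = _
      rw [coe_heckeBetaBar, coe_jBC_eq]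
    have h4 : algebraMap (FF L (M * q)) (LaurentSeries L)
        (algebraMap L (FF L (M * q)) ((a : W) : L)) = HahnSeries.C ((a : W) : L) :=
      GaussPrime.coe_unif (N := M * q) a
    rw [h3, h4] at h2
    exact h2
  rw [h1, TwoGauss.rd_sub W (qExpand_mem_contentRing W q (jq_mem_contentRing W))
    (C_mem_contentRing W a), TwoGauss.rd_qExpand W q (jq_mem_contentRing W), TwoGauss.rd_jq,
    TwoGauss.rd_C]

/-- `j - a` does not vanish on the first branch -/
theorem X_sub_C_notMem_branch₁ (a : ↥W) :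
    algebraMap (↥W)[X] B (X - C a) ∉ NodeBranch.branch₁ W M q halg B := by
  intro h
  have h1 : NodeBranch.red₁ W M q halg B (algebraMap (↥W)[X] B (X - C a)) = 0 :=
    RingHom.mem_ker.mp h
  rw [red₁_X_sub_C] at h1
  exact jq_sub_C_ne_zero _ _ h1

/-- `j - a` does not vanish on the second branch -/
theorem X_sub_C_notMem_branch₂ (a : ↥W) :
    algebraMap (↥W)[X] B (X - C a) ∉ NodeBranch.branch₂ W M q halg B hq w hwα := by
  intro h
  have h1 : NodeBranch.red₂ W M q halg B hq w hwα (algebraMap (↥W)[X] B (X - C a)) = 0 :=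
    RingHom.mem_ker.mp h
  rw [red₂_X_sub_C] at h1
  exact qExpand_jq_sub_C_ne_zero _ q _ h1

/-- **(hne)**: no maximal ideal of the chart is contained in the second branch. -/
theorem hne [IsAlgClosed (ResidueField ↥W)] {π : ↥W} (hπ : Irreducible π) (ν : Ideal B)
    [hν : ν.IsMaximal] : ¬ ν ≤ NodeBranch.branch₂ W M q halg B hq w hwα := by
  intro hle
  have heq : ν = NodeBranch.branch₂ W M q halg B hq w hwα :=
    hν.eq_of_le (Ideal.IsPrime.ne_top inferInstance) hle
  have hπν : algebraMap (↥W)[X] B (C π) ∈ ν := by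
    rw [heq]
    exact NodeBranch.pi_mem_branch₂ W M q halg B hq w hwα hπ
  obtain ⟨a, ha⟩ := OrdFacts0.exists_const_sub_mem W (M * q) B hπ ν hπν
    (algebraMap (↥W)[X] B X)
  rw [← map_sub] at ha
  exact X_sub_C_notMem_branch₂ W M q halg B hq w hwα a (hle ha)

/-- no maximal ideal of the chart is contained in the first branch. -/
theorem hne₁ [IsAlgClosed (ResidueField ↥W)] {π : ↥W} (hπ : Irreducible π) (ν : Ideal B)
    [hν : ν.IsMaximal] : ¬ ν ≤ NodeBranch.branch₁ W M q halg B := by
  intro hle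
  have heq : ν = NodeBranch.branch₁ W M q halg B :=
    hν.eq_of_le (Ideal.IsPrime.ne_top inferInstance) hle
  have hπν : algebraMap (↥W)[X] B (C π) ∈ ν := by
    rw [heq]
    exact NodeBranch.pi_mem_branch₁ W M q halg B hπ
  obtain ⟨a, ha⟩ := OrdFacts0.exists_const_sub_mem W (M * q) B hπ ν hπν
    (algebraMap (↥W)[X] B X)
  rw [← map_sub] at ha
  exact X_sub_C_notMem_branch₁ W M q halg B a (hle ha)

end One

/-! ### The pair of charts of levels `M`, `M q` -/

section Two

variable {L : Type} [Field L] [Algebra ℚ L] (W : ValuationSubring L)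
  [IsDiscreteValuationRing ↥W]
  (M q : ℕ) [NeZero M] [NeZero q]
  [Algebra (↥W)[X] (FF L M)]
  (halgM : algebraMap (↥W)[X] (FF L M) = evF W M)
  (BM : Type*) [CommRing BM] [Algebra (↥W)[X] BM] [Algebra BM (FF L M)]
  [IsScalarTower (↥W)[X] BM (FF L M)]
  [IsIntegralClosure BM (↥W)[X] (FF L M)]
  [Algebra (↥W)[X] (FF L (M * q))]
  (halg : algebraMap (↥W)[X] (FF L (M * q)) = evF W (M * q))
  (B : Type*) [CommRing B] [Algebra (↥W)[X] B] [Algebra B (FF L (M * q))]
  [IsScalarTower (↥W)[X] B (FF L (M * q))]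
  [IsIntegralClosure B (↥W)[X] (FF L (M * q))]
  [Algebra BM B]
  (hα : algebraMap BM B = NodeOverInst.alphaHom W M q halgM BM halg B)

include hα in
/-- **`𝔭₁ ∩ BM = π BM`**: the first branch of level `M q` lies over the special fibre of level
`M` (which is irreducible). -/
theorem comap_branch₁ [Fact q.Prime] [CharP (ResidueField ↥W) q]
    [IsAlgClosed (ResidueField ↥W)] (hqM : ¬ q ∣ M) {π : ↥W} (hπ : Irreducible π) :
    (NodeBranch.branch₁ W M q halg B).comap (algebraMap BM B) =
      Ideal.span {algebraMap (↥W)[X] BM (C π)} := by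
  apply le_antisymm
  · intro c hc
    have h1 := (NodeBranch.mem_branch₁ W M q halg B (algebraMap BM B c)).mp (Ideal.mem_comap.mp hc)
    rw [hα, NodeOverInst.alphaHom_spec, coe_heckeAlphaBar] at h1
    have hx : ((algebraMap BM (FF L M) c : FF L M) : LaurentSeries L) ∈ contentRing W :=
      FrobPartner.mem_contentRing_of_int W M (CompInst.isIntegralElem_algebraMap W M halgM BM c)
    rw [TwoGauss.rd_of_mem W hx] at h1
    obtain ⟨x₁, hx₁, e⟩ := GaussPrime.exists_eq_unif_mul_of_red hπ _ hx h1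
    exact Ideal.mem_span_singleton.mpr
      (GaussPrime.dvd_of_isSat (GaussPrime.isSat_fin W M q hqM hπ halgM) (C π)
        (by rw [halgM]; exact evF_C W M π) c x₁ hx₁ e)
  · rw [Ideal.span_singleton_le_iff_mem, Ideal.mem_comap,
      OrdFacts0.algebraMap_algebraMap W M q halgM BM halg B hα]
    exact NodeBranch.pi_mem_branch₁ W M q halg B hπ

include hα in
/-- **(h𝔭₁)**: `𝔭₁ ∩ BM ≤ ν ∩ BM` for every ideal `ν` of `B` containing the uniformiser. -/
theorem h𝔭₁ [Fact q.Prime] [CharP (ResidueField ↥W) q]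
    [IsAlgClosed (ResidueField ↥W)] (hqM : ¬ q ∣ M) {π : ↥W} (hπ : Irreducible π)
    (ν : Ideal B) (hπν : algebraMap BM B (algebraMap (↥W)[X] BM (C π)) ∈ ν) :
    (NodeBranch.branch₁ W M q halg B).comap (algebraMap BM B) ≤ ν.comap (algebraMap BM B) := by
  rw [comap_branch₁ W M q halgM BM halg B hα hqM hπ, Ideal.span_singleton_le_iff_mem]
  exact Ideal.mem_comap.mpr hπν

include hα in
/-- **(h𝔭₁)**, for `ν ⊇ 𝔭₂`. -/
theorem h𝔭₁_of_le [Fact q.Prime] [CharP (ResidueField ↥W) q]
    [IsAlgClosed (ResidueField ↥W)] (hqM : ¬ q ∣ M) {π : ↥W} (hπ : Irreducible π)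
    (hq : q.Prime) (w : FF L (M * q) ≃ₐ[L] FF L (M * q))
    (hwα : (w : FF L (M * q) →ₐ[L] FF L (M * q)).comp (heckeAlphaBar L M q) = heckeBetaBar L M q)
    (ν : Ideal B) (hν₂ : NodeBranch.branch₂ W M q halg B hq w hwα ≤ ν) :
    (NodeBranch.branch₁ W M q halg B).comap (algebraMap BM B) ≤ ν.comap (algebraMap BM B) := by
  apply h𝔭₁ W M q halgM BM halg B hα hqM hπ ν
  rw [OrdFacts0.algebraMap_algebraMap W M q halgM BM halg B hα]
  exact hν₂ (NodeBranch.pi_mem_branch₂ W M q halg B hq w hwα hπ)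

end Two

end Fermat.Agent.S36.OrdFacts2
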