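import Mathlib
import Fermat.Agent.S18.GaussContent
import Fermat.Agent.S37.Kronecker

/-!
# S36 (R-ss), the Euler operator `θ = q d/dq` on Laurent series and the content ring

* `th R` : the operator `θ` on `R((q))` for any commutative ring `R` (multiply the `n`-th
  coefficient by `n`), additive, Leibniz, compatible with coefficient maps;
* `th_qExpand` : `θ (V_d f) = d • V_d (θ f)`;
* `th_mem_contentRing`, `red_th` : `θ` preserves the content ring of a valuation subring and
  commutes with the reduction map;
* `th_eval` : `θ (F(y)) = (θ F)(y) + F'(y) θ y` for a polynomial `F` over `R((q))`.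
-/

set_option autoImplicit false

noncomputable section

namespace Fermat.Agent.S36.ThetaSeries

open ModularCurve Polynomial Fermat.Agent.S18.Gauss

section General

variable (R : Type*) [CommRing R]

/-- The Euler operator `q d/dq` on Laurent series: multiply the `n`-th coefficient by `n`. -/
def th (f : LaurentSeries R) : LaurentSeries R where
  coeff n := (n : R) * f.coeff n
  isPWO_support' := f.isPWO_support.mono fun n hn => by
    intro h
    apply hn
    show (n : R) * f.coeff n = 0
    rw [h, mul_zero]

@[simp]
theorem th_coeff (f : LaurentSeries R) (n : ℤ) : (th R f).coeff n = (n : R) * f.coeff n := rfl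

theorem support_th (f : LaurentSeries R) : (th R f).support ⊆ f.support := by
  intro n hn h
  apply hn
  show (n : R) * f.coeff n = 0
  rw [h, mul_zero]

theorem th_add (f g : LaurentSeries R) : th R (f + g) = th R f + th R g := by
  ext n
  simp [mul_add]

theorem th_zero : th R 0 = 0 := by
  ext n
  simp

theorem th_neg (f : LaurentSeries R) : th R (-f) = -th R f := by
  ext n
  simp

theorem th_sub (f g : LaurentSeries R) : th R (f - g) = th R f - th R g := by
  ext n
  simp [mul_sub]

theorem th_mul (f g : LaurentSeries R) : th R (f * g) = f * th R g + g * th R f := by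
  ext n
  show (n : R) * (f * g).coeff n = (f * th R g + g * th R f).coeff n
  rw [HahnSeries.coeff_add, mul_comm g (th R f), HahnSeries.coeff_mul,
    HahnSeries.coeff_mul_right' g.isPWO_support (support_th R g),
    HahnSeries.coeff_mul_left' f.isPWO_support (support_th R f), Finset.mul_sum,
    ← Finset.sum_add_distrib]
  refine Finset.sum_congr rfl fun ij hij => ?_
  have h := (Finset.mem_antidiagonal.mp hij).2.2
  rw [th_coeff, th_coeff, ← h]
  push_cast
  ring

theorem th_one : th R 1 = 0 := by
  have h := th_mul R 1 1
  rw [mul_one, one_mul] at h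
  have h2 : th R 1 + th R 1 = th R 1 + 0 := by rw [add_zero]; exact h.symm
  exact add_left_cancel h2

theorem th_C (c : R) : th R (HahnSeries.C c) = 0 := by
  ext n
  rw [th_coeff, HahnSeries.coeff_zero]
  by_cases h : n = 0
  · rw [h]; simp
  · rw [HahnSeries.C_apply, HahnSeries.coeff_single_of_ne h, mul_zero]

theorem th_pow (f : LaurentSeries R) (n : ℕ) :
    th R (f ^ (n + 1)) = ((n + 1 : ℕ) : LaurentSeries R) * f ^ n * th R f := by
  induction n with
  | zero => simp
  | succ n ih =>
    rw [pow_succ, th_mul, ih]
    push_cast
    ring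

theorem th_sum {ι : Type*} (s : Finset ι) (f : ι → LaurentSeries R) :
    th R (∑ i ∈ s, f i) = ∑ i ∈ s, th R (f i) := by
  classical
  induction s using Finset.induction_on with
  | empty => simp [th_zero]
  | insert a s ha ih => rw [Finset.sum_insert ha, Finset.sum_insert ha, th_add, ih]

variable {R}

theorem coeffMap_th {S : Type*} [CommRing S] (φ : R →+* S) (f : LaurentSeries R) :
    coeffMap φ (th R f) = th S (coeffMap φ f) := by
  ext n
  simp

/-- `θ (f(q^d)) = d (θ f)(q^d)`. -/
theorem th_qExpand (d : ℕ) [NeZero d] (f : LaurentSeries R) :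
    th R (qExpand R d f) = (d : LaurentSeries R) * qExpand R d (th R f) := by
  have hd : ((d : ℕ) : LaurentSeries R) = HahnSeries.C (d : R) := by
    rw [map_natCast]
  rw [hd]
  ext n
  rw [th_coeff, C_mul_coeff]
  by_cases hn : (d : ℤ) ∣ n
  · obtain ⟨k, rfl⟩ := hn
    rw [qExpand_coeff_mul, qExpand_coeff_mul, th_coeff]
    push_cast
    ring
  · rw [qExpand_coeff_of_not_dvd d _ hn, qExpand_coeff_of_not_dvd d _ hn, mul_zero, mul_zero]

/-- the coefficientwise `θ` of a polynomial over `R((q))`, evaluated at `y` -/
def thEval (F : (LaurentSeries R)[X]) (y : LaurentSeries R) : LaurentSeries R :=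
  F.sum fun i a => th R a * y ^ i

theorem thEval_add (F G : (LaurentSeries R)[X]) (y : LaurentSeries R) :
    thEval (F + G) y = thEval F y + thEval G y := by
  unfold thEval
  rw [Polynomial.sum_add_index]
  · intro i; rw [th_zero, zero_mul]
  · intro i a b; rw [th_add, add_mul]

theorem thEval_monomial (i : ℕ) (a y : LaurentSeries R) :
    thEval (monomial i a) y = th R a * y ^ i := by
  unfold thEval
  rw [Polynomial.sum_monomial_index]
  rw [th_zero, zero_mul]

/-- **Chain rule**: `θ (F(y)) = (θF)(y) + F'(y) · θ y`. -/
theorem th_eval (F : (LaurentSeries R)[X]) (y : LaurentSeries R) :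
    th R (F.eval y) = thEval F y + F.derivative.eval y * th R y := by
  induction F using Polynomial.induction_on' with
  | add p q hp hq =>
    rw [eval_add, th_add, hp, hq, thEval_add, derivative_add, eval_add]
    ring
  | monomial n a =>
    rw [thEval_monomial, eval_monomial, th_mul, derivative_monomial, eval_monomial]
    rcases n with _ | n
    · simp [th_one]
    · rw [th_pow]
      simp only [Nat.add_sub_cancel, Nat.cast_add, Nat.cast_one]
      ring

end General

section Content

variable {L : Type*} [Field L] (W : ValuationSubring L)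

theorem toL_th (x : LaurentSeries W) : toL W (th W x) = th L (toL W x) :=
  coeffMap_th _ x

theorem toK_th (x : LaurentSeries W) :
    toK W (th W x) = th (IsLocalRing.ResidueField W) (toK W x) :=
  coeffMap_th _ x

/-- `θ` preserves the content ring. -/
theorem th_mem_contentRing {f : LaurentSeries L} (hf : f ∈ contentRing W) :
    th L f ∈ contentRing W := by
  obtain ⟨x, y, hy, h⟩ := hf
  refine ⟨th W x * y - x * th W y, y * y, ?_, ?_⟩
  · rw [map_mul]; exact mul_ne_zero hy hy
  · have h1 := congrArg (th L) h
    rw [th_mul, ← toL_th, ← toL_th] at h1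
    rw [map_mul, map_sub, map_mul, map_mul, ← h1, ← h]
    ring

/-- `θ` commutes with the reduction map. -/
theorem red_th {f : LaurentSeries L} (hf : f ∈ contentRing W) :
    red W ⟨th L f, th_mem_contentRing W hf⟩ =
      th (IsLocalRing.ResidueField W) (red W ⟨f, hf⟩) := by
  obtain ⟨x, y, hy, h⟩ := id hf
  have hyy : toK W (y * y) ≠ 0 := by rw [map_mul]; exact mul_ne_zero hy hy
  have h' : th L f * toL W (y * y) = toL W (th W x * y - x * th W y) := by
    have h1 := congrArg (th L) h
    rw [th_mul, ← toL_th, ← toL_th] at h1
    rw [map_mul, map_sub, map_mul, map_mul, ← h1, ← h]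
    ring
  rw [red_mk_eq W _ hyy h', red_mk_eq W hf hy h]
  -- quotient rule in `κ((q))`
  have hq : toK W x = toK W x / toK W y * toK W y := by
    rw [div_mul_cancel₀ _ hy]
  have h2 := congrArg (th (IsLocalRing.ResidueField W)) hq
  rw [th_mul] at h2
  rw [map_sub, map_mul, map_mul, map_mul, toK_th, toK_th, div_eq_iff (mul_ne_zero hy hy)]
  rw [h2]
  field_simp
  ring

end Content

end Fermat.Agent.S36.ThetaSeries
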