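import Mathlib
import Fermat.Agent.S36.ThetaSeries

/-!
# S36 (R-ss), the `θ`-trick, residue-field part

`κ` a field of characteristic `q` (prime), `V = qExpand κ q` (`Q ↦ Q^q`), `θ = th κ`.

`vth N P y = ∑_{i < N} V (θ (P.coeff i)) * y ^ i` ("`(1/q) θ` applied to the coefficients of
`P(Q^q)`, evaluated at `y`").

`vth_ne_zero` : if `P` is monic of degree `≤ q + 1`, `(P.map V)(y) = 0` and `θ y ≠ 0`, then
`deg P ∈ {q, q + 1}` and `vth (q + 2) P y ≠ 0`.
-/

set_option autoImplicit false
set_option linter.unusedSectionVars false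

noncomputable section

namespace Fermat.Agent.S36.ThetaRes

open ModularCurve Polynomial Fermat.Agent.S36.ThetaSeries

section Vth

variable {R : Type*} [CommRing R] (d : ℕ) [NeZero d]

/-- `∑_{i < N} V_d (θ (P.coeff i)) * y ^ i` -/
def vth (N : ℕ) (P : (LaurentSeries R)[X]) (y : LaurentSeries R) : LaurentSeries R :=
  ∑ i ∈ Finset.range N, qExpand R d (th R (P.coeff i)) * y ^ i

theorem vth_add (N : ℕ) (P Q : (LaurentSeries R)[X]) (y : LaurentSeries R) :
    vth d N (P + Q) y = vth d N P y + vth d N Q y := by
  unfold vth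
  rw [← Finset.sum_add_distrib]
  refine Finset.sum_congr rfl fun i _ => ?_
  rw [coeff_add, th_add, map_add, add_mul]

theorem vth_monomial (N : ℕ) (i : ℕ) (hi : i < N) (a y : LaurentSeries R) :
    vth d N (monomial i a) y = qExpand R d (th R a) * y ^ i := by
  unfold vth
  rw [Finset.sum_eq_single i]
  · rw [coeff_monomial, if_pos rfl]
  · intro b _ hb
    rw [coeff_monomial, if_neg (Ne.symm hb), th_zero, map_zero, zero_mul]
  · intro h
    exact absurd (Finset.mem_range.mpr hi) h

/-- `(θ F)(y) = d · vth` for `F = P(Q^d)` -/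
theorem thEval_map_qExpand (N : ℕ) (P : (LaurentSeries R)[X]) (hN : P.natDegree < N)
    (y : LaurentSeries R) :
    thEval (P.map (qExpand R d)) y = (d : LaurentSeries R) * vth d N P y := by
  unfold thEval vth
  have hdeg : (P.map (qExpand R d)).natDegree < N :=
    lt_of_le_of_lt (natDegree_map_le) hN
  rw [Polynomial.sum_over_range' _ (fun n => by rw [th_zero, zero_mul]) N hdeg, Finset.mul_sum]
  refine Finset.sum_congr rfl fun i _ => ?_
  rw [coeff_map, th_qExpand, mul_assoc]

end Vth

section Res

variable {κ : Type*} [Field κ] (q : ℕ) [hq : Fact q.Prime] [NeZero q] [CharP κ q]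

local notation "V" => qExpand κ q

omit hq in
theorem natCast_laurent_eq_zero : ((q : ℕ) : LaurentSeries κ) = 0 := by
  have h : ((q : ℕ) : LaurentSeries κ) = HahnSeries.C ((q : ℕ) : κ) := by rw [map_natCast]
  rw [h, CharP.cast_eq_zero, map_zero]

/-- `θ` kills `κ((Q^q))`. -/
theorem th_qExpand_char (a : LaurentSeries κ) : th κ (V a) = 0 := by
  rw [th_qExpand, natCast_laurent_eq_zero, zero_mul]

theorem frob_injective :
    Function.Injective (coeffMap (frobenius κ q) : LaurentSeries κ → LaurentSeries κ) := by
  intro x y h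
  ext n
  have h1 := congrArg (fun z : LaurentSeries κ => z.coeff n) h
  simp only [coeffMap_coeff] at h1
  exact frobenius_inj κ q h1

/-- `θ` commutes with the coefficientwise Frobenius. -/
theorem th_frob (y : LaurentSeries κ) :
    th κ (coeffMap (frobenius κ q) y) = coeffMap (frobenius κ q) (th κ y) :=
  (coeffMap_th _ y).symm

/-- if `θ y ≠ 0` then `Frob y` is not a `q`-th power -/
theorem frob_ne_pow {y : LaurentSeries κ} (hy : th κ y ≠ 0) (e : LaurentSeries κ) :
    e ^ q ≠ coeffMap (frobenius κ q) y := by
  intro h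
  apply hy
  rw [Fermat.Agent.S37.Kronecker.pow_char_eq q e] at h
  have h1 : th κ (coeffMap (frobenius κ q) y) = 0 := by rw [← h, th_qExpand_char]
  rw [th_frob] at h1
  exact frob_injective q (by rw [h1, map_zero])

/-- the minimal polynomial of `y` over `κ((Q^q))`, as a polynomial over `κ((Q))` -/
def minP (y : LaurentSeries κ) : (LaurentSeries κ)[X] :=
  X ^ q - C (coeffMap (frobenius κ q) y)

theorem minP_irreducible {y : LaurentSeries κ} (hy : th κ y ≠ 0) : Irreducible (minP q y) :=
  X_pow_sub_C_irreducible_of_prime hq.out (frob_ne_pow q hy)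

theorem minP_eval (y : LaurentSeries κ) : ((minP q y).map V).eval y = 0 := by
  unfold minP
  rw [Polynomial.map_sub, Polynomial.map_pow, map_X, map_C, eval_sub, eval_pow, eval_X, eval_C,
    Fermat.Agent.S37.Kronecker.pow_char_eq q y, sub_self]

theorem minP_monic (y : LaurentSeries κ) : (minP q y).Monic :=
  monic_X_pow_sub_C _ hq.out.ne_zero

theorem minP_natDegree (y : LaurentSeries κ) : (minP q y).natDegree = q :=
  natDegree_X_pow_sub_C

theorem minP_dvd {y : LaurentSeries κ} (hy : th κ y ≠ 0) (P : (LaurentSeries κ)[X])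
    (hroot : (P.map V).eval y = 0) : minP q y ∣ P := by
  rcases (minP_irreducible q hy).isCoprime_or_dvd P with h | h
  swap
  · exact h
  · exfalso
    obtain ⟨u, v, huv⟩ := h
    have h1 := congrArg (fun F : (LaurentSeries κ)[X] => (F.map V).eval y) huv
    simp only [Polynomial.map_add, Polynomial.map_mul, eval_add, eval_mul, minP_eval, hroot,
      mul_zero, add_zero, Polynomial.map_one, eval_one] at h1
    exact zero_ne_one h1

/-- **The residue computation of the `θ`-trick.** -/
theorem vth_ne_zero (P : (LaurentSeries κ)[X]) (hP : P.Monic) (hdeg : P.natDegree ≤ q + 1)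
    (y : LaurentSeries κ) (hy : th κ y ≠ 0) (hroot : (P.map V).eval y = 0) :
    (P.natDegree = q ∨ P.natDegree = q + 1) ∧ vth q (q + 2) P y ≠ 0 := by
  have hq2 : 2 ≤ q := hq.out.two_le
  set b : LaurentSeries κ := coeffMap (frobenius κ q) y with hb
  have hthb : qExpand κ q (th κ b) ≠ 0 := by
    intro h0
    have h1 : th κ b = 0 := qExpand_injective q (by rw [h0, map_zero])
    rw [hb, th_frob] at h1
    exact hy (frob_injective q (by rw [h1, map_zero]))
  have hyq : y ^ q = V b := Fermat.Agent.S37.Kronecker.pow_char_eq q y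
  obtain ⟨G, hG⟩ := minP_dvd q hy P hroot
  have hGm : G.Monic := by
    have h := hP
    rw [hG] at h
    exact (minP_monic q y).of_mul_monic_left h
  have hdegG : P.natDegree = q + G.natDegree := by
    rw [hG, (minP_monic q y).natDegree_mul hGm, minP_natDegree]
  have hG1 : G.natDegree ≤ 1 := by omega
  have hM : minP q y = monomial q (1 : LaurentSeries κ) + monomial 0 (-b) := by
    unfold minP
    rw [← hb, monomial_zero_left, C_neg, ← sub_eq_add_neg, monomial_one_right_eq_X_pow]
  rcases Nat.lt_or_ge G.natDegree 1 with h0 | h1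
  · -- `G = 1`
    have hG0 : G.natDegree = 0 := by omega
    have hGone : G = 1 := hGm.natDegree_eq_zero.mp hG0
    refine ⟨Or.inl (by omega), ?_⟩
    rw [hG, hGone, mul_one, hM, vth_add, vth_monomial q _ _ (by omega),
      vth_monomial q _ _ (by omega), th_one, map_zero, zero_mul, zero_add, pow_zero, mul_one,
      th_neg, map_neg]
    exact neg_ne_zero.mpr hthb
  · -- `G = X + C c`
    have hG1' : G.natDegree = 1 := by omega
    have hGX : G = X + C (G.coeff 0) := hGm.eq_X_add_C hG1'
    set c : LaurentSeries κ := G.coeff 0 with hc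
    refine ⟨Or.inr (by omega), ?_⟩
    have hprod : P = monomial (q + 1) (1 : LaurentSeries κ) + monomial q c + monomial 1 (-b)
        + monomial 0 (-(b * c)) := by
      rw [hG, hM, hGX]
      simp only [← C_mul_X_pow_eq_monomial, map_neg, map_mul, map_one]
      ring
    rw [hprod, vth_add, vth_add, vth_add, vth_monomial q _ _ (by omega),
      vth_monomial q _ _ (by omega), vth_monomial q _ _ (by omega),
      vth_monomial q _ _ (by omega), th_one, map_zero, zero_mul, zero_add, pow_zero, mul_one,
      pow_one, th_neg, th_neg, th_mul, map_neg, map_neg, map_add, map_mul, map_mul, hyq]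
    have hyc : y + V c ≠ 0 := by
      intro h0
      apply hy
      have : y = -V c := eq_neg_of_add_eq_zero_left h0
      rw [this, th_neg, th_qExpand_char, neg_zero]
    have key : V (th κ c) * V b + -V (th κ b) * y + -(V b * V (th κ c) + V c * V (th κ b))
        = -(V (th κ b) * (y + V c)) := by ring
    rw [key]
    exact neg_ne_zero.mpr (mul_ne_zero hthb hyc)

end Res

end Fermat.Agent.S36.ThetaRes
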