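import Mathlib
import Fermat.Agent.S36.ThetaRes
import Fermat.Agent.S34.TwoGauss

/-!
# S36 (R-ss), the `θ`-trick: the different of a root of a polynomial over `W((Q^q))`

`W` a discrete valuation ring of a field `L` of characteristic zero with residue characteristic
`q`, unramified (`q = π · unit`).  Let `P` be a monic polynomial of degree `≤ q + 1` over
`L((Q))` with Gauss-integral coefficients, `F = P(Q^q)` (coefficients `V (P.coeff i)`), and `y` a
Gauss-integral series with `F(y) = 0` whose reduction is not killed by `θ = Q d/dQ`.  Then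
`deg P ∈ {q, q + 1}` and `F'(y) = π · h` with `h` Gauss-integral of nonzero reduction
(`theta_trick`): the Gauss valuation of `F'(y)` is exactly one.

Proof: apply `θ` to `F(y) = 0`: `F'(y) θ(y) = - q ∑ V (θ c_i) y^i`, and the reduction of the sum
is nonzero by `ThetaRes.vth_ne_zero`.
-/

set_option autoImplicit false

noncomputable section

namespace Fermat.Agent.S36.ThetaTrick

open ModularCurve Polynomial Fermat.Agent.S18.Gauss Fermat.Agent.S34.TwoGauss
  Fermat.Agent.S36.ThetaSeries Fermat.Agent.S36.ThetaRes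

variable {L : Type*} [Field L] (W : ValuationSubring L)

theorem rd_th {f : LaurentSeries L} (hf : f ∈ contentRing W) :
    rd W (th L f) = th (IsLocalRing.ResidueField W) (rd W f) := by
  rw [rd_of_mem W (th_mem_contentRing W hf), rd_of_mem W hf]
  exact red_th W hf

theorem natCast_mem_contentRing (n : ℕ) : ((n : ℕ) : LaurentSeries L) ∈ contentRing W :=
  natCast_mem _ n

variable (q : ℕ) [hq : Fact q.Prime] [NeZero q] [IsDiscreteValuationRing W]
  [CharP (IsLocalRing.ResidueField W) q]

/-- **The `θ`-trick.** -/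
theorem theta_trick {π : W} (hπ : Irreducible π) (hunr : ∃ u : Wˣ, ((q : ℕ) : W) = π * u)
    (P : (LaurentSeries L)[X]) (hP : P.Monic) (hdeg : P.natDegree ≤ q + 1)
    (hPc : ∀ i, P.coeff i ∈ contentRing W)
    (y : LaurentSeries L) (hy : y ∈ contentRing W)
    (hθy : th (IsLocalRing.ResidueField W) (rd W y) ≠ 0)
    (hroot : (P.map (qExpand L q)).eval y = 0) :
    (P.natDegree = q ∨ P.natDegree = q + 1) ∧
      ∃ h, h ∈ contentRing W ∧
        (P.map (qExpand L q)).derivative.eval y = HahnSeries.C ((π : W) : L) * h ∧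
        rd W h ≠ 0 := by
  classical
  set κ := IsLocalRing.ResidueField W with hκ
  set F := P.map (qExpand L q) with hF
  -- the reduction of `P`
  have hsub : (↑P.coeffs : Set (LaurentSeries L)) ⊆ contentRing W := by
    intro c hc
    obtain ⟨n, -, rfl⟩ := Polynomial.mem_coeffs_iff.mp hc
    exact hPc n
  set P₀ : (contentRing W)[X] := P.toSubring (contentRing W) hsub with hP₀
  set Pb : (LaurentSeries κ)[X] := P₀.map (red W) with hPb
  have hP₀m : P₀.Monic := (monic_toSubring P (contentRing W) hsub).mpr hP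
  have hPbm : Pb.Monic := hP₀m.map _
  have hPbdeg : Pb.natDegree = P.natDegree := by
    rw [hPb, hP₀m.natDegree_map, hP₀, natDegree_toSubring]
  have hPbcoeff : ∀ i, Pb.coeff i = rd W (P.coeff i) := by
    intro i
    rw [hPb, coeff_map, rd_of_mem W (hPc i)]
    congr 1
    exact Subtype.ext (coeff_toSubring P (contentRing W) hsub)
  have hVc : ∀ i, qExpand L q (P.coeff i) ∈ contentRing W := fun i =>
    qExpand_mem_contentRing W q (hPc i)
  have hFdeg : F.natDegree < q + 2 := lt_of_le_of_lt natDegree_map_le (by omega)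
  -- the reduced root
  have hrootb : (Pb.map (qExpand κ q)).eval (rd W y) = 0 := by
    have hdeg' : (Pb.map (qExpand κ q)).natDegree < q + 2 :=
      lt_of_le_of_lt natDegree_map_le (by rw [hPbdeg]; omega)
    rw [eval_eq_sum_range' hdeg']
    have h1 : F.eval y = ∑ i ∈ Finset.range (q + 2), qExpand L q (P.coeff i) * y ^ i := by
      rw [eval_eq_sum_range' hFdeg]
      refine Finset.sum_congr rfl fun i _ => ?_
      rw [hF, coeff_map]
    have h2 := congrArg (rd W) h1
    rw [hroot, rd_zero, rd_sum W _ _ (fun i _ => mul_mem (hVc i) (pow_mem hy i))] at h2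
    rw [h2]
    refine Finset.sum_congr rfl fun i _ => ?_
    rw [rd_mul W (hVc i) (pow_mem hy i), rd_qExpand W q (hPc i), rd_pow W hy, coeff_map,
      hPbcoeff]
  obtain ⟨hdegb, hvth⟩ := vth_ne_zero q Pb hPbm (by rw [hPbdeg]; exact hdeg) (rd W y) hθy hrootb
  refine ⟨by rw [← hPbdeg]; exact hdegb, ?_⟩
  -- the sum `S`
  set S : LaurentSeries L := vth q (q + 2) P y with hS
  have hterm : ∀ i, qExpand L q (th L (P.coeff i)) * y ^ i ∈ contentRing W := fun i =>
    mul_mem (qExpand_mem_contentRing W q (th_mem_contentRing W (hPc i))) (pow_mem hy i)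
  have hSmem : S ∈ contentRing W := sum_mem fun i _ => hterm i
  have hSrd : rd W S = vth q (q + 2) Pb (rd W y) := by
    rw [hS]
    unfold vth
    rw [rd_sum W _ _ (fun i _ => hterm i)]
    refine Finset.sum_congr rfl fun i _ => ?_
    rw [rd_mul W (qExpand_mem_contentRing W q (th_mem_contentRing W (hPc i))) (pow_mem hy i),
      rd_qExpand W q (th_mem_contentRing W (hPc i)), rd_th W (hPc i), rd_pow W hy, hPbcoeff]
  -- the chain rule
  have hchain : (q : LaurentSeries L) * S + F.derivative.eval y * th L y = 0 := by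
    have h1 := th_eval F y
    rw [hroot, th_zero, hF, thEval_map_qExpand q (q + 2) P (by omega) y] at h1
    exact h1.symm
  -- memberships
  have hD : F.derivative.eval y ∈ contentRing W := by
    have hdeg' : F.derivative.natDegree < q + 2 :=
      lt_of_le_of_lt (natDegree_derivative_le F) (by omega)
    rw [eval_eq_sum_range' hdeg']
    refine sum_mem fun i _ => mul_mem ?_ (pow_mem hy i)
    rw [coeff_derivative, hF, coeff_map]
    refine mul_mem (hVc _) ?_
    have : ((i : ℕ) : LaurentSeries L) + 1 = ((i + 1 : ℕ) : LaurentSeries L) := by push_cast; ring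
    rw [this]
    exact natCast_mem_contentRing W _
  have hthy : th L y ∈ contentRing W := th_mem_contentRing W hy
  obtain ⟨u, hu⟩ := hunr
  have hqC : (q : LaurentSeries L) = HahnSeries.C ((π : W) : L) * HahnSeries.C ((u : W) : L) := by
    rw [← map_mul]
    have h1 : ((q : ℕ) : LaurentSeries L) = HahnSeries.C ((q : ℕ) : L) := by rw [map_natCast]
    rw [h1]
    congr 1
    have h2 := congrArg (fun w : W => (w : L)) hu
    simpa using h2
  have hCπ : HahnSeries.C ((π : W) : L) ∈ contentRing W := C_mem_contentRing W π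
  have hCu : HahnSeries.C (((u : W) : W) : L) ∈ contentRing W := C_mem_contentRing W u
  have hrdπ : rd W (HahnSeries.C ((π : W) : L)) = 0 := by
    rw [rd_C, residue_unif W hπ, map_zero]
  -- `rd (F'(y)) = 0`
  have hrdD : rd W (F.derivative.eval y) = 0 := by
    have h1 : F.derivative.eval y * th L y =
        -(HahnSeries.C ((π : W) : L) * (HahnSeries.C ((u : W) : L) * S)) := by
      rw [hqC] at hchain
      linear_combination hchain
    have h2 := congrArg (rd W) h1
    have hmem : HahnSeries.C ((π : W) : L) * (HahnSeries.C ((u : W) : L) * S) ∈ contentRing W :=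
      mul_mem hCπ (mul_mem hCu hSmem)
    have hneg : rd W (-(HahnSeries.C ((π : W) : L) * (HahnSeries.C ((u : W) : L) * S))) = 0 := by
      have h3 : -(HahnSeries.C ((π : W) : L) * (HahnSeries.C ((u : W) : L) * S)) =
          0 - HahnSeries.C ((π : W) : L) * (HahnSeries.C ((u : W) : L) * S) := by ring
      rw [h3, rd_sub W (Subring.zero_mem _) hmem, rd_zero,
        rd_mul W hCπ (mul_mem hCu hSmem), hrdπ, zero_mul, sub_zero]
    rw [rd_mul W hD hthy, hneg, rd_th W hy] at h2
    exact (mul_eq_zero.mp h2).resolve_right hθy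
  obtain ⟨h, hh, hDh⟩ := (rd_eq_zero_iff W hπ hD).mp hrdD
  refine ⟨h, hh, hDh, ?_⟩
  -- `h θ(y) = - u S`
  have hπ0 : HahnSeries.C ((π : W) : L) ≠ 0 := C_unif_ne_zero W hπ
  have h1 : h * th L y = 0 - HahnSeries.C ((u : W) : L) * S := by
    apply mul_left_cancel₀ hπ0
    rw [hqC, hDh] at hchain
    linear_combination hchain
  have h2 := congrArg (rd W) h1
  rw [rd_mul W hh hthy, rd_sub W (Subring.zero_mem _) (mul_mem hCu hSmem), rd_zero,
    rd_mul W hCu hSmem, rd_C, rd_th W hy, hSrd] at h2
  intro h0
  rw [h0, zero_mul, zero_sub] at h2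
  have hu0 : (HahnSeries.C (IsLocalRing.residue W (u : W)) : LaurentSeries κ) ≠ 0 := by
    apply HahnSeries.C_ne_zero
    intro hres
    have : IsUnit (IsLocalRing.residue W (u : W)) := (Units.isUnit u).map _
    rw [hres] at this
    exact not_isUnit_zero this
  have h3 : HahnSeries.C (IsLocalRing.residue W (u : W)) * vth q (q + 2) Pb (rd W y) = 0 := by
    rw [← neg_eq_zero]; exact h2.symm
  exact (mul_ne_zero hu0 hvth) h3

end Fermat.Agent.S36.ThetaTrick
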