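import Mathlib
import Fermat.Agent.S36.ThetaTrick
import Fermat.Agent.S34.CompInst
import Fermat.Agent.S34.DegreeL
import Fermat.Agent.S34.FrobPartner

/-!
# S36 (R-ss), the `θ`-trick at level `M q`: the different of `β(j)` over `α(F_M)`

`W` an unramified discrete valuation ring of `L` with residue characteristic `q ∤ M`,
`F = FF L M`, `F' = FF L (M * q)`, `α = heckeAlphaBar`, `β = heckeBetaBar`, `w` an Atkin–Lehner
automorphism of `F'` (`w ∘ α = β`, `w ∘ β = α`), `y = β(j)`.

`exists_theta_poly`: the minimal polynomial `P` of `y` over `α(F)` is monic of degree `q + 1`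
(so `y` generates `F'` over `α(F)`), has coefficients integral over `W[j]`, and
`w (P'(y))` has `q`-expansion `π · h` with `h` Gauss-integral of NONZERO reduction: the second
Gauss valuation of `P'(y)` is exactly one.
-/

set_option autoImplicit false
set_option linter.unusedSectionVars false
set_option linter.style.haveILetI false

noncomputable section

namespace Fermat.Agent.S36.ThetaInst

open ModularCurve Polynomial AlgebraicCurve Fermat.Agent.S18 Fermat.Agent.S18.Gauss
  Fermat.Agent.S24 Fermat.Agent.S34.TwoGauss Fermat.Agent.S36.ThetaSeries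
  Fermat.Agent.S36.ThetaTrick

local notation "Qb" => AlgebraicClosure ℚ

section Generic

/-- the minimal polynomial of an element which is integral over a subring: degree divides the
degree of the extension, coefficients integral -/
theorem exists_minpoly_data {R K F : Type*} [CommRing R] [Field K] [Field F] (e : R →+* K)
    (a : K →+* F) (hfin : @Module.Finite K F _ _ a.toAlgebra.toModule) (n : ℕ)
    (hrank : @Module.finrank K F _ _ a.toAlgebra.toModule = n) (y : F)
    (hy : ∃ Q : R[X], Q.Monic ∧ Q.eval₂ (a.comp e) y = 0) :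
    ∃ P : K[X], P.Monic ∧ P.natDegree ≤ n ∧ P.natDegree ∣ n ∧
      (∀ i, e.IsIntegralElem (P.coeff i)) ∧ P.eval₂ a y = 0 := by
  classical
  letI : Algebra K F := a.toAlgebra
  haveI : FiniteDimensional K F := hfin
  have hyint : IsIntegral K y := Algebra.IsIntegral.isIntegral y
  have hPm : (minpoly K y).Monic := minpoly.monic hyint
  refine ⟨minpoly K y, hPm, ?_, ?_, ?_, ?_⟩
  · rw [← hrank]
    exact minpoly.natDegree_le y
  · have h1 := IntermediateField.adjoin.finrank hyint
    have h2 := Module.finrank_mul_finrank K (IntermediateField.adjoin K {y}) F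
    rw [h1, hrank] at h2
    exact Dvd.intro _ h2
  · letI algR : Algebra R K := e.toAlgebra
    obtain ⟨Q, hQ, hQroot⟩ := hy
    have hdvd : minpoly K y ∣ Q.map (algebraMap R K) := by
      apply minpoly.dvd
      rw [aeval_def, eval₂_map]
      exact hQroot
    have hl := integralClosure.mem_lifts_of_monic_of_dvd_map K hQ hPm hdvd
    rw [lifts_iff_coeff_lifts] at hl
    intro i
    obtain ⟨c, hc⟩ := hl i
    have hci : IsIntegral R ((minpoly K y).coeff i) := by
      rw [← hc]
      exact c.2
    exact hci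
  · have h := minpoly.aeval K y
    rw [aeval_def] at h
    exact h

end Generic

variable {L : Type} [Field L] [Algebra ℚ L] (W : ValuationSubring L) (M q : ℕ) [NeZero M]
  [NeZero q] [IsDiscreteValuationRing ↥W] [CharP (IsLocalRing.ResidueField ↥W) q]

theorem th_jq_ne_zero (κ : Type*) [Field κ] : th κ (jqModC κ) ≠ 0 := by
  intro h
  have h1 := congrArg (fun f : LaurentSeries κ => f.coeff (-1)) h
  simp only [th_coeff, HahnSeries.coeff_zero, coeff_jqModC_neg_one] at h1
  simp at h1

set_option maxHeartbeats 1600000 in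
/-- **The `θ`-trick at level `M q`.** -/
theorem exists_theta_poly (hq : q.Prime) (hqM : ¬ q ∣ M) (ι : L →+* Qb)
    {π : ↥W} (hπ : Irreducible π) (hunr : ∃ u : (↥W)ˣ, ((q : ℕ) : ↥W) = π * u)
    (w : FF L (M * q) ≃ₐ[L] FF L (M * q))
    (hwα : (w : FF L (M * q) →ₐ[L] FF L (M * q)).comp (heckeAlphaBar L M q) =
      heckeBetaBar L M q)
    (hwβ : (w : FF L (M * q) →ₐ[L] FF L (M * q)).comp (heckeBetaBar L M q) =
      heckeAlphaBar L M q) :
    ∃ P : (FF L M)[X], P.Monic ∧ P.natDegree = q + 1 ∧
      (∀ i, (evF W M).IsIntegralElem (P.coeff i)) ∧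
      P.eval₂ (heckeAlphaBar L M q).toRingHom (heckeBetaBar L M q (jBC L M)) = 0 ∧
      ∃ h, h ∈ contentRing W ∧
        ((w (P.derivative.eval₂ (heckeAlphaBar L M q).toRingHom
          (heckeBetaBar L M q (jBC L M))) : FF L (M * q)) : LaurentSeries L) =
          HahnSeries.C ((π : ↥W) : L) * h ∧
        rd W h ≠ 0 := by
  classical
  haveI : Fact q.Prime := ⟨hq⟩
  obtain ⟨hfin, hrank⟩ := Fermat.Agent.S34.DegreeL.finrank_alpha_of_bar L ι M q hq hqM
  set y : FF L (M * q) := heckeBetaBar L M q (jBC L M) with hy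
  have hyQ : ∃ Q : ((↥W)[X])[X], Q.Monic ∧
      Q.eval₂ ((heckeAlphaBar L M q).toRingHom.comp (evF W M)) y = 0 := by
    obtain ⟨Q, hQ, hQroot⟩ := Fermat.Agent.S34.BetaInt.isIntegralElem_beta_j (L := L) W
      (M := M) (ℓ := q) hq
    refine ⟨Q, hQ, ?_⟩
    rw [Fermat.Agent.S34.BetaInt.alpha_comp_evF (L := L) W (M := M) (ℓ := q)]
    exact hQroot
  obtain ⟨P, hPm, hdegle, hdegdvd, hint, hroot⟩ :=
    exists_minpoly_data (evF W M) (heckeAlphaBar L M q).toRingHom hfin (q + 1) hrank y hyQ
  -- the series polynomial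
  set c : FF L M →+* LaurentSeries L := algebraMap (FF L M) (LaurentSeries L) with hc
  set c' : FF L (M * q) →+* LaurentSeries L := algebraMap (FF L (M * q)) (LaurentSeries L)
    with hc'
  have hcinj : Function.Injective c := (algebraMap (FF L M) (LaurentSeries L)).injective
  set Ps : (LaurentSeries L)[X] := P.map c with hPs
  have hPsm : Ps.Monic := hPm.map c
  have hPsdeg : Ps.natDegree = P.natDegree := natDegree_map_eq_of_injective hcinj P
  have hPsc : ∀ i, Ps.coeff i ∈ contentRing W := by
    intro i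
    rw [hPs, coeff_map]
    exact Fermat.Agent.S34.FrobPartner.mem_contentRing_of_int W M (hint i)
  have hwy : w y = jBC L (M * q) := by
    have h1 : w (heckeBetaBar L M q (jBC L M)) = heckeAlphaBar L M q (jBC L M) :=
      congrArg (fun f => f (jBC L M)) hwβ
    rw [hy, h1]
    exact Fermat.Agent.S34.CompInst.alpha_jBC M q
  have hc'β : c'.comp (((w : FF L (M * q) →ₐ[L] FF L (M * q)).toRingHom).comp
      (heckeAlphaBar L M q).toRingHom) = (qExpand L q).comp c := by
    apply RingHom.ext
    intro x
    have h1 : w (heckeAlphaBar L M q x) = heckeBetaBar L M q x :=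
      congrArg (fun f => f x) hwα
    show ((w (heckeAlphaBar L M q x) : FF L (M * q)) : LaurentSeries L) =
      qExpand L q ((x : FF L M) : LaurentSeries L)
    rw [h1, coe_heckeBetaBar]
  have hc'j : c' (jBC L (M * q)) = jqModC L := coe_jBC_eq L (M * q)
  -- transport of evaluations
  have htrans : ∀ G : (FF L M)[X],
      c' (w (G.eval₂ (heckeAlphaBar L M q).toRingHom y)) =
        ((G.map c).map (qExpand L q)).eval (jqModC L) := by
    intro G
    have h1 := Polynomial.hom_eval₂ G (heckeAlphaBar L M q).toRingHom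
      (c'.comp ((w : FF L (M * q) →ₐ[L] FF L (M * q)).toRingHom)) y
    rw [RingHom.comp_assoc, hc'β] at h1
    have h2 : (c'.comp ((w : FF L (M * q) →ₐ[L] FF L (M * q)).toRingHom)) y = jqModC L := by
      show c' (w y) = jqModC L
      rw [hwy, hc'j]
    rw [h2] at h1
    rw [eval_map, eval₂_map]
    exact h1
  have hroots : (Ps.map (qExpand L q)).eval (jqModC L) = 0 := by
    rw [hPs, ← htrans P, hroot, map_zero, map_zero]
  have hθ : th (IsLocalRing.ResidueField ↥W) (rd W (jqModC L)) ≠ 0 := by
    rw [rd_jq]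
    exact th_jq_ne_zero _
  obtain ⟨hdeg2, h, hh, hder, hrd⟩ := theta_trick W q hπ hunr Ps hPsm (by rw [hPsdeg]; exact hdegle)
    hPsc (jqModC L) (jq_mem_contentRing W) hθ hroots
  have hdeg : P.natDegree = q + 1 := by
    rw [hPsdeg] at hdeg2
    rcases hdeg2 with h0 | h0
    · exfalso
      rw [h0] at hdegdvd
      have h1 : q ∣ 1 := (Nat.dvd_add_right (dvd_refl q)).mp hdegdvd
      exact hq.one_lt.ne' (Nat.dvd_one.mp h1)
    · exact h0
  refine ⟨P, hPm, hdeg, hint, hroot, h, hh, ?_, hrd⟩
  have h3 := htrans P.derivative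
  rw [derivative_map, derivative_map] at hder
  rw [← hder]
  exact h3

end Fermat.Agent.S36.ThetaInst
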