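import Mathlib
import Fermat.Agent.S36.ThetaInst

/-!
# S36 (R-ss)/(R-ord): `β(j)` generates the function field of level `M q` over `α(F_M)`

`W` an unramified discrete valuation ring of `L` with residue characteristic `q ∤ M`,
`F = FF L M`, `F' = FF L (M * q)`, `α = heckeAlphaBar`, `β = heckeBetaBar`, `w` an Atkin–Lehner
automorphism of `F'` (`w ∘ α = β`, `w ∘ β = α`), `y = β(j)`.

The `θ`-trick (`Fermat.Agent.S36.ThetaTrick.theta_trick`) applied to the minimal polynomial of
`y` over `α(F)` shows that its degree is `q` or `q + 1`; it divides `[F' : α(F)] = q + 1`, hence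
equals `q + 1`:

* `natDegree_minpoly_beta_j_alpha` : the statement for the algebra structure
  `(heckeAlphaBar L M q).toRingHom.toAlgebra`;
* `natDegree_minpoly_beta_j`, `finrank_eq`, `adjoin_beta_j_eq_top`,
  `intermediateField_adjoin_beta_j_eq_top` : the same for ANY algebra instance
  `[Algebra (FF L M) (FF L (M * q))]` whose `algebraMap` is `α` (hypothesis `halgK`, the shape
  delivered by `Fermat.Agent.S36.NodeCarrier.with_carriers`): `y` is a primitive element.
-/

set_option autoImplicit false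
set_option linter.unusedSectionVars false
set_option linter.style.haveILetI false

noncomputable section

namespace Fermat.Agent.S36.BetaGen

open ModularCurve Polynomial AlgebraicCurve Fermat.Agent.S18 Fermat.Agent.S18.Gauss
  Fermat.Agent.S24 Fermat.Agent.S34.TwoGauss Fermat.Agent.S36.ThetaSeries
  Fermat.Agent.S36.ThetaTrick Fermat.Agent.S36.ThetaInst

local notation "Qb" => AlgebraicClosure ℚ

section Generic

/-- the minimal polynomial of an element which is integral over a subring: degree divides the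
degree of the extension, coefficients integral (`ThetaInst.exists_minpoly_data` with the
polynomial named) -/
theorem minpoly_data {R K F : Type*} [CommRing R] [Field K] [Field F] (e : R →+* K)
    (a : K →+* F) (hfin : @Module.Finite K F _ _ a.toAlgebra.toModule) (n : ℕ)
    (hrank : @Module.finrank K F _ _ a.toAlgebra.toModule = n) (y : F)
    (hy : ∃ Q : R[X], Q.Monic ∧ Q.eval₂ (a.comp e) y = 0) :
    (@minpoly K F _ _ a.toAlgebra y).Monic ∧ (@minpoly K F _ _ a.toAlgebra y).natDegree ≤ n ∧
      (@minpoly K F _ _ a.toAlgebra y).natDegree ∣ n ∧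
      (∀ i, e.IsIntegralElem ((@minpoly K F _ _ a.toAlgebra y).coeff i)) ∧
      (@minpoly K F _ _ a.toAlgebra y).eval₂ a y = 0 := by
  classical
  letI : Algebra K F := a.toAlgebra
  haveI : FiniteDimensional K F := hfin
  have hyint : IsIntegral K y := Algebra.IsIntegral.isIntegral y
  have hPm : (minpoly K y).Monic := minpoly.monic hyint
  refine ⟨hPm, ?_, ?_, ?_, ?_⟩
  · rw [← hrank]
    exact minpoly.natDegree_le y
  · have h1 := IntermediateField.adjoin.finrank hyint
    have h2 := Module.finrank_mul_finrank K (IntermediateField.adjoin K {y}) F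
    rw [h1, hrank] at h2
    exact Dvd.intro _ h2
  · letI algR : Algebra R K := e.toAlgebra
    obtain ⟨Q, hQ, hQroot⟩ := hy
    have hdvd : minpoly K y ∣ Q.map (algebraMap R K) := by
      apply minpoly.dvd
      rw [aeval_def, eval₂_map]
      exact hQroot
    have hl := integralClosure.mem_lifts_of_monic_of_dvd_map K hQ hPm hdvd
    rw [lifts_iff_coeff_lifts] at hl
    intro i
    obtain ⟨c, hc⟩ := hl i
    have hci : IsIntegral R ((minpoly K y).coeff i) := by
      rw [← hc]
      exact c.2
    exact hci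
  · have h := minpoly.aeval K y
    rw [aeval_def] at h
    exact h

/-- an element whose minimal polynomial has the degree of the extension is a primitive
element (`Algebra.adjoin` form) -/
theorem adjoin_eq_top_of_natDegree {K F : Type*} [Field K] [Field F] [Algebra K F]
    [FiniteDimensional K F] (y : F)
    (h : (minpoly K y).natDegree = Module.finrank K F) :
    IntermediateField.adjoin K {y} = ⊤ ∧ Algebra.adjoin K {y} = ⊤ := by
  have hyint : IsIntegral K y := Algebra.IsIntegral.isIntegral y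
  have h1 : IntermediateField.adjoin K {y} = ⊤ :=
    (Field.primitive_element_iff_minpoly_natDegree_eq K y).mpr h
  refine ⟨h1, ?_⟩
  have hS : (IntermediateField.adjoin K {y}).toSubalgebra = Algebra.adjoin K {y} :=
    IntermediateField.adjoin_simple_toSubalgebra_of_isAlgebraic hyint.isAlgebraic
  rw [← hS, h1]
  rfl

end Generic

variable {L : Type} [Field L] [Algebra ℚ L] (W : ValuationSubring L) (M q : ℕ) [NeZero M]
  [NeZero q] [IsDiscreteValuationRing ↥W] [CharP (IsLocalRing.ResidueField ↥W) q]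

set_option maxHeartbeats 1600000 in
/-- **`β(j)` has degree `q + 1` over `α(F_M)`** (algebra structure `α.toRingHom.toAlgebra`). -/
theorem natDegree_minpoly_beta_j_alpha (hq : q.Prime) (hqM : ¬ q ∣ M) (ι : L →+* Qb)
    {π : ↥W} (hπ : Irreducible π) (hunr : ∃ u : (↥W)ˣ, ((q : ℕ) : ↥W) = π * u)
    (w : FF L (M * q) ≃ₐ[L] FF L (M * q))
    (hwα : (w : FF L (M * q) →ₐ[L] FF L (M * q)).comp (heckeAlphaBar L M q) =
      heckeBetaBar L M q)
    (hwβ : (w : FF L (M * q) →ₐ[L] FF L (M * q)).comp (heckeBetaBar L M q) =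
      heckeAlphaBar L M q) :
    (@minpoly (FF L M) (FF L (M * q)) _ _ (heckeAlphaBar L M q).toRingHom.toAlgebra
      (heckeBetaBar L M q (jBC L M))).natDegree = q + 1 := by
  classical
  haveI : Fact q.Prime := ⟨hq⟩
  obtain ⟨hfin, hrank⟩ := Fermat.Agent.S34.DegreeL.finrank_alpha_of_bar L ι M q hq hqM
  set y : FF L (M * q) := heckeBetaBar L M q (jBC L M) with hy
  have hyQ : ∃ Q : ((↥W)[X])[X], Q.Monic ∧
      Q.eval₂ ((heckeAlphaBar L M q).toRingHom.comp (evF W M)) y = 0 := by
    obtain ⟨Q, hQ, hQroot⟩ := Fermat.Agent.S34.BetaInt.isIntegralElem_beta_j (L := L) W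
      (M := M) (ℓ := q) hq
    refine ⟨Q, hQ, ?_⟩
    rw [Fermat.Agent.S34.BetaInt.alpha_comp_evF (L := L) W (M := M) (ℓ := q)]
    exact hQroot
  obtain ⟨hPm, hdegle, hdegdvd, hint, hroot⟩ :=
    minpoly_data (evF W M) (heckeAlphaBar L M q).toRingHom hfin (q + 1) hrank y hyQ
  set P : (FF L M)[X] :=
    @minpoly (FF L M) (FF L (M * q)) _ _ (heckeAlphaBar L M q).toRingHom.toAlgebra y with hPdef
  -- the series polynomial
  set c : FF L M →+* LaurentSeries L := algebraMap (FF L M) (LaurentSeries L) with hc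
  set c' : FF L (M * q) →+* LaurentSeries L := algebraMap (FF L (M * q)) (LaurentSeries L)
    with hc'
  have hcinj : Function.Injective c := (algebraMap (FF L M) (LaurentSeries L)).injective
  set Ps : (LaurentSeries L)[X] := P.map c with hPs
  have hPsm : Ps.Monic := hPm.map c
  have hPsdeg : Ps.natDegree = P.natDegree := natDegree_map_eq_of_injective hcinj P
  have hPsc : ∀ i, Ps.coeff i ∈ contentRing W := by
    intro i
    rw [hPs, coeff_map]
    exact Fermat.Agent.S34.FrobPartner.mem_contentRing_of_int W M (hint i)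
  have hwy : w y = jBC L (M * q) := by
    have h1 : w (heckeBetaBar L M q (jBC L M)) = heckeAlphaBar L M q (jBC L M) :=
      congrArg (fun f => f (jBC L M)) hwβ
    rw [hy, h1]
    exact Fermat.Agent.S34.CompInst.alpha_jBC M q
  have hc'β : c'.comp (((w : FF L (M * q) →ₐ[L] FF L (M * q)).toRingHom).comp
      (heckeAlphaBar L M q).toRingHom) = (qExpand L q).comp c := by
    apply RingHom.ext
    intro x
    have h1 : w (heckeAlphaBar L M q x) = heckeBetaBar L M q x :=
      congrArg (fun f => f x) hwα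
    show ((w (heckeAlphaBar L M q x) : FF L (M * q)) : LaurentSeries L) =
      qExpand L q ((x : FF L M) : LaurentSeries L)
    rw [h1, coe_heckeBetaBar]
  have hc'j : c' (jBC L (M * q)) = jqModC L := coe_jBC_eq L (M * q)
  have htrans : ∀ G : (FF L M)[X],
      c' (w (G.eval₂ (heckeAlphaBar L M q).toRingHom y)) =
        ((G.map c).map (qExpand L q)).eval (jqModC L) := by
    intro G
    have h1 := Polynomial.hom_eval₂ G (heckeAlphaBar L M q).toRingHom
      (c'.comp ((w : FF L (M * q) →ₐ[L] FF L (M * q)).toRingHom)) y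
    rw [RingHom.comp_assoc, hc'β] at h1
    have h2 : (c'.comp ((w : FF L (M * q) →ₐ[L] FF L (M * q)).toRingHom)) y = jqModC L := by
      show c' (w y) = jqModC L
      rw [hwy, hc'j]
    rw [h2] at h1
    rw [eval_map, eval₂_map]
    exact h1
  have hroots : (Ps.map (qExpand L q)).eval (jqModC L) = 0 := by
    rw [hPs, ← htrans P, hroot, map_zero, map_zero]
  have hθ : th (IsLocalRing.ResidueField ↥W) (rd W (jqModC L)) ≠ 0 := by
    rw [rd_jq]
    exact th_jq_ne_zero _
  obtain ⟨hdeg2, -⟩ := theta_trick W q hπ hunr Ps hPsm (by rw [hPsdeg]; exact hdegle)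
    hPsc (jqModC L) (jq_mem_contentRing W) hθ hroots
  rw [hPsdeg] at hdeg2
  rcases hdeg2 with h0 | h0
  · exfalso
    rw [h0] at hdegdvd
    have h1 : q ∣ 1 := (Nat.dvd_add_right (dvd_refl q)).mp hdegdvd
    exact hq.one_lt.ne' (Nat.dvd_one.mp h1)
  · exact h0

/-! ### Instance-agnostic forms -/

omit [IsDiscreteValuationRing ↥W] [CharP (IsLocalRing.ResidueField ↥W) q] in
/-- `[F_{M q} : α(F_M)] = q + 1` for any algebra instance whose `algebraMap` is `α`. -/
theorem finrank_eq (hq : q.Prime) (hqM : ¬ q ∣ M) (ι : L →+* Qb)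
    [inst : Algebra (FF L M) (FF L (M * q))]
    (halgK : ∀ x, algebraMap (FF L M) (FF L (M * q)) x = heckeAlphaBar L M q x) :
    Module.Finite (FF L M) (FF L (M * q)) ∧ Module.finrank (FF L M) (FF L (M * q)) = q + 1 := by
  have hinst : inst = (heckeAlphaBar L M q).toRingHom.toAlgebra :=
    Algebra.algebra_ext _ _ halgK
  subst hinst
  exact Fermat.Agent.S34.DegreeL.finrank_alpha_of_bar L ι M q hq hqM

/-- **`β(j)` has degree `q + 1` over `α(F_M)`**, for any algebra instance whose `algebraMap` is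
`α`. -/
theorem natDegree_minpoly_beta_j (hq : q.Prime) (hqM : ¬ q ∣ M) (ι : L →+* Qb)
    {π : ↥W} (hπ : Irreducible π) (hunr : ∃ u : (↥W)ˣ, ((q : ℕ) : ↥W) = π * u)
    (w : FF L (M * q) ≃ₐ[L] FF L (M * q))
    (hwα : (w : FF L (M * q) →ₐ[L] FF L (M * q)).comp (heckeAlphaBar L M q) =
      heckeBetaBar L M q)
    (hwβ : (w : FF L (M * q) →ₐ[L] FF L (M * q)).comp (heckeBetaBar L M q) =
      heckeAlphaBar L M q)
    [inst : Algebra (FF L M) (FF L (M * q))]
    (halgK : ∀ x, algebraMap (FF L M) (FF L (M * q)) x = heckeAlphaBar L M q x) :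
    (minpoly (FF L M) (heckeBetaBar L M q (jBC L M))).natDegree = q + 1 := by
  have hinst : inst = (heckeAlphaBar L M q).toRingHom.toAlgebra :=
    Algebra.algebra_ext _ _ halgK
  subst hinst
  exact natDegree_minpoly_beta_j_alpha W M q hq hqM ι hπ hunr w hwα hwβ

/-- **`β(j)` generates `F_{M q}` over `α(F_M)`** (intermediate-field form). -/
theorem intermediateField_adjoin_beta_j_eq_top (hq : q.Prime) (hqM : ¬ q ∣ M) (ι : L →+* Qb)
    {π : ↥W} (hπ : Irreducible π) (hunr : ∃ u : (↥W)ˣ, ((q : ℕ) : ↥W) = π * u)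
    (w : FF L (M * q) ≃ₐ[L] FF L (M * q))
    (hwα : (w : FF L (M * q) →ₐ[L] FF L (M * q)).comp (heckeAlphaBar L M q) =
      heckeBetaBar L M q)
    (hwβ : (w : FF L (M * q) →ₐ[L] FF L (M * q)).comp (heckeBetaBar L M q) =
      heckeAlphaBar L M q)
    [Algebra (FF L M) (FF L (M * q))]
    (halgK : ∀ x, algebraMap (FF L M) (FF L (M * q)) x = heckeAlphaBar L M q x) :
    IntermediateField.adjoin (FF L M) {heckeBetaBar L M q (jBC L M)} = ⊤ := by
  obtain ⟨hfin, hrank⟩ := finrank_eq M q hq hqM ι halgK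
  haveI : FiniteDimensional (FF L M) (FF L (M * q)) := hfin
  exact (adjoin_eq_top_of_natDegree (heckeBetaBar L M q (jBC L M))
    ((natDegree_minpoly_beta_j W M q hq hqM ι hπ hunr w hwα hwβ halgK).trans hrank.symm)).1

/-- **`β(j)` generates `F_{M q}` over `α(F_M)`** (`Algebra.adjoin` form: the hypothesis `hθgen`
of the Euler divisibility at a chart). -/
theorem adjoin_beta_j_eq_top (hq : q.Prime) (hqM : ¬ q ∣ M) (ι : L →+* Qb)
    {π : ↥W} (hπ : Irreducible π) (hunr : ∃ u : (↥W)ˣ, ((q : ℕ) : ↥W) = π * u)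
    (w : FF L (M * q) ≃ₐ[L] FF L (M * q))
    (hwα : (w : FF L (M * q) →ₐ[L] FF L (M * q)).comp (heckeAlphaBar L M q) =
      heckeBetaBar L M q)
    (hwβ : (w : FF L (M * q) →ₐ[L] FF L (M * q)).comp (heckeBetaBar L M q) =
      heckeAlphaBar L M q)
    [Algebra (FF L M) (FF L (M * q))]
    (halgK : ∀ x, algebraMap (FF L M) (FF L (M * q)) x = heckeAlphaBar L M q x) :
    Algebra.adjoin (FF L M) {heckeBetaBar L M q (jBC L M)} = ⊤ := by
  obtain ⟨hfin, hrank⟩ := finrank_eq M q hq hqM ι halgK
  haveI : FiniteDimensional (FF L M) (FF L (M * q)) := hfin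
  exact (adjoin_eq_top_of_natDegree (heckeBetaBar L M q (jBC L M))
    ((natDegree_minpoly_beta_j W M q hq hqM ι hπ hunr w hwα hwβ halgK).trans hrank.symm)).2

end Fermat.Agent.S36.BetaGen
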