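/-
S36 (wave 8), package (R-ell), part (E2): no elliptic points at an auxiliary level.

Let `r` be a prime with `r % 12 = 11` and `r ∣ N`.  Then `Γ₀(N)` has no elliptic elements
(`eq_one_or_neg_one_of_mem_Gamma0`), every point of `ℍ` has stabiliser `±1` in `Γ₀(N)`
(`nIdx_eq_one`), and consequently at every place of the function field of `X₀(N)` the function
`j` vanishes to order exactly `3` and `j - 1728` to order exactly `2`
(`ramJ_analytic_aux`, `ramJ_complex_aux`, `ramJ_bar_aux`).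
-/
import Mathlib
import Fermat.Agent.S18.RamJ

set_option autoImplicit false
set_option linter.style.haveILetI false

namespace Fermat.Agent.S36.AuxRam

open AlgebraicCurve ModularCurve Polynomial IsDedekindDomain CongruenceSubgroup
open Fermat.Agent.S24 Fermat.Agent.S20 Fermat.Agent.S20.FinitePlaces
open UpperHalfPlane hiding I
open scoped MatrixGroups

/-! ### arithmetic modulo the auxiliary prime -/

/-- `x ^ 2 + 1` has no root modulo a prime `r` with `r % 12 = 11`. -/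
theorem sq_add_one_ne_zero {r : ℕ} (hr : r.Prime) (hr12 : r % 12 = 11) (x : ZMod r) :
    x ^ 2 + 1 ≠ 0 := by
  haveI : Fact r.Prime := ⟨hr⟩
  intro h
  have h4 : r % 4 ≠ 3 := ZMod.exists_sq_eq_neg_one_iff.mp ⟨x, by linear_combination (-1 : ZMod r) * h⟩
  omega

/-- `x ^ 2 + x + 1` has no root modulo a prime `r` with `r % 12 = 11`. -/
theorem sq_add_self_add_one_ne_zero {r : ℕ} (hr : r.Prime) (hr12 : r % 12 = 11) (x : ZMod r) :
    x ^ 2 + x + 1 ≠ 0 := by
  haveI : Fact r.Prime := ⟨hr⟩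
  intro h
  have h3 : x ^ 3 = 1 := by linear_combination (x - 1) * h
  have hx1 : x ≠ 1 := by
    rintro rfl
    have h3' : ((3 : ℕ) : ZMod r) = 0 := by
      push_cast
      linear_combination h
    have hdvd : r ∣ 3 := (ZMod.natCast_eq_zero_iff 3 r).mp h3'
    have hle : r ≤ 3 := Nat.le_of_dvd (by norm_num) hdvd
    omega
  let u : (ZMod r)ˣ := Units.mkOfMulEqOne x (x ^ 2) (by linear_combination h3)
  have hu3 : u ^ 3 = 1 := by
    apply Units.ext
    rw [Units.val_pow_eq_pow_val, Units.val_one]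
    exact h3
  have hu1 : u ≠ 1 := by
    intro hu
    apply hx1
    have := congrArg Units.val hu
    simpa [u] using this
  have hord : orderOf u = 3 := orderOf_eq_prime hu3 hu1
  have hdvd : 3 ∣ r - 1 := by
    have h1 := orderOf_dvd_card (x := u)
    rw [hord, ZMod.card_units_eq_totient, Nat.totient_prime hr] at h1
    exact h1
  have hr2 : 2 ≤ r := hr.two_le
  omega

/-! ### no elliptic elements -/

/-- **No elliptic elements.**  If a prime `r` with `r % 12 = 11` divides `N`, an element of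
`Γ₀(N)` fixing a point of the upper half plane is `±1`. -/
theorem eq_one_or_neg_one_of_mem_Gamma0 {N r : ℕ} (hr : r.Prime) (hr12 : r % 12 = 11)
    (hrN : r ∣ N) (γ : SL(2, ℤ)) (hγ : γ ∈ Gamma0 N) (z : ℍ) (hz : γ • z = z) :
    γ = 1 ∨ γ = -1 := by
  by_cases hc : γ 1 0 = 0
  · exact Stab.eq_one_or_neg_one_of_c_eq_zero γ z hz hc
  exfalso
  have htr := Stab.trace_mem_of_c_ne_zero γ z hz hc
  have hdet := Stab.det_eq γ
  have hcN : ((γ 1 0 : ℤ) : ZMod N) = 0 := Gamma0_mem.mp hγ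
  have hcr : ((γ 1 0 : ℤ) : ZMod r) = 0 := by
    rw [ZMod.intCast_zmod_eq_zero_iff_dvd] at hcN ⊢
    exact (Int.natCast_dvd_natCast.mpr hrN).trans hcN
  have hdet' : ((γ 0 0 : ℤ) : ZMod r) * ((γ 1 1 : ℤ) : ZMod r) = 1 := by
    have h1 := congrArg (fun n : ℤ => (n : ZMod r)) hdet
    simp only [Int.cast_sub, Int.cast_mul, Int.cast_one] at h1
    rw [hcr, mul_zero, sub_zero] at h1
    exact h1
  set a : ZMod r := ((γ 0 0 : ℤ) : ZMod r) with ha
  set d : ZMod r := ((γ 1 1 : ℤ) : ZMod r) with hd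
  rcases htr with h0 | h1 | h1
  · have hsum : a + d = 0 := by
      have := congrArg (fun n : ℤ => (n : ZMod r)) h0
      simpa [ha, hd] using this
    exact sq_add_one_ne_zero hr hr12 a (by linear_combination a * hsum - hdet')
  · have hsum : a + d = 1 := by
      have := congrArg (fun n : ℤ => (n : ZMod r)) h1
      simpa [ha, hd] using this
    exact sq_add_self_add_one_ne_zero hr hr12 (-a) (by linear_combination a * hsum - hdet')
  · have hsum : a + d = -1 := by
      have := congrArg (fun n : ℤ => (n : ZMod r)) h1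
      simpa [ha, hd] using this
    exact sq_add_self_add_one_ne_zero hr hr12 a (by linear_combination a * hsum - hdet')

/-- The stabiliser in `Γ₀(N)` of every point of `ℍ` has two elements. -/
theorem card_inf_stabilizer {N r : ℕ} (hr : r.Prime) (hr12 : r % 12 = 11) (hrN : r ∣ N) (z : ℍ) :
    Nat.card ↥(Gamma0 N ⊓ MulAction.stabilizer SL(2, ℤ) z) = 2 := by
  have h2 := two_dvd_card_inf_stabilizer (Gamma0 N) (neg_one_mem_Gamma0 N) z
  have hsub : ((Gamma0 N ⊓ MulAction.stabilizer SL(2, ℤ) z : Subgroup SL(2, ℤ)) : Set SL(2, ℤ)) ⊆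
      {1, -1} := by
    intro γ hγ
    have h := Subgroup.mem_inf.mp hγ
    rcases eq_one_or_neg_one_of_mem_Gamma0 hr hr12 hrN γ h.1 z
      (MulAction.mem_stabilizer_iff.mp h.2) with h1 | h1
    · exact Or.inl h1
    · exact Or.inr h1
  have hle : Nat.card ↥(Gamma0 N ⊓ MulAction.stabilizer SL(2, ℤ) z) ≤ 2 := by
    have h1 : Set.ncard ((Gamma0 N ⊓ MulAction.stabilizer SL(2, ℤ) z : Subgroup SL(2, ℤ)) :
        Set SL(2, ℤ)) ≤ Set.ncard ({1, -1} : Set SL(2, ℤ)) :=
      Set.ncard_le_ncard hsub (Set.toFinite _)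
    have h3 : Set.ncard ({1, -1} : Set SL(2, ℤ)) ≤ 2 :=
      (Set.ncard_insert_le 1 {-1}).trans (by rw [Set.ncard_singleton])
    exact (Nat.card_coe_set_eq _).le.trans (h1.trans h3)
  have hpos : 0 < Nat.card ↥(Gamma0 N ⊓ MulAction.stabilizer SL(2, ℤ) z) := by
    haveI : Finite ↥(Gamma0 N ⊓ MulAction.stabilizer SL(2, ℤ) z) :=
      Set.Finite.subset (Set.toFinite ({1, -1} : Set SL(2, ℤ))) hsub
    exact Nat.card_pos
  obtain ⟨m, hm⟩ := h2
  omega

/-- **`|Γ_z / ±1| = 1` at every point**, in the currency of `S20.FinitePlaces`. -/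
theorem nIdx_eq_one {N r : ℕ} (hr : r.Prime) (hr12 : r % 12 = 11) (hrN : r ∣ N) (z0 : ℍ)
    (x : SL(2, ℤ) ⧸ Gamma0 N) : nIdx (Gamma0 N) z0 x = 1 := by
  unfold nIdx
  rw [card_inf_stabilizer hr hr12 hrN]

/-! ### the order of `j` and of `j - 1728` at the finite places -/

/-- the order of `j - a` at a place of the analytic function field `Frac (WH Γ₀(N))`, at an
auxiliary level: exactly `3` for `a = 0` and exactly `2` for `a = 1728` -/
theorem ramJ_analytic_aux {N r : ℕ} [NeZero N] (hr : r.Prime) (hr12 : r % 12 = 11) (hrN : r ∣ N)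
    (v : Place ℂ (S20.FF N)) (a : ℂ)
    (h : 0 < v.ord (algebraMap ℂ[X] (S20.FF N) (X - C a))) :
    (a = 0 → v.ord (algebraMap ℂ[X] (S20.FF N) (X - C a)) = 3) ∧
    (a = 1728 → v.ord (algebraMap ℂ[X] (S20.FF N) (X - C a)) = 2) := by
  have hX := PrimeBridge.X_mem_of_ord_pos ℂ (S20.FF N) v a h
  have hB : ∀ b : WH (Gamma0 N), algebraMap (WH (Gamma0 N)) (S20.FF N) b ∈ v.toValuationSubring :=
    PrimeBridge.algebraMap_mem_of_X_mem ℂ (S20.FF N) (WH (Gamma0 N)) v hX
  obtain ⟨z0, rfl⟩ := jFun_surjective a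
  obtain ⟨b, hb⟩ : ∃ b : WH (Gamma0 N), b = algebraMap ℂ[X] (WH (Gamma0 N)) (X - C (jFun z0)) :=
    ⟨_, rfl⟩
  have hb0 : b ≠ 0 := hb ▸ algebraMap_X_sub_C_ne_zero (Gamma0 N) (jFun z0)
  have hbF : algebraMap ℂ[X] (S20.FF N) (X - C (jFun z0)) =
      algebraMap (WH (Gamma0 N)) (S20.FF N) b := by
    rw [hb, ← IsScalarTower.algebraMap_apply]
  rw [hbF] at h ⊢
  have hmem : b ∈ (PrimeBridge.toPrime v hB).asIdeal :=
    (PrimeBridge.ord_pos_iff_mem_toPrime v hB b hb0).mp h
  have hmem' : algebraMap ℂ[X] (WH (Gamma0 N)) (X - C (jFun z0)) ∈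
      (PrimeBridge.toPrime v hB).asIdeal := hb ▸ hmem
  obtain ⟨φ, hφ⟩ := S20.finite_places N (S20.FF N) z0
  obtain ⟨q, hq⟩ := φ.surjective ⟨PrimeBridge.toPrime v hB, hmem'⟩
  obtain ⟨x, rfl⟩ := Quotient.exists_rep q
  have hv := (hφ x).2 (algebraMap (WH (Gamma0 N)) (S20.FF N) b)
  have hq' : (φ (Quotient.mk _ x)).1 = PrimeBridge.toPrime v hB := by rw [hq]
  have hZ : ordZ (pt z0 x) b = (eIdx z0 : ℤ) := by
    rw [hb]
    exact ordZ_algebraMap_X_sub_C (Gamma0 N) z0 x
  rw [hq', ordVal_apply _ _ _ b hb0, hZ] at hv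
  have hord := PrimeBridge.ord_eq_toPrime v hB (algebraMap (WH (Gamma0 N)) (S20.FF N) b)
  have hbF0 : algebraMap (WH (Gamma0 N)) (S20.FF N) b ≠ 0 := by
    rw [Ne, map_eq_zero_iff _ (IsFractionRing.injective (WH (Gamma0 N)) (S20.FF N))]
    exact hb0
  have hne : (PrimeBridge.toPrime v hB).valuation (S20.FF N)
      (algebraMap (WH (Gamma0 N)) (S20.FF N) b) ≠ 0 :=
    (Valuation.ne_zero_iff _).2 hbF0
  obtain ⟨m, hm⟩ : ∃ m : ℤ, m = v.ord (algebraMap (WH (Gamma0 N)) (S20.FF N) b) := ⟨_, rfl⟩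
  rw [← hm] at h hord ⊢
  have hval : (PrimeBridge.toPrime v hB).valuation (S20.FF N)
      (algebraMap (WH (Gamma0 N)) (S20.FF N) b) = WithZero.exp (-m) := by
    rw [hord, neg_neg, WithZero.exp_log hne]
  rw [hval, ← WithZero.exp_nsmul, WithZero.exp_inj, nIdx_eq_one hr hr12 hrN] at hv
  have hkey : (eIdx z0 : ℤ) = m := by
    rw [one_nsmul] at hv
    linarith
  rcases eIdx_cases z0 with ⟨h4, h6, he⟩ | ⟨h6, he⟩ | ⟨h4, he⟩
  · exact ⟨fun h0 => absurd ((E₄_eq_zero_iff z0).mpr h0) h4,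
      fun h1 => absurd ((E₆_eq_zero_iff z0).mpr h1) h6⟩
  · have hj : jFun z0 = 1728 := (E₆_eq_zero_iff z0).mp h6
    refine ⟨fun h0 => ?_, fun _ => ?_⟩
    · rw [hj] at h0
      norm_num at h0
    · rw [← hkey, he]
      rfl
  · have hj : jFun z0 = 0 := (E₄_eq_zero_iff z0).mp h4
    refine ⟨fun _ => ?_, fun h1 => ?_⟩
    · rw [← hkey, he]
      rfl
    · rw [hj] at h1
      norm_num at h1

/-- **(E2) over `ℂ`**: at an auxiliary level the order of `j` at a zero is exactly `3` and the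
order of `j - 1728` at a zero is exactly `2`. -/
theorem ramJ_complex_aux {N r : ℕ} [NeZero N] (hr : r.Prime) (hr12 : r % 12 = 11) (hrN : r ∣ N)
    (v : Place ℂ (FF ℂ N)) (a : ℂ)
    (h : 0 < v.ord (jBC ℂ N - algebraMap ℂ (FF ℂ N) a)) :
    (a = 0 → v.ord (jBC ℂ N - algebraMap ℂ (FF ℂ N) a) = 3) ∧
    (a = 1728 → v.ord (jBC ℂ N - algebraMap ℂ (FF ℂ N) a) = 2) := by
  obtain ⟨e, he, -⟩ := exists_algEquiv_FF' N
  have hXa : e (algebraMap ℂ[X] (S20.FF N) (X - C a)) = jBC ℂ N - algebraMap ℂ (FF ℂ N) a := by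
    have h1 : algebraMap ℂ[X] (S20.FF N) (X - C a) =
        algebraMap ℂ[X] (S20.FF N) X - algebraMap ℂ (S20.FF N) a := by
      rw [map_sub, ← Polynomial.algebraMap_eq, ← IsScalarTower.algebraMap_apply ℂ ℂ[X] (S20.FF N)]
    rw [h1, map_sub, he, AlgEquiv.commutes]
  have hv : ((placeEquiv e).symm v).ord (algebraMap ℂ[X] (S20.FF N) (X - C a)) =
      v.ord (jBC ℂ N - algebraMap ℂ (FF ℂ N) a) := by
    rw [← hXa, ← placeEquiv_ord e ((placeEquiv e).symm v), Equiv.apply_symm_apply]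
  rw [← hv] at h ⊢
  exact ramJ_analytic_aux hr hr12 hrN _ a h

/-! ### extension of an algebraically closed constant field is unramified at zeros -/

section BaseChangeOrd

variable {K K' F F' : Type*} [Field K] [IsAlgClosed K] [CharZero K]
  [Field K'] [IsAlgClosed K'] [CharZero K'] [Field F] [Field F'] [Algebra K F] [Algebra K' F']

open IntermediateField in
/-- **The order of a zero does not change under extension of an algebraically closed constant
field** (the counting argument of `S24.baseChange_card_zeros`, read termwise). -/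
theorem ord_map_eq_of_pos (ι : K →+* K') (φ : F →+* F')
    (hφ : ∀ a : K, φ (algebraMap K F a) = algebraMap K' F' (ι a))
    (hLD : ∀ (n : ℕ) (f : Fin n → F), LinearIndependent K f → LinearIndependent K' (φ ∘ f))
    (hgen : IntermediateField.adjoin K' (Set.range φ) = ⊤)
    (x : F) (hx : Transcendental K x) [FiniteDimensional K⟮x⟯ F]
    (y : F) (hy : Transcendental K y) (v : Place K F) (v' : Place K' F')
    (hv' : ∀ f : F, f ∈ v.toValuationSubring ↔ φ f ∈ v'.toValuationSubring)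
    (hpos : 0 < v.ord y) : v'.ord (φ y) = v.ord y := by
  classical
  obtain ⟨hx', hfin', -⟩ := BaseChange.finrank_ascent ι φ hφ hLD hgen x hx
  have hFy : FiniteDimensional K⟮y⟯ F := finiteDimensional_of_transcendental x y hx hy
  obtain ⟨hy', hfiny', hdeg⟩ := BaseChange.finrank_ascent ι φ hφ hLD hgen y hy
  obtain ⟨S, hS, hSsum⟩ := exists_finset_zeros y hy
  obtain ⟨S', hS', hS'sum⟩ := exists_finset_zeros (φ y) hy'
  let _i1 : Fintype {v : Place K F // 0 < v.ord y} := Fintype.subtype S hS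
  let _i2 : Fintype {v' : Place K' F' // 0 < v'.ord (φ y)} := Fintype.subtype S' hS'
  -- the restriction map
  have hres : ∀ a : {v' : Place K' F' // 0 < v'.ord (φ y)},
      ∃ b : {v : Place K F // 0 < v.ord y},
        ∀ f : F, f ∈ b.1.toValuationSubring ↔ φ f ∈ a.1.toValuationSubring := by
    intro a
    obtain ⟨w, hw⟩ := BaseChange.exists_place_under ι φ hφ x hx a.1 y a.2
    obtain ⟨e, he, hord⟩ := BaseChange.exists_ord_eq_mul φ w a.1 hw
    have hpos' : 0 < w.ord y := by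
      have h := a.2
      rw [hord] at h
      exact (mul_pos_iff_of_pos_left he).mp h
    exact ⟨⟨w, hpos'⟩, hw⟩
  choose ρ hρ using hres
  have hsurj : Function.Surjective ρ := by
    intro b
    obtain ⟨w', hw'⟩ := BaseChange.exists_place_over ι φ hφ hLD (φ x) hx' b.1
    obtain ⟨e, he, hord⟩ := BaseChange.exists_ord_eq_mul φ b.1 w' hw'
    have hpos' : 0 < w'.ord (φ y) := by
      rw [hord]
      exact mul_pos he b.2
    refine ⟨⟨w', hpos'⟩, ?_⟩
    apply Subtype.ext
    apply Place.ext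
    ext f
    rw [hρ ⟨w', hpos'⟩ f, hw' f]
  have hle : ∀ a, (ρ a).1.ord y ≤ a.1.ord (φ y) := by
    intro a
    obtain ⟨e, he, hord⟩ := BaseChange.exists_ord_eq_mul φ (ρ a).1 a.1 (hρ a)
    rw [hord]
    have h := (ρ a).2
    nlinarith
  have hsum : ∑ a, (ρ a).1.ord y ≤ ∑ b : {v : Place K F // 0 < v.ord y}, b.1.ord y := by
    calc ∑ a, (ρ a).1.ord y
        ≤ ∑ a : {v' : Place K' F' // 0 < v'.ord (φ y)}, a.1.ord (φ y) :=
          Finset.sum_le_sum fun a _ => hle a
      _ = ∑ v' ∈ S', v'.ord (φ y) := (Finset.sum_subtype S' hS' (fun v' => v'.ord (φ y))).symm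
      _ = (Module.finrank K'⟮φ y⟯ F' : ℤ) := hS'sum
      _ = (Module.finrank K⟮y⟯ F : ℤ) := by rw [hdeg]
      _ = ∑ v ∈ S, v.ord y := hSsum.symm
      _ = ∑ b : {v : Place K F // 0 < v.ord y}, b.1.ord y :=
          Finset.sum_subtype S hS (fun v => v.ord y)
  have hcard := BaseChange.card_eq_of_surjective_of_sum_le ρ hsurj (fun b => b.1.ord y)
    (fun b => b.2) hsum
  have hbij : Function.Bijective ρ :=
    (Fintype.bijective_iff_surjective_and_card ρ).mpr ⟨hsurj, hcard⟩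
  -- the two sums agree, hence all terms agree
  have hsum2 : ∑ a : {v' : Place K' F' // 0 < v'.ord (φ y)}, a.1.ord (φ y) =
      ∑ a, (ρ a).1.ord y := by
    calc ∑ a : {v' : Place K' F' // 0 < v'.ord (φ y)}, a.1.ord (φ y)
        = ∑ v' ∈ S', v'.ord (φ y) := (Finset.sum_subtype S' hS' (fun v' => v'.ord (φ y))).symm
      _ = (Module.finrank K'⟮φ y⟯ F' : ℤ) := hS'sum
      _ = (Module.finrank K⟮y⟯ F : ℤ) := by rw [hdeg]
      _ = ∑ v ∈ S, v.ord y := hSsum.symm
      _ = ∑ b : {v : Place K F // 0 < v.ord y}, b.1.ord y :=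
          Finset.sum_subtype S hS (fun v => v.ord y)
      _ = ∑ a, (ρ a).1.ord y := (hbij.sum_comp (fun b => b.1.ord y)).symm
  have hterm : ∀ a, a.1.ord (φ y) = (ρ a).1.ord y := by
    have h0 : ∑ a : {v' : Place K' F' // 0 < v'.ord (φ y)},
        (a.1.ord (φ y) - (ρ a).1.ord y) = 0 := by
      rw [Finset.sum_sub_distrib, hsum2, sub_self]
    have h1 := (Finset.sum_eq_zero_iff_of_nonneg (fun a _ => sub_nonneg.mpr (hle a))).mp h0
    intro a
    have := h1 a (Finset.mem_univ a)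
    linarith
  -- the given pair of places
  obtain ⟨e, he, hord⟩ := BaseChange.exists_ord_eq_mul φ v v' hv'
  have hpos' : 0 < v'.ord (φ y) := by
    rw [hord]
    exact mul_pos he hpos
  have hρv : (ρ ⟨v', hpos'⟩).1 = v := by
    apply Place.ext
    ext f
    rw [hρ ⟨v', hpos'⟩ f, hv' f]
  have := hterm ⟨v', hpos'⟩
  rw [hρv] at this
  exact this

end BaseChangeOrd

/-- **(E2) over `ℚ̄`**: if a prime `r` with `r % 12 = 11` divides `N`, then at every place of the
function field of `X₀(N)` over `ℚ̄` a zero of `j` has order exactly `3` and a zero of `j - 1728`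
has order exactly `2`. -/
theorem ramJ_bar_aux {N r : ℕ} [NeZero N] (hr : r.Prime) (hr12 : r % 12 = 11) (hrN : r ∣ N)
    (v : Place (AlgebraicClosure ℚ) (FF (AlgebraicClosure ℚ) N)) (a : AlgebraicClosure ℚ)
    (h : 0 < v.ord (jBC (AlgebraicClosure ℚ) N -
      algebraMap (AlgebraicClosure ℚ) (FF (AlgebraicClosure ℚ) N) a)) :
    (a = 0 → v.ord (jBC (AlgebraicClosure ℚ) N -
      algebraMap (AlgebraicClosure ℚ) (FF (AlgebraicClosure ℚ) N) a) = 3) ∧
    (a = 1728 → v.ord (jBC (AlgebraicClosure ℚ) N -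
      algebraMap (AlgebraicClosure ℚ) (FF (AlgebraicClosure ℚ) N) a) = 2) := by
  obtain ⟨ι, φ, hφ, hLD, hgen, hφj⟩ := exists_barToComplex N
  obtain ⟨hxC, hfdC, -⟩ := complex_places N
  obtain ⟨hx, hfd⟩ := Fermat.Agent.S18.RamJ.bar_transcendental N
  obtain ⟨v', hv'⟩ := BaseChange.exists_place_over ι φ hφ hLD (jBC ℂ N) hxC v
  have hmap : φ (jBC (AlgebraicClosure ℚ) N -
      algebraMap (AlgebraicClosure ℚ) (FF (AlgebraicClosure ℚ) N) a) =
      jBC ℂ N - algebraMap ℂ (FF ℂ N) (ι a) := by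
    rw [map_sub, hφj, hφ]
  have hy : Transcendental (AlgebraicClosure ℚ) (jBC (AlgebraicClosure ℚ) N -
      algebraMap (AlgebraicClosure ℚ) (FF (AlgebraicClosure ℚ) N) a) := by
    intro halg
    apply hx
    have h2 : IsAlgebraic (AlgebraicClosure ℚ)
        (algebraMap (AlgebraicClosure ℚ) (FF (AlgebraicClosure ℚ) N) a) := isAlgebraic_algebraMap a
    have h3 := halg.add h2
    rwa [sub_add_cancel] at h3
  have hord := ord_map_eq_of_pos ι φ hφ hLD hgen (jBC (AlgebraicClosure ℚ) N) hx _ hy v v' hv' h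
  rw [hmap] at hord
  have hpos : 0 < v'.ord (jBC ℂ N - algebraMap ℂ (FF ℂ N) (ι a)) := by
    rw [hord]
    exact h
  obtain ⟨h0, h1⟩ := ramJ_complex_aux hr hr12 hrN v' (ι a) hpos
  rw [hord] at h0 h1
  exact ⟨fun ha => h0 (by rw [ha, map_zero]), fun ha => h1 (by rw [ha, map_ofNat])⟩

end Fermat.Agent.S36.AuxRam
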