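/-
S36 (wave 8), package (R-ell), piece (E2), level form.

At an auxiliary level (`r` prime, `r % 12 = 11`, `r ∣ N`) and over ANY coefficient field
`L ⊆ ℚ̄`:

* `exists_place_bar_eq` (CE): the constant field extension `FF L N → FF ℚ̄ N` is unramified at
  every place: above every place `v` of `FF L N` there is a place `v'` of `FF ℚ̄ N` with
  `ord_{v'} (bc f) = ord_v f` for every `f` (no hypothesis on the level `N`).
* `ramJ_of_hom_aux` (place currency): if `P(j)` vanishes at `v` (`P` irreducible) then its order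
  is EXACTLY `3` for `P = X`, EXACTLY `2` for `P = X - 1728`, and `1` otherwise.
* `ramificationIdx_of_hom_aux` / `ramificationIdx_of_hom_aux'` (ideal currency, twin of
  `S18.RamJ.ramificationIdx_of_hom` / `'`): for a Dedekind chart `BF` of `FF L N` over `L[X]`
  (`X ↦ j`) a nonzero prime `P` has `e(P / L[X]) = 3` over `(X)`, `= 2` over `(X - 1728)`,
  `= 1` otherwise.
* `ramificationIdx_eq_one_of_tower` (abstract): in a tower `R → A → B`, a prime `P` of `B` with
  `e(P / R) = e(P ∩ A / R) ≠ 0` has `e(P / A) = 1`.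
* `ramificationIdx_eq_one_of_eq`: the form used at a point: if `e(P / R) = n = e(P ∩ A / R)`
  with `n ≠ 0` then `e(P / A) = 1`.
-/
import Mathlib
import Fermat.Agent.S36.AuxRam
import Fermat.Agent.S36.HorizOrd
import Fermat.Agent.S18.RamJIdeal

set_option autoImplicit false

namespace Fermat.Agent.S36.AuxRamL

open AlgebraicCurve ModularCurve Polynomial IsDedekindDomain
open Fermat.Agent.S24 Fermat.Agent.S18.RamJ

local notation "Qb" => AlgebraicClosure ℚ

section Place

variable {L : Type} [Field L] [Algebra ℚ L]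

/-- **(CE) The constant field extension is unramified.**  Above every place `v` of `FF L N`
there is a place `v'` of `FF ℚ̄ N` with the same valuation ring on `FF L N` and
`ord_{v'} (bc f) = ord_v f`. -/
theorem exists_place_bar_eq (ι : L →+* Qb) (N : ℕ) [NeZero N] (v : Place L (FF L N)) :
    ∃ v' : Place Qb (FF Qb N),
      (∀ f : FF L N, f ∈ v.toValuationSubring ↔
        CoeffBC.bc ι (modularFunctionFieldFull N) f ∈ v'.toValuationSubring) ∧
      ∀ f : FF L N, v'.ord (CoeffBC.bc ι (modularFunctionFieldFull N) f) = v.ord f := by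
  obtain ⟨v', e, he, hmem, hord⟩ := exists_place_bar ι N v
  obtain ⟨y, hy⟩ := Fermat.Agent.S36.HorizOrd.exists_ord_eq_one N ι v'
  have hy' : e * v.ord y = 1 := by rw [← hord]; exact hy
  have he1 : e = 1 := Int.eq_one_of_dvd_one he.le ⟨v.ord y, hy'.symm⟩
  refine ⟨v', hmem, fun f => ?_⟩
  rw [hord, he1, one_mul]

/-- every place of `FF ℚ̄ N` above a place of `FF L N` is unramified: if the orders are
proportional, they are equal -/
theorem ord_bc_eq_of_mul (ι : L →+* Qb) (N : ℕ) [NeZero N] (v : Place L (FF L N))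
    (v' : Place Qb (FF Qb N)) (e : ℤ) (he : 0 < e)
    (hord : ∀ f : FF L N, v'.ord (CoeffBC.bc ι (modularFunctionFieldFull N) f) = e * v.ord f)
    (f : FF L N) : v'.ord (CoeffBC.bc ι (modularFunctionFieldFull N) f) = v.ord f := by
  obtain ⟨y, hy⟩ := Fermat.Agent.S36.HorizOrd.exists_ord_eq_one N ι v'
  have hy' : e * v.ord y = 1 := by rw [← hord]; exact hy
  have he1 : e = 1 := Int.eq_one_of_dvd_one he.le ⟨v.ord y, hy'.symm⟩
  rw [hord, he1, one_mul]

/-- **(E2) over a coefficient field `L ⊆ ℚ̄`, place currency**: at an auxiliary level, let `v`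
be a place of `FF L N` and `P ∈ L[X]` irreducible with `P(j)` vanishing at `v`.  Then the order
of `P(j)` at `v` is EXACTLY `3` if `P = X`, EXACTLY `2` if `P = X - 1728`, and `1` otherwise. -/
theorem ramJ_of_hom_aux (ι : L →+* Qb) {N r : ℕ} [NeZero N] (hr : r.Prime) (hr12 : r % 12 = 11)
    (hrN : r ∣ N) (v : Place L (FF L N)) (P : L[X]) (hP : Irreducible P)
    (h : 0 < v.ord (aeval (jBC L N) P)) :
    (P = X → v.ord (aeval (jBC L N) P) = 3) ∧
    (P = X - C 1728 → v.ord (aeval (jBC L N) P) = 2) ∧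
    (¬ Associated P X → ¬ Associated P (X - C 1728) → v.ord (aeval (jBC L N) P) = 1) := by
  obtain ⟨v', -, hord⟩ := exists_place_bar_eq ι N v
  have hQord : v'.ord (aeval (jBC Qb N) (P.map ι)) = v.ord (aeval (jBC L N) P) := by
    rw [← bc_aeval, hord]
  refine ⟨fun hPX => ?_, fun hPX => ?_, (ramJ_of_hom ι N v P hP h).2.2⟩
  · rw [← hQord] at h ⊢
    have e1 : aeval (jBC Qb N) (P.map ι) = jBC Qb N - algebraMap Qb (FF Qb N) 0 := by
      rw [hPX, Polynomial.map_X, aeval_X, map_zero, sub_zero]
    rw [e1] at h ⊢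
    exact (Fermat.Agent.S36.AuxRam.ramJ_bar_aux hr hr12 hrN v' 0 h).1 rfl
  · rw [← hQord] at h ⊢
    have e1 : aeval (jBC Qb N) (P.map ι) = jBC Qb N - algebraMap Qb (FF Qb N) 1728 := by
      rw [hPX, Polynomial.map_sub, Polynomial.map_X, Polynomial.map_C, map_ofNat, map_sub,
        aeval_X, aeval_C]
    rw [e1] at h ⊢
    exact (Fermat.Agent.S36.AuxRam.ramJ_bar_aux hr hr12 hrN v' 1728 h).2 rfl

end Place

section Ideal

variable {L : Type} [Field L] [Algebra ℚ L]

/-- **(E2) in ideal currency** (twin of `S18.RamJ.ramificationIdx_of_hom`): at an auxiliary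
level, `BF` a Dedekind domain with fraction field `FF L N`, an algebra over `L[X]` (`X ↦ j`).
For a nonzero prime `P` of `BF` lying over a nonzero prime of `L[X]`, the ramification index
over `L[X]` is EXACTLY `3` if `P` lies over `(X)`, EXACTLY `2` if `P` lies over `(X - 1728)`,
and `1` otherwise. -/
theorem ramificationIdx_of_hom_aux (ι : L →+* Qb) {N r : ℕ} [NeZero N] (hr : r.Prime)
    (hr12 : r % 12 = 11) (hrN : r ∣ N)
    [Algebra L[X] (FF L N)] [IsScalarTower L L[X] (FF L N)]
    (hX : algebraMap L[X] (FF L N) X = jBC L N)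
    {BF : Type*} [CommRing BF] [IsDedekindDomain BF] [Algebra L[X] BF] [Algebra BF (FF L N)]
    [IsScalarTower L[X] BF (FF L N)] [IsFractionRing BF (FF L N)]
    (P : Ideal BF) [hPp : P.IsPrime] (hP : P ≠ ⊥) (hP' : P.under L[X] ≠ ⊥) :
    (X ∈ P.under L[X] → P.ramificationIdx L[X] = 3) ∧
    (X - C 1728 ∈ P.under L[X] → P.ramificationIdx L[X] = 2) ∧
    (X ∉ P.under L[X] → X - C 1728 ∉ P.under L[X] → P.ramificationIdx L[X] = 1) := by
  have hK : ∀ a : L, algebraMap L (FF L N) a ∈ (algebraMap BF (FF L N)).range := fun a =>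
    ⟨algebraMap L[X] BF (C a), by
      rw [← IsScalarTower.algebraMap_apply L[X] BF (FF L N), ← Polynomial.algebraMap_eq,
        ← IsScalarTower.algebraMap_apply L L[X] (FF L N)]⟩
  have haev : ∀ p : L[X], algebraMap L[X] (FF L N) p = aeval (jBC L N) p := by
    intro p
    rw [← hX, Polynomial.aeval_algebraMap_apply, Polynomial.aeval_X_left_apply]
  have htr := transcendental_jBC ι N
  have hne : ∀ g : L[X], g ≠ 0 → algebraMap L[X] BF g ≠ 0 := by
    intro g hg h0
    have h1 : algebraMap L[X] (FF L N) g = 0 := by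
      rw [IsScalarTower.algebraMap_apply L[X] BF (FF L N), h0, map_zero]
    rw [haev] at h1
    exact htr ⟨g, hg, h1⟩
  set v := PrimeBridge.placeOfPrime BF hK ⟨P, hPp, hP⟩ with hv
  have hprime : (P.under L[X]).IsPrime := Ideal.comap_isPrime _ _
  have key : ∀ g : L[X], g ≠ 0 → P.under L[X] = Ideal.span {g} →
      ((P.ramificationIdx L[X] : ℕ) : ℤ) = v.ord (aeval (jBC L N) g) ∧
        0 < v.ord (aeval (jBC L N) g) := by
    intro g hg hPg
    have h1 := ramificationIdx_eq_ord hK P hP g (hne g hg) hPg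
    rw [← IsScalarTower.algebraMap_apply L[X] BF (FF L N), haev] at h1
    refine ⟨h1, ?_⟩
    have hmem : algebraMap L[X] BF g ∈ P := by
      have : g ∈ P.under L[X] := by rw [hPg]; exact Ideal.mem_span_singleton_self g
      exact this
    have h2 := (PrimeBridge.placeOfPrime_ord_pos_iff BF hK ⟨P, hPp, hP⟩ _ (hne g hg)).mpr hmem
    rw [← IsScalarTower.algebraMap_apply L[X] BF (FF L N), haev] at h2
    exact h2
  have hmax : ∀ g : L[X], Irreducible g → g ∈ P.under L[X] → P.under L[X] = Ideal.span {g} := by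
    intro g hg hmem
    have hm : (Ideal.span {g}).IsMaximal := PrincipalIdealRing.isMaximal_of_irreducible hg
    exact (hm.eq_of_le hprime.ne_top ((Ideal.span_singleton_le_iff_mem _).mpr hmem)).symm
  refine ⟨fun hXmem => ?_, fun hXmem => ?_,
    (ramificationIdx_of_hom ι N hX P hP hP').2.2⟩
  · obtain ⟨h1, h2⟩ := key X Polynomial.X_ne_zero (hmax X Polynomial.irreducible_X hXmem)
    have h3 := (ramJ_of_hom_aux ι hr hr12 hrN v X Polynomial.irreducible_X h2).1 rfl
    rw [← h1] at h3
    exact_mod_cast h3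
  · have hirr := Polynomial.irreducible_X_sub_C (1728 : L)
    obtain ⟨h1, h2⟩ := key (X - C 1728) hirr.ne_zero (hmax _ hirr hXmem)
    have h3 := (ramJ_of_hom_aux ι hr hr12 hrN v (X - C 1728) hirr h2).2.1 rfl
    rw [← h1] at h3
    exact_mod_cast h3

/-- `ramificationIdx_of_hom_aux` for an integral closure: the hypothesis `P.under L[X] ≠ ⊥` is
automatic -/
theorem ramificationIdx_of_hom_aux' (ι : L →+* Qb) {N r : ℕ} [NeZero N] (hr : r.Prime)
    (hr12 : r % 12 = 11) (hrN : r ∣ N)
    [Algebra L[X] (FF L N)] [IsScalarTower L L[X] (FF L N)]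
    (hX : algebraMap L[X] (FF L N) X = jBC L N)
    {BF : Type*} [CommRing BF] [IsDedekindDomain BF] [Algebra L[X] BF] [Algebra BF (FF L N)]
    [IsScalarTower L[X] BF (FF L N)] [IsFractionRing BF (FF L N)] [Algebra.IsIntegral L[X] BF]
    (P : Ideal BF) [hPp : P.IsPrime] (hP : P ≠ ⊥) :
    (X ∈ P.under L[X] → P.ramificationIdx L[X] = 3) ∧
    (X - C 1728 ∈ P.under L[X] → P.ramificationIdx L[X] = 2) ∧
    (X ∉ P.under L[X] → X - C 1728 ∉ P.under L[X] → P.ramificationIdx L[X] = 1) := by
  refine ramificationIdx_of_hom_aux ι hr hr12 hrN hX P hP ?_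
  obtain ⟨b, hb, hb0⟩ := Submodule.exists_mem_ne_zero_of_ne_bot hP
  exact Ideal.comap_ne_bot_of_integral_mem hb0 hb (Algebra.IsIntegral.isIntegral b)

end Ideal

section Tower

variable {R A B : Type*} [CommRing R] [CommRing A] [CommRing B] [Algebra R A] [Algebra A B]
  [Algebra R B] [IsScalarTower R A B]

/-- in a flat tower `R → A → B`: a prime `P` of `B` whose ramification index over `R` equals
the (nonzero) ramification index of `P ∩ A` over `R` is unramified over `A` -/
theorem ramificationIdx_eq_one_of_tower [Module.Flat A B] (P : Ideal B)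
    (h : P.ramificationIdx R = (P.under A).ramificationIdx R)
    (h0 : P.ramificationIdx R ≠ 0) : P.ramificationIdx A = 1 := by
  have h1 := Ideal.ramificationIdx_tower (R := R) (P.under A) P
  rw [h] at h1 h0
  have h2 : (P.under A).ramificationIdx R * 1 =
      (P.under A).ramificationIdx R * P.ramificationIdx A := by
    rw [mul_one]
    exact h1
  exact (Nat.eq_of_mul_eq_mul_left (Nat.pos_of_ne_zero h0) h2).symm

/-- the pointwise form: `e(P / R) = n = e(P ∩ A / R)`, `n ≠ 0` ⟹ `e(P / A) = 1` -/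
theorem ramificationIdx_eq_one_of_eq [Module.Flat A B] (P : Ideal B) {n : ℕ} (hn : n ≠ 0)
    (h1 : P.ramificationIdx R = n) (h2 : (P.under A).ramificationIdx R = n) :
    P.ramificationIdx A = 1 :=
  ramificationIdx_eq_one_of_tower P (h1.trans h2.symm) (h1 ▸ hn)

end Tower

end Fermat.Agent.S36.AuxRamL
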