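import Mathlib

/-!
# S36, (R-ss), (T3-abs): no horizontal zero of the different of a monogenic extension

`R0` an integrally closed domain with fraction field `K`, `R1 ⊇ R0` a domain whose fraction field
`Y` is finite separable over `K`, `X ∈ R1` integral with `R1 = R0[X]`, `P` its minimal polynomial.

`notMem_of_hU` : let `𝔮` be a prime of `R1` and `𝔭 := 𝔮 ∩ R0`.  If the trace form of `R1 / R0` is
nondegenerate modulo `𝔭` in the elementwise form `hU` of `Fermat.Agent.S18.UnramBridge`
(`Tr (x R1) ⊆ 𝔭 → ∃ s ∉ 𝔭, s x ∈ 𝔭 R1`), then `P'(X) ∉ 𝔮`.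

Proof.  If `d := P'(X) ∈ 𝔮`, the determinant of the multiplication by `d` in the power basis lies
in `𝔭` (`d` divides it: adjugate), so over the domain `R0 / 𝔭` the matrix has a kernel vector:
there is `x = ∑ v_i X ^ i`, not all `v_i ∈ 𝔭`, with `d x ∈ 𝔭 R1`.  By Euler's formula
(`traceForm_dualSubmodule_adjoin`: the trace dual of `R0[X]` is `d⁻¹ R0[X]`), `Tr (x R1) ⊆ 𝔭`.
Then `hU` gives `s ∉ 𝔭` with `s x ∈ 𝔭 R1`, i.e. all `s v_i ∈ 𝔭`: contradiction.

`mem_of_mem_minimalPrimes` : the form consumed by the thickness-one lemma: if `hU` holds at every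
prime `𝔭` of `R0` not containing `ϖ`, every prime of `R1` minimal over `(P'(X))` contains `ϖ`.
-/

set_option autoImplicit false

namespace Fermat.Agent.S36.HorizDisc

open Polynomial Matrix

/-! ### An element divides the determinant of its multiplication matrix -/

/-- `d` divides the determinant of the matrix of the multiplication by `d` (adjugate). -/
theorem dvd_algebraMap_det_leftMulMatrix {R S ι : Type*} [CommRing R] [CommRing S] [Algebra R S]
    [Fintype ι] [DecidableEq ι] (b : Module.Basis ι R S) (d : S) :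
    d ∣ algebraMap R S (Algebra.leftMulMatrix b d).det := by
  set M := Algebra.leftMulMatrix b d with hM
  refine ⟨b.equivFun.symm (M.adjugate *ᵥ b.equivFun 1), ?_⟩
  apply b.equivFun.injective
  have h1 : b.equivFun (d * b.equivFun.symm (M.adjugate *ᵥ b.equivFun 1)) =
      M *ᵥ (M.adjugate *ᵥ b.equivFun 1) := by
    have h := Algebra.leftMulMatrix_mulVec_repr b d (b.equivFun.symm (M.adjugate *ᵥ b.equivFun 1))
    have h2 : (⇑(b.repr (b.equivFun.symm (M.adjugate *ᵥ b.equivFun 1))) : ι → R) =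
        M.adjugate *ᵥ b.equivFun 1 := by
      rw [← Module.Basis.equivFun_apply]
      exact b.equivFun.apply_symm_apply _
    rw [h2] at h
    rw [← hM] at h
    rw [h]
    rfl
  rw [h1, Matrix.mulVec_mulVec, Matrix.mul_adjugate, Matrix.smul_mulVec, Matrix.one_mulVec,
    Algebra.algebraMap_eq_smul_one, map_smul]

/-- Coordinates of an element of `𝔭 • ⊤` lie in `𝔭`. -/
theorem repr_mem_of_mem_smul_top {R S ι : Type*} [CommRing R] [AddCommGroup S] [Module R S]
    (b : Module.Basis ι R S) (𝔭 : Ideal R) {x : S} (hx : x ∈ 𝔭 • (⊤ : Submodule R S)) (i : ι) :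
    b.repr x i ∈ 𝔭 := by
  refine Submodule.smul_induction_on hx ?_ ?_
  · intro r hr n _
    rw [map_smul, Finsupp.smul_apply, smul_eq_mul]
    exact Ideal.mul_mem_right _ _ hr
  · intro u v hu hv
    rw [map_add, Finsupp.add_apply]
    exact Ideal.add_mem _ hu hv

/-! ### The main statement -/

section Main

variable {R0 R1 K Y : Type*} [CommRing R0] [IsDomain R0] [IsIntegrallyClosed R0]
  [CommRing R1] [IsDomain R1] [Algebra R0 R1]
  [Field K] [Algebra R0 K] [IsFractionRing R0 K]
  [Field Y] [Algebra R1 Y] [IsFractionRing R1 Y] [Algebra K Y] [Algebra R0 Y]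
  [IsScalarTower R0 K Y] [IsScalarTower R0 R1 Y] [FiniteDimensional K Y] [Algebra.IsSeparable K Y]

omit [IsDomain R0] [IsDomain R1] [IsFractionRing R0 K] [IsIntegrallyClosed R0]
  [Algebra.IsSeparable K Y] in
/-- The generator of `R1` over `R0` generates `Y` over `K`. -/
theorem adjoin_field_eq_top (X : R1) (hX : Algebra.adjoin R0 {X} = ⊤) :
    Algebra.adjoin K {algebraMap R1 Y X} = ⊤ := by
  have hint : IsIntegral K (algebraMap R1 Y X) := Algebra.IsIntegral.isIntegral _
  have hS : (IntermediateField.adjoin K {algebraMap R1 Y X}).toSubalgebra =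
      Algebra.adjoin K {algebraMap R1 Y X} :=
    IntermediateField.adjoin_simple_toSubalgebra_of_isAlgebraic hint.isAlgebraic
  rw [← hS, eq_top_iff]
  intro y _
  rw [IntermediateField.mem_toSubalgebra]
  -- the image of `R1` lies in the intermediate field
  have hR1 : ∀ r : R1, algebraMap R1 Y r ∈ IntermediateField.adjoin K {algebraMap R1 Y X} := by
    intro r
    have hr : r ∈ Algebra.adjoin R0 {X} := by rw [hX]; trivial
    induction hr using Algebra.adjoin_induction with
    | mem x hx =>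
      rw [Set.mem_singleton_iff.mp hx]
      exact IntermediateField.mem_adjoin_simple_self K _
    | algebraMap c =>
      rw [← IsScalarTower.algebraMap_apply R0 R1 Y, IsScalarTower.algebraMap_apply R0 K Y]
      exact IntermediateField.algebraMap_mem _ _
    | add x y _ _ hx hy => rw [map_add]; exact add_mem hx hy
    | mul x y _ _ hx hy => rw [map_mul]; exact mul_mem hx hy
  obtain ⟨a, b, hb, rfl⟩ := IsFractionRing.div_surjective (A := R1) y
  exact div_mem (hR1 a) (hR1 b)

/-- **(T3-abs)**: nondegeneracy of the trace form modulo `𝔭 = 𝔮 ∩ R0` forces `P'(X) ∉ 𝔮`. -/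
theorem notMem_of_hU (X : R1) (hX : Algebra.adjoin R0 {X} = ⊤) (hXi : IsIntegral R0 X)
    (𝔮 : Ideal R1) [𝔮.IsPrime]
    (hU : ∀ x : R1,
      (∀ y : R1, ∃ a ∈ 𝔮.comap (algebraMap R0 R1),
        Algebra.trace K Y (algebraMap R1 Y (x * y)) = algebraMap R0 K a) →
      ∃ s : R0, s ∉ 𝔮.comap (algebraMap R0 R1) ∧
        s • x ∈ (𝔮.comap (algebraMap R0 R1)) • (⊤ : Submodule R0 R1)) :
    aeval X (derivative (minpoly R0 X)) ∉ 𝔮 := by
  classical
  intro hd
  set d : R1 := aeval X (derivative (minpoly R0 X)) with hd_def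
  set 𝔭 : Ideal R0 := 𝔮.comap (algebraMap R0 R1) with h𝔭
  have hinj : Function.Injective (algebraMap R0 R1) := by
    have h1 : Function.Injective (algebraMap R0 Y) := by
      rw [IsScalarTower.algebraMap_eq R0 K Y]
      exact (algebraMap K Y).injective.comp (IsFractionRing.injective R0 K)
    rw [IsScalarTower.algebraMap_eq R0 R1 Y] at h1
    exact Function.Injective.of_comp h1
  have : FaithfulSMul R0 R1 := (faithfulSMul_iff_algebraMap_injective R0 R1).mpr hinj
  have : Module.IsTorsionFree R0 R1 := inferInstance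
  let pb : PowerBasis R0 R1 := PowerBasis.ofAdjoinEqTop' hXi hX
  set b := pb.basis with hb
  set M := Algebra.leftMulMatrix b d with hM
  -- the determinant lies in `𝔭`
  have hdet : M.det ∈ 𝔭 := by
    obtain ⟨w, hw⟩ := dvd_algebraMap_det_leftMulMatrix b d
    rw [h𝔭, Ideal.mem_comap, ← hM] at *
    rw [hw]
    exact Ideal.mul_mem_right _ _ hd
  -- a kernel vector modulo `𝔭`
  have hdet' : (M.map (Ideal.Quotient.mk 𝔭)).det = 0 := by
    rw [← RingHom.mapMatrix_apply, ← RingHom.map_det]
    exact Ideal.Quotient.eq_zero_iff_mem.mpr hdet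
  obtain ⟨vbar, hvbar0, hvbar⟩ := Matrix.exists_mulVec_eq_zero_iff.mpr hdet'
  choose v hv using fun i => Ideal.Quotient.mk_surjective (vbar i)
  have hv' : (fun i => Ideal.Quotient.mk 𝔭 (v i)) = vbar := funext hv
  have hMv : ∀ i, (M *ᵥ v) i ∈ 𝔭 := by
    intro i
    rw [← Ideal.Quotient.eq_zero_iff_mem]
    have h1 := RingHom.map_mulVec (Ideal.Quotient.mk 𝔭) M v i
    rw [h1]
    have h2 : (M.map (Ideal.Quotient.mk 𝔭) *ᵥ fun i => Ideal.Quotient.mk 𝔭 (v i)) = 0 := by
      rw [hv']; exact hvbar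
    exact congrFun h2 i
  have hvne : ∃ i, v i ∉ 𝔭 := by
    by_contra hcon
    push Not at hcon
    apply hvbar0
    funext i
    rw [← hv i]
    exact Ideal.Quotient.eq_zero_iff_mem.mpr (hcon i)
  -- the element `x`
  set x : R1 := b.equivFun.symm v with hx
  have hreprx : (⇑(b.repr x) : Fin pb.dim → R0) = v := by
    rw [← Module.Basis.equivFun_apply]
    exact b.equivFun.apply_symm_apply _
  have hreprdx : (⇑(b.repr (d * x)) : Fin pb.dim → R0) = M *ᵥ v := by
    rw [← Algebra.leftMulMatrix_mulVec_repr b d x, hreprx]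
  have hdx : d * x = ∑ i, (M *ᵥ v) i • b i := by
    conv_lhs => rw [← b.sum_repr (d * x)]
    rw [hreprdx]
  -- the field side
  set X' : Y := algebraMap R1 Y X with hX'
  have hX'i : IsIntegral R0 X' := hXi.map (IsScalarTower.toAlgHom R0 R1 Y)
  have hinjY : Function.Injective (algebraMap R1 Y) := IsFractionRing.injective R1 Y
  have hmin : minpoly K X' = (minpoly R0 X).map (algebraMap R0 K) := by
    rw [minpoly.isIntegrallyClosed_eq_field_fractions' K hX'i, hX',
      minpoly.algebraMap_eq hinjY]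
  have hd' : aeval X' (derivative (minpoly K X')) = algebraMap R1 Y d := by
    rw [hmin, derivative_map, aeval_map_algebraMap, hd_def, hX', aeval_algebraMap_apply]
  have hKtop : Algebra.adjoin K {X'} = ⊤ := adjoin_field_eq_top X hX
  have hsep : IsSeparable K X' := Algebra.IsSeparable.isSeparable K X'
  have hd'0 : algebraMap R1 Y d ≠ 0 := by
    rw [← hd']
    exact hsep.aeval_derivative_ne_zero (minpoly.aeval K X')
  have hdual := traceForm_dualSubmodule_adjoin R0 K hKtop hX'i
  have hmemadj : ∀ r : R1, algebraMap R1 Y r ∈ Algebra.adjoin R0 {X'} := by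
    intro r
    have hr : r ∈ Algebra.adjoin R0 {X} := by rw [hX]; trivial
    have h1 : (IsScalarTower.toAlgHom R0 R1 Y) r ∈
        (Algebra.adjoin R0 {X}).map (IsScalarTower.toAlgHom R0 R1 Y) :=
      Subalgebra.mem_map.mpr ⟨r, hr, rfl⟩
    rw [AlgHom.map_adjoin, Set.image_singleton] at h1
    exact h1
  -- `Tr (x y) ∈ 𝔭`
  have htr : ∀ y : R1, ∃ a ∈ 𝔭,
      Algebra.trace K Y (algebraMap R1 Y (x * y)) = algebraMap R0 K a := by
    intro y
    -- `d⁻¹ y` lies in the dual of `R0[X']`
    have hmem : (algebraMap R1 Y d)⁻¹ * algebraMap R1 Y y ∈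
        (Algebra.traceForm K Y).dualSubmodule (Subalgebra.toSubmodule (Algebra.adjoin R0 {X'})) := by
      rw [hdual, hd']
      exact Submodule.smul_mem_pointwise_smul _ _ _ (hmemadj y)
    rw [LinearMap.BilinForm.mem_dualSubmodule] at hmem
    have hc : ∀ i, ∃ c : R0, algebraMap R0 K c =
        Algebra.trace K Y ((algebraMap R1 Y d)⁻¹ * algebraMap R1 Y y * algebraMap R1 Y (b i)) := by
      intro i
      have h1 := hmem (algebraMap R1 Y (b i)) (hmemadj (b i))
      rw [Submodule.mem_one] at h1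
      obtain ⟨c, hc⟩ := h1
      exact ⟨c, by rw [hc, Algebra.traceForm_apply]⟩
    choose c hc using hc
    refine ⟨∑ i, (M *ᵥ v) i * c i, Ideal.sum_mem _ fun i _ => Ideal.mul_mem_right _ _ (hMv i), ?_⟩
    have e1 : algebraMap R1 Y (x * y) =
        ∑ i, algebraMap R0 K ((M *ᵥ v) i) •
          ((algebraMap R1 Y d)⁻¹ * algebraMap R1 Y y * algebraMap R1 Y (b i)) := by
      have e2 : algebraMap R1 Y (x * y) =
          (algebraMap R1 Y d)⁻¹ * algebraMap R1 Y y * algebraMap R1 Y (d * x) := by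
        rw [map_mul, map_mul]
        field_simp
      rw [e2, hdx, map_sum, Finset.mul_sum]
      refine Finset.sum_congr rfl fun i _ => ?_
      rw [Algebra.smul_def, Algebra.smul_def, map_mul, ← IsScalarTower.algebraMap_apply R0 R1 Y,
        IsScalarTower.algebraMap_apply R0 K Y]
      ring
    rw [e1, map_sum, map_sum]
    refine Finset.sum_congr rfl fun i _ => ?_
    rw [LinearMap.map_smul, smul_eq_mul, ← hc i, ← map_mul]
  -- conclusion
  obtain ⟨s, hs, hsx⟩ := hU x htr
  obtain ⟨i, hi⟩ := hvne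
  apply hi
  have h1 := repr_mem_of_mem_smul_top b 𝔭 hsx i
  rw [map_smul, Finsupp.smul_apply, smul_eq_mul] at h1
  have h2 : b.repr x i = v i := congrFun hreprx i
  rw [h2] at h1
  have h𝔭p : 𝔭.IsPrime := Ideal.comap_isPrime _ _
  exact (h𝔭p.mem_or_mem h1).resolve_left hs

/-- **(T3), minimal-prime form**: if the trace form of `R1 / R0` is nondegenerate modulo every
prime of `R0` not containing `ϖ`, every prime of `R1` minimal over `(P'(X))` contains `ϖ`. -/
theorem mem_of_mem_minimalPrimes (X : R1) (hX : Algebra.adjoin R0 {X} = ⊤) (hXi : IsIntegral R0 X)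
    (ϖ : R0)
    (hU : ∀ (𝔭 : Ideal R0), 𝔭.IsPrime → ϖ ∉ 𝔭 → ∀ x : R1,
      (∀ y : R1, ∃ a ∈ 𝔭, Algebra.trace K Y (algebraMap R1 Y (x * y)) = algebraMap R0 K a) →
      ∃ s : R0, s ∉ 𝔭 ∧ s • x ∈ 𝔭 • (⊤ : Submodule R0 R1))
    (𝔮 : Ideal R1)
    (h𝔮 : 𝔮 ∈ (Ideal.span {aeval X (derivative (minpoly R0 X))} : Ideal R1).minimalPrimes) :
    algebraMap R0 R1 ϖ ∈ 𝔮 := by
  have : 𝔮.IsPrime := h𝔮.1.1
  by_contra hϖ
  have hmem : aeval X (derivative (minpoly R0 X)) ∈ 𝔮 := h𝔮.1.2 (Ideal.subset_span rfl)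
  exact notMem_of_hU (K := K) (Y := Y) X hX hXi 𝔮
    (hU (𝔮.comap (algebraMap R0 R1)) (Ideal.comap_isPrime _ _) hϖ) hmem

end Main

end Fermat.Agent.S36.HorizDisc
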