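import Mathlib
import Fermat.Agent.S18.UnramBridge
import Fermat.Agent.S18.RamJIdeal
import Fermat.Agent.S18.FunctionFieldKitFF
import Fermat.Agent.S36.HorizDisc

/-!
# S36, (R-ss), (T3-inst): no horizontal ramification through a non-elliptic point

`Y = FF L N` the function field of level `N` over a coefficient field `L ⊆ ℚ̄`, `K` any field with
`L(j) ⊆ K ⊆ Y` (in the application: the image of the function field of level `M`, `N = M q`),
`R0 ⊆ K` a noetherian integrally closed domain with fraction field `K` (the local ring of the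
level-`M` chart at a closed point), `R1` its integral closure in `Y` (the local ring of the
level-`N` chart at the point above), `ϖ ∈ R0` such that `L ⊆ R0[1/ϖ]`, and `j`, `j - 1728` units
of `R1` (the point is not elliptic).

* `hU_horizontal` : for a prime `𝔭` of `R0` of height `≤ 1` with `ϖ ∉ 𝔭` (a horizontal prime) the
  trace form of `R1 / R0` is nondegenerate modulo `𝔭` (the currency `hU` of
  `Fermat.Agent.S18.UnramBridge`).  Proof: `A := (R0)_𝔭` is a discrete valuation ring, every
  prime of its integral closure in `Y` over `𝔭` has ramification index `1` over `L[j]`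
  (`S18.RamJ.ramificationIdx_of_hom`, the place does not lie over `j = 0, 1728`), hence over `A`
  (`Ideal.ramificationIdx_above_dvd`), and `S18.UnramBridge.hU_of_ramificationIdx` applies.
* `pi_mem_of_mem_minimalPrimes` : if moreover `R1 = R0[X]`, every prime of `R1` minimal over
  `(P'(X))` (`P` the minimal polynomial of `X` over `R0`) contains `ϖ`: the different of
  `R1 / R0` has no horizontal component.  This is hypothesis (d) of the thickness-one lemma.
-/

set_option autoImplicit false
set_option linter.unusedSectionVars false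
set_option linter.style.haveILetI false

namespace Fermat.Agent.S36.HorizUnram

open Polynomial AlgebraicCurve ModularCurve
open Fermat.Agent.S24 Fermat.Agent.S18

/-! ### Localisation at a prime of height one -/

/-- The localisation of a noetherian integrally closed domain at a nonzero prime of height `≤ 1`
is a discrete valuation ring. -/
theorem isDiscreteValuationRing_of_height_le_one {R : Type*} [CommRing R] [IsDomain R]
    [IsNoetherianRing R] [IsIntegrallyClosed R] (𝔭 : Ideal R) [𝔭.IsPrime] (h0 : 𝔭 ≠ ⊥)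
    (hht : 𝔭.height ≤ 1) (S : Type*) [CommRing S] [IsDomain S] [Algebra R S]
    [IsLocalization.AtPrime S 𝔭] : IsDiscreteValuationRing S := by
  haveI : IsLocalRing S := IsLocalization.AtPrime.isLocalRing S 𝔭
  haveI : IsNoetherianRing S := IsLocalization.isNoetherianRing 𝔭.primeCompl S inferInstance
  have hint : IsIntegrallyClosed S :=
    isIntegrallyClosed_of_isLocalization S 𝔭.primeCompl 𝔭.primeCompl_le_nonZeroDivisors
  have hinj : Function.Injective (algebraMap R S) :=
    IsLocalization.injective S 𝔭.primeCompl_le_nonZeroDivisors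
  have hmax : (IsLocalRing.maximalIdeal S).height ≤ 1 := by
    have h1 : ((IsLocalRing.maximalIdeal S).height : WithBot ℕ∞) = (𝔭.height : WithBot ℕ∞) := by
      rw [IsLocalRing.maximalIdeal_height_eq_ringKrullDim,
        IsLocalization.AtPrime.ringKrullDim_eq_height 𝔭 S]
    have h2 : (IsLocalRing.maximalIdeal S).height = 𝔭.height := by exact_mod_cast h1
    rw [h2]
    exact hht
  have huniq : ∀ P : Ideal S, P ≠ ⊥ → P.IsPrime → P = IsLocalRing.maximalIdeal S := by
    intro P hP0 hPp
    by_contra hne
    have hlt : P < IsLocalRing.maximalIdeal S :=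
      lt_of_le_of_ne (IsLocalRing.le_maximalIdeal hPp.ne_top) hne
    have hfin : (IsLocalRing.maximalIdeal S).FiniteHeight := by
      rw [Ideal.finiteHeight_iff_lt]
      right
      exact lt_of_le_of_lt hmax (by exact_mod_cast ENat.one_lt_top)
    have h1 : P.height < (IsLocalRing.maximalIdeal S).height :=
      Ideal.height_strict_mono_of_isPrime_of_isPrime hlt
    have h2 : P.height = 0 := by
      have h3 : P.height < 1 := lt_of_lt_of_le h1 hmax
      exact Order.lt_one_iff.mp h3
    exact hP0 (Ideal.height_eq_zero_iff_eq_bot.mp h2)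
  have hprin : (IsLocalRing.maximalIdeal S).IsPrincipal := by
    have htfae := (tfae_of_isNoetherianRing_of_isLocalRing_of_isDomain S).out 3 4
    exact htfae.mp ⟨hint, huniq⟩
  -- `S` is not a field
  obtain ⟨c, hc, hc0⟩ := Submodule.exists_mem_ne_zero_of_ne_bot h0
  have hnf : ¬ IsField S := by
    intro hf
    have hu : IsUnit (algebraMap R S c) := by
      let _ := hf.toField
      exact (IsUnit.mk0 _ (fun h => hc0 (hinj (by rw [h, map_zero]))))
    exact (IsLocalization.AtPrime.isUnit_to_map_iff S 𝔭 c).mp hu hc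
  have htfae := (IsDiscreteValuationRing.TFAE S hnf).out 0 4
  exact htfae.mpr hprin

/-! ### The trace form at a horizontal prime -/

section Core

variable {L : Type*} [Field L] [Algebra ℚ L] (ι : L →+* AlgebraicClosure ℚ) (N : ℕ) [NeZero N]

include ι in
/-- **Ramification over `A` from ramification over the `j`-line.**  `A` a Dedekind domain with
fraction field `K`, `L(j) ⊆ K ⊆ FF L N`, containing `L[j]` (ring homomorphism `g`).  A nonzero
prime of the integral closure of `A` in `FF L N` containing neither `j` nor `j - 1728` has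
ramification index `1` over `A`. -/
theorem ramificationIdx_eq_one (K : Type*) [Field K] [Algebra L K] [Algebra K (FF L N)]
    [IsScalarTower L K (FF L N)] [FiniteDimensional K (FF L N)]
    {A : Type*} [CommRing A] [IsDedekindDomain A] [Algebra A K] [IsFractionRing A K]
    [Algebra A (FF L N)] [IsScalarTower A K (FF L N)] (g : L[X] →+* A)
    (hg : ∀ P : L[X], algebraMap A (FF L N) (g P) = Polynomial.aeval (jBC L N) P)
    (P : Ideal (integralClosure A (FF L N))) [P.IsPrime] (hP0 : P ≠ ⊥)
    (hX0 : algebraMap A (integralClosure A (FF L N)) (g X) ∉ P)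
    (hX1 : algebraMap A (integralClosure A (FF L N)) (g (X - C 1728)) ∉ P) :
    P.ramificationIdx A = 1 := by
  classical
  haveI : CharZero L := algebraRat.charZero L
  haveI : CharZero K := charZero_of_injective_algebraMap (algebraMap L K).injective
  haveI : Algebra.IsSeparable K (FF L N) := Algebra.IsAlgebraic.isSeparable_of_perfectField
  letI algLA : Algebra L[X] A := g.toAlgebra
  letI algLBA : Algebra L[X] (integralClosure A (FF L N)) :=
    ((algebraMap A (integralClosure A (FF L N))).comp g).toAlgebra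
  haveI : IsScalarTower L[X] A (integralClosure A (FF L N)) :=
    IsScalarTower.of_algebraMap_eq (fun _ => rfl)
  letI algLY : Algebra L[X] (FF L N) := FFKit.polyAlgebra (jBC L N)
  haveI : IsScalarTower L L[X] (FF L N) := FFKit.polyAlgebra_isScalarTower (jBC L N)
  haveI : IsScalarTower L[X] (integralClosure A (FF L N)) (FF L N) :=
    IsScalarTower.of_algebraMap_eq (fun Q => by
      show Polynomial.aeval (jBC L N) Q = algebraMap A (FF L N) (g Q)
      exact (hg Q).symm)
  haveI : IsDedekindDomain (integralClosure A (FF L N)) :=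
    IsIntegralClosure.isDedekindDomain A K (FF L N) _
  haveI : IsFractionRing (integralClosure A (FF L N)) (FF L N) :=
    IsIntegralClosure.isFractionRing_of_finite_extension A K (FF L N) _
  have hinjBAY : Function.Injective
      (algebraMap (integralClosure A (FF L N)) (FF L N)) := Subtype.val_injective
  -- `FF L N` is algebraic over `L[X]`
  have htr : Transcendental L (jBC L N) := RamJ.transcendental_jBC ι N
  have halg : ∀ z : FF L N, IsAlgebraic L[X] z := by
    intro z
    letI : Algebra (FractionRing L[X]) (FF L N) :=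
      FFKit.ratAlgebra (FractionRing L[X]) (jBC L N) htr
    haveI : IsScalarTower L[X] (FractionRing L[X]) (FF L N) :=
      FFKit.ratAlgebra_isScalarTower (FractionRing L[X]) (jBC L N) htr
    haveI : FiniteDimensional (FractionRing L[X]) (FF L N) :=
      FFKit.finiteDimensional_FF ι N (FractionRing L[X])
    exact (IsFractionRing.isAlgebraic_iff L[X] (FractionRing L[X]) (FF L N)).mpr
      (Algebra.IsAlgebraic.isAlgebraic z)
  have hP' : P.under L[X] ≠ ⊥ := by
    obtain ⟨b, hb, hb0⟩ := Submodule.exists_mem_ne_zero_of_ne_bot hP0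
    exact Ideal.comap_ne_bot_of_algebraic_mem hb0 hb
      ((isAlgebraic_algebraMap_iff hinjBAY).mp (halg _))
  have hX0' : (X : L[X]) ∉ P.under L[X] := hX0
  have hX1' : (X - C 1728 : L[X]) ∉ P.under L[X] := hX1
  have h1 := (RamJ.ramificationIdx_of_hom ι N (FFKit.polyAlgebra_X (jBC L N)) P hP0 hP').2.2
    hX0' hX1'
  have hinjABA : Function.Injective (algebraMap A (integralClosure A (FF L N))) := by
    have h3 : Function.Injective (algebraMap A (FF L N)) := by
      rw [IsScalarTower.algebraMap_eq A K (FF L N)]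
      exact (algebraMap K (FF L N)).injective.comp (IsFractionRing.injective A K)
    intro a b hab
    apply h3
    rw [IsScalarTower.algebraMap_apply A (integralClosure A (FF L N)) (FF L N), hab,
      ← IsScalarTower.algebraMap_apply A (integralClosure A (FF L N)) (FF L N)]
  have : FaithfulSMul A (integralClosure A (FF L N)) :=
    (faithfulSMul_iff_algebraMap_injective A _).mpr hinjABA
  have : Module.IsTorsionFree A (integralClosure A (FF L N)) := inferInstance
  have h2 := Ideal.ramificationIdx_above_dvd (R := L[X]) (P.under A) P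
  rw [h1] at h2
  exact Nat.dvd_one.mp h2

include ι in
/-- **(T3-inst), core.**  `A` a discrete valuation ring, the localisation of `R0` at the horizontal
prime `𝔭`; then the trace form of `R1 / R0` is nondegenerate modulo `𝔭`. -/
theorem hU_of_dvr (K : Type*) [Field K] [Algebra L K] [Algebra K (FF L N)]
    [IsScalarTower L K (FF L N)] [FiniteDimensional K (FF L N)]
    {R0 : Type*} [CommRing R0] [IsDomain R0] [Algebra R0 K] [IsFractionRing R0 K]
    [Algebra R0 (FF L N)] [IsScalarTower R0 K (FF L N)]
    {R1 : Type*} [CommRing R1] [Algebra R0 R1] [Algebra R1 (FF L N)]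
    [IsScalarTower R0 R1 (FF L N)] [IsIntegralClosure R1 R0 (FF L N)]
    {A : Type*} [CommRing A] [IsDomain A] [IsDiscreteValuationRing A] [Algebra R0 A]
    [Algebra A K] [IsScalarTower R0 A K] [IsFractionRing A K] [Algebra A (FF L N)]
    [IsScalarTower A K (FF L N)]
    (ϖ : R0)
    (hL : ∀ c : L, ∃ (k : ℕ) (r : R0),
      algebraMap R0 K ϖ ^ k * algebraMap L K c = algebraMap R0 K r)
    (jK : R0) (hjK : algebraMap R0 (FF L N) jK = jBC L N)
    (hj0 : IsUnit (algebraMap R0 R1 jK)) (hj1 : IsUnit (algebraMap R0 R1 (jK - 1728)))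
    (𝔭 : Ideal R0) [𝔭.IsPrime] [IsLocalization.AtPrime A 𝔭] (h𝔭0 : 𝔭 ≠ ⊥) (hϖ : ϖ ∉ 𝔭) (x : R1)
    (hx : ∀ y : R1, ∃ a ∈ 𝔭,
      Algebra.trace K (FF L N) (algebraMap R1 (FF L N) (x * y)) = algebraMap R0 K a) :
    ∃ s : R0, s ∉ 𝔭 ∧ s • x ∈ 𝔭 • (⊤ : Submodule R0 R1) := by
  classical
  haveI : CharZero L := algebraRat.charZero L
  haveI : CharZero K := charZero_of_injective_algebraMap (algebraMap L K).injective
  haveI : Algebra.IsSeparable K (FF L N) := Algebra.IsAlgebraic.isSeparable_of_perfectField
  have hinjK : Function.Injective (algebraMap R0 K) := IsFractionRing.injective R0 K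
  have hinjAK : Function.Injective (algebraMap A K) := IsFractionRing.injective A K
  have hinjA : Function.Injective (algebraMap R0 A) :=
    IsLocalization.injective A 𝔭.primeCompl_le_nonZeroDivisors
  haveI : IsScalarTower R0 A (FF L N) := IsScalarTower.of_algebraMap_eq (fun r => by
    rw [IsScalarTower.algebraMap_apply R0 K (FF L N), IsScalarTower.algebraMap_apply R0 A K,
      ← IsScalarTower.algebraMap_apply A K (FF L N)])
  let p : Ideal A := IsLocalRing.maximalIdeal A
  have hp𝔭 : p.comap (algebraMap R0 A) = 𝔭 := IsLocalization.AtPrime.under_maximalIdeal A 𝔭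
  have hp0 : p ≠ ⊥ := by
    intro h
    apply h𝔭0
    rw [← hp𝔭, h]
    exact Ideal.comap_bot_of_injective _ hinjA
  have hA : ∀ a : A, ∃ t : R0, t ∉ 𝔭 ∧ ∃ r : R0, algebraMap R0 A r = algebraMap R0 A t * a := by
    intro a
    obtain ⟨⟨r, t⟩, h⟩ := IsLocalization.surj 𝔭.primeCompl a
    exact ⟨t, t.2, r, by rw [← h]; ring⟩
  have hϖk : ∀ k : ℕ, ϖ ^ k ∉ 𝔭 := fun k h => hϖ (Ideal.IsPrime.mem_of_pow_mem inferInstance k h)
  have hchar : ∀ n : ℕ, n ≠ 0 → (n : A) ∉ p := by
    intro n hn hmem
    have h1 : (n : R0) ∈ 𝔭 := by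
      rw [← hp𝔭, Ideal.mem_comap, map_natCast]
      exact hmem
    obtain ⟨k, r, hr⟩ := hL ((n : L)⁻¹)
    have hnK : (n : K) ≠ 0 := Nat.cast_ne_zero.mpr hn
    have h2 : ϖ ^ k = (n : R0) * r := by
      apply hinjK
      rw [map_pow, map_mul, map_natCast, ← hr, map_inv₀, map_natCast]
      field_simp
    exact hϖk k (by rw [h2]; exact Ideal.mul_mem_right _ _ h1)
  -- `L ⊆ A`
  have hLA : ∀ c : L, algebraMap L K c ∈ (algebraMap A K).range := by
    intro c
    obtain ⟨k, r, hr⟩ := hL c
    refine ⟨IsLocalization.mk' A r (⟨ϖ ^ k, hϖk k⟩ : 𝔭.primeCompl), ?_⟩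
    have h1 := IsLocalization.mk'_spec A r (⟨ϖ ^ k, hϖk k⟩ : 𝔭.primeCompl)
    have h2 := congrArg (algebraMap A K) h1
    rw [map_mul, ← IsScalarTower.algebraMap_apply R0 A K,
      ← IsScalarTower.algebraMap_apply R0 A K, ← hr] at h2
    have hne : algebraMap R0 K (ϖ ^ k) ≠ 0 := by
      intro h0
      exact hϖk k (by rw [hinjK (h0.trans (map_zero _).symm)]; exact zero_mem _)
    rw [map_pow] at hne
    have h3 : (algebraMap R0 K ϖ ^ k) * algebraMap A K
        (IsLocalization.mk' A r (⟨ϖ ^ k, hϖk k⟩ : 𝔭.primeCompl)) =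
        algebraMap R0 K ϖ ^ k * algebraMap L K c := by
      rw [← h2, map_pow]; ring
    exact mul_left_cancel₀ hne h3
  let e : A ≃+* (algebraMap A K).range :=
    RingEquiv.ofBijective (algebraMap A K).rangeRestrict
      ⟨fun a b h => hinjAK (congrArg Subtype.val h), (algebraMap A K).rangeRestrict_surjective⟩
  let φ : L →+* A := e.symm.toRingHom.comp ((algebraMap L K).codRestrict (algebraMap A K).range hLA)
  have hφ : ∀ c : L, algebraMap A K (φ c) = algebraMap L K c := by
    intro c
    have h1 : e (φ c) = (algebraMap L K).codRestrict (algebraMap A K).range hLA c :=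
      e.apply_symm_apply _
    exact congrArg Subtype.val h1
  let g : L[X] →+* A := Polynomial.eval₂RingHom φ (algebraMap R0 A jK)
  have hg : ∀ P : L[X], algebraMap A (FF L N) (g P) = Polynomial.aeval (jBC L N) P := by
    intro P
    show algebraMap A (FF L N) (Polynomial.eval₂ φ (algebraMap R0 A jK) P) = _
    rw [Polynomial.hom_eval₂, ← IsScalarTower.algebraMap_apply R0 A (FF L N), hjK,
      Polynomial.aeval_def]
    congr 1
    ext c
    rw [RingHom.comp_apply, IsScalarTower.algebraMap_apply A K (FF L N), hφ,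
      ← IsScalarTower.algebraMap_apply L K (FF L N)]
  have hgX : g X = algebraMap R0 A jK := by
    show Polynomial.eval₂ φ (algebraMap R0 A jK) X = _
    rw [Polynomial.eval₂_X]
  have hgX1 : g (X - C 1728) = algebraMap R0 A (jK - 1728) := by
    show Polynomial.eval₂ φ (algebraMap R0 A jK) (X - C 1728) = _
    rw [Polynomial.eval₂_sub, Polynomial.eval₂_X, Polynomial.eval₂_C, map_sub, map_ofNat,
      map_ofNat]
  have hinjABA : Function.Injective (algebraMap A (integralClosure A (FF L N))) := by
    have h3 : Function.Injective (algebraMap A (FF L N)) := by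
      rw [IsScalarTower.algebraMap_eq A K (FF L N)]
      exact (algebraMap K (FF L N)).injective.comp hinjAK
    intro a b hab
    apply h3
    rw [IsScalarTower.algebraMap_apply A (integralClosure A (FF L N)) (FF L N), hab,
      ← IsScalarTower.algebraMap_apply A (integralClosure A (FF L N)) (FF L N)]
  -- units of `R1` coming from `R0` are units of the integral closure of `A`
  have hunit : ∀ r : R0, IsUnit (algebraMap R0 R1 r) →
      IsUnit (algebraMap A (integralClosure A (FF L N)) (algebraMap R0 A r)) := by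
    intro r hr
    obtain ⟨u', hu'⟩ := hr.exists_right_inv
    have hint : IsIntegral A (algebraMap R1 (FF L N) u') :=
      (IsIntegralClosure.isIntegral R0 (FF L N) u').algebraMap.tower_top
    refine IsUnit.of_mul_eq_one (⟨algebraMap R1 (FF L N) u', hint⟩ : integralClosure A (FF L N)) ?_
    apply Subtype.ext
    show algebraMap A (FF L N) (algebraMap R0 A r) * algebraMap R1 (FF L N) u' = 1
    rw [← IsScalarTower.algebraMap_apply R0 A (FF L N),
      IsScalarTower.algebraMap_apply R0 R1 (FF L N), ← map_mul, hu', map_one]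
  have hunr : ∀ (P : Ideal (integralClosure A (FF L N))) [P.IsPrime],
      p.map (algebraMap A (integralClosure A (FF L N))) ≤ P → P.ramificationIdx A = 1 := by
    intro P hP hle
    have hP0 : P ≠ ⊥ := by
      obtain ⟨a, ha, ha0⟩ := Submodule.exists_mem_ne_zero_of_ne_bot hp0
      intro hbot
      have h1 : algebraMap A (integralClosure A (FF L N)) a ∈ P := hle (Ideal.mem_map_of_mem _ ha)
      rw [hbot, Ideal.mem_bot] at h1
      exact ha0 (hinjABA (h1.trans (map_zero _).symm))
    refine ramificationIdx_eq_one ι N K g hg P hP0 ?_ ?_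
    · rw [hgX]
      intro hmem
      exact hP.ne_top (Ideal.eq_top_of_isUnit_mem _ hmem (hunit jK hj0))
    · rw [hgX1]
      intro hmem
      exact hP.ne_top (Ideal.eq_top_of_isUnit_mem _ hmem (hunit _ hj1))
  haveI : IsDedekindDomain (integralClosure A (FF L N)) :=
    IsIntegralClosure.isDedekindDomain A K (FF L N) _
  exact UnramBridge.hU_of_ramificationIdx (K := K) (Y := FF L N) (A := A)
    (BA := integralClosure A (FF L N)) 𝔭 p hp0 hp𝔭 hA hchar hunr x hx

include ι in
/-- **(T3-inst), trace-form currency.**  `R0` a noetherian integrally closed domain with fraction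
field `K`, `L(j) ⊆ K ⊆ FF L N`, `R1` its integral closure in `FF L N`, `L ⊆ R0[1/ϖ]`, and `j`,
`j - 1728` units of `R1`.  At a nonzero prime `𝔭` of `R0` of height `≤ 1` with `ϖ ∉ 𝔭` the trace
form of `R1 / R0` is nondegenerate modulo `𝔭`. -/
theorem hU_horizontal (K : Type*) [Field K] [Algebra L K] [Algebra K (FF L N)]
    [IsScalarTower L K (FF L N)] [FiniteDimensional K (FF L N)]
    {R0 : Type*} [CommRing R0] [IsDomain R0] [IsNoetherianRing R0] [IsIntegrallyClosed R0]
    [Algebra R0 K] [IsFractionRing R0 K] [Algebra R0 (FF L N)] [IsScalarTower R0 K (FF L N)]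
    {R1 : Type*} [CommRing R1] [Algebra R0 R1] [Algebra R1 (FF L N)]
    [IsScalarTower R0 R1 (FF L N)] [IsIntegralClosure R1 R0 (FF L N)]
    (ϖ : R0)
    (hL : ∀ c : L, ∃ (k : ℕ) (r : R0),
      algebraMap R0 K ϖ ^ k * algebraMap L K c = algebraMap R0 K r)
    (jK : R0) (hjK : algebraMap R0 (FF L N) jK = jBC L N)
    (hj0 : IsUnit (algebraMap R0 R1 jK)) (hj1 : IsUnit (algebraMap R0 R1 (jK - 1728)))
    (𝔭 : Ideal R0) [𝔭.IsPrime] (h𝔭0 : 𝔭 ≠ ⊥) (hϖ : ϖ ∉ 𝔭) (hht : 𝔭.height ≤ 1) (x : R1)
    (hx : ∀ y : R1, ∃ a ∈ 𝔭,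
      Algebra.trace K (FF L N) (algebraMap R1 (FF L N) (x * y)) = algebraMap R0 K a) :
    ∃ s : R0, s ∉ 𝔭 ∧ s • x ∈ 𝔭 • (⊤ : Submodule R0 R1) := by
  haveI hloc : IsLocalization.AtPrime
      (Localization.subalgebra.ofField K 𝔭.primeCompl 𝔭.primeCompl_le_nonZeroDivisors) 𝔭 :=
    Localization.subalgebra.isLocalization_ofField K 𝔭.primeCompl 𝔭.primeCompl_le_nonZeroDivisors
  haveI : IsFractionRing
      (Localization.subalgebra.ofField K 𝔭.primeCompl 𝔭.primeCompl_le_nonZeroDivisors) K :=
    Localization.subalgebra.isFractionRing_ofField K 𝔭.primeCompl 𝔭.primeCompl_le_nonZeroDivisors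
  haveI : IsDiscreteValuationRing
      (Localization.subalgebra.ofField K 𝔭.primeCompl 𝔭.primeCompl_le_nonZeroDivisors) :=
    isDiscreteValuationRing_of_height_le_one 𝔭 h𝔭0 hht _
  exact hU_of_dvr ι N K
    (A := Localization.subalgebra.ofField K 𝔭.primeCompl 𝔭.primeCompl_le_nonZeroDivisors)
    ϖ hL jK hjK hj0 hj1 𝔭 h𝔭0 hϖ x hx

include ι in
/-- **(T3-inst), minimal-prime form** (hypothesis (d) of the thickness-one lemma).  If moreover
`R1 = R0[X]`, every prime of `R1` minimal over `(P'(X))`, `P` the minimal polynomial of `X` over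
`R0`, contains `ϖ`: the different of `R1 / R0` has no horizontal component. -/
theorem pi_mem_of_mem_minimalPrimes (K : Type*) [Field K] [Algebra L K] [Algebra K (FF L N)]
    [IsScalarTower L K (FF L N)] [FiniteDimensional K (FF L N)]
    {R0 : Type*} [CommRing R0] [IsDomain R0] [IsNoetherianRing R0] [IsIntegrallyClosed R0]
    [Algebra R0 K] [IsFractionRing R0 K] [Algebra R0 (FF L N)] [IsScalarTower R0 K (FF L N)]
    {R1 : Type*} [CommRing R1] [IsDomain R1] [IsIntegrallyClosed R1] [Algebra R0 R1]
    [Algebra R1 (FF L N)] [IsFractionRing R1 (FF L N)] [IsScalarTower R0 R1 (FF L N)]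
    (ϖ : R0)
    (hL : ∀ c : L, ∃ (k : ℕ) (r : R0),
      algebraMap R0 K ϖ ^ k * algebraMap L K c = algebraMap R0 K r)
    (jK : R0) (hjK : algebraMap R0 (FF L N) jK = jBC L N)
    (hj0 : IsUnit (algebraMap R0 R1 jK)) (hj1 : IsUnit (algebraMap R0 R1 (jK - 1728)))
    (X : R1) (hX : Algebra.adjoin R0 {X} = ⊤) (hXi : IsIntegral R0 X)
    (𝔮 : Ideal R1)
    (h𝔮 : 𝔮 ∈ (Ideal.span {aeval X (derivative (minpoly R0 X))} : Ideal R1).minimalPrimes) :
    algebraMap R0 R1 ϖ ∈ 𝔮 := by
  classical
  haveI : CharZero L := algebraRat.charZero L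
  haveI : CharZero K := charZero_of_injective_algebraMap (algebraMap L K).injective
  haveI : Algebra.IsSeparable K (FF L N) := Algebra.IsAlgebraic.isSeparable_of_perfectField
  have hinj : Function.Injective (algebraMap R0 R1) := by
    have h1 : Function.Injective (algebraMap R0 (FF L N)) := by
      rw [IsScalarTower.algebraMap_eq R0 K (FF L N)]
      exact (algebraMap K (FF L N)).injective.comp (IsFractionRing.injective R0 K)
    intro a b hab
    apply h1
    rw [IsScalarTower.algebraMap_apply R0 R1 (FF L N), hab,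
      ← IsScalarTower.algebraMap_apply R0 R1 (FF L N)]
  have : FaithfulSMul R0 R1 := (faithfulSMul_iff_algebraMap_injective R0 R1).mpr hinj
  have : Module.IsTorsionFree R0 R1 := inferInstance
  haveI : Algebra.IsIntegral R0 R1 :=
    ⟨fun r => _root_.adjoin_le_integralClosure hXi (by rw [hX]; trivial)⟩
  haveI : IsIntegralClosure R1 R0 (FF L N) := IsIntegralClosure.of_isIntegrallyClosed R1 R0 _
  haveI : Module.Finite R0 R1 := (PowerBasis.ofAdjoinEqTop' hXi hX).finite
  haveI : IsNoetherianRing R1 := IsNoetherianRing.of_finite R0 R1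
  haveI h𝔮p : 𝔮.IsPrime := h𝔮.1.1
  by_contra hϖ
  refine HorizDisc.notMem_of_hU (K := K) (Y := FF L N) X hX hXi 𝔮 ?_
    (h𝔮.1.2 (Ideal.subset_span rfl))
  intro x hx
  by_cases h0 : 𝔮.comap (algebraMap R0 R1) = ⊥
  · have key := UnramBridge.hU_bot (K := K) (Y := FF L N) x (by rw [← h0]; exact hx)
    rw [h0]
    exact key
  · have hq1 : 𝔮.height ≤ 1 :=
      Ideal.height_le_one_of_isPrincipal_of_mem_minimalPrimes _ 𝔮 h𝔮
    haveI : 𝔮.LiesOver (𝔮.comap (algebraMap R0 R1)) := ⟨rfl⟩
    have hgd := Ideal.height_eq_height_add_of_liesOver_of_hasGoingDown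
      (𝔮.comap (algebraMap R0 R1)) 𝔮
    have hht : (𝔮.comap (algebraMap R0 R1)).height ≤ 1 := by
      refine le_trans ?_ hq1
      rw [hgd]
      exact le_self_add
    exact hU_horizontal ι N K ϖ hL jK hjK hj0 hj1 (𝔮.comap (algebraMap R0 R1)) h0 hϖ hht x hx

end Core

end Fermat.Agent.S36.HorizUnram
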