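import Mathlib
import Fermat.Agent.S36.HorizUnram
import Fermat.Agent.S36.AuxRamL

/-!
# S36, (R-ss) / (R-ell), (T3-inst) at an auxiliary level: no horizontal ramification at all

Twin of `Fermat.Agent.S36.HorizUnram` (helper17) at an AUXILIARY level: `r` prime,
`r % 12 = 11`, `r ∣ M` and `r ∣ N`.  Here the lower field is the function field `FF L M` itself
(an `FF L M`-algebra structure on `FF L N` with `j ↦ j`, e.g. the one of the degeneracy map
`α`), and the hypotheses "`j`, `j - 1728` are units" are DELETED: at an auxiliary level every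
place over `j = 0` (resp. `1728`) has ramification index exactly `3` (resp. `2`) over the
`j`-line at BOTH levels (`AuxRamL.ramificationIdx_of_hom_aux`), so `FF L N / FF L M` is
unramified at every place.

* `ramificationIdx_eq_one_aux` : `A` Dedekind with fraction field `FF L M` containing `L[j]`;
  every nonzero prime of the integral closure of `A` in `FF L N` has ramification index `1`
  over `A`.
* `hU_of_dvr_aux`, `hU_horizontal_aux` : the trace form of `R1 / R0` is nondegenerate modulo
  every horizontal prime of height `≤ 1`.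
* `pi_mem_of_mem_minimalPrimes_aux` : hypothesis (d) of the thickness-one lemma at EVERY node
  (elliptic or not) of an auxiliary level.
-/

set_option autoImplicit false
set_option linter.unusedSectionVars false
set_option linter.style.haveILetI false

namespace Fermat.Agent.S36.HorizUnramAux

open Polynomial AlgebraicCurve ModularCurve
open Fermat.Agent.S24 Fermat.Agent.S18

section Core

variable {L : Type} [Field L] [Algebra ℚ L] (ι : L →+* AlgebraicClosure ℚ) (M N : ℕ) [NeZero M]
  [NeZero N]

include ι in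
/-- **Ramification over `A` at an auxiliary level.**  `A` a Dedekind domain with fraction field
`FF L M`, `FF L M ⊆ FF L N` with `j ↦ j`, `A ⊇ L[j]` (ring homomorphism `g`).  Every nonzero
prime of the integral closure of `A` in `FF L N` has ramification index `1` over `A`. -/
theorem ramificationIdx_eq_one_aux {r : ℕ} (hr : r.Prime) (hr12 : r % 12 = 11) (hrM : r ∣ M)
    (hrN : r ∣ N) [Algebra (FF L M) (FF L N)] [IsScalarTower L (FF L M) (FF L N)]
    [FiniteDimensional (FF L M) (FF L N)]
    (hjα : algebraMap (FF L M) (FF L N) (jBC L M) = jBC L N)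
    {A : Type*} [CommRing A] [IsDedekindDomain A] [Algebra A (FF L M)] [IsFractionRing A (FF L M)]
    [Algebra A (FF L N)] [IsScalarTower A (FF L M) (FF L N)] (g : L[X] →+* A)
    (hg : ∀ P : L[X], algebraMap A (FF L N) (g P) = Polynomial.aeval (jBC L N) P)
    (P : Ideal (integralClosure A (FF L N))) [P.IsPrime] (hP0 : P ≠ ⊥) :
    P.ramificationIdx A = 1 := by
  classical
  haveI : CharZero L := algebraRat.charZero L
  haveI : CharZero (FF L M) := charZero_of_injective_algebraMap (algebraMap L (FF L M)).injective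
  haveI : Algebra.IsSeparable (FF L M) (FF L N) :=
    Algebra.IsAlgebraic.isSeparable_of_perfectField
  letI algLA : Algebra L[X] A := g.toAlgebra
  letI algLBA : Algebra L[X] (integralClosure A (FF L N)) :=
    ((algebraMap A (integralClosure A (FF L N))).comp g).toAlgebra
  haveI : IsScalarTower L[X] A (integralClosure A (FF L N)) :=
    IsScalarTower.of_algebraMap_eq (fun _ => rfl)
  letI algLY : Algebra L[X] (FF L N) := FFKit.polyAlgebra (jBC L N)
  haveI : IsScalarTower L L[X] (FF L N) := FFKit.polyAlgebra_isScalarTower (jBC L N)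
  haveI : IsScalarTower L[X] (integralClosure A (FF L N)) (FF L N) :=
    IsScalarTower.of_algebraMap_eq (fun Q => by
      show Polynomial.aeval (jBC L N) Q = algebraMap A (FF L N) (g Q)
      exact (hg Q).symm)
  haveI : IsDedekindDomain (integralClosure A (FF L N)) :=
    IsIntegralClosure.isDedekindDomain A (FF L M) (FF L N) _
  haveI : IsFractionRing (integralClosure A (FF L N)) (FF L N) :=
    IsIntegralClosure.isFractionRing_of_finite_extension A (FF L M) (FF L N) _
  have hinjBAY : Function.Injective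
      (algebraMap (integralClosure A (FF L N)) (FF L N)) := Subtype.val_injective
  -- the `j`-line structure of the lower level
  letI algLK : Algebra L[X] (FF L M) := FFKit.polyAlgebra (jBC L M)
  haveI : IsScalarTower L L[X] (FF L M) := FFKit.polyAlgebra_isScalarTower (jBC L M)
  have hgM : ∀ Q : L[X], algebraMap A (FF L M) (g Q) = Polynomial.aeval (jBC L M) Q := by
    intro Q
    apply (algebraMap (FF L M) (FF L N)).injective
    rw [← IsScalarTower.algebraMap_apply A (FF L M) (FF L N), hg, ← hjα,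
      Polynomial.aeval_algebraMap_apply]
  haveI : IsScalarTower L[X] A (FF L M) :=
    IsScalarTower.of_algebraMap_eq (fun Q => by
      show Polynomial.aeval (jBC L M) Q = algebraMap A (FF L M) (g Q)
      exact (hgM Q).symm)
  -- `FF L N` is algebraic over `L[X]`
  have htr : Transcendental L (jBC L N) := RamJ.transcendental_jBC ι N
  have halg : ∀ z : FF L N, IsAlgebraic L[X] z := by
    intro z
    letI : Algebra (FractionRing L[X]) (FF L N) :=
      FFKit.ratAlgebra (FractionRing L[X]) (jBC L N) htr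
    haveI : IsScalarTower L[X] (FractionRing L[X]) (FF L N) :=
      FFKit.ratAlgebra_isScalarTower (FractionRing L[X]) (jBC L N) htr
    haveI : FiniteDimensional (FractionRing L[X]) (FF L N) :=
      FFKit.finiteDimensional_FF ι N (FractionRing L[X])
    exact (IsFractionRing.isAlgebraic_iff L[X] (FractionRing L[X]) (FF L N)).mpr
      (Algebra.IsAlgebraic.isAlgebraic z)
  have hP' : P.under L[X] ≠ ⊥ := by
    obtain ⟨b, hb, hb0⟩ := Submodule.exists_mem_ne_zero_of_ne_bot hP0
    exact Ideal.comap_ne_bot_of_algebraic_mem hb0 hb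
      ((isAlgebraic_algebraMap_iff hinjBAY).mp (halg _))
  -- the prime below
  have hp0 : P.under A ≠ ⊥ := by
    obtain ⟨b, hb, hb0⟩ := Submodule.exists_mem_ne_zero_of_ne_bot hP0
    exact Ideal.comap_ne_bot_of_integral_mem hb0 hb (Algebra.IsIntegral.isIntegral b)
  haveI hpp : (P.under A).IsPrime := Ideal.comap_isPrime _ _
  have hunder : (P.under A).under L[X] = P.under L[X] := Ideal.under_under (A := L[X]) P
  have hp' : (P.under A).under L[X] ≠ ⊥ := by rw [hunder]; exact hP'
  have hN := AuxRamL.ramificationIdx_of_hom_aux ι hr hr12 hrN (FFKit.polyAlgebra_X (jBC L N))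
    P hP0 hP'
  have hM := AuxRamL.ramificationIdx_of_hom_aux ι hr hr12 hrM (FFKit.polyAlgebra_X (jBC L M))
    (P.under A) hp0 hp'
  rw [hunder] at hM
  have hinjABA : Function.Injective (algebraMap A (integralClosure A (FF L N))) := by
    have h3 : Function.Injective (algebraMap A (FF L N)) := by
      rw [IsScalarTower.algebraMap_eq A (FF L M) (FF L N)]
      exact (algebraMap (FF L M) (FF L N)).injective.comp (IsFractionRing.injective A (FF L M))
    intro a b hab
    apply h3
    rw [IsScalarTower.algebraMap_apply A (integralClosure A (FF L N)) (FF L N), hab,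
      ← IsScalarTower.algebraMap_apply A (integralClosure A (FF L N)) (FF L N)]
  have : FaithfulSMul A (integralClosure A (FF L N)) :=
    (faithfulSMul_iff_algebraMap_injective A _).mpr hinjABA
  have : Module.IsTorsionFree A (integralClosure A (FF L N)) := inferInstance
  by_cases hX0 : (X : L[X]) ∈ P.under L[X]
  · exact AuxRamL.ramificationIdx_eq_one_of_eq (R := L[X]) P (by norm_num) (hN.1 hX0) (hM.1 hX0)
  · by_cases hX1 : (X - C 1728 : L[X]) ∈ P.under L[X]
    · exact AuxRamL.ramificationIdx_eq_one_of_eq (R := L[X]) P (by norm_num) (hN.2.1 hX1)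
        (hM.2.1 hX1)
    · exact AuxRamL.ramificationIdx_eq_one_of_eq (R := L[X]) P one_ne_zero (hN.2.2 hX0 hX1)
        (hM.2.2 hX0 hX1)

include ι in
/-- **(T3-inst) at an auxiliary level, core.**  `A` a discrete valuation ring, the localisation
of `R0` at the horizontal prime `𝔭`; then the trace form of `R1 / R0` is nondegenerate modulo
`𝔭`. -/
theorem hU_of_dvr_aux {r : ℕ} (hr : r.Prime) (hr12 : r % 12 = 11) (hrM : r ∣ M)
    (hrN : r ∣ N) [Algebra (FF L M) (FF L N)] [IsScalarTower L (FF L M) (FF L N)]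
    [FiniteDimensional (FF L M) (FF L N)]
    (hjα : algebraMap (FF L M) (FF L N) (jBC L M) = jBC L N)
    {R0 : Type*} [CommRing R0] [IsDomain R0] [Algebra R0 (FF L M)] [IsFractionRing R0 (FF L M)]
    [Algebra R0 (FF L N)] [IsScalarTower R0 (FF L M) (FF L N)]
    {R1 : Type*} [CommRing R1] [Algebra R0 R1] [Algebra R1 (FF L N)]
    [IsScalarTower R0 R1 (FF L N)] [IsIntegralClosure R1 R0 (FF L N)]
    {A : Type*} [CommRing A] [IsDomain A] [IsDiscreteValuationRing A] [Algebra R0 A]
    [Algebra A (FF L M)] [IsScalarTower R0 A (FF L M)] [IsFractionRing A (FF L M)]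
    [Algebra A (FF L N)] [IsScalarTower A (FF L M) (FF L N)]
    (ϖ : R0)
    (hL : ∀ c : L, ∃ (k : ℕ) (r : R0),
      algebraMap R0 (FF L M) ϖ ^ k * algebraMap L (FF L M) c = algebraMap R0 (FF L M) r)
    (jK : R0) (hjK : algebraMap R0 (FF L N) jK = jBC L N)
    (𝔭 : Ideal R0) [𝔭.IsPrime] [IsLocalization.AtPrime A 𝔭] (h𝔭0 : 𝔭 ≠ ⊥) (hϖ : ϖ ∉ 𝔭) (x : R1)
    (hx : ∀ y : R1, ∃ a ∈ 𝔭,
      Algebra.trace (FF L M) (FF L N) (algebraMap R1 (FF L N) (x * y)) =
        algebraMap R0 (FF L M) a) :
    ∃ s : R0, s ∉ 𝔭 ∧ s • x ∈ 𝔭 • (⊤ : Submodule R0 R1) := by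
  classical
  haveI : CharZero L := algebraRat.charZero L
  haveI : CharZero (FF L M) := charZero_of_injective_algebraMap (algebraMap L (FF L M)).injective
  haveI : Algebra.IsSeparable (FF L M) (FF L N) :=
    Algebra.IsAlgebraic.isSeparable_of_perfectField
  have hinjK : Function.Injective (algebraMap R0 (FF L M)) := IsFractionRing.injective R0 (FF L M)
  have hinjAK : Function.Injective (algebraMap A (FF L M)) := IsFractionRing.injective A (FF L M)
  have hinjA : Function.Injective (algebraMap R0 A) :=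
    IsLocalization.injective A 𝔭.primeCompl_le_nonZeroDivisors
  haveI : IsScalarTower R0 A (FF L N) := IsScalarTower.of_algebraMap_eq (fun r => by
    rw [IsScalarTower.algebraMap_apply R0 (FF L M) (FF L N),
      IsScalarTower.algebraMap_apply R0 A (FF L M),
      ← IsScalarTower.algebraMap_apply A (FF L M) (FF L N)])
  let p : Ideal A := IsLocalRing.maximalIdeal A
  have hp𝔭 : p.comap (algebraMap R0 A) = 𝔭 := IsLocalization.AtPrime.under_maximalIdeal A 𝔭
  have hp0 : p ≠ ⊥ := by
    intro h
    apply h𝔭0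
    rw [← hp𝔭, h]
    exact Ideal.comap_bot_of_injective _ hinjA
  have hA : ∀ a : A, ∃ t : R0, t ∉ 𝔭 ∧ ∃ r : R0, algebraMap R0 A r = algebraMap R0 A t * a := by
    intro a
    obtain ⟨⟨r, t⟩, h⟩ := IsLocalization.surj 𝔭.primeCompl a
    exact ⟨t, t.2, r, by rw [← h]; ring⟩
  have hϖk : ∀ k : ℕ, ϖ ^ k ∉ 𝔭 := fun k h => hϖ (Ideal.IsPrime.mem_of_pow_mem inferInstance k h)
  have hchar : ∀ n : ℕ, n ≠ 0 → (n : A) ∉ p := by
    intro n hn hmem
    have h1 : (n : R0) ∈ 𝔭 := by
      rw [← hp𝔭, Ideal.mem_comap, map_natCast]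
      exact hmem
    obtain ⟨k, r, hr⟩ := hL ((n : L)⁻¹)
    have hnK : (n : FF L M) ≠ 0 := Nat.cast_ne_zero.mpr hn
    have h2 : ϖ ^ k = (n : R0) * r := by
      apply hinjK
      rw [map_pow, map_mul, map_natCast, ← hr, map_inv₀, map_natCast]
      field_simp
    exact hϖk k (by rw [h2]; exact Ideal.mul_mem_right _ _ h1)
  -- `L ⊆ A`
  have hLA : ∀ c : L, algebraMap L (FF L M) c ∈ (algebraMap A (FF L M)).range := by
    intro c
    obtain ⟨k, r, hr⟩ := hL c
    refine ⟨IsLocalization.mk' A r (⟨ϖ ^ k, hϖk k⟩ : 𝔭.primeCompl), ?_⟩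
    have h1 := IsLocalization.mk'_spec A r (⟨ϖ ^ k, hϖk k⟩ : 𝔭.primeCompl)
    have h2 := congrArg (algebraMap A (FF L M)) h1
    rw [map_mul, ← IsScalarTower.algebraMap_apply R0 A (FF L M),
      ← IsScalarTower.algebraMap_apply R0 A (FF L M), ← hr] at h2
    have hne : algebraMap R0 (FF L M) (ϖ ^ k) ≠ 0 := by
      intro h0
      exact hϖk k (by rw [hinjK (h0.trans (map_zero _).symm)]; exact zero_mem _)
    rw [map_pow] at hne
    have h3 : (algebraMap R0 (FF L M) ϖ ^ k) * algebraMap A (FF L M)
        (IsLocalization.mk' A r (⟨ϖ ^ k, hϖk k⟩ : 𝔭.primeCompl)) =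
        algebraMap R0 (FF L M) ϖ ^ k * algebraMap L (FF L M) c := by
      rw [← h2, map_pow]; ring
    exact mul_left_cancel₀ hne h3
  let e : A ≃+* (algebraMap A (FF L M)).range :=
    RingEquiv.ofBijective (algebraMap A (FF L M)).rangeRestrict
      ⟨fun a b h => hinjAK (congrArg Subtype.val h),
        (algebraMap A (FF L M)).rangeRestrict_surjective⟩
  let φ : L →+* A :=
    e.symm.toRingHom.comp ((algebraMap L (FF L M)).codRestrict (algebraMap A (FF L M)).range hLA)
  have hφ : ∀ c : L, algebraMap A (FF L M) (φ c) = algebraMap L (FF L M) c := by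
    intro c
    have h1 : e (φ c) = (algebraMap L (FF L M)).codRestrict (algebraMap A (FF L M)).range hLA c :=
      e.apply_symm_apply _
    exact congrArg Subtype.val h1
  let g : L[X] →+* A := Polynomial.eval₂RingHom φ (algebraMap R0 A jK)
  have hg : ∀ P : L[X], algebraMap A (FF L N) (g P) = Polynomial.aeval (jBC L N) P := by
    intro P
    show algebraMap A (FF L N) (Polynomial.eval₂ φ (algebraMap R0 A jK) P) = _
    rw [Polynomial.hom_eval₂, ← IsScalarTower.algebraMap_apply R0 A (FF L N), hjK,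
      Polynomial.aeval_def]
    congr 1
    ext c
    rw [RingHom.comp_apply, IsScalarTower.algebraMap_apply A (FF L M) (FF L N), hφ,
      ← IsScalarTower.algebraMap_apply L (FF L M) (FF L N)]
  have hinjABA : Function.Injective (algebraMap A (integralClosure A (FF L N))) := by
    have h3 : Function.Injective (algebraMap A (FF L N)) := by
      rw [IsScalarTower.algebraMap_eq A (FF L M) (FF L N)]
      exact (algebraMap (FF L M) (FF L N)).injective.comp hinjAK
    intro a b hab
    apply h3
    rw [IsScalarTower.algebraMap_apply A (integralClosure A (FF L N)) (FF L N), hab,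
      ← IsScalarTower.algebraMap_apply A (integralClosure A (FF L N)) (FF L N)]
  have hunr : ∀ (P : Ideal (integralClosure A (FF L N))) [P.IsPrime],
      p.map (algebraMap A (integralClosure A (FF L N))) ≤ P → P.ramificationIdx A = 1 := by
    intro P hP hle
    have hP0 : P ≠ ⊥ := by
      obtain ⟨a, ha, ha0⟩ := Submodule.exists_mem_ne_zero_of_ne_bot hp0
      intro hbot
      have h1 : algebraMap A (integralClosure A (FF L N)) a ∈ P := hle (Ideal.mem_map_of_mem _ ha)
      rw [hbot, Ideal.mem_bot] at h1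
      exact ha0 (hinjABA (h1.trans (map_zero _).symm))
    exact ramificationIdx_eq_one_aux ι M N hr hr12 hrM hrN hjα g hg P hP0
  haveI : IsDedekindDomain (integralClosure A (FF L N)) :=
    IsIntegralClosure.isDedekindDomain A (FF L M) (FF L N) _
  exact UnramBridge.hU_of_ramificationIdx (K := FF L M) (Y := FF L N) (A := A)
    (BA := integralClosure A (FF L N)) 𝔭 p hp0 hp𝔭 hA hchar hunr x hx

include ι in
/-- **(T3-inst) at an auxiliary level, trace-form currency.**  `R0` a noetherian integrally
closed domain with fraction field `FF L M`, `R1` its integral closure in `FF L N`,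
`L ⊆ R0[1/ϖ]`.  At a nonzero prime `𝔭` of `R0` of height `≤ 1` with `ϖ ∉ 𝔭` the trace form of
`R1 / R0` is nondegenerate modulo `𝔭`. -/
theorem hU_horizontal_aux {r : ℕ} (hr : r.Prime) (hr12 : r % 12 = 11) (hrM : r ∣ M)
    (hrN : r ∣ N) [Algebra (FF L M) (FF L N)] [IsScalarTower L (FF L M) (FF L N)]
    [FiniteDimensional (FF L M) (FF L N)]
    (hjα : algebraMap (FF L M) (FF L N) (jBC L M) = jBC L N)
    {R0 : Type*} [CommRing R0] [IsDomain R0] [IsNoetherianRing R0] [IsIntegrallyClosed R0]
    [Algebra R0 (FF L M)] [IsFractionRing R0 (FF L M)] [Algebra R0 (FF L N)]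
    [IsScalarTower R0 (FF L M) (FF L N)]
    {R1 : Type*} [CommRing R1] [Algebra R0 R1] [Algebra R1 (FF L N)]
    [IsScalarTower R0 R1 (FF L N)] [IsIntegralClosure R1 R0 (FF L N)]
    (ϖ : R0)
    (hL : ∀ c : L, ∃ (k : ℕ) (r : R0),
      algebraMap R0 (FF L M) ϖ ^ k * algebraMap L (FF L M) c = algebraMap R0 (FF L M) r)
    (jK : R0) (hjK : algebraMap R0 (FF L N) jK = jBC L N)
    (𝔭 : Ideal R0) [𝔭.IsPrime] (h𝔭0 : 𝔭 ≠ ⊥) (hϖ : ϖ ∉ 𝔭) (hht : 𝔭.height ≤ 1) (x : R1)
    (hx : ∀ y : R1, ∃ a ∈ 𝔭,
      Algebra.trace (FF L M) (FF L N) (algebraMap R1 (FF L N) (x * y)) =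
        algebraMap R0 (FF L M) a) :
    ∃ s : R0, s ∉ 𝔭 ∧ s • x ∈ 𝔭 • (⊤ : Submodule R0 R1) := by
  haveI hloc : IsLocalization.AtPrime
      (Localization.subalgebra.ofField (FF L M) 𝔭.primeCompl 𝔭.primeCompl_le_nonZeroDivisors) 𝔭 :=
    Localization.subalgebra.isLocalization_ofField (FF L M) 𝔭.primeCompl
      𝔭.primeCompl_le_nonZeroDivisors
  haveI : IsFractionRing
      (Localization.subalgebra.ofField (FF L M) 𝔭.primeCompl 𝔭.primeCompl_le_nonZeroDivisors)
      (FF L M) :=
    Localization.subalgebra.isFractionRing_ofField (FF L M) 𝔭.primeCompl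
      𝔭.primeCompl_le_nonZeroDivisors
  haveI : IsDiscreteValuationRing
      (Localization.subalgebra.ofField (FF L M) 𝔭.primeCompl 𝔭.primeCompl_le_nonZeroDivisors) :=
    HorizUnram.isDiscreteValuationRing_of_height_le_one 𝔭 h𝔭0 hht _
  exact hU_of_dvr_aux ι M N hr hr12 hrM hrN hjα
    (A := Localization.subalgebra.ofField (FF L M) 𝔭.primeCompl 𝔭.primeCompl_le_nonZeroDivisors)
    ϖ hL jK hjK 𝔭 h𝔭0 hϖ x hx

include ι in
/-- **(T3-inst) at an auxiliary level, minimal-prime form** (hypothesis (d) of the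
thickness-one lemma, at EVERY node, elliptic or not).  If moreover `R1 = R0[X]`, every prime of
`R1` minimal over `(P'(X))`, `P` the minimal polynomial of `X` over `R0`, contains `ϖ`: the
different of `R1 / R0` has no horizontal component. -/
theorem pi_mem_of_mem_minimalPrimes_aux {r : ℕ} (hr : r.Prime) (hr12 : r % 12 = 11)
    (hrM : r ∣ M) (hrN : r ∣ N) [Algebra (FF L M) (FF L N)] [IsScalarTower L (FF L M) (FF L N)]
    [FiniteDimensional (FF L M) (FF L N)]
    (hjα : algebraMap (FF L M) (FF L N) (jBC L M) = jBC L N)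
    {R0 : Type*} [CommRing R0] [IsDomain R0] [IsNoetherianRing R0] [IsIntegrallyClosed R0]
    [Algebra R0 (FF L M)] [IsFractionRing R0 (FF L M)] [Algebra R0 (FF L N)]
    [IsScalarTower R0 (FF L M) (FF L N)]
    {R1 : Type*} [CommRing R1] [IsDomain R1] [IsIntegrallyClosed R1] [Algebra R0 R1]
    [Algebra R1 (FF L N)] [IsFractionRing R1 (FF L N)] [IsScalarTower R0 R1 (FF L N)]
    (ϖ : R0)
    (hL : ∀ c : L, ∃ (k : ℕ) (r : R0),
      algebraMap R0 (FF L M) ϖ ^ k * algebraMap L (FF L M) c = algebraMap R0 (FF L M) r)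
    (jK : R0) (hjK : algebraMap R0 (FF L N) jK = jBC L N)
    (X : R1) (hX : Algebra.adjoin R0 {X} = ⊤) (hXi : IsIntegral R0 X)
    (𝔮 : Ideal R1)
    (h𝔮 : 𝔮 ∈ (Ideal.span {aeval X (derivative (minpoly R0 X))} : Ideal R1).minimalPrimes) :
    algebraMap R0 R1 ϖ ∈ 𝔮 := by
  classical
  haveI : CharZero L := algebraRat.charZero L
  haveI : CharZero (FF L M) := charZero_of_injective_algebraMap (algebraMap L (FF L M)).injective
  haveI : Algebra.IsSeparable (FF L M) (FF L N) :=
    Algebra.IsAlgebraic.isSeparable_of_perfectField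
  have hinj : Function.Injective (algebraMap R0 R1) := by
    have h1 : Function.Injective (algebraMap R0 (FF L N)) := by
      rw [IsScalarTower.algebraMap_eq R0 (FF L M) (FF L N)]
      exact (algebraMap (FF L M) (FF L N)).injective.comp (IsFractionRing.injective R0 (FF L M))
    intro a b hab
    apply h1
    rw [IsScalarTower.algebraMap_apply R0 R1 (FF L N), hab,
      ← IsScalarTower.algebraMap_apply R0 R1 (FF L N)]
  have : FaithfulSMul R0 R1 := (faithfulSMul_iff_algebraMap_injective R0 R1).mpr hinj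
  have : Module.IsTorsionFree R0 R1 := inferInstance
  haveI : Algebra.IsIntegral R0 R1 :=
    ⟨fun r => _root_.adjoin_le_integralClosure hXi (by rw [hX]; trivial)⟩
  haveI : IsIntegralClosure R1 R0 (FF L N) := IsIntegralClosure.of_isIntegrallyClosed R1 R0 _
  haveI : Module.Finite R0 R1 := (PowerBasis.ofAdjoinEqTop' hXi hX).finite
  haveI : IsNoetherianRing R1 := IsNoetherianRing.of_finite R0 R1
  haveI h𝔮p : 𝔮.IsPrime := h𝔮.1.1
  by_contra hϖ
  refine HorizDisc.notMem_of_hU (K := FF L M) (Y := FF L N) X hX hXi 𝔮 ?_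
    (h𝔮.1.2 (Ideal.subset_span rfl))
  intro x hx
  by_cases h0 : 𝔮.comap (algebraMap R0 R1) = ⊥
  · have key := UnramBridge.hU_bot (K := FF L M) (Y := FF L N) x (by rw [← h0]; exact hx)
    rw [h0]
    exact key
  · have hq1 : 𝔮.height ≤ 1 :=
      Ideal.height_le_one_of_isPrincipal_of_mem_minimalPrimes _ 𝔮 h𝔮
    haveI : 𝔮.LiesOver (𝔮.comap (algebraMap R0 R1)) := ⟨rfl⟩
    have hgd := Ideal.height_eq_height_add_of_liesOver_of_hasGoingDown
      (𝔮.comap (algebraMap R0 R1)) 𝔮
    have hht : (𝔮.comap (algebraMap R0 R1)).height ≤ 1 := by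
      refine le_trans ?_ hq1
      rw [hgd]
      exact le_self_add
    exact hU_horizontal_aux ι M N hr hr12 hrM hrN hjα ϖ hL jK hjK
      (𝔮.comap (algebraMap R0 R1)) h0 hϖ hht x hx

end Core

end Fermat.Agent.S36.HorizUnramAux
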