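import Mathlib
import Fermat.Agent.S36.HorizUnram
import Fermat.Agent.S36.AuxRamL

/-!
# S36, (R-ss)/(R-ord), (T3-inst) at an auxiliary level, twisted by an automorphism

`Fermat.Agent.S36.HorizUnramAux` (helper12) treats the function field `FF L M` embedded in
`FF L N` by a field homomorphism over `L` with `j ↦ j` (the degeneracy map `α`).  Here the
embedding sends `j ↦ w j`, `w` an ARBITRARY automorphism of `FF L N` over `L`: for `w = 1` this is
the `α`-structure again, for `w` the Atkin–Lehner involution it is the `β`-structure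
(`β j = j (q z) = w j`).  Auxiliary level: `r` prime, `r % 12 = 11`, `r ∣ M`, `r ∣ N`; then
`FF L N / FF L M` is unramified at every place not over `j = ∞`, for BOTH structures.

* `ramificationIdx_of_hom_twist` : (E2) (`AuxRamL.ramificationIdx_of_hom_aux`) for a Dedekind
  chart whose `L[X]`-structure is `X ↦ w j`.
* `ramificationIdx_eq_one_tw` : a nonzero prime of the integral closure of a Dedekind domain
  `A ⊇ L[j]` with fraction field `FF L M` has ramification index `1` over `A`.
* `exists_polyHom`, `natCast_notMem` : `L[j]` inside a localisation at a horizontal prime.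
* `hU_of_dvr_tw`, `hU_horizontal_tw` : the trace form of `R1 / R0` is nondegenerate modulo every
  horizontal prime of height `≤ 1` (the currency `hU` of `Fermat.Agent.S18.UnramBridge`).
* `pi_mem_of_mem_minimalPrimes_tw` : if `R1 = R0[X]`, every prime of `R1` minimal over
  `(P'(X))` (`P` the minimal polynomial of `X` over `R0`) contains `ϖ`.
* `notMem_tw`, `notMem_of_pi_notMem_tw` : the same read backwards: `P'(X)` lies in no prime `𝔮`
  of `R1` with `ϖ ∉ 𝔮` (no hypothesis on the height of `𝔮`).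
-/

set_option autoImplicit false
set_option linter.unusedSectionVars false
set_option linter.style.haveILetI false

namespace Fermat.Agent.S36.HorizUnramTw

open Polynomial AlgebraicCurve ModularCurve
open Fermat.Agent.S24 Fermat.Agent.S18

section Core

variable {L : Type} [Field L] [Algebra ℚ L] (ι : L →+* AlgebraicClosure ℚ)
  {M N r : ℕ} [NeZero M] [NeZero N]

include ι in
/-- **(E2) twisted by an automorphism.**  `Fermat.Agent.S36.AuxRamL.ramificationIdx_of_hom_aux`
for a Dedekind chart `BF` of `FF L N` whose `L[X]`-structure is `X ↦ w j`, `w` an automorphism of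
`FF L N` over `L` (in the application: the Atkin–Lehner involution, `w j = j (q z)`).  The chart
is given by an injective ring homomorphism `f : BF → FF L N` onto a ring with fraction field
`FF L N`; no algebra instance on `FF L N` is involved. -/
theorem ramificationIdx_of_hom_twist (hr : r.Prime) (hr12 : r % 12 = 11) (hrN : r ∣ N)
    (w : FF L N ≃ₐ[L] FF L N)
    {BF : Type*} [CommRing BF] [IsDedekindDomain BF] [Algebra L[X] BF]
    (f : BF →+* FF L N) (hf : Function.Injective f)
    (hfrac : ∀ y : FF L N, ∃ a b : BF, b ≠ 0 ∧ y * f b = f a)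
    (hfX : ∀ Q : L[X], f (algebraMap L[X] BF Q) = Polynomial.aeval (w (jBC L N)) Q)
    (P : Ideal BF) [P.IsPrime] (hP : P ≠ ⊥) (hP' : P.under L[X] ≠ ⊥) :
    (X ∈ P.under L[X] → P.ramificationIdx L[X] = 3) ∧
    (X - C 1728 ∈ P.under L[X] → P.ramificationIdx L[X] = 2) ∧
    (X ∉ P.under L[X] → X - C 1728 ∉ P.under L[X] → P.ramificationIdx L[X] = 1) := by
  letI algY : Algebra L[X] (FF L N) := FFKit.polyAlgebra (jBC L N)
  haveI : IsScalarTower L L[X] (FF L N) := FFKit.polyAlgebra_isScalarTower (jBC L N)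
  letI algBF : Algebra BF (FF L N) :=
    ((w.symm : FF L N ≃ₐ[L] FF L N).toRingEquiv.toRingHom.comp f).toAlgebra
  have halgBF : ∀ b : BF, algebraMap BF (FF L N) b = w.symm (f b) := fun _ => rfl
  haveI : IsScalarTower L[X] BF (FF L N) := IsScalarTower.of_algebraMap_eq (fun Q => by
    rw [halgBF, hfX]
    show Polynomial.aeval (jBC L N) Q = w.symm (Polynomial.aeval (w (jBC L N)) Q)
    have h := Polynomial.aeval_algHom_apply (w.symm : FF L N →ₐ[L] FF L N) (w (jBC L N)) Q
    rw [AlgEquiv.coe_toAlgHom, AlgEquiv.symm_apply_apply] at h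
    exact h)
  haveI : FaithfulSMul BF (FF L N) :=
    (faithfulSMul_iff_algebraMap_injective BF (FF L N)).mpr (fun a b hab => by
      rw [halgBF, halgBF] at hab
      exact hf (w.symm.injective hab))
  haveI : IsFractionRing BF (FF L N) := IsFractionRing.of_field BF (FF L N) (fun z => by
    obtain ⟨a, b, hb, h⟩ := hfrac (w z)
    refine ⟨a, b, ?_⟩
    have hb' : algebraMap BF (FF L N) b ≠ 0 := by
      rw [halgBF]
      intro h0
      apply hb
      apply hf
      rw [map_zero]
      have := congrArg w h0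
      rwa [AlgEquiv.apply_symm_apply, map_zero] at this
    rw [eq_div_iff hb', halgBF, halgBF, ← h, map_mul, AlgEquiv.symm_apply_apply])
  exact AuxRamL.ramificationIdx_of_hom_aux ι hr hr12 hrN (FFKit.polyAlgebra_X (jBC L N)) P hP hP'

set_option maxHeartbeats 1000000 in
include ι in
/-- **Ramification over `A` at an auxiliary level.**  `A` a Dedekind domain with fraction field
`FF L M`, containing `L[j]` (ring homomorphism `g`), `FF L M ⊆ FF L N` with `j ↦ w j`, `w` an
automorphism of `FF L N` over `L`, and an auxiliary prime `r ≡ 11 mod 12` dividing both levels.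
Every nonzero prime of the integral closure of `A` in `FF L N` has ramification index `1` over
`A`. -/
theorem ramificationIdx_eq_one_tw (hr : r.Prime) (hr12 : r % 12 = 11) (hrM : r ∣ M)
    (hrN : r ∣ N)
    [Algebra (FF L M) (FF L N)] [IsScalarTower L (FF L M) (FF L N)]
    [FiniteDimensional (FF L M) (FF L N)]
    (w : FF L N ≃ₐ[L] FF L N)
    (hj : algebraMap (FF L M) (FF L N) (jBC L M) = w (jBC L N))
    {A : Type*} [CommRing A] [IsDedekindDomain A] [Algebra A (FF L M)]
    [IsFractionRing A (FF L M)] [Algebra A (FF L N)] [IsScalarTower A (FF L M) (FF L N)]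
    (g : L[X] →+* A)
    (hg : ∀ P : L[X], algebraMap A (FF L M) (g P) = Polynomial.aeval (jBC L M) P)
    (P : Ideal (integralClosure A (FF L N))) [P.IsPrime] (hP0 : P ≠ ⊥) :
    P.ramificationIdx A = 1 := by
  classical
  haveI : CharZero L := algebraRat.charZero L
  haveI : CharZero (FF L M) :=
    charZero_of_injective_algebraMap (algebraMap L (FF L M)).injective
  haveI : Algebra.IsSeparable (FF L M) (FF L N) :=
    Algebra.IsAlgebraic.isSeparable_of_perfectField
  letI algLA : Algebra L[X] A := g.toAlgebra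
  letI algLBA : Algebra L[X] (integralClosure A (FF L N)) :=
    ((algebraMap A (integralClosure A (FF L N))).comp g).toAlgebra
  haveI : IsScalarTower L[X] A (integralClosure A (FF L N)) :=
    IsScalarTower.of_algebraMap_eq (fun _ => rfl)
  letI algLK : Algebra L[X] (FF L M) := FFKit.polyAlgebra (jBC L M)
  haveI : IsScalarTower L L[X] (FF L M) := FFKit.polyAlgebra_isScalarTower (jBC L M)
  -- `FF L M` is algebraic over `L[X]`
  have htr : Transcendental L (jBC L M) := RamJ.transcendental_jBC ι M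
  have halg : ∀ z : FF L M, IsAlgebraic L[X] z := by
    intro z
    letI : Algebra (FractionRing L[X]) (FF L M) :=
      FFKit.ratAlgebra (FractionRing L[X]) (jBC L M) htr
    haveI : IsScalarTower L[X] (FractionRing L[X]) (FF L M) :=
      FFKit.ratAlgebra_isScalarTower (FractionRing L[X]) (jBC L M) htr
    haveI : FiniteDimensional (FractionRing L[X]) (FF L M) :=
      FFKit.finiteDimensional_FF ι M (FractionRing L[X])
    exact (IsFractionRing.isAlgebraic_iff L[X] (FractionRing L[X]) (FF L M)).mpr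
      (Algebra.IsAlgebraic.isAlgebraic z)
  haveI : IsScalarTower L[X] A (FF L M) :=
    IsScalarTower.of_algebraMap_eq (fun Q => by
      show Polynomial.aeval (jBC L M) Q = algebraMap A (FF L M) (g Q)
      exact (hg Q).symm)
  have hgN : ∀ Q : L[X], algebraMap A (FF L N) (g Q) = Polynomial.aeval (w (jBC L N)) Q := by
    intro Q
    rw [IsScalarTower.algebraMap_apply A (FF L M) (FF L N), hg, ← hj]
    exact (Polynomial.aeval_algebraMap_apply (FF L N) (jBC L M) Q).symm
  haveI : IsDedekindDomain (integralClosure A (FF L N)) :=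
    IsIntegralClosure.isDedekindDomain A (FF L M) (FF L N) _
  haveI : IsFractionRing (integralClosure A (FF L N)) (FF L N) :=
    IsIntegralClosure.isFractionRing_of_finite_extension A (FF L M) (FF L N) _
  have hinjBAY : Function.Injective
      (algebraMap (integralClosure A (FF L N)) (FF L N)) := Subtype.val_injective
  have hinjAK : Function.Injective (algebraMap A (FF L M)) := IsFractionRing.injective A (FF L M)
  have hinjABA : Function.Injective (algebraMap A (integralClosure A (FF L N))) := by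
    have h3 : Function.Injective (algebraMap A (FF L N)) := by
      rw [IsScalarTower.algebraMap_eq A (FF L M) (FF L N)]
      exact (algebraMap (FF L M) (FF L N)).injective.comp hinjAK
    intro a b hab
    apply h3
    rw [IsScalarTower.algebraMap_apply A (integralClosure A (FF L N)) (FF L N), hab,
      ← IsScalarTower.algebraMap_apply A (integralClosure A (FF L N)) (FF L N)]
  have : FaithfulSMul A (integralClosure A (FF L N)) :=
    (faithfulSMul_iff_algebraMap_injective A _).mpr hinjABA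
  have : Module.IsTorsionFree A (integralClosure A (FF L N)) := inferInstance
  -- the prime below
  haveI hpp : (P.under A).IsPrime := Ideal.comap_isPrime _ _
  have hp0 : P.under A ≠ ⊥ := by
    obtain ⟨b, hb, hb0⟩ := Submodule.exists_mem_ne_zero_of_ne_bot hP0
    exact Ideal.comap_ne_bot_of_integral_mem hb0 hb (Algebra.IsIntegral.isIntegral b)
  have hpu : (P.under A).under L[X] = P.under L[X] := Ideal.under_under P
  have hp' : (P.under A).under L[X] ≠ ⊥ := by
    obtain ⟨a, ha, ha0⟩ := Submodule.exists_mem_ne_zero_of_ne_bot hp0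
    exact Ideal.comap_ne_bot_of_algebraic_mem ha0 ha
      ((isAlgebraic_algebraMap_iff hinjAK).mp (halg _))
  have hP' : P.under L[X] ≠ ⊥ := by rw [← hpu]; exact hp'
  have hfrac : ∀ y : FF L N, ∃ a b : integralClosure A (FF L N), b ≠ 0 ∧
      y * algebraMap (integralClosure A (FF L N)) (FF L N) b =
        algebraMap (integralClosure A (FF L N)) (FF L N) a := by
    intro y
    obtain ⟨a, b, hb, rfl⟩ := IsFractionRing.div_surjective (A := integralClosure A (FF L N)) y
    have hb0 : b ≠ 0 := nonZeroDivisors.ne_zero hb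
    have hb1 : algebraMap (integralClosure A (FF L N)) (FF L N) b ≠ 0 := fun h =>
      hb0 (hinjBAY (h.trans (map_zero _).symm))
    exact ⟨a, b, hb0, div_mul_cancel₀ _ hb1⟩
  have hfX : ∀ Q : L[X], algebraMap (integralClosure A (FF L N)) (FF L N)
      (algebraMap L[X] (integralClosure A (FF L N)) Q) = Polynomial.aeval (w (jBC L N)) Q := by
    intro Q
    rw [← hgN Q]
    rfl
  have hN := ramificationIdx_of_hom_twist ι hr hr12 hrN w
    (algebraMap (integralClosure A (FF L N)) (FF L N)) hinjBAY hfrac hfX P hP0 hP'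
  have hM := AuxRamL.ramificationIdx_of_hom_aux ι hr hr12 hrM
    (FFKit.polyAlgebra_X (jBC L M)) (P.under A) hp0 hp'
  rw [hpu] at hM
  by_cases h0 : (X : L[X]) ∈ P.under L[X]
  · exact AuxRamL.ramificationIdx_eq_one_of_eq (R := L[X]) P (by norm_num : (3 : ℕ) ≠ 0)
      (hN.1 h0) (hM.1 h0)
  by_cases h1 : (X - C 1728 : L[X]) ∈ P.under L[X]
  · exact AuxRamL.ramificationIdx_eq_one_of_eq (R := L[X]) P (by norm_num : (2 : ℕ) ≠ 0)
      (hN.2.1 h1) (hM.2.1 h1)
  · exact AuxRamL.ramificationIdx_eq_one_of_eq (R := L[X]) P one_ne_zero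
      (hN.2.2 h0 h1) (hM.2.2 h0 h1)

/-! ### The coefficient field inside a localisation -/

/-- `L ⊆ R0[1/ϖ]` and `ϖ ∉ 𝔭`: the localisation `A` of `R0` at `𝔭` contains `L[j]`. -/
theorem exists_polyHom (K : Type*) [Field K] [Algebra L K]
    {R0 : Type*} [CommRing R0] [IsDomain R0] [Algebra R0 K] [IsFractionRing R0 K]
    {A : Type*} [CommRing A] [IsDomain A] [Algebra R0 A] [Algebra A K] [IsScalarTower R0 A K]
    [IsFractionRing A K]
    (ϖ : R0)
    (hL : ∀ c : L, ∃ (k : ℕ) (t : R0),
      algebraMap R0 K ϖ ^ k * algebraMap L K c = algebraMap R0 K t)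
    (jK : R0) (𝔭 : Ideal R0) [𝔭.IsPrime] [IsLocalization.AtPrime A 𝔭] (hϖ : ϖ ∉ 𝔭) :
    ∃ g : L[X] →+* A,
      ∀ P : L[X], algebraMap A K (g P) = Polynomial.aeval (algebraMap R0 K jK) P := by
  classical
  have hinjK : Function.Injective (algebraMap R0 K) := IsFractionRing.injective R0 K
  have hinjAK : Function.Injective (algebraMap A K) := IsFractionRing.injective A K
  have hϖk : ∀ k : ℕ, ϖ ^ k ∉ 𝔭 := fun k h => hϖ (Ideal.IsPrime.mem_of_pow_mem inferInstance k h)
  have hLA : ∀ c : L, algebraMap L K c ∈ (algebraMap A K).range := by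
    intro c
    obtain ⟨k, t, ht⟩ := hL c
    refine ⟨IsLocalization.mk' A t (⟨ϖ ^ k, hϖk k⟩ : 𝔭.primeCompl), ?_⟩
    have h1 := IsLocalization.mk'_spec A t (⟨ϖ ^ k, hϖk k⟩ : 𝔭.primeCompl)
    have h2 := congrArg (algebraMap A K) h1
    rw [map_mul, ← IsScalarTower.algebraMap_apply R0 A K,
      ← IsScalarTower.algebraMap_apply R0 A K, ← ht] at h2
    have hne : algebraMap R0 K (ϖ ^ k) ≠ 0 := by
      intro h0
      exact hϖk k (by rw [hinjK (h0.trans (map_zero _).symm)]; exact zero_mem _)
    rw [map_pow] at hne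
    have h3 : (algebraMap R0 K ϖ ^ k) * algebraMap A K
        (IsLocalization.mk' A t (⟨ϖ ^ k, hϖk k⟩ : 𝔭.primeCompl)) =
        algebraMap R0 K ϖ ^ k * algebraMap L K c := by
      rw [← h2, map_pow]; ring
    exact mul_left_cancel₀ hne h3
  let e : A ≃+* (algebraMap A K).range :=
    RingEquiv.ofBijective (algebraMap A K).rangeRestrict
      ⟨fun a b h => hinjAK (congrArg Subtype.val h), (algebraMap A K).rangeRestrict_surjective⟩
  let φ : L →+* A := e.symm.toRingHom.comp ((algebraMap L K).codRestrict (algebraMap A K).range hLA)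
  have hφ : ∀ c : L, algebraMap A K (φ c) = algebraMap L K c := by
    intro c
    have h1 : e (φ c) = (algebraMap L K).codRestrict (algebraMap A K).range hLA c :=
      e.apply_symm_apply _
    exact congrArg Subtype.val h1
  refine ⟨Polynomial.eval₂RingHom φ (algebraMap R0 A jK), fun P => ?_⟩
  show algebraMap A K (Polynomial.eval₂ φ (algebraMap R0 A jK) P) = _
  rw [Polynomial.hom_eval₂, ← IsScalarTower.algebraMap_apply R0 A K, Polynomial.aeval_def]
  congr 1
  ext c
  rw [RingHom.comp_apply, hφ]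

/-- `ℚ ⊆ R0[1/ϖ]` and `ϖ ∉ 𝔭`: the residue characteristic of `𝔭` is zero. -/
theorem natCast_notMem (K : Type*) [Field K] [Algebra L K]
    {R0 : Type*} [CommRing R0] [IsDomain R0] [Algebra R0 K] [IsFractionRing R0 K]
    (ϖ : R0)
    (hL : ∀ c : L, ∃ (k : ℕ) (t : R0),
      algebraMap R0 K ϖ ^ k * algebraMap L K c = algebraMap R0 K t)
    (𝔭 : Ideal R0) [𝔭.IsPrime] (hϖ : ϖ ∉ 𝔭) (n : ℕ) (hn : n ≠ 0) : (n : R0) ∉ 𝔭 := by
  haveI : CharZero L := algebraRat.charZero L
  haveI : CharZero K := charZero_of_injective_algebraMap (algebraMap L K).injective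
  have hinjK : Function.Injective (algebraMap R0 K) := IsFractionRing.injective R0 K
  have hϖk : ∀ k : ℕ, ϖ ^ k ∉ 𝔭 := fun k h => hϖ (Ideal.IsPrime.mem_of_pow_mem inferInstance k h)
  intro h1
  obtain ⟨k, t, ht⟩ := hL ((n : L)⁻¹)
  have hnK : (n : K) ≠ 0 := Nat.cast_ne_zero.mpr hn
  have h2 : ϖ ^ k = (n : R0) * t := by
    apply hinjK
    rw [map_pow, map_mul, map_natCast, ← ht, map_inv₀, map_natCast]
    field_simp
  exact hϖk k (by rw [h2]; exact Ideal.mul_mem_right _ _ h1)

/-! ### The trace form at a horizontal prime, auxiliary level -/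

include ι in
/-- **(T3-inst) at an auxiliary level, core.**  `A` a discrete valuation ring, the localisation of
`R0` at the horizontal prime `𝔭`; then the trace form of `R1 / R0` is nondegenerate modulo
`𝔭`. -/
theorem hU_of_dvr_tw (hr : r.Prime) (hr12 : r % 12 = 11) (hrM : r ∣ M) (hrN : r ∣ N)
    [Algebra (FF L M) (FF L N)] [IsScalarTower L (FF L M) (FF L N)]
    [FiniteDimensional (FF L M) (FF L N)]
    (w : FF L N ≃ₐ[L] FF L N)
    (hj : algebraMap (FF L M) (FF L N) (jBC L M) = w (jBC L N))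
    {R0 : Type*} [CommRing R0] [IsDomain R0] [Algebra R0 (FF L M)] [IsFractionRing R0 (FF L M)]
    [Algebra R0 (FF L N)] [IsScalarTower R0 (FF L M) (FF L N)]
    {R1 : Type*} [CommRing R1] [Algebra R0 R1] [Algebra R1 (FF L N)]
    [IsScalarTower R0 R1 (FF L N)] [IsIntegralClosure R1 R0 (FF L N)]
    {A : Type*} [CommRing A] [IsDomain A] [IsDiscreteValuationRing A] [Algebra R0 A]
    [Algebra A (FF L M)] [IsScalarTower R0 A (FF L M)] [IsFractionRing A (FF L M)]
    [Algebra A (FF L N)] [IsScalarTower A (FF L M) (FF L N)]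
    (ϖ : R0)
    (hL : ∀ c : L, ∃ (k : ℕ) (t : R0),
      algebraMap R0 (FF L M) ϖ ^ k * algebraMap L (FF L M) c = algebraMap R0 (FF L M) t)
    (jK : R0) (hjK : algebraMap R0 (FF L M) jK = jBC L M)
    (𝔭 : Ideal R0) [𝔭.IsPrime] [IsLocalization.AtPrime A 𝔭] (h𝔭0 : 𝔭 ≠ ⊥) (hϖ : ϖ ∉ 𝔭) (x : R1)
    (hx : ∀ y : R1, ∃ a ∈ 𝔭,
      Algebra.trace (FF L M) (FF L N) (algebraMap R1 (FF L N) (x * y)) =
        algebraMap R0 (FF L M) a) :
    ∃ s : R0, s ∉ 𝔭 ∧ s • x ∈ 𝔭 • (⊤ : Submodule R0 R1) := by
  classical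
  haveI : CharZero L := algebraRat.charZero L
  haveI : CharZero (FF L M) :=
    charZero_of_injective_algebraMap (algebraMap L (FF L M)).injective
  haveI : Algebra.IsSeparable (FF L M) (FF L N) :=
    Algebra.IsAlgebraic.isSeparable_of_perfectField
  have hinjAK : Function.Injective (algebraMap A (FF L M)) := IsFractionRing.injective A (FF L M)
  have hinjA : Function.Injective (algebraMap R0 A) :=
    IsLocalization.injective A 𝔭.primeCompl_le_nonZeroDivisors
  let p : Ideal A := IsLocalRing.maximalIdeal A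
  have hp𝔭 : p.comap (algebraMap R0 A) = 𝔭 := IsLocalization.AtPrime.under_maximalIdeal A 𝔭
  have hp0 : p ≠ ⊥ := by
    intro h
    apply h𝔭0
    rw [← hp𝔭, h]
    exact Ideal.comap_bot_of_injective _ hinjA
  have hA : ∀ a : A, ∃ t : R0, t ∉ 𝔭 ∧ ∃ c : R0, algebraMap R0 A c = algebraMap R0 A t * a := by
    intro a
    obtain ⟨⟨c, t⟩, h⟩ := IsLocalization.surj 𝔭.primeCompl a
    exact ⟨t, t.2, c, by rw [← h]; ring⟩
  have hchar : ∀ n : ℕ, n ≠ 0 → (n : A) ∉ p := by
    intro n hn hmem
    refine natCast_notMem (FF L M) ϖ hL 𝔭 hϖ n hn ?_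
    rw [← hp𝔭, Ideal.mem_comap, map_natCast]
    exact hmem
  obtain ⟨g, hg⟩ := exists_polyHom (A := A) (FF L M) ϖ hL jK 𝔭 hϖ
  rw [hjK] at hg
  have hinjABA : Function.Injective (algebraMap A (integralClosure A (FF L N))) := by
    have h3 : Function.Injective (algebraMap A (FF L N)) := by
      rw [IsScalarTower.algebraMap_eq A (FF L M) (FF L N)]
      exact (algebraMap (FF L M) (FF L N)).injective.comp hinjAK
    intro a b hab
    apply h3
    rw [IsScalarTower.algebraMap_apply A (integralClosure A (FF L N)) (FF L N), hab,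
      ← IsScalarTower.algebraMap_apply A (integralClosure A (FF L N)) (FF L N)]
  have hunr : ∀ (P : Ideal (integralClosure A (FF L N))) [P.IsPrime],
      p.map (algebraMap A (integralClosure A (FF L N))) ≤ P → P.ramificationIdx A = 1 := by
    intro P hP hle
    have hP0 : P ≠ ⊥ := by
      obtain ⟨a, ha, ha0⟩ := Submodule.exists_mem_ne_zero_of_ne_bot hp0
      intro hbot
      have h1 : algebraMap A (integralClosure A (FF L N)) a ∈ P := hle (Ideal.mem_map_of_mem _ ha)
      rw [hbot, Ideal.mem_bot] at h1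
      exact ha0 (hinjABA (h1.trans (map_zero _).symm))
    exact ramificationIdx_eq_one_tw ι hr hr12 hrM hrN w hj g hg P hP0
  haveI : IsDedekindDomain (integralClosure A (FF L N)) :=
    IsIntegralClosure.isDedekindDomain A (FF L M) (FF L N) _
  exact UnramBridge.hU_of_ramificationIdx (K := FF L M) (Y := FF L N) (A := A)
    (BA := integralClosure A (FF L N)) 𝔭 p hp0 hp𝔭 hA hchar hunr x hx

include ι in
/-- **(T3-inst) at an auxiliary level, trace-form currency.**  `R0` a noetherian integrally closed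
domain with fraction field `FF L M`, `R1` its integral closure in `FF L N`, `L ⊆ R0[1/ϖ]`,
`j ∈ R0`.  At a nonzero prime `𝔭` of `R0` of height `≤ 1` with `ϖ ∉ 𝔭` the trace form of
`R1 / R0` is nondegenerate modulo `𝔭`. -/
theorem hU_horizontal_tw (hr : r.Prime) (hr12 : r % 12 = 11) (hrM : r ∣ M) (hrN : r ∣ N)
    [Algebra (FF L M) (FF L N)] [IsScalarTower L (FF L M) (FF L N)]
    [FiniteDimensional (FF L M) (FF L N)]
    (w : FF L N ≃ₐ[L] FF L N)
    (hj : algebraMap (FF L M) (FF L N) (jBC L M) = w (jBC L N))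
    {R0 : Type*} [CommRing R0] [IsDomain R0] [IsNoetherianRing R0] [IsIntegrallyClosed R0]
    [Algebra R0 (FF L M)] [IsFractionRing R0 (FF L M)]
    [Algebra R0 (FF L N)] [IsScalarTower R0 (FF L M) (FF L N)]
    {R1 : Type*} [CommRing R1] [Algebra R0 R1] [Algebra R1 (FF L N)]
    [IsScalarTower R0 R1 (FF L N)] [IsIntegralClosure R1 R0 (FF L N)]
    (ϖ : R0)
    (hL : ∀ c : L, ∃ (k : ℕ) (t : R0),
      algebraMap R0 (FF L M) ϖ ^ k * algebraMap L (FF L M) c = algebraMap R0 (FF L M) t)
    (jK : R0) (hjK : algebraMap R0 (FF L M) jK = jBC L M)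
    (𝔭 : Ideal R0) [𝔭.IsPrime] (h𝔭0 : 𝔭 ≠ ⊥) (hϖ : ϖ ∉ 𝔭) (hht : 𝔭.height ≤ 1) (x : R1)
    (hx : ∀ y : R1, ∃ a ∈ 𝔭,
      Algebra.trace (FF L M) (FF L N) (algebraMap R1 (FF L N) (x * y)) =
        algebraMap R0 (FF L M) a) :
    ∃ s : R0, s ∉ 𝔭 ∧ s • x ∈ 𝔭 • (⊤ : Submodule R0 R1) := by
  haveI hloc : IsLocalization.AtPrime
      (Localization.subalgebra.ofField (FF L M) 𝔭.primeCompl 𝔭.primeCompl_le_nonZeroDivisors) 𝔭 :=
    Localization.subalgebra.isLocalization_ofField (FF L M) 𝔭.primeCompl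
      𝔭.primeCompl_le_nonZeroDivisors
  haveI : IsFractionRing
      (Localization.subalgebra.ofField (FF L M) 𝔭.primeCompl 𝔭.primeCompl_le_nonZeroDivisors)
      (FF L M) :=
    Localization.subalgebra.isFractionRing_ofField (FF L M) 𝔭.primeCompl
      𝔭.primeCompl_le_nonZeroDivisors
  haveI : IsDiscreteValuationRing
      (Localization.subalgebra.ofField (FF L M) 𝔭.primeCompl 𝔭.primeCompl_le_nonZeroDivisors) :=
    HorizUnram.isDiscreteValuationRing_of_height_le_one 𝔭 h𝔭0 hht _
  exact hU_of_dvr_tw ι hr hr12 hrM hrN w hj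
    (A := Localization.subalgebra.ofField (FF L M) 𝔭.primeCompl 𝔭.primeCompl_le_nonZeroDivisors)
    ϖ hL jK hjK 𝔭 h𝔭0 hϖ x hx

include ι in
/-- **(T3-inst) at an auxiliary level, element form.**  If moreover `R1 = R0[X]`, then `P'(X)`
(`P` the minimal polynomial of `X` over `R0`) lies in no prime `𝔮` of `R1` of height `≤ 1` with
`ϖ ∉ 𝔮`: the different of `R1 / R0` has no horizontal component — at EVERY point, elliptic or
not. -/
theorem notMem_tw (hr : r.Prime) (hr12 : r % 12 = 11) (hrM : r ∣ M) (hrN : r ∣ N)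
    [Algebra (FF L M) (FF L N)] [IsScalarTower L (FF L M) (FF L N)]
    [FiniteDimensional (FF L M) (FF L N)]
    (w : FF L N ≃ₐ[L] FF L N)
    (hj : algebraMap (FF L M) (FF L N) (jBC L M) = w (jBC L N))
    {R0 : Type*} [CommRing R0] [IsDomain R0] [IsNoetherianRing R0] [IsIntegrallyClosed R0]
    [Algebra R0 (FF L M)] [IsFractionRing R0 (FF L M)]
    [Algebra R0 (FF L N)] [IsScalarTower R0 (FF L M) (FF L N)]
    {R1 : Type*} [CommRing R1] [IsDomain R1] [IsIntegrallyClosed R1] [Algebra R0 R1]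
    [Algebra R1 (FF L N)] [IsFractionRing R1 (FF L N)] [IsScalarTower R0 R1 (FF L N)]
    (ϖ : R0)
    (hL : ∀ c : L, ∃ (k : ℕ) (t : R0),
      algebraMap R0 (FF L M) ϖ ^ k * algebraMap L (FF L M) c = algebraMap R0 (FF L M) t)
    (jK : R0) (hjK : algebraMap R0 (FF L M) jK = jBC L M)
    (X : R1) (hX : Algebra.adjoin R0 {X} = ⊤) (hXi : IsIntegral R0 X)
    (𝔮 : Ideal R1) [𝔮.IsPrime] (hϖ : algebraMap R0 R1 ϖ ∉ 𝔮) (hq1 : 𝔮.height ≤ 1) :
    aeval X (derivative (minpoly R0 X)) ∉ 𝔮 := by
  classical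
  haveI : CharZero L := algebraRat.charZero L
  haveI : CharZero (FF L M) :=
    charZero_of_injective_algebraMap (algebraMap L (FF L M)).injective
  haveI : Algebra.IsSeparable (FF L M) (FF L N) :=
    Algebra.IsAlgebraic.isSeparable_of_perfectField
  have hinj : Function.Injective (algebraMap R0 R1) := by
    have h1 : Function.Injective (algebraMap R0 (FF L N)) := by
      rw [IsScalarTower.algebraMap_eq R0 (FF L M) (FF L N)]
      exact (algebraMap (FF L M) (FF L N)).injective.comp (IsFractionRing.injective R0 (FF L M))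
    intro a b hab
    apply h1
    rw [IsScalarTower.algebraMap_apply R0 R1 (FF L N), hab,
      ← IsScalarTower.algebraMap_apply R0 R1 (FF L N)]
  have : FaithfulSMul R0 R1 := (faithfulSMul_iff_algebraMap_injective R0 R1).mpr hinj
  have : Module.IsTorsionFree R0 R1 := inferInstance
  haveI : Algebra.IsIntegral R0 R1 :=
    ⟨fun t => _root_.adjoin_le_integralClosure hXi (by rw [hX]; trivial)⟩
  haveI : IsIntegralClosure R1 R0 (FF L N) := IsIntegralClosure.of_isIntegrallyClosed R1 R0 _
  haveI : Module.Finite R0 R1 := (PowerBasis.ofAdjoinEqTop' hXi hX).finite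
  haveI : IsNoetherianRing R1 := IsNoetherianRing.of_finite R0 R1
  refine HorizDisc.notMem_of_hU (K := FF L M) (Y := FF L N) X hX hXi 𝔮 ?_
  intro x hx
  by_cases h0 : 𝔮.comap (algebraMap R0 R1) = ⊥
  · have key := UnramBridge.hU_bot (K := FF L M) (Y := FF L N) x (by rw [← h0]; exact hx)
    rw [h0]
    exact key
  · haveI : 𝔮.LiesOver (𝔮.comap (algebraMap R0 R1)) := ⟨rfl⟩
    have hgd := Ideal.height_eq_height_add_of_liesOver_of_hasGoingDown
      (𝔮.comap (algebraMap R0 R1)) 𝔮
    have hht : (𝔮.comap (algebraMap R0 R1)).height ≤ 1 := by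
      refine le_trans ?_ hq1
      rw [hgd]
      exact le_self_add
    exact hU_horizontal_tw ι hr hr12 hrM hrN w hj ϖ hL jK hjK (𝔮.comap (algebraMap R0 R1)) h0 hϖ
      hht x hx

include ι in
/-- **(T3-inst) at an auxiliary level, minimal-prime form** (hypothesis (d) of the thickness-one
lemma, at EVERY point).  If `R1 = R0[X]`, every prime of `R1` minimal over `(P'(X))`, `P` the
minimal polynomial of `X` over `R0`, contains `ϖ`. -/
theorem pi_mem_of_mem_minimalPrimes_tw (hr : r.Prime) (hr12 : r % 12 = 11) (hrM : r ∣ M)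
    (hrN : r ∣ N)
    [Algebra (FF L M) (FF L N)] [IsScalarTower L (FF L M) (FF L N)]
    [FiniteDimensional (FF L M) (FF L N)]
    (w : FF L N ≃ₐ[L] FF L N)
    (hj : algebraMap (FF L M) (FF L N) (jBC L M) = w (jBC L N))
    {R0 : Type*} [CommRing R0] [IsDomain R0] [IsNoetherianRing R0] [IsIntegrallyClosed R0]
    [Algebra R0 (FF L M)] [IsFractionRing R0 (FF L M)]
    [Algebra R0 (FF L N)] [IsScalarTower R0 (FF L M) (FF L N)]
    {R1 : Type*} [CommRing R1] [IsDomain R1] [IsIntegrallyClosed R1] [Algebra R0 R1]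
    [Algebra R1 (FF L N)] [IsFractionRing R1 (FF L N)] [IsScalarTower R0 R1 (FF L N)]
    (ϖ : R0)
    (hL : ∀ c : L, ∃ (k : ℕ) (t : R0),
      algebraMap R0 (FF L M) ϖ ^ k * algebraMap L (FF L M) c = algebraMap R0 (FF L M) t)
    (jK : R0) (hjK : algebraMap R0 (FF L M) jK = jBC L M)
    (X : R1) (hX : Algebra.adjoin R0 {X} = ⊤) (hXi : IsIntegral R0 X)
    (𝔮 : Ideal R1)
    (h𝔮 : 𝔮 ∈ (Ideal.span {aeval X (derivative (minpoly R0 X))} : Ideal R1).minimalPrimes) :
    algebraMap R0 R1 ϖ ∈ 𝔮 := by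
  classical
  have hinj : Function.Injective (algebraMap R0 R1) := by
    have h1 : Function.Injective (algebraMap R0 (FF L N)) := by
      rw [IsScalarTower.algebraMap_eq R0 (FF L M) (FF L N)]
      exact (algebraMap (FF L M) (FF L N)).injective.comp (IsFractionRing.injective R0 (FF L M))
    intro a b hab
    apply h1
    rw [IsScalarTower.algebraMap_apply R0 R1 (FF L N), hab,
      ← IsScalarTower.algebraMap_apply R0 R1 (FF L N)]
  have : FaithfulSMul R0 R1 := (faithfulSMul_iff_algebraMap_injective R0 R1).mpr hinj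
  have : Module.IsTorsionFree R0 R1 := inferInstance
  haveI : Algebra.IsIntegral R0 R1 :=
    ⟨fun t => _root_.adjoin_le_integralClosure hXi (by rw [hX]; trivial)⟩
  haveI : Module.Finite R0 R1 := (PowerBasis.ofAdjoinEqTop' hXi hX).finite
  haveI : IsNoetherianRing R1 := IsNoetherianRing.of_finite R0 R1
  haveI h𝔮p : 𝔮.IsPrime := h𝔮.1.1
  by_contra hϖ
  have hq1 : 𝔮.height ≤ 1 :=
    Ideal.height_le_one_of_isPrincipal_of_mem_minimalPrimes _ 𝔮 h𝔮
  exact notMem_tw ι hr hr12 hrM hrN w hj ϖ hL jK hjK X hX hXi 𝔮 hϖ hq1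
    (h𝔮.1.2 (Ideal.subset_span rfl))

include ι in
/-- **(T3-inst) at an auxiliary level, all horizontal primes.**  If `R1 = R0[X]`, then `P'(X)`
lies in NO prime `𝔮` of `R1` with `ϖ ∉ 𝔮` (no hypothesis on the height of `𝔮`: a prime containing
`P'(X)` contains a minimal prime over `(P'(X))`, which contains `ϖ`). -/
theorem notMem_of_pi_notMem_tw (hr : r.Prime) (hr12 : r % 12 = 11) (hrM : r ∣ M)
    (hrN : r ∣ N)
    [Algebra (FF L M) (FF L N)] [IsScalarTower L (FF L M) (FF L N)]
    [FiniteDimensional (FF L M) (FF L N)]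
    (w : FF L N ≃ₐ[L] FF L N)
    (hj : algebraMap (FF L M) (FF L N) (jBC L M) = w (jBC L N))
    {R0 : Type*} [CommRing R0] [IsDomain R0] [IsNoetherianRing R0] [IsIntegrallyClosed R0]
    [Algebra R0 (FF L M)] [IsFractionRing R0 (FF L M)]
    [Algebra R0 (FF L N)] [IsScalarTower R0 (FF L M) (FF L N)]
    {R1 : Type*} [CommRing R1] [IsDomain R1] [IsIntegrallyClosed R1] [Algebra R0 R1]
    [Algebra R1 (FF L N)] [IsFractionRing R1 (FF L N)] [IsScalarTower R0 R1 (FF L N)]
    (ϖ : R0)
    (hL : ∀ c : L, ∃ (k : ℕ) (t : R0),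
      algebraMap R0 (FF L M) ϖ ^ k * algebraMap L (FF L M) c = algebraMap R0 (FF L M) t)
    (jK : R0) (hjK : algebraMap R0 (FF L M) jK = jBC L M)
    (X : R1) (hX : Algebra.adjoin R0 {X} = ⊤) (hXi : IsIntegral R0 X)
    (𝔮 : Ideal R1) [𝔮.IsPrime] (hϖ : algebraMap R0 R1 ϖ ∉ 𝔮) :
    aeval X (derivative (minpoly R0 X)) ∉ 𝔮 := by
  intro hd
  obtain ⟨𝔮', h𝔮', hle⟩ := Ideal.exists_minimalPrimes_le
    (show (Ideal.span {aeval X (derivative (minpoly R0 X))} : Ideal R1) ≤ 𝔮 from
      (Ideal.span_singleton_le_iff_mem _).mpr hd)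
  exact hϖ (hle (pi_mem_of_mem_minimalPrimes_tw ι hr hr12 hrM hrN w hj ϖ hL jK hjK X hX hXi
    𝔮' h𝔮'))

end Core

end Fermat.Agent.S36.HorizUnramTw
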