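import Mathlib
import Fermat.Agent.S36.HorizUnramAux
import Fermat.Agent.S36.HorizUnramTw
import Fermat.Agent.S18.GaussVal

/-!
# S36, (R-ss), (T3-inst): the chart facts `hL`, `hjK` and the one-call forms

`W` a discrete valuation subring of the coefficient field `L`, `BM` any carrier of a chart of
level `M` over `W[X]` (`X ↦ j`, `algebraMap W[X] (FF L M) = evF W M`), `R0` any `BM`-algebra
inside `FF L M` (in the application: the localisation of `BM` at a prime).

* `algebraMap_C`, `hjK_of_chart`, `hL_of_chart` : the images of the constants and of `X` in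
  `FF L M`, and `L ⊆ R0[1/π]` — the hypotheses `hjK`, `hL` of
  `HorizUnram.pi_mem_of_mem_minimalPrimes` and of its auxiliary-level twins.
* `pi_mem_of_mem_minimalPrimes_chart` : hypothesis (d) of the thickness-one lemma for chart
  carriers at an auxiliary level, `α`-structure (`HorizUnramAux`), one call.
* `pi_mem_of_mem_minimalPrimes_chart_tw`, `notMem_of_pi_notMem_chart_tw` : the same for a
  structure `j ↦ w j` (`HorizUnramTw`).
-/

set_option autoImplicit false
set_option linter.unusedSectionVars false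

namespace Fermat.Agent.S36.HorizUnramInst

open Polynomial AlgebraicCurve ModularCurve
open Fermat.Agent.S24 Fermat.Agent.S18 Fermat.Agent.S18.Gauss

variable {L : Type} [Field L] [Algebra ℚ L] (W : ValuationSubring L) (M : ℕ) [NeZero M]

section Carrier

variable [Algebra (↥W)[X] (FF L M)] (halgM : algebraMap (↥W)[X] (FF L M) = evF W M)
  {BM : Type*} [CommRing BM] [Algebra (↥W)[X] BM] [Algebra BM (FF L M)]
  [IsScalarTower (↥W)[X] BM (FF L M)]
  {R0 : Type*} [CommRing R0] [Algebra BM R0] [Algebra R0 (FF L M)] [IsScalarTower BM R0 (FF L M)]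

include halgM in
/-- The image of a constant of `W` in the function field. -/
theorem algebraMap_C (a : W) :
    algebraMap R0 (FF L M) (algebraMap BM R0 (algebraMap (↥W)[X] BM (C a))) =
      algebraMap L (FF L M) (a : L) := by
  rw [← IsScalarTower.algebraMap_apply BM R0 (FF L M),
    ← IsScalarTower.algebraMap_apply (↥W)[X] BM (FF L M), halgM, evF_C]

include halgM in
/-- **`hjK`**: the image of `X` is `j`. -/
theorem hjK_of_chart :
    algebraMap R0 (FF L M) (algebraMap BM R0 (algebraMap (↥W)[X] BM X)) = jBC L M := by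
  rw [← IsScalarTower.algebraMap_apply BM R0 (FF L M),
    ← IsScalarTower.algebraMap_apply (↥W)[X] BM (FF L M), halgM, evF_X]

include halgM in
/-- **`hL`**: `L ⊆ R0[1/π]`. -/
theorem hL_of_chart [IsDiscreteValuationRing ↥W] (π : W) (hπ : Irreducible π) (c : L) :
    ∃ (k : ℕ) (t : R0),
      algebraMap R0 (FF L M) (algebraMap BM R0 (algebraMap (↥W)[X] BM (C π))) ^ k *
        algebraMap L (FF L M) c = algebraMap R0 (FF L M) t := by
  rcases W.mem_or_inv_mem c with hc | hc
  · refine ⟨0, algebraMap BM R0 (algebraMap (↥W)[X] BM (C ⟨c, hc⟩)), ?_⟩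
    rw [pow_zero, one_mul, algebraMap_C W M halgM]
  · by_cases hc0 : c = 0
    · exact ⟨0, 0, by rw [hc0, map_zero, map_zero, mul_zero]⟩
    have hne : (⟨c⁻¹, hc⟩ : W) ≠ 0 := by
      intro h
      exact inv_ne_zero hc0 (congrArg Subtype.val h)
    obtain ⟨n, u, hu⟩ := IsDiscreteValuationRing.eq_unit_mul_pow_irreducible hne hπ
    refine ⟨n, algebraMap BM R0 (algebraMap (↥W)[X] BM (C ((u⁻¹ : (↥W)ˣ) : W))), ?_⟩
    rw [algebraMap_C W M halgM, algebraMap_C W M halgM, ← map_pow, ← map_mul]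
    congr 1
    have h1 : c⁻¹ = ((u : W) : L) * (π : L) ^ n := congrArg Subtype.val hu
    have h2 : ((u : W) : L) * (((u⁻¹ : (↥W)ˣ) : W) : L) = 1 :=
      congrArg Subtype.val (Units.mul_inv u)
    have hu0 : ((u : W) : L) ≠ 0 := left_ne_zero_of_mul_eq_one h2
    have h3 : (π : L) ^ n * c * ((u : W) : L) = 1 := by
      have : c * c⁻¹ = 1 := mul_inv_cancel₀ hc0
      rw [h1] at this
      rw [← this]; ring
    have h4 : (π : L) ^ n * c * ((u : W) : L) =
        (((u⁻¹ : (↥W)ˣ) : W) : L) * ((u : W) : L) := by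
      rw [h3, mul_comm, h2]
    exact mul_right_cancel₀ hu0 h4

end Carrier

section OneCall

variable (ι : L →+* AlgebraicClosure ℚ) (N : ℕ) [NeZero N]

include ι in
/-- **(T3-inst), chart form, `α`-structure, auxiliary level** (one call; hypothesis (d) of the
thickness-one lemma with `ϖ` the image of the uniformiser `π` of `W`). -/
theorem pi_mem_of_mem_minimalPrimes_chart [IsDiscreteValuationRing ↥W] {r : ℕ} (hr : r.Prime)
    (hr12 : r % 12 = 11) (hrM : r ∣ M) (hrN : r ∣ N)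
    [Algebra (FF L M) (FF L N)] [IsScalarTower L (FF L M) (FF L N)]
    [FiniteDimensional (FF L M) (FF L N)]
    (hjα : algebraMap (FF L M) (FF L N) (jBC L M) = jBC L N)
    (π : W) (hπ : Irreducible π)
    [Algebra (↥W)[X] (FF L M)] (halgM : algebraMap (↥W)[X] (FF L M) = evF W M)
    {BM : Type*} [CommRing BM] [Algebra (↥W)[X] BM] [Algebra BM (FF L M)]
    [IsScalarTower (↥W)[X] BM (FF L M)]
    {R0 : Type*} [CommRing R0] [IsDomain R0] [IsNoetherianRing R0] [IsIntegrallyClosed R0]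
    [Algebra BM R0] [Algebra R0 (FF L M)] [IsScalarTower BM R0 (FF L M)]
    [IsFractionRing R0 (FF L M)] [Algebra R0 (FF L N)] [IsScalarTower R0 (FF L M) (FF L N)]
    {R1 : Type*} [CommRing R1] [IsDomain R1] [IsIntegrallyClosed R1] [Algebra R0 R1]
    [Algebra R1 (FF L N)] [IsFractionRing R1 (FF L N)] [IsScalarTower R0 R1 (FF L N)]
    (X₁ : R1) (hX : Algebra.adjoin R0 {X₁} = ⊤) (hXi : IsIntegral R0 X₁)
    (𝔮 : Ideal R1)
    (h𝔮 : 𝔮 ∈ (Ideal.span {aeval X₁ (derivative (minpoly R0 X₁))} : Ideal R1).minimalPrimes) :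
    algebraMap R0 R1 (algebraMap BM R0 (algebraMap (↥W)[X] BM (C π))) ∈ 𝔮 :=
  HorizUnramAux.pi_mem_of_mem_minimalPrimes_aux ι M N hr hr12 hrM hrN hjα _
    (hL_of_chart W M halgM π hπ) (algebraMap BM R0 (algebraMap (↥W)[X] BM X))
    (by rw [IsScalarTower.algebraMap_apply R0 (FF L M) (FF L N), hjK_of_chart W M halgM, hjα])
    X₁ hX hXi 𝔮 h𝔮

include ι in
/-- **(T3-inst), chart form, structure `j ↦ w j`, auxiliary level** (one call). -/
theorem pi_mem_of_mem_minimalPrimes_chart_tw [IsDiscreteValuationRing ↥W] {r : ℕ}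
    (hr : r.Prime) (hr12 : r % 12 = 11) (hrM : r ∣ M) (hrN : r ∣ N)
    [Algebra (FF L M) (FF L N)] [IsScalarTower L (FF L M) (FF L N)]
    [FiniteDimensional (FF L M) (FF L N)]
    (w : FF L N ≃ₐ[L] FF L N)
    (hj : algebraMap (FF L M) (FF L N) (jBC L M) = w (jBC L N))
    (π : W) (hπ : Irreducible π)
    [Algebra (↥W)[X] (FF L M)] (halgM : algebraMap (↥W)[X] (FF L M) = evF W M)
    {BM : Type*} [CommRing BM] [Algebra (↥W)[X] BM] [Algebra BM (FF L M)]
    [IsScalarTower (↥W)[X] BM (FF L M)]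
    {R0 : Type*} [CommRing R0] [IsDomain R0] [IsNoetherianRing R0] [IsIntegrallyClosed R0]
    [Algebra BM R0] [Algebra R0 (FF L M)] [IsScalarTower BM R0 (FF L M)]
    [IsFractionRing R0 (FF L M)] [Algebra R0 (FF L N)] [IsScalarTower R0 (FF L M) (FF L N)]
    {R1 : Type*} [CommRing R1] [IsDomain R1] [IsIntegrallyClosed R1] [Algebra R0 R1]
    [Algebra R1 (FF L N)] [IsFractionRing R1 (FF L N)] [IsScalarTower R0 R1 (FF L N)]
    (X₁ : R1) (hX : Algebra.adjoin R0 {X₁} = ⊤) (hXi : IsIntegral R0 X₁)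
    (𝔮 : Ideal R1)
    (h𝔮 : 𝔮 ∈ (Ideal.span {aeval X₁ (derivative (minpoly R0 X₁))} : Ideal R1).minimalPrimes) :
    algebraMap R0 R1 (algebraMap BM R0 (algebraMap (↥W)[X] BM (C π))) ∈ 𝔮 :=
  HorizUnramTw.pi_mem_of_mem_minimalPrimes_tw ι hr hr12 hrM hrN w hj _
    (hL_of_chart W M halgM π hπ) (algebraMap BM R0 (algebraMap (↥W)[X] BM X))
    (hjK_of_chart W M halgM) X₁ hX hXi 𝔮 h𝔮

include ι in
/-- **(T3-inst), chart form, element form**: the element different of a generator lies in no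
prime not containing `π` (structure `j ↦ w j`, auxiliary level). -/
theorem notMem_of_pi_notMem_chart_tw [IsDiscreteValuationRing ↥W] {r : ℕ}
    (hr : r.Prime) (hr12 : r % 12 = 11) (hrM : r ∣ M) (hrN : r ∣ N)
    [Algebra (FF L M) (FF L N)] [IsScalarTower L (FF L M) (FF L N)]
    [FiniteDimensional (FF L M) (FF L N)]
    (w : FF L N ≃ₐ[L] FF L N)
    (hj : algebraMap (FF L M) (FF L N) (jBC L M) = w (jBC L N))
    (π : W) (hπ : Irreducible π)
    [Algebra (↥W)[X] (FF L M)] (halgM : algebraMap (↥W)[X] (FF L M) = evF W M)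
    {BM : Type*} [CommRing BM] [Algebra (↥W)[X] BM] [Algebra BM (FF L M)]
    [IsScalarTower (↥W)[X] BM (FF L M)]
    {R0 : Type*} [CommRing R0] [IsDomain R0] [IsNoetherianRing R0] [IsIntegrallyClosed R0]
    [Algebra BM R0] [Algebra R0 (FF L M)] [IsScalarTower BM R0 (FF L M)]
    [IsFractionRing R0 (FF L M)] [Algebra R0 (FF L N)] [IsScalarTower R0 (FF L M) (FF L N)]
    {R1 : Type*} [CommRing R1] [IsDomain R1] [IsIntegrallyClosed R1] [Algebra R0 R1]
    [Algebra R1 (FF L N)] [IsFractionRing R1 (FF L N)] [IsScalarTower R0 R1 (FF L N)]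
    (X₁ : R1) (hX : Algebra.adjoin R0 {X₁} = ⊤) (hXi : IsIntegral R0 X₁)
    (𝔮 : Ideal R1) [𝔮.IsPrime]
    (hϖ : algebraMap R0 R1 (algebraMap BM R0 (algebraMap (↥W)[X] BM (C π))) ∉ 𝔮) :
    aeval X₁ (derivative (minpoly R0 X₁)) ∉ 𝔮 :=
  HorizUnramTw.notMem_of_pi_notMem_tw ι hr hr12 hrM hrN w hj _
    (hL_of_chart W M halgM π hπ) (algebraMap BM R0 (algebraMap (↥W)[X] BM X))
    (hjK_of_chart W M halgM) X₁ hX hXi 𝔮 hϖ

end OneCall

end Fermat.Agent.S36.HorizUnramInst
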