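/-
S36 (R-ss), (T1-inst) at a FROBENIUS-STABLE level: twins of `NodeOverInst.node_mono_level` and
`NodeOverInst.node_mono_level_loc` with the hypothesis `FrobLevel.FrobStable A q ι` (one Frobenius
lift at `A` restricts to the level) in place of `GalLevel.IsStable ι` — the unramified levels of
S36 are not Galois over `ℚ`.  Same statements otherwise (the binder `hA` is dropped).
-/
import Mathlib
import Fermat.Agent.S36.NodeOverInst
import Fermat.Agent.S36.FrobLevel

set_option autoImplicit false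
set_option linter.unusedSectionVars false
set_option linter.style.haveILetI false

noncomputable section

namespace Fermat.Agent.S36.NodeOverInstF

open Polynomial ModularCurve Fermat.Agent.S18 Fermat.Agent.S18.Gauss Fermat.Agent.S37
  IsLocalRing Fermat.Agent.S34 Fermat.Agent.S36

local notation "Qb" => AlgebraicClosure ℚ

variable (A : ValuationSubring Qb) {L : Type} [Field L] [Algebra ℚ L] (ι : L →+* Qb)
  (M q : ℕ) [NeZero M] [NeZero q]

/-- **(T1-inst) at a Frobenius-stable level.**  `W = A.comap ι`, `BM`, `B` carriers of the finite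
charts of levels `M`, `M q`, `BM → B` inducing `α`; at every maximal ideal `𝔫` of `B` through
which both components of the special fibre pass, with `P = α⁻¹ 𝔫`, `R0 = BM_P`, `R1 = B_𝔫`:
`R1` is finite over `R0` and `R1 = R0[X]` for some `X ∈ 𝔫` vanishing on the first branch. -/
theorem node_mono_level_frob (hq : q.Prime) (hqM : ¬ q ∣ M) (S : Finset Qb)
    (hlev : Fermat.Agent.S37.LevelChange.IsLevel A q S ι)
    (hstab : Fermat.Agent.S36.FrobLevel.FrobStable A q ι)
    (π : ↥(A.comap ι)) (hπ : Irreducible π)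
    (w : Fermat.Agent.S24.FF L (M * q) ≃ₐ[L] Fermat.Agent.S24.FF L (M * q))
    (hwα : (w : Fermat.Agent.S24.FF L (M * q) →ₐ[L] Fermat.Agent.S24.FF L (M * q)).comp
      (heckeAlphaBar L M q) = heckeBetaBar L M q)
    (hwβ : (w : Fermat.Agent.S24.FF L (M * q) →ₐ[L] Fermat.Agent.S24.FF L (M * q)).comp
      (heckeBetaBar L M q) = heckeAlphaBar L M q)
    [Algebra (↥(A.comap ι))[X] (Fermat.Agent.S24.FF L M)]
    (halgM : algebraMap (↥(A.comap ι))[X] (Fermat.Agent.S24.FF L M) = evF (A.comap ι) M)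
    (BM : Type) [CommRing BM] [Algebra (↥(A.comap ι))[X] BM]
    [Algebra BM (Fermat.Agent.S24.FF L M)]
    [IsScalarTower (↥(A.comap ι))[X] BM (Fermat.Agent.S24.FF L M)]
    [IsIntegralClosure BM (↥(A.comap ι))[X] (Fermat.Agent.S24.FF L M)]
    [Algebra (↥(A.comap ι))[X] (Fermat.Agent.S24.FF L (M * q))]
    (halg : algebraMap (↥(A.comap ι))[X] (Fermat.Agent.S24.FF L (M * q)) =
      evF (A.comap ι) (M * q))
    (B : Type*) [CommRing B] [Algebra (↥(A.comap ι))[X] B]
    [Algebra B (Fermat.Agent.S24.FF L (M * q))]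
    [IsScalarTower (↥(A.comap ι))[X] B (Fermat.Agent.S24.FF L (M * q))]
    [IsIntegralClosure B (↥(A.comap ι))[X] (Fermat.Agent.S24.FF L (M * q))]
    [Algebra BM B]
    (hα : ∀ c : BM, algebraMap B (Fermat.Agent.S24.FF L (M * q)) (algebraMap BM B c) =
      heckeAlphaBar L M q (algebraMap BM (Fermat.Agent.S24.FF L M) c))
    (𝔫 : Ideal B) [𝔫.IsMaximal]
    (hk₁ : ∀ b : B, TwoGauss.rd (A.comap ι)
      ((algebraMap B (Fermat.Agent.S24.FF L (M * q)) b :
        Fermat.Agent.S24.FF L (M * q)) : LaurentSeries L) = 0 → b ∈ 𝔫)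
    (hk₂ : ∀ b : B, TwoGauss.rd (A.comap ι)
      ((w (algebraMap B (Fermat.Agent.S24.FF L (M * q)) b) :
        Fermat.Agent.S24.FF L (M * q)) : LaurentSeries L) = 0 → b ∈ 𝔫)
    (P : Ideal BM) [P.IsPrime] (hP : 𝔫.comap (algebraMap BM B) = P)
    (R0 : Type*) [CommRing R0] [Algebra BM R0] [IsLocalization.AtPrime R0 P] [IsLocalRing R0]
    (R1 : Type*) [CommRing R1] [Algebra B R1] [IsLocalization.AtPrime R1 𝔫] [IsLocalRing R1]
    [Algebra R0 R1] [Algebra BM R1] [IsScalarTower BM R0 R1] [IsScalarTower BM B R1] :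
    Module.Finite R0 R1 ∧ ∃ X ∈ 𝔫,
      TwoGauss.rd (A.comap ι) ((algebraMap B (Fermat.Agent.S24.FF L (M * q)) X :
        Fermat.Agent.S24.FF L (M * q)) : LaurentSeries L) = 0 ∧
      Submodule.span R0 (Set.range fun i : Fin (q + 1) => algebraMap B R1 X ^ (i : ℕ)) = ⊤ ∧
      Algebra.adjoin R0 {algebraMap B R1 X} = ⊤ ∧
      algebraMap B R1 X ^ (q + 1) ∈ Ideal.map (algebraMap R0 R1) (maximalIdeal R0) ∧
      algebraMap B R1 X ∉ Ideal.map (algebraMap R0 R1) (maximalIdeal R0) := by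
  obtain ⟨-, hroots, hdvr, halgc, -, hchar, -, -⟩ := hlev
  haveI := hdvr
  haveI := halgc
  haveI := hchar
  haveI : Fact q.Prime := ⟨hq⟩
  obtain ⟨σ, hσ, s, hs⟩ := hstab
  refine NodeOverInst.node_mono_chart M q ι (A.comap ι) hq hqM hroots π hπ w hwα hwβ
    (fun x hx => FrobPartner.mem_contentRing_of_int (A.comap ι) (M * q) hx)
    (fun x hx => FinDichLevel.f1_level ι (A.comap ι) M q hq hqM x hx)
    (fun x hint h1 h2 hr1 hr2 =>
      FinDich.s1_fin_level ι (A.comap ι) M q hqM hπ w hwα hwβ x hint h1 h2 hr1 hr2)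
    (FrobPartner.frobHom s M)
    (fun y hy => FrobPartner.frobHom_int A ι s hs M hσ.mem_decompositionSubgroup hy)
    (fun y hy => ⟨CoeffAut.act M s y, CoeffAut.isIntegralElem_evF_act (A.comap ι) M s
      (GalLevel.mem_comap_iff_of_mem_decomposition A ι s hs hσ.mem_decompositionSubgroup) hy,
      ?_⟩)
    (fun b hb h1 h2 => FrobPartner.red_beta_eq_frobHom_pow A ι s hs q M hσ
      (FrobPartner.mem_contentRing_of_int (A.comap ι) M hb) h1 h2)
    halgM BM halg B hα 𝔫 hk₁ hk₂ P hP R0 R1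
  rw [FrobPartner.frobHom_apply, ← CoeffAut.act_symm_apply, RingEquiv.symm_apply_apply]


/-- **(T1-inst), concrete local rings**: `R0 = Localization.AtPrime P`,
`R1 = Localization.AtPrime 𝔫` with the natural algebra structure (`IsLiesOverAlgebra`). -/
theorem node_mono_level_loc_frob (hq : q.Prime) (hqM : ¬ q ∣ M) (S : Finset Qb)
    (hlev : Fermat.Agent.S37.LevelChange.IsLevel A q S ι)
    (hstab : Fermat.Agent.S36.FrobLevel.FrobStable A q ι)
    (π : ↥(A.comap ι)) (hπ : Irreducible π)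
    (w : Fermat.Agent.S24.FF L (M * q) ≃ₐ[L] Fermat.Agent.S24.FF L (M * q))
    (hwα : (w : Fermat.Agent.S24.FF L (M * q) →ₐ[L] Fermat.Agent.S24.FF L (M * q)).comp
      (heckeAlphaBar L M q) = heckeBetaBar L M q)
    (hwβ : (w : Fermat.Agent.S24.FF L (M * q) →ₐ[L] Fermat.Agent.S24.FF L (M * q)).comp
      (heckeBetaBar L M q) = heckeAlphaBar L M q)
    [Algebra (↥(A.comap ι))[X] (Fermat.Agent.S24.FF L M)]
    (halgM : algebraMap (↥(A.comap ι))[X] (Fermat.Agent.S24.FF L M) = evF (A.comap ι) M)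
    (BM : Type) [CommRing BM] [Algebra (↥(A.comap ι))[X] BM]
    [Algebra BM (Fermat.Agent.S24.FF L M)]
    [IsScalarTower (↥(A.comap ι))[X] BM (Fermat.Agent.S24.FF L M)]
    [IsIntegralClosure BM (↥(A.comap ι))[X] (Fermat.Agent.S24.FF L M)]
    [Algebra (↥(A.comap ι))[X] (Fermat.Agent.S24.FF L (M * q))]
    (halg : algebraMap (↥(A.comap ι))[X] (Fermat.Agent.S24.FF L (M * q)) =
      evF (A.comap ι) (M * q))
    (B : Type*) [CommRing B] [Algebra (↥(A.comap ι))[X] B]
    [Algebra B (Fermat.Agent.S24.FF L (M * q))]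
    [IsScalarTower (↥(A.comap ι))[X] B (Fermat.Agent.S24.FF L (M * q))]
    [IsIntegralClosure B (↥(A.comap ι))[X] (Fermat.Agent.S24.FF L (M * q))]
    [Algebra BM B]
    (hα : ∀ c : BM, algebraMap B (Fermat.Agent.S24.FF L (M * q)) (algebraMap BM B c) =
      heckeAlphaBar L M q (algebraMap BM (Fermat.Agent.S24.FF L M) c))
    (𝔫 : Ideal B) [𝔫.IsMaximal]
    (hk₁ : ∀ b : B, TwoGauss.rd (A.comap ι)
      ((algebraMap B (Fermat.Agent.S24.FF L (M * q)) b :
        Fermat.Agent.S24.FF L (M * q)) : LaurentSeries L) = 0 → b ∈ 𝔫)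
    (hk₂ : ∀ b : B, TwoGauss.rd (A.comap ι)
      ((w (algebraMap B (Fermat.Agent.S24.FF L (M * q)) b) :
        Fermat.Agent.S24.FF L (M * q)) : LaurentSeries L) = 0 → b ∈ 𝔫)
    (P : Ideal BM) [P.IsPrime] [𝔫.LiesOver P]
    [Algebra (Localization.AtPrime P) (Localization.AtPrime 𝔫)]
    [Localization.AtPrime.IsLiesOverAlgebra P 𝔫] :
    Module.Finite (Localization.AtPrime P) (Localization.AtPrime 𝔫) ∧ ∃ X ∈ 𝔫,
      TwoGauss.rd (A.comap ι) ((algebraMap B (Fermat.Agent.S24.FF L (M * q)) X :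
        Fermat.Agent.S24.FF L (M * q)) : LaurentSeries L) = 0 ∧
      Submodule.span (Localization.AtPrime P) (Set.range fun i : Fin (q + 1) =>
        algebraMap B (Localization.AtPrime 𝔫) X ^ (i : ℕ)) = ⊤ ∧
      Algebra.adjoin (Localization.AtPrime P) {algebraMap B (Localization.AtPrime 𝔫) X} = ⊤ ∧
      algebraMap B (Localization.AtPrime 𝔫) X ^ (q + 1) ∈
        Ideal.map (algebraMap (Localization.AtPrime P) (Localization.AtPrime 𝔫))
          (maximalIdeal (Localization.AtPrime P)) ∧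
      algebraMap B (Localization.AtPrime 𝔫) X ∉
        Ideal.map (algebraMap (Localization.AtPrime P) (Localization.AtPrime 𝔫))
          (maximalIdeal (Localization.AtPrime P)) :=
  node_mono_level_frob A ι M q hq hqM S hlev hstab π hπ w hwα hwβ halgM BM halg B hα 𝔫 hk₁ hk₂ P
    (Ideal.LiesOver.over (P := 𝔫) (p := P)).symm (Localization.AtPrime P)
    (Localization.AtPrime 𝔫)


end Fermat.Agent.S36.NodeOverInstF
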