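import Mathlib

/-!
# S36 (R-ord), (C1): a fibre all of whose points have a one-generated cotangent space is monogenic

`R₀ → B` a finite extension of rings (`B` noetherian), `P` a maximal ideal of `R₀` with infinite
residue field.  Assume that every maximal ideal `ν` of `B` over `P` has residue field `R₀ / P`
(`hres`) and that `ν = P B + (u) + ν²` for some `u` (`hsm`: the fibre is curvilinear at `ν`).
Then there is `h : B` such that

* `B` is generated by `h` over `R₀` locally at `P`: `∃ s ∉ P, ∀ b, s • b ∈ R₀[h]`;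
* every maximal ideal `ν` over `P` is `P B + (h - c)` for a constant `c : R₀`
  (in particular `h` separates the points of the fibre).
-/

set_option autoImplicit false
set_option linter.style.haveILetI false

namespace Fermat.Agent.S36.MonoFibre

open Ideal

variable {R₀ B : Type*} [CommRing R₀] [CommRing B] [Algebra R₀ B]

/-- the contraction of a maximal ideal containing `P B` is `P` -/
theorem mem_of_algebraMap_mem (P : Ideal R₀) [hP : P.IsMaximal] {ν : Ideal B} (hν : ν.IsMaximal)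
    (hle : P.map (algebraMap R₀ B) ≤ ν) {r : R₀} (hr : algebraMap R₀ B r ∈ ν) : r ∈ P := by
  have h1 : P ≤ ν.comap (algebraMap R₀ B) := Ideal.map_le_iff_le_comap.mp hle
  have h2 : ν.comap (algebraMap R₀ B) ≠ ⊤ := Ideal.comap_ne_top _ hν.ne_top
  have h3 := hP.eq_of_le h2 h1
  rw [h3]
  exact hr

/-- finitely many maximal ideals over `P` -/
theorem finite_over [Module.Finite R₀ B] (P : Ideal R₀) [hP : P.IsMaximal] :
    {ν : Ideal B | ν.IsMaximal ∧ P.map (algebraMap R₀ B) ≤ ν}.Finite := by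
  refine (Algebra.QuasiFinite.finite_primesOver (S := B) P).subset ?_
  rintro ν ⟨hν, hle⟩
  refine ⟨hν.isPrime, ⟨?_⟩⟩
  have h1 : P ≤ ν.comap (algebraMap R₀ B) := Ideal.map_le_iff_le_comap.mp hle
  have h2 : ν.comap (algebraMap R₀ B) ≠ ⊤ := Ideal.comap_ne_top _ hν.ne_top
  exact hP.eq_of_le h2 h1


/-- some power of an element lying in all maximal ideals over `P` lies in `P B` -/
theorem exists_pow_mem_map [Module.Finite R₀ B] (P : Ideal R₀) [hP : P.IsMaximal] {g : B}
    (hg : ∀ ν : Ideal B, ν.IsMaximal → P.map (algebraMap R₀ B) ≤ ν → g ∈ ν) :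
    ∃ N : ℕ, g ^ N ∈ P.map (algebraMap R₀ B) := by
  letI := Ideal.Quotient.field P
  haveI : Module.Finite (R₀ ⧸ P) (B ⧸ P.map (algebraMap R₀ B)) :=
    Module.Finite.of_restrictScalars_finite R₀ _ _
  haveI : IsArtinianRing (B ⧸ P.map (algebraMap R₀ B)) :=
    IsArtinianRing.of_finite (R₀ ⧸ P) (B ⧸ P.map (algebraMap R₀ B))
  obtain ⟨N, hN⟩ := IsArtinianRing.isNilpotent_jacobson_bot (R := B ⧸ P.map (algebraMap R₀ B))
  refine ⟨N, ?_⟩
  have h1 : g ∈ (P.map (algebraMap R₀ B)).jacobson := by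
    rw [Ideal.jacobson, Ideal.mem_sInf]
    rintro J ⟨hJ1, hJ2⟩
    exact hg J hJ2 hJ1
  have h2 : Ideal.Quotient.mk (P.map (algebraMap R₀ B)) g ∈
      (⊥ : Ideal (B ⧸ P.map (algebraMap R₀ B))).jacobson := by
    have h3 := Ideal.map_jacobson_of_surjective
      (f := Ideal.Quotient.mk (P.map (algebraMap R₀ B))) Ideal.Quotient.mk_surjective
      (I := P.map (algebraMap R₀ B)) (by rw [Ideal.mk_ker])
    rw [Ideal.map_quotient_self] at h3
    rw [← h3]
    exact Ideal.mem_map_of_mem _ h1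
  have h4 : (Ideal.Quotient.mk (P.map (algebraMap R₀ B)) g) ^ N ∈
      (⊥ : Ideal (B ⧸ P.map (algebraMap R₀ B))).jacobson ^ N := Ideal.pow_mem_pow h2 N
  rw [hN] at h4
  have h5 : Ideal.Quotient.mk (P.map (algebraMap R₀ B)) (g ^ N) = 0 := by
    rw [map_pow]
    exact h4
  exact Ideal.Quotient.eq_zero_iff_mem.mp h5


/-- Nakayama in the quotient: a maximal ideal `ν` with `ν ≤ J ⊔ ν ^ 2` which is the only maximal
ideal containing `J` equals `J` (provided `J ≤ ν`). -/
theorem le_of_le_sup_sq [IsNoetherianRing B] {ν J : Ideal B}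
    (hle : ν ≤ J ⊔ ν ^ 2)
    (honly : ∀ 𝔐 : Ideal B, 𝔐.IsMaximal → J ≤ 𝔐 → 𝔐 = ν) : ν ≤ J := by
  set mk := Ideal.Quotient.mk J with hmk
  have hsurj : Function.Surjective mk := Ideal.Quotient.mk_surjective
  have hjac : ν.map mk ≤ (⊥ : Ideal (B ⧸ J)).jacobson := by
    rw [Ideal.jacobson]
    refine le_sInf ?_
    rintro 𝔐 ⟨-, h𝔐⟩
    haveI := h𝔐
    have h1 : (𝔐.comap mk).IsMaximal := Ideal.comap_isMaximal_of_surjective mk hsurj
    have h2 : J ≤ 𝔐.comap mk := by
      intro x hx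
      rw [Ideal.mem_comap]
      have : mk x = 0 := Ideal.Quotient.eq_zero_iff_mem.mpr hx
      rw [this]
      exact 𝔐.zero_mem
    have h3 := honly _ h1 h2
    rw [← h3, Ideal.map_comap_of_surjective mk hsurj]
  have hsq : ν.map mk ≤ ν.map mk • (ν.map mk) := by
    have h1 : ν.map mk ≤ (J ⊔ ν ^ 2).map mk := Ideal.map_mono hle
    rw [Ideal.map_sup, Ideal.map_pow] at h1
    have h2 : J.map mk = ⊥ := by
      rw [Ideal.map_eq_bot_iff_le_ker, hmk, Ideal.mk_ker]
    rw [h2, bot_sup_eq, pow_two] at h1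
    exact h1
  have hfg : (ν.map mk).FG := IsNoetherian.noetherian _
  have h := Submodule.le_of_le_smul_of_le_jacobson_bot (N := (⊥ : Ideal (B ⧸ J)))
    (N' := ν.map mk) (I := ν.map mk) hfg hjac (by rw [bot_sup_eq]; exact hsq)
  have h2 : ν.map mk = ⊥ := le_bot_iff.mp h
  rw [Ideal.map_eq_bot_iff_le_ker, hmk, Ideal.mk_ker] at h2
  exact h2


/-- **Monogenic fibre.** -/
theorem exists_generator [Module.Finite R₀ B] [IsNoetherianRing B] (P : Ideal R₀)
    [hP : P.IsMaximal] [Infinite (R₀ ⧸ P)]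
    (hres : ∀ ν : Ideal B, ν.IsMaximal → P.map (algebraMap R₀ B) ≤ ν →
      ∀ b : B, ∃ c : R₀, b - algebraMap R₀ B c ∈ ν)
    (hsm : ∀ ν : Ideal B, ν.IsMaximal → P.map (algebraMap R₀ B) ≤ ν →
      ∃ u ∈ ν, ν ≤ P.map (algebraMap R₀ B) ⊔ Ideal.span {u} ⊔ ν ^ 2) :
    ∃ h : B, (∃ s : R₀, s ∉ P ∧ ∀ b : B, s • b ∈ Algebra.adjoin R₀ {h}) ∧
      ∀ ν : Ideal B, ν.IsMaximal → P.map (algebraMap R₀ B) ≤ ν →
        ∃ c : R₀, ν = P.map (algebraMap R₀ B) ⊔ Ideal.span {h - algebraMap R₀ B c} := by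
  classical
  set I : Ideal B := P.map (algebraMap R₀ B) with hI
  let S : Set (Ideal B) := {ν | ν.IsMaximal ∧ I ≤ ν}
  have hSfin : S.Finite := finite_over P
  haveI : Finite S := hSfin.to_subtype
  haveI : Fintype S := Fintype.ofFinite S
  -- pairwise distinct constants
  let e : S ↪ R₀ ⧸ P := (Fintype.equivFin S).toEmbedding.trans
    (Fin.valEmbedding.trans (Infinite.natEmbedding (R₀ ⧸ P)))
  choose c hc using fun i : S => Ideal.Quotient.mk_surjective (e i)
  have hcne : ∀ i j : S, i ≠ j → c i - c j ∉ P := by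
    intro i j hij hmem
    apply hij
    apply e.injective
    rw [← hc i, ← hc j]
    exact Ideal.Quotient.eq.mpr hmem
  choose u hu hule using fun i : S => hsm i.1 i.2.1 i.2.2
  -- CRT
  have hcop : Pairwise (Function.onFun IsCoprime fun i : S => (i.1 : Ideal B) ^ 2) := by
    intro i j hij
    have h1 : IsCoprime (i.1 : Ideal B) j.1 := by
      rw [Ideal.isCoprime_iff_sup_eq]
      exact i.2.1.coprime_of_ne j.2.1 (fun h => hij (Subtype.ext h))
    exact h1.pow
  obtain ⟨h, hh⟩ := Ideal.exists_forall_sub_mem_ideal hcop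
    (fun i => algebraMap R₀ B (c i) + u i)
  have hmem : ∀ i : S, h - algebraMap R₀ B (c i) ∈ (i.1 : Ideal B) := by
    intro i
    have h1 : h - (algebraMap R₀ B (c i) + u i) ∈ (i.1 : Ideal B) :=
      Ideal.pow_le_self two_ne_zero (hh i)
    have h2 : h - algebraMap R₀ B (c i) = (h - (algebraMap R₀ B (c i) + u i)) + u i := by ring
    rw [h2]
    exact (i.1 : Ideal B).add_mem h1 (hu i)
  -- Claim A
  have hA : ∀ i : S, (i.1 : Ideal B) = I ⊔ Ideal.span {h - algebraMap R₀ B (c i)} := by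
    intro i
    apply le_antisymm
    · apply le_of_le_sup_sq
      · -- ν ≤ J ⊔ ν²
        refine (hule i).trans ?_
        refine sup_le (sup_le (le_sup_of_le_left le_sup_left) ?_) le_sup_right
        rw [Ideal.span_singleton_le_iff_mem]
        have h2 : u i = (h - algebraMap R₀ B (c i)) - (h - (algebraMap R₀ B (c i) + u i)) := by
          ring
        rw [h2]
        refine Ideal.sub_mem _ ?_ ?_
        · exact Ideal.mem_sup_left (Ideal.mem_sup_right (Ideal.mem_span_singleton_self _))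
        · exact Ideal.mem_sup_right (hh i)
      · intro 𝔐 h𝔐 hJ𝔐
        by_contra hne
        have hI𝔐 : I ≤ 𝔐 := le_sup_left.trans hJ𝔐
        let j : S := ⟨𝔐, h𝔐, hI𝔐⟩
        have hji : j ≠ i := fun hji => hne (congrArg Subtype.val hji)
        have h1 : h - algebraMap R₀ B (c i) ∈ 𝔐 :=
          hJ𝔐 (Ideal.mem_sup_right (Ideal.mem_span_singleton_self _))
        have h2 : h - algebraMap R₀ B (c j) ∈ 𝔐 := hmem j
        have h3 : algebraMap R₀ B (c j - c i) ∈ 𝔐 := by
          have : algebraMap R₀ B (c j - c i) =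
              (h - algebraMap R₀ B (c i)) - (h - algebraMap R₀ B (c j)) := by
            rw [map_sub]; ring
          rw [this]
          exact 𝔐.sub_mem h1 h2
        exact hcne j i hji (mem_of_algebraMap_mem P h𝔐 hI𝔐 h3)
    · exact sup_le i.2.2 ((Ideal.span_singleton_le_iff_mem _).mpr (hmem i))
  refine ⟨h, ?_, ?_⟩
  swap
  · intro ν hν hle
    exact ⟨c ⟨ν, hν, hle⟩, hA ⟨ν, hν, hle⟩⟩
  -- Claim B
  let T : Set B := {b | ∃ n ∈ Algebra.adjoin R₀ {h}, b - n ∈ I}
  have hh_mem : h ∈ Algebra.adjoin R₀ {h} := Algebra.self_mem_adjoin_singleton R₀ h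
  have hTmul : ∀ a ∈ Algebra.adjoin R₀ {h}, ∀ t ∈ T, a * t ∈ T := by
    rintro a ha t ⟨n, hn, hx⟩
    refine ⟨a * n, Subalgebra.mul_mem _ ha hn, ?_⟩
    have : a * t - a * n = a * (t - n) := by ring
    rw [this]
    exact I.mul_mem_left a hx
  have hTadd : ∀ t ∈ T, ∀ t' ∈ T, t + t' ∈ T := by
    rintro t ⟨n, hn, hx⟩ t' ⟨n', hn', hx'⟩
    refine ⟨n + n', Subalgebra.add_mem _ hn hn', ?_⟩
    have : t + t' - (n + n') = (t - n) + (t' - n') := by ring
    rw [this]
    exact I.add_mem hx hx'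
  have hcmem : ∀ i : S, h - algebraMap R₀ B (c i) ∈ Algebra.adjoin R₀ {h} := fun i =>
    Subalgebra.sub_mem _ hh_mem (Subalgebra.algebraMap_mem _ _)
  have hB1 : ∀ (i : S) (b : B), ∃ t ∈ T, ∃ b' : B, b = t + (h - algebraMap R₀ B (c i)) * b' := by
    intro i b
    obtain ⟨c₀, hc₀⟩ := hres i.1 i.2.1 i.2.2 b
    rw [hA i] at hc₀
    obtain ⟨x, hx, y, hy, hxy⟩ := Submodule.mem_sup.mp hc₀
    obtain ⟨b', rfl⟩ := Ideal.mem_span_singleton'.mp hy
    refine ⟨algebraMap R₀ B c₀ + x, ⟨algebraMap R₀ B c₀, Subalgebra.algebraMap_mem _ _, ?_⟩, b', ?_⟩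
    · simpa using hx
    · have : b = algebraMap R₀ B c₀ + (b - algebraMap R₀ B c₀) := by ring
      rw [this, ← hxy]
      ring
  have hB2 : ∀ (F : Finset S) (b : B), ∃ t ∈ T, ∃ b' : B,
      b = t + (∏ i ∈ F, (h - algebraMap R₀ B (c i))) * b' := by
    intro F
    induction F using Finset.induction_on with
    | empty =>
      intro b
      exact ⟨0, ⟨0, Subalgebra.zero_mem _, by simp⟩, b, by simp⟩
    | insert i F hi ih =>
      intro b
      obtain ⟨t, ht, b', hb'⟩ := ih b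
      obtain ⟨t', ht', b'', hb''⟩ := hB1 i b'
      refine ⟨t + (∏ i ∈ F, (h - algebraMap R₀ B (c i))) * t', hTadd _ ht _ ?_, b'', ?_⟩
      · exact hTmul _ (Subalgebra.prod_mem _ (fun j _ => hcmem j)) _ ht'
      · rw [Finset.prod_insert hi, hb', hb'']
        ring
  set g : B := ∏ i ∈ (Finset.univ : Finset S), (h - algebraMap R₀ B (c i)) with hg
  have hgmem : g ∈ Algebra.adjoin R₀ {h} := Subalgebra.prod_mem _ (fun j _ => hcmem j)
  have hB3 : ∀ (N : ℕ) (b : B), ∃ t ∈ T, ∃ b' : B, b = t + g ^ N * b' := by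
    intro N
    induction N with
    | zero =>
      intro b
      exact ⟨0, ⟨0, Subalgebra.zero_mem _, by simp⟩, b, by simp⟩
    | succ N ih =>
      intro b
      obtain ⟨t, ht, b', hb'⟩ := ih b
      obtain ⟨t', ht', b'', hb''⟩ := hB2 Finset.univ b'
      refine ⟨t + g ^ N * t', hTadd _ ht _ (hTmul _ (Subalgebra.pow_mem _ hgmem N) _ ht'), b'', ?_⟩
      rw [hb', hb'', pow_succ]
      ring
  obtain ⟨N, hN⟩ := exists_pow_mem_map P (g := g) (by
    intro ν hν hle
    have h1 : h - algebraMap R₀ B (c ⟨ν, hν, hle⟩) ∈ ν := hmem ⟨ν, hν, hle⟩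
    rw [hg, ← Finset.mul_prod_erase Finset.univ _ (Finset.mem_univ (⟨ν, hν, hle⟩ : S))]
    exact ν.mul_mem_right _ h1)
  have hB5 : ∀ b : B, b ∈ T := by
    intro b
    obtain ⟨t, ⟨n, hn, hx⟩, b', hb'⟩ := hB3 N b
    refine ⟨n, hn, ?_⟩
    have : b - n = (t - n) + g ^ N * b' := by rw [hb']; ring
    rw [this]
    exact I.add_mem hx (I.mul_mem_right _ hN)
  -- Nakayama
  let Nsub : Submodule R₀ B := Subalgebra.toSubmodule (Algebra.adjoin R₀ {h})
  have htop : (⊤ : Submodule R₀ (B ⧸ Nsub)) ≤ P • (⊤ : Submodule R₀ (B ⧸ Nsub)) := by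
    rintro m -
    obtain ⟨b, rfl⟩ := Submodule.Quotient.mk_surjective Nsub m
    obtain ⟨n, hn, hx⟩ := hB5 b
    have h1 : (Submodule.Quotient.mk b : B ⧸ Nsub) = Submodule.Quotient.mk (b - n) := by
      rw [Submodule.Quotient.eq]
      have : b - (b - n) = n := by ring
      rw [this]
      exact hn
    rw [h1]
    have h2 : b - n ∈ P • (⊤ : Submodule R₀ B) := by
      rw [Ideal.smul_top_eq_map]
      exact hx
    have h3 : Nsub.mkQ (b - n) ∈ (P • (⊤ : Submodule R₀ B)).map Nsub.mkQ :=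
      Submodule.mem_map_of_mem h2
    rw [Submodule.map_smul''] at h3
    exact Submodule.smul_mono le_rfl le_top h3
  obtain ⟨r, hr1, hr2⟩ := Submodule.exists_sub_one_mem_and_smul_eq_zero_of_fg_of_le_smul P
    (⊤ : Submodule R₀ (B ⧸ Nsub)) (Module.finite_def.mp inferInstance) htop
  refine ⟨r, ?_, ?_⟩
  · intro hrP
    apply hP.ne_top
    rw [Ideal.eq_top_iff_one]
    have : (1 : R₀) = r - (r - 1) := by ring
    rw [this]
    exact P.sub_mem hrP hr1
  · intro b
    have h1 := hr2 (Submodule.Quotient.mk b) Submodule.mem_top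
    rw [← Submodule.Quotient.mk_smul, Submodule.Quotient.mk_eq_zero] at h1
    exact h1

end Fermat.Agent.S36.MonoFibre
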