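import Mathlib

/-!
# S36 (R-ord), (C2): the Frobenius shape of a minimal polynomial at a point of Frobenius type

`R` a domain (the local ring of the chart of level `M' q` at a smooth point of the component on
which `α` is purely inseparable), `π` a prime element dividing the prime number `q`, `R₀ → R`
(the chart of level `M'` under `α`) with the Kronecker congruence `hK`: every element of `R₀` is a
`q`-th power modulo `π`.  Let `m ∈ R₀[X]` be monic of degree `q + 1` with a root `h ∈ R` which is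
not a `q`-th power in the fraction field of `R ⧸ (π)` (`hnp`).  Then

`m (T + h) ≡ T ^ q * (T + a)  mod π`

for some `a ∈ R` (`frob_shape`): modulo `π` the polynomial `m` is `(T - h) ^ q * (T - c)`.

Proof: `n := ∑ bᵢ Xⁱ` with `bᵢ ^ q = mᵢ` modulo `π`; the ring homomorphism
`G ↦ ∑ Frob (Gᵢ) hⁱ` on `K[X]` (`K` the fraction field of `R ⧸ (π)`) kills `n` and the irreducible
polynomial `X ^ q - h`, so `X ^ q - h ∣ n`; applying Frobenius to the coefficients,
`X ^ q - h ^ q ∣ m` over `K`, hence over `R ⧸ (π)` (division by a monic polynomial).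
-/

set_option autoImplicit false
set_option linter.style.haveILetI false

namespace Fermat.Agent.S36.FrobShape

open Polynomial

/-- **Frobenius shape.**  See the module docstring. -/
theorem frob_shape {R₀ R : Type*} [CommRing R₀] [CommRing R] [IsDomain R] [Algebra R₀ R]
    (q : ℕ) (hq : q.Prime) (π : R) (hπ : Prime π) (hqπ : π ∣ (q : R))
    (m : R₀[X]) (hm : m.Monic) (hdeg : m.natDegree = q + 1) (h : R) (hroot : aeval h m = 0)
    (hK : ∀ c : R₀, ∃ b : R, π ∣ algebraMap R₀ R c - b ^ q)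
    (hnp : ∀ x y : R, π ∣ y ^ q * h - x ^ q → π ∣ y) :
    ∃ (a : R) (Q : R[X]),
      (m.map (algebraMap R₀ R)).comp (X + C h) = X ^ q * (X + C a) + C π * Q := by
  classical
  haveI : Fact q.Prime := ⟨hq⟩
  haveI hprime : (Ideal.span {π}).IsPrime := (Ideal.span_singleton_prime hπ.ne_zero).2 hπ
  let mk : R →+* R ⧸ Ideal.span {π} := Ideal.Quotient.mk _
  have hmk0 : ∀ x : R, mk x = 0 ↔ π ∣ x := fun x => by
    rw [Ideal.Quotient.eq_zero_iff_mem, Ideal.mem_span_singleton]
  haveI : CharP (R ⧸ Ideal.span {π}) q := by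
    have h0 : ((q : ℕ) : R ⧸ Ideal.span {π}) = 0 := by
      have h1 : mk (q : R) = 0 := (hmk0 _).2 hqπ
      rw [map_natCast] at h1
      exact h1
    exact (CharP.charP_iff_prime_eq_zero hq).2 h0
  haveI : CharP (FractionRing (R ⧸ Ideal.span {π})) q :=
    charP_of_injective_algebraMap
      (IsFractionRing.injective (R ⧸ Ideal.span {π}) (FractionRing (R ⧸ Ideal.span {π}))) q
  -- the reduced polynomial
  obtain ⟨mb, hmb⟩ : ∃ mb : (R ⧸ Ideal.span {π})[X], mb = (m.map (algebraMap R₀ R)).map mk :=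
    ⟨_, rfl⟩
  have hmb_monic : mb.Monic := by rw [hmb]; exact (hm.map _).map _
  have hmb_deg : mb.natDegree = q + 1 := by
    rw [hmb, (hm.map _).natDegree_map, hm.natDegree_map, hdeg]
  have hmb_root : mb.eval (mk h) = 0 := by
    rw [hmb, eval_map, eval₂_at_apply, eval_map, ← aeval_def, hroot, map_zero]
  -- the coefficients are `q`-th powers
  have hcoef : ∀ i, ∃ b : R ⧸ Ideal.span {π}, b ^ q = mb.coeff i := by
    intro i
    obtain ⟨b, hb⟩ := hK (m.coeff i)
    refine ⟨mk b, ?_⟩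
    have h1 : mk (algebraMap R₀ R (m.coeff i) - b ^ q) = 0 := (hmk0 _).2 hb
    rw [map_sub, sub_eq_zero, map_pow] at h1
    rw [hmb, coeff_map, coeff_map]
    exact h1.symm
  choose β hβ using hcoef
  obtain ⟨n, hndef⟩ : ∃ n : (R ⧸ Ideal.span {π})[X],
      n = ∑ i ∈ Finset.range (q + 2), monomial i (β i) := ⟨_, rfl⟩
  have hn : n.map (frobenius (R ⧸ Ideal.span {π}) q) = mb := by
    ext i
    rw [coeff_map, hndef, finsetSum_coeff]
    simp only [coeff_monomial]
    rw [Finset.sum_ite_eq']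
    by_cases hi : i ∈ Finset.range (q + 2)
    · rw [if_pos hi, frobenius_def, hβ]
    · rw [if_neg hi, map_zero]
      symm
      apply coeff_eq_zero_of_natDegree_lt
      rw [hmb_deg]
      rw [Finset.mem_range] at hi
      omega
  -- the fraction field
  obtain ⟨hb, hhb⟩ : ∃ hb : FractionRing (R ⧸ Ideal.span {π}),
      hb = algebraMap (R ⧸ Ideal.span {π}) (FractionRing (R ⧸ Ideal.span {π})) (mk h) := ⟨_, rfl⟩
  have hinjK : Function.Injective
      (algebraMap (R ⧸ Ideal.span {π}) (FractionRing (R ⧸ Ideal.span {π}))) :=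
    IsFractionRing.injective _ _
  have hg_irr : Irreducible (X ^ q - C hb : (FractionRing (R ⧸ Ideal.span {π}))[X]) := by
    apply X_pow_sub_C_irreducible_of_prime hq
    intro b hb'
    obtain ⟨x, y, hy, rfl⟩ := IsFractionRing.div_surjective (A := R ⧸ Ideal.span {π}) b
    have hy0 : algebraMap (R ⧸ Ideal.span {π}) (FractionRing (R ⧸ Ideal.span {π})) y ≠ 0 := by
      intro h0
      exact (nonZeroDivisors.ne_zero hy) (hinjK (by rw [h0, map_zero]))
    rw [div_pow, div_eq_iff (pow_ne_zero q hy0), hhb, ← map_pow, ← map_pow, ← map_mul] at hb'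
    have h1 := hinjK hb'
    obtain ⟨x', rfl⟩ := Ideal.Quotient.mk_surjective x
    obtain ⟨y', rfl⟩ := Ideal.Quotient.mk_surjective y
    have h2 : mk (y' ^ q * h - x' ^ q) = 0 := by
      rw [map_sub, map_mul, map_pow, map_pow, sub_eq_zero, mul_comm]
      exact h1.symm
    have h3 : π ∣ y' := hnp x' y' ((hmk0 _).1 h2)
    exact (nonZeroDivisors.ne_zero hy) ((hmk0 y').2 h3)
  have hcomm : (frobenius (FractionRing (R ⧸ Ideal.span {π})) q).comp
      (algebraMap (R ⧸ Ideal.span {π}) (FractionRing (R ⧸ Ideal.span {π}))) =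
      (algebraMap (R ⧸ Ideal.span {π}) (FractionRing (R ⧸ Ideal.span {π}))).comp
        (frobenius (R ⧸ Ideal.span {π}) q) := by
    ext x
    simp only [RingHom.comp_apply, frobenius_def, map_pow]
  obtain ⟨φ, hφ⟩ : ∃ φ : (FractionRing (R ⧸ Ideal.span {π}))[X] →+*
      FractionRing (R ⧸ Ideal.span {π}),
      φ = eval₂RingHom (frobenius (FractionRing (R ⧸ Ideal.span {π})) q) hb := ⟨_, rfl⟩
  have hφg : φ (X ^ q - C hb) = 0 := by
    rw [hφ, coe_eval₂RingHom, eval₂_sub, eval₂_pow, eval₂_X, eval₂_C, frobenius_def, sub_self]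
  have hφn : φ (n.map (algebraMap (R ⧸ Ideal.span {π})
      (FractionRing (R ⧸ Ideal.span {π})))) = 0 := by
    rw [hφ, coe_eval₂RingHom, eval₂_map, hcomm, ← eval₂_map, hn, hhb, eval₂_at_apply, hmb_root,
      map_zero]
  have hdvd : (X ^ q - C hb : (FractionRing (R ⧸ Ideal.span {π}))[X]) ∣
      n.map (algebraMap (R ⧸ Ideal.span {π}) (FractionRing (R ⧸ Ideal.span {π}))) := by
    rcases EuclideanDomain.dvd_or_coprime _
      (n.map (algebraMap (R ⧸ Ideal.span {π}) (FractionRing (R ⧸ Ideal.span {π})))) hg_irr with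
      h1 | h1
    · exact h1
    · exfalso
      obtain ⟨u, v, huv⟩ := h1
      have h2 := congrArg φ huv
      rw [map_add, map_mul, map_mul, hφg, hφn, mul_zero, mul_zero, add_zero, map_one] at h2
      exact zero_ne_one h2
  have hdvd' : (X ^ q - C (hb ^ q) : (FractionRing (R ⧸ Ideal.span {π}))[X]) ∣
      mb.map (algebraMap (R ⧸ Ideal.span {π}) (FractionRing (R ⧸ Ideal.span {π}))) := by
    obtain ⟨l, hl⟩ := hdvd
    refine ⟨l.map (frobenius (FractionRing (R ⧸ Ideal.span {π})) q), ?_⟩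
    have h1 : (n.map (algebraMap (R ⧸ Ideal.span {π})
        (FractionRing (R ⧸ Ideal.span {π})))).map
        (frobenius (FractionRing (R ⧸ Ideal.span {π})) q) =
        mb.map (algebraMap (R ⧸ Ideal.span {π}) (FractionRing (R ⧸ Ideal.span {π}))) := by
      rw [Polynomial.map_map, hcomm, ← Polynomial.map_map, hn]
    rw [← h1, hl, Polynomial.map_mul, Polynomial.map_sub, Polynomial.map_pow, map_X, map_C,
      frobenius_def]
  -- descend the division to `k[X]`
  obtain ⟨g₀, hg₀⟩ : ∃ g₀ : (R ⧸ Ideal.span {π})[X], g₀ = X ^ q - C (mk h ^ q) := ⟨_, rfl⟩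
  have hg₀_monic : g₀.Monic := by rw [hg₀]; exact monic_X_pow_sub_C _ hq.ne_zero
  have hg₀_map : g₀.map (algebraMap (R ⧸ Ideal.span {π})
      (FractionRing (R ⧸ Ideal.span {π}))) = X ^ q - C (hb ^ q) := by
    rw [hg₀, Polynomial.map_sub, Polynomial.map_pow, map_X, map_C, map_pow, hhb]
  have hmod : mb %ₘ g₀ = 0 := by
    apply Polynomial.map_injective _ hinjK
    rw [Polynomial.map_modByMonic _ hg₀_monic, Polynomial.map_zero,
      Polynomial.modByMonic_eq_zero_iff_dvd (hg₀_monic.map _), hg₀_map]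
    exact hdvd'
  have hfac : mb = g₀ * (mb /ₘ g₀) := by
    have h1 := Polynomial.modByMonic_add_div mb g₀
    rw [hmod, zero_add] at h1
    exact h1.symm
  obtain ⟨l₀, hl₀⟩ : ∃ l₀ : (R ⧸ Ideal.span {π})[X], l₀ = mb /ₘ g₀ := ⟨_, rfl⟩
  rw [← hl₀] at hfac
  have hl₀_monic : l₀.Monic := by
    have h1 : (g₀ * l₀).Monic := hfac ▸ hmb_monic
    exact hg₀_monic.of_mul_monic_left h1
  have hl₀_deg : l₀.natDegree = 1 := by
    have h1 : (g₀ * l₀).natDegree = g₀.natDegree + l₀.natDegree :=
      hg₀_monic.natDegree_mul hl₀_monic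
    rw [← hfac, hmb_deg, hg₀, natDegree_X_pow_sub_C] at h1
    omega
  have hl₀_eq : l₀ = X + C (l₀.coeff 0) := hl₀_monic.eq_X_add_C hl₀_deg
  have hg₀_comp : g₀.comp (X + C (mk h)) = X ^ q := by
    rw [hg₀, sub_comp, pow_comp, X_comp, C_comp, add_pow_char, ← C_pow]
    ring
  obtain ⟨a, ha⟩ := Ideal.Quotient.mk_surjective (mk h + l₀.coeff 0)
  have hcomp : mb.comp (X + C (mk h)) = X ^ q * (X + C (mk a)) := by
    have h1 : mb.comp (X + C (mk h)) = (g₀ * l₀).comp (X + C (mk h)) := by rw [← hfac]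
    rw [h1, mul_comp, hg₀_comp, hl₀_eq, add_comp, X_comp, C_comp]
    have h2 : mk a = mk h + l₀.coeff 0 := ha
    rw [h2, C_add]
    ring
  -- lift to `R`
  refine ⟨a, ?_⟩
  have hPmap : ((m.map (algebraMap R₀ R)).comp (X + C h) - X ^ q * (X + C a)).map mk = 0 := by
    rw [Polynomial.map_sub, Polynomial.map_comp, Polynomial.map_mul, Polynomial.map_pow,
      Polynomial.map_add, Polynomial.map_add, map_X, map_C, map_C, ← hmb, hcomp, sub_self]
  have hdiv : C π ∣ (m.map (algebraMap R₀ R)).comp (X + C h) - X ^ q * (X + C a) := by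
    rw [Polynomial.C_dvd_iff_dvd_coeff]
    intro i
    have h1 : (((m.map (algebraMap R₀ R)).comp (X + C h) - X ^ q * (X + C a)).map mk).coeff i
        = 0 := by rw [hPmap, coeff_zero]
    rw [coeff_map] at h1
    exact (hmk0 _).1 h1
  obtain ⟨Q, hQ⟩ := hdiv
  exact ⟨Q, by rw [← hQ]; ring⟩

end Fermat.Agent.S36.FrobShape
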