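import Mathlib
import Fermat.Agent.S36.FrobShape

/-!
# S36 (R-ord), (C3) + (C4): the different at a point of Frobenius type, and the two-point shape

`R` a noetherian local domain (the local ring of the chart of level `M' q` at a smooth point of the
component on which `α` is purely inseparable), `π` a prime element, `M ∈ R[X]` with a root `h` and
the Frobenius shape `M (T + h) = T ^ q * (T + a) + π Q (T)` (`FrobShape.frob_shape`).

* `exists_shape` (pure algebra): `M = (T - h) * ((T - (h - a)) * (T - h) ^ (q - 1) + π G₁)`, so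
  `M /ₘ (T - h) = (T - (h - a)) * (T - h) ^ (q - 1) + π G₁` and `M' (h) = π G₁ (h)`;
* `isUnit_of_sep` : `a` is a unit if some `c` with `h - c` a unit has `M (c) ∈ 𝔪` (a second point
  in the fibre);
* `isUnit_of_minimalPrimes` : if `D = π η` divides `π E` with `π ∤ E` and every prime minimal over
  `(D)` contains `π` (no horizontal ramification), then `η` is a unit (Krull's principal ideal
  theorem);
* `ord_diff`, `ord_twoPoint` : the assembled statements; the output is verbatim the hypothesis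
  list of `TwoPoint` (`c = h - a`, `d = h`, `e = q - 1`).
-/

set_option autoImplicit false
set_option linter.style.haveILetI false

namespace Fermat.Agent.S36.OrdDiff

open Polynomial IsLocalRing

section Shape

variable {R : Type*} [CommRing R] [IsDomain R]

/-- **The two-point shape from the Frobenius shape** (pure algebra). -/
theorem exists_shape (q : ℕ) (hq : 2 ≤ q) (π : R) (hπ0 : π ≠ 0) (M : R[X]) (h : R)
    (hroot : M.eval h = 0) (a : R) (Q : R[X])
    (hshape : M.comp (X + C h) = X ^ q * (X + C a) + C π * Q) :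
    ∃ G₁ : R[X],
      M = (X - C h) * ((X - C (h - a)) * (X - C h) ^ (q - 1) + C π * G₁) ∧
      M /ₘ (X - C h) = (X - C (h - a)) * (X - C h) ^ (q - 1) + C π * G₁ ∧
      M.derivative.eval h = π * G₁.eval h := by
  have hq0 : q ≠ 0 := by omega
  -- `Q (0) = 0`
  have h0 : π * Q.eval 0 = 0 := by
    have h1 := congrArg (eval 0) hshape
    rw [eval_comp, eval_add, eval_X, eval_C, zero_add, hroot] at h1
    simp only [eval_add, eval_mul, eval_pow, eval_X, eval_C, zero_pow hq0, zero_mul,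
      zero_add] at h1
    exact h1.symm
  have hQ0 : Q.coeff 0 = 0 := by
    rw [coeff_zero_eq_eval_zero]
    exact (mul_eq_zero.1 h0).resolve_left hπ0
  obtain ⟨Q₁, rfl⟩ := X_dvd_iff.2 hQ0
  -- shift back
  have hM : M = (M.comp (X + C h)).comp (X - C h) := by
    rw [comp_assoc, add_comp, X_comp, C_comp, sub_add_cancel, comp_X]
  refine ⟨Q₁.comp (X - C h), ?_⟩
  have hfac : M = (X - C h) *
      ((X - C (h - a)) * (X - C h) ^ (q - 1) + C π * Q₁.comp (X - C h)) := by
    have hpow : (X - C h : R[X]) ^ q = (X - C h) * (X - C h) ^ (q - 1) := by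
      rw [← pow_succ', Nat.sub_add_cancel (by omega : 1 ≤ q)]
    conv_lhs => rw [hM, hshape]
    simp only [add_comp, mul_comp, pow_comp, X_comp, C_comp]
    rw [hpow, C_sub]
    ring
  refine ⟨hfac, ?_, ?_⟩
  · conv_lhs => rw [hfac]
    exact mul_divByMonic_cancel_left _ (monic_X_sub_C h)
  · conv_lhs => rw [hfac]
    rw [derivative_mul, derivative_sub, derivative_X, derivative_C, sub_zero, one_mul]
    simp only [eval_add, eval_mul, eval_sub, eval_X, eval_C, eval_pow, sub_self, zero_mul,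
      add_zero]
    rw [zero_pow (by omega : q - 1 ≠ 0), mul_zero, zero_add]

end Shape

section Local

variable {R : Type*} [CommRing R] [IsLocalRing R]

/-- **(C3)**: `a` is a unit, from a second point of the fibre. -/
theorem isUnit_of_sep (q : ℕ) (π : R) (hπ : π ∈ maximalIdeal R) (M : R[X]) (h a : R) (Q : R[X])
    (hshape : M.comp (X + C h) = X ^ q * (X + C a) + C π * Q) (c : R)
    (hc : M.eval c ∈ maximalIdeal R) (hu : IsUnit (h - c)) : IsUnit a := by
  have h1 := congrArg (eval (c - h)) hshape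
  rw [eval_comp, eval_add, eval_X, eval_C, sub_add_cancel] at h1
  simp only [eval_add, eval_mul, eval_pow, eval_X, eval_C] at h1
  have hu' : IsUnit ((c - h) ^ q) := by
    have h2 : c - h = -(h - c) := by ring
    rw [h2]
    exact hu.neg.pow q
  have h3 : (c - h) ^ q * (c - h + a) ∈ maximalIdeal R := by
    have h4 : (c - h) ^ q * (c - h + a) = M.eval c - π * Q.eval (c - h) := by
      rw [h1]; ring
    rw [h4]
    exact (maximalIdeal R).sub_mem hc ((maximalIdeal R).mul_mem_right _ hπ)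
  have h5 : c - h + a ∈ maximalIdeal R := (Ideal.unit_mul_mem_iff_mem _ hu').1 h3
  by_contra ha
  have ha' : a ∈ maximalIdeal R := (mem_maximalIdeal a).2 ha
  have h6 : h - c ∈ maximalIdeal R := by
    have h7 : h - c = a - (c - h + a) := by ring
    rw [h7]
    exact (maximalIdeal R).sub_mem ha' h5
  exact (mem_maximalIdeal _).1 h6 hu

variable [IsDomain R] [IsNoetherianRing R]

/-- **(C4)**: if `D = π η` divides `π E` with `π ∤ E` and every prime minimal over `(D)` contains
the prime element `π`, then `η` is a unit. -/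
theorem isUnit_of_minimalPrimes (π : R) (hπ : Prime π) (D η : R) (hD : D = π * η)
    (hE : ∃ E : R, D ∣ π * E ∧ ¬ π ∣ E)
    (hT3 : ∀ 𝔮 ∈ (Ideal.span {D} : Ideal R).minimalPrimes, π ∈ 𝔮) : IsUnit η := by
  obtain ⟨E, hDE, hπE⟩ := hE
  have hηE : η ∣ E := by
    rw [hD] at hDE
    exact (mul_dvd_mul_iff_left hπ.ne_zero).1 hDE
  have hπη : ¬ π ∣ η := fun h => hπE (h.trans hηE)
  by_contra hη
  have hηm : η ∈ maximalIdeal R := (mem_maximalIdeal η).2 hη
  have hle : (Ideal.span {η} : Ideal R) ≤ maximalIdeal R :=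
    (Ideal.span_singleton_le_iff_mem _).2 hηm
  obtain ⟨𝔮, h𝔮, -⟩ := Ideal.exists_minimalPrimes_le hle
  haveI h𝔮prime : 𝔮.IsPrime := h𝔮.1.1
  have hη𝔮 : η ∈ 𝔮 := h𝔮.1.2 (Ideal.mem_span_singleton_self η)
  have hht : 𝔮.height ≤ 1 :=
    Ideal.height_le_one_of_isPrincipal_of_mem_minimalPrimes (Ideal.span {η}) 𝔮 h𝔮
  have hD𝔮 : (Ideal.span {D} : Ideal R) ≤ 𝔮 := by
    rw [Ideal.span_singleton_le_iff_mem, hD]
    exact 𝔮.mul_mem_left _ hη𝔮
  obtain ⟨𝔮', h𝔮', h𝔮'le⟩ := Ideal.exists_minimalPrimes_le hD𝔮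
  have hπ𝔮 : π ∈ 𝔮 := h𝔮'le (hT3 𝔮' h𝔮')
  haveI hπprime : (Ideal.span {π} : Ideal R).IsPrime :=
    (Ideal.span_singleton_prime hπ.ne_zero).2 hπ
  have hlt : (Ideal.span {π} : Ideal R) < 𝔮 := by
    refine lt_of_le_of_ne ((Ideal.span_singleton_le_iff_mem _).2 hπ𝔮) ?_
    intro heq
    apply hπη
    have : η ∈ Ideal.span {π} := by rw [heq]; exact hη𝔮
    exact Ideal.mem_span_singleton.1 this
  have h1 : (Ideal.span {π} : Ideal R).height < 𝔮.height :=
    Ideal.height_strict_mono_of_isPrime_of_isPrime hlt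
  have h2 : (Ideal.span {π} : Ideal R).height = 0 := by
    have h3 : (Ideal.span {π} : Ideal R).height < 1 := lt_of_lt_of_le h1 hht
    exact Order.lt_one_iff.1 h3
  rw [Ideal.height_eq_zero_iff_eq_bot, Ideal.span_singleton_eq_bot] at h2
  exact hπ.ne_zero h2

end Local

section Main

variable {R₀ R : Type*} [CommRing R₀] [CommRing R] [IsDomain R] [IsNoetherianRing R]
  [IsLocalRing R] [Algebra R₀ R]

/-- **(C3) + (C4), assembled**, from the Frobenius shape.  The conclusion is the hypothesis list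
of `TwoPoint` for `H := m /ₘ (T - h)`, `c := h - a`, `d := h`, `e := q - 1`. -/
theorem ord_diff (q : ℕ) (hq : 2 ≤ q) (π : R) (hπ : Prime π) (m : R₀[X]) (h : R)
    (hroot : aeval h m = 0) (a : R) (Q : R[X])
    (hshape : (m.map (algebraMap R₀ R)).comp (X + C h) = X ^ q * (X + C a) + C π * Q)
    (hsep : ∃ c : R₀, algebraMap R₀ R (m.eval c) ∈ maximalIdeal R ∧
      IsUnit (h - algebraMap R₀ R c))
    (hE : ∃ E : R, aeval h (derivative m) ∣ π * E ∧ ¬ π ∣ E)
    (hT3 : ∀ 𝔮 ∈ (Ideal.span {aeval h (derivative m)} : Ideal R).minimalPrimes, π ∈ 𝔮) :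
    IsUnit a ∧ IsUnit (h - a - h) ∧ ∃ G₁ : R[X], IsUnit (G₁.eval h) ∧
      aeval h (derivative m) = π * G₁.eval h ∧
      (m.map (algebraMap R₀ R)) /ₘ (X - C h) =
        (X - C (h - a)) * (X - C h) ^ (q - 1) + C π * G₁ ∧
      m.map (algebraMap R₀ R) = (X - C h) * ((m.map (algebraMap R₀ R)) /ₘ (X - C h)) := by
  have hπm : π ∈ maximalIdeal R := (mem_maximalIdeal π).2 hπ.not_isUnit
  have hroot' : (m.map (algebraMap R₀ R)).eval h = 0 := by
    rw [eval_map, ← aeval_def, hroot]
  have hder : aeval h (derivative m) = (m.map (algebraMap R₀ R)).derivative.eval h := by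
    rw [derivative_map, eval_map, ← aeval_def]
  obtain ⟨c, hc, hu⟩ := hsep
  have hc' : (m.map (algebraMap R₀ R)).eval (algebraMap R₀ R c) ∈ maximalIdeal R := by
    rw [eval_map, eval₂_at_apply]
    exact hc
  have ha : IsUnit a :=
    isUnit_of_sep q π hπm (m.map (algebraMap R₀ R)) h a Q hshape (algebraMap R₀ R c) hc' hu
  obtain ⟨G₁, hfac, hdiv, hD⟩ :=
    exists_shape q hq π hπ.ne_zero (m.map (algebraMap R₀ R)) h hroot' a Q hshape
  have hη : IsUnit (G₁.eval h) := by
    refine isUnit_of_minimalPrimes π hπ (aeval h (derivative m)) (G₁.eval h) ?_ hE hT3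
    rw [hder, hD]
  refine ⟨ha, ?_, G₁, hη, ?_, hdiv, ?_⟩
  · have h1 : h - a - h = -a := by ring
    rw [h1]
    exact ha.neg
  · rw [hder, hD]
  · rw [hdiv]
    exact hfac

/-- **(C2) + (C3) + (C4)**: `FrobShape.frob_shape` and `ord_diff` in one statement. -/
theorem ord_twoPoint (q : ℕ) (hq : q.Prime) (π : R) (hπ : Prime π) (hqπ : π ∣ (q : R))
    (m : R₀[X]) (hm : m.Monic) (hdeg : m.natDegree = q + 1) (h : R) (hroot : aeval h m = 0)
    (hK : ∀ c : R₀, ∃ b : R, π ∣ algebraMap R₀ R c - b ^ q)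
    (hnp : ∀ x y : R, π ∣ y ^ q * h - x ^ q → π ∣ y)
    (hsep : ∃ c : R₀, algebraMap R₀ R (m.eval c) ∈ maximalIdeal R ∧
      IsUnit (h - algebraMap R₀ R c))
    (hE : ∃ E : R, aeval h (derivative m) ∣ π * E ∧ ¬ π ∣ E)
    (hT3 : ∀ 𝔮 ∈ (Ideal.span {aeval h (derivative m)} : Ideal R).minimalPrimes, π ∈ 𝔮) :
    ∃ (a : R) (G₁ : R[X]), IsUnit (h - a - h) ∧ IsUnit (G₁.eval h) ∧
      aeval h (derivative m) = π * G₁.eval h ∧
      (m.map (algebraMap R₀ R)) /ₘ (X - C h) =
        (X - C (h - a)) * (X - C h) ^ (q - 1) + C π * G₁ ∧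
      ((m.map (algebraMap R₀ R)) /ₘ (X - C h)).Monic ∧
      ((m.map (algebraMap R₀ R)) /ₘ (X - C h)).natDegree = q ∧
      ((m.map (algebraMap R₀ R)) /ₘ (X - C h)).eval h = π * G₁.eval h := by
  obtain ⟨a, Q, hshape⟩ := FrobShape.frob_shape q hq π hπ hqπ m hm hdeg h hroot hK hnp
  obtain ⟨-, hcd, G₁, hη, hD, hdiv, hfac⟩ :=
    ord_diff q hq.two_le π hπ m h hroot a Q hshape hsep hE hT3
  have hmonic : (m.map (algebraMap R₀ R)).Monic := hm.map _
  have hGmonic : ((m.map (algebraMap R₀ R)) /ₘ (X - C h)).Monic := by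
    have h1 : ((X - C h) * ((m.map (algebraMap R₀ R)) /ₘ (X - C h))).Monic := hfac ▸ hmonic
    exact (monic_X_sub_C h).of_mul_monic_left h1
  refine ⟨a, G₁, hcd, hη, hD, hdiv, hGmonic, ?_, ?_⟩
  · have h1 : ((X - C h) * ((m.map (algebraMap R₀ R)) /ₘ (X - C h))).natDegree =
        (X - C h : R[X]).natDegree + ((m.map (algebraMap R₀ R)) /ₘ (X - C h)).natDegree :=
      (monic_X_sub_C h).natDegree_mul hGmonic
    rw [← hfac, hm.natDegree_map, hdeg, natDegree_X_sub_C] at h1
    omega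
  · rw [hdiv]
    simp only [eval_add, eval_mul, eval_sub, eval_X, eval_C, eval_pow, sub_self]
    rw [zero_pow (by have := hq.two_le; omega : q - 1 ≠ 0), mul_zero, zero_add]

end Main

end Fermat.Agent.S36.OrdDiff
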