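import Mathlib
import Fermat.Agent.S36.MonoFibre
import Fermat.Agent.S36.OrdDiff

/-!
# S36 (R-ord): the hypotheses of `OrdDiff.ord_twoPoint` from a monogenic fibre

`R₀ → B` the charts of levels `M'` and `M' q` (through `α`), `P` a maximal ideal of `R₀`,
`h ∈ B` a generator as produced by `MonoFibre.exists_generator`: every maximal ideal of `B` over
`P` is `P B + (h - c)` for a constant `c : R₀`.  `ν` is such a maximal ideal, `R = B_ν`, and `π` a
prime element of `R` dividing the prime number `q` with `R ⧸ (π)` a discrete valuation ring (the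
branch through a smooth point), and the Kronecker congruence `hK` holds (every element of `R₀` is a
`q`-th power in `R` modulo `π`).

* `irreducible_of_le_sup_sq` : in a discrete valuation ring, `t ∈ 𝔪` with `𝔪 ≤ (t) + 𝔪 ^ 2` is a
  uniformiser;
* `hnp_of_irreducible` : if `h - c` is a uniformiser of `R ⧸ (π)` and `c` is a `q`-th power modulo
  `π`, then `h` is not a `q`-th power in the fraction field of `R ⧸ (π)` (the hypothesis `hnp` of
  `FrobShape.frob_shape`);
* `hnp_of_fibre` : the same from `ν = P B + (h - c)` and `hK`;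
* `hsep_of_fibre` : a second point `ν' = P B + (h - c')` of the fibre gives the hypothesis `hsep`
  of `OrdDiff.ord_diff` (`m (c') ∈ 𝔪_R`, `h - c'` a unit of `R`);
* `ord_twoPoint_of_fibre` : `OrdDiff.ord_twoPoint` with `hnp` and `hsep` discharged.
-/

set_option autoImplicit false
set_option linter.style.haveILetI false

namespace Fermat.Agent.S36.OrdFibre

open Polynomial IsLocalRing

/-! ### Uniformisers -/

section DVR

variable {k : Type*} [CommRing k] [IsDomain k] [IsDiscreteValuationRing k]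

/-- In a discrete valuation ring, an element `t` of the maximal ideal with `𝔪 ≤ (t) + 𝔪 ^ 2` is
a uniformiser. -/
theorem irreducible_of_le_sup_sq (t : k) (ht : t ∈ maximalIdeal k)
    (hgen : maximalIdeal k ≤ Ideal.span {t} ⊔ maximalIdeal k ^ 2) : Irreducible t := by
  rw [IsDiscreteValuationRing.irreducible_iff_uniformizer]
  refine le_antisymm ?_ ((Ideal.span_singleton_le_iff_mem _).2 ht)
  refine Submodule.le_of_le_smul_of_le_jacobson_bot (I := maximalIdeal k)
    (IsNoetherian.noetherian _) ?_ ?_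
  · rw [IsLocalRing.jacobson_eq_maximalIdeal ⊥ bot_ne_top]
  · rw [smul_eq_mul, ← pow_two]
    exact hgen

end DVR

/-! ### `h` is not a `q`-th power modulo `π` -/

section Hnp

variable {R : Type*} [CommRing R]

/-- **(hnp)** if `h - c` is a uniformiser of the discrete valuation ring `R ⧸ (π)` (of
characteristic `q`) and `c` is a `q`-th power modulo `π`, then `y ^ q * h ≡ x ^ q` modulo `π`
forces `π ∣ y`. -/
theorem hnp_of_irreducible (q : ℕ) (hq : q.Prime) (π : R) (hqπ : π ∣ (q : R))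
    [IsDomain (R ⧸ Ideal.span {π})] [IsDiscreteValuationRing (R ⧸ Ideal.span {π})]
    (h c e₀ : R) (hc : π ∣ c - e₀ ^ q)
    (ht : Irreducible (Ideal.Quotient.mk (Ideal.span {π}) (h - c))) :
    ∀ x y : R, π ∣ y ^ q * h - x ^ q → π ∣ y := by
  intro x y hxy
  haveI : Fact q.Prime := ⟨hq⟩
  let mk : R →+* R ⧸ Ideal.span {π} := Ideal.Quotient.mk _
  have hmk0 : ∀ z : R, mk z = 0 ↔ π ∣ z := fun z => by
    rw [Ideal.Quotient.eq_zero_iff_mem, Ideal.mem_span_singleton]
  haveI : CharP (R ⧸ Ideal.span {π}) q := by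
    have h0 : ((q : ℕ) : R ⧸ Ideal.span {π}) = 0 := by
      have h1 : mk (q : R) = 0 := (hmk0 _).2 hqπ
      rw [map_natCast] at h1
      exact h1
    exact (CharP.charP_iff_prime_eq_zero hq).2 h0
  by_contra hy
  have hy0 : mk y ≠ 0 := fun h0 => hy ((hmk0 y).1 h0)
  -- `y ^ q * t = (x - y e₀) ^ q` in `R ⧸ (π)`
  have h1 : mk y ^ q * mk h = mk x ^ q := by
    have h2 : mk (y ^ q * h - x ^ q) = 0 := (hmk0 _).2 hxy
    rw [map_sub, map_mul, map_pow, map_pow, sub_eq_zero] at h2
    exact h2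
  have h3 : mk c = mk e₀ ^ q := by
    have h4 : mk (c - e₀ ^ q) = 0 := (hmk0 _).2 hc
    rw [map_sub, map_pow, sub_eq_zero] at h4
    exact h4
  have h5 : mk y ^ q * mk (h - c) = (mk x - mk y * mk e₀) ^ q := by
    rw [sub_pow_char, mul_pow, ← h3, ← h1, map_sub]
    ring
  have ht0 : mk (h - c) ≠ 0 := ht.ne_zero
  have hz0 : mk x - mk y * mk e₀ ≠ 0 := by
    intro h0
    rw [h0, zero_pow hq.ne_zero] at h5
    exact (mul_ne_zero (pow_ne_zero q hy0) ht0) h5
  obtain ⟨a, u, hu⟩ := IsDiscreteValuationRing.eq_unit_mul_pow_irreducible hy0 ht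
  obtain ⟨b, v, hv⟩ := IsDiscreteValuationRing.eq_unit_mul_pow_irreducible hz0 ht
  have hu' : mk y = ↑u * mk (h - c) ^ a := hu
  have hv' : mk x - mk y * mk e₀ = ↑v * mk (h - c) ^ b := hv
  have h6 : ((u ^ q : (R ⧸ Ideal.span {π})ˣ) : R ⧸ Ideal.span {π}) * mk (h - c) ^ (q * a + 1) =
      ((v ^ q : (R ⧸ Ideal.span {π})ˣ) : R ⧸ Ideal.span {π}) * mk (h - c) ^ (q * b) := by
    calc ((u ^ q : (R ⧸ Ideal.span {π})ˣ) : R ⧸ Ideal.span {π}) * mk (h - c) ^ (q * a + 1)
        = (↑u * mk (h - c) ^ a) ^ q * mk (h - c) := by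
          rw [Units.val_pow_eq_pow_val]; ring
      _ = (mk x - mk y * mk e₀) ^ q := by rw [← hu']; exact h5
      _ = ((v ^ q : (R ⧸ Ideal.span {π})ˣ) : R ⧸ Ideal.span {π}) * mk (h - c) ^ (q * b) := by
          rw [hv', Units.val_pow_eq_pow_val]; ring
  have h7 : q * a + 1 = q * b :=
    IsDiscreteValuationRing.unit_mul_pow_congr_pow ht ht (u ^ q) (v ^ q) _ _ h6
  have h8 : q ∣ 1 := by
    have h9 : q ∣ q * a + 1 := by rw [h7]; exact dvd_mul_right q b
    exact (Nat.dvd_add_right (dvd_mul_right q a)).1 h9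
  exact hq.one_lt.ne' (Nat.dvd_one.1 h8)

end Hnp

/-! ### The fibre -/

section Fibre

variable {R₀ B : Type*} [CommRing R₀] [CommRing B] [Algebra R₀ B] (P : Ideal R₀) [P.IsMaximal]

omit [P.IsMaximal] in
/-- **(hnp) from the fibre**: `ν = P B + (h - c)`, `R = B_ν`, `R ⧸ (π)` a discrete valuation ring
and the Kronecker congruence `hK` give the hypothesis `hnp` for `h`. -/
theorem hnp_of_fibre (q : ℕ) (hq : q.Prime) (ν : Ideal B) [ν.IsPrime] (h : B) (c : R₀)
    (hνeq : ν = P.map (algebraMap R₀ B) ⊔ Ideal.span {h - algebraMap R₀ B c})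
    (R : Type*) [CommRing R] [Algebra B R] [IsLocalization.AtPrime R ν]
    [IsLocalRing R] [Algebra R₀ R] [IsScalarTower R₀ B R]
    (π : R) (hqπ : π ∣ (q : R))
    [IsDomain (R ⧸ Ideal.span {π})] [IsDiscreteValuationRing (R ⧸ Ideal.span {π})]
    (hK : ∀ c : R₀, ∃ b : R, π ∣ algebraMap R₀ R c - b ^ q) :
    ∀ x y : R, π ∣ y ^ q * algebraMap B R h - x ^ q → π ∣ y := by
  obtain ⟨e₀, he₀⟩ := hK c
  refine hnp_of_irreducible q hq π hqπ (algebraMap B R h) (algebraMap R₀ R c) e₀ he₀ ?_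
  set mk : R →+* R ⧸ Ideal.span {π} := Ideal.Quotient.mk _ with hmk
  have hmks : Function.Surjective mk := Ideal.Quotient.mk_surjective
  -- `mk` reflects the maximal ideal
  have hcomap : (maximalIdeal (R ⧸ Ideal.span {π})).comap mk = maximalIdeal R := by
    haveI : ((maximalIdeal (R ⧸ Ideal.span {π})).comap mk).IsMaximal :=
      Ideal.comap_isMaximal_of_surjective mk hmks
    exact IsLocalRing.eq_maximalIdeal inferInstance
  have hmem : ∀ r : R, r ∈ maximalIdeal R → mk r ∈ maximalIdeal (R ⧸ Ideal.span {π}) := by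
    intro r hr
    rw [← hcomap] at hr
    exact hr
  have hBR : ∀ b : B, b ∈ ν → algebraMap B R b ∈ maximalIdeal R := fun b hb =>
    (IsLocalization.AtPrime.to_map_mem_maximal_iff R ν b).2 hb
  have htν : h - algebraMap R₀ B c ∈ ν := by
    rw [hνeq]
    exact Ideal.mem_sup_right (Ideal.mem_span_singleton_self _)
  have hteq : algebraMap B R h - algebraMap R₀ R c = algebraMap B R (h - algebraMap R₀ B c) := by
    rw [map_sub, ← IsScalarTower.algebraMap_apply]
  rw [hteq]
  refine irreducible_of_le_sup_sq _ (hmem _ (hBR _ htν)) ?_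
  -- the elements of `P` are `q`-th powers of non-units modulo `π`
  have hP : P.map (algebraMap R₀ R) ≤
      (maximalIdeal (R ⧸ Ideal.span {π}) ^ 2).comap mk := by
    rw [Ideal.map_le_iff_le_comap]
    intro p hp
    rw [Ideal.mem_comap, Ideal.mem_comap]
    obtain ⟨b, hb⟩ := hK p
    have h1 : mk (algebraMap R₀ R p) = mk b ^ q := by
      have h2 : mk (algebraMap R₀ R p - b ^ q) = 0 := by
        rw [hmk, Ideal.Quotient.eq_zero_iff_mem, Ideal.mem_span_singleton]
        exact hb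
      rw [map_sub, map_pow, sub_eq_zero] at h2
      exact h2
    have h3 : mk (algebraMap R₀ R p) ∈ maximalIdeal (R ⧸ Ideal.span {π}) := by
      apply hmem
      rw [IsScalarTower.algebraMap_apply R₀ B R]
      apply hBR
      rw [hνeq]
      exact Ideal.mem_sup_left (Ideal.mem_map_of_mem _ hp)
    rw [h1] at h3 ⊢
    have h4 : mk b ∈ maximalIdeal (R ⧸ Ideal.span {π}) :=
      Ideal.IsPrime.mem_of_pow_mem inferInstance q h3
    exact Ideal.pow_le_pow_right hq.two_le (Ideal.pow_mem_pow h4 q)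
  intro z hz
  obtain ⟨r, rfl⟩ := hmks z
  have hr : r ∈ maximalIdeal R := by
    rw [← hcomap]
    exact hz
  rw [← IsLocalization.AtPrime.map_eq_maximalIdeal ν R, hνeq, Ideal.map_sup, Ideal.map_map,
    ← IsScalarTower.algebraMap_eq, Ideal.map_span, Set.image_singleton] at hr
  obtain ⟨r₁, hr₁, r₂, hr₂, rfl⟩ := Submodule.mem_sup.1 hr
  rw [map_add]
  refine Ideal.add_mem _ (Ideal.mem_sup_right (hP hr₁)) (Ideal.mem_sup_left ?_)
  obtain ⟨s, rfl⟩ := Ideal.mem_span_singleton'.1 hr₂
  rw [map_mul]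
  exact Ideal.mul_mem_left _ _ (Ideal.mem_span_singleton_self _)

/-- **(hsep) from a second point of the fibre.** -/
theorem hsep_of_fibre (ν ν' : Ideal B) [ν.IsPrime] (hν' : ν'.IsMaximal)
    (hPν : P.map (algebraMap R₀ B) ≤ ν) (hne : ν' ≠ ν) (h : B) (c' : R₀)
    (hν'eq : ν' = P.map (algebraMap R₀ B) ⊔ Ideal.span {h - algebraMap R₀ B c'})
    (m : R₀[X]) (hroot : aeval h m = 0)
    (R : Type*) [CommRing R] [Algebra B R] [IsLocalization.AtPrime R ν] [IsLocalRing R]
    [Algebra R₀ R] [IsScalarTower R₀ B R] :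
    algebraMap R₀ R (m.eval c') ∈ maximalIdeal R ∧
      IsUnit (algebraMap B R h - algebraMap R₀ R c') := by
  have hPν' : P.map (algebraMap R₀ B) ≤ ν' := by rw [hν'eq]; exact le_sup_left
  have htν' : h - algebraMap R₀ B c' ∈ ν' := by
    rw [hν'eq]
    exact Ideal.mem_sup_right (Ideal.mem_span_singleton_self _)
  constructor
  · -- `m (c') ∈ (h - c') B ∩ R₀ = P`
    have h1 : algebraMap R₀ B c' - h ∣
        (m.map (algebraMap R₀ B)).eval (algebraMap R₀ B c') - (m.map (algebraMap R₀ B)).eval h :=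
      Polynomial.sub_dvd_eval_sub _ _ _
    rw [eval_map, eval₂_at_apply, eval_map, ← aeval_def, hroot, sub_zero] at h1
    have h2 : algebraMap R₀ B (m.eval c') ∈ ν' := by
      obtain ⟨d, hd⟩ := h1
      rw [hd]
      have h3 : algebraMap R₀ B c' - h = -(h - algebraMap R₀ B c') := by ring
      rw [h3]
      exact ν'.mul_mem_right _ (ν'.neg_mem htν')
    have h4 : m.eval c' ∈ P := MonoFibre.mem_of_algebraMap_mem P hν' hPν' h2
    rw [IsScalarTower.algebraMap_apply R₀ B R]
    exact (IsLocalization.AtPrime.to_map_mem_maximal_iff R ν _).2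
      (hPν (Ideal.mem_map_of_mem _ h4))
  · have hnot : h - algebraMap R₀ B c' ∉ ν := by
      intro hmem
      apply hne
      refine hν'.eq_of_le (Ideal.IsPrime.ne_top inferInstance) ?_
      rw [hν'eq]
      exact sup_le hPν ((Ideal.span_singleton_le_iff_mem _).2 hmem)
    have h5 : IsUnit (algebraMap B R (h - algebraMap R₀ B c')) :=
      (IsLocalization.AtPrime.isUnit_to_map_iff R ν _).2 hnot
    rw [map_sub, ← IsScalarTower.algebraMap_apply] at h5
    exact h5

/-- **`OrdDiff.ord_twoPoint` at a point of a monogenic fibre**: `hnp` and `hsep` are discharged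
from `ν = P B + (h - c)`, a second point `ν' = P B + (h - c')`, the Kronecker congruence and
`R ⧸ (π)` being a discrete valuation ring. -/
theorem ord_twoPoint_of_fibre (q : ℕ) (hq : q.Prime) (ν ν' : Ideal B) [ν.IsPrime]
    (hν' : ν'.IsMaximal) (hne : ν' ≠ ν) (h : B) (c c' : R₀)
    (hνeq : ν = P.map (algebraMap R₀ B) ⊔ Ideal.span {h - algebraMap R₀ B c})
    (hν'eq : ν' = P.map (algebraMap R₀ B) ⊔ Ideal.span {h - algebraMap R₀ B c'})
    (m : R₀[X]) (hm : m.Monic) (hdeg : m.natDegree = q + 1) (hroot : aeval h m = 0)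
    (R : Type*) [CommRing R] [IsDomain R] [IsNoetherianRing R] [Algebra B R]
    [IsLocalization.AtPrime R ν] [IsLocalRing R] [Algebra R₀ R] [IsScalarTower R₀ B R]
    (π : R) (hπ : Prime π) (hqπ : π ∣ (q : R))
    [IsDomain (R ⧸ Ideal.span {π})] [IsDiscreteValuationRing (R ⧸ Ideal.span {π})]
    (hK : ∀ c : R₀, ∃ b : R, π ∣ algebraMap R₀ R c - b ^ q)
    (hE : ∃ E : R, aeval (algebraMap B R h) (derivative m) ∣ π * E ∧ ¬ π ∣ E)
    (hT3 : ∀ 𝔮 ∈ (Ideal.span {aeval (algebraMap B R h) (derivative m)} : Ideal R).minimalPrimes,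
      π ∈ 𝔮) :
    ∃ (a : R) (G₁ : R[X]), IsUnit (algebraMap B R h - a - algebraMap B R h) ∧
      IsUnit (G₁.eval (algebraMap B R h)) ∧
      aeval (algebraMap B R h) (derivative m) = π * G₁.eval (algebraMap B R h) ∧
      (m.map (algebraMap R₀ R)) /ₘ (X - C (algebraMap B R h)) =
        (X - C (algebraMap B R h - a)) * (X - C (algebraMap B R h)) ^ (q - 1) + C π * G₁ ∧
      ((m.map (algebraMap R₀ R)) /ₘ (X - C (algebraMap B R h))).Monic ∧
      ((m.map (algebraMap R₀ R)) /ₘ (X - C (algebraMap B R h))).natDegree = q ∧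
      ((m.map (algebraMap R₀ R)) /ₘ (X - C (algebraMap B R h))).eval (algebraMap B R h) =
        π * G₁.eval (algebraMap B R h) := by
  have hPν : P.map (algebraMap R₀ B) ≤ ν := by rw [hνeq]; exact le_sup_left
  have hroot' : aeval (algebraMap B R h) m = 0 := by
    rw [aeval_algebraMap_apply, hroot, map_zero]
  exact OrdDiff.ord_twoPoint q hq π hπ hqπ m hm hdeg (algebraMap B R h) hroot' hK
    (hnp_of_fibre P q hq ν h c hνeq R π hqπ hK)
    ⟨c', hsep_of_fibre P ν ν' hν' hPν hne h c' hν'eq m hroot R⟩ hE hT3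

end Fibre

end Fermat.Agent.S36.OrdFibre
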