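import Mathlib
import Fermat.Agent.S36.GenSq

/-!
# S36, (R-ord) step (C5), field level: the second root at level `M q²`

Notation: `F0 = FF L M`, `F1 = FF L (M q)`, `F2 = FF L (M q²)`, `a₁ b₁ : F0 → F1` and
`a₂ b₂ : F1 → F2` the two degeneracy embeddings, `w` an Atkin–Lehner endomorphism of `F1`
(`w ∘ a₁ = b₁`, `w ∘ b₁ = a₁`).  Recall `a₂ ∘ b₁ = b₂ ∘ a₁`.

Let `h ∈ F1` be a root of `a₁(m₀)`, `m₀ ∈ F0[X]`.  Then `y := a₂ (w h)` is a root of
`(b₂ ∘ a₁)(m₀) = b₂(a₁ m₀)`; if `b₁ j` is a polynomial in `h` over `a₁ F0` (e.g. `h` generates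
`F1` over `a₁ F0`), then `y ∉ b₂ F1`, so `y ≠ b₂ h` and `y` is a root of `b₂(G)` for
`G := a₁(m₀) / (X - h)`; for `m₀` monic of degree `q + 1`, `G` is the minimal polynomial of `y`
over `F1` (embedded by `b₂`).  The mirror statements exchange the roles of `a` and `b`.
-/

set_option autoImplicit false
set_option linter.style.haveILetI false

namespace Fermat.Agent.S36.OrdField2

open ModularCurve AlgebraicCurve Polynomial Fermat.Agent.S24

variable {L : Type*} [Field L] [Algebra ℚ L]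

/-! ### Generalities on division by a linear factor -/

section Abstract

variable {K E : Type*} [Field K] [Field E]

/-- If `h` is a root of `p`, then `φ(p) = (X - φ h) * φ(p / (X - h))`. -/
theorem map_eq_mul_map_divByMonic (φ : K →+* E) (p : K[X]) (h : K) (hroot : p.eval h = 0) :
    p.map φ = (X - C (φ h)) * (p /ₘ (X - C h)).map φ := by
  have h1 : (X - C h) * (p /ₘ (X - C h)) = p := mul_divByMonic_eq_iff_isRoot.mpr hroot
  have h2 := congrArg (Polynomial.map φ) h1
  rw [Polynomial.map_mul, Polynomial.map_sub, Polynomial.map_X, Polynomial.map_C] at h2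
  exact h2.symm

/-- A root `y ≠ φ h` of `φ(p)` is a root of `φ(p / (X - h))`. -/
theorem eval₂_divByMonic_eq_zero (φ : K →+* E) (p : K[X]) (h : K) (hroot : p.eval h = 0)
    (y : E) (hy : p.eval₂ φ y = 0) (hne : y ≠ φ h) : (p /ₘ (X - C h)).eval₂ φ y = 0 := by
  have h1 := map_eq_mul_map_divByMonic φ p h hroot
  have h2 : (p.map φ).eval y = 0 := by rw [eval_map]; exact hy
  rw [h1, eval_mul, eval_sub, eval_X, eval_C] at h2
  rcases mul_eq_zero.mp h2 with h3 | h3
  · exact absurd (sub_eq_zero.mp h3) hne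
  · rw [← eval_map]; exact h3

/-- Degree and leading coefficient of `p / (X - h)`. -/
theorem monic_divByMonic_of_natDegree (p : K[X]) (h : K) (hp : p.Monic) {n : ℕ}
    (hdeg : p.natDegree = n + 1) :
    (p /ₘ (X - C h)).Monic ∧ (p /ₘ (X - C h)).natDegree = n := by
  have hX : (X - C h).Monic := monic_X_sub_C h
  constructor
  · have hle : (X - C h).degree ≤ p.degree := by
      rw [degree_X_sub_C, degree_eq_natDegree hp.ne_zero, hdeg]
      exact_mod_cast Nat.succ_le_succ (Nat.zero_le n)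
    have h1 := leadingCoeff_divByMonic_of_monic hX hle
    rw [Monic, h1]
    exact hp
  · rw [natDegree_divByMonic p hX, natDegree_X_sub_C, hdeg]
    rfl

end Abstract

/-! ### The level `M q²` statements -/

section Level

variable (M q : ℕ) [NeZero M] [NeZero q] (w : FF L (M * q) →ₐ[L] FF L (M * q))

/-- `a₂ ∘ w ∘ a₁ = b₂ ∘ a₁`. -/
theorem alpha_w_alpha (hwα : w.comp (heckeAlphaBar L M q) = heckeBetaBar L M q) (x : FF L M) :
    heckeAlphaBar L (M * q) q (w (heckeAlphaBar L M q x)) =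
      heckeBetaBar L (M * q) q (heckeAlphaBar L M q x) := by
  have h1 : w (heckeAlphaBar L M q x) = heckeBetaBar L M q x := AlgHom.congr_fun hwα x
  rw [h1, AtkinSq.beta_alpha_eq_alpha_beta]

/-- `b₂ ∘ w ∘ b₁ = a₂ ∘ b₁`. -/
theorem beta_w_beta (hwβ : w.comp (heckeBetaBar L M q) = heckeAlphaBar L M q) (x : FF L M) :
    heckeBetaBar L (M * q) q (w (heckeBetaBar L M q x)) =
      heckeAlphaBar L (M * q) q (heckeBetaBar L M q x) := by
  have h1 : w (heckeBetaBar L M q x) = heckeAlphaBar L M q x := AlgHom.congr_fun hwβ x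
  rw [h1, AtkinSq.beta_alpha_eq_alpha_beta]

/-- Transport of a polynomial expression along `a₂ ∘ w`. -/
theorem alpha_w_eval₂ (hwα : w.comp (heckeAlphaBar L M q) = heckeBetaBar L M q)
    (P : (FF L M)[X]) (h : FF L (M * q)) :
    heckeAlphaBar L (M * q) q (w (P.eval₂ (heckeAlphaBar L M q).toRingHom h)) =
      P.eval₂ ((heckeBetaBar L (M * q) q).toRingHom.comp (heckeAlphaBar L M q).toRingHom)
        (heckeAlphaBar L (M * q) q (w h)) := by
  have h1 := Polynomial.hom_eval₂ P (heckeAlphaBar L M q).toRingHom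
    ((heckeAlphaBar L (M * q) q).toRingHom.comp w.toRingHom) h
  have h2 : ((heckeAlphaBar L (M * q) q).toRingHom.comp w.toRingHom).comp
      (heckeAlphaBar L M q).toRingHom =
      (heckeBetaBar L (M * q) q).toRingHom.comp (heckeAlphaBar L M q).toRingHom :=
    RingHom.ext fun x => alpha_w_alpha M q w hwα x
  rw [h2] at h1
  exact h1

/-- Transport of a polynomial expression along `b₂ ∘ w`. -/
theorem beta_w_eval₂ (hwβ : w.comp (heckeBetaBar L M q) = heckeAlphaBar L M q)
    (P : (FF L M)[X]) (h : FF L (M * q)) :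
    heckeBetaBar L (M * q) q (w (P.eval₂ (heckeBetaBar L M q).toRingHom h)) =
      P.eval₂ ((heckeAlphaBar L (M * q) q).toRingHom.comp (heckeBetaBar L M q).toRingHom)
        (heckeBetaBar L (M * q) q (w h)) := by
  have h1 := Polynomial.hom_eval₂ P (heckeBetaBar L M q).toRingHom
    ((heckeBetaBar L (M * q) q).toRingHom.comp w.toRingHom) h
  have h2 : ((heckeBetaBar L (M * q) q).toRingHom.comp w.toRingHom).comp
      (heckeBetaBar L M q).toRingHom =
      (heckeAlphaBar L (M * q) q).toRingHom.comp (heckeBetaBar L M q).toRingHom :=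
    RingHom.ext fun x => beta_w_beta M q w hwβ x
  rw [h2] at h1
  exact h1

/-- **(C5-a)** If `h` is a root of `a₁(m₀)`, then `y = a₂ (w h)` is a root of `(b₂ ∘ a₁)(m₀)`. -/
theorem eval₂_alpha_w_eq_zero (hwα : w.comp (heckeAlphaBar L M q) = heckeBetaBar L M q)
    (m₀ : (FF L M)[X]) (h : FF L (M * q))
    (hroot : m₀.eval₂ (heckeAlphaBar L M q).toRingHom h = 0) :
    m₀.eval₂ ((heckeBetaBar L (M * q) q).toRingHom.comp (heckeAlphaBar L M q).toRingHom)
      (heckeAlphaBar L (M * q) q (w h)) = 0 := by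
  rw [← alpha_w_eval₂ M q w hwα m₀ h, hroot, map_zero, map_zero]

/-- Mirror of `eval₂_alpha_w_eq_zero`. -/
theorem eval₂_beta_w_eq_zero (hwβ : w.comp (heckeBetaBar L M q) = heckeAlphaBar L M q)
    (m₀ : (FF L M)[X]) (h : FF L (M * q))
    (hroot : m₀.eval₂ (heckeBetaBar L M q).toRingHom h = 0) :
    m₀.eval₂ ((heckeAlphaBar L (M * q) q).toRingHom.comp (heckeBetaBar L M q).toRingHom)
      (heckeBetaBar L (M * q) q (w h)) = 0 := by
  rw [← beta_w_eval₂ M q w hwβ m₀ h, hroot, map_zero, map_zero]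

/-- **(C5-b)** If `b₁ j` is a polynomial in `h` over `a₁ F0`, then `y = a₂ (w h) ∉ b₂ F1`. -/
theorem alpha_w_not_mem_range_beta (hq2 : 2 ≤ q)
    (hwα : w.comp (heckeAlphaBar L M q) = heckeBetaBar L M q)
    (hwβ : w.comp (heckeBetaBar L M q) = heckeAlphaBar L M q) (h : FF L (M * q))
    (hgen : ∃ P : (FF L M)[X],
      heckeBetaBar L M q (jBC L M) = P.eval₂ (heckeAlphaBar L M q).toRingHom h) :
    heckeAlphaBar L (M * q) q (w h) ∉ Set.range (heckeBetaBar L (M * q) q) := by
  rintro ⟨g, hg⟩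
  obtain ⟨P, hP⟩ := hgen
  have h1 := alpha_w_eval₂ M q w hwα P h
  rw [← hP] at h1
  have h2 : w (heckeBetaBar L M q (jBC L M)) = heckeAlphaBar L M q (jBC L M) :=
    AlgHom.congr_fun hwβ _
  rw [h2, GenSq.alpha_alpha_jBC, ← hg] at h1
  have h3 := Polynomial.hom_eval₂ P (heckeAlphaBar L M q).toRingHom
    (heckeBetaBar L (M * q) q).toRingHom g
  apply GenSq.jBC_not_mem_range_beta (L := L) (M * q) q hq2
  refine ⟨P.eval₂ (heckeAlphaBar L M q).toRingHom g, ?_⟩
  rw [h1]
  exact h3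

/-- Mirror: if `a₁ j` is a polynomial in `h` over `b₁ F0`, then `b₂ (w h) ∉ a₂ F1`. -/
theorem beta_w_not_mem_range_alpha (ι : L →+* AlgebraicClosure ℚ) (hq : q.Prime)
    (hqM : ¬ q ∣ M)
    (hwα : w.comp (heckeAlphaBar L M q) = heckeBetaBar L M q)
    (hwβ : w.comp (heckeBetaBar L M q) = heckeAlphaBar L M q) (h : FF L (M * q))
    (hgen : ∃ P : (FF L M)[X],
      heckeAlphaBar L M q (jBC L M) = P.eval₂ (heckeBetaBar L M q).toRingHom h) :
    heckeBetaBar L (M * q) q (w h) ∉ Set.range (heckeAlphaBar L (M * q) q) := by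
  rintro ⟨g, hg⟩
  obtain ⟨P, hP⟩ := hgen
  have h1 := beta_w_eval₂ M q w hwβ P h
  rw [← hP] at h1
  have h2 : w (heckeAlphaBar L M q (jBC L M)) = heckeBetaBar L M q (jBC L M) :=
    AlgHom.congr_fun hwα _
  rw [h2, ← hg] at h1
  have h3 := Polynomial.hom_eval₂ P (heckeBetaBar L M q).toRingHom
    (heckeAlphaBar L (M * q) q).toRingHom g
  apply GenSq.jpp_not_mem_range_alpha ι M q hq hqM
  refine ⟨P.eval₂ (heckeBetaBar L M q).toRingHom g, ?_⟩
  rw [h1]
  exact h3

/-- **(C5-c)** `y = a₂ (w h)` is a root of `b₂(G)`, `G = a₁(m₀) / (X - h)`. -/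
theorem eval₂_divByMonic_alpha_w (hq2 : 2 ≤ q)
    (hwα : w.comp (heckeAlphaBar L M q) = heckeBetaBar L M q)
    (hwβ : w.comp (heckeBetaBar L M q) = heckeAlphaBar L M q)
    (m₀ : (FF L M)[X]) (h : FF L (M * q))
    (hroot : m₀.eval₂ (heckeAlphaBar L M q).toRingHom h = 0)
    (hgen : ∃ P : (FF L M)[X],
      heckeBetaBar L M q (jBC L M) = P.eval₂ (heckeAlphaBar L M q).toRingHom h) :
    ((m₀.map (heckeAlphaBar L M q).toRingHom) /ₘ (X - C h)).eval₂
      (heckeBetaBar L (M * q) q).toRingHom (heckeAlphaBar L (M * q) q (w h)) = 0 := by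
  have hy := alpha_w_not_mem_range_beta M q w hq2 hwα hwβ h hgen
  refine eval₂_divByMonic_eq_zero (heckeBetaBar L (M * q) q).toRingHom _ h ?_ _ ?_ ?_
  · rw [eval_map]; exact hroot
  · rw [eval₂_map]
    exact eval₂_alpha_w_eq_zero M q w hwα m₀ h hroot
  · intro heq
    exact hy ⟨h, heq.symm⟩

/-- Mirror of `eval₂_divByMonic_alpha_w`. -/
theorem eval₂_divByMonic_beta_w (ι : L →+* AlgebraicClosure ℚ) (hq : q.Prime) (hqM : ¬ q ∣ M)
    (hwα : w.comp (heckeAlphaBar L M q) = heckeBetaBar L M q)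
    (hwβ : w.comp (heckeBetaBar L M q) = heckeAlphaBar L M q)
    (m₀ : (FF L M)[X]) (h : FF L (M * q))
    (hroot : m₀.eval₂ (heckeBetaBar L M q).toRingHom h = 0)
    (hgen : ∃ P : (FF L M)[X],
      heckeAlphaBar L M q (jBC L M) = P.eval₂ (heckeBetaBar L M q).toRingHom h) :
    ((m₀.map (heckeBetaBar L M q).toRingHom) /ₘ (X - C h)).eval₂
      (heckeAlphaBar L (M * q) q).toRingHom (heckeBetaBar L (M * q) q (w h)) = 0 := by
  have hy := beta_w_not_mem_range_alpha M q w ι hq hqM hwα hwβ h hgen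
  refine eval₂_divByMonic_eq_zero (heckeAlphaBar L (M * q) q).toRingHom _ h ?_ _ ?_ ?_
  · rw [eval_map]; exact hroot
  · rw [eval₂_map]
    exact eval₂_beta_w_eq_zero M q w hwβ m₀ h hroot
  · intro heq
    exact hy ⟨h, heq.symm⟩

/-- **(C5-d)** For `m₀` monic of degree `q + 1`: `G = a₁(m₀) / (X - h)` is THE minimal
polynomial of `y = a₂ (w h)` over `F1` embedded by `b₂`. -/
theorem minpoly_alpha_w (ι : L →+* AlgebraicClosure ℚ) (hq : q.Prime)
    (hwα : w.comp (heckeAlphaBar L M q) = heckeBetaBar L M q)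
    (hwβ : w.comp (heckeBetaBar L M q) = heckeAlphaBar L M q)
    (m₀ : (FF L M)[X]) (hm : m₀.Monic) (hdeg : m₀.natDegree = q + 1) (h : FF L (M * q))
    (hroot : m₀.eval₂ (heckeAlphaBar L M q).toRingHom h = 0)
    (hgen : ∃ P : (FF L M)[X],
      heckeBetaBar L M q (jBC L M) = P.eval₂ (heckeAlphaBar L M q).toRingHom h) :
    letI := algebraAlong (heckeBetaBar L (M * q) q)
    minpoly (FF L (M * q)) (heckeAlphaBar L (M * q) q (w h)) =
      (m₀.map (heckeAlphaBar L M q).toRingHom) /ₘ (X - C h) := by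
  letI := algebraAlong (heckeBetaBar L (M * q) q)
  have hy := alpha_w_not_mem_range_beta M q w hq.two_le hwα hwβ h hgen
  have hmin := GenSq.natDegree_minpoly_beta ι M q hq _ hy
  have hmonic : (m₀.map (heckeAlphaBar L M q).toRingHom).Monic := hm.map _
  have hdeg' : (m₀.map (heckeAlphaBar L M q).toRingHom).natDegree = q + 1 := by
    rw [natDegree_map, hdeg]
  obtain ⟨hG, hGdeg⟩ := monic_divByMonic_of_natDegree _ h hmonic hdeg'
  have hkill : aeval (heckeAlphaBar L (M * q) q (w h))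
      ((m₀.map (heckeAlphaBar L M q).toRingHom) /ₘ (X - C h)) = 0 :=
    eval₂_divByMonic_alpha_w M q w hq.two_le hwα hwβ m₀ h hroot hgen
  have hdvd := minpoly.dvd (FF L (M * q)) (heckeAlphaBar L (M * q) q (w h)) hkill
  have hint : IsIntegral (FF L (M * q)) (heckeAlphaBar L (M * q) q (w h)) :=
    ⟨_, hG, hkill⟩
  exact (Polynomial.eq_of_monic_of_dvd_of_natDegree_le (minpoly.monic hint) hG hdvd
    (by rw [hGdeg, hmin])).symm

/-- Mirror of `minpoly_alpha_w`. -/
theorem minpoly_beta_w (ι : L →+* AlgebraicClosure ℚ) (hq : q.Prime) (hqM : ¬ q ∣ M)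
    (hwα : w.comp (heckeAlphaBar L M q) = heckeBetaBar L M q)
    (hwβ : w.comp (heckeBetaBar L M q) = heckeAlphaBar L M q)
    (m₀ : (FF L M)[X]) (hm : m₀.Monic) (hdeg : m₀.natDegree = q + 1) (h : FF L (M * q))
    (hroot : m₀.eval₂ (heckeBetaBar L M q).toRingHom h = 0)
    (hgen : ∃ P : (FF L M)[X],
      heckeAlphaBar L M q (jBC L M) = P.eval₂ (heckeBetaBar L M q).toRingHom h) :
    letI := algebraAlong (heckeAlphaBar L (M * q) q)
    minpoly (FF L (M * q)) (heckeBetaBar L (M * q) q (w h)) =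
      (m₀.map (heckeBetaBar L M q).toRingHom) /ₘ (X - C h) := by
  letI := algebraAlong (heckeAlphaBar L (M * q) q)
  have hy := beta_w_not_mem_range_alpha M q w ι hq hqM hwα hwβ h hgen
  have hmin := GenSq.natDegree_minpoly_alpha ι M q hq _ hy
  have hmonic : (m₀.map (heckeBetaBar L M q).toRingHom).Monic := hm.map _
  have hdeg' : (m₀.map (heckeBetaBar L M q).toRingHom).natDegree = q + 1 := by
    rw [natDegree_map, hdeg]
  obtain ⟨hG, hGdeg⟩ := monic_divByMonic_of_natDegree _ h hmonic hdeg'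
  have hkill : aeval (heckeBetaBar L (M * q) q (w h))
      ((m₀.map (heckeBetaBar L M q).toRingHom) /ₘ (X - C h)) = 0 :=
    eval₂_divByMonic_beta_w M q w ι hq hqM hwα hwβ m₀ h hroot hgen
  have hdvd := minpoly.dvd (FF L (M * q)) (heckeBetaBar L (M * q) q (w h)) hkill
  have hint : IsIntegral (FF L (M * q)) (heckeBetaBar L (M * q) q (w h)) :=
    ⟨_, hG, hkill⟩
  exact (Polynomial.eq_of_monic_of_dvd_of_natDegree_le (minpoly.monic hint) hG hdvd
    (by rw [hGdeg, hmin])).symm

/-- In a finite field extension of prime degree, every element is a polynomial in any element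
outside the base field. -/
theorem exists_aeval_eq_of_not_mem {K E : Type*} [Field K] [Field E] [Algebra K E]
    [FiniteDimensional K E] (hp : (Module.finrank K E).Prime) (y : E)
    (hy : y ∉ Set.range (algebraMap K E)) (x : E) : ∃ P : K[X], aeval y P = x := by
  have htop := GenSq.adjoin_eq_top_of_not_mem hp y hy
  have hint : IsIntegral K y := IsIntegral.of_finite K y
  have hx : x ∈ (IntermediateField.adjoin K {y}).toSubalgebra := by
    rw [htop]
    exact Algebra.mem_top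
  rw [IntermediateField.adjoin_simple_toSubalgebra_of_isAlgebraic hint.isAlgebraic,
    Algebra.adjoin_singleton_eq_range_aeval] at hx
  exact hx

/-- **(C5-e)** `F2 = b₂(F1)[y]` for `y = a₂ (w h)`. -/
theorem exists_eval₂_eq_alpha_w (ι : L →+* AlgebraicClosure ℚ) (hq : q.Prime)
    (hwα : w.comp (heckeAlphaBar L M q) = heckeBetaBar L M q)
    (hwβ : w.comp (heckeBetaBar L M q) = heckeAlphaBar L M q) (h : FF L (M * q))
    (hgen : ∃ P : (FF L M)[X],
      heckeBetaBar L M q (jBC L M) = P.eval₂ (heckeAlphaBar L M q).toRingHom h)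
    (x : FF L (M * q * q)) :
    ∃ P : (FF L (M * q))[X],
      P.eval₂ (heckeBetaBar L (M * q) q).toRingHom (heckeAlphaBar L (M * q) q (w h)) = x := by
  letI := algebraAlong (heckeBetaBar L (M * q) q)
  have hy := alpha_w_not_mem_range_beta M q w hq.two_le hwα hwβ h hgen
  obtain ⟨hfin, hdeg⟩ := DegreeDvd.finrank_beta_of_dvd_of_bar L ι (M * q) q hq (dvd_mul_left q M)
  haveI := hfin
  exact exists_aeval_eq_of_not_mem (K := FF L (M * q)) (E := FF L (M * q * q))
    (by rw [hdeg]; exact hq) _ hy x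

/-- Mirror of `exists_eval₂_eq_alpha_w`: `F2 = a₂(F1)[y']` for `y' = b₂ (w h)`. -/
theorem exists_eval₂_eq_beta_w (ι : L →+* AlgebraicClosure ℚ) (hq : q.Prime) (hqM : ¬ q ∣ M)
    (hwα : w.comp (heckeAlphaBar L M q) = heckeBetaBar L M q)
    (hwβ : w.comp (heckeBetaBar L M q) = heckeAlphaBar L M q) (h : FF L (M * q))
    (hgen : ∃ P : (FF L M)[X],
      heckeAlphaBar L M q (jBC L M) = P.eval₂ (heckeBetaBar L M q).toRingHom h)
    (x : FF L (M * q * q)) :
    ∃ P : (FF L (M * q))[X],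
      P.eval₂ (heckeAlphaBar L (M * q) q).toRingHom (heckeBetaBar L (M * q) q (w h)) = x := by
  letI := algebraAlong (heckeAlphaBar L (M * q) q)
  have hy := beta_w_not_mem_range_alpha M q w ι hq hqM hwα hwβ h hgen
  obtain ⟨hfin, hdeg⟩ := DegreeDvd.finrank_alpha_of_dvd_of_bar L ι (M * q) q (dvd_mul_left q M)
  haveI := hfin
  exact exists_aeval_eq_of_not_mem (K := FF L (M * q)) (E := FF L (M * q * q))
    (by rw [hdeg]; exact hq) _ hy x

end Level

end Fermat.Agent.S36.OrdField2
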