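import Mathlib
import Fermat.Agent.S36.PrincipalOfPIR
import Fermat.Agent.S36.TwoPoint
import Fermat.Agent.S36.OrdPoint

/-!
# S36 (R-ord), step (B4): the two-point lemma consumed on the chart of level `M' q²`

Abstract form (no modular objects).  `B₁ → B` is an injective integral extension of Noetherian
domains (`B₁` = chart of level `M' q`, `B` = chart of level `M' q²`, through one of the two
degeneracy maps), `ν` a smooth point of `B₁`, `R := (B₁)_ν`, `A := B ⊗ R`.

* `exists_algebraMap_eq_of_isIntegral_of_mul`: an element integral over an integrally closed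
  subdomain with a nonzero multiple in it lies in it.
* `exists_aeval_eq`: `A = R[y]` for a root `y` of a two-point polynomial of minimal degree that
  generates the fraction field (`R[y]` is integrally closed by `TwoPoint.isIntegrallyClosed`).
* `exists_pir_quot`: at every maximal ideal `𝔑` of `A` an element `t ∣ π` of the maximal ideal of
  `A_𝔑` with `A_𝔑 / (t)` a principal ideal ring.
* `horPrincipal_of_twoPoint`: the contract K4 (`HorPrincipal`) at every maximal ideal of `B` over
  `ν`, on the chart ring itself.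
-/

set_option autoImplicit false

namespace Fermat.Agent.S36.OrdLevel2

open IsLocalRing Polynomial

/-- An element of a domain `E`, integral over an integrally closed subdomain `D` and with a
nonzero `D`-multiple in `D`, lies in `D`. -/
theorem exists_algebraMap_eq_of_isIntegral_of_mul {D E : Type*} [CommRing D] [IsDomain D]
    [IsIntegrallyClosed D] [CommRing E] [IsDomain E] [Algebra D E]
    (hinj : Function.Injective (algebraMap D E)) (a : E) (ha : IsIntegral D a) (r x : D)
    (hr : r ≠ 0) (hx : algebraMap D E r * a = algebraMap D E x) :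
    ∃ z : D, algebraMap D E z = a := by
  classical
  obtain ⟨P, hP, hPa⟩ := ha
  have hPa' : aeval a P = 0 := hPa
  -- the scaled polynomial kills `x`
  have h1 : aeval (algebraMap D E r * a) (scaleRoots P r) = 0 := scaleRoots_aeval_eq_zero hPa'
  rw [hx, Polynomial.aeval_algebraMap_apply, Polynomial.coe_aeval_eq_eval] at h1
  have h2 : (scaleRoots P r).eval x = 0 := hinj (by rw [h1, map_zero])
  -- in the fraction field, `x / r` is a root of `P`
  let K := FractionRing D
  have hrK : algebraMap D K r ≠ 0 := by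
    intro h
    exact hr ((IsFractionRing.injective D K) (by rw [h, map_zero]))
  have h3 : aeval (algebraMap D K x / algebraMap D K r) P = 0 := by
    have h4 : aeval (algebraMap D K r * (algebraMap D K x / algebraMap D K r)) (scaleRoots P r)
        = algebraMap D K r ^ P.natDegree * aeval (algebraMap D K x / algebraMap D K r) P := by
      rw [aeval_def, aeval_def, scaleRoots_eval₂_mul]
    rw [mul_div_cancel₀ _ hrK, Polynomial.aeval_algebraMap_apply, Polynomial.coe_aeval_eq_eval,
      h2, map_zero] at h4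
    exact (mul_eq_zero.mp h4.symm).resolve_left (pow_ne_zero _ hrK)
  have hint : IsIntegral D (algebraMap D K x / algebraMap D K r) := ⟨P, hP, h3⟩
  obtain ⟨z, hz⟩ := IsIntegrallyClosed.isIntegral_iff.mp hint
  refine ⟨z, ?_⟩
  have h6 : z * r = x := by
    apply IsFractionRing.injective D K
    rw [map_mul, hz, div_mul_cancel₀ _ hrK]
  have hrE : algebraMap D E r ≠ 0 := by
    intro h
    exact hr (hinj (by rw [h, map_zero]))
  apply mul_left_cancel₀ hrE
  rw [hx, ← h6, map_mul, mul_comm]

section Generation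

variable {R A : Type*} [CommRing R] [IsDomain R] [IsLocalRing R] [IsNoetherianRing R]
  [IsIntegrallyClosed R] [CommRing A] [IsDomain A] [Algebra R A]

/-- **`A = R[y]`.**  `R` a Noetherian integrally closed local domain with maximal ideal `(π, u)`,
`(π)` prime; `A` a domain, integral over `R`, containing a root `y` of a two-point polynomial
`H = (T - c)(T - d)^e + π G₁` of degree at most the degree of the minimal polynomial of `y`, and
such that every element of `A` has a nonzero `R`-multiple in `R[y]`.  Then `A = R[y]`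
(`R[y]` is integrally closed by the two-point lemma). -/
theorem exists_aeval_eq (hinj : Function.Injective (algebraMap R A)) [Algebra.IsIntegral R A]
    (π u c d : R) (hm : maximalIdeal R = Ideal.span {π, u})
    (hπ : (Ideal.span {π}).IsPrime) (H G₁ : R[X])
    (e : ℕ) (he : e ≠ 0) (hH : H = (X - C c) * (X - C d) ^ e + C π * G₁) (hmonic : H.Monic)
    (hcd : IsUnit (c - d)) (hG₁ : IsUnit (G₁.eval d)) (y : A) (hy : aeval y H = 0)
    (hdeg : H.natDegree ≤ (minpoly R y).natDegree)
    (hfrac : ∀ a : A, ∃ r : R, r ≠ 0 ∧ algebraMap R A r * a ∈ Algebra.adjoin R {y}) :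
    ∀ a : A, ∃ G : R[X], aeval y G = a := by
  classical
  let A₀ : Subalgebra R A := Algebra.adjoin R {y}
  let y' : A₀ := ⟨y, Algebra.self_mem_adjoin_singleton R y⟩
  have hinj₀ : Function.Injective (algebraMap R A₀) := by
    intro r₁ r₂ h
    apply hinj
    have := congrArg (fun z : A₀ => (z : A)) h
    simpa using this
  have hgen' : ∀ a : A₀, ∃ G : R[X], aeval y' G = a := by
    intro a
    have ha : (a : A) ∈ (aeval y : R[X] →ₐ[R] A).range := by
      rw [← Algebra.adjoin_singleton_eq_range_aeval]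
      exact a.2
    obtain ⟨G, hG⟩ := ha
    refine ⟨G, Subtype.ext ?_⟩
    rw [Polynomial.aeval_subalgebra_coe]
    exact hG
  have hy' : aeval y' H = 0 := by
    apply Subtype.ext
    rw [Polynomial.aeval_subalgebra_coe]
    exact hy
  have hminpoly : minpoly R y' = minpoly R y :=
    (minpoly.algHom_eq A₀.val Subtype.val_injective y').symm
  have htf : Module.IsTorsionFree R A₀ :=
    (Module.isTorsionFree_iff_algebraMap_injective (R := R) (A := A₀)).mpr hinj₀
  have hpres' : ∀ G : R[X], aeval y' G = 0 → H ∣ G :=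
    TwoPoint.hpres_of_natDegree_le H hmonic y' hy' (by rw [hminpoly]; exact hdeg)
  have hic : IsIntegrallyClosed A₀ :=
    TwoPoint.isIntegrallyClosed π u c d hm hπ H G₁ e he hH hmonic hcd hG₁ y' hy' hgen' hpres'
  intro a
  obtain ⟨r, hr, hra⟩ := hfrac a
  have haint : IsIntegral A₀ a := (Algebra.IsIntegral.isIntegral (R := R) a).tower_top
  have hr₀ : algebraMap R A₀ r ≠ 0 := fun h => hr (hinj₀ (by rw [h, map_zero]))
  obtain ⟨z, hz⟩ := exists_algebraMap_eq_of_isIntegral_of_mul (D := A₀) (E := A)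
    Subtype.val_injective a haint (algebraMap R A₀ r) ⟨algebraMap R A r * a, hra⟩ hr₀ rfl
  obtain ⟨G, hG⟩ := hgen' z
  refine ⟨G, ?_⟩
  have h1 : (aeval y' G : A) = aeval y G := Polynomial.aeval_subalgebra_coe G A₀ y'
  rw [← h1, hG]
  exact hz

omit [IsDomain R] [IsIntegrallyClosed R] [IsDomain A] in
/-- **The branch quotient at a point of `A = R[y]`.**  At every maximal ideal `𝔑` of `A` there
is an element `t` of the maximal ideal of `A_𝔑`, dividing `π`, with `A_𝔑 / (t)` a principal ideal
ring (`t = π` at the point `y = c`, `t = y - d` at the point `y = d`). -/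
theorem exists_pir_quot (π u c d : R) (hm : maximalIdeal R = Ideal.span {π, u})
    (hπ : (Ideal.span {π}).IsPrime) (H G₁ : R[X])
    (e : ℕ) (he : e ≠ 0) (hH : H = (X - C c) * (X - C d) ^ e + C π * G₁) (hmonic : H.Monic)
    (hcd : IsUnit (c - d)) (hG₁ : IsUnit (G₁.eval d)) (y : A) (hy : aeval y H = 0)
    (hgen : ∀ a : A, ∃ G : R[X], aeval y G = a)
    (hpres : ∀ G : R[X], aeval y G = 0 → H ∣ G) (𝔑 : Ideal A) [𝔑.IsMaximal]
    (A' : Type*) [CommRing A'] [Algebra A A'] [IsLocalization.AtPrime A' 𝔑] [IsLocalRing A'] :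
    ∃ t : A', t ∈ maximalIdeal A' ∧ IsPrincipalIdealRing (A' ⧸ Ideal.span {t}) ∧
      t ∣ algebraMap A A' (algebraMap R A π) := by
  classical
  have hpirR : IsPrincipalIdealRing (R ⧸ Ideal.span {π}) := TwoPoint.pir_quot π u hm hπ
  have hπm : π ∈ maximalIdeal R := by rw [hm]; exact Ideal.subset_span (by simp)
  -- transport of the principal ideal ring property along `σ'`
  have key : ∀ (t : A') (σ' : A' →+* R ⧸ Ideal.span {π}), Function.Surjective σ' →
      RingHom.ker σ' = Ideal.span {t} → IsPrincipalIdealRing (A' ⧸ Ideal.span {t}) := by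
    intro t σ' hs hk
    have e1 : (A' ⧸ Ideal.span {t}) ≃+* (R ⧸ Ideal.span {π}) :=
      (Ideal.quotEquivOfEq hk.symm).trans (RingHom.quotientKerEquivOfSurjective hs)
    exact IsPrincipalIdealRing.of_surjective e1.symm.toRingHom e1.symm.surjective
  rcases TwoPoint.sub_mem_or π c d hπm H G₁ e hH hmonic y hy hgen 𝔑 with hyc | hyd
  · obtain ⟨σ', hs, hk, -⟩ :=
      TwoPoint.quot_hom_c A' π u c d hm H G₁ e hH hmonic hcd y hy hgen hpres 𝔑 hyc
    refine ⟨algebraMap A A' (algebraMap R A π), ?_, key _ σ' hs hk, dvd_refl _⟩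
    exact (IsLocalization.AtPrime.to_map_mem_maximal_iff A' 𝔑 _).mpr
      (TwoPoint.algebraMap_mem H hmonic y hy hgen 𝔑 hπm)
  · obtain ⟨σ', hs, hk, -⟩ :=
      TwoPoint.quot_hom_d A' π u c d hm H G₁ e he hH hmonic hcd hG₁ y hy hgen hpres 𝔑 hyd
    obtain ⟨⟨ε, hε⟩, -⟩ :=
      TwoPoint.maximalIdeal_d A' π u c d hm H G₁ e he hH hmonic hcd hG₁ y hy hgen 𝔑 hyd
    refine ⟨algebraMap A A' (y - algebraMap R A d), ?_, key _ σ' hs hk, ?_⟩
    · exact (IsLocalization.AtPrime.to_map_mem_maximal_iff A' 𝔑 _).mpr hyd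
    · rw [hε]
      obtain ⟨k, rfl⟩ := Nat.exists_eq_succ_of_ne_zero he
      exact ⟨ε * algebraMap A A' (y - algebraMap R A d) ^ k, by rw [pow_succ]; ring⟩

end Generation

section Chart

/-- The extension of a maximal ideal disjoint from the multiplicative set is maximal in the
localisation. -/
theorem map_isMaximal_of_disjoint {B : Type*} [CommRing B] (T : Submonoid B) (A : Type*)
    [CommRing A] [Algebra B A] [IsLocalization T A] (𝔫 : Ideal B) [h𝔫 : 𝔫.IsMaximal]
    (hd : Disjoint (T : Set B) (𝔫 : Set B)) : (𝔫.map (algebraMap B A)).IsMaximal := by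
  have hprime : (𝔫.map (algebraMap B A)).IsPrime :=
    IsLocalization.isPrime_of_isPrime_disjoint T A 𝔫 h𝔫.isPrime hd
  refine ⟨⟨hprime.ne_top, fun J hJ => ?_⟩⟩
  have h1 : 𝔫 ≤ J.under B := Ideal.map_le_iff_le_comap.mp hJ.le
  have h2 : J.under B = ⊤ := by
    by_contra hne
    have h3 : 𝔫 = J.under B := h𝔫.eq_of_le hne h1
    have h4 : J = 𝔫.map (algebraMap B A) := by
      rw [h3, IsLocalization.map_under T A J]
    exact (lt_irrefl _) (h4 ▸ hJ)
  rw [← IsLocalization.map_under T A J, h2, Ideal.map_top]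

variable {B₁ B : Type*} [CommRing B₁] [IsDomain B₁] [IsNoetherianRing B₁] [IsIntegrallyClosed B₁]
  [CommRing B] [IsDomain B] [IsNoetherianRing B] [Algebra B₁ B] [Algebra.IsIntegral B₁ B]

/-- **K4 (`HorPrincipal`) from the two-point lemma, chart form.**

`B₁ → B` an injective integral extension of Noetherian domains (the chart of level `M' q` inside
the chart of level `M' q²` through one of the two degeneracy maps), `B₁` integrally closed, `ν` a
prime of `B₁` with `𝔪(B₁)_ν = (π₀, u₀)` and `(π₀)` prime in `(B₁)_ν` (a smooth point).  Let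
`R := (B₁)_ν` and `A := B ⊗ R` (the localisation of `B` at the image of `B₁ ∖ ν`).  If `y₀ ∈ B`
is a root of a two-point polynomial `H = (T - c)(T - d)^e + π₀ G₁` over `R` (`c - d` and `G₁(d)`
units, `e ≠ 0`) whose degree is at most that of the minimal polynomial of `y₀` over `R`, and `y₀`
generates the fraction field of `B` over that of `B₁` (`hfrac`), then at every maximal ideal `𝔫`
of `B` over `ν` every prime `𝔮 ≤ 𝔫` not containing `π₀` is principal in `B_𝔫`. -/
theorem horPrincipal_of_twoPoint (hinj : Function.Injective (algebraMap B₁ B))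
    (ν : Ideal B₁) [hν : ν.IsPrime] (π₀ u₀ : B₁)
    (hm : maximalIdeal (Localization.AtPrime ν) =
      Ideal.span {algebraMap B₁ (Localization.AtPrime ν) π₀,
        algebraMap B₁ (Localization.AtPrime ν) u₀})
    (hπ : (Ideal.span {algebraMap B₁ (Localization.AtPrime ν) π₀}).IsPrime)
    (c d : Localization.AtPrime ν) (H G₁ : (Localization.AtPrime ν)[X]) (e : ℕ) (he : e ≠ 0)
    (hH : H = (X - C c) * (X - C d) ^ e + C (algebraMap B₁ (Localization.AtPrime ν) π₀) * G₁)
    (hmonic : H.Monic) (hcd : IsUnit (c - d)) (hG₁ : IsUnit (G₁.eval d))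
    (y₀ : B)
    (hy : aeval (algebraMap B (Localization (Algebra.algebraMapSubmonoid B ν.primeCompl)) y₀) H
      = 0)
    (hdeg : H.natDegree ≤ (minpoly (Localization.AtPrime ν)
      (algebraMap B (Localization (Algebra.algebraMapSubmonoid B ν.primeCompl)) y₀)).natDegree)
    (hfrac : ∀ x : B, ∃ r : B₁, r ≠ 0 ∧ algebraMap B₁ B r * x ∈ Algebra.adjoin B₁ {y₀})
    (𝔫 : Ideal B) [h𝔫 : 𝔫.IsMaximal] (h𝔫ν : 𝔫.comap (algebraMap B₁ B) = ν)
    (𝔮 : Ideal B) [h𝔮 : 𝔮.IsPrime] (h𝔮𝔫 : 𝔮 ≤ 𝔫) (hπ𝔮 : algebraMap B₁ B π₀ ∉ 𝔮) :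
    ∃ x ∈ 𝔮, ∃ d, d ∉ 𝔫 ∧ ∀ y ∈ 𝔮, x ∣ d * y := by
  classical
  let R := Localization.AtPrime ν
  let T : Submonoid B := Algebra.algebraMapSubmonoid B ν.primeCompl
  let A := Localization T
  -- instances on `R`
  have : IsDomain R := IsLocalization.isDomain_localization (Ideal.primeCompl_le_nonZeroDivisors ν)
  have : IsNoetherianRing R := IsLocalization.isNoetherianRing ν.primeCompl R inferInstance
  have : IsIntegrallyClosed R :=
    isIntegrallyClosed_of_isLocalization R ν.primeCompl (Ideal.primeCompl_le_nonZeroDivisors ν)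
  -- instances on `A`
  have hT : T ≤ nonZeroDivisors B := by
    rintro _ ⟨s, hs, rfl⟩
    refine mem_nonZeroDivisors_of_ne_zero ?_
    intro h0
    have hs0 : s = 0 := hinj (by rw [h0, map_zero])
    exact hs (hs0 ▸ ν.zero_mem)
  have : IsDomain A := IsLocalization.isDomain_localization hT
  have hinjBA : Function.Injective (algebraMap B A) := IsLocalization.injective A hT
  have hinjRA : Function.Injective (algebraMap R A) :=
    localizationAlgebra_injective R A hinj
  have : Algebra.IsIntegral R A := ⟨isIntegral_localization (R := B₁) (S := B) (M := ν.primeCompl)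
    (Rₘ := R) (Sₘ := A)⟩
  set y : A := algebraMap B A y₀ with hydef
  set π : R := algebraMap B₁ R π₀ with hπdef
  set u : R := algebraMap B₁ R u₀ with hudef
  -- `Frac A = Frac R (y)`
  have hfracA : ∀ a : A, ∃ r : R, r ≠ 0 ∧ algebraMap R A r * a ∈ Algebra.adjoin R {y} := by
    intro a
    obtain ⟨⟨x, t⟩, hxt⟩ := IsLocalization.surj T a
    have hxt' : a * algebraMap B A (t : B) = algebraMap B A x := hxt
    obtain ⟨t₁, ht₁, ht₁'⟩ := t.2
    obtain ⟨r₁, hr₁, hmem⟩ := hfrac x
    have hmem' : algebraMap B₁ B r₁ * x ∈ (aeval y₀ : B₁[X] →ₐ[B₁] B).range := by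
      rw [← Algebra.adjoin_singleton_eq_range_aeval]; exact hmem
    obtain ⟨G₀, hG₀⟩ := hmem'
    have hG₀' : aeval y₀ G₀ = algebraMap B₁ B r₁ * x := hG₀
    refine ⟨algebraMap B₁ R (r₁ * t₁), ?_, ?_⟩
    · intro h0
      have h1 : r₁ * t₁ = 0 :=
        (IsLocalization.injective R (Ideal.primeCompl_le_nonZeroDivisors ν)) (by rw [h0, map_zero])
      rcases mul_eq_zero.mp h1 with h2 | h2
      · exact hr₁ h2
      · exact ht₁ (h2 ▸ ν.zero_mem)
    · have h3 : algebraMap R A (algebraMap B₁ R (r₁ * t₁)) * a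
          = aeval y (G₀.map (algebraMap B₁ R)) := by
        rw [Polynomial.aeval_map_algebraMap, hydef, Polynomial.aeval_algebraMap_apply, hG₀',
          ← IsScalarTower.algebraMap_apply B₁ R A, IsScalarTower.algebraMap_apply B₁ B A,
          map_mul, map_mul, map_mul, ht₁', mul_assoc, mul_comm (algebraMap B A (t : B)) a, hxt']
      rw [h3]
      exact aeval_mem_adjoin_singleton R y
  -- `A = R[y]`
  have hgen : ∀ a : A, ∃ G : R[X], aeval y G = a :=
    exists_aeval_eq hinjRA π u c d hm hπ H G₁ e he hH hmonic hcd hG₁ y hy hdeg hfracA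
  have htf : Module.IsTorsionFree R A :=
    (Module.isTorsionFree_iff_algebraMap_injective (R := R) (A := A)).mpr hinjRA
  have hpres : ∀ G : R[X], aeval y G = 0 → H ∣ G :=
    TwoPoint.hpres_of_natDegree_le H hmonic y hy hdeg
  -- the point `𝔑` of `A`
  have hdisjT : Disjoint (T : Set B) (𝔫 : Set B) := by
    rw [Set.disjoint_left]
    rintro _ ⟨s, hs, rfl⟩ hmem
    have : s ∈ 𝔫.comap (algebraMap B₁ B) := hmem
    rw [h𝔫ν] at this
    exact hs this
  let 𝔑 : Ideal A := 𝔫.map (algebraMap B A)
  have h𝔑max : 𝔑.IsMaximal := map_isMaximal_of_disjoint T A 𝔫 hdisjT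
  have h𝔑prime : 𝔑.IsPrime := h𝔑max.isPrime
  have hcomap : 𝔑.comap (algebraMap B A) = 𝔫 :=
    IsLocalization.under_map_of_isPrime_disjoint T A h𝔫.isPrime hdisjT
  let L := Localization.AtPrime 𝔑
  have hloc₀ : IsLocalization.AtPrime L (𝔑.comap (algebraMap B A)) :=
    IsLocalization.isLocalization_isLocalization_atPrime_isLocalization T L 𝔑
  have h𝔫prime : 𝔫.IsPrime := h𝔫.isPrime
  have hloc : IsLocalization.AtPrime L 𝔫 := by
    convert hloc₀ using 2
    all_goals exact hcomap.symm
  obtain ⟨t, htm, htpir, htdvd⟩ := exists_pir_quot π u c d hm hπ H G₁ e he hH hmonic hcd hG₁ y hy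
    hgen hpres 𝔑 L
  have hdisj𝔮 : Disjoint (𝔫.primeCompl : Set B) (𝔮 : Set B) := by
    rw [Set.disjoint_left]
    intro z hz hz𝔮
    exact hz (h𝔮𝔫 hz𝔮)
  refine Fermat.Agent.S36.OrdPoint.horPrincipal_of_quotient_pir 𝔫 L t htm 𝔮 h𝔮𝔫 ?_
  intro ht𝔮
  apply hπ𝔮
  have h1 : algebraMap A L (algebraMap R A π) ∈ 𝔮.map (algebraMap B L) :=
    Ideal.mem_of_dvd _ htdvd ht𝔮
  have h2 : algebraMap A L (algebraMap R A π) = algebraMap B L (algebraMap B₁ B π₀) := by
    rw [hπdef, ← IsScalarTower.algebraMap_apply B₁ R A, IsScalarTower.algebraMap_apply B₁ B A,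
      ← IsScalarTower.algebraMap_apply B A L]
  rw [h2] at h1
  have h3 : algebraMap B₁ B π₀ ∈ (Ideal.map (algebraMap B L) 𝔮).under B := h1
  rwa [IsLocalization.under_map_of_isPrime_disjoint 𝔫.primeCompl L h𝔮 hdisj𝔮] at h3

end Chart

end Fermat.Agent.S36.OrdLevel2
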