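import Mathlib
import Fermat.Agent.S36.OrdLevel2

/-!
# S36 (R-ord), step (B4): field-to-chart adapter for `OrdLevel2.horPrincipal_of_twoPoint`

The hypotheses `hy`, `hdeg`, `hfrac` of `OrdLevel2.horPrincipal_of_twoPoint` (which speak about
the localisation `B ⊗ (B₁)_ν`) are derived here from statements in the function fields:
`φ₁ : B₁ → F₁`, `φ : B → F` injective, `Ψ : F₁ → F` over `B₁ → B`, `F₁` the field of fractions of
`B₁`; the root `y₀` kills `H` (`hyF`), has degree at least `deg H` over `F₁` (`hdegF`) and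
generates `F` over `F₁` (`hgenF`).

* `exists_integer_multiple`: clearing the denominators of a polynomial over `F₁`.
* `horPrincipal_of_twoPoint_field`: the contract K4 (`HorPrincipal`) at every maximal ideal of
  `B` over the smooth point `ν`, from field-level data.
-/

set_option autoImplicit false

namespace Fermat.Agent.S36.OrdLevel2F

open IsLocalRing Polynomial

/-- Clearing denominators: every polynomial over the field of fractions `F₁` of `B₁` has a
nonzero `B₁`-multiple with coefficients in `B₁`. -/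
theorem exists_integer_multiple {B₁ F₁ : Type*} [CommRing B₁] [Field F₁] (φ₁ : B₁ →+* F₁)
    (hφ₁ : Function.Injective φ₁)
    (hfr₁ : ∀ g : F₁, ∃ b₁ b₂ : B₁, b₂ ≠ 0 ∧ g * φ₁ b₂ = φ₁ b₁) (P : F₁[X]) :
    ∃ r : B₁, r ≠ 0 ∧ ∃ P₀ : B₁[X], P₀.map φ₁ = C (φ₁ r) * P := by
  classical
  have hne : ∀ r : B₁, r ≠ 0 → φ₁ r ≠ 0 := fun r hr h => hr (hφ₁ (by rw [h, map_zero]))
  induction P using Polynomial.induction_on' with
  | add p q hp hq =>
    obtain ⟨r₁, hr₁, P₁, hP₁⟩ := hp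
    obtain ⟨r₂, hr₂, P₂, hP₂⟩ := hq
    refine ⟨r₁ * r₂, ?_, C r₂ * P₁ + C r₁ * P₂, ?_⟩
    · intro h
      have h1 : φ₁ r₁ * φ₁ r₂ = 0 := by rw [← map_mul, h, map_zero]
      rcases mul_eq_zero.mp h1 with h2 | h2
      · exact hne r₁ hr₁ h2
      · exact hne r₂ hr₂ h2
    · rw [Polynomial.map_add, Polynomial.map_mul, Polynomial.map_mul, Polynomial.map_C,
        Polynomial.map_C, hP₁, hP₂, map_mul, C_mul]
      ring
  | monomial n c =>
    obtain ⟨b₁, b₂, hb₂, hc⟩ := hfr₁ c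
    refine ⟨b₂, hb₂, monomial n b₁, ?_⟩
    rw [Polynomial.map_monomial, ← hc, C_mul_monomial, mul_comm]

variable {B₁ B : Type*} [CommRing B₁] [IsDomain B₁] [IsNoetherianRing B₁] [IsIntegrallyClosed B₁]
  [CommRing B] [IsDomain B] [IsNoetherianRing B] [Algebra B₁ B] [Algebra.IsIntegral B₁ B]

/-- **K4 (`HorPrincipal`) from the two-point lemma, field-level hypotheses.**  See the module
docstring and `OrdLevel2.horPrincipal_of_twoPoint`. -/
theorem horPrincipal_of_twoPoint_field (hinj : Function.Injective (algebraMap B₁ B))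
    (ν : Ideal B₁) [hν : ν.IsPrime] (π₀ u₀ : B₁)
    (hm : maximalIdeal (Localization.AtPrime ν) =
      Ideal.span {algebraMap B₁ (Localization.AtPrime ν) π₀,
        algebraMap B₁ (Localization.AtPrime ν) u₀})
    (hπ : (Ideal.span {algebraMap B₁ (Localization.AtPrime ν) π₀}).IsPrime)
    (c d : Localization.AtPrime ν) (H G₁ : (Localization.AtPrime ν)[X]) (e : ℕ) (he : e ≠ 0)
    (hH : H = (X - C c) * (X - C d) ^ e + C (algebraMap B₁ (Localization.AtPrime ν) π₀) * G₁)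
    (hmonic : H.Monic) (hcd : IsUnit (c - d)) (hG₁ : IsUnit (G₁.eval d))
    {F₁ F : Type*} [Field F₁] [Field F] (φ₁ : B₁ →+* F₁) (hφ₁ : Function.Injective φ₁)
    (φ : B →+* F) (hφ : Function.Injective φ) (Ψ : F₁ →+* F)
    (hcomm : ∀ b, Ψ (φ₁ b) = φ (algebraMap B₁ B b))
    (hfr₁ : ∀ g : F₁, ∃ b₁ b₂ : B₁, b₂ ≠ 0 ∧ g * φ₁ b₂ = φ₁ b₁)
    (ρ₁ : Localization.AtPrime ν →+* F₁)
    (hρ₁ : ∀ b, ρ₁ (algebraMap B₁ (Localization.AtPrime ν) b) = φ₁ b)
    (y₀ : B)
    (hyF : (H.map ρ₁).eval₂ Ψ (φ y₀) = 0)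
    (hdegF : ∀ P : F₁[X], P ≠ 0 → P.eval₂ Ψ (φ y₀) = 0 → H.natDegree ≤ P.natDegree)
    (hgenF : ∀ x : F, ∃ P : F₁[X], P.eval₂ Ψ (φ y₀) = x)
    (𝔫 : Ideal B) [h𝔫 : 𝔫.IsMaximal] (h𝔫ν : 𝔫.comap (algebraMap B₁ B) = ν)
    (𝔮 : Ideal B) [h𝔮 : 𝔮.IsPrime] (h𝔮𝔫 : 𝔮 ≤ 𝔫) (hπ𝔮 : algebraMap B₁ B π₀ ∉ 𝔮) :
    ∃ x ∈ 𝔮, ∃ d, d ∉ 𝔫 ∧ ∀ y ∈ 𝔮, x ∣ d * y := by
  classical
  let R := Localization.AtPrime ν
  let T : Submonoid B := Algebra.algebraMapSubmonoid B ν.primeCompl
  let A := Localization T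
  have : IsDomain R := IsLocalization.isDomain_localization (Ideal.primeCompl_le_nonZeroDivisors ν)
  have hT : T ≤ nonZeroDivisors B := by
    rintro _ ⟨s, hs, rfl⟩
    refine mem_nonZeroDivisors_of_ne_zero ?_
    intro h0
    have hs0 : s = 0 := hinj (by rw [h0, map_zero])
    exact hs (hs0 ▸ ν.zero_mem)
  have : IsDomain A := IsLocalization.isDomain_localization hT
  have : Algebra.IsIntegral R A := ⟨isIntegral_localization (R := B₁) (S := B) (M := ν.primeCompl)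
    (Rₘ := R) (Sₘ := A)⟩
  -- the embedding `ρ : A → F`
  have hunits : ∀ t : T, IsUnit (φ (t : B)) := by
    intro t
    have ht0 : (t : B) ≠ 0 := nonZeroDivisors.ne_zero (hT t.2)
    exact (isUnit_iff_ne_zero).mpr (fun h => ht0 (hφ (by rw [h, map_zero])))
  let ρ : A →+* F := IsLocalization.lift (M := T) (g := φ) hunits
  have hρ : ∀ b : B, ρ (algebraMap B A b) = φ b := fun b => IsLocalization.lift_eq hunits b
  have hρinj : Function.Injective ρ := by
    rw [injective_iff_map_eq_zero]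
    intro a ha
    obtain ⟨⟨x, t⟩, hxt⟩ := IsLocalization.surj T a
    have hxt' : a * algebraMap B A (t : B) = algebraMap B A x := hxt
    have h1 : φ x = 0 := by
      rw [← hρ x, ← hxt', map_mul, ha, zero_mul]
    have hx0 : x = 0 := hφ (by rw [h1, map_zero])
    rw [hx0, map_zero] at hxt'
    exact (IsUnit.mul_left_eq_zero (IsLocalization.map_units A t)).mp hxt'
  have hρ₁inj : Function.Injective ρ₁ := by
    rw [injective_iff_map_eq_zero]
    intro a ha
    obtain ⟨⟨x, t⟩, hxt⟩ := IsLocalization.surj ν.primeCompl a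
    have hxt' : a * algebraMap B₁ R (t : B₁) = algebraMap B₁ R x := hxt
    have h1 : φ₁ x = 0 := by
      rw [← hρ₁ x, ← hxt', map_mul, ha, zero_mul]
    have hx0 : x = 0 := hφ₁ (by rw [h1, map_zero])
    rw [hx0, map_zero] at hxt'
    exact (IsUnit.mul_left_eq_zero (IsLocalization.map_units R t)).mp hxt'
  have hρR : ρ.comp (algebraMap R A) = Ψ.comp ρ₁ := by
    apply IsLocalization.ringHom_ext ν.primeCompl
    ext b
    simp only [RingHom.comp_apply]
    rw [← IsScalarTower.algebraMap_apply B₁ R A, IsScalarTower.algebraMap_apply B₁ B A, hρ,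
      hρ₁, hcomm]
  set y : A := algebraMap B A y₀ with hydef
  have hρy : ρ y = φ y₀ := hρ y₀
  have key : ∀ P : R[X], ρ (aeval y P) = (P.map ρ₁).eval₂ Ψ (φ y₀) := by
    intro P
    rw [aeval_def, Polynomial.hom_eval₂, hρR, hρy, Polynomial.eval₂_map]
  -- `hy`
  have hy : aeval y H = 0 := hρinj (by rw [key, hyF, map_zero])
  -- `hdeg`
  have hdeg : H.natDegree ≤ (minpoly R y).natDegree := by
    have hint : IsIntegral R y := Algebra.IsIntegral.isIntegral y
    have hP0 : minpoly R y ≠ 0 := minpoly.ne_zero hint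
    have hP0' : (minpoly R y).map ρ₁ ≠ 0 := by
      rwa [Ne, Polynomial.map_eq_zero_iff hρ₁inj]
    have hroot : ((minpoly R y).map ρ₁).eval₂ Ψ (φ y₀) = 0 := by
      rw [← key, minpoly.aeval, map_zero]
    have := hdegF _ hP0' hroot
    rwa [Polynomial.natDegree_map_eq_of_injective hρ₁inj] at this
  -- `hfrac`
  have hfrac : ∀ x : B, ∃ r : B₁, r ≠ 0 ∧ algebraMap B₁ B r * x ∈ Algebra.adjoin B₁ {y₀} := by
    intro x
    obtain ⟨P, hP⟩ := hgenF (φ x)
    obtain ⟨r, hr, P₀, hP₀⟩ := exists_integer_multiple φ₁ hφ₁ hfr₁ P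
    refine ⟨r, hr, ?_⟩
    have h1 : φ (algebraMap B₁ B r * x) = φ (aeval y₀ P₀) := by
      have h2 : φ (aeval y₀ P₀) = (P₀.map φ₁).eval₂ Ψ (φ y₀) := by
        rw [aeval_def, Polynomial.hom_eval₂, Polynomial.eval₂_map]
        congr 1
        ext b
        simp only [RingHom.comp_apply]
        rw [hcomm]
      rw [h2, hP₀, Polynomial.eval₂_mul, Polynomial.eval₂_C, hP, map_mul, hcomm]
    rw [hφ h1]
    exact aeval_mem_adjoin_singleton B₁ y₀
  exact OrdLevel2.horPrincipal_of_twoPoint hinj ν π₀ u₀ hm hπ c d H G₁ e he hH hmonic hcd hG₁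
    y₀ hy hdeg hfrac 𝔫 h𝔫ν 𝔮 h𝔮𝔫 hπ𝔮

end Fermat.Agent.S36.OrdLevel2F
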