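import Mathlib
import Fermat.Agent.S36.OrdLevel2F
import Fermat.Agent.S36.OrdFibre
import Fermat.Agent.S36.OrdField2

/-!
# S36 (R-ord): the composition — K4 at every point of level `M q²` over an ordinary point

`R₀ → B₁ → B` are charts of levels `M`, `M q`, `M q²` (any carriers, embedded in the function
fields by `φ₀`, `φ₁`, `φ`); the structure map `R₀ → B₁` is the first degeneracy map and
`B₁ → B` the second one at the next level (`ord_horPrincipal`), or the other way round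
(`ord_horPrincipal'`).  `ν` is a smooth point of `B₁` whose fibre over `R₀` is cut out by a
monogenic generator `h` (`MonoFibre`) and contains a second point `ν'`.  Then the contract K4
(`HorPrincipal`) holds at EVERY maximal ideal of `B` over `ν`.

This is the composition of

* `OrdFibre.ord_twoPoint_of_fibre` (the two-point shape of `m / (X - h)` over `(B₁)_ν`),
* `OrdField2` (`a₂ (w h)` is a root of that polynomial, which is its minimal polynomial, and it
  generates the function field of level `M q²`),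
* `OrdLevel2F.horPrincipal_of_twoPoint_field` (the two-point lemma at level `M q²`).

Also: `isDiscreteValuationRing_quot` (the quotient of a smooth local ring by its vertical
parameter is a discrete valuation ring) and `hgen_of_adjoin` (the generation hypothesis of
`OrdField2` from the output of `MonoFibre.exists_generator`).
-/

set_option autoImplicit false
set_option linter.style.haveILetI false

namespace Fermat.Agent.S36.OrdGlue

open ModularCurve AlgebraicCurve Polynomial Fermat.Agent.S24 IsLocalRing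

/-! ### The quotient of a smooth local ring by the vertical parameter -/

/-- `R` a noetherian local domain with `𝔪 = (π, u)`, `(π)` prime, and some element of `𝔪` not
divisible by `π`: then `R / (π)` is a discrete valuation ring. -/
theorem isDiscreteValuationRing_quot {R : Type*} [CommRing R] [IsDomain R] [IsNoetherianRing R]
    [IsLocalRing R] (π u : R) (hm : maximalIdeal R = Ideal.span {π, u})
    [IsDomain (R ⧸ Ideal.span {π})] (hx : ∃ x ∈ maximalIdeal R, ¬ π ∣ x) :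
    IsDiscreteValuationRing (R ⧸ Ideal.span {π}) := by
  set mk := Ideal.Quotient.mk (Ideal.span {π}) with hmk
  have hsurj : Function.Surjective mk := Ideal.Quotient.mk_surjective
  haveI : IsLocalRing (R ⧸ Ideal.span {π}) := IsLocalRing.of_surjective' mk hsurj
  have hmax : maximalIdeal (R ⧸ Ideal.span {π}) = Ideal.span {mk u} := by
    have h1 : maximalIdeal (R ⧸ Ideal.span {π}) = (maximalIdeal R).map mk :=
      (IsLocalRing.map_maximalIdeal_of_surjective mk hsurj).symm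
    rw [h1, hm, Ideal.map_span, Set.image_pair]
    have h2 : mk π = 0 := Ideal.Quotient.eq_zero_iff_mem.mpr (Ideal.mem_span_singleton_self π)
    rw [h2]
    apply le_antisymm
    · rw [Ideal.span_le]
      rintro x (rfl | rfl)
      · exact Ideal.zero_mem _
      · exact Ideal.mem_span_singleton_self _
    · exact Ideal.span_mono (by intro x hx; rw [Set.mem_singleton_iff] at hx; rw [hx]; simp)
  have hnf : ¬ IsField (R ⧸ Ideal.span {π}) := by
    intro hf
    obtain ⟨x, hxm, hxπ⟩ := hx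
    have h1 : maximalIdeal (R ⧸ Ideal.span {π}) = ⊥ := IsLocalRing.isField_iff_maximalIdeal_eq.mp hf
    have h2 : mk x ∈ maximalIdeal (R ⧸ Ideal.span {π}) := by
      rw [← IsLocalRing.map_maximalIdeal_of_surjective mk hsurj]
      exact Ideal.mem_map_of_mem mk hxm
    rw [h1, Ideal.mem_bot] at h2
    exact hxπ (Ideal.mem_span_singleton.mp (Ideal.Quotient.eq_zero_iff_mem.mp h2))
  have hprinc : (maximalIdeal (R ⧸ Ideal.span {π})).IsPrincipal := ⟨⟨mk u, by
    rw [hmax]⟩⟩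
  exact ((IsDiscreteValuationRing.TFAE (R ⧸ Ideal.span {π}) hnf).out 0 4).mpr hprinc

/-! ### The generation hypothesis of `OrdField2` from `MonoFibre` -/

section Gen

variable {F₀ F₁ : Type*} [Field F₀] [Field F₁] {R₀ B₁ : Type*} [CommRing R₀] [CommRing B₁]
  [Algebra R₀ B₁]

/-- transport of `aeval` through the chart embeddings -/
theorem map_aeval_eq (α : F₀ →+* F₁) (φ₀ : R₀ →+* F₀) (φ₁ : B₁ →+* F₁)
    (hα : ∀ r : R₀, φ₁ (algebraMap R₀ B₁ r) = α (φ₀ r)) (h : B₁) (p : R₀[X]) :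
    φ₁ (aeval h p) = (p.map φ₀).eval₂ α (φ₁ h) := by
  rw [aeval_def, Polynomial.hom_eval₂, Polynomial.eval₂_map]
  congr 1
  ext r
  exact hα r

/-- If `s • b ∈ R₀[h]` with `φ₀ s ≠ 0`, then `φ₁ b` is a polynomial in `φ₁ h` over `α(F₀)`. -/
theorem hgen_of_adjoin (α : F₀ →+* F₁) (φ₀ : R₀ →+* F₀) (φ₁ : B₁ →+* F₁)
    (hα : ∀ r : R₀, φ₁ (algebraMap R₀ B₁ r) = α (φ₀ r)) (h : B₁) (s : R₀) (hs : φ₀ s ≠ 0)
    (b : B₁) (hb : s • b ∈ Algebra.adjoin R₀ {h}) :
    ∃ P : F₀[X], φ₁ b = P.eval₂ α (φ₁ h) := by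
  rw [Algebra.adjoin_singleton_eq_range_aeval] at hb
  obtain ⟨p, hp⟩ := hb
  have h1 : φ₁ (s • b) = (p.map φ₀).eval₂ α (φ₁ h) := by
    rw [← hp]
    exact map_aeval_eq α φ₀ φ₁ hα h p
  rw [Algebra.smul_def, map_mul, hα] at h1
  have hs' : α (φ₀ s) ≠ 0 := fun h0 => hs ((map_eq_zero α).mp h0)
  refine ⟨C (φ₀ s)⁻¹ * p.map φ₀, ?_⟩
  rw [Polynomial.eval₂_mul, Polynomial.eval₂_C, ← h1, map_inv₀, ← mul_assoc,
    inv_mul_cancel₀ hs', one_mul]

end Gen

/-! ### The composition -/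

section Main

variable {L : Type*} [Field L] [Algebra ℚ L]

variable {R₀ B₁ B : Type*} [CommRing R₀] [CommRing B₁] [IsDomain B₁] [IsNoetherianRing B₁]
  [IsIntegrallyClosed B₁] [CommRing B] [IsDomain B] [IsNoetherianRing B] [Algebra R₀ B₁]
  [Algebra B₁ B] [Algebra.IsIntegral B₁ B]

/-- **K4 at every point of level `M q²` over an ordinary point `ν` of level `M q`**
(`R₀ → B₁` the `α`-degeneracy, `B₁ → B` the `β`-degeneracy, root `y₀ = α₂ (w h)`). -/
theorem ord_horPrincipal (ι : L →+* AlgebraicClosure ℚ) (M q : ℕ) [NeZero M] [NeZero q]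
    (hq : q.Prime) (w : FF L (M * q) →ₐ[L] FF L (M * q))
    (hwα : w.comp (heckeAlphaBar L M q) = heckeBetaBar L M q)
    (hwβ : w.comp (heckeBetaBar L M q) = heckeAlphaBar L M q)
    (φ₀ : R₀ →+* FF L M) (φ₁ : B₁ →+* FF L (M * q)) (hφ₁ : Function.Injective φ₁)
    (φ : B →+* FF L (M * q * q)) (hφ : Function.Injective φ)
    (hα : ∀ r : R₀, φ₁ (algebraMap R₀ B₁ r) = heckeAlphaBar L M q (φ₀ r))
    (hβ : ∀ b : B₁, φ (algebraMap B₁ B b) = heckeBetaBar L (M * q) q (φ₁ b))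
    (hfr₁ : ∀ g : FF L (M * q), ∃ b₁ b₂ : B₁, b₂ ≠ 0 ∧ g * φ₁ b₂ = φ₁ b₁)
    (P : Ideal R₀) [P.IsMaximal] (ν ν' : Ideal B₁) [hν : ν.IsPrime] (hν' : ν'.IsMaximal)
    (hne : ν' ≠ ν) (h : B₁) (c c' : R₀)
    (hνeq : ν = P.map (algebraMap R₀ B₁) ⊔ Ideal.span {h - algebraMap R₀ B₁ c})
    (hν'eq : ν' = P.map (algebraMap R₀ B₁) ⊔ Ideal.span {h - algebraMap R₀ B₁ c'})
    (m : R₀[X]) (hm : m.Monic) (hdeg : m.natDegree = q + 1) (hroot : aeval h m = 0)
    (hgen : ∃ Q : (FF L M)[X],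
      heckeBetaBar L M q (jBC L M) = Q.eval₂ (heckeAlphaBar L M q).toRingHom (φ₁ h))
    (y₀ : B) (hy₀ : φ y₀ = heckeAlphaBar L (M * q) q (w (φ₁ h)))
    (π₀ u₀ : B₁)
    (hmax : maximalIdeal (Localization.AtPrime ν) =
      Ideal.span {algebraMap B₁ (Localization.AtPrime ν) π₀,
        algebraMap B₁ (Localization.AtPrime ν) u₀})
    (hπ : Prime (algebraMap B₁ (Localization.AtPrime ν) π₀))
    (hqπ : algebraMap B₁ (Localization.AtPrime ν) π₀ ∣ ((q : ℕ) : Localization.AtPrime ν))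
    (hx : ∃ x ∈ maximalIdeal (Localization.AtPrime ν),
      ¬ algebraMap B₁ (Localization.AtPrime ν) π₀ ∣ x)
    (hK : ∀ r : R₀, ∃ b : Localization.AtPrime ν, algebraMap B₁ (Localization.AtPrime ν) π₀ ∣
      algebraMap B₁ (Localization.AtPrime ν) (algebraMap R₀ B₁ r) - b ^ q)
    (hE : ∃ E : Localization.AtPrime ν,
      algebraMap B₁ (Localization.AtPrime ν) (aeval h (derivative m)) ∣
        algebraMap B₁ (Localization.AtPrime ν) π₀ * E ∧
      ¬ algebraMap B₁ (Localization.AtPrime ν) π₀ ∣ E)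
    (hT3 : ∀ 𝔭 ∈ (Ideal.span {algebraMap B₁ (Localization.AtPrime ν)
        (aeval h (derivative m))} : Ideal (Localization.AtPrime ν)).minimalPrimes,
      algebraMap B₁ (Localization.AtPrime ν) π₀ ∈ 𝔭)
    (𝔫 : Ideal B) [h𝔫 : 𝔫.IsMaximal] (h𝔫ν : 𝔫.comap (algebraMap B₁ B) = ν)
    (𝔮 : Ideal B) [h𝔮 : 𝔮.IsPrime] (h𝔮𝔫 : 𝔮 ≤ 𝔫) (hπ𝔮 : algebraMap B₁ B π₀ ∉ 𝔮) :
    ∃ x ∈ 𝔮, ∃ d, d ∉ 𝔫 ∧ ∀ y ∈ 𝔮, x ∣ d * y := by
  classical
  let R := Localization.AtPrime ν
  set π : R := algebraMap B₁ R π₀ with hπdef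
  have hdomR : IsDomain R :=
    IsLocalization.isDomain_localization (Ideal.primeCompl_le_nonZeroDivisors ν)
  have hnoeR : IsNoetherianRing R := IsLocalization.isNoetherianRing ν.primeCompl R inferInstance
  have hπprime : (Ideal.span {π} : Ideal R).IsPrime :=
    (Ideal.span_singleton_prime hπ.ne_zero).mpr hπ
  haveI : IsDomain (R ⧸ Ideal.span {π}) := Ideal.Quotient.isDomain _
  haveI : IsDiscreteValuationRing (R ⧸ Ideal.span {π}) :=
    isDiscreteValuationRing_quot π (algebraMap B₁ R u₀) hmax hx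
  -- the two-point shape
  have hK' : ∀ r : R₀, ∃ b : R, π ∣ algebraMap R₀ R r - b ^ q := by
    intro r
    obtain ⟨b, hb⟩ := hK r
    exact ⟨b, by rw [IsScalarTower.algebraMap_apply R₀ B₁ R]; exact hb⟩
  have hder : aeval (algebraMap B₁ R h) (derivative m) = algebraMap B₁ R (aeval h (derivative m)) :=
    Polynomial.aeval_algebraMap_apply R h (derivative m)
  obtain ⟨a, G₁, hu1, hu2, -, hHeq, hHmonic, hHdeg, -⟩ :=
    OrdFibre.ord_twoPoint_of_fibre P q hq ν ν' hν' hne h c c' hνeq hν'eq m hm hdeg hroot R π hπ hqπ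
      hK' (by rw [hder]; exact hE) (by rw [hder]; exact hT3)
  set hR : R := algebraMap B₁ R h with hRdef
  set H : R[X] := (m.map (algebraMap R₀ R)) /ₘ (X - C hR) with hHdef
  -- the embedding of `R` into the function field
  have hunits : ∀ t : ν.primeCompl, IsUnit (φ₁ (t : B₁)) := by
    intro t
    refine isUnit_iff_ne_zero.mpr (fun h0 => t.2 ?_)
    have : (t : B₁) = 0 := hφ₁ (by rw [h0, map_zero])
    rw [this]
    exact ν.zero_mem
  let ρ₁ : R →+* FF L (M * q) := IsLocalization.lift (M := ν.primeCompl) (g := φ₁) hunits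
  have hρ₁ : ∀ b : B₁, ρ₁ (algebraMap B₁ R b) = φ₁ b := fun b => IsLocalization.lift_eq hunits b
  -- field-level data
  set m₀ : (FF L M)[X] := m.map φ₀ with hm₀
  have hm₀monic : m₀.Monic := hm.map φ₀
  have hm₀deg : m₀.natDegree = q + 1 := by rw [hm₀, hm.natDegree_map, hdeg]
  have hroot₀ : m₀.eval₂ (heckeAlphaBar L M q).toRingHom (φ₁ h) = 0 := by
    have h1 := map_aeval_eq (heckeAlphaBar L M q).toRingHom φ₀ φ₁ hα h m
    rw [hroot, map_zero] at h1
    exact h1.symm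
  have hHmap : H.map ρ₁ = (m₀.map (heckeAlphaBar L M q).toRingHom) /ₘ (X - C (φ₁ h)) := by
    rw [hHdef, Polynomial.map_divByMonic ρ₁ (monic_X_sub_C hR), Polynomial.map_sub,
      Polynomial.map_X, Polynomial.map_C, hRdef, hρ₁, Polynomial.map_map, hm₀, Polynomial.map_map]
    congr 2
    ext r
    simp only [RingHom.comp_apply]
    rw [IsScalarTower.algebraMap_apply R₀ B₁ R, hρ₁, hα]
    rfl
  have hyF : (H.map ρ₁).eval₂ (heckeBetaBar L (M * q) q).toRingHom (φ y₀) = 0 := by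
    rw [hHmap, hy₀]
    exact OrdField2.eval₂_divByMonic_alpha_w M q w hq.two_le hwα hwβ m₀ (φ₁ h) hroot₀ hgen
  have hdegF : ∀ Q : (FF L (M * q))[X], Q ≠ 0 →
      Q.eval₂ (heckeBetaBar L (M * q) q).toRingHom (φ y₀) = 0 → H.natDegree ≤ Q.natDegree := by
    intro Q hQ0 hQ
    letI := algebraAlong (heckeBetaBar L (M * q) q)
    have hmin := OrdField2.minpoly_alpha_w M q w ι hq hwα hwβ m₀ hm₀monic hm₀deg (φ₁ h) hroot₀ hgen
    have hd := (OrdField2.monic_divByMonic_of_natDegree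
      (m₀.map (heckeAlphaBar L M q).toRingHom) (φ₁ h) (hm₀monic.map _)
      (by rw [(hm₀monic).natDegree_map, hm₀deg])).2
    have hkill : aeval (heckeAlphaBar L (M * q) q (w (φ₁ h))) Q = 0 := by
      rw [← hy₀]
      exact hQ
    have hdvd := minpoly.dvd (FF L (M * q)) (heckeAlphaBar L (M * q) q (w (φ₁ h))) hkill
    have h1 := Polynomial.natDegree_le_of_dvd hdvd hQ0
    rw [hmin, hd] at h1
    rw [hHdeg]
    exact h1
  have hgenF : ∀ x : FF L (M * q * q), ∃ Q : (FF L (M * q))[X],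
      Q.eval₂ (heckeBetaBar L (M * q) q).toRingHom (φ y₀) = x := by
    intro x
    rw [hy₀]
    exact OrdField2.exists_eval₂_eq_alpha_w M q w ι hq hwα hwβ (φ₁ h) hgen x
  have hinj : Function.Injective (algebraMap B₁ B) := by
    intro x y hxy
    apply hφ₁
    apply (heckeBetaBar L (M * q) q).toRingHom.injective
    show heckeBetaBar L (M * q) q (φ₁ x) = heckeBetaBar L (M * q) q (φ₁ y)
    rw [← hβ, ← hβ, hxy]
  have he : q - 1 ≠ 0 := by have := hq.two_le; omega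
  exact OrdLevel2F.horPrincipal_of_twoPoint_field hinj ν π₀ u₀ hmax hπprime (hR - a) hR H G₁
    (q - 1) he hHeq hHmonic hu1 hu2 φ₁ hφ₁ φ hφ (heckeBetaBar L (M * q) q).toRingHom
    (fun b => (hβ b).symm) hfr₁ ρ₁ hρ₁ y₀ hyF hdegF hgenF 𝔫 h𝔫ν 𝔮 h𝔮𝔫 hπ𝔮

/-- **Mirror of `ord_horPrincipal`** (`R₀ → B₁` the `β`-degeneracy, `B₁ → B` the
`α`-degeneracy, root `y₀ = β₂ (w h)`). -/
theorem ord_horPrincipal' (ι : L →+* AlgebraicClosure ℚ) (M q : ℕ) [NeZero M] [NeZero q]
    (hq : q.Prime) (hqM : ¬ q ∣ M) (w : FF L (M * q) →ₐ[L] FF L (M * q))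
    (hwα : w.comp (heckeAlphaBar L M q) = heckeBetaBar L M q)
    (hwβ : w.comp (heckeBetaBar L M q) = heckeAlphaBar L M q)
    (φ₀ : R₀ →+* FF L M) (φ₁ : B₁ →+* FF L (M * q)) (hφ₁ : Function.Injective φ₁)
    (φ : B →+* FF L (M * q * q)) (hφ : Function.Injective φ)
    (hα : ∀ r : R₀, φ₁ (algebraMap R₀ B₁ r) = heckeBetaBar L M q (φ₀ r))
    (hβ : ∀ b : B₁, φ (algebraMap B₁ B b) = heckeAlphaBar L (M * q) q (φ₁ b))
    (hfr₁ : ∀ g : FF L (M * q), ∃ b₁ b₂ : B₁, b₂ ≠ 0 ∧ g * φ₁ b₂ = φ₁ b₁)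
    (P : Ideal R₀) [P.IsMaximal] (ν ν' : Ideal B₁) [hν : ν.IsPrime] (hν' : ν'.IsMaximal)
    (hne : ν' ≠ ν) (h : B₁) (c c' : R₀)
    (hνeq : ν = P.map (algebraMap R₀ B₁) ⊔ Ideal.span {h - algebraMap R₀ B₁ c})
    (hν'eq : ν' = P.map (algebraMap R₀ B₁) ⊔ Ideal.span {h - algebraMap R₀ B₁ c'})
    (m : R₀[X]) (hm : m.Monic) (hdeg : m.natDegree = q + 1) (hroot : aeval h m = 0)
    (hgen : ∃ Q : (FF L M)[X],
      heckeAlphaBar L M q (jBC L M) = Q.eval₂ (heckeBetaBar L M q).toRingHom (φ₁ h))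
    (y₀ : B) (hy₀ : φ y₀ = heckeBetaBar L (M * q) q (w (φ₁ h)))
    (π₀ u₀ : B₁)
    (hmax : maximalIdeal (Localization.AtPrime ν) =
      Ideal.span {algebraMap B₁ (Localization.AtPrime ν) π₀,
        algebraMap B₁ (Localization.AtPrime ν) u₀})
    (hπ : Prime (algebraMap B₁ (Localization.AtPrime ν) π₀))
    (hqπ : algebraMap B₁ (Localization.AtPrime ν) π₀ ∣ ((q : ℕ) : Localization.AtPrime ν))
    (hx : ∃ x ∈ maximalIdeal (Localization.AtPrime ν),
      ¬ algebraMap B₁ (Localization.AtPrime ν) π₀ ∣ x)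
    (hK : ∀ r : R₀, ∃ b : Localization.AtPrime ν, algebraMap B₁ (Localization.AtPrime ν) π₀ ∣
      algebraMap B₁ (Localization.AtPrime ν) (algebraMap R₀ B₁ r) - b ^ q)
    (hE : ∃ E : Localization.AtPrime ν,
      algebraMap B₁ (Localization.AtPrime ν) (aeval h (derivative m)) ∣
        algebraMap B₁ (Localization.AtPrime ν) π₀ * E ∧
      ¬ algebraMap B₁ (Localization.AtPrime ν) π₀ ∣ E)
    (hT3 : ∀ 𝔭 ∈ (Ideal.span {algebraMap B₁ (Localization.AtPrime ν)
        (aeval h (derivative m))} : Ideal (Localization.AtPrime ν)).minimalPrimes,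
      algebraMap B₁ (Localization.AtPrime ν) π₀ ∈ 𝔭)
    (𝔫 : Ideal B) [h𝔫 : 𝔫.IsMaximal] (h𝔫ν : 𝔫.comap (algebraMap B₁ B) = ν)
    (𝔮 : Ideal B) [h𝔮 : 𝔮.IsPrime] (h𝔮𝔫 : 𝔮 ≤ 𝔫) (hπ𝔮 : algebraMap B₁ B π₀ ∉ 𝔮) :
    ∃ x ∈ 𝔮, ∃ d, d ∉ 𝔫 ∧ ∀ y ∈ 𝔮, x ∣ d * y := by
  classical
  let R := Localization.AtPrime ν
  set π : R := algebraMap B₁ R π₀ with hπdef
  have hdomR : IsDomain R :=
    IsLocalization.isDomain_localization (Ideal.primeCompl_le_nonZeroDivisors ν)
  have hnoeR : IsNoetherianRing R := IsLocalization.isNoetherianRing ν.primeCompl R inferInstance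
  have hπprime : (Ideal.span {π} : Ideal R).IsPrime :=
    (Ideal.span_singleton_prime hπ.ne_zero).mpr hπ
  haveI : IsDomain (R ⧸ Ideal.span {π}) := Ideal.Quotient.isDomain _
  haveI : IsDiscreteValuationRing (R ⧸ Ideal.span {π}) :=
    isDiscreteValuationRing_quot π (algebraMap B₁ R u₀) hmax hx
  -- the two-point shape
  have hK' : ∀ r : R₀, ∃ b : R, π ∣ algebraMap R₀ R r - b ^ q := by
    intro r
    obtain ⟨b, hb⟩ := hK r
    exact ⟨b, by rw [IsScalarTower.algebraMap_apply R₀ B₁ R]; exact hb⟩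
  have hder : aeval (algebraMap B₁ R h) (derivative m) = algebraMap B₁ R (aeval h (derivative m)) :=
    Polynomial.aeval_algebraMap_apply R h (derivative m)
  obtain ⟨a, G₁, hu1, hu2, -, hHeq, hHmonic, hHdeg, -⟩ :=
    OrdFibre.ord_twoPoint_of_fibre P q hq ν ν' hν' hne h c c' hνeq hν'eq m hm hdeg hroot R π hπ hqπ
      hK' (by rw [hder]; exact hE) (by rw [hder]; exact hT3)
  set hR : R := algebraMap B₁ R h with hRdef
  set H : R[X] := (m.map (algebraMap R₀ R)) /ₘ (X - C hR) with hHdef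
  -- the embedding of `R` into the function field
  have hunits : ∀ t : ν.primeCompl, IsUnit (φ₁ (t : B₁)) := by
    intro t
    refine isUnit_iff_ne_zero.mpr (fun h0 => t.2 ?_)
    have : (t : B₁) = 0 := hφ₁ (by rw [h0, map_zero])
    rw [this]
    exact ν.zero_mem
  let ρ₁ : R →+* FF L (M * q) := IsLocalization.lift (M := ν.primeCompl) (g := φ₁) hunits
  have hρ₁ : ∀ b : B₁, ρ₁ (algebraMap B₁ R b) = φ₁ b := fun b => IsLocalization.lift_eq hunits b
  -- field-level data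
  set m₀ : (FF L M)[X] := m.map φ₀ with hm₀
  have hm₀monic : m₀.Monic := hm.map φ₀
  have hm₀deg : m₀.natDegree = q + 1 := by rw [hm₀, hm.natDegree_map, hdeg]
  have hroot₀ : m₀.eval₂ (heckeBetaBar L M q).toRingHom (φ₁ h) = 0 := by
    have h1 := map_aeval_eq (heckeBetaBar L M q).toRingHom φ₀ φ₁ hα h m
    rw [hroot, map_zero] at h1
    exact h1.symm
  have hHmap : H.map ρ₁ = (m₀.map (heckeBetaBar L M q).toRingHom) /ₘ (X - C (φ₁ h)) := by
    rw [hHdef, Polynomial.map_divByMonic ρ₁ (monic_X_sub_C hR), Polynomial.map_sub,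
      Polynomial.map_X, Polynomial.map_C, hRdef, hρ₁, Polynomial.map_map, hm₀, Polynomial.map_map]
    congr 2
    ext r
    simp only [RingHom.comp_apply]
    rw [IsScalarTower.algebraMap_apply R₀ B₁ R, hρ₁, hα]
    rfl
  have hyF : (H.map ρ₁).eval₂ (heckeAlphaBar L (M * q) q).toRingHom (φ y₀) = 0 := by
    rw [hHmap, hy₀]
    exact OrdField2.eval₂_divByMonic_beta_w M q w ι hq hqM hwα hwβ m₀ (φ₁ h) hroot₀ hgen
  have hdegF : ∀ Q : (FF L (M * q))[X], Q ≠ 0 →
      Q.eval₂ (heckeAlphaBar L (M * q) q).toRingHom (φ y₀) = 0 → H.natDegree ≤ Q.natDegree := by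
    intro Q hQ0 hQ
    letI := algebraAlong (heckeAlphaBar L (M * q) q)
    have hmin := OrdField2.minpoly_beta_w M q w ι hq hqM hwα hwβ m₀ hm₀monic hm₀deg (φ₁ h) hroot₀ hgen
    have hd := (OrdField2.monic_divByMonic_of_natDegree
      (m₀.map (heckeBetaBar L M q).toRingHom) (φ₁ h) (hm₀monic.map _)
      (by rw [(hm₀monic).natDegree_map, hm₀deg])).2
    have hkill : aeval (heckeBetaBar L (M * q) q (w (φ₁ h))) Q = 0 := by
      rw [← hy₀]
      exact hQ
    have hdvd := minpoly.dvd (FF L (M * q)) (heckeBetaBar L (M * q) q (w (φ₁ h))) hkill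
    have h1 := Polynomial.natDegree_le_of_dvd hdvd hQ0
    rw [hmin, hd] at h1
    rw [hHdeg]
    exact h1
  have hgenF : ∀ x : FF L (M * q * q), ∃ Q : (FF L (M * q))[X],
      Q.eval₂ (heckeAlphaBar L (M * q) q).toRingHom (φ y₀) = x := by
    intro x
    rw [hy₀]
    exact OrdField2.exists_eval₂_eq_beta_w M q w ι hq hqM hwα hwβ (φ₁ h) hgen x
  have hinj : Function.Injective (algebraMap B₁ B) := by
    intro x y hxy
    apply hφ₁
    apply (heckeAlphaBar L (M * q) q).toRingHom.injective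
    show heckeAlphaBar L (M * q) q (φ₁ x) = heckeAlphaBar L (M * q) q (φ₁ y)
    rw [← hβ, ← hβ, hxy]
  have he : q - 1 ≠ 0 := by have := hq.two_le; omega
  exact OrdLevel2F.horPrincipal_of_twoPoint_field hinj ν π₀ u₀ hmax hπprime (hR - a) hR H G₁
    (q - 1) he hHeq hHmonic hu1 hu2 φ₁ hφ₁ φ hφ (heckeAlphaBar L (M * q) q).toRingHom
    (fun b => (hβ b).symm) hfr₁ ρ₁ hρ₁ y₀ hyF hdegF hgenF 𝔫 h𝔫ν 𝔮 h𝔮𝔫 hπ𝔮

end Main

end Fermat.Agent.S36.OrdGlue

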