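import Mathlib
import Fermat.Agent.S36.MonoFibre
import Fermat.Agent.S36.OrdDiff

/-!
# S36 (R-ord), abstract glue at level `M q`

`B₀ → B` a finite extension of domains (the finite charts of level `M` and `M q`), `𝔭₁, 𝔭₂` two
primes of `B` with `𝔭₁ ⊓ 𝔭₂ ≤ (π)` (the two vertical components), `ν` a maximal ideal of `B` with
`𝔭₂ ≤ ν`, `¬ 𝔭₁ ≤ ν` (a smooth point of the second component).  From the chart-level facts
(dichotomy, residue fields, Kronecker on the second branch, uniqueness of the point of the second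
component in its fibre, Euler + theta + no horizontal ramification) we produce a local generator
`h` of `B` over `B₀` at the fibre through `ν` such that the polynomial
`H = minpoly(h) / (X - h)` has, over `B_ν`, the shape required by `TwoPoint`:
`H = (X - c) (X - d) ^ (q - 1) + π G₁`, `c - d` a unit, `G₁(d)` a unit, and the maximal ideal of
`B_ν` is `(π, u)` with `(π)` prime.
-/

set_option autoImplicit false
set_option linter.style.haveILetI false
set_option linter.unusedSectionVars false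

namespace Fermat.Agent.S36.OrdGlue1

open Polynomial IsLocalRing

section Local

variable {B : Type*} [CommRing B] (π : B) (𝔭 𝔭' : Ideal B) [𝔭.IsPrime]
  (ν : Ideal B) [ν.IsMaximal]

/-- At a point of `𝔭` not on `𝔭'`, the ideal `𝔭` is generated by `π`. -/
theorem map_mem_span (hS1 : 𝔭 ⊓ 𝔭' ≤ Ideal.span {π}) (hν' : ¬ 𝔭' ≤ ν) {x : B} (hx : x ∈ 𝔭) :
    algebraMap B (Localization.AtPrime ν) x ∈
      (Ideal.span {algebraMap B (Localization.AtPrime ν) π} : Ideal (Localization.AtPrime ν)) := by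
  obtain ⟨s, hs, hsν⟩ := SetLike.not_le_iff_exists.1 hν'
  have h1 : s * x ∈ 𝔭 ⊓ 𝔭' := ⟨𝔭.mul_mem_left _ hx, 𝔭'.mul_mem_right _ hs⟩
  obtain ⟨b, hb⟩ := Ideal.mem_span_singleton.1 (hS1 h1)
  have hu : IsUnit (algebraMap B (Localization.AtPrime ν) s) :=
    IsLocalization.map_units (Localization.AtPrime ν) (⟨s, hsν⟩ : ν.primeCompl)
  obtain ⟨v, hv⟩ := hu
  rw [Ideal.mem_span_singleton]
  refine ⟨algebraMap B (Localization.AtPrime ν) b * ((v⁻¹ : (Localization.AtPrime ν)ˣ) :
    Localization.AtPrime ν), ?_⟩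
  have h2 : algebraMap B (Localization.AtPrime ν) s * algebraMap B (Localization.AtPrime ν) x =
      algebraMap B (Localization.AtPrime ν) π * algebraMap B (Localization.AtPrime ν) b := by
    rw [← map_mul, ← map_mul, hb]
  rw [← hv] at h2
  calc algebraMap B (Localization.AtPrime ν) x
      = ((v⁻¹ : (Localization.AtPrime ν)ˣ) : Localization.AtPrime ν) *
          ((v : Localization.AtPrime ν) * algebraMap B (Localization.AtPrime ν) x) := by
        rw [← mul_assoc, Units.inv_mul, one_mul]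
    _ = _ := by rw [h2]; ring

/-- `𝔭 B_ν = (π)`. -/
theorem map_eq_span (hπ : π ∈ 𝔭) (hS1 : 𝔭 ⊓ 𝔭' ≤ Ideal.span {π}) (hν' : ¬ 𝔭' ≤ ν) :
    𝔭.map (algebraMap B (Localization.AtPrime ν)) =
      Ideal.span {algebraMap B (Localization.AtPrime ν) π} := by
  apply le_antisymm
  · rw [Ideal.map_le_iff_le_comap]
    intro x hx
    exact map_mem_span π 𝔭 𝔭' ν hS1 hν' hx
  · rw [Ideal.span_le, Set.singleton_subset_iff]
    exact Ideal.mem_map_of_mem _ hπ

/-- `(π)` is a prime ideal of `B_ν`. -/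
theorem span_isPrime (hπ : π ∈ 𝔭) (hS1 : 𝔭 ⊓ 𝔭' ≤ Ideal.span {π}) (hν : 𝔭 ≤ ν)
    (hν' : ¬ 𝔭' ≤ ν) :
    (Ideal.span {algebraMap B (Localization.AtPrime ν) π} :
      Ideal (Localization.AtPrime ν)).IsPrime := by
  rw [← map_eq_span π 𝔭 𝔭' ν hπ hS1 hν']
  refine IsLocalization.isPrime_of_isPrime_disjoint ν.primeCompl _ 𝔭 inferInstance ?_
  rw [Set.disjoint_left]
  intro x hx hx𝔭
  exact hx (hν hx𝔭)

/-- divisibility by `π` in `B_ν` is membership in `𝔭`. -/
theorem dvd_iff_mem (hπ : π ∈ 𝔭) (hS1 : 𝔭 ⊓ 𝔭' ≤ Ideal.span {π}) (hν : 𝔭 ≤ ν)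
    (hν' : ¬ 𝔭' ≤ ν) (x : B) :
    algebraMap B (Localization.AtPrime ν) π ∣ algebraMap B (Localization.AtPrime ν) x ↔ x ∈ 𝔭 := by
  have hdisj : Disjoint (ν.primeCompl : Set B) (𝔭 : Set B) := by
    rw [Set.disjoint_left]
    intro x hx hx𝔭
    exact hx (hν hx𝔭)
  have hc : (𝔭.map (algebraMap B (Localization.AtPrime ν))).comap
      (algebraMap B (Localization.AtPrime ν)) = 𝔭 :=
    IsLocalization.under_map_of_isPrime_disjoint ν.primeCompl _ inferInstance hdisj
  rw [← Ideal.mem_span_singleton, ← map_eq_span π 𝔭 𝔭' ν hπ hS1 hν', ← Ideal.mem_comap, hc]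

/-- The smooth form of the maximal ideal at a point of `𝔭` not on `𝔭'`, from the dichotomy. -/
theorem exists_smooth (hπ : π ∈ 𝔭) (hS1 : 𝔭 ⊓ 𝔭' ≤ Ideal.span {π}) (hν : 𝔭 ≤ ν)
    (hν' : ¬ 𝔭' ≤ ν)
    (hdich : (∃ u ∈ ν, maximalIdeal (Localization.AtPrime ν) =
        Ideal.span {algebraMap B (Localization.AtPrime ν) π,
          algebraMap B (Localization.AtPrime ν) u}) ∨
      (∃ X ∈ ν, ∃ Y ∈ ν, π ∣ X * Y ∧ maximalIdeal (Localization.AtPrime ν) =
        Ideal.span {algebraMap B (Localization.AtPrime ν) π,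
          algebraMap B (Localization.AtPrime ν) X, algebraMap B (Localization.AtPrime ν) Y})) :
    ∃ u ∈ ν, maximalIdeal (Localization.AtPrime ν) =
        Ideal.span {algebraMap B (Localization.AtPrime ν) π,
          algebraMap B (Localization.AtPrime ν) u} := by
  rcases hdich with h | ⟨X, hX, Y, hY, hXY, hm⟩
  · exact h
  · have hp := span_isPrime π 𝔭 𝔭' ν hπ hS1 hν hν'
    have hmem : algebraMap B (Localization.AtPrime ν) X * algebraMap B (Localization.AtPrime ν) Y ∈
        (Ideal.span {algebraMap B (Localization.AtPrime ν) π} :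
          Ideal (Localization.AtPrime ν)) := by
      obtain ⟨k, hk⟩ := hXY
      rw [← map_mul, hk, map_mul]
      exact Ideal.mul_mem_right _ _ (Ideal.mem_span_singleton_self _)
    rcases hp.mem_or_mem hmem with h1 | h1
    · refine ⟨Y, hY, ?_⟩
      rw [hm]
      apply le_antisymm
      · rw [Ideal.span_le]
        intro x hx
        simp only [Set.mem_insert_iff, Set.mem_singleton_iff] at hx
        rcases hx with rfl | rfl | rfl
        · exact Ideal.subset_span (by simp)
        · exact Ideal.span_mono (by simp) h1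
        · exact Ideal.subset_span (by simp)
      · apply Ideal.span_mono
        intro x hx
        simp only [Set.mem_insert_iff, Set.mem_singleton_iff] at hx ⊢
        tauto
    · refine ⟨X, hX, ?_⟩
      rw [hm]
      apply le_antisymm
      · rw [Ideal.span_le]
        intro x hx
        simp only [Set.mem_insert_iff, Set.mem_singleton_iff] at hx
        rcases hx with rfl | rfl | rfl
        · exact Ideal.subset_span (by simp)
        · exact Ideal.subset_span (by simp)
        · exact Ideal.span_mono (by simp) h1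
      · apply Ideal.span_mono
        intro x hx
        simp only [Set.mem_insert_iff, Set.mem_singleton_iff] at hx ⊢
        tauto

omit [𝔭.IsPrime] in
/-- From the smooth form of the maximal ideal of `B_ν` to the cotangent statement at the chart. -/
theorem le_sup_sq (J : Ideal B) (hπJ : π ∈ J) (u : B)
    (hm : maximalIdeal (Localization.AtPrime ν) =
      Ideal.span {algebraMap B (Localization.AtPrime ν) π,
        algebraMap B (Localization.AtPrime ν) u}) :
    ν ≤ J ⊔ Ideal.span {u} ⊔ ν ^ 2 := by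
  intro x hx
  have h1 : algebraMap B (Localization.AtPrime ν) x ∈ maximalIdeal (Localization.AtPrime ν) :=
    (IsLocalization.AtPrime.to_map_mem_maximal_iff (Localization.AtPrime ν) ν x).mpr hx
  rw [hm, Ideal.mem_span_pair] at h1
  obtain ⟨a, b, hab⟩ := h1
  obtain ⟨⟨a', sa⟩, ha⟩ := IsLocalization.surj ν.primeCompl a
  obtain ⟨⟨b', sb⟩, hb⟩ := IsLocalization.surj ν.primeCompl b
  simp only at ha hb
  -- `sa * sb * x = a' * sb * π + b' * sa * u` in `B_ν`
  have h2 : algebraMap B (Localization.AtPrime ν) ((sa : B) * sb * x) =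
      algebraMap B (Localization.AtPrime ν) (a' * sb * π + b' * sa * u) := by
    simp only [map_mul, map_add]
    rw [← hab, ← ha, ← hb]
    ring
  obtain ⟨⟨c, hc⟩, hceq⟩ := (IsLocalization.eq_iff_exists ν.primeCompl _).1 h2
  simp only at hceq
  set s : B := c * (sa * sb) with hs
  have hsν : s ∉ ν := by
    intro hmem
    rcases (Ideal.IsMaximal.isPrime ‹ν.IsMaximal›).mem_or_mem hmem with h | h
    · exact hc h
    · rcases (Ideal.IsMaximal.isPrime ‹ν.IsMaximal›).mem_or_mem h with h' | h'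
      · exact sa.2 h'
      · exact sb.2 h'
  have hsx : s * x ∈ J ⊔ Ideal.span {u} := by
    have e1 : s * x = c * (a' * sb) * π + c * (b' * sa) * u := by
      rw [hs]
      linear_combination hceq
    rw [e1]
    exact Ideal.add_mem _ (Ideal.mem_sup_left (J.mul_mem_left _ hπJ))
      (Ideal.mem_sup_right (Ideal.mul_mem_left _ _ (Ideal.mem_span_singleton_self u)))
  obtain ⟨t, m, hmν, htm⟩ := Ideal.IsMaximal.exists_inv ‹ν.IsMaximal› hsν
  have e2 : x = t * (s * x) + m * x := by linear_combination (-x) * htm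
  rw [e2]
  refine Ideal.add_mem _ (Ideal.mem_sup_left (Ideal.mul_mem_left _ _ hsx)) (Ideal.mem_sup_right ?_)
  rw [pow_two]
  exact Ideal.mul_mem_mul hmν hx

end Local

section Hnp

variable {R : Type*} [CommRing R] [IsDomain R] [IsLocalRing R] [IsNoetherianRing R]

/-- If the maximal ideal of the local domain `R` is `(π, t)`, `(π)` is prime of residue
characteristic `q`, `π ∤ t`, and `h ≡ c' ^ q + t` modulo `π`, then `h` is not a `q`-th power in
the fraction field of `R / (π)`. -/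
theorem hnp_of_unif (q : ℕ) (hq : q.Prime) (π t h c' : R) (hπ : (Ideal.span {π}).IsPrime)
    (hqπ : π ∣ (q : R)) (hmax : maximalIdeal R = Ideal.span {π, t}) (ht : ¬ π ∣ t)
    (hh : π ∣ h - (c' ^ q + t)) :
    ∀ x y : R, π ∣ y ^ q * h - x ^ q → π ∣ y := by
  haveI := hπ
  haveI : Fact q.Prime := ⟨hq⟩
  set mk := Ideal.Quotient.mk (Ideal.span {π}) with hmk
  have hmk0 : ∀ z : R, mk z = 0 ↔ π ∣ z := fun z => by
    rw [hmk, Ideal.Quotient.eq_zero_iff_mem, Ideal.mem_span_singleton]
  have hsurj : Function.Surjective mk := Ideal.Quotient.mk_surjective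
  haveI : CharP (R ⧸ Ideal.span {π}) q := by
    rw [CharP.charP_iff_prime_eq_zero hq]
    have : ((q : ℕ) : R ⧸ Ideal.span {π}) = mk (q : R) := by simp [hmk]
    rw [this, hmk0]
    exact hqπ
  have ht0 : mk t ≠ 0 := fun h0 => ht ((hmk0 t).1 h0)
  have key : ∀ z₀ : R, mk t ∣ mk z₀ ↔ z₀ ∈ maximalIdeal R := by
    intro z₀
    constructor
    · rintro ⟨w, hw⟩
      obtain ⟨w₀, rfl⟩ := hsurj w
      have h1 : mk (z₀ - t * w₀) = 0 := by rw [map_sub, map_mul, hw, sub_self]
      obtain ⟨k, hk⟩ := (hmk0 _).1 h1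
      rw [hmax, Ideal.mem_span_pair]
      exact ⟨k, w₀, by linear_combination -hk⟩
    · intro hz
      rw [hmax, Ideal.mem_span_pair] at hz
      obtain ⟨a, b, hab⟩ := hz
      refine ⟨mk b, ?_⟩
      rw [← hab, map_add, map_mul, map_mul, (hmk0 π).2 dvd_rfl, mul_zero, zero_add, mul_comm]
  have hpow : ∀ (k : ℕ) (z : R ⧸ Ideal.span {π}), k ≠ 0 → mk t ∣ z ^ k → mk t ∣ z := by
    intro k z hk hz
    obtain ⟨z₀, rfl⟩ := hsurj z
    rw [← map_pow, key] at hz
    rw [key]
    exact (Ideal.IsMaximal.isPrime (maximalIdeal.isMaximal R)).mem_of_pow_mem k hz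
  obtain ⟨k, hk⟩ : ∃ k, q = k + 1 := ⟨q - 1, by have := hq.two_le; omega⟩
  have hk0 : k ≠ 0 := by have := hq.two_le; omega
  have descent : ∀ n : ℕ, ∀ y z : R ⧸ Ideal.span {π}, y ^ q * mk t = z ^ q → mk t ^ n ∣ y := by
    intro n
    induction n with
    | zero => intro y z _; simp
    | succ n ih =>
      intro y z hyz
      obtain ⟨z₁, rfl⟩ := hpow q z hq.ne_zero ⟨y ^ q, by rw [← hyz, mul_comm]⟩
      have h1 : y ^ q = mk t ^ k * z₁ ^ q := by
        have h2 : mk t * y ^ q = mk t * (mk t ^ k * z₁ ^ q) := by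
          rw [mul_comm, hyz, mul_pow]
          have e : mk t ^ q = mk t * mk t ^ k := by rw [hk, pow_succ]; ring
          rw [e]
          ring
        exact mul_left_cancel₀ ht0 h2
      obtain ⟨y₁, rfl⟩ := hpow q y hq.ne_zero
        (Dvd.dvd.mul_right (dvd_pow_self _ hk0) _ |>.trans (dvd_of_eq h1.symm))
      have h3 : y₁ ^ q * mk t = z₁ ^ q := by
        have h4 : mk t ^ k * (y₁ ^ q * mk t) = mk t ^ k * z₁ ^ q := by
          rw [← h1, mul_pow]
          have e : mk t ^ q = mk t * mk t ^ k := by rw [hk, pow_succ]; ring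
          rw [e]
          ring
        exact mul_left_cancel₀ (pow_ne_zero _ ht0) h4
      obtain ⟨v, hv⟩ := ih y₁ z₁ h3
      exact ⟨v, by rw [hv, pow_succ]; ring⟩
  have hne : (Ideal.span {mk t} : Ideal (R ⧸ Ideal.span {π})) ≠ ⊤ := by
    intro htop
    have h1 : (1 : R ⧸ Ideal.span {π}) ∈ Ideal.span {mk t} := by rw [htop]; trivial
    rw [Ideal.mem_span_singleton] at h1
    have h2 : mk t ∣ mk 1 := by rwa [map_one]
    rw [key] at h2
    exact (IsLocalRing.mem_maximalIdeal _).1 h2 isUnit_one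
  have hzero : ∀ y z : R ⧸ Ideal.span {π}, y ^ q * mk t = z ^ q → y = 0 := by
    intro y z hyz
    have h1 : y ∈ ⨅ i : ℕ, (Ideal.span {mk t} : Ideal (R ⧸ Ideal.span {π})) ^ i := by
      rw [Ideal.mem_iInf]
      intro i
      rw [Ideal.span_singleton_pow, Ideal.mem_span_singleton]
      exact descent i y z hyz
    rw [Ideal.iInf_pow_eq_bot_of_isDomain _ hne] at h1
    exact h1
  intro x y hxy
  rw [← hmk0]
  refine hzero (mk y) (mk x - mk y * mk c') ?_
  have h1 : mk (y ^ q * h - x ^ q) = 0 := (hmk0 _).2 hxy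
  have h2 : mk (h - (c' ^ q + t)) = 0 := (hmk0 _).2 hh
  rw [sub_pow_char, mul_pow]
  simp only [map_sub, map_mul, map_pow, map_add] at h1 h2
  linear_combination h1 - (mk y) ^ q * h2

end Hnp

section Main

variable {B₀ B : Type*} [CommRing B₀] [CommRing B] [IsDomain B] [IsNoetherianRing B]
  [Algebra B₀ B] [Module.Finite B₀ B]

/-- **(R-ord), level `M q`, abstract glue.**  See the header. -/
theorem exists_twoPoint_data (q : ℕ) (hq : q.Prime) (π₀ : B₀) (hπ0 : algebraMap B₀ B π₀ ≠ 0)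
    (hqπ : algebraMap B₀ B π₀ ∣ (q : B))
    (𝔭₁ 𝔭₂ : Ideal B) [𝔭₁.IsPrime] [𝔭₂.IsPrime]
    (hπ₁ : algebraMap B₀ B π₀ ∈ 𝔭₁) (hπ₂ : algebraMap B₀ B π₀ ∈ 𝔭₂)
    (hS1 : 𝔭₁ ⊓ 𝔭₂ ≤ Ideal.span {algebraMap B₀ B π₀})
    (ν : Ideal B) [ν.IsMaximal] (hν₂ : 𝔭₂ ≤ ν) (hν₁ : ¬ 𝔭₁ ≤ ν) (hne : ¬ ν ≤ 𝔭₂)
    [Infinite (B₀ ⧸ ν.comap (algebraMap B₀ B))]
    (hres : ∀ ν' : Ideal B, ν'.IsMaximal → algebraMap B₀ B π₀ ∈ ν' →
      ∀ b : B, ∃ c : B₀, b - algebraMap B₀ B c ∈ ν')
    (hdich : ∀ (ν' : Ideal B) [ν'.IsMaximal], algebraMap B₀ B π₀ ∈ ν' →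
      (∃ u ∈ ν', maximalIdeal (Localization.AtPrime ν') =
        Ideal.span {algebraMap B (Localization.AtPrime ν') (algebraMap B₀ B π₀),
          algebraMap B (Localization.AtPrime ν') u}) ∨
      (∃ X ∈ ν', ∃ Y ∈ ν', algebraMap B₀ B π₀ ∣ X * Y ∧ maximalIdeal (Localization.AtPrime ν') =
        Ideal.span {algebraMap B (Localization.AtPrime ν') (algebraMap B₀ B π₀),
          algebraMap B (Localization.AtPrime ν') X, algebraMap B (Localization.AtPrime ν') Y}))
    (huniq₂ : ∀ ν' : Ideal B, ν'.IsPrime → 𝔭₂ ≤ ν' →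
      ν'.comap (algebraMap B₀ B) = ν.comap (algebraMap B₀ B) → ν' = ν)
    (h𝔭₁ : 𝔭₁.comap (algebraMap B₀ B) ≤ ν.comap (algebraMap B₀ B))
    (hK : ∀ c : B₀, ∃ b : B, algebraMap B₀ B c - b ^ q ∈ 𝔭₂)
    (hdeg : ∀ h : B, (∃ s : B₀, s ∉ ν.comap (algebraMap B₀ B) ∧
      ∀ b : B, s • b ∈ Algebra.adjoin B₀ {h}) → (minpoly B₀ h).natDegree = q + 1)
    (Δ : B) (hΔ₂ : Δ ∈ 𝔭₂)
    (hΔ : ∀ x b : B, x * Δ = algebraMap B₀ B π₀ * b → x ∉ 𝔭₂ → b ∉ 𝔭₂)
    (hEuler : ∀ h : B, (∃ s : B₀, s ∉ ν.comap (algebraMap B₀ B) ∧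
      ∀ b : B, s • b ∈ Algebra.adjoin B₀ {h}) →
      ∃ s : B₀, s ∉ ν.comap (algebraMap B₀ B) ∧
        aeval h (derivative (minpoly B₀ h)) ∣ algebraMap B₀ B s * Δ)
    (hT3 : ∀ h : B, (∃ s : B₀, s ∉ ν.comap (algebraMap B₀ B) ∧
      ∀ b : B, s • b ∈ Algebra.adjoin B₀ {h}) →
      ∀ 𝔥 ∈ (Ideal.span {aeval h (derivative (minpoly B₀ h))} : Ideal B).minimalPrimes,
        𝔥 ≤ ν → algebraMap B₀ B π₀ ∈ 𝔥) :
    ∃ h : B, (∃ s : B₀, s ∉ ν.comap (algebraMap B₀ B) ∧
        ∀ b : B, s • b ∈ Algebra.adjoin B₀ {h}) ∧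
      (minpoly B₀ h).Monic ∧ (minpoly B₀ h).natDegree = q + 1 ∧
      aeval h (minpoly B₀ h) = 0 ∧
      (((minpoly B₀ h).map (algebraMap B₀ B)) /ₘ (X - C h)).Monic ∧
      ∃ (u c d : Localization.AtPrime ν) (G₁ : (Localization.AtPrime ν)[X]),
        maximalIdeal (Localization.AtPrime ν) =
          Ideal.span {algebraMap B (Localization.AtPrime ν) (algebraMap B₀ B π₀), u} ∧
        (Ideal.span {algebraMap B (Localization.AtPrime ν) (algebraMap B₀ B π₀)} :
          Ideal (Localization.AtPrime ν)).IsPrime ∧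
        (((minpoly B₀ h).map (algebraMap B₀ B)) /ₘ (X - C h)).map
            (algebraMap B (Localization.AtPrime ν)) =
          (X - C c) * (X - C d) ^ (q - 1) +
            C (algebraMap B (Localization.AtPrime ν) (algebraMap B₀ B π₀)) * G₁ ∧
        IsUnit (c - d) ∧ IsUnit (G₁.eval d) := by
  classical
  set π : B := algebraMap B₀ B π₀ with hπdef
  set P : Ideal B₀ := ν.comap (algebraMap B₀ B) with hP
  haveI : Algebra.IsIntegral B₀ B := Algebra.IsIntegral.of_finite B₀ B
  haveI hPmax : P.IsMaximal := Ideal.isMaximal_comap_of_isIntegral_of_isMaximal ν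
  have hνprime : ν.IsPrime := Ideal.IsMaximal.isPrime ‹ν.IsMaximal›
  have hπν : π ∈ ν := hν₂ hπ₂
  have hπ₀P : π₀ ∈ P := hπν
  have hπPmap : π ∈ P.map (algebraMap B₀ B) := Ideal.mem_map_of_mem _ hπ₀P
  have hS1' : 𝔭₂ ⊓ 𝔭₁ ≤ Ideal.span {π} := by rwa [inf_comm]
  -- the fibre over `P`
  have hfibre : ∀ ν' : Ideal B, ν'.IsMaximal → P.map (algebraMap B₀ B) ≤ ν' →
      ν' = ν ∨ (𝔭₁ ≤ ν' ∧ ¬ 𝔭₂ ≤ ν') := by
    intro ν' hν' hle
    have hcomap : ν'.comap (algebraMap B₀ B) = P := by
      have h1 : P ≤ ν'.comap (algebraMap B₀ B) := Ideal.map_le_iff_le_comap.mp hle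
      exact (hPmax.eq_of_le (Ideal.comap_ne_top _ hν'.ne_top) h1).symm
    by_cases h2 : 𝔭₂ ≤ ν'
    · left; exact huniq₂ ν' hν'.isPrime h2 hcomap
    · right
      refine ⟨?_, h2⟩
      have hπν' : π ∈ ν' := hle hπPmap
      have h3 : 𝔭₁ * 𝔭₂ ≤ ν' :=
        (Ideal.mul_le_inf.trans hS1).trans ((Ideal.span_singleton_le_iff_mem _).2 hπν')
      rcases (hν'.isPrime.mul_le).1 h3 with h | h
      · exact h
      · exact absurd h h2
  have hsmooth : ∀ ν' : Ideal B, ν'.IsMaximal → P.map (algebraMap B₀ B) ≤ ν' →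
      ∃ u ∈ ν', ν' ≤ P.map (algebraMap B₀ B) ⊔ Ideal.span {u} ⊔ ν' ^ 2 := by
    intro ν' hν' hle
    haveI := hν'
    have hπν' : π ∈ ν' := hle hπPmap
    rcases hfibre ν' hν' hle with h | ⟨h1, h2⟩
    · subst h
      obtain ⟨u, hu, hm⟩ := exists_smooth π 𝔭₂ 𝔭₁ ν' hπ₂ hS1' hν₂ hν₁ (hdich ν' hπν')
      exact ⟨u, hu, le_sup_sq π ν' _ hπPmap u hm⟩
    · obtain ⟨u, hu, hm⟩ := exists_smooth π 𝔭₁ 𝔭₂ ν' hπ₁ hS1 h1 h2 (hdich ν' hπν')
      exact ⟨u, hu, le_sup_sq π ν' _ hπPmap u hm⟩
  obtain ⟨h, hgen, hpt⟩ := MonoFibre.exists_generator P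
    (fun ν' hν' hle b => hres ν' hν' (hle hπPmap) b) hsmooth
  have hint : IsIntegral B₀ h := Algebra.IsIntegral.isIntegral h
  have hmonic : (minpoly B₀ h).Monic := minpoly.monic hint
  have hmdeg : (minpoly B₀ h).natDegree = q + 1 := hdeg h hgen
  have hGmonic : (((minpoly B₀ h).map (algebraMap B₀ B)) /ₘ (X - C h)).Monic := by
    have hroot : ((minpoly B₀ h).map (algebraMap B₀ B)).IsRoot h := by
      rw [IsRoot, eval_map, ← aeval_def, minpoly.aeval]
    have h1 : (X - C h) * (((minpoly B₀ h).map (algebraMap B₀ B)) /ₘ (X - C h)) =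
        (minpoly B₀ h).map (algebraMap B₀ B) := mul_divByMonic_eq_iff_isRoot.mpr hroot
    have h2 : ((X - C h) * (((minpoly B₀ h).map (algebraMap B₀ B)) /ₘ (X - C h))).Monic := by
      rw [h1]; exact hmonic.map _
    exact (monic_X_sub_C h).of_mul_monic_left h2
  refine ⟨h, hgen, hmonic, hmdeg, minpoly.aeval B₀ h, hGmonic, ?_⟩
  -- the local ring at `ν`
  have hPle : P.map (algebraMap B₀ B) ≤ ν := Ideal.map_comap_le
  have hinjR : Function.Injective (algebraMap B (Localization.AtPrime ν)) :=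
    IsLocalization.injective (Localization.AtPrime ν) ν.primeCompl_le_nonZeroDivisors
  haveI : IsNoetherianRing (Localization.AtPrime ν) :=
    IsLocalization.isNoetherianRing ν.primeCompl (Localization.AtPrime ν) inferInstance
  have hπprime_ideal := span_isPrime π 𝔭₂ 𝔭₁ ν hπ₂ hS1' hν₂ hν₁
  obtain ⟨u, huν, hmax⟩ := exists_smooth π 𝔭₂ 𝔭₁ ν hπ₂ hS1' hν₂ hν₁ (hdich ν hπν)
  have hπR0 : algebraMap B (Localization.AtPrime ν) π ≠ 0 := fun h0 =>
    hπ0 (hinjR (by rw [h0, map_zero]))
  have hπprime : Prime (algebraMap B (Localization.AtPrime ν) π) :=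
    (Ideal.span_singleton_prime hπR0).1 hπprime_ideal
  have hdvd_iff := dvd_iff_mem π 𝔭₂ 𝔭₁ ν hπ₂ hS1' hν₂ hν₁
  have hmem_max : ∀ x : B, algebraMap B (Localization.AtPrime ν) x ∈
      maximalIdeal (Localization.AtPrime ν) ↔ x ∈ ν := fun x =>
    IsLocalization.AtPrime.to_map_mem_maximal_iff (Localization.AtPrime ν) ν x
  have hunit : ∀ x : B, x ∉ ν → IsUnit (algebraMap B (Localization.AtPrime ν) x) := fun x hx =>
    IsLocalization.map_units (Localization.AtPrime ν) (⟨x, hx⟩ : ν.primeCompl)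
  have hqπR : algebraMap B (Localization.AtPrime ν) π ∣ (q : Localization.AtPrime ν) := by
    obtain ⟨k, hk⟩ := hqπ
    refine ⟨algebraMap B (Localization.AtPrime ν) k, ?_⟩
    rw [← map_mul, ← hk, map_natCast]
  have halg : ∀ c : B₀, algebraMap B₀ (Localization.AtPrime ν) c =
      algebraMap B (Localization.AtPrime ν) (algebraMap B₀ B c) := fun c =>
    IsScalarTower.algebraMap_apply B₀ B (Localization.AtPrime ν) c
  -- Kronecker in the local ring
  have hKR : ∀ c : B₀, ∃ b : Localization.AtPrime ν,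
      algebraMap B (Localization.AtPrime ν) π ∣ algebraMap B₀ (Localization.AtPrime ν) c - b ^ q := by
    intro c
    obtain ⟨b, hb⟩ := hK c
    refine ⟨algebraMap B (Localization.AtPrime ν) b, ?_⟩
    rw [halg, ← map_pow, ← map_sub]
    exact (hdvd_iff _).2 hb
  -- the point structure at `ν`
  obtain ⟨c, hνc⟩ := hpt ν ‹_› hPle
  set t : B := h - algebraMap B₀ B c with ht
  have htν : t ∈ ν := by
    rw [hνc]; exact Ideal.mem_sup_right (Ideal.mem_span_singleton_self _)
  have hmax' : maximalIdeal (Localization.AtPrime ν) =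
      Ideal.span {algebraMap B (Localization.AtPrime ν) π,
        algebraMap B (Localization.AtPrime ν) t} := by
    apply le_antisymm
    · refine Submodule.le_of_le_smul_of_le_jacobson_bot (IsNoetherian.noetherian _)
        (IsLocalRing.maximalIdeal_le_jacobson ⊥) ?_
      rw [← IsLocalization.AtPrime.map_eq_maximalIdeal ν (Localization.AtPrime ν)]
      have hle1 : ν ≤ P.map (algebraMap B₀ B) ⊔ Ideal.span {t} := le_of_eq hνc
      refine (Ideal.map_mono hle1).trans ?_
      rw [Ideal.map_sup, Ideal.map_span, Set.image_singleton, sup_le_iff]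
      constructor
      · rw [Ideal.map_map, Ideal.map_le_iff_le_comap]
        intro p hp
        rw [Ideal.mem_comap, RingHom.comp_apply]
        obtain ⟨b, hb⟩ := hK p
        have hbν : b ∈ ν := by
          have h1 : b ^ q ∈ ν := by
            have h2 : b ^ q = algebraMap B₀ B p - (algebraMap B₀ B p - b ^ q) := by ring
            rw [h2]
            exact ν.sub_mem hp (hν₂ hb)
          exact hνprime.mem_of_pow_mem q h1
        obtain ⟨k, hk⟩ := (hdvd_iff _).2 hb
        have h3 : algebraMap B (Localization.AtPrime ν) (algebraMap B₀ B p) =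
            algebraMap B (Localization.AtPrime ν) π * k +
              algebraMap B (Localization.AtPrime ν) b ^ q := by
          rw [← hk, map_sub, map_pow]; ring
        rw [h3]
        refine Submodule.add_mem _ (Submodule.mem_sup_left
          (Ideal.mul_mem_right _ _ (Ideal.subset_span (by simp)))) (Submodule.mem_sup_right ?_)
        have h4 : algebraMap B (Localization.AtPrime ν) b ∈
            Ideal.map (algebraMap B (Localization.AtPrime ν)) ν := Ideal.mem_map_of_mem _ hbν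
        obtain ⟨j, hj⟩ : ∃ j, q = j + 2 := ⟨q - 2, by have := hq.two_le; omega⟩
        rw [hj, pow_add, pow_two, smul_eq_mul]
        exact Ideal.mul_mem_left _ _ (Ideal.mul_mem_mul h4 h4)
      · refine le_trans ?_ le_sup_left
        apply Ideal.span_mono
        simp
    · rw [Ideal.span_le]
      intro x hx
      simp only [Set.mem_insert_iff, Set.mem_singleton_iff] at hx
      rcases hx with rfl | rfl
      · exact (hmem_max _).2 hπν
      · exact (hmem_max _).2 htν
  have htπ : ¬ algebraMap B (Localization.AtPrime ν) π ∣ algebraMap B (Localization.AtPrime ν) t := by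
    intro hdvd
    obtain ⟨x, hxν, hx𝔭⟩ := SetLike.not_le_iff_exists.1 hne
    have h1 : algebraMap B (Localization.AtPrime ν) x ∈ maximalIdeal (Localization.AtPrime ν) :=
      (hmem_max x).2 hxν
    rw [hmax', Ideal.mem_span_pair] at h1
    obtain ⟨a, b, hab⟩ := h1
    obtain ⟨k, hk⟩ := hdvd
    apply hx𝔭
    rw [← hdvd_iff]
    exact ⟨a + b * k, by rw [← hab, hk]; ring⟩
  obtain ⟨c', hc'⟩ := hK c
  have hnp := hnp_of_unif q hq (algebraMap B (Localization.AtPrime ν) π)
    (algebraMap B (Localization.AtPrime ν) t) (algebraMap B (Localization.AtPrime ν) h)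
    (algebraMap B (Localization.AtPrime ν) c') hπprime_ideal hqπR hmax' htπ (by
      have h1 : algebraMap B (Localization.AtPrime ν) h -
          (algebraMap B (Localization.AtPrime ν) c' ^ q +
            algebraMap B (Localization.AtPrime ν) t) =
          algebraMap B (Localization.AtPrime ν) (algebraMap B₀ B c - c' ^ q) := by
        rw [ht]; simp only [map_sub, map_pow]; ring
      rw [h1]
      exact (hdvd_iff _).2 hc')
  -- the root
  have hroot : aeval (algebraMap B (Localization.AtPrime ν) h) (minpoly B₀ h) = 0 := by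
    rw [aeval_algebraMap_apply, minpoly.aeval, map_zero]
  -- the second point
  have hsep : ∃ c₂ : B₀, algebraMap B₀ (Localization.AtPrime ν) ((minpoly B₀ h).eval c₂) ∈
      maximalIdeal (Localization.AtPrime ν) ∧
      IsUnit (algebraMap B (Localization.AtPrime ν) h - algebraMap B₀ (Localization.AtPrime ν) c₂) := by
    obtain ⟨ν', hle', hν'p, hν'c⟩ := Ideal.exists_ideal_over_prime_of_isIntegral P 𝔭₁ h𝔭₁
    haveI := hν'p
    have hν'max : ν'.IsMaximal :=
      Ideal.isMaximal_of_isIntegral_of_isMaximal_comap (R := B₀) ν' (hν'c ▸ hPmax)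
    have hPle' : P.map (algebraMap B₀ B) ≤ ν' := by
      rw [Ideal.map_le_iff_le_comap, hν'c]
    obtain ⟨c₂, hν'c₂⟩ := hpt ν' hν'max hPle'
    refine ⟨c₂, ?_, ?_⟩
    · rw [halg, hmem_max]
      have h1 : algebraMap B₀ B ((minpoly B₀ h).eval c₂) ∈ ν' := by
        have h2 : algebraMap B₀ B ((minpoly B₀ h).eval c₂) =
            ((minpoly B₀ h).map (algebraMap B₀ B)).eval (algebraMap B₀ B c₂) := by
          rw [eval_map, eval₂_at_apply]
        have h3 : ((minpoly B₀ h).map (algebraMap B₀ B)).eval h = 0 := by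
          rw [eval_map, ← aeval_def, minpoly.aeval]
        obtain ⟨k, hk⟩ := Polynomial.sub_dvd_eval_sub (algebraMap B₀ B c₂) h
          ((minpoly B₀ h).map (algebraMap B₀ B))
        rw [h3, sub_zero] at hk
        rw [h2, hk, hν'c₂]
        refine Ideal.mul_mem_right _ _ (Ideal.mem_sup_right ?_)
        rw [Ideal.mem_span_singleton]
        exact ⟨-1, by ring⟩
      have h4 : (minpoly B₀ h).eval c₂ ∈ ν'.comap (algebraMap B₀ B) := h1
      rw [hν'c] at h4
      exact h4
    · rw [halg, ← map_sub]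
      apply hunit
      intro hmem
      have h1 : ν' ≤ ν := by
        rw [hν'c₂]
        exact sup_le hPle ((Ideal.span_singleton_le_iff_mem _).2 hmem)
      have h2 : ν' = ν := hν'max.eq_of_le hνprime.ne_top h1
      exact hν₁ (h2 ▸ hle')
  -- Euler + theta
  have haevalR : aeval (algebraMap B (Localization.AtPrime ν) h) (derivative (minpoly B₀ h)) =
      algebraMap B (Localization.AtPrime ν) (aeval h (derivative (minpoly B₀ h))) :=
    aeval_algebraMap_apply _ _ _
  have hE : ∃ E : Localization.AtPrime ν,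
      aeval (algebraMap B (Localization.AtPrime ν) h) (derivative (minpoly B₀ h)) ∣
        algebraMap B (Localization.AtPrime ν) π * E ∧
      ¬ algebraMap B (Localization.AtPrime ν) π ∣ E := by
    obtain ⟨s₀, hs₀, hdvd⟩ := hEuler h hgen
    obtain ⟨s₁, hs₁, hs₁ν⟩ := SetLike.not_le_iff_exists.1 hν₁
    have h1 : s₁ * Δ ∈ 𝔭₁ ⊓ 𝔭₂ := ⟨𝔭₁.mul_mem_right _ hs₁, 𝔭₂.mul_mem_left _ hΔ₂⟩
    obtain ⟨b, hb⟩ := Ideal.mem_span_singleton.1 (hS1 h1)
    have hb𝔭 : b ∉ 𝔭₂ := hΔ s₁ b hb (fun hmem => hs₁ν (hν₂ hmem))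
    obtain ⟨v, hv⟩ := hunit s₁ hs₁ν
    refine ⟨algebraMap B (Localization.AtPrime ν) (algebraMap B₀ B s₀ * b) *
      ((v⁻¹ : (Localization.AtPrime ν)ˣ) : Localization.AtPrime ν), ?_, ?_⟩
    · rw [haevalR]
      obtain ⟨k, hk⟩ := hdvd
      refine ⟨algebraMap B (Localization.AtPrime ν) k, ?_⟩
      have h2 : (v : Localization.AtPrime ν) * (algebraMap B (Localization.AtPrime ν) π *
          (algebraMap B (Localization.AtPrime ν) (algebraMap B₀ B s₀ * b) *
            ((v⁻¹ : (Localization.AtPrime ν)ˣ) : Localization.AtPrime ν))) =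
          (v : Localization.AtPrime ν) * (algebraMap B (Localization.AtPrime ν)
            (aeval h (derivative (minpoly B₀ h))) * algebraMap B (Localization.AtPrime ν) k) := by
        have e1 : (v : Localization.AtPrime ν) * (algebraMap B (Localization.AtPrime ν) π *
            (algebraMap B (Localization.AtPrime ν) (algebraMap B₀ B s₀ * b) *
              ((v⁻¹ : (Localization.AtPrime ν)ˣ) : Localization.AtPrime ν))) =
            algebraMap B (Localization.AtPrime ν) (algebraMap B₀ B s₀ * (π * b)) *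
              ((v : Localization.AtPrime ν) * ((v⁻¹ : (Localization.AtPrime ν)ˣ) :
                Localization.AtPrime ν)) := by
          simp only [map_mul]; ring
        rw [e1, Units.mul_inv, mul_one, ← hb, hv, ← map_mul, ← map_mul]
        congr 1
        linear_combination s₁ * hk
      exact mul_left_cancel₀ v.ne_zero h2
    · intro hdvd'
      have h2 : algebraMap B (Localization.AtPrime ν) π ∣
          algebraMap B (Localization.AtPrime ν) (algebraMap B₀ B s₀ * b) := by
        obtain ⟨k, hk⟩ := hdvd'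
        refine ⟨k * (v : Localization.AtPrime ν), ?_⟩
        rw [← mul_assoc, ← hk, mul_assoc, Units.inv_mul, mul_one]
      rw [hdvd_iff] at h2
      rcases (inferInstance : 𝔭₂.IsPrime).mem_or_mem h2 with h3 | h3
      · exact hs₀ (hν₂ h3)
      · exact hb𝔭 h3
  -- no horizontal ramification
  have hT3R : ∀ 𝔮 ∈ (Ideal.span {aeval (algebraMap B (Localization.AtPrime ν) h)
      (derivative (minpoly B₀ h))} : Ideal (Localization.AtPrime ν)).minimalPrimes,
      algebraMap B (Localization.AtPrime ν) π ∈ 𝔮 := by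
    intro 𝔮 h𝔮
    have h𝔮p : 𝔮.IsPrime := h𝔮.1.1
    rw [haevalR] at h𝔮
    have h1 : (Ideal.span {algebraMap B (Localization.AtPrime ν)
        (aeval h (derivative (minpoly B₀ h)))} : Ideal (Localization.AtPrime ν)) =
        (Ideal.span {aeval h (derivative (minpoly B₀ h))} : Ideal B).map
          (algebraMap B (Localization.AtPrime ν)) := by
      rw [Ideal.map_span, Set.image_singleton]
    rw [h1, IsLocalization.minimalPrimes_map ν.primeCompl (Localization.AtPrime ν)] at h𝔮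
    have h2 : 𝔮.comap (algebraMap B (Localization.AtPrime ν)) ≤ ν := fun x hx =>
      (hmem_max x).1 (IsLocalRing.le_maximalIdeal h𝔮p.ne_top hx)
    exact hT3 h hgen _ h𝔮 h2
  obtain ⟨a, G₁, hcd, hG₁, -, hdiv, -, -, -⟩ :=
    OrdDiff.ord_twoPoint q hq (algebraMap B (Localization.AtPrime ν) π) hπprime hqπR
      (minpoly B₀ h) hmonic hmdeg (algebraMap B (Localization.AtPrime ν) h) hroot hKR hnp hsep hE
      hT3R
  refine ⟨algebraMap B (Localization.AtPrime ν) u,
    algebraMap B (Localization.AtPrime ν) h - a, algebraMap B (Localization.AtPrime ν) h, G₁,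
    hmax, hπprime_ideal, ?_, hcd, hG₁⟩
  rw [← hdiv, Polynomial.map_divByMonic _ (monic_X_sub_C h), Polynomial.map_map,
    ← IsScalarTower.algebraMap_eq, Polynomial.map_sub, Polynomial.map_X, Polynomial.map_C]

end Main

end Fermat.Agent.S36.OrdGlue1
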