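import Mathlib
import Fermat.Agent.S36.MonoFibre
import Fermat.Agent.S36.OrdGlue1

/-!
# S36 (R-ord), abstract glue at level `M q`, second form

Same hypotheses as `OrdGlue1.exists_twoPoint_data` (chart-level facts at a smooth point `ν` of the
second vertical component of the chart `B` of level `M q` over the chart `B₀` of level `M`);
the conclusion is the list of fibre data and local data at `ν` consumed by
`OrdGlue.ord_horPrincipal` (helper20): a local generator `h`, the two points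
`ν = P B + (h - c)`, `ν' = P B + (h - c')` of the fibre, `m = minpoly B₀ h` monic of degree
`q + 1`, the maximal ideal `(π, u₀)` of `B_ν` with `π` prime, `π ∣ q`, an element of the maximal
ideal not divisible by `π`, Kronecker (`hK`), Euler + theta (`hE`) and the absence of horizontal
ramification (`hT3`) in the local ring.
-/

set_option autoImplicit false
set_option linter.style.haveILetI false
set_option linter.unusedSectionVars false
set_option linter.unusedVariables false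

namespace Fermat.Agent.S36.OrdGlue2

open Polynomial IsLocalRing

variable {B₀ B : Type*} [CommRing B₀] [CommRing B] [IsDomain B] [IsNoetherianRing B]
  [Algebra B₀ B] [Module.Finite B₀ B]

/-- **(R-ord), level `M q`, abstract glue: fibre data and local data.** -/
theorem exists_ord_data (q : ℕ) (hq : q.Prime) (π₀ : B₀) (hπ0 : algebraMap B₀ B π₀ ≠ 0)
    (hqπ : algebraMap B₀ B π₀ ∣ (q : B))
    (𝔭₁ 𝔭₂ : Ideal B) [𝔭₁.IsPrime] [𝔭₂.IsPrime]
    (hπ₁ : algebraMap B₀ B π₀ ∈ 𝔭₁) (hπ₂ : algebraMap B₀ B π₀ ∈ 𝔭₂)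
    (hS1 : 𝔭₁ ⊓ 𝔭₂ ≤ Ideal.span {algebraMap B₀ B π₀})
    (ν : Ideal B) [ν.IsMaximal] (hν₂ : 𝔭₂ ≤ ν) (hν₁ : ¬ 𝔭₁ ≤ ν) (hne : ¬ ν ≤ 𝔭₂)
    [Infinite (B₀ ⧸ ν.comap (algebraMap B₀ B))]
    (hres : ∀ ν' : Ideal B, ν'.IsMaximal → algebraMap B₀ B π₀ ∈ ν' →
      ∀ b : B, ∃ c : B₀, b - algebraMap B₀ B c ∈ ν')
    (hdich : ∀ (ν' : Ideal B) [ν'.IsMaximal], algebraMap B₀ B π₀ ∈ ν' →
      (∃ u ∈ ν', maximalIdeal (Localization.AtPrime ν') =
        Ideal.span {algebraMap B (Localization.AtPrime ν') (algebraMap B₀ B π₀),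
          algebraMap B (Localization.AtPrime ν') u}) ∨
      (∃ X ∈ ν', ∃ Y ∈ ν', algebraMap B₀ B π₀ ∣ X * Y ∧ maximalIdeal (Localization.AtPrime ν') =
        Ideal.span {algebraMap B (Localization.AtPrime ν') (algebraMap B₀ B π₀),
          algebraMap B (Localization.AtPrime ν') X, algebraMap B (Localization.AtPrime ν') Y}))
    (huniq₂ : ∀ ν' : Ideal B, ν'.IsPrime → 𝔭₂ ≤ ν' →
      ν'.comap (algebraMap B₀ B) = ν.comap (algebraMap B₀ B) → ν' = ν)
    (h𝔭₁ : 𝔭₁.comap (algebraMap B₀ B) ≤ ν.comap (algebraMap B₀ B))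
    (hK : ∀ c : B₀, ∃ b : B, algebraMap B₀ B c - b ^ q ∈ 𝔭₂)
    (hdeg : ∀ h : B, (∃ s : B₀, s ∉ ν.comap (algebraMap B₀ B) ∧
      ∀ b : B, s • b ∈ Algebra.adjoin B₀ {h}) → (minpoly B₀ h).natDegree = q + 1)
    (Δ : B) (hΔ₂ : Δ ∈ 𝔭₂)
    (hΔ : ∀ x b : B, x * Δ = algebraMap B₀ B π₀ * b → x ∉ 𝔭₂ → b ∉ 𝔭₂)
    (hEuler : ∀ h : B, (∃ s : B₀, s ∉ ν.comap (algebraMap B₀ B) ∧
      ∀ b : B, s • b ∈ Algebra.adjoin B₀ {h}) →
      ∃ s : B₀, s ∉ ν.comap (algebraMap B₀ B) ∧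
        aeval h (derivative (minpoly B₀ h)) ∣ algebraMap B₀ B s * Δ)
    (hT3 : ∀ h : B, (∃ s : B₀, s ∉ ν.comap (algebraMap B₀ B) ∧
      ∀ b : B, s • b ∈ Algebra.adjoin B₀ {h}) →
      ∀ 𝔥 ∈ (Ideal.span {aeval h (derivative (minpoly B₀ h))} : Ideal B).minimalPrimes,
        𝔥 ≤ ν → algebraMap B₀ B π₀ ∈ 𝔥) :
    ∃ (h : B) (c c' : B₀) (ν' : Ideal B) (u₀ : B),
      (∃ s : B₀, s ∉ ν.comap (algebraMap B₀ B) ∧ ∀ b : B, s • b ∈ Algebra.adjoin B₀ {h}) ∧
      ν'.IsMaximal ∧ ν' ≠ ν ∧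
      ν = (ν.comap (algebraMap B₀ B)).map (algebraMap B₀ B) ⊔
        Ideal.span {h - algebraMap B₀ B c} ∧
      ν' = (ν.comap (algebraMap B₀ B)).map (algebraMap B₀ B) ⊔
        Ideal.span {h - algebraMap B₀ B c'} ∧
      (minpoly B₀ h).Monic ∧ (minpoly B₀ h).natDegree = q + 1 ∧
      aeval h (minpoly B₀ h) = 0 ∧
      maximalIdeal (Localization.AtPrime ν) =
        Ideal.span {algebraMap B (Localization.AtPrime ν) (algebraMap B₀ B π₀),
          algebraMap B (Localization.AtPrime ν) u₀} ∧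
      Prime (algebraMap B (Localization.AtPrime ν) (algebraMap B₀ B π₀)) ∧
      algebraMap B (Localization.AtPrime ν) (algebraMap B₀ B π₀) ∣
        ((q : ℕ) : Localization.AtPrime ν) ∧
      (∃ x ∈ maximalIdeal (Localization.AtPrime ν),
        ¬ algebraMap B (Localization.AtPrime ν) (algebraMap B₀ B π₀) ∣ x) ∧
      (∀ r : B₀, ∃ b : Localization.AtPrime ν,
        algebraMap B (Localization.AtPrime ν) (algebraMap B₀ B π₀) ∣
          algebraMap B (Localization.AtPrime ν) (algebraMap B₀ B r) - b ^ q) ∧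
      (∃ E : Localization.AtPrime ν,
        algebraMap B (Localization.AtPrime ν) (aeval h (derivative (minpoly B₀ h))) ∣
          algebraMap B (Localization.AtPrime ν) (algebraMap B₀ B π₀) * E ∧
        ¬ algebraMap B (Localization.AtPrime ν) (algebraMap B₀ B π₀) ∣ E) ∧
      (∀ 𝔮 ∈ (Ideal.span {algebraMap B (Localization.AtPrime ν)
          (aeval h (derivative (minpoly B₀ h)))} : Ideal (Localization.AtPrime ν)).minimalPrimes,
        algebraMap B (Localization.AtPrime ν) (algebraMap B₀ B π₀) ∈ 𝔮) := by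
  classical
  set π : B := algebraMap B₀ B π₀ with hπdef
  set P : Ideal B₀ := ν.comap (algebraMap B₀ B) with hP
  haveI : Algebra.IsIntegral B₀ B := Algebra.IsIntegral.of_finite B₀ B
  haveI hPmax : P.IsMaximal := Ideal.isMaximal_comap_of_isIntegral_of_isMaximal ν
  have hνprime : ν.IsPrime := Ideal.IsMaximal.isPrime ‹ν.IsMaximal›
  have hπν : π ∈ ν := hν₂ hπ₂
  have hπ₀P : π₀ ∈ P := hπν
  have hπPmap : π ∈ P.map (algebraMap B₀ B) := Ideal.mem_map_of_mem _ hπ₀P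
  have hS1' : 𝔭₂ ⊓ 𝔭₁ ≤ Ideal.span {π} := by rwa [inf_comm]
  -- the fibre over `P`
  have hfibre : ∀ ν' : Ideal B, ν'.IsMaximal → P.map (algebraMap B₀ B) ≤ ν' →
      ν' = ν ∨ (𝔭₁ ≤ ν' ∧ ¬ 𝔭₂ ≤ ν') := by
    intro ν' hν' hle
    have hcomap : ν'.comap (algebraMap B₀ B) = P := by
      have h1 : P ≤ ν'.comap (algebraMap B₀ B) := Ideal.map_le_iff_le_comap.mp hle
      exact (hPmax.eq_of_le (Ideal.comap_ne_top _ hν'.ne_top) h1).symm
    by_cases h2 : 𝔭₂ ≤ ν'
    · left; exact huniq₂ ν' hν'.isPrime h2 hcomap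
    · right
      refine ⟨?_, h2⟩
      have hπν' : π ∈ ν' := hle hπPmap
      have h3 : 𝔭₁ * 𝔭₂ ≤ ν' :=
        (Ideal.mul_le_inf.trans hS1).trans ((Ideal.span_singleton_le_iff_mem _).2 hπν')
      rcases (hν'.isPrime.mul_le).1 h3 with h | h
      · exact h
      · exact absurd h h2
  have hsmooth : ∀ ν' : Ideal B, ν'.IsMaximal → P.map (algebraMap B₀ B) ≤ ν' →
      ∃ u ∈ ν', ν' ≤ P.map (algebraMap B₀ B) ⊔ Ideal.span {u} ⊔ ν' ^ 2 := by
    intro ν' hν' hle
    haveI := hν'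
    have hπν' : π ∈ ν' := hle hπPmap
    rcases hfibre ν' hν' hle with h | ⟨h1, h2⟩
    · subst h
      obtain ⟨u, hu, hm⟩ := OrdGlue1.exists_smooth π 𝔭₂ 𝔭₁ ν' hπ₂ hS1' hν₂ hν₁ (hdich ν' hπν')
      exact ⟨u, hu, OrdGlue1.le_sup_sq π ν' _ hπPmap u hm⟩
    · obtain ⟨u, hu, hm⟩ := OrdGlue1.exists_smooth π 𝔭₁ 𝔭₂ ν' hπ₁ hS1 h1 h2 (hdich ν' hπν')
      exact ⟨u, hu, OrdGlue1.le_sup_sq π ν' _ hπPmap u hm⟩
  obtain ⟨h, hgen, hpt⟩ := MonoFibre.exists_generator P
    (fun ν' hν' hle b => hres ν' hν' (hle hπPmap) b) hsmooth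
  have hint : IsIntegral B₀ h := Algebra.IsIntegral.isIntegral h
  have hmonic : (minpoly B₀ h).Monic := minpoly.monic hint
  have hmdeg : (minpoly B₀ h).natDegree = q + 1 := hdeg h hgen
  -- the local ring at `ν`
  have hPle : P.map (algebraMap B₀ B) ≤ ν := Ideal.map_comap_le
  have hinjR : Function.Injective (algebraMap B (Localization.AtPrime ν)) :=
    IsLocalization.injective (Localization.AtPrime ν) ν.primeCompl_le_nonZeroDivisors
  have hπprime_ideal := OrdGlue1.span_isPrime π 𝔭₂ 𝔭₁ ν hπ₂ hS1' hν₂ hν₁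
  obtain ⟨u, huν, hmax⟩ := OrdGlue1.exists_smooth π 𝔭₂ 𝔭₁ ν hπ₂ hS1' hν₂ hν₁ (hdich ν hπν)
  have hπR0 : algebraMap B (Localization.AtPrime ν) π ≠ 0 := fun h0 =>
    hπ0 (hinjR (by rw [h0, map_zero]))
  have hπprime : Prime (algebraMap B (Localization.AtPrime ν) π) :=
    (Ideal.span_singleton_prime hπR0).1 hπprime_ideal
  have hdvd_iff := OrdGlue1.dvd_iff_mem π 𝔭₂ 𝔭₁ ν hπ₂ hS1' hν₂ hν₁
  have hmem_max : ∀ x : B, algebraMap B (Localization.AtPrime ν) x ∈
      maximalIdeal (Localization.AtPrime ν) ↔ x ∈ ν := fun x =>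
    IsLocalization.AtPrime.to_map_mem_maximal_iff (Localization.AtPrime ν) ν x
  have hunit : ∀ x : B, x ∉ ν → IsUnit (algebraMap B (Localization.AtPrime ν) x) := fun x hx =>
    IsLocalization.map_units (Localization.AtPrime ν) (⟨x, hx⟩ : ν.primeCompl)
  have hqπR : algebraMap B (Localization.AtPrime ν) π ∣ ((q : ℕ) : Localization.AtPrime ν) := by
    obtain ⟨k, hk⟩ := hqπ
    refine ⟨algebraMap B (Localization.AtPrime ν) k, ?_⟩
    rw [← map_mul, ← hk, map_natCast]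
  -- the point structure at `ν` and the second point
  obtain ⟨c, hνc⟩ := hpt ν ‹_› hPle
  obtain ⟨ν', hle', hν'p, hν'c⟩ := Ideal.exists_ideal_over_prime_of_isIntegral P 𝔭₁ h𝔭₁
  haveI := hν'p
  have hν'max : ν'.IsMaximal :=
    Ideal.isMaximal_of_isIntegral_of_isMaximal_comap (R := B₀) ν' (hν'c ▸ hPmax)
  have hPle' : P.map (algebraMap B₀ B) ≤ ν' := by
    rw [Ideal.map_le_iff_le_comap, hν'c]
  obtain ⟨c₂, hν'c₂⟩ := hpt ν' hν'max hPle'
  have hν'ne : ν' ≠ ν := fun h2 => hν₁ (h2 ▸ hle')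
  refine ⟨h, c, c₂, ν', u, hgen, hν'max, hν'ne, hνc, hν'c₂, hmonic, hmdeg, minpoly.aeval B₀ h,
    hmax, hπprime, hqπR, ?_, ?_, ?_, ?_⟩
  · obtain ⟨x, hxν, hx𝔭⟩ := SetLike.not_le_iff_exists.1 hne
    exact ⟨algebraMap B (Localization.AtPrime ν) x, (hmem_max x).2 hxν,
      fun hd => hx𝔭 ((hdvd_iff x).1 hd)⟩
  · intro r
    obtain ⟨b, hb⟩ := hK r
    refine ⟨algebraMap B (Localization.AtPrime ν) b, ?_⟩
    rw [← map_pow, ← map_sub]
    exact (hdvd_iff _).2 hb
  · obtain ⟨s₀, hs₀, hdvd⟩ := hEuler h hgen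
    obtain ⟨s₁, hs₁, hs₁ν⟩ := SetLike.not_le_iff_exists.1 hν₁
    have h1 : s₁ * Δ ∈ 𝔭₁ ⊓ 𝔭₂ := ⟨𝔭₁.mul_mem_right _ hs₁, 𝔭₂.mul_mem_left _ hΔ₂⟩
    obtain ⟨b, hb⟩ := Ideal.mem_span_singleton.1 (hS1 h1)
    have hb𝔭 : b ∉ 𝔭₂ := hΔ s₁ b hb (fun hmem => hs₁ν (hν₂ hmem))
    obtain ⟨v, hv⟩ := hunit s₁ hs₁ν
    refine ⟨algebraMap B (Localization.AtPrime ν) (algebraMap B₀ B s₀ * b) *
      ((v⁻¹ : (Localization.AtPrime ν)ˣ) : Localization.AtPrime ν), ?_, ?_⟩
    · obtain ⟨k, hk⟩ := hdvd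
      refine ⟨algebraMap B (Localization.AtPrime ν) k, ?_⟩
      have h2 : (v : Localization.AtPrime ν) * (algebraMap B (Localization.AtPrime ν) π *
          (algebraMap B (Localization.AtPrime ν) (algebraMap B₀ B s₀ * b) *
            ((v⁻¹ : (Localization.AtPrime ν)ˣ) : Localization.AtPrime ν))) =
          (v : Localization.AtPrime ν) * (algebraMap B (Localization.AtPrime ν)
            (aeval h (derivative (minpoly B₀ h))) * algebraMap B (Localization.AtPrime ν) k) := by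
        have e1 : (v : Localization.AtPrime ν) * (algebraMap B (Localization.AtPrime ν) π *
            (algebraMap B (Localization.AtPrime ν) (algebraMap B₀ B s₀ * b) *
              ((v⁻¹ : (Localization.AtPrime ν)ˣ) : Localization.AtPrime ν))) =
            algebraMap B (Localization.AtPrime ν) (algebraMap B₀ B s₀ * (π * b)) *
              ((v : Localization.AtPrime ν) * ((v⁻¹ : (Localization.AtPrime ν)ˣ) :
                Localization.AtPrime ν)) := by
          simp only [map_mul]; ring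
        rw [e1, Units.mul_inv, mul_one, ← hb, hv, ← map_mul, ← map_mul]
        congr 1
        linear_combination s₁ * hk
      exact mul_left_cancel₀ v.ne_zero h2
    · intro hdvd'
      have h2 : algebraMap B (Localization.AtPrime ν) π ∣
          algebraMap B (Localization.AtPrime ν) (algebraMap B₀ B s₀ * b) := by
        obtain ⟨k, hk⟩ := hdvd'
        refine ⟨k * (v : Localization.AtPrime ν), ?_⟩
        rw [← mul_assoc, ← hk, mul_assoc, Units.inv_mul, mul_one]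
      rw [hdvd_iff] at h2
      rcases (inferInstance : 𝔭₂.IsPrime).mem_or_mem h2 with h3 | h3
      · exact hs₀ (hν₂ h3)
      · exact hb𝔭 h3
  · intro 𝔮 h𝔮
    have h𝔮p : 𝔮.IsPrime := h𝔮.1.1
    have h1 : (Ideal.span {algebraMap B (Localization.AtPrime ν)
        (aeval h (derivative (minpoly B₀ h)))} : Ideal (Localization.AtPrime ν)) =
        (Ideal.span {aeval h (derivative (minpoly B₀ h))} : Ideal B).map
          (algebraMap B (Localization.AtPrime ν)) := by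
      rw [Ideal.map_span, Set.image_singleton]
    rw [h1, IsLocalization.minimalPrimes_map ν.primeCompl (Localization.AtPrime ν)] at h𝔮
    have h2 : 𝔮.comap (algebraMap B (Localization.AtPrime ν)) ≤ ν := fun x hx =>
      (hmem_max x).1 (IsLocalRing.le_maximalIdeal h𝔮p.ne_top hx)
    exact hT3 h hgen _ h𝔮 h2

end Fermat.Agent.S36.OrdGlue2
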