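import Mathlib
import Fermat.Agent.S36.HorizUnramAux

/-!
# S36, (R-ord), the input `hT3` of `OrdFibre.ord_twoPoint_of_fibre` at an auxiliary level

`R₀ ⊆ B` the charts of level `M` and `N` (`N = M q` in the application; `FF L M ⊆ FF L N` with
`j ↦ j`), at an AUXILIARY level (`r` prime, `r % 12 = 11`, `r ∣ M`, `r ∣ N`), `P` a prime of `R₀`,
`h ∈ B` a local generator of `B` over `R₀` at `P` (`s • B ⊆ R₀[h]` for some `s ∉ P`: the output of
`MonoFibre.exists_generator`), `m ∈ R₀[X]` monic with `m(h) = 0` of degree `≤ [FF L N : FF L M]`,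
`ϖ ∈ R₀` with `L ⊆ R₀[1/ϖ]`.

* `mem_adjoin_of_isIntegral` (abstract): after localising `R₀` at a submonoid containing `s`, the
  integral closure is generated by `h`.
* `different_notMem_aux` : `m'(h)` lies in NO prime `𝔮₀` of `B` with `𝔮₀ ∩ R₀ ⊆ P` and
  `ϖ ∉ 𝔮₀` (no horizontal prime through the fibre over `P` contains the different).
* `hT3_aux_prime`, `hT3_aux` : the local form, LITERALLY the hypothesis `hT3` of
  `OrdFibre.ord_twoPoint_of_fibre` / `OrdDiff.ord_twoPoint`: for `R = B_ν`, `ν ∩ R₀ ⊆ P`, every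
  prime of `R` containing (in particular: minimal over) `m'(h)` contains `ϖ`.
-/

set_option autoImplicit false
set_option linter.unusedSectionVars false
set_option linter.style.haveILetI false

namespace Fermat.Agent.S36.OrdT3

open Polynomial AlgebraicCurve ModularCurve
open Fermat.Agent.S24 Fermat.Agent.S18

/-! ### Generation after localisation -/

/-- `B` the integral closure of `R₀` in `F`, `h ∈ B` with `s • B ⊆ R₀[h]`, `A` a localisation of
`R₀` at a submonoid containing `s`: every element of `F` integral over `A` lies in `A[h]`. -/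
theorem mem_adjoin_of_isIntegral {R₀ B A F : Type*} [CommRing R₀] [CommRing B] [CommRing A]
    [Field F] [Algebra R₀ B] [Algebra R₀ F] [Algebra B F] [IsScalarTower R₀ B F]
    [IsIntegralClosure B R₀ F] [Algebra R₀ A] [Algebra A F] [IsScalarTower R₀ A F]
    (S : Submonoid R₀) [IsLocalization S A] (h : B)
    (hgen : ∃ s : R₀, s ∈ S ∧ ∀ b : B, s • b ∈ Algebra.adjoin R₀ {h})
    {y : F} (hy : IsIntegral A y) : y ∈ Algebra.adjoin A {algebraMap B F h} := by
  obtain ⟨s, hs, hgen⟩ := hgen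
  obtain ⟨t, ht⟩ := IsIntegral.exists_multiple_integral_of_isLocalization S y hy
  obtain ⟨b, hb⟩ := (IsIntegralClosure.isIntegral_iff (A := B)).mp ht
  have key : ∀ z : B, z ∈ Algebra.adjoin R₀ {h} →
      algebraMap B F z ∈ Algebra.adjoin A {algebraMap B F h} := by
    intro z hz
    induction hz using Algebra.adjoin_induction with
    | mem x hx =>
      rw [Set.mem_singleton_iff.mp hx]
      exact Algebra.subset_adjoin (Set.mem_singleton _)
    | algebraMap c =>
      rw [← IsScalarTower.algebraMap_apply R₀ B F, IsScalarTower.algebraMap_apply R₀ A F]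
      exact Subalgebra.algebraMap_mem _ _
    | add x y _ _ hx hy => rw [map_add]; exact add_mem hx hy
    | mul x y _ _ hx hy => rw [map_mul]; exact mul_mem hx hy
  have h1 := key (s • b) (hgen b)
  have h2 : algebraMap B F (s • b) = algebraMap R₀ F (s * (t : R₀)) * y := by
    rw [Algebra.smul_def, map_mul, ← IsScalarTower.algebraMap_apply R₀ B F, hb,
      Submonoid.smul_def, Algebra.smul_def, map_mul]
    ring
  rw [h2] at h1
  have hu : IsUnit (algebraMap R₀ A (s * (t : R₀))) :=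
    IsLocalization.map_units A (⟨s * (t : R₀), mul_mem hs t.2⟩ : S)
  obtain ⟨u, hu'⟩ := hu.exists_left_inv
  have h3 : y = algebraMap A F u * (algebraMap R₀ F (s * (t : R₀)) * y) := by
    rw [← mul_assoc, IsScalarTower.algebraMap_apply R₀ A F, ← map_mul, hu', map_one, one_mul]
  rw [h3]
  exact mul_mem (Subalgebra.algebraMap_mem _ _) h1

/-! ### The minimal polynomial of a generator -/

section Minpoly

variable {R0 R1 K Y : Type*} [CommRing R0] [IsDomain R0] [IsIntegrallyClosed R0]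
  [CommRing R1] [IsDomain R1] [Algebra R0 R1]
  [Field K] [Algebra R0 K] [IsFractionRing R0 K]
  [Field Y] [Algebra R1 Y] [IsFractionRing R1 Y] [Algebra K Y] [Algebra R0 Y]
  [IsScalarTower R0 K Y] [IsScalarTower R0 R1 Y] [FiniteDimensional K Y]

/-- the degree of the minimal polynomial of a generator is the degree of the field extension -/
theorem natDegree_minpoly_of_adjoin_eq_top (X : R1) (hX : Algebra.adjoin R0 {X} = ⊤)
    (hXi : IsIntegral R0 X) : (minpoly R0 X).natDegree = Module.finrank K Y := by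
  have h1 : minpoly K (algebraMap R1 Y X) = (minpoly R0 X).map (algebraMap R0 K) :=
    minpoly.isIntegrallyClosed_eq_field_fractions K Y hXi
  have hint : IsIntegral K (algebraMap R1 Y X) := Algebra.IsIntegral.isIntegral _
  have htop : Algebra.adjoin K {algebraMap R1 Y X} = ⊤ :=
    HorizDisc.adjoin_field_eq_top (K := K) (Y := Y) X hX
  have hS : (IntermediateField.adjoin K {algebraMap R1 Y X}).toSubalgebra =
      Algebra.adjoin K {algebraMap R1 Y X} :=
    IntermediateField.adjoin_simple_toSubalgebra_of_isAlgebraic hint.isAlgebraic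
  have hT : IntermediateField.adjoin K {algebraMap R1 Y X} = ⊤ := by
    apply IntermediateField.toSubalgebra_injective
    rw [hS, htop, IntermediateField.top_toSubalgebra]
  have h2 : (minpoly K (algebraMap R1 Y X)).natDegree = Module.finrank K Y := by
    rw [← IntermediateField.adjoin.finrank hint, hT, IntermediateField.finrank_top']
  have h3 : ((minpoly R0 X).map (algebraMap R0 K)).natDegree = (minpoly R0 X).natDegree :=
    (minpoly.monic hXi).natDegree_map (algebraMap R0 K)
  rw [← h3, ← h1, h2]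

/-- a monic polynomial of degree at most the degree of the field extension killing a generator
is its minimal polynomial -/
theorem eq_minpoly_of_adjoin_eq_top [Module.IsTorsionFree R0 R1] (X : R1)
    (hX : Algebra.adjoin R0 {X} = ⊤) (hXi : IsIntegral R0 X) (p : R0[X]) (hp : p.Monic)
    (hdeg : p.natDegree ≤ Module.finrank K Y) (hroot : aeval X p = 0) :
    p = minpoly R0 X := by
  have hdvd : minpoly R0 X ∣ p := minpoly.isIntegrallyClosed_dvd hXi hroot
  refine Polynomial.eq_of_monic_of_dvd_of_natDegree_le (minpoly.monic hXi) hp hdvd ?_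
  rw [natDegree_minpoly_of_adjoin_eq_top (K := K) (Y := Y) X hX hXi]
  exact hdeg

end Minpoly

/-! ### The abstract core -/

section AbsCore

variable {R₀ B A K F : Type*} [CommRing R₀] [IsDomain R₀] [CommRing B] [IsDomain B]
  [Algebra R₀ B] [Field K] [Field F] [Algebra K F] [FiniteDimensional K F]
  [Algebra R₀ K] [Algebra R₀ F] [IsScalarTower R₀ K F] [Algebra B F] [IsFractionRing B F]
  [IsScalarTower R₀ B F] [IsIntegralClosure B R₀ F]
  [CommRing A] [IsDomain A] [IsIntegrallyClosed A] [Algebra R₀ A] [Algebra A K]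
  [IsScalarTower R₀ A K] [IsFractionRing A K] [Algebra A F] [IsScalarTower A K F]
  [IsScalarTower R₀ A F]

/-- **Abstract core.**  `A` the localisation of `R₀` at `𝔭 = 𝔮₀ ∩ R₀`, `BA` its integral closure
in `F`.  If every prime of `BA` minimal over the different of a generator contains `ϖ ∉ 𝔭`, then
`m'(h) ∉ 𝔮₀`. -/
theorem different_notMem_abs (ϖ : R₀) (h : B) (s : R₀)
    (hgen : ∀ b : B, s • b ∈ Algebra.adjoin R₀ {h})
    (m : R₀[X]) (hm : m.Monic) (hdeg : m.natDegree ≤ Module.finrank K F)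
    (hroot : aeval h m = 0)
    (𝔮₀ : Ideal B) [𝔮₀.IsPrime] [h𝔭p : (𝔮₀.comap (algebraMap R₀ B)).IsPrime]
    [hloc : IsLocalization.AtPrime A (𝔮₀.comap (algebraMap R₀ B))]
    (hs : s ∉ 𝔮₀.comap (algebraMap R₀ B))
    (hϖ : algebraMap R₀ B ϖ ∉ 𝔮₀)
    (hT3 : ∀ X : integralClosure A F, Algebra.adjoin A {X} = ⊤ → IsIntegral A X →
      ∀ 𝔮' ∈ (Ideal.span {aeval X (derivative (minpoly A X))} :
        Ideal (integralClosure A F)).minimalPrimes,
        algebraMap A (integralClosure A F) (algebraMap R₀ A ϖ) ∈ 𝔮') :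
    aeval h (derivative m) ∉ 𝔮₀ := by
  classical
  intro hD
  set 𝔭 : Ideal R₀ := 𝔮₀.comap (algebraMap R₀ B) with h𝔭
  haveI : IsFractionRing (integralClosure A F) F :=
    IsIntegralClosure.isFractionRing_of_finite_extension A K F _
  have hinjABA : Function.Injective (algebraMap A (integralClosure A F)) := by
    have h3 : Function.Injective (algebraMap A F) := by
      rw [IsScalarTower.algebraMap_eq A K F]
      exact (algebraMap K F).injective.comp (IsFractionRing.injective A K)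
    intro a b hab
    apply h3
    rw [IsScalarTower.algebraMap_apply A (integralClosure A F) F, hab,
      ← IsScalarTower.algebraMap_apply A (integralClosure A F) F]
  have : FaithfulSMul A (integralClosure A F) :=
    (faithfulSMul_iff_algebraMap_injective A _).mpr hinjABA
  have : Module.IsTorsionFree A (integralClosure A F) := inferInstance
  have hs𝔭 : s ∈ 𝔭.primeCompl := hs
  have hhint : IsIntegral A (algebraMap B F h) :=
    ((IsIntegralClosure.isIntegral R₀ F h).algebraMap (B := F)).tower_top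
  set h' : integralClosure A F := ⟨algebraMap B F h, hhint⟩ with hh'
  -- generation
  have hX : Algebra.adjoin A {h'} = ⊤ := by
    rw [eq_top_iff]
    intro y _
    have hy : (y : F) ∈ Algebra.adjoin A {algebraMap B F h} :=
      mem_adjoin_of_isIntegral 𝔭.primeCompl h ⟨s, hs𝔭, hgen⟩ y.2
    have hmap : (Algebra.adjoin A {h'}).map (integralClosure A F).val =
        Algebra.adjoin A {algebraMap B F h} := by
      rw [AlgHom.map_adjoin, Set.image_singleton]
      rfl
    rw [← hmap] at hy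
    obtain ⟨z, hz, hzy⟩ := hy
    have hzy' : z = y := Subtype.ext hzy
    rwa [← hzy']
  have hXi : IsIntegral A h' := IsIntegralClosure.isIntegral A F h'
  -- the minimal polynomial
  have hval : ∀ p : R₀[X], ((aeval h' (p.map (algebraMap R₀ A)) : integralClosure A F) : F) =
      algebraMap B F (aeval h p) := by
    intro p
    rw [← Subalgebra.aeval_coe, aeval_map_algebraMap, aeval_algebraMap_apply]
  have hroot' : aeval h' (m.map (algebraMap R₀ A)) = 0 := by
    apply Subtype.ext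
    rw [hval, hroot, map_zero]
    rfl
  have hmin : m.map (algebraMap R₀ A) = minpoly A h' :=
    eq_minpoly_of_adjoin_eq_top (K := K) (Y := F) h' hX hXi _ (hm.map _)
      (by rw [hm.natDegree_map]; exact hdeg) hroot'
  -- the different is a unit of the integral closure of `A`
  set d' : integralClosure A F := aeval h' (derivative (minpoly A h')) with hd'
  have hd'val : (d' : F) = algebraMap B F (aeval h (derivative m)) := by
    rw [hd', ← hmin, derivative_map]
    exact hval _
  have hϖ𝔭 : ϖ ∈ 𝔭.primeCompl := fun hmem => hϖ hmem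
  have hϖu : IsUnit (algebraMap A (integralClosure A F) (algebraMap R₀ A ϖ)) :=
    (IsLocalization.map_units A (⟨ϖ, hϖ𝔭⟩ : 𝔭.primeCompl)).map _
  have hd'u : IsUnit d' := by
    by_contra hnu
    obtain ⟨𝔐, h𝔐, hd𝔐⟩ := exists_max_ideal_of_mem_nonunits hnu
    haveI := h𝔐.isPrime
    obtain ⟨𝔮', h𝔮', h𝔮'le⟩ := Ideal.exists_minimalPrimes_le
      (show Ideal.span {d'} ≤ 𝔐 from (Ideal.span_singleton_le_iff_mem _).mpr hd𝔐)
    exact h𝔐.ne_top (Ideal.eq_top_of_isUnit_mem _ (h𝔮'le (hT3 h' hX hXi 𝔮' h𝔮')) hϖu)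
  obtain ⟨e', he'⟩ := hd'u.exists_right_inv
  -- clear the denominator of the inverse
  obtain ⟨t, ht⟩ := IsIntegral.exists_multiple_integral_of_isLocalization 𝔭.primeCompl
    (e' : F) e'.2
  obtain ⟨b, hb⟩ := (IsIntegralClosure.isIntegral_iff (A := B)).mp ht
  have he'val : algebraMap B F (aeval h (derivative m)) * (e' : F) = 1 := by
    rw [← hd'val]
    exact congrArg Subtype.val he'
  have hDb : aeval h (derivative m) * b = algebraMap R₀ B (t : R₀) := by
    apply IsFractionRing.injective B F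
    rw [map_mul, hb, Submonoid.smul_def, Algebra.smul_def,
      ← IsScalarTower.algebraMap_apply R₀ B F]
    calc algebraMap B F (aeval h (derivative m)) * (algebraMap R₀ F (t : R₀) * (e' : F))
        = algebraMap R₀ F (t : R₀) * (algebraMap B F (aeval h (derivative m)) * (e' : F)) := by
          ring
      _ = algebraMap R₀ F (t : R₀) := by rw [he'val, mul_one]
  have htmem : (t : R₀) ∈ 𝔭 := by
    show algebraMap R₀ B (t : R₀) ∈ 𝔮₀
    rw [← hDb]
    exact Ideal.mul_mem_right _ _ hD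
  exact t.2 htmem

end AbsCore

/-! ### The different at an auxiliary level -/

section Core

variable {L : Type} [Field L] [Algebra ℚ L] (ι : L →+* AlgebraicClosure ℚ) (M N : ℕ) [NeZero M]
  [NeZero N]

include ι in
/-- Core of `different_notMem_aux`, for an abstract localisation `A` of `R₀` at
`𝔭 = 𝔮₀ ∩ R₀`. -/
theorem different_notMem_of_loc {r : ℕ} (hr : r.Prime) (hr12 : r % 12 = 11) (hrM : r ∣ M)
    (hrN : r ∣ N) [Algebra (FF L M) (FF L N)] [IsScalarTower L (FF L M) (FF L N)]
    [FiniteDimensional (FF L M) (FF L N)]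
    (hjα : algebraMap (FF L M) (FF L N) (jBC L M) = jBC L N)
    {R₀ : Type*} [CommRing R₀] [IsDomain R₀] [IsNoetherianRing R₀] [IsIntegrallyClosed R₀]
    [Algebra R₀ (FF L M)] [IsFractionRing R₀ (FF L M)] [Algebra R₀ (FF L N)]
    [IsScalarTower R₀ (FF L M) (FF L N)]
    {B : Type*} [CommRing B] [IsDomain B] [IsIntegrallyClosed B] [Algebra R₀ B]
    [Algebra.IsIntegral R₀ B] [Algebra B (FF L N)] [IsFractionRing B (FF L N)]
    [IsScalarTower R₀ B (FF L N)]
    {A : Type*} [CommRing A] [IsDomain A] [Algebra R₀ A] [Algebra A (FF L M)]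
    [IsScalarTower R₀ A (FF L M)] [IsFractionRing A (FF L M)] [Algebra A (FF L N)]
    [IsScalarTower A (FF L M) (FF L N)]
    (ϖ : R₀)
    (hL : ∀ c : L, ∃ (k : ℕ) (r₀ : R₀),
      algebraMap R₀ (FF L M) ϖ ^ k * algebraMap L (FF L M) c = algebraMap R₀ (FF L M) r₀)
    (jK : R₀) (hjK : algebraMap R₀ (FF L N) jK = jBC L N)
    (h : B) (s : R₀) (hgen : ∀ b : B, s • b ∈ Algebra.adjoin R₀ {h})
    (m : R₀[X]) (hm : m.Monic) (hdeg : m.natDegree ≤ Module.finrank (FF L M) (FF L N))
    (hroot : aeval h m = 0)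
    (𝔮₀ : Ideal B) [𝔮₀.IsPrime] [h𝔭p : (𝔮₀.comap (algebraMap R₀ B)).IsPrime]
    [hloc : IsLocalization.AtPrime A (𝔮₀.comap (algebraMap R₀ B))]
    (hs : s ∉ 𝔮₀.comap (algebraMap R₀ B))
    (hϖ : algebraMap R₀ B ϖ ∉ 𝔮₀) :
    aeval h (derivative m) ∉ 𝔮₀ := by
  haveI : IsIntegralClosure B R₀ (FF L N) := IsIntegralClosure.of_isIntegrallyClosed B R₀ _
  haveI : IsNoetherianRing A :=
    IsLocalization.isNoetherianRing (𝔮₀.comap (algebraMap R₀ B)).primeCompl A inferInstance
  haveI : IsIntegrallyClosed A :=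
    isIntegrallyClosed_of_isLocalization A (𝔮₀.comap (algebraMap R₀ B)).primeCompl
      (𝔮₀.comap (algebraMap R₀ B)).primeCompl_le_nonZeroDivisors
  haveI : IsScalarTower R₀ A (FF L N) := IsScalarTower.of_algebraMap_eq (fun r => by
    rw [IsScalarTower.algebraMap_apply R₀ (FF L M) (FF L N),
      IsScalarTower.algebraMap_apply R₀ A (FF L M),
      ← IsScalarTower.algebraMap_apply A (FF L M) (FF L N)])
  haveI : IsFractionRing (integralClosure A (FF L N)) (FF L N) :=
    IsIntegralClosure.isFractionRing_of_finite_extension A (FF L M) (FF L N) _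
  haveI : IsIntegrallyClosed (integralClosure A (FF L N)) :=
    integralClosure.isIntegrallyClosedOfFiniteExtension (FF L M)
  have hLA : ∀ c : L, ∃ (k : ℕ) (r₀ : A),
      algebraMap A (FF L M) (algebraMap R₀ A ϖ) ^ k * algebraMap L (FF L M) c =
        algebraMap A (FF L M) r₀ := by
    intro c
    obtain ⟨k, r₀, hr₀⟩ := hL c
    exact ⟨k, algebraMap R₀ A r₀, by
      rw [← IsScalarTower.algebraMap_apply R₀ A (FF L M),
        ← IsScalarTower.algebraMap_apply R₀ A (FF L M), hr₀]⟩
  have hjKA : algebraMap A (FF L N) (algebraMap R₀ A jK) = jBC L N := by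
    rw [← IsScalarTower.algebraMap_apply R₀ A (FF L N), hjK]
  refine different_notMem_abs (K := FF L M) (F := FF L N) (A := A) ϖ h s hgen m hm hdeg hroot 𝔮₀
    hs hϖ ?_
  intro X hX hXi 𝔮' h𝔮'
  exact HorizUnramAux.pi_mem_of_mem_minimalPrimes_aux ι M N hr hr12 hrM hrN
    hjα (R0 := A) (R1 := integralClosure A (FF L N)) (algebraMap R₀ A ϖ) hLA
    (algebraMap R₀ A jK) hjKA X hX hXi 𝔮' h𝔮'

include ι in
/-- **No horizontal prime through the fibre contains the different.**  At an auxiliary level,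
`m'(h)` lies in no prime `𝔮₀` of `B` with `𝔮₀ ∩ R₀ ⊆ P` and `ϖ ∉ 𝔮₀`. -/
theorem different_notMem_aux {r : ℕ} (hr : r.Prime) (hr12 : r % 12 = 11) (hrM : r ∣ M)
    (hrN : r ∣ N) [Algebra (FF L M) (FF L N)] [IsScalarTower L (FF L M) (FF L N)]
    [FiniteDimensional (FF L M) (FF L N)]
    (hjα : algebraMap (FF L M) (FF L N) (jBC L M) = jBC L N)
    {R₀ : Type*} [CommRing R₀] [IsDomain R₀] [IsNoetherianRing R₀] [IsIntegrallyClosed R₀]
    [Algebra R₀ (FF L M)] [IsFractionRing R₀ (FF L M)] [Algebra R₀ (FF L N)]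
    [IsScalarTower R₀ (FF L M) (FF L N)]
    {B : Type*} [CommRing B] [IsDomain B] [IsIntegrallyClosed B] [Algebra R₀ B]
    [Algebra.IsIntegral R₀ B] [Algebra B (FF L N)] [IsFractionRing B (FF L N)]
    [IsScalarTower R₀ B (FF L N)]
    (ϖ : R₀)
    (hL : ∀ c : L, ∃ (k : ℕ) (r₀ : R₀),
      algebraMap R₀ (FF L M) ϖ ^ k * algebraMap L (FF L M) c = algebraMap R₀ (FF L M) r₀)
    (jK : R₀) (hjK : algebraMap R₀ (FF L N) jK = jBC L N)
    (P : Ideal R₀) (h : B)
    (hgen : ∃ s : R₀, s ∉ P ∧ ∀ b : B, s • b ∈ Algebra.adjoin R₀ {h})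
    (m : R₀[X]) (hm : m.Monic) (hdeg : m.natDegree ≤ Module.finrank (FF L M) (FF L N))
    (hroot : aeval h m = 0)
    (𝔮₀ : Ideal B) [𝔮₀.IsPrime] (hle : 𝔮₀.comap (algebraMap R₀ B) ≤ P)
    (hϖ : algebraMap R₀ B ϖ ∉ 𝔮₀) :
    aeval h (derivative m) ∉ 𝔮₀ := by
  obtain ⟨s, hs, hgen⟩ := hgen
  haveI h𝔭p : (𝔮₀.comap (algebraMap R₀ B)).IsPrime := Ideal.comap_isPrime _ _
  haveI hloc : IsLocalization.AtPrime
      (Localization.subalgebra.ofField (FF L M) (𝔮₀.comap (algebraMap R₀ B)).primeCompl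
        (𝔮₀.comap (algebraMap R₀ B)).primeCompl_le_nonZeroDivisors)
      (𝔮₀.comap (algebraMap R₀ B)) :=
    Localization.subalgebra.isLocalization_ofField (FF L M) _
      (𝔮₀.comap (algebraMap R₀ B)).primeCompl_le_nonZeroDivisors
  haveI : IsFractionRing
      (Localization.subalgebra.ofField (FF L M) (𝔮₀.comap (algebraMap R₀ B)).primeCompl
        (𝔮₀.comap (algebraMap R₀ B)).primeCompl_le_nonZeroDivisors)
      (FF L M) :=
    Localization.subalgebra.isFractionRing_ofField (FF L M) _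
      (𝔮₀.comap (algebraMap R₀ B)).primeCompl_le_nonZeroDivisors
  exact different_notMem_of_loc ι M N hr hr12 hrM hrN hjα
    (A := Localization.subalgebra.ofField (FF L M) (𝔮₀.comap (algebraMap R₀ B)).primeCompl
      (𝔮₀.comap (algebraMap R₀ B)).primeCompl_le_nonZeroDivisors)
    ϖ hL jK hjK h s hgen m hm hdeg hroot 𝔮₀ (fun hs' => hs (hle hs')) hϖ

include ι in
/-- **`hT3`, prime form.**  `R = B_ν` with `ν ∩ R₀ ⊆ P`: every prime of `R` containing `m'(h)`
contains `ϖ`. -/
theorem hT3_aux_prime {r : ℕ} (hr : r.Prime) (hr12 : r % 12 = 11) (hrM : r ∣ M)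
    (hrN : r ∣ N) [Algebra (FF L M) (FF L N)] [IsScalarTower L (FF L M) (FF L N)]
    [FiniteDimensional (FF L M) (FF L N)]
    (hjα : algebraMap (FF L M) (FF L N) (jBC L M) = jBC L N)
    {R₀ : Type*} [CommRing R₀] [IsDomain R₀] [IsNoetherianRing R₀] [IsIntegrallyClosed R₀]
    [Algebra R₀ (FF L M)] [IsFractionRing R₀ (FF L M)] [Algebra R₀ (FF L N)]
    [IsScalarTower R₀ (FF L M) (FF L N)]
    {B : Type*} [CommRing B] [IsDomain B] [IsIntegrallyClosed B] [Algebra R₀ B]
    [Algebra.IsIntegral R₀ B] [Algebra B (FF L N)] [IsFractionRing B (FF L N)]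
    [IsScalarTower R₀ B (FF L N)]
    (ϖ : R₀)
    (hL : ∀ c : L, ∃ (k : ℕ) (r₀ : R₀),
      algebraMap R₀ (FF L M) ϖ ^ k * algebraMap L (FF L M) c = algebraMap R₀ (FF L M) r₀)
    (jK : R₀) (hjK : algebraMap R₀ (FF L N) jK = jBC L N)
    (P : Ideal R₀) (h : B)
    (hgen : ∃ s : R₀, s ∉ P ∧ ∀ b : B, s • b ∈ Algebra.adjoin R₀ {h})
    (m : R₀[X]) (hm : m.Monic) (hdeg : m.natDegree ≤ Module.finrank (FF L M) (FF L N))
    (hroot : aeval h m = 0)
    (ν : Ideal B) [ν.IsPrime] (hν : ν.comap (algebraMap R₀ B) ≤ P)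
    (R : Type*) [CommRing R] [Algebra B R] [IsLocalization.AtPrime R ν] [Algebra R₀ R]
    [IsScalarTower R₀ B R]
    (𝔮 : Ideal R) [𝔮.IsPrime] (h𝔮 : aeval (algebraMap B R h) (derivative m) ∈ 𝔮) :
    algebraMap R₀ R ϖ ∈ 𝔮 := by
  by_contra hϖ
  have hle : (𝔮.comap (algebraMap B R)).comap (algebraMap R₀ B) ≤ P := by
    refine le_trans (Ideal.comap_mono ?_) hν
    intro x hx
    by_contra hxν
    have hu : IsUnit (algebraMap B R x) := IsLocalization.map_units R (⟨x, hxν⟩ : ν.primeCompl)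
    exact (Ideal.IsPrime.ne_top inferInstance) (Ideal.eq_top_of_isUnit_mem 𝔮 hx hu)
  refine different_notMem_aux ι M N hr hr12 hrM hrN hjα ϖ hL jK hjK P h hgen m hm hdeg hroot
    (𝔮.comap (algebraMap B R)) hle ?_ ?_
  · intro hmem
    apply hϖ
    rw [IsScalarTower.algebraMap_apply R₀ B R]
    exact hmem
  · rw [Ideal.mem_comap, ← aeval_algebraMap_apply]
    exact h𝔮

include ι in
/-- **`hT3` of `OrdFibre.ord_twoPoint_of_fibre` at an auxiliary level** (minimal-prime form,
`π := algebraMap R₀ R ϖ`). -/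
theorem hT3_aux {r : ℕ} (hr : r.Prime) (hr12 : r % 12 = 11) (hrM : r ∣ M)
    (hrN : r ∣ N) [Algebra (FF L M) (FF L N)] [IsScalarTower L (FF L M) (FF L N)]
    [FiniteDimensional (FF L M) (FF L N)]
    (hjα : algebraMap (FF L M) (FF L N) (jBC L M) = jBC L N)
    {R₀ : Type*} [CommRing R₀] [IsDomain R₀] [IsNoetherianRing R₀] [IsIntegrallyClosed R₀]
    [Algebra R₀ (FF L M)] [IsFractionRing R₀ (FF L M)] [Algebra R₀ (FF L N)]
    [IsScalarTower R₀ (FF L M) (FF L N)]
    {B : Type*} [CommRing B] [IsDomain B] [IsIntegrallyClosed B] [Algebra R₀ B]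
    [Algebra.IsIntegral R₀ B] [Algebra B (FF L N)] [IsFractionRing B (FF L N)]
    [IsScalarTower R₀ B (FF L N)]
    (ϖ : R₀)
    (hL : ∀ c : L, ∃ (k : ℕ) (r₀ : R₀),
      algebraMap R₀ (FF L M) ϖ ^ k * algebraMap L (FF L M) c = algebraMap R₀ (FF L M) r₀)
    (jK : R₀) (hjK : algebraMap R₀ (FF L N) jK = jBC L N)
    (P : Ideal R₀) (h : B)
    (hgen : ∃ s : R₀, s ∉ P ∧ ∀ b : B, s • b ∈ Algebra.adjoin R₀ {h})
    (m : R₀[X]) (hm : m.Monic) (hdeg : m.natDegree ≤ Module.finrank (FF L M) (FF L N))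
    (hroot : aeval h m = 0)
    (ν : Ideal B) [ν.IsPrime] (hν : ν.comap (algebraMap R₀ B) ≤ P)
    (R : Type*) [CommRing R] [Algebra B R] [IsLocalization.AtPrime R ν] [Algebra R₀ R]
    [IsScalarTower R₀ B R] :
    ∀ 𝔮 ∈ (Ideal.span {aeval (algebraMap B R h) (derivative m)} : Ideal R).minimalPrimes,
      algebraMap R₀ R ϖ ∈ 𝔮 := by
  intro 𝔮 h𝔮
  haveI : 𝔮.IsPrime := h𝔮.1.1
  exact hT3_aux_prime ι M N hr hr12 hrM hrN hjα ϖ hL jK hjK P h hgen m hm hdeg hroot ν hν R 𝔮
    (h𝔮.1.2 (Ideal.subset_span rfl))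

end Core

end Fermat.Agent.S36.OrdT3
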