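import Mathlib
import Fermat.Agent.S36.ThetaInst
import Fermat.Agent.S36.NodeBranch

/-!
# S36 (R-ord), step (J5)(d): the `θ`-fact on the chart of level `M q`

`y = β(j) ∈ FF L (M q)`, `Δ = m_y'(y)` the different of `y` over `α(FF L M)`.  By
`ThetaInst.exists_theta_poly` the second expansion of `Δ` is `π · h` with `h` Gauss-integral of
nonzero reduction.

* `theta_minpoly` : the same statement for the minimal polynomial of `y` with respect to ANY
  algebra structure `FF L M → FF L (M q)` given by `α` (needs the degree `q + 1` of the minimal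
  polynomial, `BetaGen`);
* `theta_chart` : on a chart `B` of level `M q` (an `IsIntegralClosure` carrier) over a normal
  domain `R₀` with fraction field `FF L M`, for `θ ∈ B` with image `y`, integral over `R₀`:
  `Δ := m_θ'(θ)` (minimal polynomial over `R₀`) lies in the second branch `𝔭₂`, and
  `x Δ = π b`, `x ∉ 𝔭₂` imply `b ∉ 𝔭₂` — the hypotheses `hΔ`, `hθ2` of `OrdEuler.hE_of_fibre`.
-/

set_option autoImplicit false
set_option linter.unusedSectionVars false
set_option linter.style.haveILetI false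

noncomputable section

namespace Fermat.Agent.S36.ThetaChart

open Polynomial ModularCurve AlgebraicCurve Fermat.Agent.S18 Fermat.Agent.S18.Gauss
  Fermat.Agent.S34 Fermat.Agent.S37 IsLocalRing

local notation "Qb" => AlgebraicClosure ℚ
local notation "FF" => Fermat.Agent.S24.FF

variable {L : Type} [Field L] [Algebra ℚ L] (W : ValuationSubring L) (M q : ℕ) [NeZero M]
  [NeZero q] [IsDiscreteValuationRing ↥W] [CharP (IsLocalRing.ResidueField ↥W) q]

/-- **The `θ`-fact for the minimal polynomial of `β(j)`** over `FF L M`, embedded by `α`. -/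
theorem theta_minpoly (hq : q.Prime) (hqM : ¬ q ∣ M) (ι : L →+* Qb)
    {π : ↥W} (hπ : Irreducible π) (hunr : ∃ u : (↥W)ˣ, ((q : ℕ) : ↥W) = π * u)
    (w : FF L (M * q) ≃ₐ[L] FF L (M * q))
    (hwα : (w : FF L (M * q) →ₐ[L] FF L (M * q)).comp (heckeAlphaBar L M q) =
      heckeBetaBar L M q)
    (hwβ : (w : FF L (M * q) →ₐ[L] FF L (M * q)).comp (heckeBetaBar L M q) =
      heckeAlphaBar L M q)
    [Algebra (FF L M) (FF L (M * q))]
    (halgK : ∀ x, algebraMap (FF L M) (FF L (M * q)) x = heckeAlphaBar L M q x)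
    (hdeg : (minpoly (FF L M) (heckeBetaBar L M q (S24.jBC L M))).natDegree = q + 1) :
    ∃ h, h ∈ contentRing W ∧
      ((w (aeval (heckeBetaBar L M q (S24.jBC L M))
        (derivative (minpoly (FF L M) (heckeBetaBar L M q (S24.jBC L M))))) : FF L (M * q)) :
          LaurentSeries L) = HahnSeries.C ((π : ↥W) : L) * h ∧
      TwoGauss.rd W h ≠ 0 := by
  obtain ⟨P, hPm, hPdeg, -, hroot, h, hh, hder, hrd⟩ :=
    ThetaInst.exists_theta_poly W M q hq hqM ι hπ hunr w hwα hwβ
  have halgeq : algebraMap (FF L M) (FF L (M * q)) = (heckeAlphaBar L M q).toRingHom :=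
    RingHom.ext halgK
  set y : FF L (M * q) := heckeBetaBar L M q (S24.jBC L M) with hy
  have hPy : aeval y P = 0 := by
    rw [aeval_def, halgeq]
    exact hroot
  have hyint : IsIntegral (FF L M) y := ⟨P, hPm, hPy⟩
  have hdvd : minpoly (FF L M) y ∣ P := minpoly.dvd _ _ hPy
  have heq : P = minpoly (FF L M) y :=
    Polynomial.eq_of_monic_of_dvd_of_natDegree_le (minpoly.monic hyint) hPm hdvd
      (by rw [hPdeg, hdeg])
  refine ⟨h, hh, ?_, hrd⟩
  rw [← heq, aeval_def, halgeq]
  exact hder

variable [Algebra (↥W)[X] (FF L (M * q))]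
  (halg : algebraMap (↥W)[X] (FF L (M * q)) = evF W (M * q))
  (B : Type*) [CommRing B] [Algebra (↥W)[X] B] [Algebra B (FF L (M * q))]
  [IsScalarTower (↥W)[X] B (FF L (M * q))] [IsIntegralClosure B (↥W)[X] (FF L (M * q))]

/-- **(J5)(d) The `θ`-fact on the chart.**  `Δ = m_θ'(θ)` lies in the second branch and has
second valuation exactly one. -/
theorem theta_chart (hq : q.Prime) (hqM : ¬ q ∣ M) (ι : L →+* Qb)
    {π : ↥W} (hπ : Irreducible π) (hunr : ∃ u : (↥W)ˣ, ((q : ℕ) : ↥W) = π * u)
    (w : FF L (M * q) ≃ₐ[L] FF L (M * q))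
    (hwα : (w : FF L (M * q) →ₐ[L] FF L (M * q)).comp (heckeAlphaBar L M q) =
      heckeBetaBar L M q)
    (hwβ : (w : FF L (M * q) →ₐ[L] FF L (M * q)).comp (heckeBetaBar L M q) =
      heckeAlphaBar L M q)
    [Algebra (FF L M) (FF L (M * q))]
    (halgK : ∀ x, algebraMap (FF L M) (FF L (M * q)) x = heckeAlphaBar L M q x)
    (hdeg : (minpoly (FF L M) (heckeBetaBar L M q (S24.jBC L M))).natDegree = q + 1)
    {R₀ : Type*} [CommRing R₀] [IsDomain R₀] [IsIntegrallyClosed R₀] [Algebra R₀ (FF L M)]
    [IsFractionRing R₀ (FF L M)] [Algebra R₀ B] [Algebra R₀ (FF L (M * q))]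
    [IsScalarTower R₀ (FF L M) (FF L (M * q))] [IsScalarTower R₀ B (FF L (M * q))]
    (θ : B) (hθ : algebraMap B (FF L (M * q)) θ = heckeBetaBar L M q (S24.jBC L M))
    (hθint : IsIntegral R₀ θ) :
    aeval θ (derivative (minpoly R₀ θ)) ∈ NodeBranch.branch₂ W M q halg B hq w hwα ∧
    ∀ x b : B, x * aeval θ (derivative (minpoly R₀ θ)) = algebraMap (↥W)[X] B (C π) * b →
      x ∉ NodeBranch.branch₂ W M q halg B hq w hwα →
      b ∉ NodeBranch.branch₂ W M q halg B hq w hwα := by
  haveI : IsDomain B := (NodeBranch.algebraMap_chart_injective W M q halg B).isDomain _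
  set Δ : B := aeval θ (derivative (minpoly R₀ θ)) with hΔ
  set y : FF L (M * q) := heckeBetaBar L M q (S24.jBC L M) with hy
  -- the image of `Δ` in the function field
  have e : algebraMap B (FF L (M * q)) Δ = aeval y (derivative (minpoly (FF L M) y)) := by
    have hfr : minpoly (FF L M) (algebraMap B (FF L (M * q)) θ) =
        (minpoly R₀ θ).map (algebraMap R₀ (FF L M)) :=
      minpoly.isIntegrallyClosed_eq_field_fractions (FF L M) (FF L (M * q)) hθint
    rw [← hθ, hfr, derivative_map, aeval_map_algebraMap, aeval_algebraMap_apply]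
  obtain ⟨h, hh, hder, hrd⟩ :=
    theta_minpoly W M q hq hqM ι hπ hunr w hwα hwβ halgK hdeg
  rw [← e] at hder
  have hCπ : (HahnSeries.C ((π : ↥W) : L) : LaurentSeries L) ∈ contentRing W :=
    C_mem_contentRing W π
  have hrdπ : TwoGauss.rd W (HahnSeries.C ((π : ↥W) : L)) = 0 := by
    rw [TwoGauss.rd_of_mem W hCπ]
    exact red_C_unif W hπ
  constructor
  · rw [NodeBranch.mem_branch₂, hder, TwoGauss.rd_mul W hCπ hh, hrdπ, zero_mul]
  · intro x b hxb hx hb
    apply hx
    rw [NodeBranch.mem_branch₂] at hb ⊢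
    have hmx : ((w (algebraMap B (FF L (M * q)) x) : FF L (M * q)) : LaurentSeries L) ∈
        contentRing W := NodeBranch.mem₂ W M q halg B hq w hwα x
    -- apply the second expansion to `x Δ = π b`
    have h1 := congrArg (fun z : B => ((w (algebraMap B (FF L (M * q)) z) : FF L (M * q)) :
      LaurentSeries L)) hxb
    simp only [map_mul] at h1
    have h2 : ((w (algebraMap B (FF L (M * q)) (algebraMap (↥W)[X] B (C π))) : FF L (M * q)) :
        LaurentSeries L) = HahnSeries.C ((π : ↥W) : L) := by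
      rw [NodeBranch.algebraMap_pi W M q halg B π, AlgEquiv.commutes, GaussPrime.coe_unif π]
    have h3 : ((w (algebraMap B (FF L (M * q)) b) : FF L (M * q)) : LaurentSeries L) =
        ((w (algebraMap B (FF L (M * q)) x) : FF L (M * q)) : LaurentSeries L) * h := by
      have h4 : HahnSeries.C ((π : ↥W) : L) *
          (((w (algebraMap B (FF L (M * q)) x) : FF L (M * q)) : LaurentSeries L) * h) =
          HahnSeries.C ((π : ↥W) : L) *
            ((w (algebraMap B (FF L (M * q)) b) : FF L (M * q)) : LaurentSeries L) := by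
        have h5 : ((w (algebraMap B (FF L (M * q)) x) : FF L (M * q)) : LaurentSeries L) *
            ((w (algebraMap B (FF L (M * q)) Δ) : FF L (M * q)) : LaurentSeries L) =
            ((w (algebraMap B (FF L (M * q)) (algebraMap (↥W)[X] B (C π))) : FF L (M * q)) :
              LaurentSeries L) *
            ((w (algebraMap B (FF L (M * q)) b) : FF L (M * q)) : LaurentSeries L) := h1
        rw [hder, h2] at h5
        rw [← h5]
        ring
      exact (mul_left_cancel₀ (C_unif_ne_zero W hπ) h4).symm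
    rw [h3, TwoGauss.rd_mul W hmx hh] at hb
    exact (mul_eq_zero.mp hb).resolve_right hrd

end Fermat.Agent.S36.ThetaChart
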