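import Mathlib
import Fermat.Agent.S36.OrdGlue
import Fermat.Agent.S36.OrdGlue2
import Fermat.Agent.S36.BetaHom
import Fermat.Agent.S36.NodeBranch
import Fermat.Agent.S36.NodeOverInstF
import Fermat.Agent.S36.FrobLevel
import Fermat.Agent.S36.OrdEuler
import Fermat.Agent.S36.OrdT3
import Fermat.Agent.S36.BetaGen
import Fermat.Agent.S36.ThetaInst
import Fermat.Agent.S36.HorizFactInst
import Fermat.Agent.S36.HorizUnramInst
import Fermat.Agent.S36.OrdFacts0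
import Fermat.Agent.S36.ThetaChart

/-!
# S36 (R-ord), clause (II) of K4 on the finite chart of level `M q²`, from four chart facts

`𝔫` a maximal ideal of the chart `B₂` of level `M q²` over `q`, `ν = β₂⁻¹ 𝔫` its contraction to
the chart `B₁` of level `M q` along the second degeneracy map.  If `ν` does not contain the first
vertical prime `𝔭₁ = ker (rd ∘ coe)` of `B₁`, then every horizontal prime of `B₂` through `𝔫` is
locally principal (contract K4).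

`ord_k4_of_facts` : the statement, from the four facts on the second vertical prime
`𝔭₂ = ker (rd ∘ coe ∘ w)` of the chart of level `M q` which are not yet discharged here
(`hne`, `huniq₂`, `h𝔭₁`, `hK`).  Everything else is discharged: `OrdGlue2.exists_ord_data`
(fibre and local data at `ν`), `OrdGlue.ord_horPrincipal` (level `M q²`), `OrdFacts0`,
`NodeBranch`, `FrobLevel.finite_dich_frob`, `ThetaChart`, `OrdEuler`, `OrdT3`, `BetaGen`.
-/

set_option autoImplicit false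
set_option linter.unusedSectionVars false
set_option linter.unusedVariables false
set_option linter.style.haveILetI false

noncomputable section

namespace Fermat.Agent.S36.OrdK4Of

open Polynomial ModularCurve AlgebraicCurve Fermat.Agent.S18 Fermat.Agent.S18.Gauss
  Fermat.Agent.S34 Fermat.Agent.S37 IsLocalRing

local notation "Qb" => AlgebraicClosure ℚ
local notation "FF" => Fermat.Agent.S24.FF

variable (A : ValuationSubring Qb) {L : Type} [Field L] [Algebra ℚ L] (ι : L →+* Qb)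
  (M q : ℕ) [NeZero M] [NeZero q]

set_option maxHeartbeats 1600000 in
/-- **K4, clause (II)** (S34 carriers), from the four facts on `𝔭₂`. -/
theorem ord_k4_of_facts (hq : q.Prime) (hqM : ¬ q ∣ M) {r : ℕ} (hr : r.Prime) (hr12 : r % 12 = 11)
    (hrM : r ∣ M) (S : Finset Qb)
    (hlev : LevelChange.IsLevel A q S ι)
    (hstab : FrobLevel.FrobStable A q ι)
    (hirr : Irreducible ((q : ℕ) : ↥(A.comap ι)))
    [hdvr : IsDiscreteValuationRing ↥(A.comap ι)]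
    (w : FF L (M * q) ≃ₐ[L] FF L (M * q))
    (hwα : (w : FF L (M * q) →ₐ[L] FF L (M * q)).comp (heckeAlphaBar L M q) =
      heckeBetaBar L M q)
    (hwβ : (w : FF L (M * q) →ₐ[L] FF L (M * q)).comp (heckeBetaBar L M q) =
      heckeAlphaBar L M q)
    [Algebra (↥(A.comap ι))[X] (FF L M)]
    (halgM : algebraMap (↥(A.comap ι))[X] (FF L M) = evF (A.comap ι) M)
    (BM : Type) [CommRing BM] [Algebra (↥(A.comap ι))[X] BM] [Algebra BM (FF L M)]
    [IsScalarTower (↥(A.comap ι))[X] BM (FF L M)]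
    [IsIntegralClosure BM (↥(A.comap ι))[X] (FF L M)]
    [Algebra (↥(A.comap ι))[X] (FF L (M * q))]
    (halg₁ : algebraMap (↥(A.comap ι))[X] (FF L (M * q)) = evF (A.comap ι) (M * q))
    (B₁ : Type) [CommRing B₁] [Algebra (↥(A.comap ι))[X] B₁] [Algebra B₁ (FF L (M * q))]
    [IsScalarTower (↥(A.comap ι))[X] B₁ (FF L (M * q))]
    [IsIntegralClosure B₁ (↥(A.comap ι))[X] (FF L (M * q))]
    [Algebra (↥(A.comap ι))[X] (FF L (M * q * q))]
    (halg₂ : algebraMap (↥(A.comap ι))[X] (FF L (M * q * q)) = evF (A.comap ι) (M * q * q))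
    (B₂ : Type) [CommRing B₂] [Algebra (↥(A.comap ι))[X] B₂] [Algebra B₂ (FF L (M * q * q))]
    [IsScalarTower (↥(A.comap ι))[X] B₂ (FF L (M * q * q))]
    [IsIntegralClosure B₂ (↥(A.comap ι))[X] (FF L (M * q * q))]
    (hne : ∀ ν : Ideal B₁, ν.IsMaximal →
      ¬ ν ≤ NodeBranch.branch₂ (A.comap ι) M q halg₁ B₁ hq w hwα)
    (huniq₂ : ∀ ν ν' : Ideal B₁, ν.IsMaximal → ν'.IsPrime →
      NodeBranch.branch₂ (A.comap ι) M q halg₁ B₁ hq w hwα ≤ ν →
      NodeBranch.branch₂ (A.comap ι) M q halg₁ B₁ hq w hwα ≤ ν' →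
      ν'.comap (NodeOverInst.alphaHom (A.comap ι) M q halgM BM halg₁ B₁) =
        ν.comap (NodeOverInst.alphaHom (A.comap ι) M q halgM BM halg₁ B₁) → ν' = ν)
    (h𝔭₁ : ∀ ν : Ideal B₁, ν.IsMaximal →
      algebraMap (↥(A.comap ι))[X] B₁ (C ((q : ℕ) : ↥(A.comap ι))) ∈ ν →
      (NodeBranch.branch₁ (A.comap ι) M q halg₁ B₁).comap
          (NodeOverInst.alphaHom (A.comap ι) M q halgM BM halg₁ B₁) ≤
        ν.comap (NodeOverInst.alphaHom (A.comap ι) M q halgM BM halg₁ B₁))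
    (hK : ∀ c : BM, ∃ b : B₁,
      NodeOverInst.alphaHom (A.comap ι) M q halgM BM halg₁ B₁ c - b ^ q ∈
        NodeBranch.branch₂ (A.comap ι) M q halg₁ B₁ hq w hwα)
    (𝔫 : Ideal B₂) [𝔫.IsMaximal]
    (hπ𝔫 : algebraMap (↥(A.comap ι))[X] B₂ (C ((q : ℕ) : ↥(A.comap ι))) ∈ 𝔫)
    (hII : ¬ ∀ b : B₁, TwoGauss.rd (A.comap ι)
      ((algebraMap B₁ (FF L (M * q)) b : FF L (M * q)) : LaurentSeries L) = 0 →
        BetaHom.betaHom (A.comap ι) (M * q) q halg₁ B₁ halg₂ B₂ hq b ∈ 𝔫)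
    (𝔮 : Ideal B₂) [𝔮.IsPrime] (h𝔮𝔫 : 𝔮 ≤ 𝔫)
    (hπ𝔮 : algebraMap (↥(A.comap ι))[X] B₂ (C ((q : ℕ) : ↥(A.comap ι))) ∉ 𝔮) :
    ∃ x ∈ 𝔮, ∃ d, d ∉ 𝔫 ∧ ∀ y ∈ 𝔮, x ∣ d * y := by
  classical
  have hchar : CharP (IsLocalRing.ResidueField ↥(A.comap ι)) q := hlev.2.2.2.2.2.1
  haveI : Fact q.Prime := ⟨hq⟩
  -- carriers
  letI algα : Algebra BM B₁ := (NodeOverInst.alphaHom (A.comap ι) M q halgM BM halg₁ B₁).toAlgebra
  letI algβ : Algebra B₁ B₂ :=
    (BetaHom.betaHom (A.comap ι) (M * q) q halg₁ B₁ halg₂ B₂ hq).toAlgebra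
  have hα : ∀ c : BM, algebraMap B₁ (FF L (M * q)) (algebraMap BM B₁ c) =
      heckeAlphaBar L M q (algebraMap BM (FF L M) c) :=
    NodeOverInst.alphaHom_spec (A.comap ι) M q halgM BM halg₁ B₁
  have hβ : ∀ b : B₁, algebraMap B₂ (FF L (M * q * q)) (algebraMap B₁ B₂ b) =
      heckeBetaBar L (M * q) q (algebraMap B₁ (FF L (M * q)) b) :=
    BetaHom.betaHom_spec (A.comap ι) (M * q) q halg₁ B₁ halg₂ B₂ hq
  -- ring-theoretic instances on the carriers
  haveI : IsDomain BM := KLocInst.isDomain_fin (A.comap ι) M BM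
  haveI : IsDomain B₁ := KLocInst.isDomain_fin (A.comap ι) (M * q) B₁
  haveI : IsNoetherianRing B₁ := KLocInst.isNoetherianRing_fin (A.comap ι) (M * q) halg₁ B₁
  haveI : IsIntegrallyClosed B₁ := KLocInst.isIntegrallyClosed_fin (A.comap ι) (M * q) halg₁ B₁
  haveI : IsFractionRing B₁ (FF L (M * q)) :=
    KLocInst.isFractionRing_fin (A.comap ι) (M * q) halg₁ B₁
  haveI : IsDomain B₂ := KLocInst.isDomain_fin (A.comap ι) (M * q * q) B₂
  haveI : IsNoetherianRing B₂ :=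
    KLocInst.isNoetherianRing_fin (A.comap ι) (M * q * q) halg₂ B₂
  haveI hintβ : Algebra.IsIntegral B₁ B₂ :=
    ⟨BetaHom.betaHom_isIntegral (A.comap ι) (M * q) q halg₁ B₁ halg₂ B₂ ι hq⟩
  have hinjM : Function.Injective (algebraMap BM (FF L M)) :=
    IsIntegralClosure.algebraMap_injective BM (↥(A.comap ι))[X] (FF L M)
  have hinj₁ : Function.Injective (algebraMap B₁ (FF L (M * q))) :=
    IsIntegralClosure.algebraMap_injective B₁ (↥(A.comap ι))[X] (FF L (M * q))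
  have hinj₂ : Function.Injective (algebraMap B₂ (FF L (M * q * q))) :=
    IsIntegralClosure.algebraMap_injective B₂ (↥(A.comap ι))[X] (FF L (M * q * q))
  haveI hfin : Module.Finite BM B₁ :=
    OrdFacts0.moduleFinite_alpha (A.comap ι) M q halgM BM halg₁ B₁ rfl
  -- the vertical parameter
  set π₀ : BM := algebraMap (↥(A.comap ι))[X] BM (C ((q : ℕ) : ↥(A.comap ι))) with hπ₀
  have hπ₀₁ : algebraMap BM B₁ π₀ =
      algebraMap (↥(A.comap ι))[X] B₁ (C ((q : ℕ) : ↥(A.comap ι))) :=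
    BetaHom.alphaHom_algebraMap (A.comap ι) M q halgM BM halg₁ B₁ _
  have hπ₀₂ : algebraMap B₁ B₂ (algebraMap BM B₁ π₀) =
      algebraMap (↥(A.comap ι))[X] B₂ (C ((q : ℕ) : ↥(A.comap ι))) := by
    apply hinj₂
    rw [hβ, hπ₀₁, NodeBranch.algebraMap_pi (A.comap ι) M q halg₁ B₁,
      NodeBranch.algebraMap_pi (A.comap ι) (M * q) q halg₂ B₂, AlgHom.commutes]
  -- the two vertical primes of level `M q`
  set 𝔭₁ : Ideal B₁ := NodeBranch.branch₁ (A.comap ι) M q halg₁ B₁ with h𝔭₁def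
  set 𝔭₂ : Ideal B₁ := NodeBranch.branch₂ (A.comap ι) M q halg₁ B₁ hq w hwα with h𝔭₂def
  -- the point of level `M q`
  set ν : Ideal B₁ := 𝔫.comap (algebraMap B₁ B₂) with hνdef
  haveI hνmax : ν.IsMaximal :=
    BetaHom.betaHom_comap_isMaximal (A.comap ι) (M * q) q halg₁ B₁ halg₂ B₂ ι hq 𝔫
  have hπν : algebraMap BM B₁ π₀ ∈ ν := by
    show algebraMap B₁ B₂ (algebraMap BM B₁ π₀) ∈ 𝔫
    rw [hπ₀₂]
    exact hπ𝔫
  have hπ0 : algebraMap BM B₁ π₀ ≠ 0 := by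
    rw [hπ₀₁]
    exact NodeBranch.pi_ne_zero (A.comap ι) M q halg₁ B₁ hirr
  have hqπ : algebraMap BM B₁ π₀ ∣ (q : B₁) := by
    rw [hπ₀₁, map_natCast, map_natCast]
  have hπ₁ : algebraMap BM B₁ π₀ ∈ 𝔭₁ := by
    rw [hπ₀₁]
    exact NodeBranch.pi_mem_branch₁ (A.comap ι) M q halg₁ B₁ hirr
  have hπ₂ : algebraMap BM B₁ π₀ ∈ 𝔭₂ := by
    rw [hπ₀₁]
    exact NodeBranch.pi_mem_branch₂ (A.comap ι) M q halg₁ B₁ hq w hwα hirr
  have hS1 : 𝔭₁ ⊓ 𝔭₂ ≤ Ideal.span {algebraMap BM B₁ π₀} := by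
    rw [hπ₀₁]
    exact (NodeBranch.branch_inf (A.comap ι) M q halg₁ B₁ hq w hwα ι hqM hirr hwβ).le
  have hν₁ : ¬ 𝔭₁ ≤ ν := by
    intro hle
    apply hII
    intro b hb
    exact hle ((NodeBranch.mem_branch₁ (A.comap ι) M q halg₁ B₁ b).mpr hb)
  have hν₂ : 𝔭₂ ≤ ν := by
    have h3 : 𝔭₁ * 𝔭₂ ≤ ν :=
      (Ideal.mul_le_inf.trans hS1).trans ((Ideal.span_singleton_le_iff_mem _).2 hπν)
    rcases (hνmax.isPrime.mul_le).1 h3 with h | h
    · exact absurd h hν₁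
    · exact h
  have hne' : ¬ ν ≤ 𝔭₂ := hne ν hνmax
  haveI halgc : IsAlgClosed (IsLocalRing.ResidueField ↥(A.comap ι)) := hlev.2.2.2.1
  haveI hinf : Infinite (BM ⧸ ν.comap (algebraMap BM B₁)) :=
    OrdFacts0.infinite_quot_comap (A.comap ι) M q halgM BM halg₁ B₁ rfl hirr ν hπν
  have hres : ∀ ν' : Ideal B₁, ν'.IsMaximal → algebraMap BM B₁ π₀ ∈ ν' →
      ∀ b : B₁, ∃ c : BM, b - algebraMap BM B₁ c ∈ ν' := fun ν' hν' hπν' b =>
    OrdFacts0.hres (A.comap ι) M q halgM BM halg₁ B₁ rfl hirr ν' hν' hπν' b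
  have hdich : ∀ (ν' : Ideal B₁) [ν'.IsMaximal], algebraMap BM B₁ π₀ ∈ ν' →
      (∃ u ∈ ν', maximalIdeal (Localization.AtPrime ν') =
        Ideal.span {algebraMap B₁ (Localization.AtPrime ν') (algebraMap BM B₁ π₀),
          algebraMap B₁ (Localization.AtPrime ν') u}) ∨
      (∃ X ∈ ν', ∃ Y ∈ ν', algebraMap BM B₁ π₀ ∣ X * Y ∧
        maximalIdeal (Localization.AtPrime ν') =
        Ideal.span {algebraMap B₁ (Localization.AtPrime ν') (algebraMap BM B₁ π₀),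
          algebraMap B₁ (Localization.AtPrime ν') X,
          algebraMap B₁ (Localization.AtPrime ν') Y}) := by
    intro ν' hν' hπν'
    rw [hπ₀₁] at hπν' ⊢
    exact FrobLevel.finite_dich_frob A ι M q hq hqM S hlev hstab _ hirr halg₁ B₁ ν' hπν'
      (Localization.AtPrime ν')
  have huniq₂' : ∀ ν' : Ideal B₁, ν'.IsPrime → 𝔭₂ ≤ ν' →
      ν'.comap (algebraMap BM B₁) = ν.comap (algebraMap BM B₁) → ν' = ν :=
    fun ν' hν' h2 hc => huniq₂ ν ν' hνmax hν' hν₂ h2 hc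
  have h𝔭₁' : 𝔭₁.comap (algebraMap BM B₁) ≤ ν.comap (algebraMap BM B₁) :=
    h𝔭₁ ν hνmax (hπ₀₁ ▸ hπν)
  have hK' : ∀ c : BM, ∃ b : B₁, algebraMap BM B₁ c - b ^ q ∈ 𝔭₂ := hK
  -- field-level instances (`FF L M → FF L (M q)` along `α`)
  letI iK : Algebra (FF L M) (FF L (M * q)) := algebraAlong (heckeAlphaBar L M q)
  haveI tK : IsScalarTower L (FF L M) (FF L (M * q)) :=
    isScalarTower_along (heckeAlphaBar L M q)
  obtain ⟨hfinK, hrank⟩ := DegreeL.finrank_alpha_of_bar L ι M q hq hqM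
  haveI : FiniteDimensional (FF L M) (FF L (M * q)) := hfinK
  haveI : CharZero L := algebraRat.charZero L
  haveI : CharZero (FF L M) :=
    charZero_of_injective_algebraMap (algebraMap L (FF L M)).injective
  haveI : Algebra.IsSeparable (FF L M) (FF L (M * q)) := inferInstance
  letI iBMY : Algebra BM (FF L (M * q)) :=
    ((algebraMap (FF L M) (FF L (M * q))).comp (algebraMap BM (FF L M))).toAlgebra
  haveI : IsScalarTower BM (FF L M) (FF L (M * q)) :=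
    IsScalarTower.of_algebraMap_eq (fun _ => rfl)
  haveI : IsScalarTower BM B₁ (FF L (M * q)) :=
    IsScalarTower.of_algebraMap_eq (fun a => (hα a).symm)
  haveI : IsNoetherianRing BM := KLocInst.isNoetherianRing_fin (A.comap ι) M halgM BM
  haveI : IsFractionRing BM (FF L M) := KLocInst.isFractionRing_fin (A.comap ι) M halgM BM
  haveI : IsIntegrallyClosed BM := KLocInst.isIntegrallyClosed_fin (A.comap ι) M halgM BM
  haveI hintα : Algebra.IsIntegral BM B₁ := Algebra.IsIntegral.of_finite BM B₁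
  have hdeg : ∀ h : B₁, (∃ s : BM, s ∉ ν.comap (algebraMap BM B₁) ∧
      ∀ b : B₁, s • b ∈ Algebra.adjoin BM {h}) → (minpoly BM h).natDegree = q + 1 := by
    rintro h ⟨s, hs, hsb⟩
    have hs0 : s ≠ 0 := fun h0 => hs (h0 ▸ Ideal.zero_mem _)
    rw [OrdEuler.natDegree_minpoly_eq_finrank (K₀ := FF L M) (K₁ := FF L (M * q)) h
      (Algebra.IsIntegral.isIntegral h) ⟨s, hs0, hsb⟩, hrank]
  obtain ⟨θ, hθ⟩ : ∃ θ : B₁, algebraMap B₁ (FF L (M * q)) θ =
      heckeBetaBar L M q (S24.jBC L M) := by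
    refine ⟨BetaHom.betaHom (A.comap ι) M q halgM BM halg₁ B₁ hq
      (algebraMap (↥(A.comap ι))[X] BM X), ?_⟩
    rw [BetaHom.betaHom_spec, ← IsScalarTower.algebraMap_apply, halgM, evF_X]
  have hunr : ∃ u : (↥(A.comap ι))ˣ,
      ((q : ℕ) : ↥(A.comap ι)) = ((q : ℕ) : ↥(A.comap ι)) * u := ⟨1, by simp⟩
  have hθgen : Algebra.adjoin (FF L M) {algebraMap B₁ (FF L (M * q)) θ} = ⊤ := by
    rw [hθ]
    exact BetaGen.adjoin_beta_j_eq_top (A.comap ι) M q hq hqM ι hirr hunr w hwα hwβ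
      (fun _ => rfl)
  set Δ : B₁ := aeval θ (derivative (minpoly BM θ)) with hΔdef
  obtain ⟨hΔ₂, hΔ'⟩ := ThetaChart.theta_chart (A.comap ι) M q halg₁ B₁ hq hqM ι hirr hunr w
    hwα hwβ (fun _ => rfl)
    (BetaGen.natDegree_minpoly_beta_j (A.comap ι) M q hq hqM ι hirr hunr w hwα hwβ
      (fun _ => rfl)) (R₀ := BM) θ hθ (Algebra.IsIntegral.isIntegral θ)
  have hΔ : ∀ x b : B₁, x * Δ = algebraMap BM B₁ π₀ * b → x ∉ 𝔭₂ → b ∉ 𝔭₂ := by
    intro x b hxb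
    rw [hπ₀₁] at hxb
    exact hΔ' x b hxb
  have hEuler : ∀ h : B₁, (∃ s : BM, s ∉ ν.comap (algebraMap BM B₁) ∧
      ∀ b : B₁, s • b ∈ Algebra.adjoin BM {h}) →
      ∃ s : BM, s ∉ ν.comap (algebraMap BM B₁) ∧
        aeval h (derivative (minpoly BM h)) ∣ algebraMap BM B₁ s * Δ := by
    intro h hgen
    exact OrdEuler.euler_dvd_chart (K₀ := FF L M) (K₁ := FF L (M * q))
      (ν.comap (algebraMap BM B₁)) h θ (Algebra.IsIntegral.isIntegral h)
      (Algebra.IsIntegral.isIntegral θ) hgen hθgen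
  have hT3 : ∀ h : B₁, (∃ s : BM, s ∉ ν.comap (algebraMap BM B₁) ∧
      ∀ b : B₁, s • b ∈ Algebra.adjoin BM {h}) →
      ∀ 𝔥 ∈ (Ideal.span {aeval h (derivative (minpoly BM h))} : Ideal B₁).minimalPrimes,
        𝔥 ≤ ν → algebraMap BM B₁ π₀ ∈ 𝔥 := by
    intro h hgen 𝔥 h𝔥 h𝔥ν
    by_contra hπ𝔥
    haveI : 𝔥.IsPrime := h𝔥.1.1
    have hL : ∀ c : L, ∃ (k : ℕ) (r₀ : BM),
        algebraMap BM (FF L M) π₀ ^ k * algebraMap L (FF L M) c = algebraMap BM (FF L M) r₀ := by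
      intro c
      have h1 := HorizUnramInst.hL_of_chart (A.comap ι) M halgM (BM := BM) (R0 := BM)
        ((q : ℕ) : ↥(A.comap ι)) hirr c
      exact h1
    have hjK : algebraMap BM (FF L (M * q)) (algebraMap (↥(A.comap ι))[X] BM X) =
        S24.jBC L (M * q) := by
      show heckeAlphaBar L M q (algebraMap BM (FF L M) (algebraMap (↥(A.comap ι))[X] BM X)) =
        S24.jBC L (M * q)
      rw [← IsScalarTower.algebraMap_apply, halgM, evF_X]
      exact CompInst.alpha_jBC M q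
    have hmle : (minpoly BM h).natDegree ≤ Module.finrank (FF L M) (FF L (M * q)) := by
      rw [hdeg h hgen, hrank]
    exact OrdT3.different_notMem_aux ι M (M * q) hr hr12 hrM (Dvd.dvd.mul_right hrM q)
      (CompInst.alpha_jBC M q) π₀ hL (algebraMap (↥(A.comap ι))[X] BM X) hjK
      (ν.comap (algebraMap BM B₁)) h hgen (minpoly BM h)
      (minpoly.monic (Algebra.IsIntegral.isIntegral h)) hmle (minpoly.aeval BM h) 𝔥
      (Ideal.comap_mono h𝔥ν) hπ𝔥 (h𝔥.1.2 (Ideal.mem_span_singleton_self _))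
  obtain ⟨h, c, c', ν', u₀, hgen, hν', hne', hνeq, hν'eq, hm, hmdeg, hroot, hmax, hπp, hqπR,
      hx, hKR, hE, hT3R⟩ :=
    OrdGlue2.exists_ord_data q hq π₀ hπ0 hqπ 𝔭₁ 𝔭₂ hπ₁ hπ₂ hS1 ν hν₂ hν₁ hne' hres hdich
      huniq₂' h𝔭₁' hK' hdeg Δ hΔ₂ hΔ hEuler hT3
  -- level `M q²`
  haveI hPmax : (ν.comap (algebraMap BM B₁)).IsMaximal :=
    BetaHom.alphaHom_comap_isMaximal (A.comap ι) M q halgM BM halg₁ B₁ ν
  have hgen' : ∃ Q : (FF L M)[X], heckeBetaBar L M q (S24.jBC L M) =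
      Q.eval₂ (heckeAlphaBar L M q).toRingHom (algebraMap B₁ (FF L (M * q)) h) := by
    obtain ⟨s, hs, hsb⟩ := hgen
    have hs0 : algebraMap BM (FF L M) s ≠ 0 := by
      intro h0
      apply hs
      have : s = 0 := hinjM (by rw [h0, map_zero])
      rw [this]
      exact Ideal.zero_mem _
    rw [← hθ]
    exact OrdGlue.hgen_of_adjoin (heckeAlphaBar L M q).toRingHom (algebraMap BM (FF L M))
      (algebraMap B₁ (FF L (M * q))) hα h s hs0 θ (hsb θ)
  refine OrdGlue.ord_horPrincipal ι M q hq (w : FF L (M * q) →ₐ[L] FF L (M * q)) hwα hwβ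
    (algebraMap BM (FF L M)) (algebraMap B₁ (FF L (M * q))) hinj₁
    (algebraMap B₂ (FF L (M * q * q))) hinj₂ hα hβ
    (fun g => HorizFactInst.hfrac_of_isFractionRing g)
    (ν.comap (algebraMap BM B₁)) ν ν' hν' hne' h c c' hνeq hν'eq (minpoly BM h) hm hmdeg hroot
    hgen'
    (NodeOverInst.alphaHom (A.comap ι) (M * q) q halg₁ B₁ halg₂ B₂
      (BetaHom.wHom (A.comap ι) M q halg₁ B₁ hq w hwα h))
    (BetaHom.alphaHom_wHom_spec (A.comap ι) M q halg₁ B₁ halg₂ B₂ hq w hwα h)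
    (algebraMap BM B₁ π₀) u₀ hmax hπp hqπR hx hKR hE hT3R 𝔫 rfl 𝔮 h𝔮𝔫 ?_
  rw [hπ₀₂]
  exact hπ𝔮

end Fermat.Agent.S36.OrdK4Of
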