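import Mathlib
import Fermat.Agent.S36.FrobLevel
import Fermat.Agent.S36.NodeBranch
import Fermat.Agent.S34.BetaInt

/-!
# S36 (R-ord): the Kronecker congruence on the second branch of the chart of level `M q`

`BM`, `B` the finite charts of levels `M`, `M q` over `W = A ∩ L` at a Frobenius-stable level,
with the algebra structure `BM → B` induced by `α`; `𝔭₂ = ker (rd ∘ coe ∘ w)` the second branch.

* `hK` : `∀ c : BM, ∃ b : B, α c - b ^ q ∈ 𝔭₂` — the hypothesis `hK` of
  `OrdGlue2.exists_ord_data` / `OrdInst2.ord_inst2_of_facts`.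

Proof: `w (α c) = β c` has reduction `red (β c) = (red c') ^ q` for the Frobenius partner `c'` of
`c` (`FrobLevel.exists_frob_partner_of_frob`); `b` is the chart element of `β c'`, for which
`w b = α c'` has the reduction of `c'`.
-/

set_option autoImplicit false
set_option linter.unusedSectionVars false
set_option linter.style.haveILetI false

noncomputable section

namespace Fermat.Agent.S36.OrdKron

open Polynomial ModularCurve AlgebraicCurve Fermat.Agent.S18 Fermat.Agent.S18.Gauss
  Fermat.Agent.S34 Fermat.Agent.S37 IsLocalRing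

local notation "Qb" => AlgebraicClosure ℚ
local notation "FF" => Fermat.Agent.S24.FF

variable (A : ValuationSubring Qb) {L : Type} [Field L] [Algebra ℚ L] (ι : L →+* Qb)
  (M q : ℕ) [NeZero M] [NeZero q] [IsDiscreteValuationRing ↥(A.comap ι)]
  [CharP (IsLocalRing.ResidueField ↥(A.comap ι)) q]
  [Algebra (↥(A.comap ι))[X] (FF L M)]
  (halgM : algebraMap (↥(A.comap ι))[X] (FF L M) = evF (A.comap ι) M)
  (BM : Type*) [CommRing BM] [Algebra (↥(A.comap ι))[X] BM] [Algebra BM (FF L M)]
  [IsScalarTower (↥(A.comap ι))[X] BM (FF L M)]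
  [IsIntegralClosure BM (↥(A.comap ι))[X] (FF L M)]
  [Algebra (↥(A.comap ι))[X] (FF L (M * q))]
  (halg : algebraMap (↥(A.comap ι))[X] (FF L (M * q)) = evF (A.comap ι) (M * q))
  (B : Type*) [CommRing B] [Algebra (↥(A.comap ι))[X] B] [Algebra B (FF L (M * q))]
  [IsScalarTower (↥(A.comap ι))[X] B (FF L (M * q))]
  [IsIntegralClosure B (↥(A.comap ι))[X] (FF L (M * q))]
  [Algebra BM B]
  (hα : algebraMap BM B = NodeOverInst.alphaHom (A.comap ι) M q halgM BM halg B)

include hα in
/-- **(hK) The Kronecker congruence on the second branch.** -/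
theorem hK (hq : q.Prime) (hstab : FrobLevel.FrobStable A q ι)
    (w : FF L (M * q) ≃ₐ[L] FF L (M * q))
    (hwα : (w : FF L (M * q) →ₐ[L] FF L (M * q)).comp (heckeAlphaBar L M q) =
      heckeBetaBar L M q)
    (hwβ : (w : FF L (M * q) →ₐ[L] FF L (M * q)).comp (heckeBetaBar L M q) =
      heckeAlphaBar L M q) :
    ∀ c : BM, ∃ b : B, algebraMap BM B c - b ^ q ∈
      NodeBranch.branch₂ (A.comap ι) M q halg B hq w hwα := by
  intro c
  haveI : Fact q.Prime := ⟨hq⟩
  set y : FF L M := algebraMap BM (FF L M) c with hydef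
  have hy : (evF (A.comap ι) M).IsIntegralElem y :=
    CompInst.isIntegralElem_algebraMap (A.comap ι) M halgM BM c
  obtain ⟨y', hy', h1, h2, hred⟩ := FrobLevel.exists_frob_partner_of_frob A ι q M hstab y hy
  have hβy' : (evF (A.comap ι) (M * q)).IsIntegralElem (heckeBetaBar L M q y') :=
    BetaInt.isIntegralElem_beta (A.comap ι) M q hq hy'
  obtain ⟨b, hb⟩ := CompInst.exists_algebraMap_eq (A.comap ι) (M * q) halg B hβy'
  refine ⟨b, ?_⟩
  have e1 : algebraMap B (FF L (M * q)) (algebraMap BM B c) = heckeAlphaBar L M q y := by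
    rw [hα]
    exact NodeOverInst.alphaHom_spec (A.comap ι) M q halgM BM halg B c
  have e2 : w (heckeAlphaBar L M q y) = heckeBetaBar L M q y :=
    congrArg (fun f : FF L M →ₐ[L] FF L (M * q) => f y) hwα
  have e3 : w (heckeBetaBar L M q y') = heckeAlphaBar L M q y' :=
    congrArg (fun f : FF L M →ₐ[L] FF L (M * q) => f y') hwβ
  have key : w (algebraMap B (FF L (M * q)) (algebraMap BM B c - b ^ q)) =
      heckeBetaBar L M q y - heckeAlphaBar L M q y' ^ q := by
    rw [map_sub, map_pow, map_sub, map_pow, e1, hb, e2, e3]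
  rw [NodeBranch.mem_branch₂]
  -- the expansion
  have hc : ((w (algebraMap B (FF L (M * q)) (algebraMap BM B c - b ^ q)) : FF L (M * q)) :
      LaurentSeries L) = ((heckeBetaBar L M q y : FF L (M * q)) : LaurentSeries L) -
        ((y' : FF L M) : LaurentSeries L) ^ q := by
    rw [key, AddSubgroupClass.coe_sub, SubmonoidClass.coe_pow, coe_heckeAlphaBar]
  rw [hc, TwoGauss.rd_sub (A.comap ι) h1 (Subring.pow_mem _ h2 q),
    TwoGauss.rd_pow (A.comap ι) h2 q, TwoGauss.rd_of_mem (A.comap ι) h1,
    TwoGauss.rd_of_mem (A.comap ι) h2, hred, sub_self]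

end Fermat.Agent.S36.OrdKron
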