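import Mathlib
import Fermat.Agent.S36.NodeOverInst
import Fermat.Agent.S36.NodeBranch
import Fermat.Agent.S36.FrobLevel

/-!
# S36 (R-ord): uniqueness of the point of the second branch over its image (`huniq₂`)

`BM`, `B` the finite charts of levels `M`, `M q` (`BM → B` inducing `α`), `𝔭₂ = ker (rd ∘ coe ∘ w)`
the second branch of the special fibre of `B`.

* `eq_of_comap_eq_of_pow` (Mathlib-only): if every `b ∈ B` has `b ^ q ≡ α c` mod `𝔭` for some
  `c ∈ BM`, then two primes of `B` containing `𝔭` with the same contraction to `BM` are equal.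
* `exists_pow_sub_mem_chart` : `∀ b : B, ∃ c : BM, b ^ q - α c ∈ 𝔭₂` from the raw inputs of
  `NodeOverInst.node_mono_chart` (the reduction of `w b` lies in the function field of level `M`
  (F1), and `red (β y) = red (ς y) ^ q` for a ring endomorphism `ς` of the chart of level `M`
  onto it (Kronecker)).
* `exists_pow_sub_mem_level`, `huniq₂_level` : at a Frobenius-stable level; `huniq₂_level` is
  the hypothesis `huniq₂` of `OrdInst2.ord_inst2_of_facts` / `OrdGlue2.exists_ord_data`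
  (with `𝔭₂` any ideal with the elementwise description of `NodeBranch.mem_branch₂`).
-/

set_option autoImplicit false
set_option linter.unusedSectionVars false
set_option linter.style.haveILetI false
set_option linter.unusedVariables false

noncomputable section

namespace Fermat.Agent.S36.OrdUniq

open Polynomial ModularCurve Fermat.Agent.S18 Fermat.Agent.S18.Gauss Fermat.Agent.S37
  IsLocalRing Fermat.Agent.S34

local notation "Qb" => AlgebraicClosure ℚ

/-! ### The abstract statement -/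

/-- Two primes containing `𝔭` with the same contraction are equal, if `q`-th powers are
congruent to elements of the base modulo `𝔭`. -/
theorem eq_of_comap_eq_of_pow {B' B : Type*} [CommRing B'] [CommRing B] [Algebra B' B]
    (q : ℕ) (hq : 0 < q) (𝔭 : Ideal B)
    (hpow : ∀ b : B, ∃ c : B', b ^ q - algebraMap B' B c ∈ 𝔭)
    (ν : Ideal B) [hν : ν.IsPrime] (hν₂ : 𝔭 ≤ ν) (ν' : Ideal B) [hν' : ν'.IsPrime]
    (hν'₂ : 𝔭 ≤ ν') (h : ν'.comap (algebraMap B' B) = ν.comap (algebraMap B' B)) : ν' = ν := by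
  have hiff : ∀ c : B', algebraMap B' B c ∈ ν' ↔ algebraMap B' B c ∈ ν := fun c => by
    rw [← Ideal.mem_comap, ← Ideal.mem_comap, h]
  have key : ∀ (I : Ideal B) (x y : B), x - y ∈ I → (x ∈ I ↔ y ∈ I) := by
    intro I x y hxy
    constructor
    · intro hx
      have := Ideal.sub_mem _ hx hxy
      rwa [sub_sub_cancel] at this
    · intro hy
      have := Ideal.add_mem _ hxy hy
      rwa [sub_add_cancel] at this
  ext b
  obtain ⟨c, hc⟩ := hpow b
  have e1 : ∀ (I : Ideal B) [I.IsPrime], b ∈ I ↔ b ^ q ∈ I := fun I hI =>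
    ⟨fun hb => Ideal.pow_mem_of_mem _ hb _ hq, fun hb => hI.mem_of_pow_mem _ hb⟩
  rw [e1 ν', e1 ν, key ν' _ _ (hν'₂ hc), key ν _ _ (hν₂ hc), hiff]

/-! ### The chart statement, raw inputs -/

section Chart

variable (M q : ℕ) [NeZero M] [NeZero q] {L : Type} [Field L] [Algebra ℚ L] (ι : L →+* Qb)
  (W : ValuationSubring L) [IsDiscreteValuationRing ↥W]
  [IsAlgClosed (IsLocalRing.ResidueField ↥W)] [CharP (IsLocalRing.ResidueField ↥W) q]

/-- **`q`-th powers of the chart of level `M q` are congruent to elements of the chart of level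
`M` modulo the second branch** (raw inputs of `NodeOverInst.node_mono_chart`). -/
theorem exists_pow_sub_mem_chart (hq : q.Prime) (hqM : ¬ q ∣ M)
    (hroots : ∀ x : Qb, (∃ n : ℕ, ¬ q ∣ n ∧ x ^ n = 1) → ∃ b : L, ι b = x)
    (w : Fermat.Agent.S24.FF L (M * q) ≃ₐ[L] Fermat.Agent.S24.FF L (M * q))
    (hwα : (w : Fermat.Agent.S24.FF L (M * q) →ₐ[L] Fermat.Agent.S24.FF L (M * q)).comp
      (heckeAlphaBar L M q) = heckeBetaBar L M q)
    (hF1 : ∀ (x : Fermat.Agent.S24.FF L (M * q)) (hx : (x : LaurentSeries L) ∈ contentRing W),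
      red W ⟨x, hx⟩ ∈ modularFunctionFieldFullC (IsLocalRing.ResidueField ↥W) M)
    (ς : Fermat.Agent.S24.FF L M →+* Fermat.Agent.S24.FF L M)
    (hςsurj : ∀ y : Fermat.Agent.S24.FF L M, (evF W M).IsIntegralElem y →
      ∃ y' : Fermat.Agent.S24.FF L M, (evF W M).IsIntegralElem y' ∧ ς y' = y)
    (hςK : ∀ b : Fermat.Agent.S24.FF L M, (evF W M).IsIntegralElem b →
      ∀ (h1 : ((heckeBetaBar L M q b : Fermat.Agent.S24.FF L (M * q)) : LaurentSeries L) ∈
          contentRing W) (h2 : ((ς b : Fermat.Agent.S24.FF L M) : LaurentSeries L) ∈ contentRing W),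
        red W ⟨_, h1⟩ = red W ⟨_, h2⟩ ^ q)
    [Algebra (↥W)[X] (Fermat.Agent.S24.FF L M)]
    (halgM : algebraMap (↥W)[X] (Fermat.Agent.S24.FF L M) = evF W M)
    (BM : Type) [CommRing BM] [Algebra (↥W)[X] BM] [Algebra BM (Fermat.Agent.S24.FF L M)]
    [IsScalarTower (↥W)[X] BM (Fermat.Agent.S24.FF L M)]
    [IsIntegralClosure BM (↥W)[X] (Fermat.Agent.S24.FF L M)]
    [Algebra (↥W)[X] (Fermat.Agent.S24.FF L (M * q))]
    (halg : algebraMap (↥W)[X] (Fermat.Agent.S24.FF L (M * q)) = evF W (M * q))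
    (B : Type*) [CommRing B] [Algebra (↥W)[X] B] [Algebra B (Fermat.Agent.S24.FF L (M * q))]
    [IsScalarTower (↥W)[X] B (Fermat.Agent.S24.FF L (M * q))]
    [IsIntegralClosure B (↥W)[X] (Fermat.Agent.S24.FF L (M * q))]
    [Algebra BM B]
    (hα : ∀ c : BM, algebraMap B (Fermat.Agent.S24.FF L (M * q)) (algebraMap BM B c) =
      heckeAlphaBar L M q (algebraMap BM (Fermat.Agent.S24.FF L M) c))
    (b : B) :
    ∃ c : BM, TwoGauss.rd W ((w (algebraMap B (Fermat.Agent.S24.FF L (M * q))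
      (b ^ q - algebraMap BM B c)) : Fermat.Agent.S24.FF L (M * q)) : LaurentSeries L) = 0 := by
  classical
  haveI : Fact q.Prime := ⟨hq⟩
  have hBint := CompInst.isIntegralElem_algebraMap W (M * q) halg B
  have hwα' : ∀ y, w (heckeAlphaBar L M q y) = heckeBetaBar L M q y := fun y =>
    congrArg (fun f => f y) hwα
  have red_congr : ∀ (f g : LaurentSeries L) (hf : f ∈ contentRing W) (hg : g ∈ contentRing W),
      f = g → red W ⟨f, hf⟩ = red W ⟨g, hg⟩ := by
    intro f g hf hg h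
    subst h
    rfl
  -- the reduction of `w b` comes from level `M`
  have hxI : (evF W (M * q)).IsIntegralElem
      (w (algebraMap B (Fermat.Agent.S24.FF L (M * q)) b)) :=
    CompInst.isIntegralElem_atkin W M q hq w hwα (hBint b)
  have hxW : ((w (algebraMap B (Fermat.Agent.S24.FF L (M * q)) b) :
      Fermat.Agent.S24.FF L (M * q)) : LaurentSeries L) ∈ contentRing W :=
    FrobPartner.mem_contentRing_of_int W (M * q) hxI
  have hint := CompInst.redJ_isIntegralElem W (M * q) hxI hxW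
  obtain ⟨x', hx'I, hx'W, hx'⟩ :=
    BaseLift.exists_int_of_mem_fullC M ι W hq hqM hroots (hF1 _ hxW) hint
  obtain ⟨y', hy'I, hy'⟩ := hςsurj x' hx'I
  obtain ⟨c, hc⟩ := CompInst.exists_algebraMap_eq W M halgM BM hy'I
  refine ⟨c, ?_⟩
  -- the two terms
  have hβW : ((heckeBetaBar L M q y' : Fermat.Agent.S24.FF L (M * q)) : LaurentSeries L) ∈
      contentRing W :=
    FrobPartner.mem_contentRing_of_int W (M * q) (BetaInt.isIntegralElem_beta W M q hq hy'I)
  have hςW : ((ς y' : Fermat.Agent.S24.FF L M) : LaurentSeries L) ∈ contentRing W := by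
    rw [hy']; exact hx'W
  have e1 : w (algebraMap B (Fermat.Agent.S24.FF L (M * q)) (b ^ q - algebraMap BM B c)) =
      w (algebraMap B (Fermat.Agent.S24.FF L (M * q)) b) ^ q - heckeBetaBar L M q y' := by
    rw [map_sub, map_pow, map_sub, map_pow, hα, hwα', hc]
  have hpowW : ((w (algebraMap B (Fermat.Agent.S24.FF L (M * q)) b) :
      Fermat.Agent.S24.FF L (M * q)) : LaurentSeries L) ^ q ∈ contentRing W :=
    Subring.pow_mem _ hxW q
  have e2 : ((w (algebraMap B (Fermat.Agent.S24.FF L (M * q)) b) ^ q - heckeBetaBar L M q y' :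
      Fermat.Agent.S24.FF L (M * q)) : LaurentSeries L) =
      ((w (algebraMap B (Fermat.Agent.S24.FF L (M * q)) b) :
        Fermat.Agent.S24.FF L (M * q)) : LaurentSeries L) ^ q -
      ((heckeBetaBar L M q y' : Fermat.Agent.S24.FF L (M * q)) : LaurentSeries L) := rfl
  rw [e1, e2, TwoGauss.rd_of_mem W (Subring.sub_mem _ hpowW hβW)]
  have e3 : (⟨((w (algebraMap B (Fermat.Agent.S24.FF L (M * q)) b) :
        Fermat.Agent.S24.FF L (M * q)) : LaurentSeries L) ^ q -
      ((heckeBetaBar L M q y' : Fermat.Agent.S24.FF L (M * q)) : LaurentSeries L),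
      Subring.sub_mem _ hpowW hβW⟩ : contentRing W) =
      (⟨_, hxW⟩ : contentRing W) ^ q - ⟨_, hβW⟩ := rfl
  rw [e3, map_sub, map_pow, hςK y' hy'I hβW hςW, ← hx', red_congr _ _ hςW hx'W (by rw [hy']),
    sub_self]

end Chart

/-! ### At a Frobenius-stable level -/

section Level

variable (A : ValuationSubring Qb) {L : Type} [Field L] [Algebra ℚ L] (ι : L →+* Qb)
  (M q : ℕ) [NeZero M] [NeZero q]

/-- **`q`-th powers modulo the second branch, at a Frobenius-stable level**: for every `b` of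
the finite chart of level `M q` there is `c` in the finite chart of level `M` with
`rd (coe (w (b ^ q - α c))) = 0`. -/
theorem exists_pow_sub_mem_level (hq : q.Prime) (hqM : ¬ q ∣ M) (S : Finset Qb)
    (hlev : Fermat.Agent.S37.LevelChange.IsLevel A q S ι)
    (hstab : Fermat.Agent.S36.FrobLevel.FrobStable A q ι)
    (w : Fermat.Agent.S24.FF L (M * q) ≃ₐ[L] Fermat.Agent.S24.FF L (M * q))
    (hwα : (w : Fermat.Agent.S24.FF L (M * q) →ₐ[L] Fermat.Agent.S24.FF L (M * q)).comp
      (heckeAlphaBar L M q) = heckeBetaBar L M q)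
    [Algebra (↥(A.comap ι))[X] (Fermat.Agent.S24.FF L M)]
    (halgM : algebraMap (↥(A.comap ι))[X] (Fermat.Agent.S24.FF L M) = evF (A.comap ι) M)
    (BM : Type) [CommRing BM] [Algebra (↥(A.comap ι))[X] BM]
    [Algebra BM (Fermat.Agent.S24.FF L M)]
    [IsScalarTower (↥(A.comap ι))[X] BM (Fermat.Agent.S24.FF L M)]
    [IsIntegralClosure BM (↥(A.comap ι))[X] (Fermat.Agent.S24.FF L M)]
    [Algebra (↥(A.comap ι))[X] (Fermat.Agent.S24.FF L (M * q))]
    (halg : algebraMap (↥(A.comap ι))[X] (Fermat.Agent.S24.FF L (M * q)) =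
      evF (A.comap ι) (M * q))
    (B : Type*) [CommRing B] [Algebra (↥(A.comap ι))[X] B]
    [Algebra B (Fermat.Agent.S24.FF L (M * q))]
    [IsScalarTower (↥(A.comap ι))[X] B (Fermat.Agent.S24.FF L (M * q))]
    [IsIntegralClosure B (↥(A.comap ι))[X] (Fermat.Agent.S24.FF L (M * q))]
    [Algebra BM B]
    (hα : ∀ c : BM, algebraMap B (Fermat.Agent.S24.FF L (M * q)) (algebraMap BM B c) =
      heckeAlphaBar L M q (algebraMap BM (Fermat.Agent.S24.FF L M) c))
    (b : B) :
    ∃ c : BM, TwoGauss.rd (A.comap ι) ((w (algebraMap B (Fermat.Agent.S24.FF L (M * q))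
      (b ^ q - algebraMap BM B c)) : Fermat.Agent.S24.FF L (M * q)) : LaurentSeries L) = 0 := by
  obtain ⟨-, hroots, hdvr, halgc, -, hchar, -, -⟩ := hlev
  haveI := hdvr
  haveI := halgc
  haveI := hchar
  haveI : Fact q.Prime := ⟨hq⟩
  obtain ⟨σ, hσ, s, hs⟩ := hstab
  refine exists_pow_sub_mem_chart M q ι (A.comap ι) hq hqM hroots w hwα
    (fun x hx => FinDichLevel.f1_level ι (A.comap ι) M q hq hqM x hx)
    (FrobPartner.frobHom s M)
    (fun y hy => ⟨CoeffAut.act M s y, CoeffAut.isIntegralElem_evF_act (A.comap ι) M s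
      (GalLevel.mem_comap_iff_of_mem_decomposition A ι s hs hσ.mem_decompositionSubgroup) hy,
      ?_⟩)
    (fun b hb h1 h2 => FrobPartner.red_beta_eq_frobHom_pow A ι s hs q M hσ
      (FrobPartner.mem_contentRing_of_int (A.comap ι) M hb) h1 h2)
    halgM BM halg B hα b
  rw [FrobPartner.frobHom_apply, ← CoeffAut.act_symm_apply, RingEquiv.symm_apply_apply]

/-- **`huniq₂` at a Frobenius-stable level**: two primes of the finite chart of level `M q`
containing the second branch `𝔭₂ = {b | rd (coe (w b)) = 0}` with the same contraction to the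
finite chart of level `M` are equal.  (Literally the hypothesis `huniq₂` of
`OrdInst2.ord_inst2_of_facts`; for `𝔭₂ := NodeBranch.branch₂ …` take
`h𝔭₂ := NodeBranch.mem_branch₂ …`.) -/
theorem huniq₂_level (hq : q.Prime) (hqM : ¬ q ∣ M) (S : Finset Qb)
    (hlev : Fermat.Agent.S37.LevelChange.IsLevel A q S ι)
    (hstab : Fermat.Agent.S36.FrobLevel.FrobStable A q ι)
    (w : Fermat.Agent.S24.FF L (M * q) ≃ₐ[L] Fermat.Agent.S24.FF L (M * q))
    (hwα : (w : Fermat.Agent.S24.FF L (M * q) →ₐ[L] Fermat.Agent.S24.FF L (M * q)).comp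
      (heckeAlphaBar L M q) = heckeBetaBar L M q)
    [Algebra (↥(A.comap ι))[X] (Fermat.Agent.S24.FF L M)]
    (halgM : algebraMap (↥(A.comap ι))[X] (Fermat.Agent.S24.FF L M) = evF (A.comap ι) M)
    (BM : Type) [CommRing BM] [Algebra (↥(A.comap ι))[X] BM]
    [Algebra BM (Fermat.Agent.S24.FF L M)]
    [IsScalarTower (↥(A.comap ι))[X] BM (Fermat.Agent.S24.FF L M)]
    [IsIntegralClosure BM (↥(A.comap ι))[X] (Fermat.Agent.S24.FF L M)]
    [Algebra (↥(A.comap ι))[X] (Fermat.Agent.S24.FF L (M * q))]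
    (halg : algebraMap (↥(A.comap ι))[X] (Fermat.Agent.S24.FF L (M * q)) =
      evF (A.comap ι) (M * q))
    (B : Type*) [CommRing B] [Algebra (↥(A.comap ι))[X] B]
    [Algebra B (Fermat.Agent.S24.FF L (M * q))]
    [IsScalarTower (↥(A.comap ι))[X] B (Fermat.Agent.S24.FF L (M * q))]
    [IsIntegralClosure B (↥(A.comap ι))[X] (Fermat.Agent.S24.FF L (M * q))]
    [Algebra BM B]
    (hα : ∀ c : BM, algebraMap B (Fermat.Agent.S24.FF L (M * q)) (algebraMap BM B c) =
      heckeAlphaBar L M q (algebraMap BM (Fermat.Agent.S24.FF L M) c))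
    (𝔭₂ : Ideal B)
    (h𝔭₂ : ∀ b : B, b ∈ 𝔭₂ ↔ TwoGauss.rd (A.comap ι)
      ((w (algebraMap B (Fermat.Agent.S24.FF L (M * q)) b) :
        Fermat.Agent.S24.FF L (M * q)) : LaurentSeries L) = 0)
    (ν : Ideal B) [ν.IsPrime] (hν₂ : 𝔭₂ ≤ ν) :
    ∀ ν' : Ideal B, ν'.IsPrime → 𝔭₂ ≤ ν' →
      ν'.comap (algebraMap BM B) = ν.comap (algebraMap BM B) → ν' = ν := by
  intro ν' hν' hν'₂ h
  haveI := hν'
  refine eq_of_comap_eq_of_pow q hq.pos 𝔭₂ (fun b => ?_) ν hν₂ ν' hν'₂ h
  obtain ⟨c, hc⟩ := exists_pow_sub_mem_level A ι M q hq hqM S hlev hstab w hwα halgM BM halg B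
    hα b
  exact ⟨c, (h𝔭₂ _).mpr hc⟩

end Level

end Fermat.Agent.S36.OrdUniq
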