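import Mathlib
import Fermat.Agent.S36.OrdK4Of
import Fermat.Agent.S36.OrdFacts2
import Fermat.Agent.S36.OrdUniq
import Fermat.Agent.S36.OrdKron

/-!
# S36 (R-ord), clause (II) of K4 on the finite chart of level `M q²`

`𝔫` a maximal ideal of the chart `B₂` of level `M q²` over `q`, `ν = β₂⁻¹ 𝔫` its contraction to
the chart `B₁` of level `M q` along the second degeneracy map.  If `ν` does not contain the first
vertical prime `𝔭₁ = ker (rd ∘ coe)` of `B₁`, then every horizontal prime of `B₂` through `𝔫` is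
locally principal (contract K4): `ord_k4`, at every Frobenius-stable unramified level, for any
S34-style carriers `BM`, `B₁`, `B₂` of the finite charts of levels `M`, `M q`, `M q²`, `M`
divisible by an auxiliary prime `r ≡ 11 mod 12`.

Composition: `OrdK4Of.ord_k4_of_facts` with the four facts on the second vertical prime from
`OrdFacts2.hne`, `OrdFacts2.h𝔭₁`, `OrdUniq.huniq₂_level`, `OrdKron.hK`.
-/

set_option autoImplicit false
set_option linter.unusedSectionVars false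
set_option linter.unusedVariables false
set_option linter.style.haveILetI false

noncomputable section

namespace Fermat.Agent.S36.OrdK4

open Polynomial ModularCurve AlgebraicCurve Fermat.Agent.S18 Fermat.Agent.S18.Gauss
  Fermat.Agent.S34 Fermat.Agent.S37 IsLocalRing

local notation "Qb" => AlgebraicClosure ℚ
local notation "FF" => Fermat.Agent.S24.FF

variable (A : ValuationSubring Qb) {L : Type} [Field L] [Algebra ℚ L] (ι : L →+* Qb)
  (M q : ℕ) [NeZero M] [NeZero q]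

/-- **K4, clause (II)** (S34 carriers). -/
theorem ord_k4 (hq : q.Prime) (hqM : ¬ q ∣ M) {r : ℕ} (hr : r.Prime) (hr12 : r % 12 = 11)
    (hrM : r ∣ M) (S : Finset Qb)
    (hlev : LevelChange.IsLevel A q S ι)
    (hstab : FrobLevel.FrobStable A q ι)
    (hirr : Irreducible ((q : ℕ) : ↥(A.comap ι)))
    [Algebra (↥(A.comap ι))[X] (FF L M)]
    (halgM : algebraMap (↥(A.comap ι))[X] (FF L M) = evF (A.comap ι) M)
    (BM : Type) [CommRing BM] [Algebra (↥(A.comap ι))[X] BM] [Algebra BM (FF L M)]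
    [IsScalarTower (↥(A.comap ι))[X] BM (FF L M)]
    [IsIntegralClosure BM (↥(A.comap ι))[X] (FF L M)]
    [Algebra (↥(A.comap ι))[X] (FF L (M * q))]
    (halg₁ : algebraMap (↥(A.comap ι))[X] (FF L (M * q)) = evF (A.comap ι) (M * q))
    (B₁ : Type) [CommRing B₁] [Algebra (↥(A.comap ι))[X] B₁] [Algebra B₁ (FF L (M * q))]
    [IsScalarTower (↥(A.comap ι))[X] B₁ (FF L (M * q))]
    [IsIntegralClosure B₁ (↥(A.comap ι))[X] (FF L (M * q))]
    [Algebra (↥(A.comap ι))[X] (FF L (M * q * q))]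
    (halg₂ : algebraMap (↥(A.comap ι))[X] (FF L (M * q * q)) = evF (A.comap ι) (M * q * q))
    (B₂ : Type) [CommRing B₂] [Algebra (↥(A.comap ι))[X] B₂] [Algebra B₂ (FF L (M * q * q))]
    [IsScalarTower (↥(A.comap ι))[X] B₂ (FF L (M * q * q))]
    [IsIntegralClosure B₂ (↥(A.comap ι))[X] (FF L (M * q * q))]
    (𝔫 : Ideal B₂) [𝔫.IsMaximal]
    (hπ𝔫 : algebraMap (↥(A.comap ι))[X] B₂ (C ((q : ℕ) : ↥(A.comap ι))) ∈ 𝔫)
    (hII : ¬ ∀ b : B₁, TwoGauss.rd (A.comap ι)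
      ((algebraMap B₁ (FF L (M * q)) b : FF L (M * q)) : LaurentSeries L) = 0 →
        BetaHom.betaHom (A.comap ι) (M * q) q halg₁ B₁ halg₂ B₂ hq b ∈ 𝔫)
    (𝔮 : Ideal B₂) [𝔮.IsPrime] (h𝔮𝔫 : 𝔮 ≤ 𝔫)
    (hπ𝔮 : algebraMap (↥(A.comap ι))[X] B₂ (C ((q : ℕ) : ↥(A.comap ι))) ∉ 𝔮) :
    ∃ x ∈ 𝔮, ∃ d, d ∉ 𝔫 ∧ ∀ y ∈ 𝔮, x ∣ d * y := by
  haveI hdvr : IsDiscreteValuationRing ↥(A.comap ι) := hlev.2.2.1
  haveI hchar : CharP (IsLocalRing.ResidueField ↥(A.comap ι)) q := hlev.2.2.2.2.2.1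
  haveI halgc : IsAlgClosed (IsLocalRing.ResidueField ↥(A.comap ι)) := hlev.2.2.2.1
  obtain ⟨w, hwα, hwβ⟩ := FrobPartner.exists_atkinLehner_level ι M q hq hqM
  letI algα : Algebra BM B₁ := (NodeOverInst.alphaHom (A.comap ι) M q halgM BM halg₁ B₁).toAlgebra
  refine OrdK4Of.ord_k4_of_facts A ι M q hq hqM hr hr12 hrM S hlev hstab hirr w hwα hwβ halgM BM
    halg₁ B₁ halg₂ B₂ ?hne ?huniq ?hp1 ?hK 𝔫 hπ𝔫 hII 𝔮 h𝔮𝔫 hπ𝔮
  case hne =>
    intro ν hν
    haveI := hν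
    exact OrdFacts2.hne (A.comap ι) M q halg₁ B₁ hq w hwα hirr ν
  case huniq =>
    intro ν ν' hν hν' hν₂ hν'₂ hc
    haveI := hν.isPrime
    exact OrdUniq.huniq₂_level A ι M q hq hqM S hlev hstab w hwα halgM BM halg₁ B₁
      (NodeOverInst.alphaHom_spec (A.comap ι) M q halgM BM halg₁ B₁) _
      (NodeBranch.mem_branch₂ (A.comap ι) M q halg₁ B₁ hq w hwα) ν hν₂ ν' hν' hν'₂ hc
  case hp1 =>
    intro ν hν hπν
    haveI : Fact q.Prime := ⟨hq⟩
    refine OrdFacts2.h𝔭₁ (A.comap ι) M q halgM BM halg₁ B₁ rfl hqM hirr ν ?_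
    rw [OrdFacts0.algebraMap_algebraMap (A.comap ι) M q halgM BM halg₁ B₁ rfl]
    exact hπν
  case hK =>
    exact OrdKron.hK A ι M q halgM BM halg₁ B₁ rfl hq hstab w hwα hwβ

end Fermat.Agent.S36.OrdK4
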