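import Mathlib
import Fermat.Agent.S36.OrdK4
import Fermat.Agent.S36.RegFin36
import Fermat.Agent.S36.FrobPred
import Fermat.Agent.S34.BridgeChart

/-!
# S36 (R-ord): clause (II) of `RegFin36` on the literal chart rings

`clauseII` : `RegFin36.ClauseII (FrobPred.frobPred A q) M q hq A` for `M` divisible by an
auxiliary prime `r ≡ 11 mod 12`, `q ∤ M` — the instance of `OrdK4.ord_k4` at the literal chart
rings `ChartHom.B1 W N` (with the `W[X]`-algebra structures of `S34.BridgeChart`).
-/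

set_option autoImplicit false
set_option linter.style.haveILetI false
set_option linter.unusedSectionVars false
set_option linter.unusedVariables false
set_option synthInstance.maxHeartbeats 400000
set_option maxHeartbeats 1600000
set_option maxSynthPendingDepth 3

noncomputable section

namespace Fermat.Agent.S36.ClauseIIK4

open Polynomial ModularCurve Fermat.Agent.S18 Fermat.Agent.S18.Gauss Fermat.Agent.S34
  Fermat.Agent.S37 Fermat.Agent.S36.Core36P Fermat.Agent.S36.ChartHom

local notation "Qb" => AlgebraicClosure ℚ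

/-- **Clause (II)** of the assembly `RegFin36.reg36P₁_of_clauses`. -/
theorem clauseII (M q : ℕ) [NeZero M] [NeZero q] (hq : q.Prime) (hqM : ¬ q ∣ M) {r : ℕ}
    (hr : r.Prime) (hr12 : r % 12 = 11) (hrM : r ∣ M) (A : ValuationSubring Qb) :
    RegFin36.ClauseII (FrobPred.frobPred A q) M q hq A := by
  refine ⟨∅, fun a ha => absurd ha (Finset.notMem_empty a), ?_⟩
  intro L _ _ ι hlev hirr hstab 𝔫 h𝔫 hπ𝔫 hII 𝔮 h𝔮 h𝔮𝔫 hπ𝔮
  haveI := h𝔫
  haveI := h𝔮
  letI a0 := BridgeChart.algPoly (A.comap ι) M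
  letI c0 := BridgeChart.algChart₁ (A.comap ι) M
  haveI t0 := BridgeChart.isScalarTower_chart₁ (A.comap ι) M
  haveI i0 := BridgeChart.isIntegralClosure_chart₁ (A.comap ι) M
  letI a1 := BridgeChart.algPoly (A.comap ι) (M * q)
  letI c1 := BridgeChart.algChart₁ (A.comap ι) (M * q)
  haveI t1 := BridgeChart.isScalarTower_chart₁ (A.comap ι) (M * q)
  haveI i1 := BridgeChart.isIntegralClosure_chart₁ (A.comap ι) (M * q)
  letI a2 := BridgeChart.algPoly (A.comap ι) (M * q * q)
  letI c2 := BridgeChart.algChart₁ (A.comap ι) (M * q * q)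
  haveI t2 := BridgeChart.isScalarTower_chart₁ (A.comap ι) (M * q * q)
  haveI i2 := BridgeChart.isIntegralClosure_chart₁ (A.comap ι) (M * q * q)
  refine OrdK4.ord_k4 A ι M q hq hqM hr hr12 hrM ∅ hlev hstab hirr
    (halgM := rfl) (BM := BridgeChart.Chart₁ (A.comap ι) M)
    (halg₁ := rfl) (B₁ := BridgeChart.Chart₁ (A.comap ι) (M * q))
    (halg₂ := rfl) (B₂ := BridgeChart.Chart₁ (A.comap ι) (M * q * q)) 𝔫 ?_ ?_ 𝔮 h𝔮𝔫 ?_
  · have e : algebraMap (↥(A.comap ι))[X] (BridgeChart.Chart₁ (A.comap ι) (M * q * q))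
        (C ((q : ℕ) : ↥(A.comap ι))) =
        constB1 (A.comap ι) (M * q * q) ((q : ℕ) : ↥(A.comap ι)) :=
      Subtype.ext (evF_C (A.comap ι) (M * q * q) _)
    rw [e]
    exact hπ𝔫
  · intro h
    apply hII
    intro b hb
    have e : psiB (A.comap ι) (M * q) q hq b =
        BetaHom.betaHom (A.comap ι) (M * q) q rfl (BridgeChart.Chart₁ (A.comap ι) (M * q)) rfl
          (BridgeChart.Chart₁ (A.comap ι) (M * q * q)) hq b :=
      Subtype.ext (BetaHom.betaHom_spec (A.comap ι) (M * q) q rfl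
        (BridgeChart.Chart₁ (A.comap ι) (M * q)) rfl
        (BridgeChart.Chart₁ (A.comap ι) (M * q * q)) hq b).symm
    rw [e]
    exact h b hb
  · have e : algebraMap (↥(A.comap ι))[X] (BridgeChart.Chart₁ (A.comap ι) (M * q * q))
        (C ((q : ℕ) : ↥(A.comap ι))) =
        constB1 (A.comap ι) (M * q * q) ((q : ℕ) : ↥(A.comap ι)) :=
      Subtype.ext (evF_C (A.comap ι) (M * q * q) _)
    rw [e]
    exact hπ𝔮

end Fermat.Agent.S36.ClauseIIK4
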