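import Mathlib
import Fermat.Agent.S36.ThickOne
import Fermat.Agent.S36.EulerDvd
import Fermat.Agent.S36.NodeOver

/-!
# S36 (R-ss): the thickness-one theorem at a node, abstract assembly

`R0 ⊆ R1` local rings of the charts of levels `M`, `M q` at a node (variable block of
`EulerDvd` / `HorizDisc`), `R1 = R0[X₁]` with `X₁ ^ n ∈ 𝔪₀ R1`, `X₁ ∉ 𝔪₀ R1` (T1),
`y = P_X'(X₁)` the different; `𝔭₁`, `𝔭₂` the two branches, `𝔭₁ ⊓ 𝔭₂ = (ϖ)`; `θ` a second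
generator of the field extension with monic equation `P` over `R0` (`θ = β j`), `g = P'(θ)`.

* `thick_of_data` : if `g ∉ 𝔭₁`, `g ∣ s ϖ` for some `s ∉ 𝔭₂` (the `θ`-trick) and every prime
  minimal over `(y)` contains `ϖ` (no horizontal ramification, (T3)), then
  `𝔭₂ = (y)`, `ϖ = y z`, `𝔭₁ = (z)`:
  Euler (`y ∣ g`) + `y` non-unit + `ThickOne.thick_one_inf`.
* `exists_chart_gen` : descent of a local generator to the chart: if `𝔭 B_𝔫 = (z)` then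
  `∃ z₀ ∈ 𝔭, ∃ s ∉ 𝔫, ∀ b ∈ 𝔭, z₀ ∣ s * b`.
-/

set_option autoImplicit false
set_option linter.unusedSectionVars false

namespace Fermat.Agent.S36.NodeThickAbs

open Polynomial IsLocalRing

section Thick

variable {R0 R1 K Y : Type*} [CommRing R0] [IsDomain R0] [IsIntegrallyClosed R0] [IsLocalRing R0]
  [CommRing R1] [IsDomain R1] [IsNoetherianRing R1] [IsIntegrallyClosed R1] [Algebra R0 R1]
  [Field K] [Algebra R0 K] [IsFractionRing R0 K]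
  [Field Y] [Algebra R1 Y] [IsFractionRing R1 Y] [Algebra K Y] [Algebra R0 Y]
  [IsScalarTower R0 K Y] [IsScalarTower R0 R1 Y] [FiniteDimensional K Y] [Algebra.IsSeparable K Y]

/-- **Thickness one at a node, abstract assembly.** -/
theorem thick_of_data (X₁ : R1) (hXadj : Algebra.adjoin R0 {X₁} = ⊤) (hXi : IsIntegral R0 X₁)
    (n : ℕ) (hXpow : X₁ ^ n ∈ Ideal.map (algebraMap R0 R1) (maximalIdeal R0))
    (hXnot : X₁ ∉ Ideal.map (algebraMap R0 R1) (maximalIdeal R0))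
    (𝔭₁ 𝔭₂ : Ideal R1) [𝔭₁.IsPrime] [𝔭₂.IsPrime] (ϖ : R1) (hϖ0 : ϖ ≠ 0)
    (h12 : 𝔭₁ ⊓ 𝔭₂ = Ideal.span {ϖ})
    (θ : R1) (P : R0[X]) (hP : P.Monic) (hPθ : aeval θ P = 0)
    (hPdeg : P.natDegree = Module.finrank K Y)
    (hθ : Algebra.adjoin K {algebraMap R1 Y θ} = ⊤)
    (hg1 : aeval θ (derivative P) ∉ 𝔭₁)
    (hg : ∃ s : R1, s ∉ 𝔭₂ ∧ aeval θ (derivative P) ∣ s * ϖ)
    (hhor : ∀ 𝔮 ∈ (Ideal.span {aeval X₁ (derivative (minpoly R0 X₁))} : Ideal R1).minimalPrimes,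
      ϖ ∈ 𝔮) :
    𝔭₂ = Ideal.span {aeval X₁ (derivative (minpoly R0 X₁))} ∧
      ∃ z : R1, ϖ = aeval X₁ (derivative (minpoly R0 X₁)) * z ∧ 𝔭₁ = Ideal.span {z} := by
  set y : R1 := aeval X₁ (derivative (minpoly R0 X₁)) with hy
  -- Euler: `y ∣ g`
  have hθint : IsIntegral R0 θ := ⟨P, hP, hPθ⟩
  have hyg : y ∣ aeval θ (derivative P) := by
    have h := EulerDvd.euler_dvd (A := R0) (B := R1) (K := K) (L := Y) X₁ θ hXadj hXi hθint hθ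
    rwa [EulerDvd.minpoly_eq_of_natDegree (A := R0) (B := R1) (K := K) (L := Y) θ hθ P hP hPθ
      hPdeg] at h
  -- `y` is not a unit
  have hnu : ¬ IsUnit y :=
    NodeOver.not_isUnit_aeval_derivative X₁ n hXpow hXnot (minpoly R0 X₁) (minpoly.aeval R0 X₁)
  have hy1 : y ∉ 𝔭₁ := by
    intro h
    obtain ⟨c, hc⟩ := hyg
    exact hg1 (hc ▸ 𝔭₁.mul_mem_right c h)
  have hϖ1 : ϖ ∈ 𝔭₁ := by
    have : ϖ ∈ 𝔭₁ ⊓ 𝔭₂ := h12 ▸ Ideal.mem_span_singleton_self ϖ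
    exact this.1
  have hϖ2 : ϖ ∈ 𝔭₂ := by
    have : ϖ ∈ 𝔭₁ ⊓ 𝔭₂ := h12 ▸ Ideal.mem_span_singleton_self ϖ
    exact this.2
  have hp10 : 𝔭₁ ≠ ⊥ := fun h => hϖ0 (by rw [h] at hϖ1; exact hϖ1)
  have hp20 : 𝔭₂ ≠ ⊥ := fun h => hϖ0 (by rw [h] at hϖ2; exact hϖ2)
  have hy2 : y ∈ 𝔭₂ := by
    have hne : (Ideal.span {y} : Ideal R1) ≠ ⊤ := by
      rw [Ne, Ideal.span_singleton_eq_top]
      exact hnu
    obtain ⟨⟨𝔮, h𝔮⟩⟩ := Ideal.nonempty_minimalPrimes hne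
    have hϖ𝔮 := hhor 𝔮 h𝔮
    have h𝔮p : 𝔮.IsPrime := h𝔮.1.1
    have hy𝔮 : y ∈ 𝔮 := h𝔮.1.2 (Ideal.mem_span_singleton_self y)
    have hle : 𝔭₁ ⊓ 𝔭₂ ≤ 𝔮 := by
      rw [h12, Ideal.span_singleton_le_iff_mem]
      exact hϖ𝔮
    rcases (Ideal.IsPrime.inf_le h𝔮p).mp hle with h | h
    · exfalso
      have h1 := ThickOne.not_lt_of_mem_minimalPrimes y 𝔮 𝔭₁ h𝔮 hp10
      have heq : 𝔭₁ = 𝔮 := eq_of_le_of_not_lt h h1
      exact hy1 (heq ▸ hy𝔮)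
    · have h1 := ThickOne.not_lt_of_mem_minimalPrimes y 𝔮 𝔭₂ h𝔮 hp20
      have heq : 𝔭₂ = 𝔮 := eq_of_le_of_not_lt h h1
      exact heq ▸ hy𝔮
  exact ThickOne.thick_one_inf 𝔭₁ 𝔭₂ ϖ y (aeval θ (derivative P)) hϖ0 h12 hy2 hy1 hyg hg hhor

end Thick

section Descent

variable {B : Type*} [CommRing B] [IsDomain B] [IsNoetherianRing B] (𝔫 : Ideal B) [𝔫.IsPrime]
  (R1 : Type*) [CommRing R1] [Algebra B R1] [IsLocalization.AtPrime R1 𝔫]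

/-- **Descent of a local generator to the chart.** -/
theorem exists_chart_gen (𝔭 : Ideal B) (z : R1)
    (hz : 𝔭.map (algebraMap B R1) = Ideal.span {z}) :
    ∃ z₀ ∈ 𝔭, ∃ s, s ∉ 𝔫 ∧ ∀ b ∈ 𝔭, z₀ ∣ s * b := by
  classical
  have hinj : Function.Injective (algebraMap B R1) :=
    IsLocalization.injective R1 𝔫.primeCompl_le_nonZeroDivisors
  have hzmem : z ∈ 𝔭.map (algebraMap B R1) := hz ▸ Ideal.mem_span_singleton_self z
  obtain ⟨⟨⟨z₀, hz₀⟩, t⟩, hzt⟩ :=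
    (IsLocalization.mem_map_algebraMap_iff 𝔫.primeCompl R1).mp hzmem
  have hzt' : z * algebraMap B R1 (t : B) = algebraMap B R1 z₀ := hzt
  have key : ∀ b ∈ 𝔭, ∃ u, u ∉ 𝔫 ∧ z₀ ∣ u * b := by
    intro b hb
    have hbz : algebraMap B R1 b ∈ Ideal.span {z} := hz ▸ Ideal.mem_map_of_mem _ hb
    obtain ⟨c, hc⟩ := Ideal.mem_span_singleton'.mp hbz
    obtain ⟨⟨c', u⟩, hcu⟩ := IsLocalization.surj 𝔫.primeCompl c
    have hcu' : c * algebraMap B R1 (u : B) = algebraMap B R1 c' := hcu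
    refine ⟨(u : B) * (t : B), ?_, ⟨c', hinj ?_⟩⟩
    · exact (u * t : 𝔫.primeCompl).2
    · rw [map_mul, map_mul, map_mul, ← hc, ← hzt', ← hcu']
      ring
  obtain ⟨T, hT⟩ := (isNoetherianRing_iff_ideal_fg B).mp inferInstance 𝔭
  choose! u hu hud using key
  refine ⟨z₀, hz₀, ∏ b ∈ T, u b, ?_, ?_⟩
  · intro hmem
    obtain ⟨b, hbT, hb⟩ := (Ideal.IsPrime.prod_mem_iff (p := 𝔫)).mp hmem
    have hb𝔭 : b ∈ 𝔭 := hT ▸ Ideal.subset_span hbT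
    exact hu b hb𝔭 hb
  · intro b hb
    rw [← hT] at hb
    induction hb using Submodule.span_induction with
    | mem b hbT =>
      have hb𝔭 : b ∈ 𝔭 := hT ▸ Ideal.subset_span hbT
      rw [← Finset.mul_prod_erase T u hbT, mul_right_comm]
      exact Dvd.dvd.mul_right (hud b hb𝔭) _
    | zero => rw [mul_zero]; exact dvd_zero z₀
    | add a b _ _ ha hb => rw [mul_add]; exact dvd_add ha hb
    | smul a b _ hb =>
      rw [smul_eq_mul, mul_left_comm]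
      exact Dvd.dvd.mul_left hb a

end Descent

end Fermat.Agent.S36.NodeThickAbs
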