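import Mathlib
import Fermat.Agent.S36.NodeThickAbs
import Fermat.Agent.S36.NodeBranch
import Fermat.Agent.S36.NodeOverInstF
import Fermat.Agent.S36.ThetaInst
import Fermat.Agent.S36.HorizUnramAux

/-!
# S36 (R-ss): thickness one at the nodes of the finite chart of level `M q`

Assembly of (T1) `NodeOverInstF.node_mono_level_frob`, (T2) `EulerDvd`, (Θ) `ThetaInst`,
(T3) `HorizUnramAux`, (T4) `ThickOne` on the carriers of `NodeCarrier.with_carriers`.

* `beta_j_gen` : `β j` generates `FF L (M q)` over `α (FF L M)` (the `θ`-trick forces the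
  degree of its minimal polynomial to be `q + 1`);
* `node_thick_one` : at a node `𝔫` of the finite chart `B` of level `M q` (auxiliary level
  `r ∣ M`, `r ≡ 11 mod 12`; Frobenius-stable unramified level), both branches are locally
  principal at `𝔫`, in chart form:
  `∃ z₀ ∈ 𝔭ᵢ, ∃ s ∉ 𝔫, ∀ b ∈ 𝔭ᵢ, z₀ ∣ s * b` — given the single input (Θ1): the first Gauss
  valuation of `P'(β j)` is zero.
-/

set_option autoImplicit false
set_option linter.unusedSectionVars false
set_option linter.style.haveILetI false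

noncomputable section

namespace Fermat.Agent.S36.NodeThick

open ModularCurve Polynomial AlgebraicCurve Fermat.Agent.S18 Fermat.Agent.S18.Gauss
  Fermat.Agent.S24 Fermat.Agent.S34.TwoGauss Fermat.Agent.S36.ThetaSeries
  Fermat.Agent.S36.ThetaTrick IsLocalRing

local notation "Qb" => AlgebraicClosure ℚ

section Generic

/-- the minimal polynomial of an element which is integral over a subring: degree divides the
degree of the extension, coefficients integral; full degree means generation -/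
theorem minpoly_data {R K F : Type*} [CommRing R] [Field K] [Field F] [Algebra K F]
    [FiniteDimensional K F] (e : R →+* K) (n : ℕ) (hrank : Module.finrank K F = n) (y : F)
    (hy : ∃ Q : R[X], Q.Monic ∧ Q.eval₂ ((algebraMap K F).comp e) y = 0) :
    (minpoly K y).Monic ∧ (minpoly K y).natDegree ≤ n ∧ (minpoly K y).natDegree ∣ n ∧
      (∀ i, e.IsIntegralElem ((minpoly K y).coeff i)) ∧
      (minpoly K y).eval₂ (algebraMap K F) y = 0 ∧
      ((minpoly K y).natDegree = n → Algebra.adjoin K {y} = ⊤) := by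
  classical
  have hyint : IsIntegral K y := Algebra.IsIntegral.isIntegral y
  have hPm : (minpoly K y).Monic := minpoly.monic hyint
  refine ⟨hPm, ?_, ?_, ?_, ?_, ?_⟩
  · rw [← hrank]
    exact minpoly.natDegree_le y
  · have h1 := IntermediateField.adjoin.finrank hyint
    have h2 := Module.finrank_mul_finrank K (IntermediateField.adjoin K {y}) F
    rw [h1, hrank] at h2
    exact Dvd.intro _ h2
  · letI algR : Algebra R K := e.toAlgebra
    obtain ⟨Q, hQ, hQroot⟩ := hy
    have hdvd : minpoly K y ∣ Q.map (algebraMap R K) := by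
      apply minpoly.dvd
      rw [aeval_def, eval₂_map]
      exact hQroot
    have hl := integralClosure.mem_lifts_of_monic_of_dvd_map K hQ hPm hdvd
    rw [lifts_iff_coeff_lifts] at hl
    intro i
    obtain ⟨c, hc⟩ := hl i
    have hci : IsIntegral R ((minpoly K y).coeff i) := by
      rw [← hc]
      exact c.2
    exact hci
  · have h := minpoly.aeval K y
    rw [aeval_def] at h
    exact h
  · intro hdeg
    have h1 : IntermediateField.adjoin K {y} = ⊤ := by
      rw [Field.primitive_element_iff_minpoly_natDegree_eq, hdeg, hrank]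
    rw [← IntermediateField.adjoin_simple_toSubalgebra_of_isAlgebraic hyint.isAlgebraic, h1]
    rfl

end Generic

section Gen

variable {L : Type} [Field L] [Algebra ℚ L] (W : ValuationSubring L) (M q : ℕ) [NeZero M]
  [NeZero q] [IsDiscreteValuationRing ↥W] [CharP (IsLocalRing.ResidueField ↥W) q]

/-- **`β j` generates `FF L (M q)` over `α (FF L M)`** (for any algebra structure inducing `α`):
the `θ`-trick forces the degree of its minimal polynomial to be `q + 1`. -/
theorem beta_j_gen (hq : q.Prime) (hqM : ¬ q ∣ M) (ι : L →+* Qb)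
    {π : ↥W} (hπ : Irreducible π) (hunr : ∃ u : (↥W)ˣ, ((q : ℕ) : ↥W) = π * u)
    (w : FF L (M * q) ≃ₐ[L] FF L (M * q))
    (hwα : (w : FF L (M * q) →ₐ[L] FF L (M * q)).comp (heckeAlphaBar L M q) =
      heckeBetaBar L M q)
    (hwβ : (w : FF L (M * q) →ₐ[L] FF L (M * q)).comp (heckeBetaBar L M q) =
      heckeAlphaBar L M q)
    [iK : Algebra (FF L M) (FF L (M * q))]
    (halgK : ∀ x : FF L M, algebraMap (FF L M) (FF L (M * q)) x = heckeAlphaBar L M q x) :
    Algebra.adjoin (FF L M) {heckeBetaBar L M q (jBC L M)} = ⊤ ∧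
      (minpoly (FF L M) (heckeBetaBar L M q (jBC L M))).natDegree = q + 1 := by
  classical
  haveI : Fact q.Prime := ⟨hq⟩
  obtain rfl : iK = algebraAlong (heckeAlphaBar L M q) := Algebra.algebra_ext _ _ halgK
  obtain ⟨hfin, hrank⟩ := Fermat.Agent.S34.DegreeL.finrank_alpha_of_bar L ι M q hq hqM
  set y : FF L (M * q) := heckeBetaBar L M q (jBC L M) with hy
  have hyQ : ∃ Q : ((↥W)[X])[X], Q.Monic ∧
      Q.eval₂ ((heckeAlphaBar L M q).toRingHom.comp (evF W M)) y = 0 := by
    obtain ⟨Q, hQ, hQroot⟩ := Fermat.Agent.S34.BetaInt.isIntegralElem_beta_j (L := L) W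
      (M := M) (ℓ := q) hq
    refine ⟨Q, hQ, ?_⟩
    rw [Fermat.Agent.S34.BetaInt.alpha_comp_evF (L := L) W (M := M) (ℓ := q)]
    exact hQroot
  obtain ⟨hPm, hdegle, hdegdvd, hint, hroot, hgen⟩ :=
    @minpoly_data _ (FF L M) (FF L (M * q)) _ _ _ (algebraAlong (heckeAlphaBar L M q)) hfin
      (evF W M) (q + 1) hrank y hyQ
  set P : (FF L M)[X] :=
    @minpoly (FF L M) (FF L (M * q)) _ _ (algebraAlong (heckeAlphaBar L M q)) y with hPdef
  have hroot' : P.eval₂ (heckeAlphaBar L M q).toRingHom y = 0 := hroot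
  -- the series polynomial
  set c : FF L M →+* LaurentSeries L := algebraMap (FF L M) (LaurentSeries L) with hc
  set c' : FF L (M * q) →+* LaurentSeries L := algebraMap (FF L (M * q)) (LaurentSeries L)
    with hc'
  have hcinj : Function.Injective c := (algebraMap (FF L M) (LaurentSeries L)).injective
  set Ps : (LaurentSeries L)[X] := P.map c with hPs
  have hPsm : Ps.Monic := hPm.map c
  have hPsdeg : Ps.natDegree = P.natDegree := natDegree_map_eq_of_injective hcinj P
  have hPsc : ∀ i, Ps.coeff i ∈ contentRing W := by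
    intro i
    rw [hPs, coeff_map]
    exact Fermat.Agent.S34.FrobPartner.mem_contentRing_of_int W M (hint i)
  have hwy : w y = jBC L (M * q) := by
    have h1 : w (heckeBetaBar L M q (jBC L M)) = heckeAlphaBar L M q (jBC L M) :=
      congrArg (fun f => f (jBC L M)) hwβ
    rw [hy, h1]
    exact Fermat.Agent.S34.CompInst.alpha_jBC M q
  have hc'β : c'.comp (((w : FF L (M * q) →ₐ[L] FF L (M * q)).toRingHom).comp
      (heckeAlphaBar L M q).toRingHom) = (qExpand L q).comp c := by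
    apply RingHom.ext
    intro x
    have h1 : w (heckeAlphaBar L M q x) = heckeBetaBar L M q x :=
      congrArg (fun f => f x) hwα
    show ((w (heckeAlphaBar L M q x) : FF L (M * q)) : LaurentSeries L) =
      qExpand L q ((x : FF L M) : LaurentSeries L)
    rw [h1, coe_heckeBetaBar]
  have hc'j : c' (jBC L (M * q)) = jqModC L := coe_jBC_eq L (M * q)
  have htrans : ∀ G : (FF L M)[X],
      c' (w (G.eval₂ (heckeAlphaBar L M q).toRingHom y)) =
        ((G.map c).map (qExpand L q)).eval (jqModC L) := by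
    intro G
    have h1 := Polynomial.hom_eval₂ G (heckeAlphaBar L M q).toRingHom
      (c'.comp ((w : FF L (M * q) →ₐ[L] FF L (M * q)).toRingHom)) y
    rw [RingHom.comp_assoc, hc'β] at h1
    have h2 : (c'.comp ((w : FF L (M * q) →ₐ[L] FF L (M * q)).toRingHom)) y = jqModC L := by
      show c' (w y) = jqModC L
      rw [hwy, hc'j]
    rw [h2] at h1
    rw [eval_map, eval₂_map]
    exact h1
  have hroots : (Ps.map (qExpand L q)).eval (jqModC L) = 0 := by
    rw [hPs, ← htrans P, hroot', map_zero, map_zero]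
  have hθ : th (IsLocalRing.ResidueField ↥W) (rd W (jqModC L)) ≠ 0 := by
    rw [rd_jq]
    exact Fermat.Agent.S36.ThetaInst.th_jq_ne_zero _
  obtain ⟨hdeg2, -⟩ := theta_trick W q hπ hunr Ps hPsm (by rw [hPsdeg]; exact hdegle)
    hPsc (jqModC L) (jq_mem_contentRing W) hθ hroots
  rw [hPsdeg] at hdeg2
  have hdeg : P.natDegree = q + 1 := by
    rcases hdeg2 with h0 | h0
    · exfalso
      rw [h0] at hdegdvd
      have h1 : q ∣ 1 := (Nat.dvd_add_right (dvd_refl q)).mp hdegdvd
      exact hq.one_lt.ne' (Nat.dvd_one.mp h1)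
    · exact h0
  exact ⟨hgen hdeg, hdeg⟩

end Gen

section ThetaChart

variable {L : Type} [Field L] [Algebra ℚ L] (W : ValuationSubring L) (M q : ℕ) [NeZero M]
  [NeZero q]
  [Algebra (↥W)[X] (FF L M)] (halgM : algebraMap (↥W)[X] (FF L M) = evF W M)
  (BM : Type*) [CommRing BM] [Algebra (↥W)[X] BM] [Algebra BM (FF L M)]
  [IsScalarTower (↥W)[X] BM (FF L M)] [IsIntegralClosure BM (↥W)[X] (FF L M)]
  [Algebra (↥W)[X] (FF L (M * q))] (halg : algebraMap (↥W)[X] (FF L (M * q)) = evF W (M * q))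
  (B : Type*) [CommRing B] [Algebra (↥W)[X] B] [Algebra B (FF L (M * q))]
  [IsScalarTower (↥W)[X] B (FF L (M * q))] [IsIntegralClosure B (↥W)[X] (FF L (M * q))]
  [Algebra BM B]
  (hα : ∀ c : BM, algebraMap B (FF L (M * q)) (algebraMap BM B c) =
    heckeAlphaBar L M q (algebraMap BM (FF L M) c))

include halgM halg hα in
/-- chart form of a monic equation of `β j` over `α (FF L M)` with integral coefficients:
`P₀ ∈ BM[X]`, `θ ∈ B`, `θ ↦ β j`, `P₀(θ) = 0`, and `P₀'(θ) ↦ P'(β j)`. -/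
theorem exists_theta_chart (hq : q.Prime) (P : (FF L M)[X]) (hPm : P.Monic)
    (hint : ∀ i, (evF W M).IsIntegralElem (P.coeff i))
    (hroot : P.eval₂ (heckeAlphaBar L M q).toRingHom (heckeBetaBar L M q (jBC L M)) = 0) :
    ∃ (P₀ : BM[X]) (θ : B), P₀.Monic ∧ P₀.natDegree = P.natDegree ∧
      P₀.map (algebraMap BM (FF L M)) = P ∧
      algebraMap B (FF L (M * q)) θ = heckeBetaBar L M q (jBC L M) ∧
      P₀.eval₂ (algebraMap BM B) θ = 0 ∧
      algebraMap B (FF L (M * q)) ((derivative P₀).eval₂ (algebraMap BM B) θ) =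
        P.derivative.eval₂ (heckeAlphaBar L M q).toRingHom (heckeBetaBar L M q (jBC L M)) := by
  have hlift : P ∈ Polynomial.lifts (algebraMap BM (FF L M)) := by
    rw [lifts_iff_coeff_lifts]
    intro i
    obtain ⟨c, hc⟩ := Fermat.Agent.S34.CompInst.exists_algebraMap_eq W M halgM BM (hint i)
    exact ⟨c, hc⟩
  obtain ⟨P₀, hP₀map, hP₀deg, hP₀m⟩ := Polynomial.lifts_and_natDegree_eq_and_monic hlift hPm
  obtain ⟨θ, hθ⟩ := Fermat.Agent.S34.CompInst.exists_algebraMap_eq W (M * q) halg B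
    (Fermat.Agent.S34.BetaInt.isIntegralElem_beta_j (L := L) W (M := M) (ℓ := q) hq)
  have hcomp : (algebraMap B (FF L (M * q))).comp (algebraMap BM B) =
      (heckeAlphaBar L M q).toRingHom.comp (algebraMap BM (FF L M)) := RingHom.ext hα
  have key : ∀ G : BM[X], algebraMap B (FF L (M * q)) (G.eval₂ (algebraMap BM B) θ) =
      (G.map (algebraMap BM (FF L M))).eval₂ (heckeAlphaBar L M q).toRingHom
        (heckeBetaBar L M q (jBC L M)) := by
    intro G
    rw [Polynomial.hom_eval₂, hcomp, hθ, eval₂_map]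
  refine ⟨P₀, θ, hP₀m, hP₀deg, hP₀map, hθ, ?_, ?_⟩
  · apply IsIntegralClosure.algebraMap_injective B (↥W)[X] (FF L (M * q))
    rw [key, hP₀map, hroot, map_zero]
  · rw [key, ← derivative_map, hP₀map]

end ThetaChart

section Main

variable (A : ValuationSubring Qb) {L : Type} [Field L] [Algebra ℚ L] (ι : L →+* Qb)
  (M q : ℕ) [NeZero M] [NeZero q]

/-- **Thickness one at a node of the finite chart of level `M q`, chart form.**  At an
auxiliary, Frobenius-stable, unramified level: both branches `𝔭₁ = ker (rd ∘ coe)`,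
`𝔭₂ = ker (rd ∘ coe ∘ w)` are principal locally at every maximal ideal `𝔫 ⊇ 𝔭₁ + 𝔭₂`, given
(Θ1): the first Gauss valuation of `P'(β j)` vanishes for a monic equation `P` of degree `q + 1`
of `β j` over `α (FF L M)`. -/
theorem node_thick_one (hq : q.Prime) (hqM : ¬ q ∣ M) (S : Finset Qb)
    (hlev : Fermat.Agent.S37.LevelChange.IsLevel A q S ι)
    (hstab : Fermat.Agent.S36.FrobLevel.FrobStable A q ι)
    (π : ↥(A.comap ι)) (hπ : Irreducible π)
    (hunr : ∃ u : (↥(A.comap ι))ˣ, ((q : ℕ) : ↥(A.comap ι)) = π * u)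
    {r : ℕ} (hr : r.Prime) (hr12 : r % 12 = 11) (hrM : r ∣ M)
    (w : FF L (M * q) ≃ₐ[L] FF L (M * q))
    (hwα : (w : FF L (M * q) →ₐ[L] FF L (M * q)).comp (heckeAlphaBar L M q) =
      heckeBetaBar L M q)
    (hwβ : (w : FF L (M * q) →ₐ[L] FF L (M * q)).comp (heckeBetaBar L M q) =
      heckeAlphaBar L M q)
    [Algebra (↥(A.comap ι))[X] (FF L M)]
    (halgM : algebraMap (↥(A.comap ι))[X] (FF L M) = evF (A.comap ι) M)
    (BM : Type) [CommRing BM] [Algebra (↥(A.comap ι))[X] BM] [Algebra BM (FF L M)]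
    [IsScalarTower (↥(A.comap ι))[X] BM (FF L M)]
    [IsIntegralClosure BM (↥(A.comap ι))[X] (FF L M)]
    [Algebra (↥(A.comap ι))[X] (FF L (M * q))]
    (halg : algebraMap (↥(A.comap ι))[X] (FF L (M * q)) = evF (A.comap ι) (M * q))
    (B : Type) [CommRing B] [Algebra (↥(A.comap ι))[X] B] [Algebra B (FF L (M * q))]
    [IsScalarTower (↥(A.comap ι))[X] B (FF L (M * q))]
    [IsIntegralClosure B (↥(A.comap ι))[X] (FF L (M * q))]
    (𝔫 : Ideal B) [𝔫.IsMaximal]
    (hk₁ : ∀ b : B, rd (A.comap ι)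
      ((algebraMap B (FF L (M * q)) b : FF L (M * q)) : LaurentSeries L) = 0 → b ∈ 𝔫)
    (hk₂ : ∀ b : B, rd (A.comap ι)
      ((w (algebraMap B (FF L (M * q)) b) : FF L (M * q)) : LaurentSeries L) = 0 → b ∈ 𝔫)
    (hΘ1 : ∃ P : (FF L M)[X], P.Monic ∧ P.natDegree = q + 1 ∧
      P.eval₂ (heckeAlphaBar L M q).toRingHom (heckeBetaBar L M q (jBC L M)) = 0 ∧
      rd (A.comap ι) ((P.derivative.eval₂ (heckeAlphaBar L M q).toRingHom
        (heckeBetaBar L M q (jBC L M)) : FF L (M * q)) : LaurentSeries L) ≠ 0) :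
    (∃ z₀ : B, rd (A.comap ι)
        ((algebraMap B (FF L (M * q)) z₀ : FF L (M * q)) : LaurentSeries L) = 0 ∧
      ∃ s, s ∉ 𝔫 ∧ ∀ b : B, rd (A.comap ι)
        ((algebraMap B (FF L (M * q)) b : FF L (M * q)) : LaurentSeries L) = 0 → z₀ ∣ s * b) ∧
    (∃ y₀ : B, rd (A.comap ι)
        ((w (algebraMap B (FF L (M * q)) y₀) : FF L (M * q)) : LaurentSeries L) = 0 ∧
      ∃ s, s ∉ 𝔫 ∧ ∀ b : B, rd (A.comap ι)
        ((w (algebraMap B (FF L (M * q)) b) : FF L (M * q)) : LaurentSeries L) = 0 →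
          y₀ ∣ s * b) := by
  classical
  have hlev' := hlev
  obtain ⟨-, hroots, hdvr, halgc, -, hchar, -, -⟩ := hlev'
  haveI := hdvr
  haveI := halgc
  haveI := hchar
  haveI : Fact q.Prime := ⟨hq⟩
  letI : Algebra BM B := (NodeOverInst.alphaHom (A.comap ι) M q halgM BM halg B).toAlgebra
  have hα : ∀ c : BM, algebraMap B (FF L (M * q)) (algebraMap BM B c) =
      heckeAlphaBar L M q (algebraMap BM (FF L M) c) :=
    NodeOverInst.alphaHom_spec (A.comap ι) M q halgM BM halg B
  -- (Θ)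
  obtain ⟨P, hPm, hPdeg, hPint, hProot, h, hh, hder, hrdh⟩ :=
    ThetaInst.exists_theta_poly (A.comap ι) M q hq hqM ι hπ hunr w hwα hwβ
  obtain ⟨P', hP'm, hP'deg, hP'root, hΘ⟩ := hΘ1
  obtain ⟨P₀, θ, hP₀m, hP₀deg, hP₀map, hθ, hθroot, hgB⟩ :=
    exists_theta_chart (A.comap ι) M q halgM BM halg B hα hq P hPm hPint hProot
  haveI : IsDomain B := Fermat.Agent.S34.KLocInst.isDomain_fin (A.comap ι) (M * q) B
  haveI : IsNoetherianRing B :=
    Fermat.Agent.S34.KLocInst.isNoetherianRing_fin (A.comap ι) (M * q) halg B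
  refine NodeCarrier.with_carriers ι (A.comap ι) M q halgM BM halg B hα hq hqM 𝔫
    (𝔫.comap (algebraMap BM B)) rfl ?_
  intro _ _ _ _ R0 _ _ _ _ _ _ _ _ _ _ R1 _ _ _ _ _ _ _ _ _ _ _ _ _ _ _ _ _ halgK hrank
  -- (T1)
  obtain ⟨hfin, Xn, hX𝔫, hX1, hXspan, hXadj, hXpow, hXnot⟩ :=
    NodeOverInstF.node_mono_level_frob A ι M q hq hqM S hlev hstab π hπ w hwα hwβ halgM BM halg B
      hα 𝔫 hk₁ hk₂ (𝔫.comap (algebraMap BM B)) rfl R0 R1
  have hXi : IsIntegral R0 (algebraMap B R1 Xn) := Algebra.IsIntegral.isIntegral _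
  -- the branches
  obtain ⟨hp1, hp2, h12, hϖ0, hm1, hm2, -, -⟩ :=
    NodeBranch.branch_loc (A.comap ι) M q halg B hq w hwα ι hqM hπ hwβ 𝔫 hk₁ hk₂ R1
  haveI := hp1
  haveI := hp2
  have hinf := NodeBranch.branch_inf (A.comap ι) M q halg B hq w hwα ι hqM hπ hwβ
  -- generation, uniqueness of `P`
  obtain ⟨hgen, hmindeg⟩ := beta_j_gen (A.comap ι) M q hq hqM ι hπ hunr w hwα hwβ halgK
  have halgK' : algebraMap (FF L M) (FF L (M * q)) = (heckeAlphaBar L M q).toRingHom :=
    RingHom.ext halgK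
  have hyint : IsIntegral (FF L M) (heckeBetaBar L M q (jBC L M)) :=
    ⟨P, hPm, by rw [halgK']; exact hProot⟩
  have huniq : ∀ G : (FF L M)[X], G.Monic → G.natDegree = q + 1 →
      G.eval₂ (heckeAlphaBar L M q).toRingHom (heckeBetaBar L M q (jBC L M)) = 0 →
      G = minpoly (FF L M) (heckeBetaBar L M q (jBC L M)) := by
    intro G hGm hGdeg hGroot
    have hdvd : minpoly (FF L M) (heckeBetaBar L M q (jBC L M)) ∣ G :=
      minpoly.dvd _ _ (by rw [aeval_def, halgK']; exact hGroot)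
    exact Polynomial.eq_of_monic_of_dvd_of_natDegree_le (minpoly.monic hyint) hGm hdvd
      (by rw [hGdeg, hmindeg])
  have hPP' : P' = P := (huniq P' hP'm hP'deg hP'root).trans (huniq P hPm hPdeg hProot).symm
  rw [hPP'] at hΘ
  -- `θ` and its equation in `R1`
  have hcompR : (algebraMap R0 R1).comp (algebraMap BM R0) =
      (algebraMap B R1).comp (algebraMap BM B) := by
    rw [← IsScalarTower.algebraMap_eq BM R0 R1, ← IsScalarTower.algebraMap_eq BM B R1]
  have keyR : ∀ G : BM[X], aeval (algebraMap B R1 θ) (G.map (algebraMap BM R0)) =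
      algebraMap B R1 (G.eval₂ (algebraMap BM B) θ) := by
    intro G
    rw [aeval_def, eval₂_map, hcompR, Polynomial.hom_eval₂]
  have hP₁m : (P₀.map (algebraMap BM R0)).Monic := hP₀m.map _
  have hP₁root : aeval (algebraMap B R1 θ) (P₀.map (algebraMap BM R0)) = 0 := by
    rw [keyR, hθroot, map_zero]
  have hP₁deg : (P₀.map (algebraMap BM R0)).natDegree =
      Module.finrank (FF L M) (FF L (M * q)) := by
    rw [hP₀m.natDegree_map, hP₀deg, hPdeg, hrank]
  have hθ₁gen : Algebra.adjoin (FF L M) {algebraMap R1 (FF L (M * q)) (algebraMap B R1 θ)} =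
      ⊤ := by
    rw [← IsScalarTower.algebraMap_apply B R1 (FF L (M * q)), hθ]
    exact hgen
  have hg : aeval (algebraMap B R1 θ) (derivative (P₀.map (algebraMap BM R0))) =
      algebraMap B R1 ((derivative P₀).eval₂ (algebraMap BM B) θ) := by
    rw [derivative_map, keyR]
  -- (Θ1): `g ∉ 𝔭₁ R1`
  have hg1 : aeval (algebraMap B R1 θ) (derivative (P₀.map (algebraMap BM R0))) ∉
      (NodeBranch.branch₁ (A.comap ι) M q halg B).map (algebraMap B R1) := by
    rw [hg, hm1, hgB]
    exact hΘ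
  -- the generator of (T1) lies on the first branch only
  have hX1mem : Xn ∈ NodeBranch.branch₁ (A.comap ι) M q halg B :=
    (NodeBranch.mem_branch₁ (A.comap ι) M q halg B Xn).mpr hX1
  have hπ𝔫 : algebraMap (↥(A.comap ι))[X] B (C π) ∈ 𝔫 :=
    hk₁ _ ((NodeBranch.mem_branch₁ (A.comap ι) M q halg B _).mp
      (NodeBranch.pi_mem_branch₁ (A.comap ι) M q halg B hπ))
  have hX2 : Xn ∉ NodeBranch.branch₂ (A.comap ι) M q halg B hq w hwα := by
    intro hX2
    have hmem : Xn ∈ NodeBranch.branch₁ (A.comap ι) M q halg B ⊓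
        NodeBranch.branch₂ (A.comap ι) M q halg B hq w hwα := ⟨hX1mem, hX2⟩
    rw [hinf] at hmem
    obtain ⟨c, hc⟩ := Ideal.mem_span_singleton.mp hmem
    apply hXnot
    rw [hc, map_mul,
      ← NodeBranch.algebraMap_top (A.comap ι) M q halgM BM halg B hα R0 R1 (C π)]
    apply Ideal.mul_mem_right
    apply Ideal.mem_map_of_mem
    refine (IsLocalization.AtPrime.to_map_mem_maximal_iff R0 (𝔫.comap (algebraMap BM B)) _
      inferInstance).mpr ?_
    rw [Ideal.mem_comap, NodeBranch.algebraMap_poly (A.comap ι) M q halgM BM halg B hα (C π)]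
    exact hπ𝔫
  -- (Θ2): `g ∈ 𝔭₂`, exactly once
  have hCπ : rd (A.comap ι) (HahnSeries.C ((π : ↥(A.comap ι)) : L)) = 0 := by
    rw [rd_C, residue_unif (A.comap ι) hπ, map_zero]
  have hgB2 : (derivative P₀).eval₂ (algebraMap BM B) θ ∈
      NodeBranch.branch₂ (A.comap ι) M q halg B hq w hwα := by
    rw [NodeBranch.mem_branch₂, hgB, hder, rd_mul (A.comap ι) (C_mem_contentRing (A.comap ι) π) hh,
      hCπ, zero_mul]
  have hXg : Xn * (derivative P₀).eval₂ (algebraMap BM B) θ ∈
      NodeBranch.branch₁ (A.comap ι) M q halg B ⊓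
        NodeBranch.branch₂ (A.comap ι) M q halg B hq w hwα :=
    ⟨Ideal.mul_mem_right _ _ hX1mem, Ideal.mul_mem_left _ _ hgB2⟩
  rw [hinf] at hXg
  obtain ⟨E, hE⟩ := Ideal.mem_span_singleton.mp hXg
  have hE2 : E ∉ NodeBranch.branch₂ (A.comap ι) M q halg B hq w hwα := by
    rw [NodeBranch.mem_branch₂]
    have e0 : algebraMap (FF L (M * q)) (LaurentSeries L) (w (algebraMap B (FF L (M * q)) Xn)) *
        algebraMap (FF L (M * q)) (LaurentSeries L) (w (algebraMap B (FF L (M * q))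
          ((derivative P₀).eval₂ (algebraMap BM B) θ))) =
        algebraMap (FF L (M * q)) (LaurentSeries L) (w (algebraMap B (FF L (M * q))
          (algebraMap (↥(A.comap ι))[X] B (C π)))) *
        algebraMap (FF L (M * q)) (LaurentSeries L) (w (algebraMap B (FF L (M * q)) E)) := by
      rw [← map_mul, ← map_mul, ← map_mul, ← map_mul, ← map_mul, ← map_mul, hE]
    have e1 : ((w (algebraMap B (FF L (M * q)) Xn) : FF L (M * q)) : LaurentSeries L) *
        ((w (algebraMap B (FF L (M * q)) ((derivative P₀).eval₂ (algebraMap BM B) θ)) :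
          FF L (M * q)) : LaurentSeries L) =
        ((w (algebraMap B (FF L (M * q)) (algebraMap (↥(A.comap ι))[X] B (C π))) :
          FF L (M * q)) : LaurentSeries L) *
        ((w (algebraMap B (FF L (M * q)) E) : FF L (M * q)) : LaurentSeries L) := e0
    rw [hgB, hder, NodeBranch.algebraMap_pi (A.comap ι) M q halg B π, AlgEquiv.commutes,
      Fermat.Agent.S37.GaussPrime.coe_unif π] at e1
    have hCπ0 : (HahnSeries.C ((π : ↥(A.comap ι)) : L) : LaurentSeries L) ≠ 0 := by
      intro h0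
      have h1 : ((π : ↥(A.comap ι)) : L) = 0 :=
        HahnSeries.C_injective (Γ := ℤ) (by rw [h0, map_zero])
      exact hπ.ne_zero (Subtype.ext h1)
    have e2 : ((w (algebraMap B (FF L (M * q)) E) : FF L (M * q)) : LaurentSeries L) =
        ((w (algebraMap B (FF L (M * q)) Xn) : FF L (M * q)) : LaurentSeries L) * h := by
      apply mul_left_cancel₀ hCπ0
      rw [← e1]
      ring
    have hmX : ((w (algebraMap B (FF L (M * q)) Xn) : FF L (M * q)) : LaurentSeries L) ∈
        contentRing (A.comap ι) := NodeBranch.mem₂ (A.comap ι) M q halg B hq w hwα Xn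
    rw [e2, rd_mul (A.comap ι) hmX hh]
    exact mul_ne_zero
      (fun h0 => hX2 ((NodeBranch.mem_branch₂ (A.comap ι) M q halg B hq w hwα Xn).mpr h0)) hrdh
  have hg' : ∃ s : R1, s ∉ (NodeBranch.branch₂ (A.comap ι) M q halg B hq w hwα).map
      (algebraMap B R1) ∧ aeval (algebraMap B R1 θ) (derivative (P₀.map (algebraMap BM R0))) ∣
        s * algebraMap B R1 (algebraMap (↥(A.comap ι))[X] B (C π)) := by
    refine ⟨algebraMap B R1 E, ?_, ⟨algebraMap B R1 Xn, ?_⟩⟩
    · rw [hm2]
      exact fun h0 =>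
        hE2 ((NodeBranch.mem_branch₂ (A.comap ι) M q halg B hq w hwα E).mpr h0)
    · rw [hg, ← map_mul, ← map_mul]
      congr 1
      rw [mul_comm E, ← hE, mul_comm]
  -- (T3)
  have hjα : algebraMap (FF L M) (FF L (M * q)) (jBC L M) = jBC L (M * q) := by
    rw [halgK]
    exact Fermat.Agent.S34.CompInst.alpha_jBC M q
  have hhor : ∀ 𝔮 ∈ (Ideal.span {aeval (algebraMap B R1 Xn)
      (derivative (minpoly R0 (algebraMap B R1 Xn)))} : Ideal R1).minimalPrimes,
      algebraMap B R1 (algebraMap (↥(A.comap ι))[X] B (C π)) ∈ 𝔮 := by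
    intro 𝔮 h𝔮
    have h3 := HorizUnramAux.pi_mem_of_mem_minimalPrimes_aux ι M (M * q) hr hr12 hrM
      (Dvd.dvd.mul_right hrM q) hjα
      (algebraMap BM R0 (algebraMap (↥(A.comap ι))[X] BM (C π)))
      (NodeCarrier.hL_of_chart (A.comap ι) M halgM BM R0 hπ)
      (algebraMap BM R0 (algebraMap (↥(A.comap ι))[X] BM X))
      (NodeCarrier.algebraMap_X_top (A.comap ι) M q halgM BM R0 halgK)
      (algebraMap B R1 Xn) hXadj hXi 𝔮 h𝔮
    rwa [NodeBranch.algebraMap_top (A.comap ι) M q halgM BM halg B hα R0 R1 (C π)] at h3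
  -- (T4)
  obtain ⟨h2eq, z, -, h1eq⟩ := NodeThickAbs.thick_of_data (K := FF L M) (Y := FF L (M * q))
    (algebraMap B R1 Xn) hXadj hXi (q + 1) hXpow hXnot
    ((NodeBranch.branch₁ (A.comap ι) M q halg B).map (algebraMap B R1))
    ((NodeBranch.branch₂ (A.comap ι) M q halg B hq w hwα).map (algebraMap B R1))
    (algebraMap B R1 (algebraMap (↥(A.comap ι))[X] B (C π))) hϖ0 h12
    (algebraMap B R1 θ) (P₀.map (algebraMap BM R0)) hP₁m hP₁root hP₁deg hθ₁gen hg1 hg' hhor
  -- descent to the chart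
  obtain ⟨z₀, hz₀, s₁, hs₁, hz₀d⟩ := NodeThickAbs.exists_chart_gen 𝔫 R1
    (NodeBranch.branch₁ (A.comap ι) M q halg B) z h1eq
  obtain ⟨y₀, hy₀, s₂, hs₂, hy₀d⟩ := NodeThickAbs.exists_chart_gen 𝔫 R1
    (NodeBranch.branch₂ (A.comap ι) M q halg B hq w hwα) _ h2eq
  refine ⟨⟨z₀, (NodeBranch.mem_branch₁ (A.comap ι) M q halg B z₀).mp hz₀, s₁, hs₁, fun b hb =>
    hz₀d b ((NodeBranch.mem_branch₁ (A.comap ι) M q halg B b).mpr hb)⟩,
    ⟨y₀, (NodeBranch.mem_branch₂ (A.comap ι) M q halg B hq w hwα y₀).mp hy₀, s₂, hs₂, fun b hb =>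
      hy₀d b ((NodeBranch.mem_branch₂ (A.comap ι) M q halg B hq w hwα b).mpr hb)⟩⟩

end Main

end Fermat.Agent.S36.NodeThick
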