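import Mathlib
import Fermat.Agent.S36.ThetaInst

/-!
# S36 (R-ss), the two Gauss valuations of the different element `Δ = P'(β j)`

Setting of `ThetaInst`: `P` the minimal polynomial of `y = β(j)` over `α(FF L M)`,
`Δ = P'(y) ∈ FF L (M * q)`.

* `deriv_first_ne_zero` (residue field), `theta_first` (content ring): the reduction of
  `P'(V y)` is nonzero when `P(V y) = 0` — the factorisation `P̄ = (X^q - Frob ȳ)(X + c)` of the
  `θ`-trick gives the Kronecker congruence for free.
* `exists_theta_chart` : the instance, with the three usable facts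
  (1) `rd (coe Δ) ≠ 0` (first Gauss valuation `0`),
  (2) `rd (coe (w Δ)) = 0` (second Gauss valuation positive),
  (3) if `x * Δ = π * E` and `w x` is a Gauss unit, then `w E` is a Gauss unit
      (second Gauss valuation exactly one).
-/

set_option autoImplicit false
set_option linter.unusedSectionVars false
set_option linter.style.haveILetI false

noncomputable section

namespace Fermat.Agent.S36.ThetaGauss

open ModularCurve Polynomial AlgebraicCurve Fermat.Agent.S18 Fermat.Agent.S18.Gauss
  Fermat.Agent.S24 Fermat.Agent.S34.TwoGauss Fermat.Agent.S36.ThetaSeries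
  Fermat.Agent.S36.ThetaRes Fermat.Agent.S36.ThetaTrick Fermat.Agent.S36.ThetaInst

local notation "Qb" => AlgebraicClosure ℚ

section Res

variable {κ : Type*} [Field κ] (q : ℕ) [hq : Fact q.Prime] [NeZero q] [CharP κ q]

/-- **Residue computation on the first branch.** -/
theorem deriv_first_ne_zero (P : (LaurentSeries κ)[X]) (hP : P.Monic)
    (hdeg : P.natDegree = q + 1) (y : LaurentSeries κ) (hy : th κ y ≠ 0)
    (hroot : (P.map (qExpand κ q)).eval y = 0) (hroot1 : P.eval (qExpand κ q y) = 0)
    (hne : (qExpand κ q y) ^ q ≠ coeffMap (frobenius κ q) y) :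
    P.derivative.eval (qExpand κ q y) ≠ 0 := by
  obtain ⟨G, hG⟩ := minP_dvd q hy P hroot
  have hGm : G.Monic := by
    have h := hP
    rw [hG] at h
    exact (minP_monic q y).of_mul_monic_left h
  have hdegG : P.natDegree = q + G.natDegree := by
    rw [hG, (minP_monic q y).natDegree_mul hGm, minP_natDegree]
  have hG1 : G.natDegree = 1 := by omega
  have hGX : G = X + C (G.coeff 0) := hGm.eq_X_add_C hG1
  set c : LaurentSeries κ := G.coeff 0 with hc
  have hMev : (minP q y).eval (qExpand κ q y) ≠ 0 := by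
    unfold minP
    rw [eval_sub, eval_pow, eval_X, eval_C]
    exact sub_ne_zero.mpr hne
  have h1 : (minP q y).eval (qExpand κ q y) * G.eval (qExpand κ q y) = 0 := by
    rw [← eval_mul, ← hG]; exact hroot1
  have hGev : G.eval (qExpand κ q y) = 0 := (mul_eq_zero.mp h1).resolve_left hMev
  have hGder : G.derivative = 1 := by
    rw [hGX, derivative_add, derivative_X, derivative_C, add_zero]
  rw [hG, derivative_mul, eval_add, eval_mul, eval_mul, hGev, mul_zero, zero_add, hGder,
    eval_one, mul_one]
  exact hMev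

end Res

section Content

variable {L : Type*} [Field L] (W : ValuationSubring L)

/-- reduction commutes with evaluation of a polynomial over the content ring -/
theorem rd_eval (G₀ : (contentRing W)[X]) {z : LaurentSeries L} (hz : z ∈ contentRing W) :
    rd W ((G₀.map (contentRing W).subtype).eval z) = (G₀.map (red W)).eval (rd W z) := by
  have h1 : (G₀.map (contentRing W).subtype).eval z =
      ((G₀.eval (⟨z, hz⟩ : contentRing W) : contentRing W) : LaurentSeries L) := by
    rw [eval_map]
    exact Polynomial.eval₂_at_apply (contentRing W).subtype (⟨z, hz⟩ : contentRing W)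
  have h2 : rd W ((G₀.eval (⟨z, hz⟩ : contentRing W) : contentRing W) : LaurentSeries L) =
      red W (G₀.eval (⟨z, hz⟩ : contentRing W)) :=
    rd_of_mem W (G₀.eval (⟨z, hz⟩ : contentRing W)).2
  have h3 : rd W z = red W (⟨z, hz⟩ : contentRing W) := rd_of_mem W hz
  have h4 : (G₀.map (red W)).eval (red W (⟨z, hz⟩ : contentRing W)) =
      red W (G₀.eval (⟨z, hz⟩ : contentRing W)) := by
    rw [eval_map]
    exact Polynomial.eval₂_at_apply (red W) (⟨z, hz⟩ : contentRing W)
  rw [h1, h2, h3, h4]

variable (q : ℕ) [hq : Fact q.Prime] [NeZero q] [IsDiscreteValuationRing W]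
  [CharP (IsLocalRing.ResidueField W) q]

/-- **First Gauss valuation of the different element is zero.** -/
theorem theta_first (P : (LaurentSeries L)[X]) (hP : P.Monic) (hdeg : P.natDegree = q + 1)
    (hPc : ∀ i, P.coeff i ∈ contentRing W)
    (y : LaurentSeries L) (hy : y ∈ contentRing W)
    (hθy : th (IsLocalRing.ResidueField W) (rd W y) ≠ 0)
    (hroot : (P.map (qExpand L q)).eval y = 0) (hroot1 : P.eval (qExpand L q y) = 0)
    (hne : (qExpand (IsLocalRing.ResidueField W) q (rd W y)) ^ q ≠
      coeffMap (frobenius (IsLocalRing.ResidueField W) q) (rd W y)) :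
    rd W (P.derivative.eval (qExpand L q y)) ≠ 0 := by
  classical
  set κ := IsLocalRing.ResidueField W with hκ
  have hsub : (↑P.coeffs : Set (LaurentSeries L)) ⊆ contentRing W := by
    intro c hc
    obtain ⟨n, -, rfl⟩ := Polynomial.mem_coeffs_iff.mp hc
    exact hPc n
  set P₀ : (contentRing W)[X] := P.toSubring (contentRing W) hsub with hP₀
  have hP₀map : P₀.map (contentRing W).subtype = P := map_toSubring P (contentRing W) hsub
  set Pb : (LaurentSeries κ)[X] := P₀.map (red W) with hPb
  have hP₀m : P₀.Monic := (monic_toSubring P (contentRing W) hsub).mpr hP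
  have hPbm : Pb.Monic := hP₀m.map _
  have hPbdeg : Pb.natDegree = q + 1 := by
    rw [hPb, hP₀m.natDegree_map, hP₀, natDegree_toSubring, hdeg]
  have hVy : qExpand L q y ∈ contentRing W := qExpand_mem_contentRing W q hy
  -- the root on the first branch
  have hroot1b : Pb.eval (qExpand κ q (rd W y)) = 0 := by
    have h := rd_eval W P₀ hVy
    rw [hP₀map, hroot1, rd_zero, rd_qExpand W q hy] at h
    exact h.symm
  -- the root on the second branch
  have hrootb : (Pb.map (qExpand κ q)).eval (rd W y) = 0 := by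
    have hdeg' : (Pb.map (qExpand κ q)).natDegree < q + 2 :=
      lt_of_le_of_lt natDegree_map_le (by rw [hPbdeg]; omega)
    have hFdeg : (P.map (qExpand L q)).natDegree < q + 2 :=
      lt_of_le_of_lt natDegree_map_le (by omega)
    rw [eval_eq_sum_range' hdeg']
    have h1 : (P.map (qExpand L q)).eval y =
        ∑ i ∈ Finset.range (q + 2), qExpand L q (P.coeff i) * y ^ i := by
      rw [eval_eq_sum_range' hFdeg]
      refine Finset.sum_congr rfl fun i _ => ?_
      rw [coeff_map]
    have h2 := congrArg (rd W) h1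
    rw [hroot, rd_zero, rd_sum W _ _
      (fun i _ => mul_mem (qExpand_mem_contentRing W q (hPc i)) (pow_mem hy i))] at h2
    rw [h2]
    refine Finset.sum_congr rfl fun i _ => ?_
    rw [rd_mul W (qExpand_mem_contentRing W q (hPc i)) (pow_mem hy i), rd_qExpand W q (hPc i),
      rd_pow W hy, coeff_map, hPb, coeff_map, rd_of_mem W (hPc i)]
    congr 3
    exact Subtype.ext (coeff_toSubring P (contentRing W) hsub)
  have key := deriv_first_ne_zero q Pb hPbm hPbdeg (rd W y) hθy hrootb hroot1b hne
  have h := rd_eval W P₀.derivative hVy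
  rw [← derivative_map, hP₀map, rd_qExpand W q hy, ← derivative_map, ← hPb] at h
  rw [h]
  exact key

end Content

section Inst

variable {L : Type} [Field L] [Algebra ℚ L] (M q : ℕ) [NeZero M] [NeZero q]

theorem jq_hne (κ : Type*) [Field κ] (q : ℕ) [hq : Fact q.Prime] [NeZero q] [CharP κ q] :
    (qExpand κ q (jqModC κ)) ^ q ≠ coeffMap (frobenius κ q) (jqModC κ) := by
  intro h
  have h1 : ((qExpand κ q (jqModC κ)) ^ q).coeff ((q : ℤ) * (-(q : ℤ))) =
      (coeffMap (frobenius κ q) (jqModC κ)).coeff ((q : ℤ) * (-(q : ℤ))) := by rw [h]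
  rw [Fermat.Agent.S37.Kronecker.pow_char_eq q, qExpand_coeff_mul, coeffMap_coeff,
    coeffMap_coeff] at h1
  have h2 : (qExpand κ q (jqModC κ)).coeff (-(q : ℤ)) = 1 := by
    have : -(q : ℤ) = (q : ℤ) * (-1) := by ring
    rw [this, qExpand_coeff_mul, coeff_jqModC_neg_one]
  have h3 : (jqModC κ).coeff ((q : ℤ) * (-(q : ℤ))) = 0 := by
    have h4 := coeff_jqModC_pow_of_lt κ (b := 1) (m := (q : ℤ) * (-(q : ℤ))) (by
      have : (2 : ℤ) ≤ q := by exact_mod_cast hq.out.two_le
      push_cast
      nlinarith)
    rwa [pow_one] at h4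
  rw [h2, h3] at h1
  simp only [frobenius_def, one_pow] at h1
  rw [zero_pow hq.out.ne_zero] at h1
  exact one_ne_zero h1

theorem algebraMap_FF_apply (N : ℕ) (x : FF L N) :
    algebraMap (FF L N) (LaurentSeries L) x = (x : LaurentSeries L) :=
  rfl

theorem coe_comp_alpha :
    (algebraMap (FF L (M * q)) (LaurentSeries L)).comp (heckeAlphaBar L M q).toRingHom =
      algebraMap (FF L M) (LaurentSeries L) := by
  apply RingHom.ext
  intro x
  rw [RingHom.comp_apply, AlgHom.toRingHom_eq_coe, RingHom.coe_coe, algebraMap_FF_apply,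
    algebraMap_FF_apply, coe_heckeAlphaBar]

theorem coe_beta_j :
    algebraMap (FF L (M * q)) (LaurentSeries L) (heckeBetaBar L M q (jBC L M)) =
      qExpand L q (jqModC L) := by
  rw [algebraMap_FF_apply, coe_heckeBetaBar, coe_jBC_eq]

/-- transport of evaluations along the first branch -/
theorem coe_eval₂_alpha (G : (FF L M)[X]) :
    algebraMap (FF L (M * q)) (LaurentSeries L)
        (G.eval₂ (heckeAlphaBar L M q).toRingHom (heckeBetaBar L M q (jBC L M))) =
      (G.map (algebraMap (FF L M) (LaurentSeries L))).eval (qExpand L q (jqModC L)) := by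
  have h1 := Polynomial.hom_eval₂ G (heckeAlphaBar L M q).toRingHom
    (algebraMap (FF L (M * q)) (LaurentSeries L)) (heckeBetaBar L M q (jBC L M))
  rw [coe_comp_alpha, coe_beta_j] at h1
  rw [eval_map]
  exact h1

theorem w_alpha_apply (w : FF L (M * q) ≃ₐ[L] FF L (M * q))
    (hwα : (w : FF L (M * q) →ₐ[L] FF L (M * q)).comp (heckeAlphaBar L M q) =
      heckeBetaBar L M q) (x : FF L M) :
    w (heckeAlphaBar L M q x) = heckeBetaBar L M q x := by
  have h1 := AlgHom.congr_fun hwα x
  rw [AlgHom.comp_apply, AlgEquiv.coe_toAlgHom] at h1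
  exact h1

theorem w_beta_apply (w : FF L (M * q) ≃ₐ[L] FF L (M * q))
    (hwβ : (w : FF L (M * q) →ₐ[L] FF L (M * q)).comp (heckeBetaBar L M q) =
      heckeAlphaBar L M q) (x : FF L M) :
    w (heckeBetaBar L M q x) = heckeAlphaBar L M q x := by
  have h1 := AlgHom.congr_fun hwβ x
  rw [AlgHom.comp_apply, AlgEquiv.coe_toAlgHom] at h1
  exact h1

theorem coe_w_comp_alpha (w : FF L (M * q) ≃ₐ[L] FF L (M * q))
    (hwα : (w : FF L (M * q) →ₐ[L] FF L (M * q)).comp (heckeAlphaBar L M q) =
      heckeBetaBar L M q) :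
    (algebraMap (FF L (M * q)) (LaurentSeries L)).comp
      (((w : FF L (M * q) →ₐ[L] FF L (M * q)).toRingHom).comp
        (heckeAlphaBar L M q).toRingHom) =
      (qExpand L q).comp (algebraMap (FF L M) (LaurentSeries L)) := by
  apply RingHom.ext
  intro x
  rw [RingHom.comp_apply, RingHom.comp_apply, RingHom.comp_apply, AlgHom.toRingHom_eq_coe,
    AlgHom.toRingHom_eq_coe, RingHom.coe_coe, RingHom.coe_coe, AlgEquiv.coe_toAlgHom,
    w_alpha_apply M q w hwα x, algebraMap_FF_apply, coe_heckeBetaBar, algebraMap_FF_apply]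

/-- transport of evaluations along the second branch -/
theorem coe_w_eval₂_alpha (w : FF L (M * q) ≃ₐ[L] FF L (M * q))
    (hwα : (w : FF L (M * q) →ₐ[L] FF L (M * q)).comp (heckeAlphaBar L M q) =
      heckeBetaBar L M q)
    (hwβ : (w : FF L (M * q) →ₐ[L] FF L (M * q)).comp (heckeBetaBar L M q) =
      heckeAlphaBar L M q) (G : (FF L M)[X]) :
    algebraMap (FF L (M * q)) (LaurentSeries L)
        (w (G.eval₂ (heckeAlphaBar L M q).toRingHom (heckeBetaBar L M q (jBC L M)))) =
      ((G.map (algebraMap (FF L M) (LaurentSeries L))).map (qExpand L q)).eval (jqModC L) := by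
  have hwy : w (heckeBetaBar L M q (jBC L M)) = jBC L (M * q) := by
    rw [w_beta_apply M q w hwβ]
    exact Fermat.Agent.S34.CompInst.alpha_jBC M q
  have h1 := Polynomial.hom_eval₂ G (heckeAlphaBar L M q).toRingHom
    ((algebraMap (FF L (M * q)) (LaurentSeries L)).comp
      ((w : FF L (M * q) →ₐ[L] FF L (M * q)).toRingHom))
    (heckeBetaBar L M q (jBC L M))
  rw [RingHom.comp_assoc, coe_w_comp_alpha M q w hwα, RingHom.comp_apply, RingHom.comp_apply,
    AlgHom.toRingHom_eq_coe, RingHom.coe_coe, AlgEquiv.coe_toAlgHom, hwy,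
    algebraMap_FF_apply (M * q) (jBC L (M * q)), coe_jBC_eq L (M * q)] at h1
  rw [eval_map, eval₂_map]
  exact h1

theorem coe_algebraMap_const (c : L) :
    algebraMap (FF L (M * q)) (LaurentSeries L) (algebraMap L (FF L (M * q)) c) =
      HahnSeries.C c := by
  have h := (IsScalarTower.algebraMap_apply L (FF L (M * q)) (LaurentSeries L) c).symm
  rw [algebraMap_laurentSeries_eq_single] at h
  exact h

variable (W : ValuationSubring L) [IsDiscreteValuationRing ↥W]
  [CharP (IsLocalRing.ResidueField ↥W) q]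

/-- first Gauss valuation of the different element -/
theorem theta_chart_first (hq : q.Prime)
    (w : FF L (M * q) ≃ₐ[L] FF L (M * q))
    (hwα : (w : FF L (M * q) →ₐ[L] FF L (M * q)).comp (heckeAlphaBar L M q) =
      heckeBetaBar L M q)
    (hwβ : (w : FF L (M * q) →ₐ[L] FF L (M * q)).comp (heckeBetaBar L M q) =
      heckeAlphaBar L M q)
    (P : (FF L M)[X]) (hPm : P.Monic) (hdeg : P.natDegree = q + 1)
    (hint : ∀ i, (evF W M).IsIntegralElem (P.coeff i))
    (hroot : P.eval₂ (heckeAlphaBar L M q).toRingHom (heckeBetaBar L M q (jBC L M)) = 0) :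
    rd W (algebraMap (FF L (M * q)) (LaurentSeries L)
      (P.derivative.eval₂ (heckeAlphaBar L M q).toRingHom
          (heckeBetaBar L M q (jBC L M)))) ≠ 0 := by
  classical
  haveI : Fact q.Prime := ⟨hq⟩
  have hcinj : Function.Injective (algebraMap (FF L M) (LaurentSeries L)) :=
    (algebraMap (FF L M) (LaurentSeries L)).injective
  have hroots : ((P.map (algebraMap (FF L M) (LaurentSeries L))).map (qExpand L q)).eval
      (jqModC L) = 0 := by
    rw [← coe_w_eval₂_alpha M q w hwα hwβ P, hroot, map_zero, map_zero]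
  have hroot1 : (P.map (algebraMap (FF L M) (LaurentSeries L))).eval
      (qExpand L q (jqModC L)) = 0 := by
    rw [← coe_eval₂_alpha M q P, hroot, map_zero]
  have hθ : th (IsLocalRing.ResidueField ↥W) (rd W (jqModC L)) ≠ 0 := by
    rw [rd_jq]
    exact th_jq_ne_zero _
  have hne : (qExpand (IsLocalRing.ResidueField ↥W) q (rd W (jqModC L))) ^ q ≠
      coeffMap (frobenius (IsLocalRing.ResidueField ↥W) q) (rd W (jqModC L)) := by
    rw [rd_jq]
    exact jq_hne _ q
  have key := theta_first W q (P.map (algebraMap (FF L M) (LaurentSeries L)))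
    (hPm.map _)
    (by rw [natDegree_map_eq_of_injective hcinj, hdeg])
    (fun i => by
      rw [coeff_map]
      exact Fermat.Agent.S34.FrobPartner.mem_contentRing_of_int W M (hint i))
    (jqModC L) (jq_mem_contentRing W) hθ hroots hroot1 hne
  rw [coe_eval₂_alpha M q P.derivative, ← derivative_map]
  exact key

/-- **The different element of `β(j)` over `α(FF L M)` and its two Gauss valuations.** -/
theorem exists_theta_chart (hq : q.Prime) (hqM : ¬ q ∣ M) (ι : L →+* Qb)
    {π : ↥W} (hπ : Irreducible π) (hunr : ∃ u : (↥W)ˣ, ((q : ℕ) : ↥W) = π * u)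
    (w : FF L (M * q) ≃ₐ[L] FF L (M * q))
    (hwα : (w : FF L (M * q) →ₐ[L] FF L (M * q)).comp (heckeAlphaBar L M q) =
      heckeBetaBar L M q)
    (hwβ : (w : FF L (M * q) →ₐ[L] FF L (M * q)).comp (heckeBetaBar L M q) =
      heckeAlphaBar L M q) :
    ∃ P : (FF L M)[X], P.Monic ∧ P.natDegree = q + 1 ∧
      (∀ i, (evF W M).IsIntegralElem (P.coeff i)) ∧
      P.eval₂ (heckeAlphaBar L M q).toRingHom (heckeBetaBar L M q (jBC L M)) = 0 ∧
      rd W (algebraMap (FF L (M * q)) (LaurentSeries L)
        (P.derivative.eval₂ (heckeAlphaBar L M q).toRingHom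
          (heckeBetaBar L M q (jBC L M)))) ≠ 0 ∧
      rd W (algebraMap (FF L (M * q)) (LaurentSeries L)
        (w (P.derivative.eval₂ (heckeAlphaBar L M q).toRingHom
          (heckeBetaBar L M q (jBC L M))))) = 0 ∧
      ∀ x E : FF L (M * q),
        x * P.derivative.eval₂ (heckeAlphaBar L M q).toRingHom (heckeBetaBar L M q (jBC L M)) =
          algebraMap L (FF L (M * q)) ((π : ↥W) : L) * E →
        algebraMap (FF L (M * q)) (LaurentSeries L) (w x) ∈ contentRing W →
        rd W (algebraMap (FF L (M * q)) (LaurentSeries L) (w x)) ≠ 0 →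
        algebraMap (FF L (M * q)) (LaurentSeries L) (w E) ∈ contentRing W ∧
          rd W (algebraMap (FF L (M * q)) (LaurentSeries L) (w E)) ≠ 0 := by
  classical
  haveI : Fact q.Prime := ⟨hq⟩
  obtain ⟨P, hPm, hdeg, hint, hroot, h, hh, hder, hrd⟩ :=
    exists_theta_poly W M q hq hqM ι hπ hunr w hwα hwβ
  have hder' : algebraMap (FF L (M * q)) (LaurentSeries L)
      (w (P.derivative.eval₂ (heckeAlphaBar L M q).toRingHom
        (heckeBetaBar L M q (jBC L M)))) = HahnSeries.C ((π : ↥W) : L) * h := hder
  refine ⟨P, hPm, hdeg, hint, hroot,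
    theta_chart_first M q W hq w hwα hwβ P hPm hdeg hint hroot, ?_, ?_⟩
  · -- second Gauss valuation is positive
    rw [hder', rd_mul W (C_mem_contentRing W π) hh, rd_C, residue_unif W hπ, map_zero, zero_mul]
  · -- second Gauss valuation is exactly one
    intro x E hxE hxW hxrd
    have hπ0 : (HahnSeries.C ((π : ↥W) : L) : LaurentSeries L) ≠ 0 := C_unif_ne_zero W hπ
    have h1 := congrArg (fun z : FF L (M * q) =>
      algebraMap (FF L (M * q)) (LaurentSeries L) (w z)) hxE
    simp only [map_mul, AlgEquiv.commutes] at h1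
    rw [hder', coe_algebraMap_const] at h1
    have h4 : algebraMap (FF L (M * q)) (LaurentSeries L) (w E) =
        algebraMap (FF L (M * q)) (LaurentSeries L) (w x) * h := by
      apply mul_left_cancel₀ hπ0
      rw [← h1]
      ring
    rw [h4]
    refine ⟨mul_mem hxW hh, ?_⟩
    rw [rd_mul W hxW hh]
    exact mul_ne_zero hxrd hrd

end Inst

end Fermat.Agent.S36.ThetaGauss
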