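import Mathlib
import Fermat.Agent.S36.NodeThick
import Fermat.Agent.S36.ThetaGauss

/-!
# S36 (R-ss): thickness one at the nodes of the finite chart of level `M q`, no hypothesis left

`NodeThick.node_thick_one` with its last input (Θ1) (first Gauss valuation of the different
element `P'(β j)` is zero) supplied by `ThetaGauss.exists_theta_chart`.

* `node_thick` : at an auxiliary, Frobenius-stable, unramified level, both branches
  `𝔭₁ = ker (rd ∘ coe)`, `𝔭₂ = ker (rd ∘ coe ∘ w)` of the finite chart `B` of level `M q` are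
  principal locally at every maximal ideal `𝔫 ⊇ 𝔭₁ + 𝔭₂` (chart form:
  `∃ z₀ ∈ 𝔭ᵢ, ∃ s ∉ 𝔫, ∀ b ∈ 𝔭ᵢ, z₀ ∣ s * b`).
-/

set_option autoImplicit false
set_option linter.unusedSectionVars false
set_option linter.style.haveILetI false

noncomputable section

namespace Fermat.Agent.S36.NodeThickFinal

open ModularCurve Polynomial AlgebraicCurve Fermat.Agent.S18 Fermat.Agent.S18.Gauss
  Fermat.Agent.S24 Fermat.Agent.S34.TwoGauss IsLocalRing

local notation "Qb" => AlgebraicClosure ℚ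

variable (A : ValuationSubring Qb) {L : Type} [Field L] [Algebra ℚ L] (ι : L →+* Qb)
  (M q : ℕ) [NeZero M] [NeZero q]

/-- **Thickness one at a node of the finite chart of level `M q`, chart form, no hypothesis
left.** -/
theorem node_thick (hq : q.Prime) (hqM : ¬ q ∣ M) (S : Finset Qb)
    (hlev : Fermat.Agent.S37.LevelChange.IsLevel A q S ι)
    (hstab : Fermat.Agent.S36.FrobLevel.FrobStable A q ι)
    (π : ↥(A.comap ι)) (hπ : Irreducible π)
    (hunr : ∃ u : (↥(A.comap ι))ˣ, ((q : ℕ) : ↥(A.comap ι)) = π * u)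
    {r : ℕ} (hr : r.Prime) (hr12 : r % 12 = 11) (hrM : r ∣ M)
    (w : FF L (M * q) ≃ₐ[L] FF L (M * q))
    (hwα : (w : FF L (M * q) →ₐ[L] FF L (M * q)).comp (heckeAlphaBar L M q) =
      heckeBetaBar L M q)
    (hwβ : (w : FF L (M * q) →ₐ[L] FF L (M * q)).comp (heckeBetaBar L M q) =
      heckeAlphaBar L M q)
    [Algebra (↥(A.comap ι))[X] (FF L M)]
    (halgM : algebraMap (↥(A.comap ι))[X] (FF L M) = evF (A.comap ι) M)
    (BM : Type) [CommRing BM] [Algebra (↥(A.comap ι))[X] BM] [Algebra BM (FF L M)]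
    [IsScalarTower (↥(A.comap ι))[X] BM (FF L M)]
    [IsIntegralClosure BM (↥(A.comap ι))[X] (FF L M)]
    [Algebra (↥(A.comap ι))[X] (FF L (M * q))]
    (halg : algebraMap (↥(A.comap ι))[X] (FF L (M * q)) = evF (A.comap ι) (M * q))
    (B : Type) [CommRing B] [Algebra (↥(A.comap ι))[X] B] [Algebra B (FF L (M * q))]
    [IsScalarTower (↥(A.comap ι))[X] B (FF L (M * q))]
    [IsIntegralClosure B (↥(A.comap ι))[X] (FF L (M * q))]
    (𝔫 : Ideal B) [𝔫.IsMaximal]
    (hk₁ : ∀ b : B, rd (A.comap ι)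
      ((algebraMap B (FF L (M * q)) b : FF L (M * q)) : LaurentSeries L) = 0 → b ∈ 𝔫)
    (hk₂ : ∀ b : B, rd (A.comap ι)
      ((w (algebraMap B (FF L (M * q)) b) : FF L (M * q)) : LaurentSeries L) = 0 → b ∈ 𝔫) :
    (∃ z₀ : B, rd (A.comap ι)
        ((algebraMap B (FF L (M * q)) z₀ : FF L (M * q)) : LaurentSeries L) = 0 ∧
      ∃ s, s ∉ 𝔫 ∧ ∀ b : B, rd (A.comap ι)
        ((algebraMap B (FF L (M * q)) b : FF L (M * q)) : LaurentSeries L) = 0 → z₀ ∣ s * b) ∧
    (∃ y₀ : B, rd (A.comap ι)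
        ((w (algebraMap B (FF L (M * q)) y₀) : FF L (M * q)) : LaurentSeries L) = 0 ∧
      ∃ s, s ∉ 𝔫 ∧ ∀ b : B, rd (A.comap ι)
        ((w (algebraMap B (FF L (M * q)) b) : FF L (M * q)) : LaurentSeries L) = 0 →
          y₀ ∣ s * b) := by
  have hlev' := hlev
  obtain ⟨-, -, hdvr, -, -, hchar, -, -⟩ := hlev'
  haveI := hdvr
  haveI := hchar
  refine NodeThick.node_thick_one A ι M q hq hqM S hlev hstab π hπ hunr hr hr12 hrM w hwα hwβ
    halgM BM halg B 𝔫 hk₁ hk₂ ?_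
  obtain ⟨P, hPm, hPdeg, -, hProot, hΘ, -⟩ :=
    ThetaGauss.exists_theta_chart M q (A.comap ι) hq hqM ι hπ hunr w hwα hwβ
  exact ⟨P, hPm, hPdeg, hProot, hΘ⟩

end Fermat.Agent.S36.NodeThickFinal
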