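import Mathlib
import Fermat.Agent.S34.BridgeChart
import Fermat.Agent.S36.NodeThickFinal
import Fermat.Agent.S36.RegFin36
import Fermat.Agent.S36.FrobPred

/-!
# S36, contract K4 on the finite chart: clause (N) of `RegFin36.reg36P₁_of_clauses`

`clauseN` : at every Frobenius-stable unramified level of an auxiliary level `M` (`r ∣ M`,
`r ≡ 11 mod 12`), the first branch of the finite chart of level `M q` is locally principal at
the nodes (thickness one): `NodeThickFinal.node_thick` on the literal chart rings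
`ChartHom.B1 W M`, `ChartHom.B1 W (M q)` (instances of `S34.BridgeChart`).
-/

set_option autoImplicit false
set_option linter.style.haveILetI false
set_option linter.unusedSectionVars false
set_option linter.unusedVariables false
set_option maxSynthPendingDepth 3

noncomputable section

namespace Fermat.Agent.S36.ClauseNInst

open Polynomial ModularCurve Fermat.Agent.S18 Fermat.Agent.S18.Gauss Fermat.Agent.S34
  Fermat.Agent.S37 Fermat.Agent.S36.Core36P Fermat.Agent.S36.ChartHom

local notation "Qb" => AlgebraicClosure ℚ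

attribute [local instance 10000] Fermat.Agent.S36.ChartHom.algWF

/-- **Clause (N)**: thickness one at the nodes of the finite chart of level `M q`, at every
Frobenius-stable unramified level. -/
theorem clauseN (M q p : ℕ) [NeZero M] [NeZero q] (hq : q.Prime) (hqM : ¬ q ∣ M)
    (haux : ∃ r : ℕ, r.Prime ∧ r % 12 = 11 ∧ r ∣ M ∧ r ≠ p) (A : ValuationSubring Qb)
    (hA : A.LiesOverPrime q) : RegFin36.ClauseN (FrobPred.frobPred A q) M q A := by
  obtain ⟨r, hr, hr12, hrM, -⟩ := haux
  refine ⟨∅, by simp, ?_⟩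
  intro L _ _ ι hlev hirr hstab w hwα hwβ ν hν hk₁ hk₂
  letI a1 := BridgeChart.algPoly (A.comap ι) M
  letI a2 := BridgeChart.algChart₁ (A.comap ι) M
  haveI t1 := BridgeChart.isScalarTower_chart₁ (A.comap ι) M
  haveI c1 := BridgeChart.isIntegralClosure_chart₁ (A.comap ι) M
  letI a3 := BridgeChart.algPoly (A.comap ι) (M * q)
  letI a4 := BridgeChart.algChart₁ (A.comap ι) (M * q)
  haveI t2 := BridgeChart.isScalarTower_chart₁ (A.comap ι) (M * q)
  haveI c2 := BridgeChart.isIntegralClosure_chart₁ (A.comap ι) (M * q)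
  haveI := hν
  obtain ⟨⟨z₀, hz₀, s, hs, hdiv⟩, -⟩ := NodeThickFinal.node_thick A ι M q hq hqM ∅ hlev hstab
    ((q : ℕ) : ↥(A.comap ι)) hirr ⟨1, by simp⟩ hr hr12 hrM w hwα hwβ rfl
    (BridgeChart.Chart₁ (A.comap ι) M) rfl (BridgeChart.Chart₁ (A.comap ι) (M * q)) ν
    (fun b hb => hk₁ b hb) (fun b hb => hk₂ b hb)
  exact ⟨z₀, s, hz₀, hs, fun b hb => hdiv b hb⟩

end Fermat.Agent.S36.ClauseNInst
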