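/-
S36 (wave 8), contract K4 on the finite chart, FINAL FORM:
`RegDefsP.Reg36P₁ (frobPred A q) M q A` — at every Frobenius-stable unramified level, the
horizontal primes through the closed points of the special fibre of the finite chart of level
`M q²` are locally principal (`q ∤ M` prime, `M` divisible by an auxiliary prime
`r ≡ 11 mod 12`).

Assembly `RegFin36.reg36P₁_of_clauses` of the three clauses:
* `ClauseAInst.clauseA`  : the points over the first branch of level `M q` (`SsHorInst`);
* `ClauseNInst.clauseN`  : thickness one at the nodes of level `M q` (`NodeThickFinal`);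
* `ClauseIIK4.clauseII`  : the remaining points (`OrdK4`, two-point route).
-/
import Mathlib
import Fermat.Agent.S36.RegFin36
import Fermat.Agent.S36.FrobPred
import Fermat.Agent.S36.ClauseAInst
import Fermat.Agent.S36.ClauseNInst
import Fermat.Agent.S36.ClauseIIK4

set_option autoImplicit false

noncomputable section

namespace Fermat.Agent.S36.RegFin36Inst

open ModularCurve Fermat.Agent.S37 Fermat.Agent.S36 Fermat.Agent.S36.Core36P
open Fermat.Agent.S36.FrobPred

local notation "Qb" => AlgebraicClosure ℚ

/-- **(REG36₁)** at the Frobenius-stable unramified levels, for `q ∤ M` and `M` divisible by an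
auxiliary prime `r ≡ 11 mod 12`. -/
theorem reg36P₁ (M q p : ℕ) [NeZero M] [NeZero q] (hq : q.Prime) (hqM : ¬ q ∣ M)
    (haux : ∃ r : ℕ, r.Prime ∧ r % 12 = 11 ∧ r ∣ M ∧ r ≠ p)
    (A : ValuationSubring Qb) (hA : A.LiesOverPrime q) :
    RegDefsP.Reg36P₁ (frobPred A q) M q A := by
  obtain ⟨r, hr, hr12, hrM, hrp⟩ := haux
  exact RegFin36.reg36P₁_of_clauses (frobPred A q) M q hq hqM A
    (ClauseAInst.clauseA (frobPred A q) M q hq hqM A)
    (ClauseNInst.clauseN M q p hq hqM ⟨r, hr, hr12, hrM, hrp⟩ A hA)
    (ClauseIIK4.clauseII M q hq hqM hr hr12 hrM A)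

end Fermat.Agent.S36.RegFin36Inst
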