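/-
S36 (wave 8), (TOP): **the geometric contract `Contract.FixedNewBoundAll p`** of
`S36Of.s36_of_fixedNewBound`, for every prime `p`.

Final assembly `FrobPred.fixedNewBoundAll_of_gauss_loc_frob` of the ledger contracts:
* K2  `Gauss36Thm.gauss36`        : `ecoreL y ≡ 1` on the Gauss ring of level `M q²`;
* K7  `Loc36Fin.loc36P₁`, `Loc36Cusp.loc36P₂` : the local Kummer data on the two charts;
* K4  `RegFin36Inst.reg36P₁`, `CuspReg.reg36₂` : horizontal primes are locally principal at
  the closed points of the special fibre (finite chart) and at the cusps;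
* (inside `FrobPred`) K8 core, K9 auxiliary level, K10 descent, Frobenius-stable unramified
  levels, base change of `E36`.
-/
import Mathlib
import Fermat.Agent.S36.FrobPred
import Fermat.Agent.S36.RegDefsP
import Fermat.Agent.S36.Gauss36Thm
import Fermat.Agent.S36.Loc36Fin
import Fermat.Agent.S36.Loc36Cusp
import Fermat.Agent.S36.CuspReg
import Fermat.Agent.S36.RegFin36Inst

set_option autoImplicit false

noncomputable section

namespace Fermat.Agent.S36.Top36

open ModularCurve AlgebraicCurve Fermat.Agent.S37 Fermat.Agent.S36 Fermat.Agent.S36.Core36P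
open Fermat.Agent.S36.FrobPred

local notation "Qb" => AlgebraicClosure ℚ

/-- **(TOP) The geometric contract of S36.** -/
theorem fixedNewBoundAll (p : ℕ) (hp : p.Prime) : Contract.FixedNewBoundAll p :=
  fixedNewBoundAll_of_gauss_loc_frob p hp
    (fun M q _ _ hq hqM A hA => Gauss36Thm.gauss36 M q hq hqM A hA)
    (fun M q _ _ hq hqM _ haux A hA =>
      ⟨Loc36Fin.loc36P₁ (frobPred A q) M q p hq A (Gauss36Thm.gauss36 M q hq hqM A hA)
          (RegFin36Inst.reg36P₁ M q p hq hqM haux A hA),
        Loc36Cusp.loc36P₂ (frobPred A q) M q p hq A (Gauss36Thm.gauss36 M q hq hqM A hA)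
          (RegDefsP.reg36P₂_of_reg36₂ (frobPred A q) M q A (CuspReg.reg36₂ M q hq hqM A))⟩)

end Fermat.Agent.S36.Top36
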