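/-
S36 (wave 8), package (R-ell), part (E2)(c): no elliptic points at an auxiliary level, at an
arbitrary coefficient level `L ⊆ ℚ̄`, in place currency and in ideal currency.

Let `r` be a prime with `r % 12 = 11` and `r ∣ N`.  At every place `v` of `FF L N` a zero of `j`
has order exactly `3` and a zero of `j - 1728` has order exactly `2` (`ramJ_of_hom_aux`); for a
Dedekind chart `BF` of `FF L N` over `L[X]` (`X ↦ j`) every nonzero prime over `(X)` has
ramification index `3` and every nonzero prime over `(X - 1728)` has ramification index `2`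
(`ramificationIdx_of_hom_aux`).  Hence a level-raising extension of such charts is unramified at
these primes (`ramificationIdx_eq_one_of_aux`, abstract tower form).

Proof: a place `v'` of `FF ℚ̄ N` over `v` (`S18.RamJ.exists_place_bar`) has
`ord_{v'} ∘ bc = e • ord_v`; `HorizOrd.exists_ord_eq_one` (places of `F_ℚ̄` are unramified over
every level) forces `e = 1`; then `AuxRam.ramJ_bar_aux` at `v'`.
-/
import Mathlib
import Fermat.Agent.S18.RamJIdeal
import Fermat.Agent.S36.AuxRam
import Fermat.Agent.S36.HorizOrd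

set_option autoImplicit false

namespace Fermat.Agent.S36.AuxRamIdeal

open AlgebraicCurve ModularCurve Polynomial IsDedekindDomain
open Fermat.Agent.S24 Fermat.Agent.S18.RamJ

local notation "Qb" => AlgebraicClosure ℚ

variable {L : Type} [Field L] [Algebra ℚ L]

/-- a place of `FF ℚ̄ N` over a given place of `FF L N`, with the SAME orders (the constant
field extension is unramified) -/
theorem exists_place_bar_ord_eq (ι : L →+* Qb) (N : ℕ) [NeZero N] (v : Place L (FF L N)) :
    ∃ v' : Place Qb (FF Qb N),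
      (∀ f : FF L N, f ∈ v.toValuationSubring ↔
        CoeffBC.bc ι (modularFunctionFieldFull N) f ∈ v'.toValuationSubring) ∧
      ∀ f : FF L N, v'.ord (CoeffBC.bc ι (modularFunctionFieldFull N) f) = v.ord f := by
  obtain ⟨v', e, he, hmem, hord⟩ := exists_place_bar ι N v
  obtain ⟨y, hy⟩ := Fermat.Agent.S36.HorizOrd.exists_ord_eq_one N ι v'
  rw [hord] at hy
  have he1 : e = 1 := Int.eq_one_of_dvd_one he.le ⟨v.ord y, hy.symm⟩
  refine ⟨v', hmem, fun f => ?_⟩
  rw [hord, he1, one_mul]

/-- **(E2) at level `L`, place currency.**  If a prime `r` with `r % 12 = 11` divides `N`, then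
at every place of `FF L N` a zero of `j` has order exactly `3` and a zero of `j - 1728` has order
exactly `2`. -/
theorem ramJ_of_hom_aux (ι : L →+* Qb) {N r : ℕ} [NeZero N] (hr : r.Prime) (hr12 : r % 12 = 11)
    (hrN : r ∣ N) (v : Place L (FF L N)) :
    (0 < v.ord (jBC L N) → v.ord (jBC L N) = 3) ∧
    (0 < v.ord (jBC L N - algebraMap L (FF L N) 1728) →
      v.ord (jBC L N - algebraMap L (FF L N) 1728) = 2) := by
  obtain ⟨v', -, hord⟩ := exists_place_bar_ord_eq ι N v
  constructor
  · intro h
    have h1 : v'.ord (jBC Qb N - algebraMap Qb (FF Qb N) 0) = v.ord (jBC L N) := by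
      rw [map_zero, sub_zero, ← bc_jBC ι N, hord]
    have h2 := (Fermat.Agent.S36.AuxRam.ramJ_bar_aux hr hr12 hrN v' 0 (by rw [h1]; exact h)).1 rfl
    rw [h1] at h2
    exact h2
  · intro h
    have h1 : v'.ord (jBC Qb N - algebraMap Qb (FF Qb N) 1728) =
        v.ord (jBC L N - algebraMap L (FF L N) 1728) := by
      have e : ι 1728 = 1728 := map_ofNat ι 1728
      rw [← hord, map_sub, bc_jBC ι N, CoeffBC.bc_algebraMap, e]
    have h2 := (Fermat.Agent.S36.AuxRam.ramJ_bar_aux hr hr12 hrN v' 1728
      (by rw [h1]; exact h)).2 rfl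
    rw [h1] at h2
    exact h2

/-- **(E2) at level `L`, ideal currency.**  `BF` a Dedekind domain with fraction field `FF L N`,
an algebra over `L[X]` (with `X ↦ j`), `r ∣ N` a prime with `r % 12 = 11`.  A nonzero prime `P`
of `BF` over `(X)` has ramification index exactly `3` over `L[X]`, and a nonzero prime over
`(X - 1728)` has ramification index exactly `2`. -/
theorem ramificationIdx_of_hom_aux (ι : L →+* Qb) {N r : ℕ} [NeZero N] (hr : r.Prime)
    (hr12 : r % 12 = 11) (hrN : r ∣ N)
    [Algebra L[X] (FF L N)] [IsScalarTower L L[X] (FF L N)]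
    (hX : algebraMap L[X] (FF L N) X = jBC L N)
    {BF : Type*} [CommRing BF] [IsDedekindDomain BF] [Algebra L[X] BF] [Algebra BF (FF L N)]
    [IsScalarTower L[X] BF (FF L N)] [IsFractionRing BF (FF L N)]
    (P : Ideal BF) [hPp : P.IsPrime] (hP : P ≠ ⊥) :
    (X ∈ P.under L[X] → P.ramificationIdx L[X] = 3) ∧
    (X - C 1728 ∈ P.under L[X] → P.ramificationIdx L[X] = 2) := by
  have hK : ∀ a : L, algebraMap L (FF L N) a ∈ (algebraMap BF (FF L N)).range := fun a =>
    ⟨algebraMap L[X] BF (C a), by
      rw [← IsScalarTower.algebraMap_apply L[X] BF (FF L N), ← Polynomial.algebraMap_eq,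
        ← IsScalarTower.algebraMap_apply L L[X] (FF L N)]⟩
  have haev : ∀ p : L[X], algebraMap L[X] (FF L N) p = aeval (jBC L N) p := by
    intro p
    rw [← hX, Polynomial.aeval_algebraMap_apply, Polynomial.aeval_X_left_apply]
  have htr := transcendental_jBC ι N
  have hne : ∀ g : L[X], g ≠ 0 → algebraMap L[X] BF g ≠ 0 := by
    intro g hg h0
    have h1 : algebraMap L[X] (FF L N) g = 0 := by
      rw [IsScalarTower.algebraMap_apply L[X] BF (FF L N), h0, map_zero]
    rw [haev] at h1
    exact htr ⟨g, hg, h1⟩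
  set v := PrimeBridge.placeOfPrime BF hK ⟨P, hPp, hP⟩ with hv
  have hprime : (P.under L[X]).IsPrime := Ideal.comap_isPrime _ _
  have key : ∀ g : L[X], g ≠ 0 → P.under L[X] = Ideal.span {g} →
      ((P.ramificationIdx L[X] : ℕ) : ℤ) = v.ord (aeval (jBC L N) g) ∧
        0 < v.ord (aeval (jBC L N) g) := by
    intro g hg hPg
    have h1 := ramificationIdx_eq_ord hK P hP g (hne g hg) hPg
    rw [← IsScalarTower.algebraMap_apply L[X] BF (FF L N), haev] at h1
    refine ⟨h1, ?_⟩
    have hmem : algebraMap L[X] BF g ∈ P := by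
      have : g ∈ P.under L[X] := by rw [hPg]; exact Ideal.mem_span_singleton_self g
      exact this
    have h2 := (PrimeBridge.placeOfPrime_ord_pos_iff BF hK ⟨P, hPp, hP⟩ _ (hne g hg)).mpr hmem
    rw [← IsScalarTower.algebraMap_apply L[X] BF (FF L N), haev] at h2
    exact h2
  have hmax : ∀ g : L[X], Irreducible g → g ∈ P.under L[X] → P.under L[X] = Ideal.span {g} := by
    intro g hg hmem
    have hm : (Ideal.span {g}).IsMaximal := PrincipalIdealRing.isMaximal_of_irreducible hg
    exact (hm.eq_of_le hprime.ne_top ((Ideal.span_singleton_le_iff_mem _).mpr hmem)).symm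
  obtain ⟨hj0, hj1⟩ := ramJ_of_hom_aux ι hr hr12 hrN v
  refine ⟨fun hXmem => ?_, fun hXmem => ?_⟩
  · obtain ⟨h1, h2⟩ := key X Polynomial.X_ne_zero (hmax X Polynomial.irreducible_X hXmem)
    rw [aeval_X] at h1 h2
    have h3 := hj0 h2
    rw [← h1] at h3
    exact_mod_cast h3
  · have hirr := Polynomial.irreducible_X_sub_C (1728 : L)
    obtain ⟨h1, h2⟩ := key (X - C 1728) hirr.ne_zero (hmax _ hirr hXmem)
    rw [map_sub, aeval_X, aeval_C] at h1 h2
    have h3 := hj1 h2
    rw [← h1] at h3
    exact_mod_cast h3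

end Fermat.Agent.S36.AuxRamIdeal
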