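/-
S36 (wave 8, package (R-ell) / K9, wiring): the geometric contract from the operator relation at
the levels WITHOUT ELLIPTIC POINTS only.

`fixedNewBoundAll_of_opRel_aux` : `Contract.FixedNewBoundAll p` follows from
`FixTop.OpRel (M * q) q p` for the tame levels `M` (`q ∤ M`) divisible by a prime `r ≡ 11 mod 12`,
`r ≠ p` (`AuxLevel.fixedNewBoundAll_of_aux` + `FixTop.fixedNewBound_of_opRel`).
-/
import Mathlib
import Fermat.Agent.S36.Contract
import Fermat.Agent.S36.FixTop
import Fermat.Agent.S36.AuxLevel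

set_option autoImplicit false

namespace Fermat.Agent.S36.AuxWire

/-- **The geometric contract from the operator relation at the levels `M q²` with `M` divisible by
an auxiliary prime `r ≡ 11 mod 12`.** -/
theorem fixedNewBoundAll_of_opRel_aux (p : ℕ) (hp : p ≠ 0)
    (h : ∀ (M q : ℕ) [NeZero M] [NeZero q], q.Prime → ¬ q ∣ M → q ≠ p →
      (∃ r : ℕ, r.Prime ∧ r % 12 = 11 ∧ r ∣ M ∧ r ≠ p) →
      Fermat.Agent.S36.FixTop.OpRel (M * q) q p) :
    Fermat.Agent.S36.Contract.FixedNewBoundAll p :=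
  Fermat.Agent.S36.AuxLevel.fixedNewBoundAll_of_aux p hp fun M q _ _ hq hqM hqp hr =>
    Fermat.Agent.S36.FixTop.fixedNewBound_of_opRel hp hq.one_lt (h M q hq hqM hqp hr)

end Fermat.Agent.S36.AuxWire
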