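import Mathlib
import Fermat.Agent.S35.NormLevel
import Fermat.Agent.S36.DegreeDvd
import Fermat.Agent.S36.ConstPow

/-!
# S36 (wave 8), brick for TOP: norms along the degeneracy maps commute with the change of level

No root of unity, no Atkin–Lehner automorphism, no hypothesis `¬ l ∣ N`.

* `norm_map_of_span` (abstract, fields only): for two field extensions `F₂ / F₁`, `F₂' / F₁'` of
  the same finite degree and compatible ring homomorphisms `b₁ : F₁ →+* F₁'`, `b₂ : F₂ →+* F₂'`
  such that `F₂'` is spanned over `F₁'` by the image of `b₂`: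
  `Algebra.norm F₁' (b₂ y) = b₁ (Algebra.norm F₁ y)`.
* `span_range_bc`: for a change of constants `τ : L →+* K`, the function field `FF K M'` is
  spanned by the image of `FF L M'` over any subfield `φ' (FF K M)` of finite index.
* `bc_normAlong`: `bc (N_φ y) = N_φ' (bc y)` for any pair of `bc`-compatible embeddings
  `φ : FF L M →ₐ[L] FF L M'`, `φ' : FF K M →ₐ[K] FF K M'` of the same degree.
* `bc_normAlong_alpha`, `bc_normAlong_beta`: the two degeneracy maps, for EVERY prime `l`
  (dividing the level or not).
* `bc_omega`, `bc_E36`: the operators `Ω` and `E36` of `S36.ConstPow` commute with `bc`.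
-/

set_option autoImplicit false
set_option linter.style.haveILetI false

noncomputable section

namespace Fermat.Agent.S36.BcNorm

open ModularCurve AlgebraicCurve IntermediateField Polynomial Fermat.Agent.S24
open Fermat.Agent.S37.AtkinLehner Fermat.Agent.S35

/-! ### The abstract statement -/

section Abstract

variable {F₁ F₂ F₁' F₂' : Type*} [Field F₁] [Field F₂] [Field F₁'] [Field F₂']
  [Algebra F₁ F₂] [Algebra F₁' F₂']

/-- Norms commute with a compatible pair of ring homomorphisms between two finite field
extensions of the same degree, as soon as the image of the top field spans. -/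
theorem norm_map_of_span [FiniteDimensional F₁ F₂] (b₁ : F₁ →+* F₁') (b₂ : F₂ →+* F₂')
    (hcomm : ∀ x, b₂ (algebraMap F₁ F₂ x) = algebraMap F₁' F₂' (b₁ x))
    (hrank : Module.finrank F₁' F₂' = Module.finrank F₁ F₂)
    (hspan : Submodule.span F₁' (Set.range b₂) = ⊤) (y : F₂) :
    Algebra.norm F₁' (b₂ y) = b₁ (Algebra.norm F₁ y) := by
  classical
  let bs := Module.finBasis F₁ F₂
  let v : Fin (Module.finrank F₁ F₂) → F₂' := fun i => b₂ (bs i)
  have hb₂ : ∀ x : F₂, b₂ x = ∑ i, b₁ (bs.repr x i) • v i := by
    intro x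
    conv_lhs => rw [← bs.sum_repr x]
    rw [map_sum]
    refine Finset.sum_congr rfl fun i _ => ?_
    rw [Algebra.smul_def, map_mul, hcomm, Algebra.smul_def]
  have hv : ⊤ ≤ Submodule.span F₁' (Set.range v) := by
    rw [← hspan, Submodule.span_le]
    rintro _ ⟨x, rfl⟩
    rw [hb₂ x]
    exact Submodule.sum_mem _ fun i _ => Submodule.smul_mem _ _ (Submodule.subset_span ⟨i, rfl⟩)
  let bv : Module.Basis (Fin (Module.finrank F₁ F₂)) F₁' F₂' :=
    basisOfTopLeSpanOfCardEqFinrank v hv (by rw [Fintype.card_fin, hrank])
  have hbv : ∀ i, bv i = v i := fun i => by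
    show (basisOfTopLeSpanOfCardEqFinrank v hv _) i = v i
    rw [coe_basisOfTopLeSpanOfCardEqFinrank]
  rw [Algebra.norm_eq_matrix_det bv, Algebra.norm_eq_matrix_det bs, RingHom.map_det]
  congr 1
  ext i j
  rw [RingHom.mapMatrix_apply, Matrix.map_apply, Algebra.leftMulMatrix_eq_repr_mul,
    Algebra.leftMulMatrix_eq_repr_mul, hbv]
  have h1 : b₂ y * v j = ∑ i, b₁ (bs.repr (y * bs j) i) • bv i := by
    rw [← map_mul, hb₂]
    exact Finset.sum_congr rfl fun i _ => by rw [hbv]
  rw [h1, bv.repr_sum_self]

end Abstract

/-! ### The change of constants of the modular function fields -/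

section Level

variable {L K : Type*} [Field L] [Algebra ℚ L] [Field K] [Algebra ℚ K] (τ : L →+* K)

/-- For a change of constants `τ : L →+* K`, the function field `FF K M'` is spanned by the image
of `FF L M'` over every subfield `φ' (FF K M)` of finite index. -/
theorem span_range_bc (M M' : ℕ) [NeZero M'] (φ' : FF K M →ₐ[K] FF K M')
    (hfin : letI := algebraAlong φ'; FiniteDimensional (FF K M) (FF K M')) :
    letI := algebraAlong φ'
    Submodule.span (FF K M) (Set.range (CoeffBC.bc τ (modularFunctionFieldFull M'))) = ⊤ := by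
  letI := algebraAlong φ'
  haveI : FiniteDimensional (FF K M) (FF K M') := hfin
  set b₂ := CoeffBC.bc τ (modularFunctionFieldFull M') with hb₂
  let A : Subalgebra (FF K M) (FF K M') := Algebra.adjoin (FF K M) (Set.range b₂)
  have hA : Subalgebra.toSubmodule A = Submodule.span (FF K M) (Set.range b₂) := by
    rw [Algebra.adjoin_eq_span]
    congr 1
    have h1 : (Set.range b₂ : Set (FF K M')) =
        ((b₂.range.toSubmonoid : Submonoid (FF K M')) : Set (FF K M')) := by
      ext x
      rfl
    rw [h1, Submonoid.closure_eq]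
  rw [← hA]
  let E : IntermediateField K (FF K M') :=
    { toSubalgebra :=
        { A.toSubsemiring with
          algebraMap_mem' := fun c => by
            have h1 : algebraMap K (FF K M') c =
                algebraMap (FF K M) (FF K M') (algebraMap K (FF K M) c) := (φ'.commutes c).symm
            show algebraMap K (FF K M') c ∈ A
            rw [h1]
            exact A.algebraMap_mem _ }
      inv_mem' := fun x hx => by
        have hx' : x ∈ A := hx
        exact A.inv_mem_of_algebraic (x := ⟨x, hx'⟩) (Algebra.IsAlgebraic.isAlgebraic x) }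
  have hE : E = ⊤ := by
    apply eq_top_of_jser_mem
    intro d hd x hx
    show x ∈ A
    have hmem := jser_mem L M' d (NeZero.ne M') hd
    have h1 : x = b₂ ⟨jser L d, hmem⟩ := by
      apply Subtype.ext
      rw [hx]
      exact (NormLevel.coe_bc_jser τ M' d ⟨jser L d, hmem⟩ rfl).symm
    rw [h1]
    exact Algebra.subset_adjoin ⟨_, rfl⟩
  rw [eq_top_iff]
  intro x _
  have hx : x ∈ E := by rw [hE]; exact IntermediateField.mem_top
  exact hx

/-- **Norms commute with the change of constants**, for any pair of `bc`-compatible embeddings of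
function fields of the same (nonzero) degree. -/
theorem bc_normAlong (M M' : ℕ) [NeZero M'] (φ : FF L M →ₐ[L] FF L M')
    (φ' : FF K M →ₐ[K] FF K M')
    (hφ : ∀ x, CoeffBC.bc τ (modularFunctionFieldFull M') (φ x) =
      φ' (CoeffBC.bc τ (modularFunctionFieldFull M) x))
    (hdeg : finrankAlong K φ' = finrankAlong L φ) (hpos : finrankAlong L φ ≠ 0)
    (y : FF L M') :
    CoeffBC.bc τ (modularFunctionFieldFull M) (EsOrd.normAlong φ y) =
      EsOrd.normAlong φ' (CoeffBC.bc τ (modularFunctionFieldFull M') y) := by
  letI i₁ := algebraAlong φ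
  letI i₂ := algebraAlong φ'
  have hpos' : 0 < Module.finrank (FF L M) (FF L M') := Nat.pos_of_ne_zero hpos
  haveI : FiniteDimensional (FF L M) (FF L M') := Module.finite_of_finrank_pos hpos'
  have hdeg' : Module.finrank (FF K M) (FF K M') = Module.finrank (FF L M) (FF L M') := hdeg
  have hfin' : FiniteDimensional (FF K M) (FF K M') :=
    Module.finite_of_finrank_pos (by rw [hdeg']; exact hpos')
  exact (norm_map_of_span (CoeffBC.bc τ (modularFunctionFieldFull M))
    (CoeffBC.bc τ (modularFunctionFieldFull M')) hφ hdeg' (span_range_bc τ M M' φ' hfin') y).symm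

/-- the degree of `α`, for every prime `l` -/
theorem finrankAlong_alpha_eq (ι : L →+* AlgebraicClosure ℚ) (N l : ℕ) [NeZero N] [NeZero l]
    (hl : l.Prime) :
    finrankAlong L (heckeAlphaBar L N l) = if l ∣ N then l else l + 1 := by
  split_ifs with h
  · exact DegreeDvd.finrankAlong_alpha_of_dvd_of_bar L ι N l h
  · exact Fermat.Agent.S34.DegreeL.finrankAlong_alpha_of_bar L ι N l hl h

/-- the degree of `β`, for every prime `l` -/
theorem finrankAlong_beta_eq (ι : L →+* AlgebraicClosure ℚ) (N l : ℕ) [NeZero N] [NeZero l]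
    (hl : l.Prime) :
    finrankAlong L (heckeBetaBar L N l) = if l ∣ N then l else l + 1 := by
  split_ifs with h
  · exact DegreeDvd.finrankAlong_beta_of_dvd_of_bar L ι N l hl h
  · exact Fermat.Agent.S34.DegreeL.finrankAlong_beta_of_bar L ι N l hl h

/-- **The norm along `α` commutes with the change of level**, for every prime `l`
(dividing `N` or not); no root of unity is needed. -/
theorem bc_normAlong_alpha (ι : K →+* AlgebraicClosure ℚ) (N l : ℕ) [NeZero N] [NeZero l]
    (hl : l.Prime) (y : FF L (N * l)) :
    CoeffBC.bc τ (modularFunctionFieldFull N) (EsOrd.normAlong (heckeAlphaBar L N l) y) =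
      EsOrd.normAlong (heckeAlphaBar K N l)
        (CoeffBC.bc τ (modularFunctionFieldFull (N * l)) y) := by
  refine bc_normAlong τ N (N * l) _ _ (NormLevel.bc_alpha τ N l) ?_ ?_ y
  · rw [finrankAlong_alpha_eq ι N l hl, finrankAlong_alpha_eq (ι.comp τ) N l hl]
  · rw [finrankAlong_alpha_eq (ι.comp τ) N l hl]
    split_ifs
    · exact hl.ne_zero
    · exact Nat.succ_ne_zero l

/-- **The norm along `β` commutes with the change of level**, for every prime `l`
(dividing `N` or not); no root of unity is needed. -/
theorem bc_normAlong_beta (ι : K →+* AlgebraicClosure ℚ) (N l : ℕ) [NeZero N] [NeZero l]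
    (hl : l.Prime) (y : FF L (N * l)) :
    CoeffBC.bc τ (modularFunctionFieldFull N) (EsOrd.normAlong (heckeBetaBar L N l) y) =
      EsOrd.normAlong (heckeBetaBar K N l)
        (CoeffBC.bc τ (modularFunctionFieldFull (N * l)) y) := by
  refine bc_normAlong τ N (N * l) _ _ (NormLevel.bc_beta τ N l) ?_ ?_ y
  · rw [finrankAlong_beta_eq ι N l hl, finrankAlong_beta_eq (ι.comp τ) N l hl]
  · rw [finrankAlong_beta_eq (ι.comp τ) N l hl]
    split_ifs
    · exact hl.ne_zero
    · exact Nat.succ_ne_zero l

/-- **`Ω` commutes with the change of level.** -/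
theorem bc_omega (ι : K →+* AlgebraicClosure ℚ) (N l : ℕ) [NeZero N] [NeZero l]
    (hl : l.Prime) (y : FF L (N * l)) :
    CoeffBC.bc τ (modularFunctionFieldFull (N * l))
        (ConstPow.omega (heckeAlphaBar L N l) (heckeBetaBar L N l) y) =
      ConstPow.omega (heckeAlphaBar K N l) (heckeBetaBar K N l)
        (CoeffBC.bc τ (modularFunctionFieldFull (N * l)) y) := by
  unfold ConstPow.omega
  rw [map_mul, NormLevel.bc_alpha, NormLevel.bc_beta, bc_normAlong_alpha τ ι N l hl,
    bc_normAlong_beta τ ι N l hl]

/-- **`E36` commutes with the change of level.** -/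
theorem bc_E36 (ι : K →+* AlgebraicClosure ℚ) (N l : ℕ) [NeZero N] [NeZero l]
    (hl : l.Prime) (q : ℕ) (y : FF L (N * l)) :
    CoeffBC.bc τ (modularFunctionFieldFull (N * l))
        (ConstPow.E36 (heckeAlphaBar L N l) (heckeBetaBar L N l) q y) =
      ConstPow.E36 (heckeAlphaBar K N l) (heckeBetaBar K N l) q
        (CoeffBC.bc τ (modularFunctionFieldFull (N * l)) y) := by
  unfold ConstPow.E36
  rw [map_mul, map_mul, map_mul, map_pow, map_pow, map_pow, map_inv₀, map_inv₀,
    bc_omega τ ι N l hl, bc_omega τ ι N l hl, bc_omega τ ι N l hl]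

end Level

end Fermat.Agent.S36.BcNorm
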