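/-
S36 (wave 8), LEDGER v1.2 (3): **(FACT) on the literal chart rings**, conclusion SYNTACTICALLY the
hypothesis `hfact` of `HLocAbs.hloc_of_chain` at `R := Algebra.adjoin W {j}` (resp. `{j⁻¹}`),
`B := integralClosure R (FF L N)`, `π := algebraMap W R ϖ`.

* `pi_mem_iff`, `pi_notMem_iff` : the two currencies for "`ϖ ∈ 𝔫`" (the element
  `algebraMap R B (algebraMap W R ϖ)` of `HLocAbs`/`HUChain`, and the elementwise form of
  `RegDefs` / `RegDefsP` / `Core36.Loc36`).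
* `exists_factor₁`, `exists_factor₂` : regularity assumed at the members of `S` (clause of
  `RegDefsP` without the premises on `𝔫`).
* `exists_factor_reg₁`, `exists_factor_reg₂` : regularity in the LITERAL shape of the level
  clause of `RegDefsP.Reg36P₁` / `Reg36P₂` (all `𝔫` maximal containing `ϖ` [and `j⁻¹`]).

All four are `FactAdjoin` with `πB := algebraMap R B (algebraMap W R ϖ)`.
-/
import Mathlib
import Fermat.Agent.S36.FactAdjoin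

set_option autoImplicit false
set_option linter.unusedSectionVars false
set_option linter.style.haveILetI false

noncomputable section

namespace Fermat.Agent.S36.ChartCarrier

open Polynomial ModularCurve AlgebraicCurve Fermat.Agent.S18 Fermat.Agent.S18.Gauss
  Fermat.Agent.S24 Fermat.Agent.S34

local notation "Qb" => AlgebraicClosure ℚ

variable {L : Type} [Field L] [Algebra ℚ L] (W : ValuationSubring L) (N : ℕ) [NeZero N]

set_option maxHeartbeats 800000 in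
set_option synthInstance.maxHeartbeats 400000 in
-- the instances `Algebra ↥W (FF L N)`, `Algebra W[x₀] (integralClosure W[x₀] F)` are found slowly
/-- "`ϖ ∈ 𝔫`": the element form and the elementwise form agree. -/
theorem pi_mem_iff (x₀ : FF L N) (ϖ : W)
    (𝔫 : Ideal (integralClosure (Algebra.adjoin ↥W {x₀}) (FF L N))) :
    algebraMap (Algebra.adjoin ↥W {x₀}) (integralClosure (Algebra.adjoin ↥W {x₀}) (FF L N))
        (algebraMap ↥W (Algebra.adjoin ↥W {x₀}) ϖ) ∈ 𝔫 ↔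
      ∀ r : integralClosure (Algebra.adjoin ↥W {x₀}) (FF L N),
        (r : FF L N) = algebraMap ↥W (FF L N) ϖ → r ∈ 𝔫 := by
  constructor
  · intro h r hr
    have : r = algebraMap (Algebra.adjoin ↥W {x₀})
        (integralClosure (Algebra.adjoin ↥W {x₀}) (FF L N))
        (algebraMap ↥W (Algebra.adjoin ↥W {x₀}) ϖ) := Subtype.ext hr
    exact this ▸ h
  · intro h
    exact h _ rfl

set_option maxHeartbeats 800000 in
set_option synthInstance.maxHeartbeats 400000 in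
-- the instances `Algebra ↥W (FF L N)`, `Algebra W[x₀] (integralClosure W[x₀] F)` are found slowly
/-- "`ϖ ∉ 𝔮`": the element form and the elementwise form agree. -/
theorem pi_notMem_iff (x₀ : FF L N) (ϖ : W)
    (𝔮 : Ideal (integralClosure (Algebra.adjoin ↥W {x₀}) (FF L N))) :
    algebraMap (Algebra.adjoin ↥W {x₀}) (integralClosure (Algebra.adjoin ↥W {x₀}) (FF L N))
        (algebraMap ↥W (Algebra.adjoin ↥W {x₀}) ϖ) ∉ 𝔮 ↔
      ∃ r : integralClosure (Algebra.adjoin ↥W {x₀}) (FF L N),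
        (r : FF L N) = algebraMap ↥W (FF L N) ϖ ∧ r ∉ 𝔮 := by
  constructor
  · intro h
    exact ⟨_, rfl, h⟩
  · rintro ⟨r, hr, hr𝔮⟩ h
    have : r = algebraMap (Algebra.adjoin ↥W {x₀})
        (integralClosure (Algebra.adjoin ↥W {x₀}) (FF L N))
        (algebraMap ↥W (Algebra.adjoin ↥W {x₀}) ϖ) := Subtype.ext hr
    exact hr𝔮 (this ▸ h)

variable [IsDiscreteValuationRing W]

set_option maxHeartbeats 800000 in
set_option synthInstance.maxHeartbeats 400000 in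
-- the instances `Algebra ↥W (FF L N)`, `Algebra W[j] (integralClosure W[j] F)` are found slowly
/-- **(FACT), finite chart** (`hfact` of `HLocAbs.hloc_of_chain`). -/
theorem exists_factor₁ (ι : L →+* Qb) {ϖ : W} (hϖ : Irreducible ϖ)
    (S : Set (Ideal (integralClosure (Algebra.adjoin ↥W {jBC L N}) (FF L N)))) (hS : S.Finite)
    (hmax : ∀ 𝔫 ∈ S, 𝔫.IsMaximal)
    (hreg : ∀ 𝔫 ∈ S, ∀ 𝔮 : Ideal (integralClosure (Algebra.adjoin ↥W {jBC L N}) (FF L N)),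
      𝔮.IsPrime → 𝔮 ≤ 𝔫 →
      (∃ r : integralClosure (Algebra.adjoin ↥W {jBC L N}) (FF L N),
        (r : FF L N) = algebraMap ↥W (FF L N) ϖ ∧ r ∉ 𝔮) →
      ∃ x ∈ 𝔮, ∃ d, d ∉ 𝔫 ∧ ∀ y ∈ 𝔮, x ∣ d * y)
    (m : ℕ) (f : FF L N) (hf : f ≠ 0)
    (hm : ∀ P : Place Qb ↥(modularFunctionFieldBar N),
      (m : ℤ) ∣ P.ord (CoeffBC.bc ι (modularFunctionFieldFull N) f)) :
    ∃ G : FF L N, G ≠ 0 ∧
      Fermat.Agent.S36.HUnit.HU
        (integralClosure (Algebra.adjoin ↥W {jBC L N}) (FF L N)).val.toRingHom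
        (algebraMap (Algebra.adjoin ↥W {jBC L N})
          (integralClosure (Algebra.adjoin ↥W {jBC L N}) (FF L N))
          (algebraMap ↥W (Algebra.adjoin ↥W {jBC L N}) ϖ)) S (f / G ^ m) :=
  FactAdjoin.exists_factor_adjoin W N ι hϖ _ rfl S hS hmax
    (fun 𝔫 h𝔫 𝔮 h𝔮 hle hπ𝔮 => hreg 𝔫 h𝔫 𝔮 h𝔮 hle ⟨_, rfl, hπ𝔮⟩) m f hf hm

set_option maxHeartbeats 800000 in
set_option synthInstance.maxHeartbeats 400000 in
-- the instances `Algebra ↥W (FF L N)`, `Algebra W[1/j] (integralClosure W[1/j] F)` are slow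
/-- **(FACT), chart `W[1/j]`** (`hfact` of `HLocAbs.hloc_of_chain`). -/
theorem exists_factor₂ (ι : L →+* Qb) {ϖ : W} (hϖ : Irreducible ϖ)
    (S : Set (Ideal (integralClosure (Algebra.adjoin ↥W {(jBC L N)⁻¹}) (FF L N))))
    (hS : S.Finite) (hmax : ∀ 𝔫 ∈ S, 𝔫.IsMaximal)
    (hreg : ∀ 𝔫 ∈ S, ∀ 𝔮 : Ideal (integralClosure (Algebra.adjoin ↥W {(jBC L N)⁻¹}) (FF L N)),
      𝔮.IsPrime → 𝔮 ≤ 𝔫 →
      (∃ r : integralClosure (Algebra.adjoin ↥W {(jBC L N)⁻¹}) (FF L N),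
        (r : FF L N) = algebraMap ↥W (FF L N) ϖ ∧ r ∉ 𝔮) →
      ∃ x ∈ 𝔮, ∃ d, d ∉ 𝔫 ∧ ∀ y ∈ 𝔮, x ∣ d * y)
    (m : ℕ) (f : FF L N) (hf : f ≠ 0)
    (hm : ∀ P : Place Qb ↥(modularFunctionFieldBar N),
      (m : ℤ) ∣ P.ord (CoeffBC.bc ι (modularFunctionFieldFull N) f)) :
    ∃ G : FF L N, G ≠ 0 ∧
      Fermat.Agent.S36.HUnit.HU
        (integralClosure (Algebra.adjoin ↥W {(jBC L N)⁻¹}) (FF L N)).val.toRingHom
        (algebraMap (Algebra.adjoin ↥W {(jBC L N)⁻¹})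
          (integralClosure (Algebra.adjoin ↥W {(jBC L N)⁻¹}) (FF L N))
          (algebraMap ↥W (Algebra.adjoin ↥W {(jBC L N)⁻¹}) ϖ)) S (f / G ^ m) :=
  FactAdjoin.exists_factor_adjoin_inv W N ι hϖ _ rfl S hS hmax
    (fun 𝔫 h𝔫 𝔮 h𝔮 hle hπ𝔮 => hreg 𝔫 h𝔫 𝔮 h𝔮 hle ⟨_, rfl, hπ𝔮⟩) m f hf hm

set_option maxHeartbeats 800000 in
set_option synthInstance.maxHeartbeats 400000 in
-- the instances `Algebra ↥W (FF L N)`, `Algebra W[j] (integralClosure W[j] F)` are found slowly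
/-- **(FACT), finite chart**, regularity = the literal level clause of `RegDefsP.Reg36P₁`. -/
theorem exists_factor_reg₁ (ι : L →+* Qb) {ϖ : W} (hϖ : Irreducible ϖ)
    (S : Set (Ideal (integralClosure (Algebra.adjoin ↥W {jBC L N}) (FF L N)))) (hS : S.Finite)
    (hmax : ∀ 𝔫 ∈ S, 𝔫.IsMaximal)
    (hSπ : ∀ 𝔫 ∈ S, algebraMap (Algebra.adjoin ↥W {jBC L N})
      (integralClosure (Algebra.adjoin ↥W {jBC L N}) (FF L N))
      (algebraMap ↥W (Algebra.adjoin ↥W {jBC L N}) ϖ) ∈ 𝔫)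
    (hreg : ∀ 𝔫 : Ideal (integralClosure (Algebra.adjoin ↥W {jBC L N}) (FF L N)), 𝔫.IsMaximal →
      (∀ r : integralClosure (Algebra.adjoin ↥W {jBC L N}) (FF L N),
        (r : FF L N) = algebraMap ↥W (FF L N) ϖ → r ∈ 𝔫) →
      ∀ 𝔮 : Ideal (integralClosure (Algebra.adjoin ↥W {jBC L N}) (FF L N)), 𝔮.IsPrime → 𝔮 ≤ 𝔫 →
        (∃ r : integralClosure (Algebra.adjoin ↥W {jBC L N}) (FF L N),
          (r : FF L N) = algebraMap ↥W (FF L N) ϖ ∧ r ∉ 𝔮) →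
        ∃ x ∈ 𝔮, ∃ d, d ∉ 𝔫 ∧ ∀ y ∈ 𝔮, x ∣ d * y)
    (m : ℕ) (f : FF L N) (hf : f ≠ 0)
    (hm : ∀ P : Place Qb ↥(modularFunctionFieldBar N),
      (m : ℤ) ∣ P.ord (CoeffBC.bc ι (modularFunctionFieldFull N) f)) :
    ∃ G : FF L N, G ≠ 0 ∧
      Fermat.Agent.S36.HUnit.HU
        (integralClosure (Algebra.adjoin ↥W {jBC L N}) (FF L N)).val.toRingHom
        (algebraMap (Algebra.adjoin ↥W {jBC L N})
          (integralClosure (Algebra.adjoin ↥W {jBC L N}) (FF L N))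
          (algebraMap ↥W (Algebra.adjoin ↥W {jBC L N}) ϖ)) S (f / G ^ m) :=
  exists_factor₁ W N ι hϖ S hS hmax
    (fun 𝔫 h𝔫 => hreg 𝔫 (hmax 𝔫 h𝔫) ((pi_mem_iff W N (jBC L N) ϖ 𝔫).mp (hSπ 𝔫 h𝔫))) m f hf hm

set_option maxHeartbeats 800000 in
set_option synthInstance.maxHeartbeats 400000 in
-- the instances `Algebra ↥W (FF L N)`, `Algebra W[1/j] (integralClosure W[1/j] F)` are slow
/-- **(FACT), chart `W[1/j]`**, regularity = the literal level clause of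
`RegDefsP.Reg36P₂`. -/
theorem exists_factor_reg₂ (ι : L →+* Qb) {ϖ : W} (hϖ : Irreducible ϖ)
    (S : Set (Ideal (integralClosure (Algebra.adjoin ↥W {(jBC L N)⁻¹}) (FF L N))))
    (hS : S.Finite) (hmax : ∀ 𝔫 ∈ S, 𝔫.IsMaximal)
    (hSπ : ∀ 𝔫 ∈ S, algebraMap (Algebra.adjoin ↥W {(jBC L N)⁻¹})
      (integralClosure (Algebra.adjoin ↥W {(jBC L N)⁻¹}) (FF L N))
      (algebraMap ↥W (Algebra.adjoin ↥W {(jBC L N)⁻¹}) ϖ) ∈ 𝔫)
    (hSj : ∀ 𝔫 ∈ S, ∀ r : integralClosure (Algebra.adjoin ↥W {(jBC L N)⁻¹}) (FF L N),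
      (r : FF L N) = (jBC L N)⁻¹ → r ∈ 𝔫)
    (hreg : ∀ 𝔫 : Ideal (integralClosure (Algebra.adjoin ↥W {(jBC L N)⁻¹}) (FF L N)),
      𝔫.IsMaximal →
      (∀ r : integralClosure (Algebra.adjoin ↥W {(jBC L N)⁻¹}) (FF L N),
        (r : FF L N) = algebraMap ↥W (FF L N) ϖ → r ∈ 𝔫) →
      (∀ r : integralClosure (Algebra.adjoin ↥W {(jBC L N)⁻¹}) (FF L N),
        (r : FF L N) = (jBC L N)⁻¹ → r ∈ 𝔫) →
      ∀ 𝔮 : Ideal (integralClosure (Algebra.adjoin ↥W {(jBC L N)⁻¹}) (FF L N)), 𝔮.IsPrime →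
        𝔮 ≤ 𝔫 →
        (∃ r : integralClosure (Algebra.adjoin ↥W {(jBC L N)⁻¹}) (FF L N),
          (r : FF L N) = algebraMap ↥W (FF L N) ϖ ∧ r ∉ 𝔮) →
        ∃ x ∈ 𝔮, ∃ d, d ∉ 𝔫 ∧ ∀ y ∈ 𝔮, x ∣ d * y)
    (m : ℕ) (f : FF L N) (hf : f ≠ 0)
    (hm : ∀ P : Place Qb ↥(modularFunctionFieldBar N),
      (m : ℤ) ∣ P.ord (CoeffBC.bc ι (modularFunctionFieldFull N) f)) :
    ∃ G : FF L N, G ≠ 0 ∧
      Fermat.Agent.S36.HUnit.HU
        (integralClosure (Algebra.adjoin ↥W {(jBC L N)⁻¹}) (FF L N)).val.toRingHom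
        (algebraMap (Algebra.adjoin ↥W {(jBC L N)⁻¹})
          (integralClosure (Algebra.adjoin ↥W {(jBC L N)⁻¹}) (FF L N))
          (algebraMap ↥W (Algebra.adjoin ↥W {(jBC L N)⁻¹}) ϖ)) S (f / G ^ m) :=
  exists_factor₂ W N ι hϖ S hS hmax
    (fun 𝔫 h𝔫 => hreg 𝔫 (hmax 𝔫 h𝔫) ((pi_mem_iff W N (jBC L N)⁻¹ ϖ 𝔫).mp (hSπ 𝔫 h𝔫))
      (hSj 𝔫 h𝔫)) m f hf hm

end Fermat.Agent.S36.ChartCarrier
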