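import Mathlib
import Fermat.Agent.S36.NodeCarrier
import Fermat.Agent.S36.NodeBranch

/-!
# S36: the square of the finite charts of levels `M`, `M q`, in elimination form

`BM → B` the finite charts of levels `M`, `M q` (S34 carriers, algebra structure inducing
`α = heckeAlphaBar`), `K = FF L M → Y = FF L (M q)`.

* `with_chart` : to prove `C` one may assume the whole variable block of `EulerDvd` (with
  `A = BM`, `B = B`), `OrdEuler`, `OrdT3`, `HorizUnramAux` ON THE CHARTS: `[Algebra K Y]` finite
  separable of degree `q + 1` inducing `α`; `BM`, `B` noetherian integrally closed domains with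
  fraction fields `K`, `Y`; `[Algebra BM Y]` with the two scalar towers; `B` finite over `BM`;
  `IsScalarTower W[X] BM B`; `algebraMap BM B` injective.
* `algebraMap_C_top`, `algebraMap_X_top`, `hL_chart` : constants, `j`, and `L ⊆ BM[1/π]` on the
  charts (the hypotheses `hjK`, `hL` of `HorizUnramAux` / `OrdT3` with `R₀ = BM`).
-/

set_option autoImplicit false
set_option linter.unusedSectionVars false
set_option linter.style.haveILetI false

noncomputable section

namespace Fermat.Agent.S36.ChartSquare

open Polynomial ModularCurve AlgebraicCurve Fermat.Agent.S18 Fermat.Agent.S18.Gauss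
  Fermat.Agent.S34 IsLocalRing

local notation "Qb" => AlgebraicClosure ℚ
local notation "FF" => Fermat.Agent.S24.FF

section Chart

variable {L : Type} [Field L] [Algebra ℚ L] (ι : L →+* Qb) (W : ValuationSubring L)
  [IsDiscreteValuationRing ↥W] (M q : ℕ) [NeZero M] [NeZero q]
  [Algebra (↥W)[X] (FF L M)] (halgM : algebraMap (↥W)[X] (FF L M) = evF W M)
  (BM : Type*) [CommRing BM] [Algebra (↥W)[X] BM] [Algebra BM (FF L M)]
  [IsScalarTower (↥W)[X] BM (FF L M)] [IsIntegralClosure BM (↥W)[X] (FF L M)]
  [Algebra (↥W)[X] (FF L (M * q))] (halg : algebraMap (↥W)[X] (FF L (M * q)) = evF W (M * q))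
  (B : Type*) [CommRing B] [Algebra (↥W)[X] B] [Algebra B (FF L (M * q))]
  [IsScalarTower (↥W)[X] B (FF L (M * q))] [IsIntegralClosure B (↥W)[X] (FF L (M * q))]
  [Algebra BM B]
  (hα : ∀ c : BM, algebraMap B (FF L (M * q)) (algebraMap BM B c) =
    heckeAlphaBar L M q (algebraMap BM (FF L M) c))

include ι halgM halg hα in
/-- **The square of the charts, in elimination form.** -/
theorem with_chart (hq : q.Prime) (hqM : ¬ q ∣ M) {C : Prop}
    (h : ∀ [Algebra (FF L M) (FF L (M * q))] [IsScalarTower L (FF L M) (FF L (M * q))]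
      [FiniteDimensional (FF L M) (FF L (M * q))] [Algebra.IsSeparable (FF L M) (FF L (M * q))]
      [IsDomain BM] [IsNoetherianRing BM] [IsIntegrallyClosed BM] [IsFractionRing BM (FF L M)]
      [IsDomain B] [IsNoetherianRing B] [IsIntegrallyClosed B]
      [IsFractionRing B (FF L (M * q))]
      [Algebra BM (FF L (M * q))] [IsScalarTower BM (FF L M) (FF L (M * q))]
      [IsScalarTower BM B (FF L (M * q))] [IsScalarTower (↥W)[X] BM B] [Module.Finite BM B],
      (∀ x : FF L M, algebraMap (FF L M) (FF L (M * q)) x = heckeAlphaBar L M q x) →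
      Module.finrank (FF L M) (FF L (M * q)) = q + 1 →
      Function.Injective (algebraMap BM B) → C) : C := by
  letI iK : Algebra (FF L M) (FF L (M * q)) := algebraAlong (heckeAlphaBar L M q)
  haveI tK : IsScalarTower L (FF L M) (FF L (M * q)) := isScalarTower_along (heckeAlphaBar L M q)
  obtain ⟨hfin, hrank⟩ := DegreeL.finrank_alpha_of_bar L ι M q hq hqM
  haveI : FiniteDimensional (FF L M) (FF L (M * q)) := hfin
  haveI : CharZero L := algebraRat.charZero L
  haveI : CharZero (FF L M) := charZero_of_injective_algebraMap (algebraMap L (FF L M)).injective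
  haveI : Algebra.IsSeparable (FF L M) (FF L (M * q)) := inferInstance
  haveI := KLocInst.isDomain_fin W M BM
  haveI := KLocInst.isNoetherianRing_fin W M halgM BM
  haveI := KLocInst.isFractionRing_fin W M halgM BM
  haveI := KLocInst.isIntegrallyClosed_fin W M halgM BM
  haveI := KLocInst.isDomain_fin W (M * q) B
  haveI := KLocInst.isNoetherianRing_fin W (M * q) halg B
  haveI := KLocInst.isFractionRing_fin W (M * q) halg B
  haveI := KLocInst.isIntegrallyClosed_fin W (M * q) halg B
  letI iY : Algebra BM (FF L (M * q)) :=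
    ((algebraMap (FF L M) (FF L (M * q))).comp (algebraMap BM (FF L M))).toAlgebra
  haveI t1 : IsScalarTower BM (FF L M) (FF L (M * q)) :=
    IsScalarTower.of_algebraMap_eq (fun _ => rfl)
  haveI t2 : IsScalarTower BM B (FF L (M * q)) :=
    IsScalarTower.of_algebraMap_eq (fun c => (hα c).symm)
  haveI t3 : IsScalarTower (↥W)[X] BM B := IsScalarTower.of_algebraMap_eq (fun S =>
    (NodeBranch.algebraMap_poly W M q halgM BM halg B hα S).symm)
  haveI : Module.Finite (↥W)[X] B := (Fermat.Agent.S37.GaussNoeth.noeth_fin W (M * q) halg B).2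
  haveI : Module.Finite BM B := Module.Finite.of_restrictScalars_finite (↥W)[X] BM B
  have hinj : Function.Injective (algebraMap BM B) := by
    intro a b hab
    have h1 := congrArg (algebraMap B (FF L (M * q))) hab
    rw [hα, hα] at h1
    exact IsIntegralClosure.algebraMap_injective BM (↥W)[X] (FF L M)
      ((heckeAlphaBar L M q).toRingHom.injective h1)
  exact h (fun _ => rfl) hrank hinj

end Chart

section Elements

variable {L : Type} [Field L] [Algebra ℚ L] (W : ValuationSubring L)
  [IsDiscreteValuationRing ↥W] (M q : ℕ) [NeZero M] [NeZero q]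
  [Algebra (↥W)[X] (FF L M)] (halgM : algebraMap (↥W)[X] (FF L M) = evF W M)
  (BM : Type*) [CommRing BM] [Algebra (↥W)[X] BM] [Algebra BM (FF L M)]
  [IsScalarTower (↥W)[X] BM (FF L M)]

omit [IsDiscreteValuationRing ↥W] in
include halgM in
/-- constants of `W` in `BM ⊆ FF L M` -/
theorem algebraMap_C (c : W) :
    algebraMap BM (FF L M) (algebraMap (↥W)[X] BM (C c)) = algebraMap L (FF L M) (c : L) := by
  rw [← IsScalarTower.algebraMap_apply (↥W)[X] BM (FF L M), halgM, evF_C]

omit [IsDiscreteValuationRing ↥W] in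
include halgM in
/-- `j` in `BM`, seen in the upper function field: `hjK` of `HorizUnramAux` / `OrdT3` with
`R₀ = BM`. -/
theorem algebraMap_X_top [Algebra (FF L M) (FF L (M * q))] [Algebra BM (FF L (M * q))]
    [IsScalarTower BM (FF L M) (FF L (M * q))]
    (halgK : ∀ x : FF L M, algebraMap (FF L M) (FF L (M * q)) x = heckeAlphaBar L M q x) :
    algebraMap BM (FF L (M * q)) (algebraMap (↥W)[X] BM X) = Fermat.Agent.S24.jBC L (M * q) := by
  rw [IsScalarTower.algebraMap_apply BM (FF L M) (FF L (M * q)),
    ← IsScalarTower.algebraMap_apply (↥W)[X] BM (FF L M), halgM, evF_X, halgK, CompInst.alpha_jBC]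

include halgM in
/-- `L ⊆ BM[1/π]`: `hL` of `HorizUnramAux` / `OrdT3` with `R₀ = BM`,
`ϖ = algebraMap W[X] BM (C π)`. -/
theorem hL_chart {π : W} (hπ : Irreducible π) (c : L) :
    ∃ (k : ℕ) (r : BM),
      algebraMap BM (FF L M) (algebraMap (↥W)[X] BM (C π)) ^ k * algebraMap L (FF L M) c =
        algebraMap BM (FF L M) r := by
  obtain ⟨k, r, hr⟩ := NodeCarrier.hL_of_chart W M halgM BM BM hπ c
  exact ⟨k, r, hr⟩

end Elements

end Fermat.Agent.S36.ChartSquare
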