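/-
S36 (wave 8, Route C at level `q²`, finding 298): the operator `E3 = χ(Ω)`.

For a multiplicative endomorphism `Ω` of a field `F` (in the application
`Ω h = α (N_α h) * β (N_β h)` on the function field of level `M' q²`) and the cubic

    `χ(t) = t³ − 4 q t² + (5 q² − 1) t − 2 q (q² − 1) = (t − 2q)(t − (q+1))(t − (q−1))`,

`E3 q Ω h = Ω³ h * (Ω² h)^(−4q) * (Ω h)^(5q² − 1) * h^(−2q(q² − 1))`.

* `omegaOf a b Na Nb` : the endomorphism `h ↦ a (Na h) * b (Nb h)`;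
* `E3_one`, `E3_mul`, `E3_inv`, `E3_div`, `E3_pow`, `E3_zpow`, `E3_ne_zero` : multiplicativity;
* `E3_eq_one_of_omega_eq_pow` : `E3 c = 1` if `Ω c = c ^ (2 q)` (constants);
* `E3_mul_zpow_mem` : if `Ω h`, `Ω² h`, `Ω³ h` lie in a class `P` closed under products and
  inverses, then so does `E3 h * h ^ (2 q (q² − 1))`.

Mathlib only.
-/
import Mathlib

set_option autoImplicit false

namespace Fermat.Agent.S36.E3Def

variable {F : Type*} [Field F]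

/-- The endomorphism `h ↦ a (Na h) * b (Nb h)` of `F` (`a`, `b` the two degeneracy maps,
`Na`, `Nb` the norms along them). -/
def omegaOf {F' : Type*} [Field F'] (a b : F' →+* F) (Na Nb : F →* F') : F →* F :=
  ((a : F' →* F).comp Na) * ((b : F' →* F).comp Nb)

theorem omegaOf_apply {F' : Type*} [Field F'] (a b : F' →+* F) (Na Nb : F →* F') (h : F) :
    omegaOf a b Na Nb h = a (Na h) * b (Nb h) := rfl

/-- `E3 q Ω h = χ(Ω) h` for `χ(t) = t³ − 4 q t² + (5 q² − 1) t − 2 q (q² − 1)`. -/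
def E3 (q : ℕ) (Ω : F →* F) (h : F) : F :=
  Ω (Ω (Ω h)) * (Ω (Ω h)) ^ (-(4 * (q : ℤ))) * (Ω h) ^ (5 * (q : ℤ) ^ 2 - 1) *
    h ^ (-(2 * (q : ℤ) * ((q : ℤ) ^ 2 - 1)))

theorem E3_def (q : ℕ) (Ω : F →* F) (h : F) :
    E3 q Ω h = Ω (Ω (Ω h)) * (Ω (Ω h)) ^ (-(4 * (q : ℤ))) * (Ω h) ^ (5 * (q : ℤ) ^ 2 - 1) *
      h ^ (-(2 * (q : ℤ) * ((q : ℤ) ^ 2 - 1))) := rfl

variable (q : ℕ) (Ω : F →* F)

theorem omega_ne_zero_of_forall (hΩ : ∀ x : F, x ≠ 0 → Ω x ≠ 0) {h : F} (hh : h ≠ 0) :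
    Ω (Ω (Ω h)) ≠ 0 ∧ Ω (Ω h) ≠ 0 ∧ Ω h ≠ 0 :=
  ⟨hΩ _ (hΩ _ (hΩ _ hh)), hΩ _ (hΩ _ hh), hΩ _ hh⟩

theorem E3_one : E3 q Ω 1 = 1 := by
  unfold E3
  simp

theorem E3_mul (x y : F) : E3 q Ω (x * y) = E3 q Ω x * E3 q Ω y := by
  unfold E3
  rw [map_mul, map_mul, map_mul, mul_zpow, mul_zpow, mul_zpow]
  ring

theorem E3_inv (hΩ0 : Ω 0 = 0) (x : F) : E3 q Ω x⁻¹ = (E3 q Ω x)⁻¹ := by
  have hinv : ∀ y : F, Ω y⁻¹ = (Ω y)⁻¹ := by
    intro y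
    by_cases hy : y = 0
    · subst hy
      rw [inv_zero, hΩ0, inv_zero]
    · refine eq_inv_of_mul_eq_one_right ?_
      rw [← map_mul, mul_inv_cancel₀ hy, map_one]
  unfold E3
  rw [hinv, hinv, hinv, inv_zpow, inv_zpow, inv_zpow, mul_inv, mul_inv, mul_inv]

theorem E3_ne_zero (hΩ : ∀ x : F, x ≠ 0 → Ω x ≠ 0) {h : F} (hh : h ≠ 0) : E3 q Ω h ≠ 0 := by
  obtain ⟨h3, h2, h1⟩ := omega_ne_zero_of_forall Ω hΩ hh
  unfold E3
  exact mul_ne_zero (mul_ne_zero (mul_ne_zero h3 (zpow_ne_zero _ h2)) (zpow_ne_zero _ h1))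
    (zpow_ne_zero _ hh)

theorem E3_div (hΩ0 : Ω 0 = 0) (x y : F) : E3 q Ω (x / y) = E3 q Ω x / E3 q Ω y := by
  rw [div_eq_mul_inv, E3_mul, E3_inv q Ω hΩ0, div_eq_mul_inv]

theorem E3_pow (x : F) (n : ℕ) : E3 q Ω (x ^ n) = E3 q Ω x ^ n := by
  induction n with
  | zero => rw [pow_zero, pow_zero, E3_one]
  | succ n ih => rw [pow_succ, pow_succ, E3_mul, ih]

theorem E3_zpow (hΩ0 : Ω 0 = 0) (x : F) (n : ℤ) : E3 q Ω (x ^ n) = E3 q Ω x ^ n := by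
  cases n with
  | ofNat n => simpa using E3_pow q Ω x n
  | negSucc n =>
    rw [zpow_negSucc, zpow_negSucc, E3_inv q Ω hΩ0, E3_pow]

/-- `E3` kills the `Ω`-eigenvectors of eigenvalue `2 q` (the constants). -/
theorem E3_eq_one_of_omega_eq_pow {c : F} (hc : c ≠ 0) (h : Ω c = c ^ (2 * q)) :
    E3 q Ω c = 1 := by
  have h2 : Ω (Ω c) = c ^ (2 * q * (2 * q)) := by
    rw [h, map_pow, h, ← pow_mul]
  have h3 : Ω (Ω (Ω c)) = c ^ (2 * q * (2 * q) * (2 * q)) := by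
    rw [h2, map_pow, h, ← pow_mul, mul_comm (2 * q) (2 * q * (2 * q))]
  unfold E3
  rw [h3, h2, h, ← zpow_natCast c (2 * q * (2 * q) * (2 * q)), ← zpow_natCast c (2 * q * (2 * q)),
    ← zpow_natCast c (2 * q), ← zpow_mul, ← zpow_mul, ← zpow_add₀ hc, ← zpow_add₀ hc,
    ← zpow_add₀ hc]
  have : ((2 * q * (2 * q) * (2 * q) : ℕ) : ℤ) +
      ((2 * q * (2 * q) : ℕ) : ℤ) * -(4 * (q : ℤ)) +
      ((2 * q : ℕ) : ℤ) * (5 * (q : ℤ) ^ 2 - 1) + -(2 * (q : ℤ) * ((q : ℤ) ^ 2 - 1)) = 0 := by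
    push_cast
    ring
  rw [this, zpow_zero]

/-- If `Ω h`, `Ω² h`, `Ω³ h` lie in a class `P` closed under products and inverses (e.g.
"constant times a `p ^ n`-th power"), then so does `E3 h * h ^ (2 q (q² − 1))`. -/
theorem E3_mul_zpow_mem (P : F → Prop) (hP1 : P 1) (hPmul : ∀ x y : F, P x → P y → P (x * y))
    (hPinv : ∀ x : F, P x → P x⁻¹) {h : F} (hh : h ≠ 0) (h1 : P (Ω h)) (h2 : P (Ω (Ω h)))
    (h3 : P (Ω (Ω (Ω h)))) :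
    P (E3 q Ω h * h ^ (2 * (q : ℤ) * ((q : ℤ) ^ 2 - 1))) := by
  have hPpow : ∀ (x : F) (n : ℕ), P x → P (x ^ n) := by
    intro x n hx
    induction n with
    | zero => rw [pow_zero]; exact hP1
    | succ n ih => rw [pow_succ]; exact hPmul _ _ ih hx
  have hPzpow : ∀ (x : F) (n : ℤ), P x → P (x ^ n) := by
    intro x n hx
    cases n with
    | ofNat n => simpa using hPpow x n hx
    | negSucc n => rw [zpow_negSucc]; exact hPinv _ (hPpow x _ hx)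
  have key : E3 q Ω h * h ^ (2 * (q : ℤ) * ((q : ℤ) ^ 2 - 1)) =
      Ω (Ω (Ω h)) * (Ω (Ω h)) ^ (-(4 * (q : ℤ))) * (Ω h) ^ (5 * (q : ℤ) ^ 2 - 1) := by
    unfold E3
    rw [mul_assoc, ← zpow_add₀ hh, neg_add_cancel, zpow_zero, mul_one]
  rw [key]
  exact hPmul _ _ (hPmul _ _ h3 (hPzpow _ _ h2)) (hPzpow _ _ h1)

end Fermat.Agent.S36.E3Def
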