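/-
S36 (wave 8, Route C at level `q²`, finding 298): CLAIM R₃, abstract form.

`F` a field (the function field of level `M' q²`), `A B : F →* F` the two operators
`A h = α (N_α h)`, `B h = β (N_β h)`, `Ω = A * B`, `E3 q Ω = χ(Ω)` (see `E3Def`).
`H` is a class of nonzero functions closed under products, inverses, `A` and `B`
(e.g. the units at the three vertical valuations `v_∞, v_mid, v_0`, or all `h` with
`(q − 1) ∣ v_mid h`), and `ρ₁ ρ₂ ρ₃` are three maps on `F`, multiplicative on `H`, with values in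
ONE commutative group (the normalised residues at `v_∞, v_mid, v_0` transported to one residue
field; or the normalised valuations `w_i = v_i / v_i(q)` in `ℤ`), which transform under `A`, `B`
by the integer matrices

    `A ↦ [[1, q−1, 0], [1, q−1, 0], [0, 0, q]]`,   `B ↦ [[q, 0, 0], [0, q−1, 1], [0, q−1, 1]]`.

Then `ρ_i (E3 q Ω h) = 0` (additive target, `add_E3`) resp. `= 1` (multiplicative target,
`mul_E3`) for `i = 1, 2, 3` and every `h ∈ H`: this is the Cayley–Hamilton identity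
`χ(A_mat + B_mat) = 0`.

Mathlib only (plus the definition file `E3Def`).
-/
import Mathlib
import Fermat.Agent.S36.E3Def

set_option autoImplicit false

namespace Fermat.Agent.S36.ClaimR3

open Fermat.Agent.S36.E3Def

/-- The Cayley–Hamilton identity for `Ω_mat = [[1+q, q−1, 0], [1, 2(q−1), 1], [0, q−1, 1+q]]`
acting on triples of elements of an abelian group. -/
theorem chi_vec {V : Type*} [AddCommGroup V] (q : ℤ) (a₀ b₀ c₀ a₁ b₁ c₁ a₂ b₂ c₂ a₃ b₃ c₃ : V)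
    (h1a : a₁ = (1 + q) • a₀ + (q - 1) • b₀)
    (h1b : b₁ = a₀ + (2 * (q - 1)) • b₀ + c₀)
    (h1c : c₁ = (q - 1) • b₀ + (1 + q) • c₀)
    (h2a : a₂ = (1 + q) • a₁ + (q - 1) • b₁)
    (h2b : b₂ = a₁ + (2 * (q - 1)) • b₁ + c₁)
    (h2c : c₂ = (q - 1) • b₁ + (1 + q) • c₁)
    (h3a : a₃ = (1 + q) • a₂ + (q - 1) • b₂)
    (h3b : b₃ = a₂ + (2 * (q - 1)) • b₂ + c₂)
    (h3c : c₃ = (q - 1) • b₂ + (1 + q) • c₂) :
    a₃ + (-(4 * q)) • a₂ + (5 * q ^ 2 - 1) • a₁ + (-(2 * q * (q ^ 2 - 1))) • a₀ = 0 ∧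
    b₃ + (-(4 * q)) • b₂ + (5 * q ^ 2 - 1) • b₁ + (-(2 * q * (q ^ 2 - 1))) • b₀ = 0 ∧
    c₃ + (-(4 * q)) • c₂ + (5 * q ^ 2 - 1) • c₁ + (-(2 * q * (q ^ 2 - 1))) • c₀ = 0 := by
  subst h1a h1b h1c
  subst h2a h2b h2c
  subst h3a h3b h3c
  refine ⟨?_, ?_, ?_⟩ <;> module

section Additive

variable {F V : Type*} [Field F] [AddCommGroup V]

/-- A map which is additive on a class `H` of nonzero elements (closed under products and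
inverses) sends `1` to `0`. -/
theorem map_one_of_add (H : F → Prop) (hH1 : H 1) (ρ : F → V)
    (hρ : ∀ x y : F, H x → H y → ρ (x * y) = ρ x + ρ y) : ρ 1 = 0 := by
  have h := hρ 1 1 hH1 hH1
  rw [mul_one] at h
  exact (add_eq_left.mp h.symm)

theorem map_inv_of_add (H : F → Prop) (hH0 : ∀ x : F, H x → x ≠ 0) (hH1 : H 1)
    (hHinv : ∀ x : F, H x → H x⁻¹) (ρ : F → V)
    (hρ : ∀ x y : F, H x → H y → ρ (x * y) = ρ x + ρ y) {x : F} (hx : H x) : ρ x⁻¹ = -ρ x := by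
  have h := hρ x x⁻¹ hx (hHinv x hx)
  rw [mul_inv_cancel₀ (hH0 x hx), map_one_of_add H hH1 ρ hρ] at h
  exact (neg_eq_of_add_eq_zero_right h.symm).symm

theorem pow_mem (H : F → Prop) (hH1 : H 1) (hHmul : ∀ x y : F, H x → H y → H (x * y))
    {x : F} (hx : H x) (n : ℕ) : H (x ^ n) := by
  induction n with
  | zero => rw [pow_zero]; exact hH1
  | succ n ih => rw [pow_succ]; exact hHmul _ _ ih hx

theorem zpow_mem (H : F → Prop) (hH1 : H 1) (hHmul : ∀ x y : F, H x → H y → H (x * y))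
    (hHinv : ∀ x : F, H x → H x⁻¹) {x : F} (hx : H x) (n : ℤ) : H (x ^ n) := by
  cases n with
  | ofNat n => simpa using pow_mem H hH1 hHmul hx n
  | negSucc n => rw [zpow_negSucc]; exact hHinv _ (pow_mem H hH1 hHmul hx _)

theorem map_pow_of_add (H : F → Prop) (hH1 : H 1) (hHmul : ∀ x y : F, H x → H y → H (x * y))
    (ρ : F → V) (hρ : ∀ x y : F, H x → H y → ρ (x * y) = ρ x + ρ y) {x : F} (hx : H x) (n : ℕ) :
    ρ (x ^ n) = n • ρ x := by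
  induction n with
  | zero => rw [pow_zero, zero_smul]; exact map_one_of_add H hH1 ρ hρ
  | succ n ih => rw [pow_succ, hρ _ _ (pow_mem H hH1 hHmul hx n) hx, ih, succ_nsmul]

theorem map_zpow_of_add (H : F → Prop) (hH0 : ∀ x : F, H x → x ≠ 0) (hH1 : H 1)
    (hHmul : ∀ x y : F, H x → H y → H (x * y)) (hHinv : ∀ x : F, H x → H x⁻¹) (ρ : F → V)
    (hρ : ∀ x y : F, H x → H y → ρ (x * y) = ρ x + ρ y) {x : F} (hx : H x) (n : ℤ) :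
    ρ (x ^ n) = n • ρ x := by
  cases n with
  | ofNat n =>
    rw [Int.ofNat_eq_natCast, zpow_natCast, natCast_zsmul]
    exact map_pow_of_add H hH1 hHmul ρ hρ hx n
  | negSucc n =>
    rw [zpow_negSucc, map_inv_of_add H hH0 hH1 hHinv ρ hρ (pow_mem H hH1 hHmul hx _),
      map_pow_of_add H hH1 hHmul ρ hρ hx, negSucc_zsmul]

/-- `E3` preserves the class `H`. -/
theorem E3_mem (q : ℕ) (H : F → Prop) (hH1 : H 1)
    (hHmul : ∀ x y : F, H x → H y → H (x * y)) (hHinv : ∀ x : F, H x → H x⁻¹)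
    (Ω : F →* F) (hHΩ : ∀ x : F, H x → H (Ω x)) {h : F} (hh : H h) : H (E3 q Ω h) := by
  unfold E3
  exact hHmul _ _ (hHmul _ _ (hHmul _ _ (hHΩ _ (hHΩ _ (hHΩ _ hh)))
    (zpow_mem H hH1 hHmul hHinv (hHΩ _ (hHΩ _ hh)) _))
    (zpow_mem H hH1 hHmul hHinv (hHΩ _ hh) _)) (zpow_mem H hH1 hHmul hHinv hh _)

/-- **Claim R₃, additive target** (e.g. the normalised valuations `w_i = v_i / v_i(q)` in `ℤ`).
-/
theorem add_E3 (q : ℕ) (hq : 1 ≤ q) (H : F → Prop) (hH0 : ∀ x : F, H x → x ≠ 0) (hH1 : H 1)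
    (hHmul : ∀ x y : F, H x → H y → H (x * y)) (hHinv : ∀ x : F, H x → H x⁻¹)
    (A B : F →* F) (hHA : ∀ x : F, H x → H (A x)) (hHB : ∀ x : F, H x → H (B x))
    (ρ₁ ρ₂ ρ₃ : F → V)
    (hρ₁ : ∀ x y : F, H x → H y → ρ₁ (x * y) = ρ₁ x + ρ₁ y)
    (hρ₂ : ∀ x y : F, H x → H y → ρ₂ (x * y) = ρ₂ x + ρ₂ y)
    (hρ₃ : ∀ x y : F, H x → H y → ρ₃ (x * y) = ρ₃ x + ρ₃ y)
    (hA₁ : ∀ x : F, H x → ρ₁ (A x) = ρ₁ x + (q - 1) • ρ₂ x)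
    (hA₂ : ∀ x : F, H x → ρ₂ (A x) = ρ₁ x + (q - 1) • ρ₂ x)
    (hA₃ : ∀ x : F, H x → ρ₃ (A x) = q • ρ₃ x)
    (hB₁ : ∀ x : F, H x → ρ₁ (B x) = q • ρ₁ x)
    (hB₂ : ∀ x : F, H x → ρ₂ (B x) = (q - 1) • ρ₂ x + ρ₃ x)
    (hB₃ : ∀ x : F, H x → ρ₃ (B x) = (q - 1) • ρ₂ x + ρ₃ x)
    {h : F} (hh : H h) :
    ρ₁ (E3 q (A * B) h) = 0 ∧ ρ₂ (E3 q (A * B) h) = 0 ∧ ρ₃ (E3 q (A * B) h) = 0 := by
  have hHΩ : ∀ x : F, H x → H ((A * B) x) := fun x hx => hHmul _ _ (hHA x hx) (hHB x hx)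
  have hqz : (((q - 1 : ℕ) : ℕ) : ℤ) = (q : ℤ) - 1 := by
    rw [Nat.cast_sub hq, Nat.cast_one]
  -- the action of `Ω` on the three invariants
  have hΩ₁ : ∀ x : F, H x → ρ₁ ((A * B) x) = (1 + (q : ℤ)) • ρ₁ x + ((q : ℤ) - 1) • ρ₂ x := by
    intro x hx
    rw [MonoidHom.mul_apply, hρ₁ _ _ (hHA x hx) (hHB x hx), hA₁ x hx, hB₁ x hx,
      ← natCast_zsmul (ρ₂ x) (q - 1), hqz, ← natCast_zsmul (ρ₁ x) q]
    module
  have hΩ₂ : ∀ x : F, H x →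
      ρ₂ ((A * B) x) = ρ₁ x + (2 * ((q : ℤ) - 1)) • ρ₂ x + ρ₃ x := by
    intro x hx
    rw [MonoidHom.mul_apply, hρ₂ _ _ (hHA x hx) (hHB x hx), hA₂ x hx, hB₂ x hx,
      ← natCast_zsmul (ρ₂ x) (q - 1), hqz]
    module
  have hΩ₃ : ∀ x : F, H x → ρ₃ ((A * B) x) = ((q : ℤ) - 1) • ρ₂ x + (1 + (q : ℤ)) • ρ₃ x := by
    intro x hx
    rw [MonoidHom.mul_apply, hρ₃ _ _ (hHA x hx) (hHB x hx), hA₃ x hx, hB₃ x hx,
      ← natCast_zsmul (ρ₂ x) (q - 1), hqz, ← natCast_zsmul (ρ₃ x) q]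
    module
  set Ω : F →* F := A * B with hΩdef
  have h1 : H (Ω h) := hHΩ h hh
  have h2 : H (Ω (Ω h)) := hHΩ _ h1
  have h3 : H (Ω (Ω (Ω h))) := hHΩ _ h2
  have hz := fun (ρ : F → V) (hρ : ∀ x y : F, H x → H y → ρ (x * y) = ρ x + ρ y) =>
    @map_zpow_of_add F V _ _ H hH0 hH1 hHmul hHinv ρ hρ
  have hE : ∀ (ρ : F → V) (hρ : ∀ x y : F, H x → H y → ρ (x * y) = ρ x + ρ y),
      ρ (E3 q Ω h) = ρ (Ω (Ω (Ω h))) + (-(4 * (q : ℤ))) • ρ (Ω (Ω h)) +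
        (5 * (q : ℤ) ^ 2 - 1) • ρ (Ω h) + (-(2 * (q : ℤ) * ((q : ℤ) ^ 2 - 1))) • ρ h := by
    intro ρ hρ
    unfold E3
    rw [hρ _ _ (hHmul _ _ (hHmul _ _ h3 (zpow_mem H hH1 hHmul hHinv h2 _))
        (zpow_mem H hH1 hHmul hHinv h1 _)) (zpow_mem H hH1 hHmul hHinv hh _),
      hρ _ _ (hHmul _ _ h3 (zpow_mem H hH1 hHmul hHinv h2 _)) (zpow_mem H hH1 hHmul hHinv h1 _),
      hρ _ _ h3 (zpow_mem H hH1 hHmul hHinv h2 _), hz ρ hρ h2, hz ρ hρ h1, hz ρ hρ hh]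
  have key := chi_vec (q : ℤ) (ρ₁ h) (ρ₂ h) (ρ₃ h) (ρ₁ (Ω h)) (ρ₂ (Ω h)) (ρ₃ (Ω h))
    (ρ₁ (Ω (Ω h))) (ρ₂ (Ω (Ω h))) (ρ₃ (Ω (Ω h)))
    (ρ₁ (Ω (Ω (Ω h)))) (ρ₂ (Ω (Ω (Ω h)))) (ρ₃ (Ω (Ω (Ω h))))
    (hΩ₁ h hh) (hΩ₂ h hh) (hΩ₃ h hh) (hΩ₁ _ h1) (hΩ₂ _ h1) (hΩ₃ _ h1)
    (hΩ₁ _ h2) (hΩ₂ _ h2) (hΩ₃ _ h2)
  rw [hE ρ₁ hρ₁, hE ρ₂ hρ₂, hE ρ₃ hρ₃]
  exact key

end Additive

section Multiplicative

variable {F κ : Type*} [Field F] [CommGroup κ]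

/-- **Claim R₃, multiplicative target** (the normalised residues at the three vertical
valuations, transported to one residue field): `E3 q (A * B) h` has residue exactly `1`. -/
theorem mul_E3 (q : ℕ) (hq : 1 ≤ q) (H : F → Prop) (hH0 : ∀ x : F, H x → x ≠ 0) (hH1 : H 1)
    (hHmul : ∀ x y : F, H x → H y → H (x * y)) (hHinv : ∀ x : F, H x → H x⁻¹)
    (A B : F →* F) (hHA : ∀ x : F, H x → H (A x)) (hHB : ∀ x : F, H x → H (B x))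
    (ρ₁ ρ₂ ρ₃ : F → κ)
    (hρ₁ : ∀ x y : F, H x → H y → ρ₁ (x * y) = ρ₁ x * ρ₁ y)
    (hρ₂ : ∀ x y : F, H x → H y → ρ₂ (x * y) = ρ₂ x * ρ₂ y)
    (hρ₃ : ∀ x y : F, H x → H y → ρ₃ (x * y) = ρ₃ x * ρ₃ y)
    (hA₁ : ∀ x : F, H x → ρ₁ (A x) = ρ₁ x * ρ₂ x ^ (q - 1))
    (hA₂ : ∀ x : F, H x → ρ₂ (A x) = ρ₁ x * ρ₂ x ^ (q - 1))
    (hA₃ : ∀ x : F, H x → ρ₃ (A x) = ρ₃ x ^ q)
    (hB₁ : ∀ x : F, H x → ρ₁ (B x) = ρ₁ x ^ q)
    (hB₂ : ∀ x : F, H x → ρ₂ (B x) = ρ₂ x ^ (q - 1) * ρ₃ x)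
    (hB₃ : ∀ x : F, H x → ρ₃ (B x) = ρ₂ x ^ (q - 1) * ρ₃ x)
    {h : F} (hh : H h) :
    ρ₁ (E3 q (A * B) h) = 1 ∧ ρ₂ (E3 q (A * B) h) = 1 ∧ ρ₃ (E3 q (A * B) h) = 1 := by
  have key := add_E3 (V := Additive κ) q hq H hH0 hH1 hHmul hHinv A B hHA hHB
    (fun x => Additive.ofMul (ρ₁ x)) (fun x => Additive.ofMul (ρ₂ x))
    (fun x => Additive.ofMul (ρ₃ x))
    (fun x y hx hy => by rw [hρ₁ x y hx hy, ofMul_mul])
    (fun x y hx hy => by rw [hρ₂ x y hx hy, ofMul_mul])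
    (fun x y hx hy => by rw [hρ₃ x y hx hy, ofMul_mul])
    (fun x hx => by rw [hA₁ x hx, ofMul_mul, ofMul_pow])
    (fun x hx => by rw [hA₂ x hx, ofMul_mul, ofMul_pow])
    (fun x hx => by rw [hA₃ x hx, ofMul_pow])
    (fun x hx => by rw [hB₁ x hx, ofMul_pow])
    (fun x hx => by rw [hB₂ x hx, ofMul_mul, ofMul_pow])
    (fun x hx => by rw [hB₃ x hx, ofMul_mul, ofMul_pow])
    hh
  exact ⟨ofMul_eq_zero.mp key.1, ofMul_eq_zero.mp key.2.1, ofMul_eq_zero.mp key.2.2⟩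

end Multiplicative

end Fermat.Agent.S36.ClaimR3
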