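/-
S36 (wave 8, Route C36): Claim R₃ for the operator `ConstPow.E36` of a pair of degeneracy maps.

`α β : F' →ₐ[K] F`, `A h = α (N_α h)`, `B h = β (N_β h)`, `Ω = ConstPow.omega α β`,
`E = ConstPow.E36 α β q`.  `H` is a class of nonzero functions closed under products, inverses,
`A` and `B`; `ρ₁ ρ₂ ρ₃` are maps on `F`, multiplicative on `H`, with values in ONE commutative
group (`mul_E36`), field (`mul_E36_field`) or additive group (`add_E36`), transforming by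

    `A ↦ [[1, q−1, 0], [1, q−1, 0], [0, 0, q]]`,   `B ↦ [[q, 0, 0], [0, q−1, 1], [0, q−1, 1]]`

(rows: the invariant at `v_∞`, `v_mid`, `v_0` of `A h`, resp. `B h`, in terms of those of `h`).
Then `ρ_i (E h) = 1` (resp. `0`) for every `h ∈ H`, and `E h ∈ H` (`E36_mem`).

* `E36_eq_E3` : `ConstPow.E36 α β q = E3Def.E3 q (opA α * opA β)` for `q ≥ 1`.
-/
import Mathlib
import Fermat.Agent.S36.ClaimR3
import Fermat.Agent.S36.ConstPow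

set_option autoImplicit false

noncomputable section

namespace Fermat.Agent.S36.ClaimR36

open Fermat.Agent.S35 Fermat.Agent.S36.E3Def Fermat.Agent.S36.ConstPow

variable {K F F' : Type*} [Field K] [Field F] [Field F'] [Algebra K F] [Algebra K F']

/-- `A h = α (N_α h)` as a monoid hom. -/
def opA (α : F' →ₐ[K] F) : F →* F :=
  ((α : F' →+* F) : F' →* F).comp (EsOrd.normAlong α)

theorem opA_apply (α : F' →ₐ[K] F) (h : F) : opA α h = α (EsOrd.normAlong α h) := rfl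

theorem omega_eq (α β : F' →ₐ[K] F) (y : F) : ConstPow.omega α β y = (opA α * opA β) y := rfl

/-- `ConstPow.E36` is `χ(Ω)` in the `zpow` form of `E3Def`. -/
theorem E36_eq_E3 (α β : F' →ₐ[K] F) (q : ℕ) (hq : 1 ≤ q) (y : F) :
    ConstPow.E36 α β q y = E3 q (opA α * opA β) y := by
  have h1 : (5 * (q : ℤ) ^ 2 - 1) = ((5 * q ^ 2 - 1 : ℕ) : ℤ) := by
    have : 1 ≤ 5 * q ^ 2 := by nlinarith
    rw [Nat.cast_sub this]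
    push_cast
    ring
  have h2 : (2 * (q : ℤ) * ((q : ℤ) ^ 2 - 1)) = ((2 * q * (q ^ 2 - 1) : ℕ) : ℤ) := by
    have : 1 ≤ q ^ 2 := by nlinarith
    rw [Nat.cast_mul, Nat.cast_sub this]
    push_cast
    ring
  have h3 : (4 * (q : ℤ)) = ((4 * q : ℕ) : ℤ) := by push_cast; ring
  unfold ConstPow.E36 E3
  rw [h1, h2, h3, zpow_neg, zpow_neg, zpow_natCast, zpow_natCast, zpow_natCast, inv_pow, inv_pow]
  rfl

section Claim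

variable (α β : F' →ₐ[K] F) (q : ℕ) (hq : 1 ≤ q) (H : F → Prop)
  (hH0 : ∀ x : F, H x → x ≠ 0) (hH1 : H 1)
  (hHmul : ∀ x y : F, H x → H y → H (x * y)) (hHinv : ∀ x : F, H x → H x⁻¹)
  (hHA : ∀ x : F, H x → H (α (EsOrd.normAlong α x)))
  (hHB : ∀ x : F, H x → H (β (EsOrd.normAlong β x)))

include hq hH1 hHmul hHinv hHA hHB in
/-- `E36` preserves the class `H`. -/
theorem E36_mem {h : F} (hh : H h) : H (ConstPow.E36 α β q h) := by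
  rw [E36_eq_E3 α β q hq]
  exact ClaimR3.E3_mem q H hH1 hHmul hHinv (opA α * opA β)
    (fun x hx => hHmul _ _ (hHA x hx) (hHB x hx)) hh

include hq hH0 hH1 hHmul hHinv hHA hHB in
/-- **Claim R₃ for `E36`, additive target** (normalised valuations). -/
theorem add_E36 {V : Type*} [AddCommGroup V] (ρ₁ ρ₂ ρ₃ : F → V)
    (hρ₁ : ∀ x y : F, H x → H y → ρ₁ (x * y) = ρ₁ x + ρ₁ y)
    (hρ₂ : ∀ x y : F, H x → H y → ρ₂ (x * y) = ρ₂ x + ρ₂ y)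
    (hρ₃ : ∀ x y : F, H x → H y → ρ₃ (x * y) = ρ₃ x + ρ₃ y)
    (hA₁ : ∀ x : F, H x → ρ₁ (α (EsOrd.normAlong α x)) = ρ₁ x + (q - 1) • ρ₂ x)
    (hA₂ : ∀ x : F, H x → ρ₂ (α (EsOrd.normAlong α x)) = ρ₁ x + (q - 1) • ρ₂ x)
    (hA₃ : ∀ x : F, H x → ρ₃ (α (EsOrd.normAlong α x)) = q • ρ₃ x)
    (hB₁ : ∀ x : F, H x → ρ₁ (β (EsOrd.normAlong β x)) = q • ρ₁ x)
    (hB₂ : ∀ x : F, H x → ρ₂ (β (EsOrd.normAlong β x)) = (q - 1) • ρ₂ x + ρ₃ x)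
    (hB₃ : ∀ x : F, H x → ρ₃ (β (EsOrd.normAlong β x)) = (q - 1) • ρ₂ x + ρ₃ x)
    {h : F} (hh : H h) :
    ρ₁ (ConstPow.E36 α β q h) = 0 ∧ ρ₂ (ConstPow.E36 α β q h) = 0 ∧
      ρ₃ (ConstPow.E36 α β q h) = 0 := by
  rw [E36_eq_E3 α β q hq]
  exact ClaimR3.add_E3 q hq H hH0 hH1 hHmul hHinv (opA α) (opA β) hHA hHB ρ₁ ρ₂ ρ₃
    hρ₁ hρ₂ hρ₃ hA₁ hA₂ hA₃ hB₁ hB₂ hB₃ hh

include hq hH0 hH1 hHmul hHinv hHA hHB in
/-- **Claim R₃ for `E36`, multiplicative target** (normalised residues in a group). -/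
theorem mul_E36 {κ : Type*} [CommGroup κ] (ρ₁ ρ₂ ρ₃ : F → κ)
    (hρ₁ : ∀ x y : F, H x → H y → ρ₁ (x * y) = ρ₁ x * ρ₁ y)
    (hρ₂ : ∀ x y : F, H x → H y → ρ₂ (x * y) = ρ₂ x * ρ₂ y)
    (hρ₃ : ∀ x y : F, H x → H y → ρ₃ (x * y) = ρ₃ x * ρ₃ y)
    (hA₁ : ∀ x : F, H x → ρ₁ (α (EsOrd.normAlong α x)) = ρ₁ x * ρ₂ x ^ (q - 1))
    (hA₂ : ∀ x : F, H x → ρ₂ (α (EsOrd.normAlong α x)) = ρ₁ x * ρ₂ x ^ (q - 1))
    (hA₃ : ∀ x : F, H x → ρ₃ (α (EsOrd.normAlong α x)) = ρ₃ x ^ q)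
    (hB₁ : ∀ x : F, H x → ρ₁ (β (EsOrd.normAlong β x)) = ρ₁ x ^ q)
    (hB₂ : ∀ x : F, H x → ρ₂ (β (EsOrd.normAlong β x)) = ρ₂ x ^ (q - 1) * ρ₃ x)
    (hB₃ : ∀ x : F, H x → ρ₃ (β (EsOrd.normAlong β x)) = ρ₂ x ^ (q - 1) * ρ₃ x)
    {h : F} (hh : H h) :
    ρ₁ (ConstPow.E36 α β q h) = 1 ∧ ρ₂ (ConstPow.E36 α β q h) = 1 ∧
      ρ₃ (ConstPow.E36 α β q h) = 1 := by
  rw [E36_eq_E3 α β q hq]
  exact ClaimR3.mul_E3 q hq H hH0 hH1 hHmul hHinv (opA α) (opA β) hHA hHB ρ₁ ρ₂ ρ₃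
    hρ₁ hρ₂ hρ₃ hA₁ hA₂ hA₃ hB₁ hB₂ hB₃ hh

include hq hH0 hH1 hHmul hHinv hHA hHB in
/-- **Claim R₃ for `E36`, residues in a field** (e.g. `κ((Q))`): the three residue maps are
nonzero and multiplicative on `H`. -/
theorem mul_E36_field {κ : Type*} [Field κ] (ρ₁ ρ₂ ρ₃ : F → κ)
    (h0₁ : ∀ x : F, H x → ρ₁ x ≠ 0) (h0₂ : ∀ x : F, H x → ρ₂ x ≠ 0)
    (h0₃ : ∀ x : F, H x → ρ₃ x ≠ 0)
    (hρ₁ : ∀ x y : F, H x → H y → ρ₁ (x * y) = ρ₁ x * ρ₁ y)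
    (hρ₂ : ∀ x y : F, H x → H y → ρ₂ (x * y) = ρ₂ x * ρ₂ y)
    (hρ₃ : ∀ x y : F, H x → H y → ρ₃ (x * y) = ρ₃ x * ρ₃ y)
    (hA₁ : ∀ x : F, H x → ρ₁ (α (EsOrd.normAlong α x)) = ρ₁ x * ρ₂ x ^ (q - 1))
    (hA₂ : ∀ x : F, H x → ρ₂ (α (EsOrd.normAlong α x)) = ρ₁ x * ρ₂ x ^ (q - 1))
    (hA₃ : ∀ x : F, H x → ρ₃ (α (EsOrd.normAlong α x)) = ρ₃ x ^ q)
    (hB₁ : ∀ x : F, H x → ρ₁ (β (EsOrd.normAlong β x)) = ρ₁ x ^ q)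
    (hB₂ : ∀ x : F, H x → ρ₂ (β (EsOrd.normAlong β x)) = ρ₂ x ^ (q - 1) * ρ₃ x)
    (hB₃ : ∀ x : F, H x → ρ₃ (β (EsOrd.normAlong β x)) = ρ₂ x ^ (q - 1) * ρ₃ x)
    {h : F} (hh : H h) :
    ρ₁ (ConstPow.E36 α β q h) = 1 ∧ ρ₂ (ConstPow.E36 α β q h) = 1 ∧
      ρ₃ (ConstPow.E36 α β q h) = 1 := by
  classical
  -- the unit-valued versions
  let u : (F → κ) → F → κˣ := fun ρ x => if hx : ρ x = 0 then 1 else Units.mk0 (ρ x) hx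
  have hu : ∀ (ρ : F → κ) (x : F), ρ x ≠ 0 → ((u ρ x : κˣ) : κ) = ρ x := by
    intro ρ x hx
    simp only [u, dif_neg hx, Units.val_mk0]
  have hmul : ∀ (ρ : F → κ), (∀ x : F, H x → ρ x ≠ 0) →
      (∀ x y : F, H x → H y → ρ (x * y) = ρ x * ρ y) →
      ∀ x y : F, H x → H y → u ρ (x * y) = u ρ x * u ρ y := by
    intro ρ h0 hρ x y hx hy
    apply Units.ext
    rw [Units.val_mul, hu ρ _ (h0 _ (hHmul x y hx hy)), hu ρ _ (h0 x hx), hu ρ _ (h0 y hy),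
      hρ x y hx hy]
  have hE := E36_mem α β q hq H hH1 hHmul hHinv hHA hHB hh
  have key := mul_E36 α β q hq H hH0 hH1 hHmul hHinv hHA hHB (u ρ₁) (u ρ₂) (u ρ₃)
    (hmul ρ₁ h0₁ hρ₁) (hmul ρ₂ h0₂ hρ₂) (hmul ρ₃ h0₃ hρ₃)
    (fun x hx => by
      apply Units.ext
      rw [Units.val_mul, Units.val_pow_eq_pow_val, hu ρ₁ _ (h0₁ _ (hHA x hx)),
        hu ρ₁ _ (h0₁ x hx), hu ρ₂ _ (h0₂ x hx), hA₁ x hx])
    (fun x hx => by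
      apply Units.ext
      rw [Units.val_mul, Units.val_pow_eq_pow_val, hu ρ₂ _ (h0₂ _ (hHA x hx)),
        hu ρ₁ _ (h0₁ x hx), hu ρ₂ _ (h0₂ x hx), hA₂ x hx])
    (fun x hx => by
      apply Units.ext
      rw [Units.val_pow_eq_pow_val, hu ρ₃ _ (h0₃ _ (hHA x hx)), hu ρ₃ _ (h0₃ x hx), hA₃ x hx])
    (fun x hx => by
      apply Units.ext
      rw [Units.val_pow_eq_pow_val, hu ρ₁ _ (h0₁ _ (hHB x hx)), hu ρ₁ _ (h0₁ x hx), hB₁ x hx])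
    (fun x hx => by
      apply Units.ext
      rw [Units.val_mul, Units.val_pow_eq_pow_val, hu ρ₂ _ (h0₂ _ (hHB x hx)),
        hu ρ₂ _ (h0₂ x hx), hu ρ₃ _ (h0₃ x hx), hB₂ x hx])
    (fun x hx => by
      apply Units.ext
      rw [Units.val_mul, Units.val_pow_eq_pow_val, hu ρ₃ _ (h0₃ _ (hHB x hx)),
        hu ρ₂ _ (h0₂ x hx), hu ρ₃ _ (h0₃ x hx), hB₃ x hx])
    hh
  refine ⟨?_, ?_, ?_⟩
  · rw [← hu ρ₁ _ (h0₁ _ hE), key.1, Units.val_one]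
  · rw [← hu ρ₂ _ (h0₂ _ hE), key.2.1, Units.val_one]
  · rw [← hu ρ₃ _ (h0₃ _ hE), key.2.2, Units.val_one]

end Claim

end Fermat.Agent.S36.ClaimR36
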