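/-
S36 (wave 8), contract K4 on the finite chart, clause (A) of `RegFin36.reg36P₁_of_clauses` on the
LITERAL chart rings `ChartHom.B1 W N`: the adapter from `SsHorInst.ss_chart_level` (S34-style
carriers) through the `S34.BridgeChart` instances.

* `betaHom_eq_psiB` : on the literal charts, `BetaHom.betaHom = ChartHom.psiB`;
* `clauseA` : `RegFin36.ClauseA Φ M q hq A` for every level predicate `Φ` (`S₀ = ∅`).
-/
import Mathlib
import Fermat.Agent.S36.RegFin36
import Fermat.Agent.S36.SsHorInst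
import Fermat.Agent.S34.BridgeChart

set_option autoImplicit false
set_option linter.style.haveILetI false
set_option linter.unusedSectionVars false
set_option linter.unusedVariables false
set_option synthInstance.maxHeartbeats 200000
set_option maxHeartbeats 800000
set_option maxSynthPendingDepth 3

noncomputable section

namespace Fermat.Agent.S36.ClauseAOf

open Polynomial ModularCurve Fermat.Agent.S18 Fermat.Agent.S18.Gauss Fermat.Agent.S34
  Fermat.Agent.S37 Fermat.Agent.S36.Core36P Fermat.Agent.S36.ChartHom Fermat.Agent.S36.RegFin36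

local notation "Qb" => AlgebraicClosure ℚ

attribute [local instance 10000] ChartHom.algWF

/-- **Clause (A)** of `RegFin36.reg36P₁_of_clauses`, for every level predicate. -/
theorem clauseA (Φ : LevelPred) (M q : ℕ) [NeZero M] [NeZero q] (hq : q.Prime) (hqM : ¬ q ∣ M)
    (A : ValuationSubring Qb) : ClauseA Φ M q hq A := by
  refine ⟨∅, fun a ha => absurd ha (Finset.notMem_empty a), ?_⟩
  intro L _ _ ι hlev hirr _ 𝔫 h𝔫 hc𝔫 hcase hz 𝔮 h𝔮 h𝔮𝔫 hc𝔮
  letI a0 := BridgeChart.algPoly (A.comap ι) M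
  letI a1 := BridgeChart.algPoly (A.comap ι) (M * q)
  letI a2 := BridgeChart.algPoly (A.comap ι) (M * q * q)
  letI c0 := BridgeChart.algChart₁ (A.comap ι) M
  letI c1 := BridgeChart.algChart₁ (A.comap ι) (M * q)
  letI c2 := BridgeChart.algChart₁ (A.comap ι) (M * q * q)
  haveI t0 := BridgeChart.isScalarTower_chart₁ (A.comap ι) M
  haveI t1 := BridgeChart.isScalarTower_chart₁ (A.comap ι) (M * q)
  haveI t2 := BridgeChart.isScalarTower_chart₁ (A.comap ι) (M * q * q)
  haveI i0 := BridgeChart.isIntegralClosure_chart₁ (A.comap ι) M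
  haveI i1 := BridgeChart.isIntegralClosure_chart₁ (A.comap ι) (M * q)
  haveI i2 := BridgeChart.isIntegralClosure_chart₁ (A.comap ι) (M * q * q)
  haveI := h𝔫
  haveI := h𝔮
  have hβ : BetaHom.betaHom (A.comap ι) (M * q) q rfl (BridgeChart.Chart₁ (A.comap ι) (M * q)) rfl
      (BridgeChart.Chart₁ (A.comap ι) (M * q * q)) hq = psiB (A.comap ι) (M * q) q hq := by
    refine RingHom.ext fun b => Subtype.ext ?_
    exact BetaHom.betaHom_spec (A.comap ι) (M * q) q rfl (BridgeChart.Chart₁ (A.comap ι) (M * q)) rfl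
      (BridgeChart.Chart₁ (A.comap ι) (M * q * q)) hq b
  have hconst : algebraMap (↥(A.comap ι))[X] (BridgeChart.Chart₁ (A.comap ι) (M * q * q))
      (C ((q : ℕ) : ↥(A.comap ι))) = constB1 (A.comap ι) (M * q * q) ((q : ℕ) : ↥(A.comap ι)) :=
    Subtype.ext (evF_C (A.comap ι) (M * q * q) _)
  obtain ⟨z₀, s, hz₀, hs, hgen⟩ := hz
  exact SsHorInst.ss_chart_level A ι M q hq hqM ∅ hlev ((q : ℕ) : ↥(A.comap ι)) hirr
    rfl (BridgeChart.Chart₁ (A.comap ι) M) rfl (BridgeChart.Chart₁ (A.comap ι) (M * q)) rfl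
    (BridgeChart.Chart₁ (A.comap ι) (M * q * q)) 𝔫
    (fun b hb => by rw [hβ]; exact hcase b hb)
    ⟨z₀, hz₀, s, fun h => hs (by rw [Ideal.mem_comap, hβ] at h; exact h), hgen⟩
    𝔮 h𝔮𝔫 (by rw [hconst]; exact hc𝔮)

end Fermat.Agent.S36.ClauseAOf
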