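import Mathlib
import Fermat.Agent.S34.BridgeChart
import Fermat.Agent.S36.RegFin36
import Fermat.Agent.S36.FrobPred
import Fermat.Agent.S36.BetaHom
import Fermat.Agent.S36.OrdK4

/-!
# S36 (wave 8), K4 on the finite chart: the clause (II) adapter

`clauseII` : `RegFin36.ClauseII (FrobPred.frobPred A q) M q hq A` — K4 at the maximal ideals
`𝔫 ∋ q` of the literal chart of level `M q²` with `ψβ(𝔭₁) ⊄ 𝔫` — from `OrdK4.ord_k4` (stated
on S34-style carriers), instantiated at the literal chart rings `ChartHom.B1 W N` with the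
`W[X]`-algebra structures of `S34.BridgeChart`.
-/

set_option autoImplicit false
set_option linter.style.haveILetI false
set_option linter.unusedSectionVars false
set_option linter.unusedVariables false
set_option synthInstance.maxHeartbeats 400000
set_option maxHeartbeats 1600000
set_option maxSynthPendingDepth 3

noncomputable section

namespace Fermat.Agent.S36.ClauseIIInst

open Polynomial ModularCurve Fermat.Agent.S18 Fermat.Agent.S18.Gauss Fermat.Agent.S34
  Fermat.Agent.S37 Fermat.Agent.S36.Core36P Fermat.Agent.S36.ChartHom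

local notation "Qb" => AlgebraicClosure ℚ
local notation "FF" => Fermat.Agent.S24.FF

section Carrier

variable {L : Type} [Field L] [Algebra ℚ L] (W : ValuationSubring L) (N : ℕ) [NeZero N]

attribute [local instance 10000] ChartHom.algWF

/-- the `W[X]`-algebra structure of the function field (`X ↦ j`) -/
@[reducible] def algF : Algebra (↥W)[X] (FF L N) := BridgeChart.algPoly W N

/-- the `W[X]`-algebra structure of the literal finite chart ring -/
@[reducible] def algB : Algebra (↥W)[X] ↥(B1 W N) := (chartB1 W N).toAlgebra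

theorem isScalarTower_B :
    letI := algF W N
    letI := algB W N
    IsScalarTower (↥W)[X] ↥(B1 W N) (FF L N) := by
  letI := algF W N
  letI := algB W N
  exact IsScalarTower.of_algebraMap_eq (fun p => rfl)

theorem isIntegralClosure_B :
    letI := algF W N
    letI := algB W N
    IsIntegralClosure ↥(B1 W N) (↥W)[X] (FF L N) := by
  letI := algF W N
  letI := algB W N
  refine ⟨Subtype.val_injective, fun {x} => ⟨fun h => ?_, ?_⟩⟩
  · exact ⟨⟨x, (mem_B1_iff W N x).mpr h⟩, rfl⟩
  · rintro ⟨y, rfl⟩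
    exact (mem_B1_iff W N _).mp y.2

end Carrier

section Main

attribute [local instance 10000] ChartHom.algWF

variable {L : Type} [Field L] [Algebra ℚ L] (W : ValuationSubring L)

/-- `betaHom` on the literal charts is `ChartHom.psiB`. -/
theorem betaHom_eq_psiB (N ℓ : ℕ) [NeZero N] [NeZero ℓ] (hℓ : ℓ.Prime) (b : ↥(B1 W N)) :
    letI := algF W N
    letI := algB W N
    letI := algF W (N * ℓ)
    letI := algB W (N * ℓ)
    haveI := isScalarTower_B W N
    haveI := isIntegralClosure_B W N
    haveI := isScalarTower_B W (N * ℓ)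
    haveI := isIntegralClosure_B W (N * ℓ)
    BetaHom.betaHom W N ℓ rfl ↥(B1 W N) rfl ↥(B1 W (N * ℓ)) hℓ b = psiB W N ℓ hℓ b := by
  letI := algF W N
  letI := algB W N
  letI := algF W (N * ℓ)
  letI := algB W (N * ℓ)
  haveI := isScalarTower_B W N
  haveI := isIntegralClosure_B W N
  haveI := isScalarTower_B W (N * ℓ)
  haveI := isIntegralClosure_B W (N * ℓ)
  apply Subtype.ext
  exact BetaHom.betaHom_spec W N ℓ rfl ↥(B1 W N) rfl ↥(B1 W (N * ℓ)) hℓ b

/-- **Clause (II) of `RegFin36`** on the literal charts, at the Frobenius-stable unramified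
levels, for a tame level `M` divisible by an auxiliary prime `r ≡ 11 mod 12`. -/
theorem clauseII (M q : ℕ) [NeZero M] [NeZero q] (hq : q.Prime) (hqM : ¬ q ∣ M) {r : ℕ}
    (hr : r.Prime) (hr12 : r % 12 = 11) (hrM : r ∣ M) (A : ValuationSubring Qb) :
    RegFin36.ClauseII (FrobPred.frobPred A q) M q hq A := by
  refine ⟨∅, fun a ha => absurd ha (Finset.notMem_empty a), ?_⟩
  intro L _ _ ι hlev hirr hΦ 𝔫 h𝔫 hπ𝔫 hII 𝔮 h𝔮 h𝔮𝔫 hπ𝔮
  letI := algF (A.comap ι) M
  letI := algB (A.comap ι) M
  haveI := isScalarTower_B (A.comap ι) M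
  haveI := isIntegralClosure_B (A.comap ι) M
  letI := algF (A.comap ι) (M * q)
  letI := algB (A.comap ι) (M * q)
  haveI := isScalarTower_B (A.comap ι) (M * q)
  haveI := isIntegralClosure_B (A.comap ι) (M * q)
  letI := algF (A.comap ι) (M * q * q)
  letI := algB (A.comap ι) (M * q * q)
  haveI := isScalarTower_B (A.comap ι) (M * q * q)
  haveI := isIntegralClosure_B (A.comap ι) (M * q * q)
  haveI := h𝔫
  haveI := h𝔮
  have hstab : FrobLevel.FrobStable A q ι := hΦ
  have hC : algebraMap (↥(A.comap ι))[X] ↥(B1 (A.comap ι) (M * q * q))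
      (C ((q : ℕ) : ↥(A.comap ι))) =
      constB1 (A.comap ι) (M * q * q) ((q : ℕ) : ↥(A.comap ι)) :=
    chartB1_C (A.comap ι) (M * q * q) _
  refine OrdK4.ord_k4 A ι M q hq hqM hr hr12 hrM ∅ hlev hstab hirr rfl
    ↥(B1 (A.comap ι) M) rfl ↥(B1 (A.comap ι) (M * q)) rfl ↥(B1 (A.comap ι) (M * q * q)) 𝔫 ?_ ?_
    𝔮 h𝔮𝔫 ?_
  · rw [hC]
    exact hπ𝔫
  · intro h
    apply hII
    intro b hb
    have h1 := h b hb
    rw [betaHom_eq_psiB (A.comap ι) (M * q) q hq b] at h1
    exact h1
  · rw [hC]
    exact hπ𝔮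

/-- **Clause (II)**, binder shape of the top assembly. -/
theorem clauseII_aux (M q p : ℕ) [NeZero M] [NeZero q] (hq : q.Prime) (hqM : ¬ q ∣ M)
    (haux : ∃ r : ℕ, r.Prime ∧ r % 12 = 11 ∧ r ∣ M ∧ r ≠ p) (A : ValuationSubring Qb) :
    RegFin36.ClauseII (FrobPred.frobPred A q) M q hq A := by
  obtain ⟨r, hr, hr12, hrM, -⟩ := haux
  exact clauseII M q hq hqM hr hr12 hrM A

end Main

end Fermat.Agent.S36.ClauseIIInst
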