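/-
S36 (wave 8), K4 on the finite chart: **clause (II)** of `RegFin36.reg36P₁_of_clauses` on the
LITERAL chart rings `ChartHom.B1 W N = integralClosure W[j] (FF L N)`.

`clauseII` : `RegFin36.ClauseII (FrobPred.frobPred A q) M q hq A` for `M` divisible by an
auxiliary prime `r ≡ 11 mod 12` — K4 at the maximal ideals `𝔫 ∋ q` of the chart of level `M q²`
which do not lie over a point of the first branch of level `M q`.

Adapter only: `OrdK4.ord_k4` (clause (II) on arbitrary S34-style carriers) at the carriers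
`BM := B1 W M`, `B₁ := B1 W (M q)`, `B₂ := B1 W (M q²)` with the chart maps `ChartHom.chartB1`
as `W[X]`-algebra structures; `BetaHom.betaHom = ChartHom.psiB` and
`algebraMap W[X] B₂ (C c) = ChartHom.constB1 c` on these carriers.
-/
import Mathlib
import Fermat.Agent.S36.OrdK4
import Fermat.Agent.S36.RegFin36
import Fermat.Agent.S36.FrobPred
import Fermat.Agent.S36.ChartHom

set_option autoImplicit false
set_option linter.style.haveILetI false
set_option linter.unusedSectionVars false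
set_option linter.unusedVariables false
set_option maxSynthPendingDepth 3

noncomputable section

namespace Fermat.Agent.S36.ClauseIIOf

open Polynomial ModularCurve Fermat.Agent.S18 Fermat.Agent.S18.Gauss Fermat.Agent.S34
  Fermat.Agent.S37 Fermat.Agent.S36.Core36P Fermat.Agent.S36.ChartHom

local notation "Qb" => AlgebraicClosure ℚ
local notation "FF" => Fermat.Agent.S24.FF

/-! ### The literal chart ring as an S34-style carrier -/

section Carrier

variable {L : Type} [Field L] [Algebra ℚ L] (W : ValuationSubring L) (N : ℕ) [NeZero N]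

/-- the `W[X]`-algebra structure of `FF L N` through `X ↦ j` -/
@[reducible] def algFF : Algebra (↥W)[X] (FF L N) := (evF W N).toAlgebra

/-- the `W[X]`-algebra structure of the literal finite chart ring -/
@[reducible] def algB1 : Algebra (↥W)[X] ↥(B1 W N) := (chartB1 W N).toAlgebra

theorem isScalarTower_B1 :
    letI := algFF W N
    letI := algB1 W N
    IsScalarTower (↥W)[X] ↥(B1 W N) (FF L N) := by
  letI := algFF W N
  letI := algB1 W N
  exact IsScalarTower.of_algebraMap_eq (fun p => rfl)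

theorem isIntegralClosure_B1 :
    letI := algFF W N
    letI := algB1 W N
    IsIntegralClosure ↥(B1 W N) (↥W)[X] (FF L N) := by
  letI := algFF W N
  letI := algB1 W N
  refine ⟨Subtype.val_injective, fun {x} => ⟨fun h => ?_, ?_⟩⟩
  · exact ⟨⟨x, (mem_B1_iff W N x).mpr h⟩, rfl⟩
  · rintro ⟨y, rfl⟩
    exact (mem_B1_iff W N _).mp y.2

theorem algebraMap_C (c : ↥W) :
    letI := algB1 W N
    algebraMap (↥W)[X] ↥(B1 W N) (C c) = constB1 W N c :=
  chartB1_C W N c

end Carrier

section Beta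

variable {L : Type} [Field L] [Algebra ℚ L] (W : ValuationSubring L) (N ℓ : ℕ) [NeZero N]
  [NeZero ℓ]

/-- on the literal charts `BetaHom.betaHom` is `ChartHom.psiB` -/
theorem betaHom_eq (hℓ : ℓ.Prime) (b : ↥(B1 W N)) :
    letI := algFF W N
    letI := algB1 W N
    letI := algFF W (N * ℓ)
    letI := algB1 W (N * ℓ)
    haveI := isScalarTower_B1 W N
    haveI := isIntegralClosure_B1 W N
    haveI := isScalarTower_B1 W (N * ℓ)
    haveI := isIntegralClosure_B1 W (N * ℓ)
    BetaHom.betaHom W N ℓ rfl ↥(B1 W N) rfl ↥(B1 W (N * ℓ)) hℓ b = psiB W N ℓ hℓ b := by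
  letI := algFF W N
  letI := algB1 W N
  letI := algFF W (N * ℓ)
  letI := algB1 W (N * ℓ)
  haveI := isScalarTower_B1 W N
  haveI := isIntegralClosure_B1 W N
  haveI := isScalarTower_B1 W (N * ℓ)
  haveI := isIntegralClosure_B1 W (N * ℓ)
  apply Subtype.ext
  exact (BetaHom.betaHom_spec W N ℓ rfl ↥(B1 W N) rfl ↥(B1 W (N * ℓ)) hℓ b).trans
    (coe_psiB W N ℓ hℓ b).symm

end Beta

/-! ### Clause (II) -/

/-- **Clause (II) of K4 on the finite chart** (literal chart rings), at Frobenius-stable levels,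
`M` divisible by an auxiliary prime `r ≡ 11 mod 12`. -/
theorem clauseII_of_prime (M q : ℕ) [NeZero M] [NeZero q] (hq : q.Prime) (hqM : ¬ q ∣ M)
    {r : ℕ} (hr : r.Prime) (hr12 : r % 12 = 11) (hrM : r ∣ M) (A : ValuationSubring Qb) :
    RegFin36.ClauseII (FrobPred.frobPred A q) M q hq A := by
  refine ⟨∅, fun a ha => absurd ha (Finset.notMem_empty a), ?_⟩
  intro L _ _ ι hlev hirr hΦ 𝔫 h𝔫 hc𝔫 hII 𝔮 h𝔮 h𝔮𝔫 hc𝔮
  have hstab : FrobLevel.FrobStable A q ι := (FrobPred.frobPred_iff A q L ι).mp hΦ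
  letI := algFF (A.comap ι) M
  letI := algB1 (A.comap ι) M
  letI := algFF (A.comap ι) (M * q)
  letI := algB1 (A.comap ι) (M * q)
  letI := algFF (A.comap ι) (M * q * q)
  letI := algB1 (A.comap ι) (M * q * q)
  haveI := isScalarTower_B1 (A.comap ι) M
  haveI := isIntegralClosure_B1 (A.comap ι) M
  haveI := isScalarTower_B1 (A.comap ι) (M * q)
  haveI := isIntegralClosure_B1 (A.comap ι) (M * q)
  haveI := isScalarTower_B1 (A.comap ι) (M * q * q)
  haveI := isIntegralClosure_B1 (A.comap ι) (M * q * q)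
  haveI := h𝔫
  haveI := h𝔮
  have hπ𝔫 : algebraMap (↥(A.comap ι))[X] ↥(B1 (A.comap ι) (M * q * q))
      (C ((q : ℕ) : ↥(A.comap ι))) ∈ 𝔫 := by
    rw [algebraMap_C (A.comap ι) (M * q * q)]
    exact hc𝔫
  have hπ𝔮 : algebraMap (↥(A.comap ι))[X] ↥(B1 (A.comap ι) (M * q * q))
      (C ((q : ℕ) : ↥(A.comap ι))) ∉ 𝔮 := by
    rw [algebraMap_C (A.comap ι) (M * q * q)]
    exact hc𝔮
  have hII' : ¬ ∀ b : ↥(B1 (A.comap ι) (M * q)), TwoGauss.rd (A.comap ι)
      ((algebraMap ↥(B1 (A.comap ι) (M * q)) (FF L (M * q)) b : FF L (M * q)) :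
        LaurentSeries L) = 0 →
        BetaHom.betaHom (A.comap ι) (M * q) q rfl ↥(B1 (A.comap ι) (M * q)) rfl
          ↥(B1 (A.comap ι) (M * q * q)) hq b ∈ 𝔫 := by
    intro h
    apply hII
    intro b hb
    have h1 := h b hb
    rw [betaHom_eq (A.comap ι) (M * q) q hq b] at h1
    exact h1
  exact OrdK4.ord_k4 A ι M q hq hqM hr hr12 hrM ∅ hlev hstab hirr rfl
    ↥(B1 (A.comap ι) M) rfl ↥(B1 (A.comap ι) (M * q)) rfl ↥(B1 (A.comap ι) (M * q * q))
    𝔫 hπ𝔫 hII' 𝔮 h𝔮𝔫 hπ𝔮

/-- **Clause (II)**, binder shape of `RegFin36Inst`. -/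
theorem clauseII (M q p : ℕ) [NeZero M] [NeZero q] (hq : q.Prime) (hqM : ¬ q ∣ M)
    (haux : ∃ r : ℕ, r.Prime ∧ r % 12 = 11 ∧ r ∣ M ∧ r ≠ p) (A : ValuationSubring Qb) :
    RegFin36.ClauseII (FrobPred.frobPred A q) M q hq A := by
  obtain ⟨r, hr, hr12, hrM, -⟩ := haux
  exact clauseII_of_prime M q hq hqM hr hr12 hrM A

end Fermat.Agent.S36.ClauseIIOf
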