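import Mathlib
import Fermat.Agent.S18.Endgame
import Fermat.Agent.S34.KummerStep

/-!
# S36 (K4, coverage): every prime over `π` of a chart contains one of three "centres" (abstract)

`W` a UFD, `F` a field over `W`, `j ∈ F` transcendental over `W`, `B` the integral closure of
`W[j]` in `F`, `π` a prime element of `W`.

* `exists_eq_mul_of_gaussOne` : if `x ∈ B` and `1 + x ≡ 1` on the Gauss ring
  (`KummerStep.GaussOne π j (1 + x)`), then `x ∈ π B`  (saturation,
  `S18.Endgame.isInt_of_inC`).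
* `cover_abs` : let `I₁, I₂, I₃ ⊆ B` be three sets such that for all `bᵢ ∈ Iᵢ` the element
  `1 + (b₁ b₂ b₃) ^ k` is `GaussOne` (`k ≠ 0` fixed).  Then every prime `𝔫 ∋ π` of `B` contains
  `I₁`, `I₂` or `I₃`.

In the application (`Cover36Inst`) the `Iᵢ` are the centres of the three Gauss valuations of
level `M q²` and the hypothesis is K2's (V3).
-/

set_option autoImplicit false

namespace Fermat.Agent.S36.Cover36

open Polynomial Fermat.Agent.S18 Fermat.Agent.S18.Endgame Fermat.Agent.S34.KummerStep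

variable {W F : Type*} [CommRing W] [IsDomain W] [UniqueFactorizationMonoid W] [Field F]
  [Algebra W F]

/-- **Saturation for `GaussOne`.**  An element `x` of the chart ring with `1 + x ≡ 1` modulo `π`
on the Gauss ring is divisible by `π` in the chart ring. -/
theorem exists_eq_mul_of_gaussOne {π : W} (hπ : Prime π) (hπF : algebraMap W F π ≠ 0) {j : F}
    (hj : Transcendental W j) {x : F} (hx : IsIntegral (Algebra.adjoin W {j}) x)
    (h : GaussOne π j (1 + x)) :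
    ∃ c : F, IsIntegral (Algebra.adjoin W {j}) c ∧ x = algebraMap W F π * c := by
  obtain ⟨c, hc, hxc⟩ := h.inC hπF
  have hxc' : x = algebraMap W F π * c := by
    rw [← hxc]; ring
  have h1 : IsInt W j (algebraMap W F π * c) := by
    rw [← hxc']
    exact (isInt_iff_isIntegral_adjoin (Y := F) j x).mpr hx
  have h2 : IsInt W j c := isInt_of_inC hπ hj h1 hc
  exact ⟨c, (isInt_iff_isIntegral_adjoin (Y := F) j c).mp h2, hxc'⟩

/-- **Three-centre covering, abstract.**  If `1 + (b₁ b₂ b₃) ^ k` is `GaussOne` whenever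
`bᵢ ∈ Iᵢ`, then every prime of the chart ring containing `π` contains one of the `Iᵢ`. -/
theorem cover_abs {π : W} (hπ : Prime π) (hπF : algebraMap W F π ≠ 0) {j : F}
    (hj : Transcendental W j)
    (𝔫 : Ideal (integralClosure (Algebra.adjoin W {j}) F)) [h𝔫 : 𝔫.IsPrime]
    (hπ𝔫 : ∀ r : integralClosure (Algebra.adjoin W {j}) F,
      (r : F) = algebraMap W F π → r ∈ 𝔫)
    (I₁ I₂ I₃ : Set (integralClosure (Algebra.adjoin W {j}) F)) (k : ℕ)
    (H : ∀ b₁ ∈ I₁, ∀ b₂ ∈ I₂, ∀ b₃ ∈ I₃,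
      GaussOne π j (1 + ((b₁ * b₂ * b₃ : integralClosure (Algebra.adjoin W {j}) F) : F) ^ k)) :
    (∀ b ∈ I₁, b ∈ 𝔫) ∨ (∀ b ∈ I₂, b ∈ 𝔫) ∨ (∀ b ∈ I₃, b ∈ 𝔫) := by
  by_contra hcon
  push Not at hcon
  obtain ⟨⟨b₁, hb₁, hb₁𝔫⟩, ⟨b₂, hb₂, hb₂𝔫⟩, ⟨b₃, hb₃, hb₃𝔫⟩⟩ := hcon
  have hx : IsIntegral (Algebra.adjoin W {j})
      (((b₁ * b₂ * b₃ : integralClosure (Algebra.adjoin W {j}) F) : F) ^ k) :=
    ((b₁ * b₂ * b₃ : integralClosure (Algebra.adjoin W {j}) F).2).pow k
  obtain ⟨c, hc, hxc⟩ := exists_eq_mul_of_gaussOne hπ hπF hj hx (H b₁ hb₁ b₂ hb₂ b₃ hb₃)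
  -- `π` as an element of the chart ring
  have hπint : IsIntegral (Algebra.adjoin W {j}) (algebraMap W F π) := by
    have : algebraMap W F π =
        algebraMap (Algebra.adjoin W {j}) F (algebraMap W (Algebra.adjoin W {j}) π) := rfl
    rw [this]
    exact isIntegral_algebraMap
  have hπmem : (⟨algebraMap W F π, hπint⟩ : integralClosure (Algebra.adjoin W {j}) F) ∈ 𝔫 :=
    hπ𝔫 _ rfl
  have hpow : (b₁ * b₂ * b₃) ^ k ∈ 𝔫 := by
    have e : (b₁ * b₂ * b₃) ^ k =
        (⟨algebraMap W F π, hπint⟩ : integralClosure (Algebra.adjoin W {j}) F) * ⟨c, hc⟩ :=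
      Subtype.ext (by
        show ((b₁ * b₂ * b₃ : integralClosure (Algebra.adjoin W {j}) F) : F) ^ k = _
        rw [hxc]; rfl)
    rw [e]
    exact 𝔫.mul_mem_right _ hπmem
  have hmem : b₁ * b₂ * b₃ ∈ 𝔫 := h𝔫.mem_of_pow_mem k hpow
  rcases h𝔫.mem_or_mem hmem with h12 | h3
  · rcases h𝔫.mem_or_mem h12 with h1 | h2
    · exact hb₁𝔫 h1
    · exact hb₂𝔫 h2
  · exact hb₃𝔫 h3

end Fermat.Agent.S36.Cover36
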