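import Mathlib
import Fermat.Agent.S36.Cover36
import Fermat.Agent.S36.VDefs
import Fermat.Agent.S36.CycLemmas
import Fermat.Agent.S37.LevelChange

/-!
# S36 (K4, coverage): the three centres at level `M q²`, from K2's (V2 ⇒) and (V3)

`W` a discrete valuation ring of `L` at which `q` is a uniformiser, `F = FF L (M q²)`,
`B = integralClosure W[j] F` the finite chart, `E : Exp3 M q w₁ ζ` the two further expansions
(`E.phi0` at the cusp `0`, `E.psi` at the middle cusp, with coefficients in `L' ∋ ζ`).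

Hypotheses (K2, helper21's `ThreeInC`):
* `hV2` : Gauss-integral elements have integral expansions at the three cusps;
* `hV3` : `w ≡ 1 mod q` at the three expansions implies `GaussOne q j w`.

Results:
* `three_centres` : every prime `𝔫 ∋ q` of `B` contains
  `𝔓_∞ = {b | coe b ∈ q · contentRing W}` or `𝔓_0 = {b | E.phi0 b ∈ q · contentRing W}` or
  `𝔓_mid = {b | E.psi b ∈ (1 - ζ) · contentRing W'}`.
* `cover36` : hence (`coe ∘ α₂ = coe`, `E.psi ∘ α₂ = coe`, `E.phi0 ∘ β₂ = coe ∘ w₁`) for every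
  prime `𝔫 ∋ q` of `B`: EITHER `α₂ y ∈ 𝔫` for every `y` of level `M q` with `red (coe y) = 0`
  (`𝔭₁ ⊆ α₂⁻¹ 𝔫`), OR `β₂ y ∈ 𝔫` for every `y` with `red (coe (w₁ y)) = 0` (`𝔭₂ ⊆ β₂⁻¹ 𝔫`).
-/

set_option autoImplicit false
set_option linter.unusedSectionVars false
set_option linter.unusedVariables false
set_option linter.style.haveILetI false

noncomputable section

namespace Fermat.Agent.S36.Cover36Of

open ModularCurve Polynomial Fermat.Agent.S18 Fermat.Agent.S18.Gauss Fermat.Agent.S28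
open Fermat.Agent.S24 Fermat.Agent.S36.VDefs Fermat.Agent.S34.KummerStep

variable {L : Type} [Field L] [Algebra ℚ L] (W : ValuationSubring L) [IsDiscreteValuationRing W]
  (M q : ℕ) [NeZero M] [NeZero q] [Fact q.Prime]
  (w₁ : FF L (M * q) →ₐ[L] FF L (M * q))
  {L' : Type} [Field L'] [Algebra L L'] (W' : ValuationSubring L') [IsDiscreteValuationRing W']
  (ζ : L'ˣ)

/-- a power of a multiple of `c` in a subring is a multiple of `c` -/
theorem pow_succ_eq_mul {R : Type*} [CommRing R] (S : Subring R) {c t G : R} (hc : c ∈ S)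
    (hG : G ∈ S) (ht : t = c * G) (k : ℕ) : ∃ g ∈ S, t ^ (k + 1) = c * g := by
  have htS : t ∈ S := ht ▸ S.mul_mem hc hG
  exact ⟨G * t ^ k, S.mul_mem hG (S.pow_mem htS k), by rw [pow_succ, ht]; ring⟩

variable [CharP (IsLocalRing.ResidueField W) q]
  [Algebra ↥W (FF L (M * q * q))] [IsScalarTower ↥W L (FF L (M * q * q))]

/-- **Three-centre covering at level `M q²`.** -/
theorem three_centres (hcyc : CycData W q W' ζ) (E : Exp3 M q w₁ ζ)
    (hirr : Irreducible ((q : ℕ) : ↥W))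
    (hj : Transcendental ↥W (jBC L (M * q * q)))
    (hV2 : ∀ x : FF L (M * q * q),
      Endgame.InC ((q : ℕ) : ↥W) (jBC L (M * q * q)) x →
        (x : LaurentSeries L) ∈ contentRing W ∧ E.phi0 x ∈ contentRing W ∧
          E.psi x ∈ contentRing W')
    (hV3 : ∀ (w : FF L (M * q * q)) (g₁ g₂ : LaurentSeries L) (g₃ : LaurentSeries L'),
      g₁ ∈ contentRing W → g₂ ∈ contentRing W → g₃ ∈ contentRing W' →
      (w : LaurentSeries L) - 1 = HahnSeries.C ((((q : ℕ) : ↥W) : ↥W) : L) * g₁ →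
      E.phi0 w - 1 = HahnSeries.C ((((q : ℕ) : ↥W) : ↥W) : L) * g₂ →
      E.psi w - 1 = HahnSeries.C (algebraMap L L' ((((q : ℕ) : ↥W) : ↥W) : L)) * g₃ →
      GaussOne ((q : ℕ) : ↥W) (jBC L (M * q * q)) w)
    (𝔫 : Ideal (integralClosure (Algebra.adjoin ↥W {jBC L (M * q * q)}) (FF L (M * q * q))))
    [𝔫.IsPrime]
    (hπ𝔫 : ∀ r : integralClosure (Algebra.adjoin ↥W {jBC L (M * q * q)}) (FF L (M * q * q)),
      (r : FF L (M * q * q)) = algebraMap ↥W (FF L (M * q * q)) ((q : ℕ) : ↥W) → r ∈ 𝔫) :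
    (∀ b : integralClosure (Algebra.adjoin ↥W {jBC L (M * q * q)}) (FF L (M * q * q)),
      (∃ g ∈ contentRing W, ((b : FF L (M * q * q)) : LaurentSeries L) =
        HahnSeries.C ((((q : ℕ) : ↥W) : ↥W) : L) * g) → b ∈ 𝔫) ∨
    (∀ b : integralClosure (Algebra.adjoin ↥W {jBC L (M * q * q)}) (FF L (M * q * q)),
      (∃ g ∈ contentRing W, E.phi0 (b : FF L (M * q * q)) =
        HahnSeries.C ((((q : ℕ) : ↥W) : ↥W) : L) * g) → b ∈ 𝔫) ∨
    (∀ b : integralClosure (Algebra.adjoin ↥W {jBC L (M * q * q)}) (FF L (M * q * q)),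
      (∃ g ∈ contentRing W', E.psi (b : FF L (M * q * q)) =
        HahnSeries.C (1 - (ζ : L')) * g) → b ∈ 𝔫) := by
  classical
  have hq : q.Prime := Fact.out
  haveI : CharZero L := algebraRat.charZero L
  haveI : CharZero (FF L (M * q * q)) :=
    charZero_of_injective_algebraMap (algebraMap L (FF L (M * q * q))).injective
  have hπ : Prime ((q : ℕ) : ↥W) := hirr.prime
  have hπF : algebraMap ↥W (FF L (M * q * q)) ((q : ℕ) : ↥W) ≠ 0 := by
    rw [map_natCast]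
    exact Nat.cast_ne_zero.mpr hq.ne_zero
  -- integrality of the three expansions on the chart ring
  have hint : ∀ b : integralClosure (Algebra.adjoin ↥W {jBC L (M * q * q)}) (FF L (M * q * q)),
      ((b : FF L (M * q * q)) : LaurentSeries L) ∈ contentRing W ∧
        E.phi0 (b : FF L (M * q * q)) ∈ contentRing W ∧
        E.psi (b : FF L (M * q * q)) ∈ contentRing W' := by
    intro b
    refine hV2 _ (Endgame.InC.of_isInt hπ ?_)
    exact (Endgame.isInt_iff_isIntegral_adjoin (Y := FF L (M * q * q)) (jBC L (M * q * q))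
      (b : FF L (M * q * q))).mpr b.2
  -- `q = (1 - ζ) ^ (q - 1) * u`
  obtain ⟨u, hu, hu', hqu⟩ := Fermat.Agent.S36.CycLemmas.exists_unit_q W q W' ζ hcyc
  have hqL' : ((q : ℕ) : L') ≠ 0 := by
    have : CharZero L' := charZero_of_injective_algebraMap (algebraMap L L').injective
    exact Nat.cast_ne_zero.mpr hq.ne_zero
  have hu0 : u ≠ 0 := by
    rintro rfl
    rw [mul_zero] at hqu
    exact hqL' hqu
  have hpow : (1 - (ζ : L')) ^ (q - 1) = ((q : ℕ) : L') * u⁻¹ := by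
    rw [hqu, mul_assoc, mul_inv_cancel₀ hu0, mul_one]
  obtain ⟨k, hk⟩ : ∃ k, q - 1 = k + 1 := ⟨q - 2, by have := hq.two_le; omega⟩
  have hCq : HahnSeries.C ((((q : ℕ) : ↥W) : ↥W) : L) ∈ contentRing W :=
    C_mem_contentRing W ((q : ℕ) : ↥W)
  refine Fermat.Agent.S36.Cover36.cover_abs hπ hπF hj 𝔫 hπ𝔫
    {b | ∃ g ∈ contentRing W, ((b : FF L (M * q * q)) : LaurentSeries L) =
        HahnSeries.C ((((q : ℕ) : ↥W) : ↥W) : L) * g}
    {b | ∃ g ∈ contentRing W, E.phi0 (b : FF L (M * q * q)) =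
        HahnSeries.C ((((q : ℕ) : ↥W) : ↥W) : L) * g}
    {b | ∃ g ∈ contentRing W', E.psi (b : FF L (M * q * q)) =
        HahnSeries.C (1 - (ζ : L')) * g} (q - 1) ?_
  rintro b₁ ⟨g₁, hg₁, hb₁⟩ b₂ ⟨g₂, hg₂, hb₂⟩ b₃ ⟨g₃, hg₃, hb₃⟩
  obtain ⟨h1a, h1b, h1c⟩ := hint b₁
  obtain ⟨h2a, h2b, h2c⟩ := hint b₂
  obtain ⟨h3a, h3b, h3c⟩ := hint b₃
  -- the expansion at infinity
  obtain ⟨G₁, hG₁, e₁⟩ := pow_succ_eq_mul (contentRing W) hCq
    ((contentRing W).mul_mem ((contentRing W).mul_mem hg₁ h2a) h3a)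
    (t := ((b₁ : FF L (M * q * q)) : LaurentSeries L) * ((b₂ : FF L (M * q * q)) : LaurentSeries L)
      * ((b₃ : FF L (M * q * q)) : LaurentSeries L))
    (by rw [hb₁]; ring) k
  -- the expansion at zero
  obtain ⟨G₂, hG₂, e₂⟩ := pow_succ_eq_mul (contentRing W) hCq
    ((contentRing W).mul_mem ((contentRing W).mul_mem h1b hg₂) h3b)
    (t := E.phi0 (b₁ : FF L (M * q * q)) * E.phi0 (b₂ : FF L (M * q * q))
      * E.phi0 (b₃ : FF L (M * q * q)))
    (by rw [hb₂]; ring) k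
  -- the middle expansion
  have e₃ : (E.psi (b₁ : FF L (M * q * q)) * E.psi (b₂ : FF L (M * q * q))
      * E.psi (b₃ : FF L (M * q * q))) ^ (q - 1) =
      HahnSeries.C (algebraMap L L' ((((q : ℕ) : ↥W) : ↥W) : L)) *
        (HahnSeries.C u⁻¹ * (E.psi (b₁ : FF L (M * q * q)) * E.psi (b₂ : FF L (M * q * q))
          * g₃) ^ (q - 1)) := by
    have hc : algebraMap L L' ((((q : ℕ) : ↥W) : ↥W) : L) = ((q : ℕ) : L') := by
      rw [show ((((q : ℕ) : ↥W) : ↥W) : L) = ((q : ℕ) : L) from rfl, map_natCast]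
    have hC : (HahnSeries.C (1 - (ζ : L')) : LaurentSeries L') ^ (q - 1) =
        HahnSeries.C ((q : ℕ) : L') * HahnSeries.C u⁻¹ := by
      rw [← map_pow, hpow, map_mul]
    rw [hc, hb₃, ← mul_assoc (HahnSeries.C ((q : ℕ) : L')), ← hC]
    ring
  have hG₃ : HahnSeries.C u⁻¹ * (E.psi (b₁ : FF L (M * q * q)) * E.psi (b₂ : FF L (M * q * q))
      * g₃) ^ (q - 1) ∈ contentRing W' :=
    (contentRing W').mul_mem (C_mem_contentRing W' ⟨u⁻¹, hu'⟩)
      ((contentRing W').pow_mem ((contentRing W').mul_mem ((contentRing W').mul_mem h1c h2c) hg₃) _)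
  refine hV3 _ G₁ G₂ _ hG₁ hG₂ hG₃ ?_ ?_ ?_
  · rw [← e₁, ← hk]
    push_cast
    ring
  · rw [← e₂, ← hk]
    simp only [map_add, map_one, map_pow, map_mul, Subalgebra.coe_mul, add_sub_cancel_left]
  · rw [← e₃]
    simp only [map_add, map_one, map_pow, map_mul, Subalgebra.coe_mul, add_sub_cancel_left]

/-- **(Cover36)** at level `M q²`: for every prime `𝔫 ∋ q` of the finite chart, EITHER `α₂ y ∈ 𝔫`
for every `y` of level `M q` whose `q`-expansion reduces to `0` (`𝔭₁ ⊆ α₂⁻¹ 𝔫`), OR `β₂ y ∈ 𝔫`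
for every `y` such that the `q`-expansion of `w₁ y` reduces to `0` (`𝔭₂ ⊆ β₂⁻¹ 𝔫`). -/
theorem cover36 (hcyc : CycData W q W' ζ) (E : Exp3 M q w₁ ζ)
    (hirr : Irreducible ((q : ℕ) : ↥W))
    (hj : Transcendental ↥W (jBC L (M * q * q)))
    (hV2 : ∀ x : FF L (M * q * q),
      Endgame.InC ((q : ℕ) : ↥W) (jBC L (M * q * q)) x →
        (x : LaurentSeries L) ∈ contentRing W ∧ E.phi0 x ∈ contentRing W ∧
          E.psi x ∈ contentRing W')
    (hV3 : ∀ (w : FF L (M * q * q)) (g₁ g₂ : LaurentSeries L) (g₃ : LaurentSeries L'),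
      g₁ ∈ contentRing W → g₂ ∈ contentRing W → g₃ ∈ contentRing W' →
      (w : LaurentSeries L) - 1 = HahnSeries.C ((((q : ℕ) : ↥W) : ↥W) : L) * g₁ →
      E.phi0 w - 1 = HahnSeries.C ((((q : ℕ) : ↥W) : ↥W) : L) * g₂ →
      E.psi w - 1 = HahnSeries.C (algebraMap L L' ((((q : ℕ) : ↥W) : ↥W) : L)) * g₃ →
      GaussOne ((q : ℕ) : ↥W) (jBC L (M * q * q)) w)
    (𝔫 : Ideal (integralClosure (Algebra.adjoin ↥W {jBC L (M * q * q)}) (FF L (M * q * q))))
    [𝔫.IsPrime]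
    (hπ𝔫 : ∀ r : integralClosure (Algebra.adjoin ↥W {jBC L (M * q * q)}) (FF L (M * q * q)),
      (r : FF L (M * q * q)) = algebraMap ↥W (FF L (M * q * q)) ((q : ℕ) : ↥W) → r ∈ 𝔫) :
    (∀ (y : FF L (M * q))
        (b : integralClosure (Algebra.adjoin ↥W {jBC L (M * q * q)}) (FF L (M * q * q))),
        (b : FF L (M * q * q)) = heckeAlphaBar L (M * q) q y →
        ∀ h : (y : LaurentSeries L) ∈ contentRing W, red W ⟨_, h⟩ = 0 → b ∈ 𝔫) ∨
    (∀ (y : FF L (M * q))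
        (b : integralClosure (Algebra.adjoin ↥W {jBC L (M * q * q)}) (FF L (M * q * q))),
        (b : FF L (M * q * q)) = heckeBetaBar L (M * q) q y →
        ∀ h : ((w₁ y : FF L (M * q)) : LaurentSeries L) ∈ contentRing W,
          red W ⟨_, h⟩ = 0 → b ∈ 𝔫) := by
  have hq : q.Prime := Fact.out
  rcases three_centres W M q w₁ W' ζ hcyc E hirr hj hV2 hV3 𝔫 hπ𝔫 with hinf | h0 | hmid
  · -- the centre at infinity
    left
    intro y b hb h hred
    obtain ⟨g, hg⟩ := (red_eq_zero_iff W hirr ⟨_, h⟩).mp hred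
    refine hinf b ⟨g, g.2, ?_⟩
    rw [hb, coe_heckeAlphaBar]
    exact hg
  · -- the centre at zero
    right
    intro y b hb h hred
    obtain ⟨g, hg⟩ := (red_eq_zero_iff W hirr ⟨_, h⟩).mp hred
    refine h0 b ⟨g, g.2, ?_⟩
    rw [hb, E.phi0_beta]
    exact hg
  · -- the middle centre
    left
    intro y b hb h hred
    obtain ⟨g, hg⟩ := (red_eq_zero_iff W hirr ⟨_, h⟩).mp hred
    have hg' : (y : LaurentSeries L) = HahnSeries.C ((((q : ℕ) : ↥W) : ↥W) : L) *
        (g : LaurentSeries L) := hg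
    obtain ⟨u, hu, hu', hqu⟩ := Fermat.Agent.S36.CycLemmas.exists_unit_q W q W' ζ hcyc
    obtain ⟨k, hk⟩ : ∃ k, q - 1 = k + 1 := ⟨q - 2, by have := hq.two_le; omega⟩
    have hζ : (1 - (ζ : L')) ∈ W' := Fermat.Agent.S36.CycLemmas.one_sub_mem W q W' ζ hcyc
    have hW : ∀ c : L, c ∈ W ↔ algebraMap L L' c ∈ W' := fun c => (hcyc.comap c).symm
    have hgm : coeffMap (algebraMap L L') (g : LaurentSeries L) ∈ contentRing W' :=
      Fermat.Agent.S37.LevelChange.coeffMap_mem_contentRing (algebraMap L L') W W' hW g.2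
    have hc : algebraMap L L' ((((q : ℕ) : ↥W) : ↥W) : L) =
        (1 - (ζ : L')) * ((1 - (ζ : L')) ^ k * u) := by
      rw [show ((((q : ℕ) : ↥W) : ↥W) : L) = ((q : ℕ) : L) from rfl, map_natCast, hqu, hk,
        pow_succ]
      ring
    refine hmid b ⟨HahnSeries.C ((1 - (ζ : L')) ^ k * u) *
      coeffMap (algebraMap L L') (g : LaurentSeries L),
      (contentRing W').mul_mem
        (C_mem_contentRing W' ⟨(1 - (ζ : L')) ^ k * u, W'.mul_mem _ _ (pow_mem hζ k) hu⟩) hgm, ?_⟩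
    rw [hb, E.psi_alpha, hg', map_mul, Fermat.Agent.S28.Content.coeffMap_C, hc, map_mul]
    ring

end Fermat.Agent.S36.Cover36Of
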