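/-
S36 (wave 8), K6 support: along an INTEGRAL ring map into a NOETHERIAN ring, every prime has
finitely many primes above it (no module-finiteness needed): they are minimal primes of the
extended ideal, by incomparability.
-/
import Mathlib

set_option autoImplicit false
set_option linter.style.haveILetI false

namespace Fermat.Agent.S36.FibrePrime

variable {B' B : Type*} [CommRing B'] [CommRing B]

/-- incomparability for an integral ring map: two comparable primes with the same contraction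
are equal -/
theorem eq_of_le_of_comap_eq (ψ : B' →+* B) (hψ : ψ.IsIntegral) (𝔭 𝔫 : Ideal B) [𝔭.IsPrime]
    (hle : 𝔭 ≤ 𝔫) (hc : 𝔭.comap ψ = 𝔫.comap ψ) : 𝔭 = 𝔫 := by
  letI : Algebra B' B := ψ.toAlgebra
  by_contra hne
  have hlt : 𝔭 < 𝔫 := lt_of_le_of_ne hle hne
  obtain ⟨x, hx𝔫, hx𝔭⟩ := Set.exists_of_ssubset hlt
  have := Ideal.comap_lt_comap_of_integral_mem_sdiff (R := B') hle ⟨hx𝔫, hx𝔭⟩ (hψ x)
  exact this.ne hc

/-- **Finitely many primes over a prime** along an integral map into a Noetherian ring. -/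
theorem finite_primes_over [IsNoetherianRing B] (ψ : B' →+* B) (hψ : ψ.IsIntegral)
    (𝔭' : Ideal B') :
    {𝔫 : Ideal B | 𝔫.IsPrime ∧ 𝔫.comap ψ = 𝔭'}.Finite := by
  refine (Ideal.finite_minimalPrimes_of_isNoetherianRing B (𝔭'.map ψ)).subset ?_
  rintro 𝔫 ⟨h𝔫, hc⟩
  refine ⟨⟨h𝔫, Ideal.map_le_iff_le_comap.mpr hc.ge⟩, ?_⟩
  rintro 𝔭 ⟨h𝔭, h𝔭le⟩ h𝔭𝔫
  have h1 : 𝔭' ≤ 𝔭.comap ψ := Ideal.map_le_iff_le_comap.mp h𝔭le
  have h2 : 𝔭.comap ψ ≤ 𝔫.comap ψ := Ideal.comap_mono h𝔭𝔫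
  have h3 : 𝔭.comap ψ = 𝔫.comap ψ := le_antisymm h2 (hc ▸ h1)
  haveI := h𝔭
  exact (eq_of_le_of_comap_eq ψ hψ 𝔭 𝔫 h𝔭𝔫 h3).ge

/-- the form consumed by `HUChain.finite_cl` / `HUChain.exists_chain` (`hfα`, `hfβ`) -/
theorem finite_fibre [IsNoetherianRing B] (ψ : B' →+* B) (hψ : ψ.IsIntegral) :
    ∀ 𝔭 : Ideal B', 𝔭.IsPrime → {𝔫 : Ideal B | 𝔫.IsPrime ∧ 𝔫.comap ψ = 𝔭}.Finite :=
  fun 𝔭 _ => finite_primes_over ψ hψ 𝔭

end Fermat.Agent.S36.FibrePrime
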