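/-
S36 (wave 8), contract K6 (HLOC-S) on the CUSP chart: the `Ω`-step for horizontal units after
localising at a multiplicative set ("Zariskification"), stated over the ORIGINAL rings.

On the cusp charts `B' = ` integral closure of `W[1/j]` at level `N`, `B` the same at level
`N ℓ`, the degeneracy map `β` does NOT map `B'` into `B` (only into `S⁻¹B`,
`S = {E(1/j) : E(0) = 1}`), so `HUnit.HU.omega_step` does not apply to `B' → B`.  Here the
localisations are built internally (as subrings of the fields) and the result is stated for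

* `HUS ι π S h` : `h` is a unit of `B_𝔮` for every prime `𝔮 ∌ π` of `B` disjoint from `S`.

* `locSub ι S` : the localisation `S⁻¹B` as a subring of `F`;
* `HUS.omega_step` : `HUS ι π S h → HUS ι π S (φα (N_α h) * φβ (N_β h))` under the elementwise
  hypotheses (G1)–(G4) for `φα` and `φβ`;
* `HUS.E36` : `HUS ι π S h → HUS ι π S (ConstPow.E36 α β q h)`;
* `HUS.of_HU`, `HUS.to_HU` : the bridges to `HUnit.HU`;
* `exists_maximal_ge_of_avoid` : going-up — a prime of `B` avoiding `S ⊇ 1 + xA` lies under a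
  maximal ideal containing `x` (`B` integral over `A`).
-/
import Mathlib
import Fermat.Agent.S36.HUnit
import Fermat.Agent.S36.ConstPow

set_option autoImplicit false
set_option linter.style.haveILetI false

noncomputable section

namespace Fermat.Agent.S36.HUZar

open Fermat.Agent.S36.HUnit Fermat.Agent.S36.ConstPow Fermat.Agent.S35 Polynomial

section Defs

variable {B F : Type*} [CommRing B] [Field F]

/-- `h` is a unit of `B_𝔮` for every prime `𝔮 ∌ π` of `B` disjoint from the submonoid `S`. -/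
def HUS (ι : B →+* F) (π : B) (S : Submonoid B) (h : F) : Prop :=
  ∀ 𝔮 : Ideal B, 𝔮.IsPrime → π ∉ 𝔮 → (∀ s ∈ S, s ∉ 𝔮) → UnitAt ι 𝔮 h

namespace HUS

variable {ι : B →+* F} {π : B} {S : Submonoid B} {h h' : F}

theorem one : HUS ι π S 1 := fun _ h𝔮 _ _ => UnitAt.one h𝔮

theorem mul (hh : HUS ι π S h) (hh' : HUS ι π S h') : HUS ι π S (h * h') :=
  fun 𝔮 h𝔮 hπ hS => UnitAt.mul h𝔮 (hh 𝔮 h𝔮 hπ hS) (hh' 𝔮 h𝔮 hπ hS)

theorem inv (hι : Function.Injective ι) (hh : HUS ι π S h) : HUS ι π S h⁻¹ :=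
  fun 𝔮 h𝔮 hπ hS => UnitAt.inv hι (hh 𝔮 h𝔮 hπ hS)

theorem pow (hh : HUS ι π S h) (n : ℕ) : HUS ι π S (h ^ n) :=
  fun 𝔮 h𝔮 hπ hS => UnitAt.pow h𝔮 (hh 𝔮 h𝔮 hπ hS) n

/-- from `HU` on a set `T` of primes to `HUS`, when every prime avoiding `S` lies under a member
of `T` -/
theorem of_HU {T : Set (Ideal B)}
    (hT : ∀ 𝔮 : Ideal B, 𝔮.IsPrime → (∀ s ∈ S, s ∉ 𝔮) → ∃ 𝔫 ∈ T, 𝔮 ≤ 𝔫)
    (hh : HU ι π T h) : HUS ι π S h :=
  fun 𝔮 h𝔮 hπ hS => hh 𝔮 h𝔮 hπ (hT 𝔮 h𝔮 hS)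

/-- from `HUS` to `HU` on a set of primes disjoint from `S` -/
theorem to_HU {T : Set (Ideal B)} (hT : ∀ 𝔫 ∈ T, ∀ s ∈ S, s ∉ 𝔫)
    (hh : HUS ι π S h) : HU ι π T h :=
  fun 𝔮 h𝔮 hπ ⟨𝔫, h𝔫, hle⟩ => hh 𝔮 h𝔮 hπ (fun s hs hsq => hT 𝔫 h𝔫 s hs (hle hsq))

end HUS

/-! ### The localisation as a subring of the field -/

/-- the localisation `S⁻¹B` as a subring of `F` -/
def locSub (ι : B →+* F) (S : Submonoid B) : Subring F where
  carrier := {x | ∃ s ∈ S, ∃ b : B, ι s * x = ι b}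
  mul_mem' := by
    rintro x y ⟨s, hs, b, e⟩ ⟨s', hs', b', e'⟩
    exact ⟨s * s', S.mul_mem hs hs', b * b', by rw [map_mul, map_mul, ← e, ← e']; ring⟩
  one_mem' := ⟨1, S.one_mem, 1, by rw [map_one, mul_one]⟩
  add_mem' := by
    rintro x y ⟨s, hs, b, e⟩ ⟨s', hs', b', e'⟩
    exact ⟨s * s', S.mul_mem hs hs', s' * b + s * b', by
      rw [map_add, map_mul, map_mul, map_mul, ← e, ← e']; ring⟩
  zero_mem' := ⟨1, S.one_mem, 0, by rw [map_zero, mul_zero]⟩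
  neg_mem' := by
    rintro x ⟨s, hs, b, e⟩
    exact ⟨s, hs, -b, by rw [map_neg, ← e]; ring⟩

theorem mem_locSub {ι : B →+* F} {S : Submonoid B} {x : F} :
    x ∈ locSub ι S ↔ ∃ s ∈ S, ∃ b : B, ι s * x = ι b := Iff.rfl

theorem map_mem_locSub (ι : B →+* F) (S : Submonoid B) (b : B) : ι b ∈ locSub ι S :=
  ⟨1, S.one_mem, b, by rw [map_one, one_mul]⟩

theorem inv_mem_locSub (ι : B →+* F) (S : Submonoid B) {s : B} (hs : s ∈ S) (h0 : ι s ≠ 0) :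
    (ι s)⁻¹ ∈ locSub ι S :=
  ⟨s, hs, 1, by rw [map_one, mul_inv_cancel₀ h0]⟩

/-- the canonical map `B → S⁻¹B` -/
def toLoc (ι : B →+* F) (S : Submonoid B) : B →+* locSub ι S :=
  ι.codRestrict (locSub ι S) (map_mem_locSub ι S)

theorem coe_toLoc (ι : B →+* F) (S : Submonoid B) (b : B) :
    ((toLoc ι S b : locSub ι S) : F) = ι b := rfl

theorem isUnit_toLoc (ι : B →+* F) (S : Submonoid B) {s : B} (hs : s ∈ S) (h0 : ι s ≠ 0) :
    IsUnit (toLoc ι S s) := by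
  refine isUnit_iff_exists_inv.mpr ⟨⟨(ι s)⁻¹, inv_mem_locSub ι S hs h0⟩, ?_⟩
  apply Subtype.ext
  show ι s * (ι s)⁻¹ = 1
  exact mul_inv_cancel₀ h0

theorem isLocalization_locSub (ι : B →+* F) (hι : Function.Injective ι) (S : Submonoid B)
    (h0 : ∀ s ∈ S, s ≠ 0) :
    @IsLocalization B _ S (locSub ι S) _ (toLoc ι S).toAlgebra := by
  letI : Algebra B (locSub ι S) := (toLoc ι S).toAlgebra
  rw [isLocalization_iff]
  refine ⟨?_, ?_, ?_⟩
  · rintro ⟨s, hs⟩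
    exact isUnit_toLoc ι S hs fun h => h0 s hs (hι (h.trans (map_zero ι).symm))
  · rintro ⟨z, s, hs, b, e⟩
    refine ⟨(b, ⟨s, hs⟩), ?_⟩
    apply Subtype.ext
    show z * ι s = ι b
    rw [mul_comm, e]
  · intro x y hxy
    have h1 : ι x = ι y := congrArg Subtype.val hxy
    exact ⟨1, by rw [hι h1]⟩

/-- `UnitAt` descends from the localisation -/
theorem unitAt_comap (ι : B →+* F) (S : Submonoid B) (h0 : ∀ s ∈ S, ι s ≠ 0)
    (𝔮c : Ideal (locSub ι S)) (h𝔮c : 𝔮c.IsPrime) {h : F}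
    (hh : UnitAt (locSub ι S).subtype 𝔮c h) : UnitAt ι (𝔮c.comap (toLoc ι S)) h := by
  obtain ⟨⟨x, s₁, hs₁, a, e₁⟩, ⟨y, s₂, hs₂, d, e₂⟩, hac, hdc, e⟩ := hh
  have hu : ∀ s ∈ S, toLoc ι S s ∉ 𝔮c := fun s hs hmem =>
    h𝔮c.ne_top (Ideal.eq_top_of_isUnit_mem _ hmem (isUnit_toLoc ι S hs (h0 s hs)))
  have e' : y * h = x := e
  refine ⟨s₂ * a, s₁ * d, ?_, ?_, ?_⟩
  · intro hmem
    have h1 : toLoc ι S (s₂ * a) =
        toLoc ι S s₂ * (toLoc ι S s₁ * ⟨x, s₁, hs₁, a, e₁⟩) := by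
      apply Subtype.ext
      show ι (s₂ * a) = ι s₂ * (ι s₁ * x)
      rw [map_mul, e₁]
    rw [Ideal.mem_comap, h1] at hmem
    rcases h𝔮c.mem_or_mem hmem with h2 | h2
    · exact hu s₂ hs₂ h2
    · rcases h𝔮c.mem_or_mem h2 with h3 | h3
      · exact hu s₁ hs₁ h3
      · exact hac h3
  · intro hmem
    have h1 : toLoc ι S (s₁ * d) =
        toLoc ι S s₁ * (toLoc ι S s₂ * ⟨y, s₂, hs₂, d, e₂⟩) := by
      apply Subtype.ext
      show ι (s₁ * d) = ι s₁ * (ι s₂ * y)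
      rw [map_mul, e₂]
    rw [Ideal.mem_comap, h1] at hmem
    rcases h𝔮c.mem_or_mem hmem with h2 | h2
    · exact hu s₁ hs₁ h2
    · rcases h𝔮c.mem_or_mem h2 with h3 | h3
      · exact hu s₂ hs₂ h3
      · exact hdc h3
  · rw [map_mul, map_mul, ← e₂, ← e₁, ← e']
    ring

/-- `UnitAt` ascends to the localisation -/
theorem unitAt_of_comap (ι : B →+* F) (S : Submonoid B) (𝔮c : Ideal (locSub ι S)) {h : F}
    (hh : UnitAt ι (𝔮c.comap (toLoc ι S)) h) : UnitAt (locSub ι S).subtype 𝔮c h := by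
  obtain ⟨a, d, ha, hd, e⟩ := hh
  exact ⟨toLoc ι S a, toLoc ι S d, fun h1 => ha h1, fun h1 => hd h1, e⟩

/-- `HUS` over `B` is `HU` on all primes of the localisation -/
theorem hus_iff_hu_locSub (ι : B →+* F) (hι : Function.Injective ι) (π : B) (S : Submonoid B)
    (h0 : ∀ s ∈ S, s ≠ 0) (h : F) :
    HUS ι π S h ↔
      HU (locSub ι S).subtype (toLoc ι S π) {𝔫 : Ideal (locSub ι S) | 𝔫.IsPrime} h := by
  have h0' : ∀ s ∈ S, ι s ≠ 0 := fun s hs h1 => h0 s hs (hι (h1.trans (map_zero ι).symm))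
  constructor
  · intro hh 𝔮c h𝔮c hπ _
    refine unitAt_of_comap ι S 𝔮c (hh _ (Ideal.comap_isPrime _ 𝔮c) (fun h1 => hπ h1) ?_)
    intro s hs hmem
    exact h𝔮c.ne_top (Ideal.eq_top_of_isUnit_mem _ hmem (isUnit_toLoc ι S hs (h0' s hs)))
  · intro hh 𝔮 h𝔮 hπ hS
    letI : Algebra B (locSub ι S) := (toLoc ι S).toAlgebra
    haveI : IsLocalization S (locSub ι S) := isLocalization_locSub ι hι S h0
    have hd : Disjoint (S : Set B) (𝔮 : Set B) :=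
      Set.disjoint_left.mpr fun s hs hsq => hS s hs hsq
    have hp : (Ideal.map (algebraMap B (locSub ι S)) 𝔮).IsPrime :=
      IsLocalization.isPrime_of_isPrime_disjoint S (locSub ι S) 𝔮 h𝔮 hd
    have hc : (Ideal.map (algebraMap B (locSub ι S)) 𝔮).comap (toLoc ι S) = 𝔮 :=
      IsLocalization.under_map_of_isPrime_disjoint S (locSub ι S) h𝔮 hd
    have h1 := hh _ hp (fun hmem => hπ (by rw [← hc]; exact hmem)) ⟨_, hp, le_rfl⟩
    have h2 := unitAt_comap ι S h0' _ hp h1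
    rwa [hc] at h2

end Defs

/-! ### The restricted maps between the localisations -/

section Step

variable {B B' F F₁ : Type*} [CommRing B] [CommRing B'] [Field F] [Field F₁]

/-- `φ` maps `S'⁻¹B'` into `S⁻¹B` when `φ(B') ⊆ S⁻¹B` and `φ(S') ⊆ (S⁻¹B)ˣ` -/
theorem map_mem_locSub_of (ι' : B' →+* F₁) (S' : Submonoid B') (ι : B →+* F) (S : Submonoid B)
    (φ : F₁ →+* F) (h0' : ∀ s' ∈ S', ι' s' ≠ 0)
    (G1 : ∀ b' : B', φ (ι' b') ∈ locSub ι S)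
    (G2 : ∀ s' ∈ S', (φ (ι' s'))⁻¹ ∈ locSub ι S) :
    ∀ x ∈ locSub ι' S', φ x ∈ locSub ι S := by
  rintro x ⟨s', hs', b', e⟩
  have h1 : φ x = φ (ι' b') * (φ (ι' s'))⁻¹ := by
    rw [← e, map_mul, mul_comm, ← mul_assoc,
      inv_mul_cancel₀ ((map_ne_zero φ).mpr (h0' s' hs')), one_mul]
  rw [h1]
  exact (locSub ι S).mul_mem (G1 b') (G2 s' hs')

/-- the restriction of `φ` to the localisations -/
def locMap (ι' : B' →+* F₁) (S' : Submonoid B') (ι : B →+* F) (S : Submonoid B) (φ : F₁ →+* F)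
    (hφ : ∀ x ∈ locSub ι' S', φ x ∈ locSub ι S) : locSub ι' S' →+* locSub ι S :=
  (φ.comp (locSub ι' S').subtype).codRestrict (locSub ι S) (fun x => hφ x x.2)

theorem coe_locMap (ι' : B' →+* F₁) (S' : Submonoid B') (ι : B →+* F) (S : Submonoid B)
    (φ : F₁ →+* F) (hφ : ∀ x ∈ locSub ι' S', φ x ∈ locSub ι S) (x : locSub ι' S') :
    ((locMap ι' S' ι S φ hφ x : locSub ι S) : F) = φ (x : F₁) := rfl

/-- the restricted map is integral -/
theorem locMap_isIntegral (ι' : B' →+* F₁) (S' : Submonoid B') (ι : B →+* F) (S : Submonoid B)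
    (φ : F₁ →+* F) (h0 : ∀ s ∈ S, ι s ≠ 0) (h0' : ∀ s' ∈ S', ι' s' ≠ 0)
    (hφ : ∀ x ∈ locSub ι' S', φ x ∈ locSub ι S)
    (G3 : ∀ b : B, ∃ s' ∈ S', (φ.comp ι').IsIntegralElem (φ (ι' s') * ι b))
    (G4 : ∀ s ∈ S, ∃ s' ∈ S', (φ.comp ι').IsIntegralElem (φ (ι' s') * (ι s)⁻¹)) :
    (locMap ι' S' ι S φ hφ).IsIntegral := by
  have step1 : ∀ z : locSub ι S, (φ.comp ι').IsIntegralElem (z : F) →
      (locMap ι' S' ι S φ hφ).IsIntegralElem z := by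
    rintro z ⟨P, hP, hPz⟩
    refine ⟨P.map (toLoc ι' S'), hP.map _, ?_⟩
    apply Subtype.ext
    rw [eval₂_map]
    have h1 := Polynomial.hom_eval₂ P ((locMap ι' S' ι S φ hφ).comp (toLoc ι' S'))
      (locSub ι S).subtype z
    have hcomp : (locSub ι S).subtype.comp ((locMap ι' S' ι S φ hφ).comp (toLoc ι' S')) =
        φ.comp ι' := RingHom.ext fun _ => rfl
    rw [hcomp] at h1
    show (locSub ι S).subtype (eval₂ ((locMap ι' S' ι S φ hφ).comp (toLoc ι' S')) z P) = 0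
    rw [h1]
    exact hPz
  have step2 : ∀ s' ∈ S', ∀ z : locSub ι S,
      (locMap ι' S' ι S φ hφ).IsIntegralElem (locMap ι' S' ι S φ hφ (toLoc ι' S' s') * z) →
      (locMap ι' S' ι S φ hφ).IsIntegralElem z := by
    intro s' hs' z hz
    obtain ⟨v, hv⟩ := isUnit_iff_exists_inv.mp (isUnit_toLoc ι' S' hs' (h0' s' hs'))
    have h1 : z = locMap ι' S' ι S φ hφ v * (locMap ι' S' ι S φ hφ (toLoc ι' S' s') * z) := by
      rw [← mul_assoc, ← map_mul, mul_comm v, hv, map_one, one_mul]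
    rw [h1]
    exact RingHom.IsIntegralElem.mul _ ((locMap ι' S' ι S φ hφ).isIntegralElem_map) hz
  intro c
  obtain ⟨s, hs, b, e⟩ := c.2
  obtain ⟨s'₁, hs'₁, h1⟩ := G3 b
  obtain ⟨s'₂, hs'₂, h2⟩ := G4 s hs
  have hb : (locMap ι' S' ι S φ hφ).IsIntegralElem (toLoc ι S b) :=
    step2 s'₁ hs'₁ _ (step1 _ h1)
  have hsinv : (locMap ι' S' ι S φ hφ).IsIntegralElem
      (⟨(ι s)⁻¹, inv_mem_locSub ι S hs (h0 s hs)⟩ : locSub ι S) :=
    step2 s'₂ hs'₂ _ (step1 _ h2)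
  have hc : c = (⟨(ι s)⁻¹, inv_mem_locSub ι S hs (h0 s hs)⟩ : locSub ι S) * toLoc ι S b := by
    apply Subtype.ext
    show (c : F) = (ι s)⁻¹ * ι b
    rw [← e, ← mul_assoc, inv_mul_cancel₀ (h0 s hs), one_mul]
  rw [hc]
  exact RingHom.IsIntegralElem.mul _ hsinv hb

/-- the localisation of a ring integrally closed in `F₁` is integrally closed in `F₁` -/
theorem closed_locSub (ι' : B' →+* F₁) (hι' : Function.Injective ι') (S' : Submonoid B')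
    (h0 : ∀ s ∈ S', s ≠ 0)
    (hclosed : ∀ x : F₁, ι'.IsIntegralElem x → ∃ b : B', ι' b = x) :
    ∀ x : F₁, (locSub ι' S').subtype.IsIntegralElem x →
      ∃ b : locSub ι' S', (locSub ι' S').subtype b = x := by
  intro x hx
  letI : Algebra B' (locSub ι' S') := (toLoc ι' S').toAlgebra
  haveI : IsLocalization S' (locSub ι' S') := isLocalization_locSub ι' hι' S' h0
  letI : Algebra B' F₁ := ι'.toAlgebra
  letI : Algebra (locSub ι' S') F₁ := (locSub ι' S').subtype.toAlgebra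
  haveI : IsScalarTower B' (locSub ι' S') F₁ := IsScalarTower.of_algebraMap_eq fun _ => rfl
  obtain ⟨m, hm⟩ := IsIntegral.exists_multiple_integral_of_isLocalization S' x
    (show IsIntegral (locSub ι' S') x from hx)
  have hm' : ι'.IsIntegralElem (ι' m * x) := by
    have h1 : m • x = ι' m * x := by
      rw [Submonoid.smul_def, Algebra.smul_def]
      rfl
    rw [← h1]
    exact hm
  obtain ⟨b, hb⟩ := hclosed _ hm'
  exact ⟨⟨x, m, m.2, b, hb.symm⟩, rfl⟩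

/-- **(OMEGA-STEP, localised)** `Ω h = φα (N_α h) * φβ (N_β h)` preserves `HUS`, under the
elementwise hypotheses (G1)–(G4) for `φα` and `φβ`: `φ(B') ⊆ S⁻¹B`, `φ(S') ⊆ (S⁻¹B)ˣ`, and
`S⁻¹B` is integral over `φ(S'⁻¹B')`. -/
theorem HUS.omega_step (ι' : B' →+* F₁) (hι' : Function.Injective ι') (ι : B →+* F)
    (hι : Function.Injective ι) (S' : Submonoid B') (hS' : ∀ s' ∈ S', s' ≠ 0) (S : Submonoid B)
    (φα φβ : F₁ →+* F)
    (G1α : ∀ b' : B', φα (ι' b') ∈ locSub ι S)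
    (G2α : ∀ s' ∈ S', (φα (ι' s'))⁻¹ ∈ locSub ι S)
    (G3α : ∀ b : B, ∃ s' ∈ S', (φα.comp ι').IsIntegralElem (φα (ι' s') * ι b))
    (G4α : ∀ s ∈ S, ∃ s' ∈ S', (φα.comp ι').IsIntegralElem (φα (ι' s') * (ι s)⁻¹))
    (G1β : ∀ b' : B', φβ (ι' b') ∈ locSub ι S)
    (G2β : ∀ s' ∈ S', (φβ (ι' s'))⁻¹ ∈ locSub ι S)
    (G3β : ∀ b : B, ∃ s' ∈ S', (φβ.comp ι').IsIntegralElem (φβ (ι' s') * ι b))
    (G4β : ∀ s ∈ S, ∃ s' ∈ S', (φβ.comp ι').IsIntegralElem (φβ (ι' s') * (ι s)⁻¹))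
    (hclosed : ∀ x : F₁, ι'.IsIntegralElem x → ∃ b : B', ι' b = x)
    (π' : B') (π : B) (hπα : φα (ι' π') = ι π) (hπβ : φβ (ι' π') = ι π)
    {h : F} (hh : HUS ι π S h) :
    HUS ι π S (φα (@Algebra.norm F₁ F _ _ φα.toAlgebra h) *
      φβ (@Algebra.norm F₁ F _ _ φβ.toAlgebra h)) := by
  by_cases hS0 : (0 : B) ∈ S
  · intro 𝔮 _ _ hS
    exact absurd (Ideal.zero_mem 𝔮) (hS 0 hS0)
  have h0 : ∀ s ∈ S, s ≠ 0 := fun s hs h1 => hS0 (h1 ▸ hs)
  have h0ι : ∀ s ∈ S, ι s ≠ 0 := fun s hs h1 => h0 s hs (hι (h1.trans (map_zero ι).symm))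
  have h0ι' : ∀ s' ∈ S', ι' s' ≠ 0 :=
    fun s' hs' h1 => hS' s' hs' (hι' (h1.trans (map_zero ι').symm))
  have hφα := map_mem_locSub_of ι' S' ι S φα h0ι' G1α G2α
  have hφβ := map_mem_locSub_of ι' S' ι S φβ h0ι' G1β G2β
  rw [hus_iff_hu_locSub ι hι π S h0] at hh ⊢
  refine HU.omega_step (locSub ι' S').subtype Subtype.val_injective (locSub ι S).subtype
    Subtype.val_injective (locMap ι' S' ι S φα hφα) (locMap ι' S' ι S φβ hφβ)
    (locMap_isIntegral ι' S' ι S φα h0ι h0ι' hφα G3α G4α)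
    (locMap_isIntegral ι' S' ι S φβ h0ι h0ι' hφβ G3β G4β) φα φβ (fun _ => rfl) (fun _ => rfl)
    (closed_locSub ι' hι' S' hS' hclosed) (toLoc ι' S' π') (toLoc ι S π) ?_ ?_ _ _
    (fun _ h𝔫 => h𝔫) (fun _ _ _ h𝔫₂ _ => h𝔫₂) (fun _ _ _ h𝔫₂ _ => h𝔫₂) hh
  · exact Subtype.ext hπα
  · exact Subtype.ext hπβ

end Step

/-! ### `E36` preserves `HUS` -/

section E36

variable {B B' : Type*} [CommRing B] [CommRing B']
variable {K F F' : Type*} [Field K] [Field F] [Field F'] [Algebra K F] [Algebra K F']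

/-- **(OMEGA, localised)** -/
theorem HUS.omega (α β : F' →ₐ[K] F) (ι' : B' →+* F') (hι' : Function.Injective ι')
    (ι : B →+* F) (hι : Function.Injective ι) (S' : Submonoid B') (hS' : ∀ s' ∈ S', s' ≠ 0)
    (S : Submonoid B)
    (G1α : ∀ b' : B', α (ι' b') ∈ locSub ι S)
    (G2α : ∀ s' ∈ S', (α (ι' s'))⁻¹ ∈ locSub ι S)
    (G3α : ∀ b : B, ∃ s' ∈ S', ((α : F' →+* F).comp ι').IsIntegralElem (α (ι' s') * ι b))
    (G4α : ∀ s ∈ S, ∃ s' ∈ S', ((α : F' →+* F).comp ι').IsIntegralElem (α (ι' s') * (ι s)⁻¹))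
    (G1β : ∀ b' : B', β (ι' b') ∈ locSub ι S)
    (G2β : ∀ s' ∈ S', (β (ι' s'))⁻¹ ∈ locSub ι S)
    (G3β : ∀ b : B, ∃ s' ∈ S', ((β : F' →+* F).comp ι').IsIntegralElem (β (ι' s') * ι b))
    (G4β : ∀ s ∈ S, ∃ s' ∈ S', ((β : F' →+* F).comp ι').IsIntegralElem (β (ι' s') * (ι s)⁻¹))
    (hclosed : ∀ x : F', ι'.IsIntegralElem x → ∃ b : B', ι' b = x)
    (π' : B') (π : B) (hπα : α (ι' π') = ι π) (hπβ : β (ι' π') = ι π)
    {h : F} (hh : HUS ι π S h) : HUS ι π S (ConstPow.omega α β h) :=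
  HUS.omega_step ι' hι' ι hι S' hS' S (α : F' →+* F) (β : F' →+* F) G1α G2α G3α G4α
    G1β G2β G3β G4β hclosed π' π hπα hπβ hh

/-- **(E36, localised)** `E36` preserves `HUS`. -/
theorem HUS.E36 (α β : F' →ₐ[K] F) (ι' : B' →+* F') (hι' : Function.Injective ι')
    (ι : B →+* F) (hι : Function.Injective ι) (S' : Submonoid B') (hS' : ∀ s' ∈ S', s' ≠ 0)
    (S : Submonoid B)
    (G1α : ∀ b' : B', α (ι' b') ∈ locSub ι S)
    (G2α : ∀ s' ∈ S', (α (ι' s'))⁻¹ ∈ locSub ι S)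
    (G3α : ∀ b : B, ∃ s' ∈ S', ((α : F' →+* F).comp ι').IsIntegralElem (α (ι' s') * ι b))
    (G4α : ∀ s ∈ S, ∃ s' ∈ S', ((α : F' →+* F).comp ι').IsIntegralElem (α (ι' s') * (ι s)⁻¹))
    (G1β : ∀ b' : B', β (ι' b') ∈ locSub ι S)
    (G2β : ∀ s' ∈ S', (β (ι' s'))⁻¹ ∈ locSub ι S)
    (G3β : ∀ b : B, ∃ s' ∈ S', ((β : F' →+* F).comp ι').IsIntegralElem (β (ι' s') * ι b))
    (G4β : ∀ s ∈ S, ∃ s' ∈ S', ((β : F' →+* F).comp ι').IsIntegralElem (β (ι' s') * (ι s)⁻¹))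
    (hclosed : ∀ x : F', ι'.IsIntegralElem x → ∃ b : B', ι' b = x)
    (π' : B') (π : B) (hπα : α (ι' π') = ι π) (hπβ : β (ι' π') = ι π) (q : ℕ)
    {h : F} (hh : HUS ι π S h) : HUS ι π S (ConstPow.E36 α β q h) := by
  have step : ∀ {y : F}, HUS ι π S y → HUS ι π S (ConstPow.omega α β y) := fun hy =>
    HUS.omega α β ι' hι' ι hι S' hS' S G1α G2α G3α G4α G1β G2β G3β G4β hclosed π' π hπα hπβ hy
  have h1 := step hh
  have h2 := step h1
  have h3 := step h2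
  unfold ConstPow.E36
  exact ((h3.mul ((h2.inv hι).pow _)).mul (h1.pow _)).mul ((hh.inv hι).pow _)

end E36

/-! ### Going-up: primes avoiding `S ⊇ 1 + xA` lie under maximal ideals containing `x` -/

section GoingUp

variable {A B : Type*} [CommRing A] [CommRing B] [Algebra A B] [Algebra.IsIntegral A B]

/-- An ideal of `B` avoiding a set `S` containing the image of `1 + xA` lies under a maximal ideal
of `B` containing (the image of) `x`. -/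
theorem exists_maximal_ge_of_avoid (x : A) (S : Set B)
    (hS : ∀ c : A, algebraMap A B (1 + x * c) ∈ S) (𝔮 : Ideal B)
    (hav : ∀ s ∈ S, s ∉ 𝔮) :
    ∃ 𝔫 : Ideal B, 𝔫.IsMaximal ∧ algebraMap A B x ∈ 𝔫 ∧ 𝔮 ≤ 𝔫 := by
  have hJ : 𝔮.comap (algebraMap A B) ⊔ Ideal.span {x} ≠ ⊤ := by
    intro htop
    have h1 : (1 : A) ∈ 𝔮.comap (algebraMap A B) ⊔ Ideal.span {x} := by
      rw [htop]; exact Submodule.mem_top
    obtain ⟨a, ha, z, hz, haz⟩ := Submodule.mem_sup.mp h1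
    obtain ⟨c, rfl⟩ := Ideal.mem_span_singleton'.mp hz
    have h2 : a = 1 + x * (-c) := by
      rw [← haz]; ring
    exact hav _ (hS (-c)) (by rw [← h2]; exact ha)
  obtain ⟨𝔪₀, h𝔪₀, hle⟩ := Ideal.exists_le_maximal _ hJ
  haveI := h𝔪₀.isPrime
  obtain ⟨Q, hQ𝔮, hQp, hQc⟩ := Ideal.exists_ideal_over_prime_of_isIntegral 𝔪₀ 𝔮
    (le_sup_left.trans hle)
  haveI := hQp
  refine ⟨Q, Ideal.isMaximal_of_isIntegral_of_isMaximal_comap Q (by rw [hQc]; exact h𝔪₀), ?_,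
    hQ𝔮⟩
  have h3 : x ∈ Q.comap (algebraMap A B) := by
    rw [hQc]
    exact hle (Ideal.mem_sup_right (Ideal.subset_span rfl))
  exact h3

end GoingUp

end Fermat.Agent.S36.HUZar
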