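/-
S36 (wave 8), contract K7 on the CUSP chart: the bridge between the Zariskified unit predicate
`HUZar.HUS` (units at the horizontal primes avoiding `S = 1 + x R`, `x = 1/j`) and the pointwise
predicate `HUnit.HU` on the finite set `T` of cusp points.

Abstract setting: `W` a local domain whose maximal ideal is generated by `ϖ`, `R = W[x₀] ⊆ F`,
`B` a Noetherian integral `R`-algebra, `x = x₀ ∈ R`.

* `exists_eq_add_mul`       : every element of `W[x₀]` is `a + x₀ * r₁`, `a ∈ W`;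
* `algebraMap_mem_of_x_mem` : a maximal ideal of `W[x₀]` containing `x₀` contains `ϖ`;
* `comap_eq_span`           : a maximal ideal of `B` containing `ϖ` and `x₀` contracts to
                              `(ϖ, x₀) ⊆ W[x₀]`;
* `cuspSet_finite`          : the set `T` of maximal ideals of `B` containing `ϖ` and `x₀` is finite;
* `exists_cusp_ge`          : a prime of `B` avoiding `S ⊇ 1 + x₀ R` lies under a member of `T`;
* `notMem_of_cusp`          : the members of `S ⊆ 1 + x₀ R` lie outside every member of `T`;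
* `chain_of_hus`            : an operator preserving `HUS … S` maps `HU … T` to `HU … {𝔪}`,
                              `𝔪 ∈ T`.
-/
import Mathlib
import Fermat.Agent.S36.HUZar
import Fermat.Agent.S36.FibrePrime
import Fermat.Agent.S36.GaussInt

set_option autoImplicit false
set_option linter.unusedSectionVars false
set_option linter.style.haveILetI false

noncomputable section

namespace Fermat.Agent.S36.CuspBridge

open Polynomial IsLocalRing Fermat.Agent.S36.HUnit Fermat.Agent.S36.HUZar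
  Fermat.Agent.S36.GaussInt

section Abstract

variable {W F : Type*} [CommRing W] [IsDomain W] [Field F] [Algebra W F]

/-- the element `x₀` of `W[x₀]` -/
def xR (x₀ : F) : ↥(Algebra.adjoin W {x₀}) := ⟨x₀, Algebra.self_mem_adjoin_singleton W x₀⟩

theorem adjoinHom_X (x₀ : F) : adjoinHom (W := W) x₀ X = xR x₀ := by
  apply Subtype.ext
  rw [adjoinHom_coe, aeval_X]
  rfl

/-- every element of `W[x₀]` is `a + x₀ * r₁` with `a ∈ W` -/
theorem exists_eq_add_mul (x₀ : F) (r : ↥(Algebra.adjoin W {x₀})) :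
    ∃ (a : W) (r₁ : ↥(Algebra.adjoin W {x₀})),
      r = algebraMap W ↥(Algebra.adjoin W {x₀}) a + xR x₀ * r₁ := by
  obtain ⟨p, rfl⟩ := adjoinHom_surjective x₀ r
  refine ⟨p.coeff 0, adjoinHom x₀ p.divX, ?_⟩
  conv_lhs => rw [← Polynomial.divX_mul_X_add p]
  rw [map_add, map_mul, adjoinHom_C, adjoinHom_X]
  ring

variable [IsLocalRing W]

/-- a maximal ideal of `W[x₀]` containing `x₀` contains the maximal ideal of `W` -/
theorem algebraMap_mem_of_x_mem (x₀ : F) (𝔪 : Ideal ↥(Algebra.adjoin W {x₀})) [h𝔪 : 𝔪.IsMaximal]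
    (hx : xR x₀ ∈ 𝔪) {ϖ : W} (hϖ : ϖ ∈ maximalIdeal W) :
    algebraMap W ↥(Algebra.adjoin W {x₀}) ϖ ∈ 𝔪 := by
  by_contra hcon
  obtain ⟨r, m, hm, hrm⟩ := h𝔪.exists_inv hcon
  obtain ⟨a, r₁, rfl⟩ := exists_eq_add_mul x₀ r
  -- `1 - ϖ a` is a unit of `W` lying in `𝔪`
  have hu : IsUnit (1 - ϖ * a) :=
    IsLocalRing.isUnit_one_sub_self_of_mem_nonunits _
      ((IsLocalRing.mem_maximalIdeal _).mp (Ideal.mul_mem_right a _ hϖ))
  have hmem : algebraMap W ↥(Algebra.adjoin W {x₀}) (1 - ϖ * a) ∈ 𝔪 := by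
    have h1 : algebraMap W ↥(Algebra.adjoin W {x₀}) (1 - ϖ * a) =
        m + xR x₀ * (algebraMap W ↥(Algebra.adjoin W {x₀}) ϖ * r₁) := by
      rw [map_sub, map_one, map_mul, ← hrm]
      ring
    rw [h1]
    exact 𝔪.add_mem hm (Ideal.mul_mem_right _ _ hx)
  exact h𝔪.ne_top (Ideal.eq_top_of_isUnit_mem _ hmem (hu.map _))

omit [IsLocalRing W] in
/-- integrality in the `RingHom` form -/
theorem algebraMap_isIntegral {x₀ : F} {B : Type*} [CommRing B]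
    [Algebra ↥(Algebra.adjoin W {x₀}) B] [Algebra.IsIntegral ↥(Algebra.adjoin W {x₀}) B] :
    (algebraMap ↥(Algebra.adjoin W {x₀}) B).IsIntegral :=
  fun b => Algebra.IsIntegral.isIntegral b

/-- a maximal ideal of `B` containing `x₀` contains the maximal ideal of `W` -/
theorem algebraMap_mem_of_x_mem' {x₀ : F} {B : Type*} [CommRing B]
    [Algebra ↥(Algebra.adjoin W {x₀}) B] [Algebra.IsIntegral ↥(Algebra.adjoin W {x₀}) B]
    (𝔫 : Ideal B) [h𝔫 : 𝔫.IsMaximal]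
    (hx : algebraMap ↥(Algebra.adjoin W {x₀}) B (xR x₀) ∈ 𝔫) {ϖ : W}
    (hϖ : ϖ ∈ maximalIdeal W) :
    algebraMap ↥(Algebra.adjoin W {x₀}) B (algebraMap W ↥(Algebra.adjoin W {x₀}) ϖ) ∈ 𝔫 := by
  haveI : (𝔫.comap (algebraMap ↥(Algebra.adjoin W {x₀}) B)).IsMaximal :=
    Ideal.isMaximal_comap_of_isIntegral_of_isMaximal 𝔫
  exact algebraMap_mem_of_x_mem x₀ (𝔫.comap (algebraMap ↥(Algebra.adjoin W {x₀}) B)) hx hϖ

/-- a maximal ideal of `B` containing `ϖ` and `x₀` contracts to `(ϖ, x₀)` -/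
theorem comap_eq_span {x₀ : F} {B : Type*} [CommRing B]
    [Algebra ↥(Algebra.adjoin W {x₀}) B] {ϖ : W}
    (hϖ : maximalIdeal W = Ideal.span {ϖ}) (𝔫 : Ideal B) [h𝔫 : 𝔫.IsPrime]
    (hπ : algebraMap ↥(Algebra.adjoin W {x₀}) B (algebraMap W ↥(Algebra.adjoin W {x₀}) ϖ) ∈ 𝔫)
    (hx : algebraMap ↥(Algebra.adjoin W {x₀}) B (xR x₀) ∈ 𝔫) :
    𝔫.comap (algebraMap ↥(Algebra.adjoin W {x₀}) B) =
      Ideal.span {algebraMap W ↥(Algebra.adjoin W {x₀}) ϖ, xR x₀} := by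
  apply le_antisymm
  · intro r hr
    obtain ⟨a, r₁, rfl⟩ := exists_eq_add_mul x₀ r
    have hxr : xR x₀ * r₁ ∈ 𝔫.comap (algebraMap ↥(Algebra.adjoin W {x₀}) B) :=
      Ideal.mul_mem_right _ _ hx
    have ha : algebraMap W ↥(Algebra.adjoin W {x₀}) a ∈
        𝔫.comap (algebraMap ↥(Algebra.adjoin W {x₀}) B) := (Ideal.add_mem_iff_left _ hxr).mp hr
    have ha' : a ∈ maximalIdeal W := by
      rw [IsLocalRing.mem_maximalIdeal]
      intro hu
      have h1 : IsUnit (algebraMap ↥(Algebra.adjoin W {x₀}) B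
          (algebraMap W ↥(Algebra.adjoin W {x₀}) a)) := (hu.map _).map _
      exact h𝔫.ne_top (Ideal.eq_top_of_isUnit_mem _ ha h1)
    rw [hϖ] at ha'
    obtain ⟨a', rfl⟩ := Ideal.mem_span_singleton'.mp ha'
    refine Ideal.add_mem _ ?_ (Ideal.mul_mem_right _ _ (Ideal.subset_span (by simp)))
    rw [map_mul]
    exact Ideal.mul_mem_left _ _ (Ideal.subset_span (by simp))
  · rw [Ideal.span_le]
    intro r hr
    rcases hr with rfl | rfl
    exacts [hπ, hx]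

/-- **The cusp set is finite.** -/
theorem cuspSet_finite {x₀ : F} {B : Type*} [CommRing B]
    [Algebra ↥(Algebra.adjoin W {x₀}) B] [Algebra.IsIntegral ↥(Algebra.adjoin W {x₀}) B]
    [IsNoetherianRing B] {ϖ : W} (hϖ : maximalIdeal W = Ideal.span {ϖ}) :
    {𝔫 : Ideal B | 𝔫.IsMaximal ∧
      algebraMap ↥(Algebra.adjoin W {x₀}) B (algebraMap W ↥(Algebra.adjoin W {x₀}) ϖ) ∈ 𝔫 ∧
      algebraMap ↥(Algebra.adjoin W {x₀}) B (xR x₀) ∈ 𝔫}.Finite := by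
  refine (Fermat.Agent.S36.FibrePrime.finite_primes_over
    (algebraMap ↥(Algebra.adjoin W {x₀}) B) algebraMap_isIntegral
    (Ideal.span {algebraMap W ↥(Algebra.adjoin W {x₀}) ϖ, xR x₀})).subset ?_
  rintro 𝔫 ⟨h𝔫, hπ, hx⟩
  haveI := h𝔫.isPrime
  exact ⟨h𝔫.isPrime, comap_eq_span hϖ 𝔫 hπ hx⟩

/-- a prime of `B` avoiding `S ⊇ 1 + x₀ R` lies under a cusp point -/
theorem exists_cusp_ge {x₀ : F} {B : Type*} [CommRing B]
    [Algebra ↥(Algebra.adjoin W {x₀}) B] [Algebra.IsIntegral ↥(Algebra.adjoin W {x₀}) B]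
    {ϖ : W} (hϖ : ϖ ∈ maximalIdeal W) (S : Set B)
    (hS : ∀ c : ↥(Algebra.adjoin W {x₀}),
      algebraMap ↥(Algebra.adjoin W {x₀}) B (1 + xR x₀ * c) ∈ S)
    (𝔮 : Ideal B) (hav : ∀ s ∈ S, s ∉ 𝔮) :
    ∃ 𝔫 : Ideal B, (𝔫.IsMaximal ∧
      algebraMap ↥(Algebra.adjoin W {x₀}) B (algebraMap W ↥(Algebra.adjoin W {x₀}) ϖ) ∈ 𝔫 ∧
      algebraMap ↥(Algebra.adjoin W {x₀}) B (xR x₀) ∈ 𝔫) ∧ 𝔮 ≤ 𝔫 := by
  obtain ⟨𝔫, h𝔫, hx, hle⟩ := exists_maximal_ge_of_avoid (xR x₀) S hS 𝔮 hav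
  haveI := h𝔫
  exact ⟨𝔫, ⟨h𝔫, algebraMap_mem_of_x_mem' 𝔫 hx hϖ, hx⟩, hle⟩

omit [IsDomain W] [IsLocalRing W] in
/-- the elements `1 + x₀ c` lie outside every proper ideal containing `x₀` -/
theorem notMem_of_cusp {x₀ : F} {B : Type*} [CommRing B]
    [Algebra ↥(Algebra.adjoin W {x₀}) B] (𝔫 : Ideal B) (h𝔫 : 𝔫 ≠ ⊤)
    (hx : algebraMap ↥(Algebra.adjoin W {x₀}) B (xR x₀) ∈ 𝔫) (c : ↥(Algebra.adjoin W {x₀})) :
    algebraMap ↥(Algebra.adjoin W {x₀}) B (1 + xR x₀ * c) ∉ 𝔫 := by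
  intro hmem
  apply h𝔫
  rw [Ideal.eq_top_iff_one]
  have h1 : (1 : B) = algebraMap ↥(Algebra.adjoin W {x₀}) B (1 + xR x₀ * c) -
      algebraMap ↥(Algebra.adjoin W {x₀}) B (xR x₀) * algebraMap ↥(Algebra.adjoin W {x₀}) B c := by
    rw [map_add, map_one, map_mul]; ring
  rw [h1]
  exact 𝔫.sub_mem hmem (Ideal.mul_mem_right _ _ hx)

/-- **The chain on the cusp set from the Zariskified step.**  `T` = the maximal ideals of `B`
containing `ϖ` and `x₀`; `S` a submonoid of `B` equal to the image of `1 + x₀ R`; an operator `Ω`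
preserving `HUS ι π S` maps `HU ι π T` to `HU ι π {𝔪}` for every `𝔪 ∈ T`. -/
theorem chain_of_hus {x₀ : F} {B : Type*} [CommRing B]
    [Algebra ↥(Algebra.adjoin W {x₀}) B] [Algebra.IsIntegral ↥(Algebra.adjoin W {x₀}) B]
    {ϖ : W} (hϖ : ϖ ∈ maximalIdeal W) (S : Submonoid B)
    (hS₁ : ∀ c : ↥(Algebra.adjoin W {x₀}),
      algebraMap ↥(Algebra.adjoin W {x₀}) B (1 + xR x₀ * c) ∈ S)
    (hS₂ : ∀ s ∈ S, ∃ c : ↥(Algebra.adjoin W {x₀}),
      s = algebraMap ↥(Algebra.adjoin W {x₀}) B (1 + xR x₀ * c))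
    {F' : Type*} [Field F'] (ι : B →+* F') (π : B) (Ω : F' → F')
    (hΩ : ∀ h : F', HUS ι π S h → HUS ι π S (Ω h)) (u : F')
    (hu : HU ι π {𝔫 : Ideal B | 𝔫.IsMaximal ∧
      algebraMap ↥(Algebra.adjoin W {x₀}) B (algebraMap W ↥(Algebra.adjoin W {x₀}) ϖ) ∈ 𝔫 ∧
      algebraMap ↥(Algebra.adjoin W {x₀}) B (xR x₀) ∈ 𝔫} u)
    (𝔪 : Ideal B) (h𝔪 : 𝔪.IsMaximal)
    (hx𝔪 : algebraMap ↥(Algebra.adjoin W {x₀}) B (xR x₀) ∈ 𝔪) :
    HU ι π ({𝔪} : Set (Ideal B)) (Ω u) := by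
  have h1 : HUS ι π S u :=
    HUS.of_HU (fun 𝔮 _ hav => by
      obtain ⟨𝔫, h𝔫, hle⟩ := exists_cusp_ge hϖ (S : Set B) hS₁ 𝔮 hav
      exact ⟨𝔫, h𝔫, hle⟩) hu
  have h2 := hΩ u h1
  refine HUS.to_HU (T := ({𝔪} : Set (Ideal B))) ?_ h2
  intro 𝔫 h𝔫 s hs
  rw [Set.mem_singleton_iff] at h𝔫
  subst h𝔫
  obtain ⟨c, rfl⟩ := hS₂ s hs
  exact notMem_of_cusp 𝔫 h𝔪.ne_top hx𝔪 c

end Abstract

end Fermat.Agent.S36.CuspBridge
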