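/-
S36 (wave 8), contract K7 on the CUSP chart: `Loc36CuspAbs.CuspInputs` from the Zariskified
`E36`-step (`HUZar.HUS`), the ring facts of `GaussInt` and the bridge `CuspBridge`.

* `cuspInputs_of_hus` : if at every unramified level the operator `E36` preserves
  `HUS ι₂ π₂ S` for a submonoid `S` of the chart ring `B₂ = integralClosure W[1/j]` equal to the
  image of `1 + (1/j) W[1/j]`, then `CuspInputs N q A` holds.
-/
import Mathlib
import Fermat.Agent.S36.Loc36CuspAbs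
import Fermat.Agent.S36.CuspBridge
import Fermat.Agent.S36.GaussInt

set_option autoImplicit false
set_option linter.unusedSectionVars false
set_option linter.style.haveILetI false

noncomputable section

namespace Fermat.Agent.S36.CuspInputsOf

open Polynomial ModularCurve AlgebraicCurve Fermat.Agent.S18 Fermat.Agent.S18.Gauss
  Fermat.Agent.S24 Fermat.Agent.S34 Fermat.Agent.S37
open Fermat.Agent.S34.KummerStep Fermat.Agent.S36.ConstPow Fermat.Agent.S36.Core36
  Fermat.Agent.S36.HUnit Fermat.Agent.S36.HUZar Fermat.Agent.S36.CuspBridge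
  Fermat.Agent.S36.Loc36CuspAbs

local notation "Qb" => AlgebraicClosure ℚ

set_option maxHeartbeats 3200000 in
set_option synthInstance.maxHeartbeats 400000 in
-- the instances `Algebra ↥W (FF L N)`, `Algebra W[1/j] (integralClosure W[1/j] F)` are found slowly
/-- **`CuspInputs` from the Zariskified `E36`-step.** -/
theorem cuspInputs_of_hus (N q : ℕ) [NeZero N] [NeZero q] (A : ValuationSubring Qb)
    (hstep : ∀ (L : Type) [Field L] [Algebra ℚ L] (ι : L →+* Qb) (S₀ : Finset Qb),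
      LevelChange.IsLevel A q S₀ ι → Irreducible ((q : ℕ) : ↥(A.comap ι)) →
      ∃ S : Submonoid ↥(integralClosure (Algebra.adjoin ↥(A.comap ι) {(jBC L (N * q))⁻¹})
          (FF L (N * q))),
        (∀ c : ↥(Algebra.adjoin ↥(A.comap ι) {(jBC L (N * q))⁻¹}),
          algebraMap ↥(Algebra.adjoin ↥(A.comap ι) {(jBC L (N * q))⁻¹})
            (integralClosure (Algebra.adjoin ↥(A.comap ι) {(jBC L (N * q))⁻¹}) (FF L (N * q)))
            (1 + xR (jBC L (N * q))⁻¹ * c) ∈ S) ∧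
        (∀ s ∈ S, ∃ c : ↥(Algebra.adjoin ↥(A.comap ι) {(jBC L (N * q))⁻¹}),
          s = algebraMap ↥(Algebra.adjoin ↥(A.comap ι) {(jBC L (N * q))⁻¹})
            (integralClosure (Algebra.adjoin ↥(A.comap ι) {(jBC L (N * q))⁻¹}) (FF L (N * q)))
            (1 + xR (jBC L (N * q))⁻¹ * c)) ∧
        ∀ h : FF L (N * q),
          HUS (integralClosure (Algebra.adjoin ↥(A.comap ι) {(jBC L (N * q))⁻¹})
              (FF L (N * q))).val.toRingHom
            (algebraMap ↥(Algebra.adjoin ↥(A.comap ι) {(jBC L (N * q))⁻¹})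
              (integralClosure (Algebra.adjoin ↥(A.comap ι) {(jBC L (N * q))⁻¹}) (FF L (N * q)))
              (algebraMap ↥(A.comap ι) ↥(Algebra.adjoin ↥(A.comap ι) {(jBC L (N * q))⁻¹})
                ((q : ℕ) : ↥(A.comap ι)))) S h →
          HUS (integralClosure (Algebra.adjoin ↥(A.comap ι) {(jBC L (N * q))⁻¹})
              (FF L (N * q))).val.toRingHom
            (algebraMap ↥(Algebra.adjoin ↥(A.comap ι) {(jBC L (N * q))⁻¹})
              (integralClosure (Algebra.adjoin ↥(A.comap ι) {(jBC L (N * q))⁻¹}) (FF L (N * q)))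
              (algebraMap ↥(A.comap ι) ↥(Algebra.adjoin ↥(A.comap ι) {(jBC L (N * q))⁻¹})
                ((q : ℕ) : ↥(A.comap ι)))) S
            (E36 (heckeAlphaBar L N q) (heckeBetaBar L N q) q h)) :
    CuspInputs N q A := by
  intro L _ _ ι S₀ hlev hirr
  haveI : IsDiscreteValuationRing ↥(A.comap ι) := hlev.2.2.1
  obtain ⟨S, hS₁, hS₂, hE⟩ := hstep L ι S₀ hlev hirr
  have hj : Transcendental L (jBC L (N * q)) := Bridge.transcendental_j ι (N * q)
  haveI : CharZero L := algebraRat.charZero L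
  haveI : IsScalarTower ↥(A.comap ι) L (FF L (N * q)) :=
    IsScalarTower.of_algebraMap_eq (fun _ => rfl)
  haveI : FiniteDimensional (IntermediateField.adjoin L {jBC L (N * q)}) (FF L (N * q)) :=
    (Gauss.finrank_FF_le (L := L) (N := N * q)).1
  haveI : IsNoetherianRing ↥(integralClosure (Algebra.adjoin ↥(A.comap ι) {(jBC L (N * q))⁻¹})
      (FF L (N * q))) := ChartRing.isNoetherianRing_inv (W := ↥(A.comap ι)) (jBC L (N * q)) hj
  have hmax : IsLocalRing.maximalIdeal ↥(A.comap ι) = Ideal.span {((q : ℕ) : ↥(A.comap ι))} :=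
    hirr.maximalIdeal_eq
  have hqmem : ((q : ℕ) : ↥(A.comap ι)) ∈ IsLocalRing.maximalIdeal ↥(A.comap ι) := by
    rw [hmax]; exact Ideal.subset_span rfl
  refine ⟨Fermat.Agent.S36.GaussInt.isIntegrallyClosed_inf ι (A.comap ι) (N * q),
    Fermat.Agent.S36.GaussInt.prime_inf ι (A.comap ι) (N * q) hirr,
    fun x hx => Fermat.Agent.S36.GaussInt.gaussOne_int_inf ι (A.comap ι) (N * q) hirr hx,
    {𝔫 : Ideal (integralClosure (Algebra.adjoin ↥(A.comap ι) {(jBC L (N * q))⁻¹}) (FF L (N * q))) |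
      𝔫.IsMaximal ∧
      algebraMap ↥(Algebra.adjoin ↥(A.comap ι) {(jBC L (N * q))⁻¹})
        (integralClosure (Algebra.adjoin ↥(A.comap ι) {(jBC L (N * q))⁻¹}) (FF L (N * q)))
        (algebraMap ↥(A.comap ι) ↥(Algebra.adjoin ↥(A.comap ι) {(jBC L (N * q))⁻¹})
          ((q : ℕ) : ↥(A.comap ι))) ∈ 𝔫 ∧
      algebraMap ↥(Algebra.adjoin ↥(A.comap ι) {(jBC L (N * q))⁻¹})
        (integralClosure (Algebra.adjoin ↥(A.comap ι) {(jBC L (N * q))⁻¹}) (FF L (N * q)))
        (xR (jBC L (N * q))⁻¹) ∈ 𝔫}, ?_, ?_, ?_, ?_, ?_, ?_⟩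
  · exact cuspSet_finite (W := ↥(A.comap ι)) (x₀ := (jBC L (N * q))⁻¹)
      (B := ↥(integralClosure (Algebra.adjoin ↥(A.comap ι) {(jBC L (N * q))⁻¹}) (FF L (N * q))))
      hmax
  · exact fun 𝔪 h𝔪 => h𝔪.1
  · intro 𝔪 h𝔪 r hr
    have : r = algebraMap ↥(Algebra.adjoin ↥(A.comap ι) {(jBC L (N * q))⁻¹})
        (integralClosure (Algebra.adjoin ↥(A.comap ι) {(jBC L (N * q))⁻¹}) (FF L (N * q)))
        (algebraMap ↥(A.comap ι) ↥(Algebra.adjoin ↥(A.comap ι) {(jBC L (N * q))⁻¹})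
          ((q : ℕ) : ↥(A.comap ι))) := Subtype.ext hr
    rw [this]
    exact h𝔪.2.1
  · intro 𝔪 h𝔪 r hr
    have : r = algebraMap ↥(Algebra.adjoin ↥(A.comap ι) {(jBC L (N * q))⁻¹})
        (integralClosure (Algebra.adjoin ↥(A.comap ι) {(jBC L (N * q))⁻¹}) (FF L (N * q)))
        (xR (jBC L (N * q))⁻¹) := Subtype.ext hr
    rw [this]
    exact h𝔪.2.2
  · intro 𝔫 h𝔫 hπ hx
    exact ⟨h𝔫, hπ _ rfl, hx _ rfl⟩
  · intro u hu 𝔪 h𝔪
    exact chain_of_hus (W := ↥(A.comap ι)) (x₀ := (jBC L (N * q))⁻¹)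
      (B := ↥(integralClosure (Algebra.adjoin ↥(A.comap ι) {(jBC L (N * q))⁻¹}) (FF L (N * q))))
      hqmem S hS₁ hS₂ _ _ _ hE u hu 𝔪 h𝔪.1 h𝔪.2.2

end Fermat.Agent.S36.CuspInputsOf
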