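/-
S36 (wave 8), contract K7 on the CUSP chart: the instance of the hypotheses (G1)–(G4) of
`Fermat.Agent.S36.HUZar.HUS.E36` for the degeneracy maps `α = heckeAlphaBar L M ℓ`,
`β = heckeBetaBar L M ℓ` between the cusp charts `W[1/j]` of levels `M` and `M ℓ`, and the
resulting `hchain` input of `HLocAbs.hloc_of_chain` on the cusp chart.

`W` a valuation subring of `L` (a DVR for the final statements), `ℓ` prime, `M` arbitrary.

* generic valuative lemmas: `valuation_eval_eq_one`, `inv_eval_mem` (`E(x)` is a unit of a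
  valuation ring in which `x` is a non-unit, `E(0) = 1`), `exists_den_of_valuative_gen`
  (valuative criterion with denominators for an arbitrary chart map `R[X] → K`);
* raw currency at the level: `evBinf` (`p ↦ p(1/βj)`), `inv_j_mem_nonunits` (the cusps for `β`
  are cusps), `exists_den_inv_beta`, `exists_den_binf`, `exists_den_binf_inv`;
* the lower chart ring as a subring `intSub W M` of `FF L M`, the upper chart ring
  `integralClosure R (FF L (M ℓ))` for ANY ring `R` with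
  `hR : ∀ x, IsIntegral R x ↔ (evFinf W (M ℓ)).IsIntegralElem x`
  (e.g. `R = Algebra.adjoin ↥W {(jBC L (M ℓ))⁻¹}`, `hR = BridgeChart.isIntegral_adjoin_inv_iff`);
  `g1_alpha … g4_beta` = (G1)–(G4);
* `cusp_hus_E36` : `E36` preserves `HUS` (denominators `E(1/j)`, `E(0) = 1`);
* `cuspSet L N R` : the maximal ideals of the chart containing `1/j`;
* `cusp_chain` : `cuspSet` is finite, consists of maximal ideals containing `ϖ`, and
  `HU … cuspSet u → ∀ 𝔫 ∈ cuspSet, HU … {𝔫} (E36 α β q u)`.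
-/
import Mathlib
import Fermat.Agent.S36.HUZar
import Fermat.Agent.S34.CuspEq
import Fermat.Agent.S37.GaussNoeth
import Fermat.Agent.S36.FibrePrime

set_option autoImplicit false
set_option linter.style.haveILetI false
set_option linter.unusedSectionVars false

noncomputable section

namespace Fermat.Agent.S36.CuspPair

open Polynomial ModularCurve Fermat.Agent.S18 Fermat.Agent.S18.Gauss Fermat.Agent.S34
open Fermat.Agent.S36.HUnit Fermat.Agent.S36.HUZar

/-! ### Generic valuative lemmas -/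

section Generic

variable {R K : Type*} [CommRing R] [Field K]

/-- a ring map `R[X] → K` with `e (C a) ∈ V` and `e X ∈ V` maps into `V` -/
theorem map_mem_of_C_X (V : ValuationSubring K) (e : R[X] →+* K) (hC : ∀ a : R, e (C a) ∈ V)
    (hX : e X ∈ V) (p : R[X]) : e p ∈ V := by
  induction p using Polynomial.induction_on with
  | C a => exact hC a
  | add p q hp hq =>
    rw [map_add]
    exact V.add_mem _ _ hp hq
  | monomial n a ih =>
    rw [pow_succ, ← mul_assoc, map_mul]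
    exact V.mul_mem _ _ ih hX

/-- a polynomial with constant term `1`, evaluated at a non-unit of a valuation ring, is a unit
of the valuation ring -/
theorem valuation_eval_eq_one (V : ValuationSubring K) (e : R[X] →+* K)
    (hC : ∀ a : R, e (C a) ∈ V) (hX : e X ∈ V.nonunits) (E : R[X]) (hE : E.coeff 0 = 1) :
    V.valuation (e E) = 1 := by
  have hXV : e X ∈ V := (V.valuation_le_one_iff _).mp (le_of_lt (V.mem_nonunits_iff.mp hX))
  have h1 : e E = 1 + e X * e E.divX := by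
    conv_lhs => rw [← Polynomial.divX_mul_X_add E, hE]
    rw [map_add, map_mul, map_one, map_one]
    ring
  have h2 : V.valuation (e X * e E.divX) < 1 := by
    rw [map_mul]
    exact lt_of_le_of_lt (mul_le_of_le_one_right'
      ((V.valuation_le_one_iff _).mpr (map_mem_of_C_X V e hC hXV _))) (V.mem_nonunits_iff.mp hX)
  rw [h1]
  exact Valuation.map_one_add_of_lt _ h2

theorem inv_eval_mem (V : ValuationSubring K) (e : R[X] →+* K)
    (hC : ∀ a : R, e (C a) ∈ V) (hX : e X ∈ V.nonunits) (E : R[X]) (hE : E.coeff 0 = 1) :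
    (e E)⁻¹ ∈ V := by
  rw [← V.valuation_le_one_iff, map_inv₀, valuation_eval_eq_one V e hC hX E hE, inv_one]

/-- **Valuative criterion with denominators `D(x)`, `D(0) = 1`**, for an arbitrary chart map
`ψ : R[X] → K`. -/
theorem exists_den_of_valuative_gen [Nontrivial R] (ψ : R[X] →+* K) (z : K)
    (h : ∀ V : ValuationSubring K, (∀ p, ψ p ∈ V) → ψ X ∈ V.nonunits → z ∈ V) :
    ∃ D : R[X], D.coeff 0 = 1 ∧ ψ.IsIntegralElem (ψ D * z) := by
  have hI : Ideal.span {(X : R[X])} ≠ ⊤ := by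
    rw [Ne, Ideal.span_singleton_eq_top]
    exact Polynomial.not_isUnit_X
  obtain ⟨p, hp, hpx⟩ := CuspEq.exists_poly_of_valuative ψ (Ideal.span {X}) hI z
    (fun V hV1 hV2 => h V hV1 (hV2 X (Ideal.subset_span rfl)))
  refine ⟨p.leadingCoeff, ?_, ψ.isIntegralElem_leadingCoeff_mul p z hpx⟩
  obtain ⟨q, hq⟩ := Ideal.mem_span_singleton'.mp hp
  have h1 : p.leadingCoeff = q * X + 1 := by rw [hq]; ring
  rw [h1, coeff_add, coeff_mul_X_zero, coeff_one_zero, zero_add]

/-- integrality over a composite implies integrality over the second map -/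
theorem isIntegralElem_of_comp {R₂ : Type*} [CommRing R₂] (f : R →+* R₂) (g : R₂ →+* K) {x : K}
    (h : (g.comp f).IsIntegralElem x) : g.IsIntegralElem x := by
  obtain ⟨P, hP, hPx⟩ := h
  exact ⟨P.map f, hP.map f, by rw [eval₂_map]; exact hPx⟩

end Generic

/-! ### The level `(L, W)`, raw currency -/

section Level

variable {L : Type} [Field L] [Algebra ℚ L] (W : ValuationSubring L)
  (M ℓ : ℕ) [NeZero M] [NeZero ℓ]

/-- the chart `W[1/βj]` of level `M ℓ`: `p ↦ p(1/βj)` -/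
def evBinf : (↥W)[X] →+* Fermat.Agent.S24.FF L (M * ℓ) :=
  (heckeBetaBar L M ℓ).toRingHom.comp (evFinf W M)

theorem evBinf_C (a : W) :
    evBinf W M ℓ (C a) = algebraMap L (Fermat.Agent.S24.FF L (M * ℓ)) (a : L) := by
  rw [evBinf, RingHom.comp_apply, evFinf_C]
  exact AlgHom.commutes _ _

theorem evBinf_X :
    evBinf W M ℓ X = (heckeBetaBar L M ℓ (Fermat.Agent.S24.jBC L M))⁻¹ := by
  rw [evBinf, RingHom.comp_apply, evFinf_X]
  show heckeBetaBar L M ℓ (Fermat.Agent.S24.jBC L M)⁻¹ = _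
  rw [map_inv₀]

theorem evBinf_apply (p : (↥W)[X]) :
    evBinf W M ℓ p = heckeBetaBar L M ℓ (evFinf W M p) := rfl

/-- **The cusps for `β` are cusps**: a valuation subring of `F` over `W` in which `1/βj` is a
non-unit contains `1/j` as a non-unit. -/
theorem inv_j_mem_nonunits (hℓ : ℓ.Prime)
    (V : ValuationSubring (Fermat.Agent.S24.FF L (M * ℓ)))
    (hV : ∀ a : W, algebraMap L (Fermat.Agent.S24.FF L (M * ℓ)) (a : L) ∈ V)
    (hy : (heckeBetaBar L M ℓ (Fermat.Agent.S24.jBC L M))⁻¹ ∈ V.nonunits) :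
    (Fermat.Agent.S24.jBC L (M * ℓ))⁻¹ ∈ V.nonunits := by
  rw [ValuationSubring.inv_mem_nonunits_iff] at hy ⊢
  refine Or.inr fun hj => ?_
  have hβ : heckeBetaBar L M ℓ (Fermat.Agent.S24.jBC L M) ∈ V :=
    CuspEq.mem_of_isIntegralElem V (evF W (M * ℓ))
      (map_mem_of_C_X V (evF W (M * ℓ)) (fun a => by rw [evF_C]; exact hV a)
        (by rw [evF_X]; exact hj))
      (BetaInt.isIntegralElem_beta_j W M ℓ hℓ)
  rcases hy with h0 | h1
  · exact (map_ne_zero (heckeBetaBar L M ℓ)).mpr (CuspEq.jBC_ne_zero M) h0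
  · exact h1 hβ

/-- `evFinf` maps into a valuation subring over `W` in which `1/j` is a non-unit -/
theorem evFinf_mem (N : ℕ) [NeZero N] (V : ValuationSubring (Fermat.Agent.S24.FF L N))
    (hV : ∀ a : W, algebraMap L (Fermat.Agent.S24.FF L N) (a : L) ∈ V)
    (hx : (Fermat.Agent.S24.jBC L N)⁻¹ ∈ V.nonunits) (p : (↥W)[X]) : evFinf W N p ∈ V :=
  map_mem_of_C_X V (evFinf W N) (fun a => by rw [evFinf_C]; exact hV a)
    (by rw [evFinf_X]; exact (V.valuation_le_one_iff _).mp (le_of_lt (V.mem_nonunits_iff.mp hx)))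
    p

/-- **(R2β)** `1 / E(1/βj)` lies in the localised cusp chart of level `M ℓ`. -/
theorem exists_den_inv_beta (hℓ : ℓ.Prime) (E : (↥W)[X]) (hE : E.coeff 0 = 1) :
    ∃ D : (↥W)[X], D.coeff 0 = 1 ∧ (evFinf W (M * ℓ)).IsIntegralElem
      (evFinf W (M * ℓ) D * (heckeBetaBar L M ℓ (evFinf W M E))⁻¹) :=
  CuspEq.exists_den_of_valuative W (M * ℓ) _ fun V hV hx =>
    inv_eval_mem V (evBinf W M ℓ) (fun a => by rw [evBinf_C]; exact hV a)
      (by rw [evBinf_X]; exact CuspEq.inv_beta_j_mem_nonunits W M ℓ hℓ V hV hx) E hE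

/-- **(R3β)** the cusp chart of level `M ℓ` is integral over the localised chart `W[1/βj]`. -/
theorem exists_den_binf (hℓ : ℓ.Prime) {b : Fermat.Agent.S24.FF L (M * ℓ)}
    (hb : (evFinf W (M * ℓ)).IsIntegralElem b) :
    ∃ E : (↥W)[X], E.coeff 0 = 1 ∧ (evBinf W M ℓ).IsIntegralElem (evBinf W M ℓ E * b) :=
  exists_den_of_valuative_gen (evBinf W M ℓ) b fun V hV hy => by
    have hV' : ∀ a : W, algebraMap L (Fermat.Agent.S24.FF L (M * ℓ)) (a : L) ∈ V := fun a => by
      rw [← evBinf_C]; exact hV _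
    have hx := inv_j_mem_nonunits W M ℓ hℓ V hV' (by rw [← evBinf_X]; exact hy)
    exact CuspEq.mem_of_isIntegralElem V (evFinf W (M * ℓ)) (evFinf_mem W (M * ℓ) V hV' hx) hb

/-- **(R4β)** `1 / D(1/j)` is integral over the localised chart `W[1/βj]`. -/
theorem exists_den_binf_inv (hℓ : ℓ.Prime) (D : (↥W)[X]) (hD : D.coeff 0 = 1) :
    ∃ E : (↥W)[X], E.coeff 0 = 1 ∧
      (evBinf W M ℓ).IsIntegralElem (evBinf W M ℓ E * (evFinf W (M * ℓ) D)⁻¹) :=
  exists_den_of_valuative_gen (evBinf W M ℓ) _ fun V hV hy => by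
    have hV' : ∀ a : W, algebraMap L (Fermat.Agent.S24.FF L (M * ℓ)) (a : L) ∈ V := fun a => by
      rw [← evBinf_C]; exact hV _
    have hx := inv_j_mem_nonunits W M ℓ hℓ V hV' (by rw [← evBinf_X]; exact hy)
    exact inv_eval_mem V (evFinf W (M * ℓ)) (fun a => by rw [evFinf_C]; exact hV' a)
      (by rw [evFinf_X]; exact hx) D hD

end Level

/-! ### The lower chart ring, as a subring -/

section Lower

variable {L : Type} [Field L] [Algebra ℚ L] (W : ValuationSubring L) (N : ℕ) [NeZero N]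

/-- the cusp chart ring of level `N` as a subring of the function field: the elements integral
over `W[1/j]` -/
def intSub : Subring (Fermat.Agent.S24.FF L N) where
  carrier := {x | (evFinf W N).IsIntegralElem x}
  mul_mem' := fun hx hy => RingHom.IsIntegralElem.mul _ hx hy
  one_mem' := by
    have h := (evFinf W N).isIntegralElem_map (x := 1)
    rwa [map_one] at h
  add_mem' := fun hx hy => RingHom.IsIntegralElem.add _ hx hy
  zero_mem' := by
    have h := (evFinf W N).isIntegralElem_map (x := 0)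
    rwa [map_zero] at h
  neg_mem' := fun hx => RingHom.IsIntegralElem.neg _ hx

theorem mem_intSub {x : Fermat.Agent.S24.FF L N} :
    x ∈ intSub W N ↔ (evFinf W N).IsIntegralElem x := Iff.rfl

/-- `p ↦ p(1/j)` with values in the chart ring -/
def evSub : (↥W)[X] →+* intSub W N :=
  (evFinf W N).codRestrict (intSub W N) fun _ => (evFinf W N).isIntegralElem_map

theorem coe_evSub (p : (↥W)[X]) : ((evSub W N p : intSub W N) : Fermat.Agent.S24.FF L N) =
    evFinf W N p := rfl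

/-- the denominators `E(1/j)`, `E(0) = 1` -/
def denSub : Submonoid (intSub W N) where
  carrier := {b | ∃ E : (↥W)[X], E.coeff 0 = 1 ∧ evSub W N E = b}
  one_mem' := ⟨1, coeff_one_zero, map_one _⟩
  mul_mem' := by
    rintro _ _ ⟨E, hE, rfl⟩ ⟨E', hE', rfl⟩
    exact ⟨E * E', by rw [mul_coeff_zero, hE, hE', one_mul], map_mul _ _ _⟩

theorem evFinf_ne_zero [IsDiscreteValuationRing W] (E : (↥W)[X]) (hE : E.coeff 0 = 1) :
    evFinf W N E ≠ 0 := by
  intro h1
  have h2 : E = 0 :=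
    Fermat.Agent.S37.GaussNoeth.evFinf_injective' W N (h1.trans (map_zero _).symm)
  rw [h2, coeff_zero] at hE
  exact zero_ne_one hE

theorem denSub_ne_zero [IsDiscreteValuationRing W] : ∀ s ∈ denSub W N, s ≠ 0 := by
  rintro _ ⟨E, hE, rfl⟩ h0
  exact evFinf_ne_zero W N E hE (congrArg Subtype.val h0)

/-- the chart ring is integrally closed in the function field -/
theorem closed_intSub : ∀ x : Fermat.Agent.S24.FF L N,
    (intSub W N).subtype.IsIntegralElem x → ∃ b : intSub W N, (intSub W N).subtype b = x := by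
  intro x hx
  exact ⟨⟨x, BetaInt.isIntegralElem_trans (evFinf W N) (intSub W N).subtype (fun s => s.2) x hx⟩,
    rfl⟩

end Lower

/-! ### The upper chart ring `integralClosure R F`, `R` any ring with the integral closure of
`W[1/j]` -/

section Upper

variable {L : Type} [Field L] [Algebra ℚ L] (W : ValuationSubring L) (N : ℕ) [NeZero N]
variable {R : Type*} [CommRing R] [Algebra R (Fermat.Agent.S24.FF L N)]
  (hR : ∀ x : Fermat.Agent.S24.FF L N, IsIntegral R x ↔ (evFinf W N).IsIntegralElem x)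

/-- `p ↦ p(1/j)` with values in `integralClosure R F` -/
def evUp : (↥W)[X] →+* integralClosure R (Fermat.Agent.S24.FF L N) :=
  (evFinf W N).codRestrict (integralClosure R (Fermat.Agent.S24.FF L N)).toSubring
    fun _ => (hR _).mpr (evFinf W N).isIntegralElem_map

theorem coe_evUp (p : (↥W)[X]) :
    ((evUp W N hR p : integralClosure R (Fermat.Agent.S24.FF L N)) : Fermat.Agent.S24.FF L N) =
      evFinf W N p := rfl

/-- the denominators `E(1/j)`, `E(0) = 1` -/
def denUp : Submonoid (integralClosure R (Fermat.Agent.S24.FF L N)) where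
  carrier := {b | ∃ E : (↥W)[X], E.coeff 0 = 1 ∧ evUp W N hR E = b}
  one_mem' := ⟨1, coeff_one_zero, map_one _⟩
  mul_mem' := by
    rintro _ _ ⟨E, hE, rfl⟩ ⟨E', hE', rfl⟩
    exact ⟨E * E', by rw [mul_coeff_zero, hE, hE', one_mul], map_mul _ _ _⟩

theorem evUp_isIntegral : (evUp W N hR).IsIntegral := by
  intro b
  obtain ⟨P, hP, hPb⟩ := (hR _).mp b.2
  refine ⟨P, hP, ?_⟩
  apply Subtype.ext
  have h1 := Polynomial.hom_eval₂ P (evUp W N hR)
    (integralClosure R (Fermat.Agent.S24.FF L N)).val.toRingHom b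
  have hcomp : (integralClosure R (Fermat.Agent.S24.FF L N)).val.toRingHom.comp (evUp W N hR) =
      evFinf W N := RingHom.ext fun _ => rfl
  rw [hcomp] at h1
  show (integralClosure R (Fermat.Agent.S24.FF L N)).val.toRingHom (eval₂ (evUp W N hR) b P) = 0
  rw [h1]
  exact hPb

/-- a proper ideal containing `1/j` is disjoint from the denominators -/
theorem denUp_notMem (𝔫 : Ideal (integralClosure R (Fermat.Agent.S24.FF L N))) (h𝔫 : 𝔫 ≠ ⊤)
    (hx : evUp W N hR X ∈ 𝔫) : ∀ s ∈ denUp W N hR, s ∉ 𝔫 := by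
  rintro _ ⟨E, hE, rfl⟩ hmem
  have h1 : evUp W N hR E = 1 + evUp W N hR X * evUp W N hR E.divX := by
    conv_lhs => rw [← Polynomial.divX_mul_X_add E, hE]
    rw [map_add, map_mul, map_one, map_one]
    ring
  apply h𝔫
  rw [Ideal.eq_top_iff_one]
  have h2 : (1 : integralClosure R (Fermat.Agent.S24.FF L N)) =
      evUp W N hR E - evUp W N hR X * evUp W N hR E.divX := by
    rw [h1]; ring
  rw [h2]
  exact 𝔫.sub_mem hmem (𝔫.mul_mem_right _ hx)

/-- every ideal avoiding the denominators lies under a maximal ideal containing `1/j` -/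
theorem exists_maximal_of_avoid (𝔮 : Ideal (integralClosure R (Fermat.Agent.S24.FF L N)))
    (hav : ∀ s ∈ denUp W N hR, s ∉ 𝔮) :
    ∃ 𝔫 : Ideal (integralClosure R (Fermat.Agent.S24.FF L N)), 𝔫.IsMaximal ∧
      evUp W N hR X ∈ 𝔫 ∧ 𝔮 ≤ 𝔫 := by
  letI : Algebra (↥W)[X] (integralClosure R (Fermat.Agent.S24.FF L N)) :=
    (evUp W N hR).toAlgebra
  haveI : Algebra.IsIntegral (↥W)[X] (integralClosure R (Fermat.Agent.S24.FF L N)) :=
    ⟨evUp_isIntegral W N hR⟩
  exact exists_maximal_ge_of_avoid (X : (↥W)[X])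
    (denUp W N hR : Set (integralClosure R (Fermat.Agent.S24.FF L N)))
    (fun c => ⟨1 + X * c,
      by rw [coeff_add, coeff_one_zero, mul_comm, coeff_mul_X_zero, add_zero], rfl⟩) 𝔮 hav

/-- a maximal ideal containing `1/j` contains every non-unit constant of `W` -/
theorem const_mem_of_X_mem (ϖ : W) (hϖ : ¬ IsUnit ϖ)
    (𝔫 : Ideal (integralClosure R (Fermat.Agent.S24.FF L N))) (h𝔫 : 𝔫.IsMaximal)
    (hx : evUp W N hR X ∈ 𝔫) : evUp W N hR (C ϖ) ∈ 𝔫 := by
  haveI := h𝔫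
  have hmax : (𝔫.comap (evUp W N hR)).IsMaximal :=
    Ideal.isMaximal_comap_of_isIntegral_of_isMaximal' (evUp W N hR) (evUp_isIntegral W N hR) 𝔫
  by_contra hc
  have hc' : C ϖ ∉ 𝔫.comap (evUp W N hR) := hc
  obtain ⟨g, p, hp, hgp⟩ := hmax.exists_inv hc'
  have hX : (X : (↥W)[X]) ∈ 𝔫.comap (evUp W N hR) := hx
  -- the constant coefficient of `p` is a unit
  have h0 : g.coeff 0 * ϖ + p.coeff 0 = 1 := by
    have h1 := congrArg (fun r : (↥W)[X] => r.coeff 0) hgp
    simpa [mul_coeff_zero] using h1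
  have hu : IsUnit (p.coeff 0) := by
    have h2 : p.coeff 0 = 1 - g.coeff 0 * ϖ := by rw [← h0]; ring
    rw [h2]
    have h3 : g.coeff 0 * ϖ ∈ IsLocalRing.maximalIdeal W :=
      Ideal.mul_mem_left _ _ ((IsLocalRing.mem_maximalIdeal _).mpr hϖ)
    exact IsLocalRing.isUnit_one_sub_self_of_mem_nonunits _ h3
  have hCp : C (p.coeff 0) ∈ 𝔫.comap (evUp W N hR) := by
    have h4 : C (p.coeff 0) = p - p.divX * X :=
      eq_sub_of_add_eq' (Polynomial.divX_mul_X_add p)
    rw [h4]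
    exact Ideal.sub_mem _ hp (Ideal.mul_mem_left _ _ hX)
  exact hmax.ne_top (Ideal.eq_top_of_isUnit_mem _ hCp (Polynomial.isUnit_C.mpr hu))

end Upper

/-- the set of maximal ideals of the cusp chart containing `1/j` (the cusps of the special
fibre), in the literal shape of the `hloc₂` hypotheses -/
def cuspSet (L : Type) [Field L] [Algebra ℚ L] (N : ℕ) [NeZero N] (R : Type*) [CommRing R]
    [Algebra R (Fermat.Agent.S24.FF L N)] :
    Set (Ideal (integralClosure R (Fermat.Agent.S24.FF L N))) :=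
  {𝔫 | 𝔫.IsMaximal ∧ ∀ r : integralClosure R (Fermat.Agent.S24.FF L N),
    (r : Fermat.Agent.S24.FF L N) = (Fermat.Agent.S24.jBC L N)⁻¹ → r ∈ 𝔫}

/-! ### The pair of levels `(M, M ℓ)` -/

section Pair

variable {L : Type} [Field L] [Algebra ℚ L] (W : ValuationSubring L)
  (M ℓ : ℕ) [NeZero M] [NeZero ℓ]
variable {R : Type*} [CommRing R] [Algebra R (Fermat.Agent.S24.FF L (M * ℓ))]
  (hR : ∀ x : Fermat.Agent.S24.FF L (M * ℓ),
    IsIntegral R x ↔ (evFinf W (M * ℓ)).IsIntegralElem x)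

theorem alpha_evSub (E : (↥W)[X]) :
    heckeAlphaBar L M ℓ ((intSub W M).subtype (evSub W M E)) =
      (integralClosure R (Fermat.Agent.S24.FF L (M * ℓ))).val.toRingHom
        (evUp W (M * ℓ) hR E) := by
  show heckeAlphaBar L M ℓ (evFinf W M E) = evFinf W (M * ℓ) E
  rw [← BetaInt.alpha_comp_evFinf W M ℓ]
  rfl

theorem val_denUp_ne_zero [IsDiscreteValuationRing W] :
    ∀ s ∈ denUp W (M * ℓ) hR,
      (integralClosure R (Fermat.Agent.S24.FF L (M * ℓ))).val.toRingHom s ≠ 0 := by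
  rintro _ ⟨E, hE, rfl⟩
  exact evFinf_ne_zero W (M * ℓ) E hE

/-- **(G1α)** -/
theorem g1_alpha (b' : intSub W M) :
    heckeAlphaBar L M ℓ ((intSub W M).subtype b') ∈
      locSub (integralClosure R (Fermat.Agent.S24.FF L (M * ℓ))).val.toRingHom
        (denUp W (M * ℓ) hR) := by
  have h := BetaInt.isIntegralElem_inf_alpha W M ℓ b'.2
  exact ⟨1, one_mem _, ⟨_, (hR _).mpr h⟩, by rw [map_one, one_mul]; rfl⟩

/-- **(G2α)** -/
theorem g2_alpha [IsDiscreteValuationRing W] (s' : intSub W M) (hs' : s' ∈ denSub W M) :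
    (heckeAlphaBar L M ℓ ((intSub W M).subtype s'))⁻¹ ∈
      locSub (integralClosure R (Fermat.Agent.S24.FF L (M * ℓ))).val.toRingHom
        (denUp W (M * ℓ) hR) := by
  obtain ⟨E, hE, rfl⟩ := hs'
  rw [alpha_evSub W M ℓ hR]
  exact inv_mem_locSub _ _ ⟨E, hE, rfl⟩ (val_denUp_ne_zero W M ℓ hR _ ⟨E, hE, rfl⟩)

include hR in
/-- **(G3α)** -/
theorem g3_alpha (b : integralClosure R (Fermat.Agent.S24.FF L (M * ℓ))) :
    ∃ s' ∈ denSub W M,
    (((heckeAlphaBar L M ℓ : Fermat.Agent.S24.FF L M →+* Fermat.Agent.S24.FF L (M * ℓ))).comp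
      (intSub W M).subtype).IsIntegralElem
      (heckeAlphaBar L M ℓ ((intSub W M).subtype s') *
        (integralClosure R (Fermat.Agent.S24.FF L (M * ℓ))).val.toRingHom b) := by
  refine ⟨1, one_mem _, ?_⟩
  have hb : (evFinf W (M * ℓ)).IsIntegralElem (b : Fermat.Agent.S24.FF L (M * ℓ)) :=
    (hR _).mp b.2
  rw [map_one, map_one, one_mul]
  refine isIntegralElem_of_comp (evSub W M) _ ?_
  have hcomp : (((heckeAlphaBar L M ℓ : Fermat.Agent.S24.FF L M →+*
      Fermat.Agent.S24.FF L (M * ℓ))).comp (intSub W M).subtype).comp (evSub W M) =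
      evFinf W (M * ℓ) := by
    rw [← BetaInt.alpha_comp_evFinf W M ℓ]
    rfl
  rw [hcomp]
  exact hb

/-- **(G4α)** -/
theorem g4_alpha [IsDiscreteValuationRing W]
    (s : integralClosure R (Fermat.Agent.S24.FF L (M * ℓ))) (hs : s ∈ denUp W (M * ℓ) hR) :
    ∃ s' ∈ denSub W M,
    (((heckeAlphaBar L M ℓ : Fermat.Agent.S24.FF L M →+* Fermat.Agent.S24.FF L (M * ℓ))).comp
      (intSub W M).subtype).IsIntegralElem
      (heckeAlphaBar L M ℓ ((intSub W M).subtype s') *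
        ((integralClosure R (Fermat.Agent.S24.FF L (M * ℓ))).val.toRingHom s)⁻¹) := by
  obtain ⟨E, hE, rfl⟩ := hs
  refine ⟨evSub W M E, ⟨E, hE, rfl⟩, ?_⟩
  rw [alpha_evSub W M ℓ hR, mul_inv_cancel₀ (val_denUp_ne_zero W M ℓ hR _ ⟨E, hE, rfl⟩)]
  have h1 := RingHom.isIntegralElem_map
    (((heckeAlphaBar L M ℓ : Fermat.Agent.S24.FF L M →+* Fermat.Agent.S24.FF L (M * ℓ))).comp
      (intSub W M).subtype) (x := 1)
  rwa [map_one] at h1

/-- **(G1β)** -/
theorem g1_beta (hℓ : ℓ.Prime) (b' : intSub W M) :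
    heckeBetaBar L M ℓ ((intSub W M).subtype b') ∈
      locSub (integralClosure R (Fermat.Agent.S24.FF L (M * ℓ))).val.toRingHom
        (denUp W (M * ℓ) hR) := by
  obtain ⟨E, hE, hint⟩ := CuspEq.exists_den_beta W M ℓ hℓ
    (b := (b' : Fermat.Agent.S24.FF L M)) (m := 0) (by rw [pow_zero, one_mul]; exact b'.2)
  exact ⟨evUp W (M * ℓ) hR E, ⟨E, hE, rfl⟩, ⟨_, (hR _).mpr hint⟩, rfl⟩

/-- **(G2β)** -/
theorem g2_beta (hℓ : ℓ.Prime) (s' : intSub W M) (hs' : s' ∈ denSub W M) :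
    (heckeBetaBar L M ℓ ((intSub W M).subtype s'))⁻¹ ∈
      locSub (integralClosure R (Fermat.Agent.S24.FF L (M * ℓ))).val.toRingHom
        (denUp W (M * ℓ) hR) := by
  obtain ⟨E, hE, rfl⟩ := hs'
  obtain ⟨D, hD, hint⟩ := exists_den_inv_beta W M ℓ hℓ E hE
  exact ⟨evUp W (M * ℓ) hR D, ⟨D, hD, rfl⟩, ⟨_, (hR _).mpr hint⟩, rfl⟩

include hR in
/-- **(G3β)** -/
theorem g3_beta (hℓ : ℓ.Prime) (b : integralClosure R (Fermat.Agent.S24.FF L (M * ℓ))) :
    ∃ s' ∈ denSub W M,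
    (((heckeBetaBar L M ℓ : Fermat.Agent.S24.FF L M →+* Fermat.Agent.S24.FF L (M * ℓ))).comp
      (intSub W M).subtype).IsIntegralElem
      (heckeBetaBar L M ℓ ((intSub W M).subtype s') *
        (integralClosure R (Fermat.Agent.S24.FF L (M * ℓ))).val.toRingHom b) := by
  obtain ⟨E, hE, hint⟩ := exists_den_binf W M ℓ hℓ ((hR _).mp b.2)
  exact ⟨evSub W M E, ⟨E, hE, rfl⟩, isIntegralElem_of_comp (evSub W M) _ hint⟩

/-- **(G4β)** -/
theorem g4_beta (hℓ : ℓ.Prime)
    (s : integralClosure R (Fermat.Agent.S24.FF L (M * ℓ))) (hs : s ∈ denUp W (M * ℓ) hR) :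
    ∃ s' ∈ denSub W M,
    (((heckeBetaBar L M ℓ : Fermat.Agent.S24.FF L M →+* Fermat.Agent.S24.FF L (M * ℓ))).comp
      (intSub W M).subtype).IsIntegralElem
      (heckeBetaBar L M ℓ ((intSub W M).subtype s') *
        ((integralClosure R (Fermat.Agent.S24.FF L (M * ℓ))).val.toRingHom s)⁻¹) := by
  obtain ⟨D, hD, rfl⟩ := hs
  obtain ⟨E, hE, hint⟩ := exists_den_binf_inv W M ℓ hℓ D hD
  exact ⟨evSub W M E, ⟨E, hE, rfl⟩, isIntegralElem_of_comp (evSub W M) _ hint⟩

/-- **`E36` preserves `HUS` on the cusp chart of level `M ℓ`.** -/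
theorem cusp_hus_E36 [IsDiscreteValuationRing W] (hℓ : ℓ.Prime) (ϖ : W) (q : ℕ)
    {h : Fermat.Agent.S24.FF L (M * ℓ)}
    (hh : HUS (integralClosure R (Fermat.Agent.S24.FF L (M * ℓ))).val.toRingHom
      (evUp W (M * ℓ) hR (C ϖ)) (denUp W (M * ℓ) hR) h) :
    HUS (integralClosure R (Fermat.Agent.S24.FF L (M * ℓ))).val.toRingHom
      (evUp W (M * ℓ) hR (C ϖ)) (denUp W (M * ℓ) hR)
      (Fermat.Agent.S36.ConstPow.E36 (heckeAlphaBar L M ℓ) (heckeBetaBar L M ℓ) q h) :=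
  HUS.E36 (heckeAlphaBar L M ℓ) (heckeBetaBar L M ℓ)
    (intSub W M).subtype Subtype.val_injective
    (integralClosure R (Fermat.Agent.S24.FF L (M * ℓ))).val.toRingHom Subtype.val_injective
    (denSub W M) (denSub_ne_zero W M) (denUp W (M * ℓ) hR)
    (g1_alpha W M ℓ hR) (g2_alpha W M ℓ hR) (g3_alpha W M ℓ hR) (g4_alpha W M ℓ hR)
    (g1_beta W M ℓ hR hℓ) (g2_beta W M ℓ hR hℓ) (g3_beta W M ℓ hR hℓ) (g4_beta W M ℓ hR hℓ)
    (closed_intSub W M) (evSub W M (C ϖ)) (evUp W (M * ℓ) hR (C ϖ))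
    (by
      show heckeAlphaBar L M ℓ (evFinf W M (C ϖ)) = evFinf W (M * ℓ) (C ϖ)
      rw [evFinf_C, evFinf_C]
      exact AlgHom.commutes _ _)
    (by
      show heckeBetaBar L M ℓ (evFinf W M (C ϖ)) = evFinf W (M * ℓ) (C ϖ)
      rw [evFinf_C, evFinf_C]
      exact AlgHom.commutes _ _) q hh

theorem mem_cuspSet_iff (𝔫 : Ideal (integralClosure R (Fermat.Agent.S24.FF L (M * ℓ)))) :
    𝔫 ∈ cuspSet L (M * ℓ) R ↔ 𝔫.IsMaximal ∧ evUp W (M * ℓ) hR X ∈ 𝔫 := by
  constructor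
  · rintro ⟨h1, h2⟩
    exact ⟨h1, h2 _ (evFinf_X W (M * ℓ))⟩
  · rintro ⟨h1, h2⟩
    refine ⟨h1, fun r hr => ?_⟩
    have : r = evUp W (M * ℓ) hR X := Subtype.ext (hr.trans (evFinf_X W (M * ℓ)).symm)
    rw [this]
    exact h2

include hR in
/-- the cusps of the special fibre are finitely many -/
theorem finite_cuspSet [IsNoetherianRing (integralClosure R (Fermat.Agent.S24.FF L (M * ℓ)))] :
    (cuspSet L (M * ℓ) R : Set (Ideal (integralClosure R
      (Fermat.Agent.S24.FF L (M * ℓ))))).Finite := by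
  refine (Fermat.Agent.S36.FibrePrime.finite_primes_over (evUp W (M * ℓ) hR)
    (evUp_isIntegral W (M * ℓ) hR)
    (Ideal.comap (Polynomial.constantCoeff : (↥W)[X] →+* ↥W)
      (IsLocalRing.maximalIdeal ↥W))).subset ?_
  intro 𝔫 h𝔫
  obtain ⟨hmax, hx⟩ := (mem_cuspSet_iff W M ℓ hR 𝔫).mp h𝔫
  haveI := hmax
  refine ⟨hmax.isPrime, ?_⟩
  have hcm : (𝔫.comap (evUp W (M * ℓ) hR)).IsMaximal :=
    Ideal.isMaximal_comap_of_isIntegral_of_isMaximal' (evUp W (M * ℓ) hR)
      (evUp_isIntegral W (M * ℓ) hR) 𝔫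
  have hX : (X : (↥W)[X]) ∈ 𝔫.comap (evUp W (M * ℓ) hR) := hx
  have hle : 𝔫.comap (evUp W (M * ℓ) hR) ≤
      Ideal.comap (Polynomial.constantCoeff : (↥W)[X] →+* ↥W)
        (IsLocalRing.maximalIdeal ↥W) := by
    intro p hp
    rw [Ideal.mem_comap, Polynomial.constantCoeff_apply, IsLocalRing.mem_maximalIdeal]
    intro hu
    have hCp : C (p.coeff 0) ∈ 𝔫.comap (evUp W (M * ℓ) hR) := by
      have h4 : C (p.coeff 0) = p - p.divX * X :=
        eq_sub_of_add_eq' (Polynomial.divX_mul_X_add p)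
      rw [h4]
      exact Ideal.sub_mem _ hp (Ideal.mul_mem_left _ _ hX)
    exact hcm.ne_top (Ideal.eq_top_of_isUnit_mem _ hCp (Polynomial.isUnit_C.mpr hu))
  refine hcm.eq_of_le ?_ hle
  intro htop
  have h1 : (1 : (↥W)[X]) ∈ Ideal.comap (Polynomial.constantCoeff : (↥W)[X] →+* ↥W)
      (IsLocalRing.maximalIdeal ↥W) := htop ▸ Submodule.mem_top
  rw [Ideal.mem_comap, map_one] at h1
  exact (IsLocalRing.maximalIdeal.isMaximal ↥W).ne_top ((Ideal.eq_top_iff_one _).mpr h1)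

include hR in
/-- **(CUSP CHAIN)** — the `hchain` input of `HLocAbs.hloc_of_chain` on the cusp chart.
`R` is any ring whose integral closure in `FF L (M ℓ)` is the integral closure of `W[1/j]`
(e.g. `Algebra.adjoin ↥W {(jBC L (M ℓ))⁻¹}`, `hR := BridgeChart.isIntegral_adjoin_inv_iff`),
`ϖR : R` the image of a non-unit `ϖ` of `W`, `T := cuspSet` the maximal ideals `∋ 1/j`. -/
theorem cusp_chain [IsDiscreteValuationRing W] (hℓ : ℓ.Prime)
    [IsNoetherianRing (integralClosure R (Fermat.Agent.S24.FF L (M * ℓ)))]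
    (ϖ : W) (hϖ : ¬ IsUnit ϖ) (ϖR : R)
    (hϖR : algebraMap R (Fermat.Agent.S24.FF L (M * ℓ)) ϖR =
      algebraMap L (Fermat.Agent.S24.FF L (M * ℓ)) (ϖ : L)) (q : ℕ) :
    (cuspSet L (M * ℓ) R : Set (Ideal (integralClosure R
      (Fermat.Agent.S24.FF L (M * ℓ))))).Finite ∧
    (∀ 𝔪 ∈ cuspSet L (M * ℓ) R, 𝔪.IsMaximal) ∧
    (∀ 𝔪 ∈ cuspSet L (M * ℓ) R,
      algebraMap R (integralClosure R (Fermat.Agent.S24.FF L (M * ℓ))) ϖR ∈ 𝔪) ∧
    ∀ u : Fermat.Agent.S24.FF L (M * ℓ),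
      HU (integralClosure R (Fermat.Agent.S24.FF L (M * ℓ))).val.toRingHom
        (algebraMap R (integralClosure R (Fermat.Agent.S24.FF L (M * ℓ))) ϖR)
        (cuspSet L (M * ℓ) R) u →
      ∀ 𝔫 ∈ cuspSet L (M * ℓ) R,
        HU (integralClosure R (Fermat.Agent.S24.FF L (M * ℓ))).val.toRingHom
          (algebraMap R (integralClosure R (Fermat.Agent.S24.FF L (M * ℓ))) ϖR) {𝔫}
          (Fermat.Agent.S36.ConstPow.E36 (heckeAlphaBar L M ℓ) (heckeBetaBar L M ℓ) q u) := by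
  have hπ : algebraMap R (integralClosure R (Fermat.Agent.S24.FF L (M * ℓ))) ϖR =
      evUp W (M * ℓ) hR (C ϖ) := by
    apply Subtype.ext
    show algebraMap R (Fermat.Agent.S24.FF L (M * ℓ)) ϖR = evFinf W (M * ℓ) (C ϖ)
    rw [hϖR, evFinf_C]
  refine ⟨finite_cuspSet W M ℓ hR, fun 𝔪 h𝔪 => h𝔪.1, ?_, ?_⟩
  · intro 𝔪 h𝔪
    obtain ⟨hmax, hx⟩ := (mem_cuspSet_iff W M ℓ hR 𝔪).mp h𝔪
    rw [hπ]
    exact const_mem_of_X_mem W (M * ℓ) hR ϖ hϖ 𝔪 hmax hx
  · intro u hu 𝔫 h𝔫
    obtain ⟨hmax, hx⟩ := (mem_cuspSet_iff W M ℓ hR 𝔫).mp h𝔫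
    rw [hπ] at hu ⊢
    have h1 : HUS (integralClosure R (Fermat.Agent.S24.FF L (M * ℓ))).val.toRingHom
        (evUp W (M * ℓ) hR (C ϖ)) (denUp W (M * ℓ) hR) u := by
      refine HUS.of_HU (fun 𝔮 _ hav => ?_) hu
      obtain ⟨𝔪, h𝔪, hx𝔪, hle⟩ := exists_maximal_of_avoid W (M * ℓ) hR 𝔮 hav
      exact ⟨𝔪, (mem_cuspSet_iff W M ℓ hR 𝔪).mpr ⟨h𝔪, hx𝔪⟩, hle⟩
    have h2 := cusp_hus_E36 W M ℓ hR hℓ ϖ q h1
    refine HUS.to_HU ?_ h2
    rintro 𝔪 rfl
    exact denUp_notMem W (M * ℓ) hR 𝔪 hmax.ne_top hx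

end Pair

end Fermat.Agent.S36.CuspPair
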