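/-
S36 (wave 8), K7 support on the cusp chart (LEDGER v1.2 (2)): the set of cusps
`T = {𝔫 maximal | 1/j ∈ 𝔫}` of the chart ring `B₂ = integralClosure W[1/j] (FF L N)`.

Abstract (`W` a local ring, `R = W[x]`, `B` integral over `R`):
* `exists_const_add`  : `a = a₀ + x * a₁` in `W[x]`;
* `const_mem_of_x_mem`: a maximal ideal of `B` containing `x` contains every non-unit of `W`;
* `comap_le_of_x_mem` : all maximal ideals containing `x` have the same contraction to `W[x]`;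
* `finite_of_x_mem`   : there are finitely many of them (`B` noetherian).

Level (`B₂` literally the carrier of `Core36.Loc36₂`):
* `inv_mem_iff`       : "`1/j ∈ 𝔫`" in element form and in the elementwise form of `Loc36₂`;
* `pi_mem_of_inv_mem` : `1/j ∈ 𝔫`, `𝔫` maximal, `ϖ` a non-unit of `W` ⟹ `ϖ ∈ 𝔫`;
* `cusps`, `mem_cusps_iff`, `finite_cusps`, `isMaximal_of_mem_cusps`, `pi_mem_of_mem_cusps`;
* `exists_cusp_ge` (a prime avoiding all `1 + (1/j) c` lies under a cusp),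
  `one_add_notMem_of_mem_cusps` : the two bridges of `HUZar.HUS.of_HU` / `HUS.to_HU`.
-/
import Mathlib
import Fermat.Agent.S36.FibrePrime
import Fermat.Agent.S36.HUZar
import Fermat.Agent.S34.KLocInst

set_option autoImplicit false
set_option linter.unusedSectionVars false
set_option linter.style.haveILetI false
set_option maxSynthPendingDepth 3

namespace Fermat.Agent.S36.CuspT

section Abstract

variable {W F : Type*} [CommRing W] [CommRing F] [Algebra W F] (x : F)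

/-- the generator `x` as an element of `W[x]` -/
def xR : Algebra.adjoin W {x} := ⟨x, Algebra.self_mem_adjoin_singleton W x⟩

/-- constant-term decomposition in `W[x]` -/
theorem exists_const_add (a : Algebra.adjoin W {x}) :
    ∃ (a₀ : W) (a₁ : Algebra.adjoin W {x}),
      a = algebraMap W (Algebra.adjoin W {x}) a₀ + xR x * a₁ := by
  obtain ⟨a, ha⟩ := a
  have ha' := ha
  rw [Algebra.adjoin_singleton_eq_range_aeval] at ha'
  obtain ⟨p, rfl⟩ := ha'
  refine ⟨p.coeff 0, ⟨Polynomial.aeval x p.divX, ?_⟩, ?_⟩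
  · rw [Algebra.adjoin_singleton_eq_range_aeval]
    exact ⟨_, rfl⟩
  · apply Subtype.ext
    show Polynomial.aeval x p = algebraMap W F (p.coeff 0) + x * Polynomial.aeval x p.divX
    conv_lhs => rw [← Polynomial.divX_mul_X_add p]
    simp only [map_add, map_mul, Polynomial.aeval_X, Polynomial.aeval_C]
    ring

/-- a polynomial with constant term `1`, evaluated at `x`, is `1 + x * c` -/
theorem aeval_eq_one_add (E : Polynomial W) (hE : E.coeff 0 = 1) :
    Polynomial.aeval x E = 1 + x * Polynomial.aeval x E.divX := by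
  conv_lhs => rw [← Polynomial.divX_mul_X_add E]
  simp only [map_add, map_mul, Polynomial.aeval_X, hE, map_one]
  ring

variable {B : Type*} [CommRing B] [Algebra (Algebra.adjoin W {x}) B]

/-- a proper ideal containing `x` contains no element `1 + x * c` -/
theorem one_add_notMem (𝔫 : Ideal B) (h𝔫 : 𝔫 ≠ ⊤)
    (hx : algebraMap (Algebra.adjoin W {x}) B (xR x) ∈ 𝔫) (c : Algebra.adjoin W {x}) :
    algebraMap (Algebra.adjoin W {x}) B (1 + xR x * c) ∉ 𝔫 := by
  intro h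
  apply h𝔫
  rw [Ideal.eq_top_iff_one]
  have h1 : algebraMap (Algebra.adjoin W {x}) B (xR x * c) ∈ 𝔫 := by
    rw [map_mul]
    exact Ideal.mul_mem_right _ _ hx
  have h2 : algebraMap (Algebra.adjoin W {x}) B (1 + xR x * c) -
      algebraMap (Algebra.adjoin W {x}) B (xR x * c) ∈ 𝔫 := Ideal.sub_mem _ h h1
  rwa [← map_sub, add_sub_cancel_right, map_one] at h2

/-- a maximal ideal through `x = 0` contains every non-unit of the local ring `W` -/
theorem const_mem_of_x_mem [IsLocalRing W] [Algebra.IsIntegral (Algebra.adjoin W {x}) B]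
    (𝔫 : Ideal B) [h𝔫 : 𝔫.IsMaximal]
    (hx : algebraMap (Algebra.adjoin W {x}) B (xR x) ∈ 𝔫) (ϖ : W) (hϖ : ¬ IsUnit ϖ) :
    algebraMap (Algebra.adjoin W {x}) B (algebraMap W (Algebra.adjoin W {x}) ϖ) ∈ 𝔫 := by
  by_contra hcon
  have hmax : (𝔫.comap (algebraMap (Algebra.adjoin W {x}) B)).IsMaximal :=
    Ideal.isMaximal_comap_of_isIntegral_of_isMaximal (R := Algebra.adjoin W {x}) 𝔫
  have hnot : algebraMap W (Algebra.adjoin W {x}) ϖ ∉
      𝔫.comap (algebraMap (Algebra.adjoin W {x}) B) := hcon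
  obtain ⟨a, b, hb, hab⟩ := hmax.exists_inv hnot
  obtain ⟨a₀, a₁, rfl⟩ := exists_const_add x a
  -- `1 - a₀ ϖ` is a unit of `W` lying in the contraction
  have hunit : IsUnit (1 - a₀ * ϖ) := by
    have h1 : a₀ * ϖ ∈ IsLocalRing.maximalIdeal W :=
      Ideal.mul_mem_left _ _ ((IsLocalRing.mem_maximalIdeal ϖ).mpr hϖ)
    have h2 := IsLocalRing.isUnit_one_sub_self_of_mem_nonunits (a₀ * ϖ)
      ((IsLocalRing.mem_maximalIdeal _).mp h1)
    exact h2
  have hmem : algebraMap W (Algebra.adjoin W {x}) (1 - a₀ * ϖ) ∈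
      𝔫.comap (algebraMap (Algebra.adjoin W {x}) B) := by
    have e : algebraMap W (Algebra.adjoin W {x}) (1 - a₀ * ϖ) =
        xR x * (a₁ * algebraMap W (Algebra.adjoin W {x}) ϖ) + b := by
      rw [map_sub, map_one, map_mul, ← hab]
      ring
    rw [e]
    refine Ideal.add_mem _ (Ideal.mul_mem_right _ _ ?_) hb
    exact hx
  exact hmax.ne_top (Ideal.eq_top_of_isUnit_mem _ hmem (hunit.map _))

/-- all maximal ideals through `x = 0` have the same contraction to `W[x]` -/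
theorem comap_le_of_x_mem [IsLocalRing W] [Algebra.IsIntegral (Algebra.adjoin W {x}) B]
    (𝔫 𝔫₀ : Ideal B) [h𝔫 : 𝔫.IsMaximal] [h𝔫₀ : 𝔫₀.IsMaximal]
    (hx : algebraMap (Algebra.adjoin W {x}) B (xR x) ∈ 𝔫)
    (hx₀ : algebraMap (Algebra.adjoin W {x}) B (xR x) ∈ 𝔫₀) :
    𝔫.comap (algebraMap (Algebra.adjoin W {x}) B) ≤
      𝔫₀.comap (algebraMap (Algebra.adjoin W {x}) B) := by
  intro a ha
  obtain ⟨a₀, a₁, rfl⟩ := exists_const_add x a
  have ha₀ : algebraMap (Algebra.adjoin W {x}) B (algebraMap W (Algebra.adjoin W {x}) a₀) ∈ 𝔫 := by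
    have h1 : algebraMap (Algebra.adjoin W {x}) B (xR x * a₁) ∈ 𝔫 := by
      rw [map_mul]
      exact Ideal.mul_mem_right _ _ hx
    have h2 : algebraMap (Algebra.adjoin W {x}) B
        (algebraMap W (Algebra.adjoin W {x}) a₀ + xR x * a₁) -
        algebraMap (Algebra.adjoin W {x}) B (xR x * a₁) ∈ 𝔫 := Ideal.sub_mem _ ha h1
    rwa [← map_sub, add_sub_cancel_right] at h2
  have hnu : ¬ IsUnit a₀ := fun hu =>
    h𝔫.ne_top (Ideal.eq_top_of_isUnit_mem _ ha₀ ((hu.map _).map _))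
  have h3 := const_mem_of_x_mem x 𝔫₀ hx₀ a₀ hnu
  show algebraMap (Algebra.adjoin W {x}) B _ ∈ 𝔫₀
  rw [map_add, map_mul]
  exact Ideal.add_mem _ h3 (Ideal.mul_mem_right _ _ hx₀)

/-- **finitely many maximal ideals through `x = 0`** -/
theorem finite_of_x_mem [IsLocalRing W] [Algebra.IsIntegral (Algebra.adjoin W {x}) B]
    [IsNoetherianRing B] :
    {𝔫 : Ideal B | 𝔫.IsMaximal ∧ algebraMap (Algebra.adjoin W {x}) B (xR x) ∈ 𝔫}.Finite := by
  by_cases hne : ∃ 𝔫₀ : Ideal B, 𝔫₀.IsMaximal ∧ algebraMap (Algebra.adjoin W {x}) B (xR x) ∈ 𝔫₀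
  · obtain ⟨𝔫₀, h𝔫₀, hx₀⟩ := hne
    refine (FibrePrime.finite_primes_over (algebraMap (Algebra.adjoin W {x}) B)
      (algebraMap_isIntegral_iff.mpr inferInstance)
      (𝔫₀.comap (algebraMap (Algebra.adjoin W {x}) B))).subset ?_
    rintro 𝔫 ⟨h𝔫, hx⟩
    exact ⟨h𝔫.isPrime, le_antisymm (comap_le_of_x_mem x 𝔫 𝔫₀ hx hx₀)
      (comap_le_of_x_mem x 𝔫₀ 𝔫 hx₀ hx)⟩
  · refine Set.Finite.subset Set.finite_empty ?_
    rintro 𝔫 ⟨h𝔫, hx⟩
    exact (hne ⟨𝔫, h𝔫, hx⟩).elim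

end Abstract

/-! ### The cusp chart -/

noncomputable section Level

open Polynomial ModularCurve AlgebraicCurve Fermat.Agent.S18 Fermat.Agent.S18.Gauss
  Fermat.Agent.S24 Fermat.Agent.S34

local notation "Qb" => AlgebraicClosure ℚ

variable {L : Type} [Field L] [Algebra ℚ L] (W : ValuationSubring L) (N : ℕ) [NeZero N]

set_option maxHeartbeats 1600000 in
set_option synthInstance.maxHeartbeats 400000 in
-- the instances `Algebra ↥W (FF L N)`, `Algebra W[1/j] (integralClosure W[1/j] F)` are slow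
/-- "`1/j ∈ 𝔫`": the element form and the elementwise form (of `Core36.Loc36₂`) agree. -/
theorem inv_mem_iff (𝔫 : Ideal (integralClosure (Algebra.adjoin ↥W {(jBC L N)⁻¹}) (FF L N))) :
    algebraMap (Algebra.adjoin ↥W {(jBC L N)⁻¹})
        (integralClosure (Algebra.adjoin ↥W {(jBC L N)⁻¹}) (FF L N)) (xR (jBC L N)⁻¹) ∈ 𝔫 ↔
      ∀ r : integralClosure (Algebra.adjoin ↥W {(jBC L N)⁻¹}) (FF L N),
        (r : FF L N) = (jBC L N)⁻¹ → r ∈ 𝔫 := by
  constructor
  · intro h r hr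
    have : r = algebraMap (Algebra.adjoin ↥W {(jBC L N)⁻¹})
        (integralClosure (Algebra.adjoin ↥W {(jBC L N)⁻¹}) (FF L N)) (xR (jBC L N)⁻¹) :=
      Subtype.ext hr
    exact this ▸ h
  · intro h
    exact h _ rfl

set_option maxHeartbeats 1600000 in
set_option synthInstance.maxHeartbeats 400000 in
-- the instances `Algebra ↥W (FF L N)`, `Algebra W[1/j] (integralClosure W[1/j] F)` are slow
/-- **a cusp lies on the special fibre**: a maximal ideal of the chart ring `B₂` containing `1/j`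
contains every non-unit `ϖ` of `W`. -/
theorem pi_mem_of_inv_mem
    (𝔫 : Ideal (integralClosure (Algebra.adjoin ↥W {(jBC L N)⁻¹}) (FF L N))) (h𝔫 : 𝔫.IsMaximal)
    (hj : ∀ r : integralClosure (Algebra.adjoin ↥W {(jBC L N)⁻¹}) (FF L N),
      (r : FF L N) = (jBC L N)⁻¹ → r ∈ 𝔫) (ϖ : W) (hϖ : ¬ IsUnit ϖ) :
    algebraMap (Algebra.adjoin ↥W {(jBC L N)⁻¹})
        (integralClosure (Algebra.adjoin ↥W {(jBC L N)⁻¹}) (FF L N))
        (algebraMap ↥W (Algebra.adjoin ↥W {(jBC L N)⁻¹}) ϖ) ∈ 𝔫 := by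
  haveI := h𝔫
  exact const_mem_of_x_mem (W := ↥W) (jBC L N)⁻¹ 𝔫 ((inv_mem_iff W N 𝔫).mpr hj) ϖ hϖ

set_option maxHeartbeats 1600000 in
set_option synthInstance.maxHeartbeats 400000 in
-- the instances `Algebra ↥W (FF L N)`, `Algebra W[1/j] (integralClosure W[1/j] F)` are slow
/-- the same, conclusion in the elementwise form of `Core36.Loc36₂` / `RegDefs.Reg36₂` -/
theorem pi_mem_of_inv_mem'
    (𝔫 : Ideal (integralClosure (Algebra.adjoin ↥W {(jBC L N)⁻¹}) (FF L N))) (h𝔫 : 𝔫.IsMaximal)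
    (hj : ∀ r : integralClosure (Algebra.adjoin ↥W {(jBC L N)⁻¹}) (FF L N),
      (r : FF L N) = (jBC L N)⁻¹ → r ∈ 𝔫) (ϖ : W) (hϖ : ¬ IsUnit ϖ) :
    ∀ r : integralClosure (Algebra.adjoin ↥W {(jBC L N)⁻¹}) (FF L N),
      (r : FF L N) = algebraMap ↥W (FF L N) ϖ → r ∈ 𝔫 := by
  intro r hr
  have h := pi_mem_of_inv_mem W N 𝔫 h𝔫 hj ϖ hϖ
  have : r = algebraMap (Algebra.adjoin ↥W {(jBC L N)⁻¹})
      (integralClosure (Algebra.adjoin ↥W {(jBC L N)⁻¹}) (FF L N))
      (algebraMap ↥W (Algebra.adjoin ↥W {(jBC L N)⁻¹}) ϖ) := Subtype.ext hr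
  exact this ▸ h

set_option maxHeartbeats 1600000 in
set_option synthInstance.maxHeartbeats 400000 in
-- the instances `Algebra ↥W (FF L N)`, `Algebra W[1/j] (integralClosure W[1/j] F)` are slow
/-- **The cusps** of the chart `W[1/j]`: the maximal ideals of `B₂` containing `1/j`. -/
def cusps : Set (Ideal (integralClosure (Algebra.adjoin ↥W {(jBC L N)⁻¹}) (FF L N))) :=
  {𝔫 | 𝔫.IsMaximal ∧ ∀ r : integralClosure (Algebra.adjoin ↥W {(jBC L N)⁻¹}) (FF L N),
    (r : FF L N) = (jBC L N)⁻¹ → r ∈ 𝔫}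

set_option maxHeartbeats 1600000 in
set_option synthInstance.maxHeartbeats 400000 in
theorem mem_cusps_iff (𝔫 : Ideal (integralClosure (Algebra.adjoin ↥W {(jBC L N)⁻¹}) (FF L N))) :
    𝔫 ∈ cusps W N ↔ 𝔫.IsMaximal ∧
      ∀ r : integralClosure (Algebra.adjoin ↥W {(jBC L N)⁻¹}) (FF L N),
        (r : FF L N) = (jBC L N)⁻¹ → r ∈ 𝔫 := Iff.rfl

set_option maxHeartbeats 1600000 in
set_option synthInstance.maxHeartbeats 400000 in
theorem isMaximal_of_mem_cusps :
    ∀ 𝔫 ∈ cusps W N, 𝔫.IsMaximal := fun _ h => h.1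

set_option maxHeartbeats 1600000 in
set_option synthInstance.maxHeartbeats 400000 in
-- the instances `Algebra ↥W (FF L N)`, `Algebra W[1/j] (integralClosure W[1/j] F)` are slow
/-- every cusp contains every non-unit of `W` (element form, the `π` of `HLocLevel.hloc_inf`) -/
theorem pi_mem_of_mem_cusps (ϖ : W) (hϖ : ¬ IsUnit ϖ) :
    ∀ 𝔫 ∈ cusps W N, algebraMap (Algebra.adjoin ↥W {(jBC L N)⁻¹})
      (integralClosure (Algebra.adjoin ↥W {(jBC L N)⁻¹}) (FF L N))
      (algebraMap ↥W (Algebra.adjoin ↥W {(jBC L N)⁻¹}) ϖ) ∈ 𝔫 :=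
  fun 𝔫 h => pi_mem_of_inv_mem W N 𝔫 h.1 h.2 ϖ hϖ

set_option maxHeartbeats 1600000 in
set_option synthInstance.maxHeartbeats 400000 in
-- the instances `Algebra ↥W (FF L N)`, `Algebra W[1/j] (integralClosure W[1/j] F)` are slow
/-- **There are finitely many cusps.** -/
theorem finite_cusps [IsDiscreteValuationRing W] (ι : L →+* Qb) : (cusps W N).Finite := by
  have hj : Transcendental L (jBC L N) := Bridge.transcendental_j ι N
  haveI : CharZero L := algebraRat.charZero L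
  haveI : IsScalarTower ↥W L (FF L N) := IsScalarTower.of_algebraMap_eq (fun _ => rfl)
  haveI : FiniteDimensional (IntermediateField.adjoin L {jBC L N}) (FF L N) :=
    (Gauss.finrank_FF_le (L := L) (N := N)).1
  haveI := ChartRing.isNoetherianRing_inv (W := ↥W) (jBC L N) hj
  refine (finite_of_x_mem (W := ↥W) (jBC L N)⁻¹
    (B := ↥(integralClosure (Algebra.adjoin ↥W {(jBC L N)⁻¹}) (FF L N)))).subset ?_
  rintro 𝔫 ⟨h𝔫, hx⟩
  exact ⟨h𝔫, (inv_mem_iff W N 𝔫).mpr hx⟩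

set_option maxHeartbeats 1600000 in
set_option synthInstance.maxHeartbeats 400000 in
-- the instances `Algebra ↥W (FF L N)`, `Algebra W[1/j] (integralClosure W[1/j] F)` are slow
/-- **going up to a cusp** (the `hT` of `HUZar.HUS.of_HU`): a prime of `B₂` avoiding all the
elements `1 + (1/j) * c`, `c ∈ W[1/j]`, lies under a cusp. -/
theorem exists_cusp_ge (𝔮 : Ideal (integralClosure (Algebra.adjoin ↥W {(jBC L N)⁻¹}) (FF L N)))
    (hav : ∀ c : Algebra.adjoin ↥W {(jBC L N)⁻¹}, algebraMap (Algebra.adjoin ↥W {(jBC L N)⁻¹})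
      (integralClosure (Algebra.adjoin ↥W {(jBC L N)⁻¹}) (FF L N))
      (1 + xR (jBC L N)⁻¹ * c) ∉ 𝔮) :
    ∃ 𝔫 ∈ cusps W N, 𝔮 ≤ 𝔫 := by
  obtain ⟨𝔫, h𝔫, hx, hle⟩ := Fermat.Agent.S36.HUZar.exists_maximal_ge_of_avoid
    (xR (W := ↥W) (jBC L N)⁻¹)
    (Set.range fun c : Algebra.adjoin ↥W {(jBC L N)⁻¹} =>
      algebraMap (Algebra.adjoin ↥W {(jBC L N)⁻¹})
        (integralClosure (Algebra.adjoin ↥W {(jBC L N)⁻¹}) (FF L N)) (1 + xR (jBC L N)⁻¹ * c))
    (fun c => ⟨c, rfl⟩) 𝔮 (by rintro _ ⟨c, rfl⟩; exact hav c)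
  exact ⟨𝔫, ⟨h𝔫, (inv_mem_iff W N 𝔫).mp hx⟩, hle⟩

set_option maxHeartbeats 1600000 in
set_option synthInstance.maxHeartbeats 400000 in
-- the instances `Algebra ↥W (FF L N)`, `Algebra W[1/j] (integralClosure W[1/j] F)` are slow
/-- no element `1 + (1/j) * c` lies in a cusp (the `hT` of `HUZar.HUS.to_HU`) -/
theorem one_add_notMem_of_mem_cusps :
    ∀ 𝔫 ∈ cusps W N, ∀ c : Algebra.adjoin ↥W {(jBC L N)⁻¹},
      algebraMap (Algebra.adjoin ↥W {(jBC L N)⁻¹})
        (integralClosure (Algebra.adjoin ↥W {(jBC L N)⁻¹}) (FF L N))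
        (1 + xR (jBC L N)⁻¹ * c) ∉ 𝔫 :=
  fun 𝔫 h c => one_add_notMem (W := ↥W) (jBC L N)⁻¹ 𝔫 h.1.ne_top ((inv_mem_iff W N 𝔫).mpr h.2) c

end Level

end Fermat.Agent.S36.CuspT
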