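import Mathlib

/-!
# S36 (R-ss), (D-abs): the derivative of the equation of a node lies on exactly one branch

Abstract algebra, Mathlib only.  `R0 → R1` is the (local) extension at a node of level `M' q`
over a point of level `M'`, `X ∈ R1` a generator (`R1 = R0[X]`), `P ∈ R0[T]` monic of degree
`q + 1` with `P(X) = 0`, `ρ₁ : R1 → D₁` and `ρ₂ : R1 → D₂` the reductions to the two branches.

Hypotheses (all of them are statements about the special fibre):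

* `ρ₁ X = 0`                       (`X` vanishes on the first branch);
* `ρ₂ X` is irreducible in the integrally closed domain `D₂` of characteristic `q`
  (`X` is a uniformiser of the second branch) -- or, in the field form, `ρ₂ X` is not a
  `q`-th power;
* every `ρ₂ (algebraMap c)`, `c : R0`, is a `q`-th power (Kronecker: the second branch is
  purely inseparable over the base);
* `ρ₁ (algebraMap c) = 0 → ρ₂ (algebraMap c) = 0` (both branches lie over the same prime `(π)`).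

Conclusion: `d := P'(X)` satisfies `ρ₂ d = 0` and `ρ₁ d ≠ 0`.

Proof.  `P(0) ∈ ker ρ₁`, so `P^{ρ₂} = T * G` with `G` monic of degree `q`, `G(ρ₂ X) = 0`, and the
coefficients of `G` are `q`-th powers: `G = H^{Frob}`.  As `ρ₂ X` is not a `q`-th power,
`T ^ q - ρ₂ X` is irreducible, hence `H = T ^ q - ρ₂ X`, `G = T ^ q - (ρ₂ X) ^ q`, `G' = 0` and
`ρ₂ d = G(ρ₂ X) + ρ₂ X * G'(ρ₂ X) = 0`; `ρ₁ d = ρ₁ (G(0))` and `ρ₂ (G(0)) = -(ρ₂ X) ^ q ≠ 0`.
-/

set_option autoImplicit false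

namespace Fermat.Agent.S36.DerivBranchAbs

open Polynomial

section Field

variable {K : Type*} [Field K] (q : ℕ) [hq : Fact q.Prime] [CharP K q]

/-- A monic polynomial `H` of degree `q` over a field of characteristic `q` whose Frobenius twist
vanishes at an element `x` which is not a `q`-th power is `T ^ q - x`. -/
theorem eq_X_pow_sub_C_of_eval₂_frobenius (x : K) (hx : ∀ b : K, b ^ q ≠ x) (H : K[X])
    (hH : H.Monic) (hdeg : H.natDegree = q) (hroot : eval₂ (frobenius K q) x H = 0) :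
    H = X ^ q - C x := by
  have hirr : Irreducible (X ^ q - C x : K[X]) := X_pow_sub_C_irreducible_of_prime hq.out hx
  have hmonic : (X ^ q - C x : K[X]).Monic := monic_X_pow_sub_C x hq.out.ne_zero
  have hI : eval₂ (frobenius K q) x (X ^ q - C x : K[X]) = 0 := by
    rw [eval₂_sub, eval₂_pow, eval₂_X, eval₂_C, frobenius_def, sub_self]
  have hdvd : (X ^ q - C x : K[X]) ∣ H := by
    by_contra hnd
    obtain ⟨u, v, huv⟩ := (hirr.coprime_iff_not_dvd).mpr hnd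
    have h1 := congrArg (eval₂ (frobenius K q) x) huv
    rw [eval₂_add, eval₂_mul, eval₂_mul, hI, hroot, mul_zero, mul_zero, add_zero, eval₂_one]
      at h1
    exact zero_ne_one h1
  refine eq_of_monic_of_dvd_of_natDegree_le hmonic hH hdvd ?_
  rw [hdeg, natDegree_X_pow_sub_C]

/-- **(D-abs), field form.** -/
theorem deriv_branch_field {R0 R1 D₁ : Type*} [CommRing R0] [CommRing R1] [Algebra R0 R1]
    [CommRing D₁] (ρ₁ : R1 →+* D₁) (ρ₂ : R1 →+* K) (X : R1)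
    (h12 : ∀ c : R0, ρ₁ (algebraMap R0 R1 c) = 0 → ρ₂ (algebraMap R0 R1 c) = 0)
    (hX1 : ρ₁ X = 0) (hX2 : ∀ b : K, b ^ q ≠ ρ₂ X)
    (hK : ∀ c : R0, ∃ b : K, ρ₂ (algebraMap R0 R1 c) = b ^ q)
    (P : R0[X]) (hP : P.Monic) (hdeg : P.natDegree = q + 1) (hPX : aeval X P = 0) :
    ρ₂ (aeval X (derivative P)) = 0 ∧ ρ₁ (aeval X (derivative P)) ≠ 0 := by
  have hq0 : q ≠ 0 := hq.out.ne_zero
  obtain ⟨f₁, hf₁⟩ : ∃ f : R0 →+* D₁, ∀ c, f c = ρ₁ (algebraMap R0 R1 c) :=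
    ⟨ρ₁.comp (algebraMap R0 R1), fun _ => rfl⟩
  obtain ⟨f₂, hf₂⟩ : ∃ f : R0 →+* K, ∀ c, f c = ρ₂ (algebraMap R0 R1 c) :=
    ⟨ρ₂.comp (algebraMap R0 R1), fun _ => rfl⟩
  have hf₁c : f₁ = ρ₁.comp (algebraMap R0 R1) := RingHom.ext hf₁
  have hf₂c : f₂ = ρ₂.comp (algebraMap R0 R1) := RingHom.ext hf₂
  obtain ⟨x, hxdef⟩ : ∃ x : K, x = ρ₂ X := ⟨_, rfl⟩
  rw [← hxdef] at hX2
  have hx0 : x ≠ 0 := fun h => hX2 0 (by rw [zero_pow hq0, h])
  -- evaluation of the two reductions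
  have hev₁ : ∀ F : R0[X], ρ₁ (aeval X F) = f₁ (F.coeff 0) := fun F => by
    rw [aeval_def, hom_eval₂, hX1, eval₂_at_zero, hf₁c]
  have hev₂ : ∀ F : R0[X], ρ₂ (aeval X F) = eval x (F.map f₂) := fun F => by
    rw [aeval_def, hom_eval₂, eval_map, hf₂c, hxdef]
  -- the constant term dies on both branches
  have hc0 : f₂ (P.coeff 0) = 0 := by
    rw [hf₂]
    refine h12 _ ?_
    rw [← hf₁, ← hev₁ P, hPX, map_zero]
  -- `P^{ρ₂} = G * T`
  obtain ⟨Pb, hPb⟩ : ∃ Pb : K[X], Pb = P.map f₂ := ⟨_, rfl⟩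
  have hPbm : Pb.Monic := hPb ▸ hP.map f₂
  have hPbdeg : Pb.natDegree = q + 1 := by rw [hPb, hP.natDegree_map, hdeg]
  obtain ⟨G, hG⟩ : ∃ G : K[X], G = Pb.divX := ⟨_, rfl⟩
  have hPbG : Pb = G * Polynomial.X := by
    have h := divX_mul_X_add Pb
    have h0 : Pb.coeff 0 = 0 := by rw [hPb, coeff_map, hc0]
    rw [h0, map_zero, add_zero, ← hG] at h
    exact h.symm
  have hGdeg : G.natDegree = q := by
    rw [hG, natDegree_divX_eq_natDegree_tsub_one, hPbdeg, Nat.add_sub_cancel]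
  have hGm : G.Monic := by
    have h := hPbm
    rw [Monic, leadingCoeff, hPbdeg] at h
    rw [Monic, leadingCoeff, hGdeg, hG, coeff_divX]
    exact h
  have hGx : eval x G = 0 := by
    have h : eval x Pb = 0 := by rw [hPb, ← hev₂, hPX, map_zero]
    rw [hPbG, eval_mul, eval_X] at h
    exact (mul_eq_zero.mp h).resolve_right hx0
  -- `G` is a Frobenius twist
  have hlift : G ∈ lifts (frobenius K q) := by
    rw [lifts_iff_coeff_lifts]
    intro n
    obtain ⟨b, hb⟩ := hK (P.coeff (n + 1))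
    exact ⟨b, by rw [frobenius_def, hG, coeff_divX, hPb, coeff_map, ← hb, hf₂]⟩
  obtain ⟨H, hHG, hHdeg, hHm⟩ := lifts_and_natDegree_eq_and_monic hlift hGm
  have hHroot : eval₂ (frobenius K q) x H = 0 := by rw [← eval_map, hHG, hGx]
  have hH : H = Polynomial.X ^ q - C x :=
    eq_X_pow_sub_C_of_eval₂_frobenius q x hX2 H hHm (by rw [hHdeg, hGdeg]) hHroot
  have hGeq : G = Polynomial.X ^ q - C (x ^ q) := by
    rw [← hHG, hH, Polynomial.map_sub, Polynomial.map_pow, map_X, map_C, frobenius_def]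
  have hGder : derivative G = 0 := by
    rw [hGeq, derivative_sub, derivative_C, sub_zero, derivative_X_pow, CharP.cast_eq_zero K q,
      map_zero, zero_mul]
  refine ⟨?_, ?_⟩
  · rw [hev₂, ← derivative_map, ← hPb, hPbG, derivative_mul, hGder, zero_mul, zero_add,
      derivative_X, mul_one, hGx]
  · rw [hev₁, coeff_derivative]
    intro h0
    have h1 : f₁ (P.coeff 1) = 0 := by
      have : f₁ (P.coeff (0 + 1) * (((0 : ℕ) : R0) + 1)) = f₁ (P.coeff 1) := by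
        norm_num
      rw [← this]; exact h0
    have h2 : f₂ (P.coeff 1) = 0 := by
      rw [hf₂]; exact h12 _ (by rw [← hf₁]; exact h1)
    have h3 : f₂ (P.coeff 1) = G.coeff 0 := by rw [hG, coeff_divX, hPb, coeff_map]
    rw [h3, hGeq, coeff_sub, coeff_X_pow, coeff_C_zero, if_neg (Ne.symm hq0), zero_sub,
      neg_eq_zero] at h2
    exact hx0 ((pow_eq_zero_iff hq0).mp h2)

end Field

section Domain

variable {R0 R1 D₁ D₂ : Type*} [CommRing R0] [CommRing R1] [Algebra R0 R1] [CommRing D₁]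
  [CommRing D₂] [IsDomain D₂] [IsIntegrallyClosed D₂] (q : ℕ) [hq : Fact q.Prime] [CharP D₂ q]

omit [IsDomain D₂] [CharP D₂ q] in
/-- An irreducible element of an integrally closed domain is not a `q`-th power in its
fraction field (`q ≥ 2`). -/
theorem not_pow_of_irreducible (x : D₂) (hx : Irreducible x) (b : FractionRing D₂) :
    b ^ q ≠ algebraMap D₂ (FractionRing D₂) x := by
  intro hb
  have hq2 : 2 ≤ q := hq.out.two_le
  have hint : IsIntegral D₂ b := by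
    refine ⟨Polynomial.X ^ q - C x, monic_X_pow_sub_C x hq.out.ne_zero, ?_⟩
    rw [eval₂_sub, eval₂_pow, eval₂_X, eval₂_C, hb, sub_self]
  obtain ⟨y, rfl⟩ := (IsIntegrallyClosed.isIntegral_iff (R := D₂) (K := FractionRing D₂)).mp hint
  have hy : y ^ q = x := by
    apply IsFractionRing.injective D₂ (FractionRing D₂)
    rw [map_pow, hb]
  have hy' : x = y * y ^ (q - 1) := by
    rw [← hy, ← pow_succ', Nat.sub_add_cancel (by omega)]
  rcases hx.isUnit_or_isUnit hy' with hu | hu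
  · exact hx.not_isUnit (hy ▸ hu.pow q)
  · have : IsUnit y := (isUnit_pow_iff (by omega)).mp hu
    exact hx.not_isUnit (hy ▸ this.pow q)

/-- **(D-abs).**  At a node `R1 = R0[X]` with `P(X) = 0`, `P` monic of degree `q + 1`: if `X`
vanishes on the first branch and is a uniformiser of the second branch `D₂` (an integrally closed
domain of characteristic `q`, e.g. a discrete valuation ring), on which the base acts through
`q`-th powers, then `P'(X)` vanishes on the second branch and not on the first. -/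
theorem deriv_branch (ρ₁ : R1 →+* D₁) (ρ₂ : R1 →+* D₂) (X : R1)
    (h12 : ∀ c : R0, ρ₁ (algebraMap R0 R1 c) = 0 → ρ₂ (algebraMap R0 R1 c) = 0)
    (hX1 : ρ₁ X = 0) (hX2 : Irreducible (ρ₂ X))
    (hK : ∀ c : R0, ∃ b : D₂, ρ₂ (algebraMap R0 R1 c) = b ^ q)
    (P : R0[X]) (hP : P.Monic) (hdeg : P.natDegree = q + 1) (hPX : aeval X P = 0) :
    ρ₂ (aeval X (derivative P)) = 0 ∧ ρ₁ (aeval X (derivative P)) ≠ 0 := by
  have : CharP (FractionRing D₂) q :=
    charP_of_injective_algebraMap (IsFractionRing.injective D₂ (FractionRing D₂)) q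
  have key := deriv_branch_field (K := FractionRing D₂) q ρ₁
    ((algebraMap D₂ (FractionRing D₂)).comp ρ₂) X
    (fun c hc => by rw [RingHom.comp_apply, h12 c hc, map_zero]) hX1
    (fun b => by rw [RingHom.comp_apply]; exact not_pow_of_irreducible q (ρ₂ X) hX2 b)
    (fun c => by
      obtain ⟨b, hb⟩ := hK c
      exact ⟨algebraMap D₂ (FractionRing D₂) b, by rw [RingHom.comp_apply, hb, map_pow]⟩)
    P hP hdeg hPX
  refine ⟨?_, key.2⟩
  have h := key.1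
  rw [RingHom.comp_apply] at h
  exact (IsFractionRing.injective D₂ (FractionRing D₂)) (by rw [h, map_zero])

/-- **(D-abs), `π`-form**: the hypothesis `h12` from `ker (ρ₁ ∘ algebraMap) = (π)` and
`ρ₂ π = 0`. -/
theorem deriv_branch_of_dvd (ρ₁ : R1 →+* D₁) (ρ₂ : R1 →+* D₂) (π : R0) (X : R1)
    (hπ2 : ρ₂ (algebraMap R0 R1 π) = 0)
    (h1 : ∀ c : R0, ρ₁ (algebraMap R0 R1 c) = 0 → π ∣ c)
    (hX1 : ρ₁ X = 0) (hX2 : Irreducible (ρ₂ X))
    (hK : ∀ c : R0, ∃ b : D₂, ρ₂ (algebraMap R0 R1 c) = b ^ q)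
    (P : R0[X]) (hP : P.Monic) (hdeg : P.natDegree = q + 1) (hPX : aeval X P = 0) :
    ρ₂ (aeval X (derivative P)) = 0 ∧ ρ₁ (aeval X (derivative P)) ≠ 0 :=
  deriv_branch q ρ₁ ρ₂ X
    (fun c hc => by
      obtain ⟨e, rfl⟩ := h1 c hc
      rw [map_mul, map_mul, hπ2, zero_mul])
    hX1 hX2 hK P hP hdeg hPX

end Domain

section Ideal

variable {R0 R1 : Type*} [CommRing R0] [CommRing R1] [Algebra R0 R1] (q : ℕ) [hq : Fact q.Prime]

/-- **(D-abs), ideal form.**  `𝔭₁ 𝔭₂` the two branches (ideals of `R1`), `R1 ⧸ 𝔭₂` an integrally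
closed domain of characteristic `q` (e.g. a discrete valuation ring) in which `X` is irreducible,
`X ∈ 𝔭₁`, `𝔭₁ ∩ R0 ⊆ (ϖ)`, `ϖ ∈ 𝔭₂`, the base acts on `R1 ⧸ 𝔭₂` through `q`-th powers: for `P`
monic of degree `q + 1` with `P(X) = 0`, `P'(X) ∈ 𝔭₂` and `P'(X) ∉ 𝔭₁`. -/
theorem deriv_branch_ideal (𝔭₁ 𝔭₂ : Ideal R1) [𝔭₂.IsPrime] [IsIntegrallyClosed (R1 ⧸ 𝔭₂)]
    [CharP (R1 ⧸ 𝔭₂) q] (ϖ : R0) (X : R1)
    (hϖ2 : algebraMap R0 R1 ϖ ∈ 𝔭₂)
    (h1 : ∀ c : R0, algebraMap R0 R1 c ∈ 𝔭₁ → ϖ ∣ c)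
    (hX1 : X ∈ 𝔭₁) (hX2 : Irreducible (Ideal.Quotient.mk 𝔭₂ X))
    (hK : ∀ c : R0, ∃ b : R1, algebraMap R0 R1 c - b ^ q ∈ 𝔭₂)
    (P : R0[X]) (hP : P.Monic) (hdeg : P.natDegree = q + 1) (hPX : aeval X P = 0) :
    aeval X (derivative P) ∈ 𝔭₂ ∧ aeval X (derivative P) ∉ 𝔭₁ := by
  have key := deriv_branch_of_dvd q (Ideal.Quotient.mk 𝔭₁) (Ideal.Quotient.mk 𝔭₂) ϖ X
    (Ideal.Quotient.eq_zero_iff_mem.mpr hϖ2)
    (fun c hc => h1 c (Ideal.Quotient.eq_zero_iff_mem.mp hc))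
    (Ideal.Quotient.eq_zero_iff_mem.mpr hX1) hX2
    (fun c => by
      obtain ⟨b, hb⟩ := hK c
      refine ⟨Ideal.Quotient.mk 𝔭₂ b, ?_⟩
      rw [← map_pow]
      exact Ideal.Quotient.eq.mpr hb)
    P hP hdeg hPX
  exact ⟨Ideal.Quotient.eq_zero_iff_mem.mp key.1,
    fun h => key.2 (Ideal.Quotient.eq_zero_iff_mem.mpr h)⟩

/-- **(D-abs), `minpoly` form** (the shape consumed by the node assembly). -/
theorem deriv_branch_minpoly (𝔭₁ 𝔭₂ : Ideal R1) [𝔭₂.IsPrime] [IsIntegrallyClosed (R1 ⧸ 𝔭₂)]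
    [CharP (R1 ⧸ 𝔭₂) q] (ϖ : R0) (X : R1)
    (hϖ2 : algebraMap R0 R1 ϖ ∈ 𝔭₂)
    (h1 : ∀ c : R0, algebraMap R0 R1 c ∈ 𝔭₁ → ϖ ∣ c)
    (hX1 : X ∈ 𝔭₁) (hX2 : Irreducible (Ideal.Quotient.mk 𝔭₂ X))
    (hK : ∀ c : R0, ∃ b : R1, algebraMap R0 R1 c - b ^ q ∈ 𝔭₂)
    (hXint : IsIntegral R0 X) (hdeg : (minpoly R0 X).natDegree = q + 1) :
    aeval X (derivative (minpoly R0 X)) ∈ 𝔭₂ ∧ aeval X (derivative (minpoly R0 X)) ∉ 𝔭₁ :=
  deriv_branch_ideal q 𝔭₁ 𝔭₂ ϖ X hϖ2 h1 hX1 hX2 hK (minpoly R0 X) (minpoly.monic hXint) hdeg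
    (minpoly.aeval R0 X)

/-- The instance needed above is automatic for a discrete valuation ring. -/
example (𝔭₂ : Ideal R1) [𝔭₂.IsPrime] [IsDiscreteValuationRing (R1 ⧸ 𝔭₂)] :
    IsIntegrallyClosed (R1 ⧸ 𝔭₂) := inferInstance

end Ideal

end Fermat.Agent.S36.DerivBranchAbs
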