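import Mathlib

/-!
# S36 (A2): descent of linear relations from `ℤ_[p]` to a characteristic-zero field

If every `ℤ_[p]`-vector killed by all the matrices `A i` is killed by `B`, then the same
holds for vectors with entries in any characteristic-zero field `K` receiving `ℤ_[p]`
(`K` is torsion-free, hence the `ℤ_[p]`-span of the entries of the vector is free).
-/

namespace Fermat.Agent.S36.Descent

open Matrix

/-- A ring homomorphism from `ℤ_[p]` to a field of characteristic zero is injective. -/
theorem padicInt_ringHom_injective {p : ℕ} [Fact p.Prime] {K : Type*} [Field K] [CharZero K]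
    (f : ℤ_[p] →+* K) : Function.Injective f := by
  rw [injective_iff_map_eq_zero]
  intro x hx
  by_contra hne
  have hspec := PadicInt.unitCoeff_spec hne
  rw [hspec, map_mul, map_pow, map_natCast] at hx
  have hu : f (PadicInt.unitCoeff hne : ℤ_[p]) ≠ 0 :=
    ((PadicInt.unitCoeff hne).isUnit.map f).ne_zero
  have hp : ((p : ℕ) : K) ≠ 0 := Nat.cast_ne_zero.2 (Fact.out : p.Prime).ne_zero
  exact mul_ne_zero hu (pow_ne_zero _ hp) hx

theorem mulVec_map_eq_zero_of_forall {p : ℕ} [Fact p.Prime] {K : Type*} [Field K] [CharZero K]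
    (f : ℤ_[p] →+* K) {r : ℕ} {ι : Type*} (A : ι → Matrix (Fin r) (Fin r) ℤ_[p])
    (B : Matrix (Fin r) (Fin r) ℤ_[p])
    (h : ∀ y : Fin r → ℤ_[p], (∀ i, A i *ᵥ y = 0) → B *ᵥ y = 0)
    (w : Fin r → K) (hw : ∀ i, (A i).map f *ᵥ w = 0) : B.map f *ᵥ w = 0 := by
  classical
  have hf := padicInt_ringHom_injective f
  let _ : Algebra ℤ_[p] K := f.toAlgebra
  have hsmul : ∀ (a : ℤ_[p]) (k : K), a • k = f a * k := fun a k => rfl
  have : Module.IsTorsionFree ℤ_[p] K := by
    refine Module.IsTorsionFree.of_smul_eq_zero ?_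
    intro a k hak
    rw [hsmul] at hak
    rcases mul_eq_zero.1 hak with h1 | h1
    · left
      exact hf (by rw [h1, map_zero])
    · right
      exact h1
  let Y : Submodule ℤ_[p] K := Submodule.span ℤ_[p] (Set.range w)
  have : Module.Finite ℤ_[p] Y := Module.Finite.span_of_finite _ (Set.finite_range w)
  have : Module.Free ℤ_[p] Y := Module.free_of_finite_type_torsion_free'
  let b := Module.Free.chooseBasis ℤ_[p] Y
  have hwY : ∀ i, w i ∈ Y := fun i => Submodule.subset_span ⟨i, rfl⟩
  let c : Module.Free.ChooseBasisIndex ℤ_[p] Y → Fin r → ℤ_[p] :=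
    fun j i => b.repr ⟨w i, hwY i⟩ j
  have hwc : ∀ i, w i = ∑ j, f (c j i) * (b j : K) := by
    intro i
    have h1 := b.sum_repr ⟨w i, hwY i⟩
    have h2 := congrArg (Subtype.val : Y → K) h1
    rw [AddSubmonoidClass.coe_finsetSum] at h2
    exact h2.symm
  have key : ∀ (M : Matrix (Fin r) (Fin r) ℤ_[p]) (i : Fin r),
      (M.map f *ᵥ w) i = ∑ j, f ((M *ᵥ c j) i) * (b j : K) := by
    intro M i
    simp only [Matrix.mulVec, dotProduct, Matrix.map_apply]
    calc ∑ x, f (M i x) * w x
        = ∑ x, ∑ j, f (M i x * c j x) * (b j : K) := by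
          refine Finset.sum_congr rfl fun x _ => ?_
          rw [hwc x, Finset.mul_sum]
          refine Finset.sum_congr rfl fun j _ => ?_
          rw [map_mul, mul_assoc]
      _ = ∑ j, ∑ x, f (M i x * c j x) * (b j : K) := Finset.sum_comm
      _ = ∑ j, f (∑ x, M i x * c j x) * (b j : K) := by
          refine Finset.sum_congr rfl fun j _ => ?_
          rw [map_sum, Finset.sum_mul]
  have li : ∀ a : Module.Free.ChooseBasisIndex ℤ_[p] Y → ℤ_[p],
      ∑ j, f (a j) * (b j : K) = 0 → ∀ j, a j = 0 := by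
    intro a ha
    have h1 : ∑ j, a j • b j = 0 := by
      apply Subtype.ext
      rw [AddSubmonoidClass.coe_finsetSum]
      exact ha
    exact Fintype.linearIndependent_iff.1 b.linearIndependent a h1
  have hA : ∀ j i, A i *ᵥ c j = 0 := by
    intro j i
    funext i'
    have h1 := congrFun (hw i) i'
    rw [key (A i) i'] at h1
    exact li (fun j => (A i *ᵥ c j) i') h1 j
  have hB : ∀ j, B *ᵥ c j = 0 := fun j => h (c j) (hA j)
  funext i
  rw [key B i]
  simp [hB]

end Fermat.Agent.S36.Descent
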