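/-
S36 (wave 8), package K7 of the ledger: **the local Kummer datum of `ecoreL f` at a level, from
the chain and the factorisation** (`HLocAbs.hloc_of_chain` on the literal carriers of
`Core36.Loc36₁`, `Core36.Loc36₂`).

Level `(L, W)` (`W` a discrete valuation subring of `L`, uniformiser `π`), `F = FF L (N * q)`,
`j = jBC L (N * q)`; chart rings `B₁ = integralClosure W[j] F`, `B₂ = integralClosure W[1/j] F`.

* `hloc_fin` : for a prime `𝔫` of `B₁` and a set `S` of primes of `B₁`, from
  - `hchain` : `HU … S u → HU … {𝔫} (E36 u)`   (`HUChain.exists_chain` + `ChartHom`),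
  - `hfact`  : `∃ G ≠ 0, HU … S (f / G ^ m)`     (`HFact` + (REG36₁) + `HorizOrd`),
  - `hG`     : `GaussOne π j (ecoreL y)` for all `y ≠ 0`   (`Core36.Gauss36`),
  the conclusion of `Core36.Loc36₁` (with `e = 1`):
  `∃ g, GaussOne π j g ∧ ∃ d ∉ 𝔫, IsIntegral W[j] (d * (ecoreL (f ^ 1) * g ^ m))`.
* `hloc_inf` : the same on `B₂` (`HUZar` + `CuspPair`; (REG36₂)).

Here `HU` is `HUnit.HU B.val.toRingHom (algebraMap W[x₀] B (algebraMap W W[x₀] π))`.
-/
import Mathlib
import Fermat.Agent.S36.HLocAbs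
import Fermat.Agent.S36.GaussInt
import Fermat.Agent.S36.Core36

set_option autoImplicit false
set_option linter.unusedSectionVars false
set_option linter.style.haveILetI false

noncomputable section

namespace Fermat.Agent.S36.HLocLevel

open ModularCurve Fermat.Agent.S36.HUnit Fermat.Agent.S36.ConstPow Fermat.Agent.S36.Core36
  Fermat.Agent.S34.KummerStep

local notation "Qb" => AlgebraicClosure ℚ

variable {L : Type} [Field L] [Algebra ℚ L] (ι : L →+* Qb) (W : ValuationSubring L)
  [IsDiscreteValuationRing W] (N q : ℕ) [NeZero N] [NeZero q]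

set_option maxHeartbeats 1600000 in
set_option synthInstance.maxHeartbeats 400000 in
-- the instance `Algebra ↥W (FF L N)` is found slowly
include ι in
/-- **The local datum on the finite chart, from the chain and the factorisation.** -/
theorem hloc_fin {π : W} (hπ : Irreducible π)
    (𝔫 : Ideal (integralClosure (Algebra.adjoin ↥W {S24.jBC L (N * q)}) (S24.FF L (N * q))))
    [𝔫.IsPrime]
    (S : Set (Ideal (integralClosure (Algebra.adjoin ↥W {S24.jBC L (N * q)})
      (S24.FF L (N * q)))))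
    (hchain : ∀ u : S24.FF L (N * q),
      HU (integralClosure (Algebra.adjoin ↥W {S24.jBC L (N * q)})
          (S24.FF L (N * q))).val.toRingHom
        (algebraMap (Algebra.adjoin ↥W {S24.jBC L (N * q)})
          (integralClosure (Algebra.adjoin ↥W {S24.jBC L (N * q)}) (S24.FF L (N * q)))
          (algebraMap ↥W (Algebra.adjoin ↥W {S24.jBC L (N * q)}) π)) S u →
      HU (integralClosure (Algebra.adjoin ↥W {S24.jBC L (N * q)})
          (S24.FF L (N * q))).val.toRingHom
        (algebraMap (Algebra.adjoin ↥W {S24.jBC L (N * q)})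
          (integralClosure (Algebra.adjoin ↥W {S24.jBC L (N * q)}) (S24.FF L (N * q)))
          (algebraMap ↥W (Algebra.adjoin ↥W {S24.jBC L (N * q)}) π))
        ({𝔫} : Set (Ideal (integralClosure (Algebra.adjoin ↥W {S24.jBC L (N * q)})
          (S24.FF L (N * q)))))
        (E36 (heckeAlphaBar L N q) (heckeBetaBar L N q) q u))
    (m : ℕ) (f : S24.FF L (N * q)) (hf : f ≠ 0)
    (hfact : ∃ G : S24.FF L (N * q), G ≠ 0 ∧
      HU (integralClosure (Algebra.adjoin ↥W {S24.jBC L (N * q)})
          (S24.FF L (N * q))).val.toRingHom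
        (algebraMap (Algebra.adjoin ↥W {S24.jBC L (N * q)})
          (integralClosure (Algebra.adjoin ↥W {S24.jBC L (N * q)}) (S24.FF L (N * q)))
          (algebraMap ↥W (Algebra.adjoin ↥W {S24.jBC L (N * q)}) π)) S (f / G ^ m))
    (hG : ∀ y : S24.FF L (N * q), y ≠ 0 →
      GaussOne π (S24.jBC L (N * q)) (ecoreL L N q y)) :
    ∃ g : S24.FF L (N * q), GaussOne π (S24.jBC L (N * q)) g ∧
      ∃ d : integralClosure (Algebra.adjoin ↥W {S24.jBC L (N * q)}) (S24.FF L (N * q)),
        d ∉ 𝔫 ∧ IsIntegral (Algebra.adjoin ↥W {S24.jBC L (N * q)})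
          ((d : S24.FF L (N * q)) * (ecoreL L N q (f ^ 1) * g ^ m)) := by
  haveI := GaussInt.isIntegrallyClosed_fin ι W (N * q)
  rw [pow_one]
  exact HLocAbs.hloc_of_chain (heckeAlphaBar L N q) (heckeBetaBar L N q) q
    (R := ↥(Algebra.adjoin ↥W {S24.jBC L (N * q)})) Subtype.val_injective
    (GaussInt.prime_fin ι W (N * q) hπ) 𝔫 S hchain m f hfact
    (GaussOne π (S24.jBC L (N * q))) hG
    (fun x hx => GaussInt.gaussOne_int_fin ι W (N * q) hπ hx) hf

set_option maxHeartbeats 1600000 in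
set_option synthInstance.maxHeartbeats 400000 in
-- the instance `Algebra ↥W (FF L N)` is found slowly
include ι in
/-- **The local datum on the chart at infinity, from the chain and the factorisation.** -/
theorem hloc_inf {π : W} (hπ : Irreducible π)
    (𝔫 : Ideal (integralClosure (Algebra.adjoin ↥W {(S24.jBC L (N * q))⁻¹})
      (S24.FF L (N * q)))) [𝔫.IsPrime]
    (S : Set (Ideal (integralClosure (Algebra.adjoin ↥W {(S24.jBC L (N * q))⁻¹})
      (S24.FF L (N * q)))))
    (hchain : ∀ u : S24.FF L (N * q),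
      HU (integralClosure (Algebra.adjoin ↥W {(S24.jBC L (N * q))⁻¹})
          (S24.FF L (N * q))).val.toRingHom
        (algebraMap (Algebra.adjoin ↥W {(S24.jBC L (N * q))⁻¹})
          (integralClosure (Algebra.adjoin ↥W {(S24.jBC L (N * q))⁻¹}) (S24.FF L (N * q)))
          (algebraMap ↥W (Algebra.adjoin ↥W {(S24.jBC L (N * q))⁻¹}) π)) S u →
      HU (integralClosure (Algebra.adjoin ↥W {(S24.jBC L (N * q))⁻¹})
          (S24.FF L (N * q))).val.toRingHom
        (algebraMap (Algebra.adjoin ↥W {(S24.jBC L (N * q))⁻¹})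
          (integralClosure (Algebra.adjoin ↥W {(S24.jBC L (N * q))⁻¹}) (S24.FF L (N * q)))
          (algebraMap ↥W (Algebra.adjoin ↥W {(S24.jBC L (N * q))⁻¹}) π))
        ({𝔫} : Set (Ideal (integralClosure (Algebra.adjoin ↥W {(S24.jBC L (N * q))⁻¹})
          (S24.FF L (N * q)))))
        (E36 (heckeAlphaBar L N q) (heckeBetaBar L N q) q u))
    (m : ℕ) (f : S24.FF L (N * q)) (hf : f ≠ 0)
    (hfact : ∃ G : S24.FF L (N * q), G ≠ 0 ∧
      HU (integralClosure (Algebra.adjoin ↥W {(S24.jBC L (N * q))⁻¹})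
          (S24.FF L (N * q))).val.toRingHom
        (algebraMap (Algebra.adjoin ↥W {(S24.jBC L (N * q))⁻¹})
          (integralClosure (Algebra.adjoin ↥W {(S24.jBC L (N * q))⁻¹}) (S24.FF L (N * q)))
          (algebraMap ↥W (Algebra.adjoin ↥W {(S24.jBC L (N * q))⁻¹}) π)) S (f / G ^ m))
    (hG : ∀ y : S24.FF L (N * q), y ≠ 0 →
      GaussOne π (S24.jBC L (N * q)) (ecoreL L N q y)) :
    ∃ g : S24.FF L (N * q), GaussOne π (S24.jBC L (N * q)) g ∧
      ∃ d : integralClosure (Algebra.adjoin ↥W {(S24.jBC L (N * q))⁻¹}) (S24.FF L (N * q)),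
        d ∉ 𝔫 ∧ IsIntegral (Algebra.adjoin ↥W {(S24.jBC L (N * q))⁻¹})
          ((d : S24.FF L (N * q)) * (ecoreL L N q (f ^ 1) * g ^ m)) := by
  haveI := GaussInt.isIntegrallyClosed_inf ι W (N * q)
  rw [pow_one]
  exact HLocAbs.hloc_of_chain (heckeAlphaBar L N q) (heckeBetaBar L N q) q
    (R := ↥(Algebra.adjoin ↥W {(S24.jBC L (N * q))⁻¹})) Subtype.val_injective
    (GaussInt.prime_inf ι W (N * q) hπ) 𝔫 S hchain m f hfact
    (GaussOne π (S24.jBC L (N * q))) hG
    (fun x hx => GaussInt.gaussOne_int_inf ι W (N * q) hπ hx) hf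

end Fermat.Agent.S36.HLocLevel
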