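import Mathlib

/-!
# S36 (HLOC): gluing of branch roots at a multi-branch point — the Nakayama lift

`exists_algebraMap_eq_of_pow_eq` : `R` a local ring, `S` an integral `R`-algebra (in the
application `R = B_𝔫 / q` and `S = ∏_v B_𝔫 / 𝔮_v`, the product over the branches through the closed
point `𝔫`), `m` invertible in `R`, `x ∈ S` with `x ^ m = c ∈ R`, and `ρ ∈ Rˣ` with `x - ρ` in the
Jacobson radical of `S` (all branch values of `x` at the closed point agree with `ρ`).  Then `x`
comes from `R`.

No transversality of the branches is needed: the equation `T ^ m = c` is étale, so the agreement of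
the values at the closed point forces all higher order gluing conditions.
-/

set_option autoImplicit false

namespace Fermat.Agent.S36.HlocGlue

open Finset

/-- A unit plus an element of the Jacobson radical is a unit. -/
theorem isUnit_add_of_mem_jacobson_bot {S : Type*} [CommRing S] {a j : S} (ha : IsUnit a)
    (hj : j ∈ Ideal.jacobson (⊥ : Ideal S)) : IsUnit (a + j) := by
  obtain ⟨u, rfl⟩ := ha
  have h1 : IsUnit (j * (↑u⁻¹ : S) + 1) := Ideal.mem_jacobson_bot.mp hj _
  have h2 : (u : S) + j = (u : S) * (j * (↑u⁻¹ : S) + 1) := by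
    have : (u : S) * (↑u⁻¹ : S) = 1 := u.mul_inv
    linear_combination (-j) * this
  rw [h2]
  exact u.isUnit.mul h1

/-- **The Nakayama lift.**  An `m`-th root `x` (in an integral extension `S` of the local ring
`R`) of an element `c` of `R`, `m` invertible, which is congruent to a unit `ρ` of `R` modulo the
Jacobson radical of `S`, lies in (the image of) `R`. -/
theorem exists_algebraMap_eq_of_pow_eq {R S : Type*} [CommRing R] [IsLocalRing R] [CommRing S]
    [Algebra R S] [Algebra.IsIntegral R S] (m : ℕ) (hm : IsUnit (m : R)) (c ρ : R)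
    (hρ : IsUnit ρ) (x : S) (hx : x ^ m = algebraMap R S c)
    (hxρ : x - algebraMap R S ρ ∈ Ideal.jacobson (⊥ : Ideal S)) :
    ∃ r : R, algebraMap R S r = x := by
  classical
  rcases subsingleton_or_nontrivial S with hS | hS
  · exact ⟨0, Subsingleton.elim _ _⟩
  set J : Ideal S := Ideal.jacobson (⊥ : Ideal S) with hJ
  have hJtop : J ≠ ⊤ := by
    rw [hJ, Ne, Ideal.jacobson_eq_top_iff]
    exact bot_ne_top
  set y : S := x - algebraMap R S ρ with hy
  set μ : R := c - ρ ^ m with hμ
  -- the cofactor
  set h : S := ∑ i ∈ range m, x ^ i * algebraMap R S ρ ^ (m - 1 - i) with hh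
  have hyh : h * y = algebraMap R S μ := by
    rw [hh, hy, Commute.geom_sum₂_mul (Commute.all _ _), hx, hμ, map_sub, map_pow]
  -- `μ` lies in the maximal ideal
  have hμm : μ ∈ IsLocalRing.maximalIdeal R := by
    by_contra hcon
    have hu : IsUnit μ := by
      by_contra h'
      exact hcon ((IsLocalRing.mem_maximalIdeal μ).mpr h')
    have hmem : algebraMap R S μ ∈ J := by
      rw [← hyh]
      exact J.mul_mem_left _ hxρ
    exact hJtop (Ideal.eq_top_of_isUnit_mem _ hmem (hu.map _))
  -- `h` is a unit of `S`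
  have hhJ : h - algebraMap R S ((m : R) * ρ ^ (m - 1)) ∈ J := by
    have h1 : algebraMap R S ((m : R) * ρ ^ (m - 1)) =
        ∑ i ∈ range m, algebraMap R S ρ ^ i * algebraMap R S ρ ^ (m - 1 - i) := by
      rw [Finset.sum_congr rfl (fun i hi => by
        rw [← pow_add, show i + (m - 1 - i) = m - 1 by
          have := Finset.mem_range.mp hi; omega])]
      rw [Finset.sum_const, Finset.card_range, nsmul_eq_mul, map_mul, map_natCast, map_pow]
    rw [h1, hh, ← Finset.sum_sub_distrib]
    refine J.sum_mem fun i _ => ?_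
    rw [← sub_mul]
    refine J.mul_mem_right _ ?_
    obtain ⟨d, hd⟩ := sub_dvd_pow_sub_pow x (algebraMap R S ρ) i
    rw [hd]
    exact J.mul_mem_right _ hxρ
  have hhu : IsUnit h := by
    have h0 : IsUnit (algebraMap R S ((m : R) * ρ ^ (m - 1))) :=
      (hm.mul (hρ.pow _)).map _
    have := isUnit_add_of_mem_jacobson_bot h0 hhJ
    rwa [add_sub_cancel] at this
  -- the subalgebra generated by `x`
  set S' : Subalgebra R S := Algebra.adjoin R {x} with hS'
  have hxS' : x ∈ S' := Algebra.subset_adjoin (Set.mem_singleton x)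
  have hyS' : y ∈ S' := S'.sub_mem hxS' (S'.algebraMap_mem ρ)
  have hhS' : h ∈ S' :=
    S'.sum_mem fun i _ => S'.mul_mem (S'.pow_mem hxS' i) (S'.pow_mem (S'.algebraMap_mem ρ) _)
  -- units descend along the integral extension `S' ⊆ S`
  have hint : (S'.val : S' →+* S).IsIntegral := by
    intro s
    have hs : IsIntegral R s := Algebra.IsIntegral.isIntegral s
    exact hs.tower_top (A := S')
  have hloc : IsLocalHom (S'.val : S' →+* S) := hint.isLocalHom Subtype.val_injective
  have hhu' : IsUnit (⟨h, hhS'⟩ : S') := hloc.map_nonunit _ hhu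
  obtain ⟨k, hk⟩ := hhu'.exists_left_inv
  have hk' : (k : S) * h = 1 := congrArg Subtype.val hk
  -- `y * t = μ • (k * t)`
  have hyt : ∀ t : S, y * t = μ • ((k : S) * t) := by
    intro t
    rw [Algebra.smul_def, ← hyh]
    linear_combination (-(y * t)) * hk'
  -- Nakayama
  have hfg : (Subalgebra.toSubmodule S').FG :=
    (Algebra.IsIntegral.isIntegral (R := R) x).fg_adjoin_singleton
  have hle : Subalgebra.toSubmodule S' ≤
      (1 : Submodule R S) ⊔ IsLocalRing.maximalIdeal R • Subalgebra.toSubmodule S' := by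
    have key : ∀ s ∈ S', ∃ r : R, ∃ t ∈ S', s = algebraMap R S r + y * t := by
      intro s hs
      induction hs using Algebra.adjoin_induction with
      | mem z hz =>
        rw [Set.mem_singleton_iff] at hz
        exact ⟨ρ, 1, S'.one_mem, by rw [hz, hy]; ring⟩
      | algebraMap r => exact ⟨r, 0, S'.zero_mem, by ring⟩
      | add a b _ _ ha hb =>
        obtain ⟨r₁, t₁, ht₁, rfl⟩ := ha
        obtain ⟨r₂, t₂, ht₂, rfl⟩ := hb
        exact ⟨r₁ + r₂, t₁ + t₂, S'.add_mem ht₁ ht₂, by rw [map_add]; ring⟩
      | mul a b _ _ ha hb =>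
        obtain ⟨r₁, t₁, ht₁, rfl⟩ := ha
        obtain ⟨r₂, t₂, ht₂, rfl⟩ := hb
        refine ⟨r₁ * r₂, algebraMap R S r₁ * t₂ + algebraMap R S r₂ * t₁ + y * t₁ * t₂, ?_, ?_⟩
        · exact S'.add_mem (S'.add_mem (S'.mul_mem (S'.algebraMap_mem _) ht₂)
            (S'.mul_mem (S'.algebraMap_mem _) ht₁)) (S'.mul_mem (S'.mul_mem hyS' ht₁) ht₂)
        · rw [map_mul]; ring
    intro s hs
    obtain ⟨r, t, ht, rfl⟩ := key s hs
    refine Submodule.add_mem_sup ?_ ?_
    · rw [Submodule.mem_one]
      exact ⟨r, rfl⟩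
    · rw [hyt t]
      exact Submodule.smul_mem_smul hμm (S'.mul_mem k.2 ht)
  have hNak := Submodule.le_of_le_smul_of_le_jacobson_bot hfg
    (IsLocalRing.jacobson_eq_maximalIdeal (⊥ : Ideal R) bot_ne_top).ge hle
  have := hNak hxS'
  rw [Submodule.mem_one] at this
  exact this

end Fermat.Agent.S36.HlocGlue
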