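import Mathlib
import Fermat.Agent.S36.HlocGlue

/-!
# S36 (HLOC): the local root at a point of the special fibre, all branches at once

Multiplier currency, no fraction field, no localisation: `R` is the local ring `B_𝔫` of a chart at
a closed point of the special fibre, `π` the uniformiser of the base, `𝔭 i` the vertical primes
through `𝔫` (the branches), and a function `G` is given as a fraction `a / d'` with `d'` outside
all branches.

`exists_unit_congr` : if `u * G ^ m ≡ 1` modulo `π` (`u` a unit of `R`, `m` invertible), and the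
branch residues `b i` of `G` (`a ≡ b i * d'` modulo `𝔭 i`) all have the same value `ρ` at the
closed point (trivial value cocycle), then there is a unit `γ` of `R` with `u * γ ^ m ≡ 1` modulo
`π` and `G ≡ γ` modulo `π` at every branch — in multiplier form `π ∣ d * (a - γ * d')` with `d`
outside all branches.  Multiplicities `e > 1` of the branches (non-reduced special fibre) are
allowed: the only hypothesis on `π` is `⋂ 𝔭 i ⊆ rad (π)`.

`exists_branch_rep` : the branch residue `b` exists when `R ⧸ 𝔭` is integrally closed.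

`exists_unit_congr_of_single` : one branch, integrally closed: no value condition at all.
-/

set_option autoImplicit false

namespace Fermat.Agent.S36.HlocBranch

open Polynomial Finset

/-- Branch representatives from normality of the branch: if `u * (a/d') ^ m ≡ 1` modulo the prime
`𝔭` and `R ⧸ 𝔭` is integrally closed, then `a/d'` is congruent modulo `𝔭` to an element of `R`. -/
theorem exists_branch_rep {R : Type*} [CommRing R] (𝔭 : Ideal R) [𝔭.IsPrime]
    [IsIntegrallyClosed (R ⧸ 𝔭)] (m : ℕ) (hm : m ≠ 0) (u : R) (hu : IsUnit u)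
    (a d' : R) (hG : u * a ^ m - d' ^ m ∈ 𝔭) :
    ∃ b : R, a - b * d' ∈ 𝔭 := by
  obtain ⟨v, hv⟩ := hu.exists_left_inv
  have h1 : (Ideal.Quotient.mk 𝔭 d') ^ m ∣ (Ideal.Quotient.mk 𝔭 a) ^ m := by
    refine ⟨Ideal.Quotient.mk 𝔭 v, ?_⟩
    rw [← map_pow, ← map_pow, ← map_mul, Ideal.Quotient.eq]
    have : a ^ m - d' ^ m * v = v * (u * a ^ m - d' ^ m) - (v * u - 1) * a ^ m := by ring
    rw [this, hv, sub_self, zero_mul, sub_zero]
    exact 𝔭.mul_mem_left _ hG
  obtain ⟨b', hb'⟩ := (IsIntegrallyClosed.pow_dvd_pow_iff hm).mp h1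
  obtain ⟨b, rfl⟩ := Ideal.Quotient.mk_surjective b'
  refine ⟨b, ?_⟩
  rw [← Ideal.Quotient.eq, hb', map_mul, mul_comm]

/-- **The local root at a closed point of the special fibre.** -/
theorem exists_unit_congr {R : Type*} [CommRing R] [IsLocalRing R]
    {ι : Type*} [Finite ι] (𝔭 : ι → Ideal R) (h𝔭 : ∀ i, (𝔭 i).IsPrime)
    (π : R) (hπ : ∀ i, π ∈ 𝔭 i)
    (hrad : ∀ a : R, (∀ i, a ∈ 𝔭 i) → ∃ N : ℕ, π ∣ a ^ N)
    (m : ℕ) (hm : IsUnit (m : R)) (u : R) (hu : IsUnit u)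
    (a d' : R) (hd' : ∀ i, d' ∉ 𝔭 i) (hG : π ∣ u * a ^ m - d' ^ m)
    (ρ : R) (b : ι → R) (hb : ∀ i, a - b i * d' ∈ 𝔭 i)
    (hval : ∀ i, b i - ρ ∈ IsLocalRing.maximalIdeal R) :
    ∃ γ : R, IsUnit γ ∧ π ∣ u * γ ^ m - 1 ∧
      ∃ d : R, (∀ i, d ∉ 𝔭 i) ∧ π ∣ d * (a - γ * d') := by
  classical
  rcases isEmpty_or_nonempty ι with hι | ⟨⟨i₀⟩⟩
  · -- no branch: `π` is a unit
    obtain ⟨N, hN⟩ := hrad 1 (fun i => isEmptyElim i)
    rw [one_pow] at hN
    have hπu : IsUnit π := isUnit_of_dvd_one hN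
    exact ⟨1, isUnit_one, hπu.dvd, 1, fun i => isEmptyElim i, hπu.dvd⟩
  have hm𝔭 : ∀ i, 𝔭 i ≤ IsLocalRing.maximalIdeal R := fun i =>
    IsLocalRing.le_maximalIdeal (h𝔭 i).ne_top
  have hunit_of : ∀ t : R, (∃ i, u * t ^ m - 1 ∈ 𝔭 i) → IsUnit t := by
    rintro t ⟨i, hi⟩
    by_contra hnu
    have ht : t ∈ IsLocalRing.maximalIdeal R := (IsLocalRing.mem_maximalIdeal t).mpr hnu
    have hm0 : m ≠ 0 := by
      rintro rfl
      rw [Nat.cast_zero] at hm
      exact not_isUnit_zero hm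
    have h1 : u * t ^ m ∈ IsLocalRing.maximalIdeal R :=
      Ideal.mul_mem_left _ _ (Ideal.pow_mem_of_mem _ ht m (Nat.pos_of_ne_zero hm0))
    have h2 : (1 : R) ∈ IsLocalRing.maximalIdeal R := by
      have := Ideal.sub_mem _ h1 (hm𝔭 i hi)
      rwa [sub_sub_cancel] at this
    exact (IsLocalRing.maximalIdeal.isMaximal R).ne_top ((Ideal.eq_top_iff_one _).mpr h2)
  -- the branch residues are `m`-th roots of `u⁻¹`
  have hbm : ∀ i, u * b i ^ m - 1 ∈ 𝔭 i := by
    intro i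
    have h1 : (u * b i ^ m - 1) * d' ^ m ∈ 𝔭 i := by
      have h2 : u * a ^ m - d' ^ m ∈ 𝔭 i := by
        obtain ⟨e, he⟩ := hG
        rw [he]
        exact Ideal.mul_mem_right _ _ (hπ i)
      obtain ⟨e, he⟩ := sub_dvd_pow_sub_pow a (b i * d') m
      have h3 : a ^ m - (b i * d') ^ m ∈ 𝔭 i := by
        rw [he]
        exact Ideal.mul_mem_right _ _ (hb i)
      have : (u * b i ^ m - 1) * d' ^ m =
          (u * a ^ m - d' ^ m) - u * (a ^ m - (b i * d') ^ m) := by ring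
      rw [this]
      exact Ideal.sub_mem _ h2 (Ideal.mul_mem_left _ _ h3)
    rcases (h𝔭 i).mem_or_mem h1 with h | h
    · exact h
    · exact absurd ((h𝔭 i).mem_of_pow_mem _ h) (hd' i)
  have hbu : ∀ i, IsUnit (b i) := fun i => hunit_of _ ⟨i, hbm i⟩
  have hρu : IsUnit ρ := by
    by_contra hnu
    have hρm : ρ ∈ IsLocalRing.maximalIdeal R := (IsLocalRing.mem_maximalIdeal ρ).mpr hnu
    have : b i₀ ∈ IsLocalRing.maximalIdeal R := by
      have := Ideal.add_mem _ (hval i₀) hρm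
      rwa [sub_add_cancel] at this
    exact (IsLocalRing.mem_maximalIdeal _).mp this (hbu i₀)
  obtain ⟨v, hv⟩ := hu.exists_left_inv
  -- gluing the branch residues
  obtain ⟨r, hr⟩ : ∃ r : R, ∀ i, r - b i ∈ 𝔭 i := by
    have : ∀ i, Module.Finite R (R ⧸ 𝔭 i) := fun i =>
      Module.Finite.of_surjective (Algebra.linearMap R (R ⧸ 𝔭 i)) Ideal.Quotient.mk_surjective
    have : Module.Finite R (∀ i, R ⧸ 𝔭 i) := Module.Finite.pi
    have : Algebra.IsIntegral R (∀ i, R ⧸ 𝔭 i) := Algebra.IsIntegral.of_finite R _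
    set x : ∀ i, R ⧸ 𝔭 i := fun i => Ideal.Quotient.mk (𝔭 i) (b i) with hx
    have hxm : x ^ m = algebraMap R (∀ i, R ⧸ 𝔭 i) v := by
      funext i
      rw [Pi.pow_apply, hx, Pi.algebraMap_apply, Ideal.Quotient.algebraMap_eq, ← map_pow,
        Ideal.Quotient.eq]
      have : b i ^ m - v = v * (u * b i ^ m - 1) - (v * u - 1) * b i ^ m := by ring
      rw [this, hv, sub_self, zero_mul, sub_zero]
      exact Ideal.mul_mem_left _ _ (hbm i)
    have hxρ : x - algebraMap R (∀ i, R ⧸ 𝔭 i) ρ ∈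
        Ideal.jacobson (⊥ : Ideal (∀ i, R ⧸ 𝔭 i)) := by
      rw [Ideal.mem_jacobson_bot]
      intro y
      rw [Pi.isUnit_iff]
      intro i
      obtain ⟨yi, hyi⟩ := Ideal.Quotient.mk_surjective (y i)
      have h1 : IsUnit ((b i - ρ) * yi + 1) := by
        by_contra hnu
        have h2 : (b i - ρ) * yi + 1 ∈ IsLocalRing.maximalIdeal R :=
          (IsLocalRing.mem_maximalIdeal _).mpr hnu
        have h3 : (1 : R) ∈ IsLocalRing.maximalIdeal R := by
          have := Ideal.sub_mem _ h2 (Ideal.mul_mem_right yi _ (hval i))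
          rwa [add_sub_cancel_left] at this
        exact (IsLocalRing.maximalIdeal.isMaximal R).ne_top ((Ideal.eq_top_iff_one _).mpr h3)
      have h4 : ((x - algebraMap R (∀ i, R ⧸ 𝔭 i) ρ) * y + 1) i =
          Ideal.Quotient.mk (𝔭 i) ((b i - ρ) * yi + 1) := by
        rw [Pi.add_apply, Pi.mul_apply, Pi.sub_apply, Pi.one_apply, hx, Pi.algebraMap_apply,
          Ideal.Quotient.algebraMap_eq, ← hyi, map_add, map_mul, map_sub, map_one]
      rw [h4]
      exact h1.map _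
    obtain ⟨r, hr⟩ := HlocGlue.exists_algebraMap_eq_of_pow_eq m hm v ρ hρu x hxm hxρ
    refine ⟨r, fun i => ?_⟩
    have := congrFun hr i
    rw [Pi.algebraMap_apply, Ideal.Quotient.algebraMap_eq, hx] at this
    exact Ideal.Quotient.eq.mp this
  -- `r` is an approximate root modulo `π`
  have hrm : ∀ i, u * r ^ m - 1 ∈ 𝔭 i := by
    intro i
    obtain ⟨e, he⟩ := sub_dvd_pow_sub_pow r (b i) m
    have : u * r ^ m - 1 = (u * b i ^ m - 1) + u * (r ^ m - b i ^ m) := by ring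
    rw [this, he]
    exact Ideal.add_mem _ (hbm i) (Ideal.mul_mem_left _ _ (Ideal.mul_mem_right _ _ (hr i)))
  have hru : IsUnit r := hunit_of _ ⟨i₀, hrm i₀⟩
  -- Newton in `R ⧸ (π)`
  set I : Ideal R := Ideal.span {π} with hI
  have hI𝔭 : ∀ i, I ≤ 𝔭 i := fun i => (Ideal.span_singleton_le_iff_mem _).mpr (hπ i)
  set P : (R ⧸ I)[X] := C (Ideal.Quotient.mk I u) * X ^ m - 1 with hP
  have hPev : ∀ t : R, aeval (Ideal.Quotient.mk I t) P = Ideal.Quotient.mk I (u * t ^ m - 1) := by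
    intro t
    rw [hP, map_sub, map_mul, map_pow, aeval_C, aeval_X, map_one, Algebra.algebraMap_self,
      RingHom.id_apply, map_sub, map_mul, map_pow, map_one]
  have hnil : IsNilpotent (aeval (Ideal.Quotient.mk I r) P) := by
    obtain ⟨N, hN⟩ := hrad (u * r ^ m - 1) hrm
    refine ⟨N, ?_⟩
    rw [hPev, ← map_pow, Ideal.Quotient.eq_zero_iff_mem, hI, Ideal.mem_span_singleton]
    exact hN
  have hder : IsUnit (aeval (Ideal.Quotient.mk I r) (derivative P)) := by
    have : aeval (Ideal.Quotient.mk I r) (derivative P) =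
        Ideal.Quotient.mk I (u * ((m : R) * r ^ (m - 1))) := by
      rw [hP, derivative_sub, derivative_one, sub_zero, derivative_C_mul, derivative_X_pow,
        map_mul, map_mul, map_pow, aeval_C, aeval_C, aeval_X, Algebra.algebraMap_self,
        RingHom.id_apply, RingHom.id_apply, map_mul, map_mul, map_pow, map_natCast]
    rw [this]
    exact (hu.mul (hm.mul (hru.pow _))).map _
  obtain ⟨r', ⟨hr'nil, hr'root⟩, -⟩ := existsUnique_nilpotent_sub_and_aeval_eq_zero hnil hder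
  obtain ⟨γ, rfl⟩ := Ideal.Quotient.mk_surjective r'
  have hγπ : π ∣ u * γ ^ m - 1 := by
    rw [hPev, Ideal.Quotient.eq_zero_iff_mem, hI, Ideal.mem_span_singleton] at hr'root
    exact hr'root
  have hγr : ∀ i, r - γ ∈ 𝔭 i := by
    intro i
    obtain ⟨N, hN⟩ := hr'nil
    rw [← map_sub, ← map_pow, Ideal.Quotient.eq_zero_iff_mem] at hN
    exact (h𝔭 i).mem_of_pow_mem N (hI𝔭 i hN)
  have hγu : IsUnit γ := by
    refine hunit_of _ ⟨i₀, ?_⟩
    obtain ⟨e, he⟩ := hγπ
    rw [he]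
    exact Ideal.mul_mem_right _ _ (hπ i₀)
  refine ⟨γ, hγu, hγπ, ?_⟩
  -- the comparison `a ≡ γ d'` modulo `π`, up to a multiplier
  set z : R := a - γ * d' with hz
  have hz𝔭 : ∀ i, z ∈ 𝔭 i := by
    intro i
    have : z = (a - b i * d') - (r - b i) * d' + (r - γ) * d' := by rw [hz]; ring
    rw [this]
    exact Ideal.add_mem _ (Ideal.sub_mem _ (hb i) (Ideal.mul_mem_right _ _ (hr i)))
      (Ideal.mul_mem_right _ _ (hγr i))
  obtain ⟨N, hN⟩ := hrad z hz𝔭
  set e : R := (m : R) * (γ * d') ^ (m - 1) with he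
  -- `a ^ m - (γ d') ^ m = z * (e + z * k)`
  obtain ⟨k, hk⟩ : ∃ k : R, a ^ m - (γ * d') ^ m = z * (e + z * k) := by
    have h1 : a ^ m - (γ * d') ^ m =
        (∑ i ∈ range m, a ^ i * (γ * d') ^ (m - 1 - i)) * z := by
      rw [hz, Commute.geom_sum₂_mul (Commute.all _ _)]
    have h2 : ∀ i ∈ range m, ∃ c : R, a ^ i * (γ * d') ^ (m - 1 - i) =
        (γ * d') ^ (m - 1) + z * c := by
      intro i hi
      obtain ⟨c, hc⟩ := sub_dvd_pow_sub_pow a (γ * d') i
      refine ⟨c * (γ * d') ^ (m - 1 - i), ?_⟩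
      have h3 : (γ * d') ^ (m - 1) = (γ * d') ^ i * (γ * d') ^ (m - 1 - i) := by
        rw [← pow_add]
        congr 1
        have := Finset.mem_range.mp hi
        omega
      rw [h3, hz]
      linear_combination (γ * d') ^ (m - 1 - i) * hc
    choose! c hc using h2
    refine ⟨∑ i ∈ range m, c i, ?_⟩
    rw [h1, Finset.sum_congr rfl hc, Finset.sum_add_distrib, Finset.sum_const, Finset.card_range,
      nsmul_eq_mul, ← Finset.mul_sum, he]
    ring
  have hzk : π ∣ z * (e + z * k) := by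
    rw [← hk]
    obtain ⟨e₁, he₁⟩ := hG
    obtain ⟨e₂, he₂⟩ := hγπ
    refine ⟨v * (e₁ - e₂ * d' ^ m), ?_⟩
    have : a ^ m - (γ * d') ^ m =
        v * ((u * a ^ m - d' ^ m) - (u * γ ^ m - 1) * d' ^ m) - (v * u - 1) * (a ^ m - (γ * d') ^ m) := by
      ring
    rw [this, hv, sub_self, zero_mul, sub_zero, he₁, he₂]
    ring
  -- `π ∣ e ^ j * z - (-1) ^ j * z ^ (j + 1) * k ^ j`
  have hind : ∀ j : ℕ, π ∣ e ^ j * z - (-1) ^ j * z ^ (j + 1) * k ^ j := by
    intro j
    induction j with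
    | zero => simp
    | succ j ih =>
      have : e ^ (j + 1) * z - (-1) ^ (j + 1) * z ^ (j + 1 + 1) * k ^ (j + 1) =
          e * (e ^ j * z - (-1) ^ j * z ^ (j + 1) * k ^ j) +
            (-1) ^ j * z ^ j * k ^ j * (z * (e + z * k)) := by ring
      rw [this]
      exact dvd_add (Dvd.dvd.mul_left ih _) (Dvd.dvd.mul_left hzk _)
  have he𝔭 : ∀ i, e ∉ 𝔭 i := by
    intro i hei
    rw [he] at hei
    rcases (h𝔭 i).mem_or_mem hei with h | h
    · exact (h𝔭 i).ne_top (Ideal.eq_top_of_isUnit_mem _ h hm)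
    · rcases (h𝔭 i).mem_or_mem ((h𝔭 i).mem_of_pow_mem _ h) with h' | h'
      · exact (h𝔭 i).ne_top (Ideal.eq_top_of_isUnit_mem _ h' hγu)
      · exact hd' i h'
  refine ⟨e ^ N, fun i hi => he𝔭 i ((h𝔭 i).mem_of_pow_mem _ hi), ?_⟩
  have h1 := hind N
  have h2 : π ∣ (-1) ^ N * z ^ (N + 1) * k ^ N := by
    rw [pow_succ]
    exact Dvd.dvd.mul_right (Dvd.dvd.mul_left (Dvd.dvd.mul_right hN _) _) _
  have := dvd_add h1 h2
  rwa [sub_add_cancel] at this

/-- One branch whose quotient is integrally closed: no value condition. -/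
theorem exists_unit_congr_of_single {R : Type*} [CommRing R] [IsLocalRing R]
    (𝔭 : Ideal R) [𝔭.IsPrime] [IsIntegrallyClosed (R ⧸ 𝔭)]
    (π : R) (hπ : π ∈ 𝔭) (hrad : ∀ a : R, a ∈ 𝔭 → ∃ N : ℕ, π ∣ a ^ N)
    (m : ℕ) (hm : IsUnit (m : R)) (u : R) (hu : IsUnit u)
    (a d' : R) (hd' : d' ∉ 𝔭) (hG : π ∣ u * a ^ m - d' ^ m) :
    ∃ γ : R, IsUnit γ ∧ π ∣ u * γ ^ m - 1 ∧ ∃ d : R, d ∉ 𝔭 ∧ π ∣ d * (a - γ * d') := by
  have hm0 : m ≠ 0 := by
    rintro rfl
    rw [Nat.cast_zero] at hm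
    exact not_isUnit_zero hm
  have hG' : u * a ^ m - d' ^ m ∈ 𝔭 := by
    obtain ⟨e, he⟩ := hG
    rw [he]
    exact Ideal.mul_mem_right _ _ hπ
  obtain ⟨b, hb⟩ := exists_branch_rep 𝔭 m hm0 u hu a d' hG'
  obtain ⟨γ, hγ, hγπ, d, hd, hdv⟩ := exists_unit_congr (ι := Unit) (fun _ => 𝔭)
    (fun _ => inferInstance) π (fun _ => hπ) (fun a ha => hrad a (ha ())) m hm u hu a d'
    (fun _ => hd') hG b (fun _ => b) (fun _ => hb) (fun _ => by rw [sub_self]; exact zero_mem _)
  exact ⟨γ, hγ, hγπ, d, hd (), hdv⟩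

end Fermat.Agent.S36.HlocBranch
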