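import Mathlib

/-!
# S36 (HLOC): spreading a local datum from the branches through a point to all Gauss valuations

`B` is a chart ring (a subalgebra of the function field `F`), `𝔫` a prime of `B` containing the
uniformiser `π`, and `O v` (`v : V`, finite) the Gauss valuation rings of `F`.  Each `v` is either
*through* `𝔫` (`T v`: the elements of `B ∖ 𝔫` are units of `O v`) or *not through* `𝔫` (some
`s ∈ B ∖ 𝔫` is a non-unit of `O v`, and `O v` is archimedean with respect to `s`).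

`exists_spread` : a local datum `g₀` at `𝔫` — `g₀ ≡ 1` modulo `π` at the valuations through `𝔫`
and `w * g₀ ^ m` integral at `𝔫` — can be replaced by `g ≡ 1` modulo `π` at **all** valuations
with `w * g ^ m` still integral at `𝔫`.  Explicitly `g = 1 + ε * (g₀ - 1)` with
`ε = s ^ k / (s ^ k + π * G)`, `G ∈ B` a denominator of `g₀⁻¹`, `k ≫ 0`.
No approximation theorem and no Chinese remainder theorem is needed.
-/

set_option autoImplicit false

namespace Fermat.Agent.S36.HlocSpread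

open Finset

variable {F : Type*} [Field F]

theorem nonunits_mul_mem (O : ValuationSubring F) {x y : F} (hx : x ∈ O.nonunits) (hy : y ∈ O) :
    x * y ∈ O.nonunits := by
  rw [ValuationSubring.mem_nonunits_iff] at hx ⊢
  rw [map_mul]
  have hy' : O.valuation y ≤ 1 := (O.valuation_le_one_iff y).mpr hy
  exact lt_of_le_of_lt (mul_le_of_le_one_right' hy') hx

theorem one_add_inv_mem (O : ValuationSubring F) {t : F} (ht : t ∈ O.nonunits) :
    (1 + t)⁻¹ ∈ O := by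
  have h1 : O.valuation t < 1 := by
    rw [ValuationSubring.mem_nonunits_iff] at ht
    exact ht
  rw [← O.valuation_le_one_iff, map_inv₀, O.valuation.map_one_add_of_lt h1, inv_one]

/-- **Spreading the local datum.** -/
theorem exists_spread {A₀ : Type*} [CommRing A₀] [Algebra A₀ F] (B : Subalgebra A₀ F)
    (𝔫 : Ideal B) [h𝔫 : 𝔫.IsPrime] (π : B) (hπ𝔫 : π ∈ 𝔫) (hπ0 : π ≠ 0)
    (hfrac : ∀ z : F, ∃ d : B, d ≠ 0 ∧ (d : F) * z ∈ B)
    {V : Type*} [Finite V] (O : V → ValuationSubring F)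
    (hBO : ∀ v, ∀ b : B, (b : F) ∈ O v)
    (T : V → Prop)
    (hT : ∀ v, T v → ∀ d : B, d ∉ 𝔫 → ((d : F))⁻¹ ∈ O v)
    (hN : ∀ v, ¬ T v → ∃ s : B, s ∉ 𝔫 ∧ (s : F) ∈ (O v).nonunits ∧
      ∀ z : F, ∃ k : ℕ, (s : F) ^ k * z ∈ O v)
    (w g₀ : F) (hg₀ : g₀ ≠ 0) (m : ℕ)
    (h₁ : ∀ v, T v → ∃ c ∈ O v, g₀ - 1 = (π : F) * c)
    (h₂ : ∃ d : B, d ∉ 𝔫 ∧ (d : F) * (w * g₀ ^ m) ∈ B) :
    ∃ g : F, (∀ v, ∃ c ∈ O v, g - 1 = (π : F) * c) ∧
      ∃ d : B, d ∉ 𝔫 ∧ (d : F) * (w * g ^ m) ∈ B := by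
  classical
  cases nonempty_fintype V
  have hπF : (π : F) ≠ 0 := fun h => hπ0 (Subtype.ext h)
  -- the element `s`
  choose! S hS𝔫 hSnon hSarch using hN
  set S' : V → B := fun v => if T v then 1 else S v with hS'
  have hS'𝔫 : ∀ v, S' v ∉ 𝔫 := by
    intro v
    by_cases hv : T v
    · simp only [hS', hv, if_true]
      exact fun h1 => h𝔫.ne_top ((Ideal.eq_top_iff_one _).mpr h1)
    · simp only [hS', hv, if_false]
      exact hS𝔫 v hv
  set s : B := ∏ v, S' v with hs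
  have hs𝔫 : s ∉ 𝔫 := by
    rw [hs, Ideal.IsPrime.prod_mem_iff]
    rintro ⟨v, -, hv⟩
    exact hS'𝔫 v hv
  have hspow𝔫 : ∀ k : ℕ, s ^ k ∉ 𝔫 := fun k h => hs𝔫 (h𝔫.mem_of_pow_mem k h)
  have hsO : ∀ v, (s : F) ∈ O v := fun v => hBO v s
  have hsplit : ∀ v, ¬ T v → s = S v * ∏ x ∈ (univ : Finset V).erase v, S' x := by
    intro v hv
    rw [hs, ← Finset.mul_prod_erase univ S' (mem_univ v)]
    simp only [hS', hv, if_false]
  have hsnon : ∀ v, ¬ T v → (s : F) ∈ (O v).nonunits := by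
    intro v hv
    rw [hsplit v hv, Subalgebra.coe_mul]
    exact nonunits_mul_mem (O v) (hSnon v hv) (hBO v _)
  have hsarch : ∀ v, ¬ T v → ∀ z : F, ∃ k : ℕ, (s : F) ^ k * z ∈ O v := by
    intro v hv z
    obtain ⟨k, hk⟩ := hSarch v hv z
    refine ⟨k, ?_⟩
    rw [hsplit v hv, Subalgebra.coe_mul, mul_pow]
    have : (S v : F) ^ k * ((∏ x ∈ (univ : Finset V).erase v, S' x : B) : F) ^ k * z =
        ((∏ x ∈ (univ : Finset V).erase v, S' x : B) : F) ^ k * ((S v : F) ^ k * z) := by ring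
    rw [this]
    exact (O v).mul_mem _ _ ((O v).pow_mem (hBO v _) k) hk
  have hsarch' : ∀ v, ¬ T v → ∀ z : F, ∃ k₀ : ℕ, ∀ k, k₀ ≤ k → (s : F) ^ k * z ∈ O v := by
    intro v hv z
    obtain ⟨k₀, hk₀⟩ := hsarch v hv z
    refine ⟨k₀, fun k hk => ?_⟩
    obtain ⟨j, rfl⟩ := Nat.exists_eq_add_of_le hk
    have : (s : F) ^ (k₀ + j) * z = (s : F) ^ j * ((s : F) ^ k₀ * z) := by ring
    rw [this]
    exact (O v).mul_mem _ _ ((O v).pow_mem (hsO v) j) hk₀
  -- the denominator of `g₀⁻¹`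
  obtain ⟨Gm, hGm0, hGm⟩ := hfrac g₀⁻¹
  have hGmF : (Gm : F) ≠ 0 := fun h => hGm0 (Subtype.ext h)
  set c₀ : F := (π : F) * (Gm : F) with hc₀
  have hc₀0 : c₀ ≠ 0 := mul_ne_zero hπF hGmF
  -- the denominators `s ^ k + π * Gm`
  have hD𝔫 : ∀ k : ℕ, s ^ k + π * Gm ∉ 𝔫 := by
    intro k h
    have h1 : π * Gm ∈ 𝔫 := Ideal.mul_mem_right _ _ hπ𝔫
    have := Ideal.sub_mem _ h h1
    rw [add_sub_cancel_right] at this
    exact hspow𝔫 k this
  have hDF : ∀ k : ℕ, (s : F) ^ k + c₀ ≠ 0 := by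
    intro k h
    apply hD𝔫 k
    have : s ^ k + π * Gm = 0 := Subtype.ext (by
      rw [Subalgebra.coe_add, Subalgebra.coe_pow, Subalgebra.coe_mul]; exact h)
    rw [this]
    exact zero_mem _
  -- the thresholds
  have key : ∀ v, ∃ K : ℕ, ∀ k, K ≤ k →
      ∃ c ∈ O v, (s : F) ^ k / ((s : F) ^ k + c₀) * (g₀ - 1) = (π : F) * c := by
    intro v
    by_cases hv : T v
    · refine ⟨0, fun k _ => ?_⟩
      obtain ⟨c, hc, hgc⟩ := h₁ v hv
      have hDinv : (((s ^ k + π * Gm : B) : F))⁻¹ ∈ O v := hT v hv _ (hD𝔫 k)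
      rw [Subalgebra.coe_add, Subalgebra.coe_pow, Subalgebra.coe_mul] at hDinv
      refine ⟨(s : F) ^ k * ((s : F) ^ k + c₀)⁻¹ * c,
        (O v).mul_mem _ _ ((O v).mul_mem _ _ ((O v).pow_mem (hsO v) k) hDinv) hc, ?_⟩
      rw [hgc, div_eq_mul_inv]
      ring
    · obtain ⟨k₁, hk₁⟩ := hsarch' v hv c₀⁻¹
      obtain ⟨k₂, hk₂⟩ := hsarch' v hv ((g₀ - 1) / (c₀ * (π : F)))
      refine ⟨k₁ + 1 + k₂, fun k hk => ?_⟩
      set t : F := (s : F) ^ k * c₀⁻¹ with ht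
      have htnon : t ∈ (O v).nonunits := by
        obtain ⟨j, rfl⟩ := Nat.exists_eq_add_of_le (show k₁ + 1 ≤ k by omega)
        have : t = (s : F) * ((s : F) ^ (k₁ + j) * c₀⁻¹) := by rw [ht]; ring
        rw [this]
        exact nonunits_mul_mem (O v) (hsnon v hv) (hk₁ _ (by omega))
      have h1t : (1 + t)⁻¹ ∈ O v := one_add_inv_mem (O v) htnon
      have hk₂' : (s : F) ^ k * ((g₀ - 1) / (c₀ * (π : F))) ∈ O v := hk₂ k (by omega)
      refine ⟨(s : F) ^ k * ((g₀ - 1) / (c₀ * (π : F))) * (1 + t)⁻¹,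
        (O v).mul_mem _ _ hk₂' h1t, ?_⟩
      have h1t0 : 1 + t ≠ 0 := by
        intro h
        have h2 : (s : F) ^ k + c₀ = c₀ * (1 + t) := by
          rw [ht]; field_simp; ring
        exact hDF k (by rw [h2, h, mul_zero])
      have h2 : (s : F) ^ k + c₀ = c₀ * (1 + t) := by
        rw [ht]; field_simp; ring
      rw [h2, ht]
      field_simp
  choose K hK using key
  set k : ℕ := ∑ v, K v with hk
  have hKk : ∀ v, K v ≤ k := fun v => Finset.single_le_sum (fun _ _ => Nat.zero_le _) (mem_univ v)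
  refine ⟨1 + (s : F) ^ k / ((s : F) ^ k + c₀) * (g₀ - 1), fun v => ?_, ?_⟩
  · obtain ⟨c, hc, h⟩ := hK v k (hKk v)
    exact ⟨c, hc, by rw [← h]; ring⟩
  · obtain ⟨d, hd, hdB⟩ := h₂
    set D : B := s ^ k + π * Gm with hD
    set Nn : B := s ^ k + π * ⟨(Gm : F) * g₀⁻¹, hGm⟩ with hNn
    have hDc : (D : F) = (s : F) ^ k + c₀ := by
      rw [hD, Subalgebra.coe_add, Subalgebra.coe_pow, Subalgebra.coe_mul]
    have hNc : (Nn : F) = (s : F) ^ k + (π : F) * ((Gm : F) * g₀⁻¹) := by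
      rw [hNn, Subalgebra.coe_add, Subalgebra.coe_pow, Subalgebra.coe_mul]
    have hgD : (1 + (s : F) ^ k / ((s : F) ^ k + c₀) * (g₀ - 1)) * (D : F) = g₀ * (Nn : F) := by
      rw [hDc, hNc]
      have := hDF k
      field_simp
      rw [hc₀]
      ring
    refine ⟨d * D ^ m, ?_, ?_⟩
    · intro h
      rcases h𝔫.mem_or_mem h with h | h
      · exact hd h
      · exact hD𝔫 k (h𝔫.mem_of_pow_mem m h)
    · have : ((d * D ^ m : B) : F) * (w * (1 + (s : F) ^ k / ((s : F) ^ k + c₀) * (g₀ - 1)) ^ m) =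
          (d : F) * (w * g₀ ^ m) * (Nn : F) ^ m := by
        rw [Subalgebra.coe_mul, Subalgebra.coe_pow]
        have h3 : ((1 + (s : F) ^ k / ((s : F) ^ k + c₀) * (g₀ - 1)) * (D : F)) ^ m =
            (g₀ * (Nn : F)) ^ m := by rw [hgD]
        rw [mul_pow, mul_pow] at h3
        linear_combination (d : F) * w * h3
      rw [this]
      exact B.mul_mem hdB (B.pow_mem Nn.2 m)

end Fermat.Agent.S36.HlocSpread
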