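import Mathlib
import Fermat.Prelude.Def_FLTPrelim_Ramification
import Fermat.Agent.S05.OfSubring
import Fermat.Agent.S13.ValQbar
import Fermat.Agent.S18.BaseDVR

/-!
# S36, (U1) core: separated conjugates ⟹ approximation by fixed elements

Let `A` be a valuation subring of `ℚ̄` over `ℓ`, `H` a subgroup of `Gal(ℚ̄/ℚ)` and `x ∈ ℚ̄`.
Suppose every `H`-conjugate `σ x ≠ x` is *separated* from `x`: there is `u`, fixed by the
stabiliser of `x` in `H`, with `ord_A u > 0 > ord_A (σ u)`.  Then `x` is a limit of `H`-fixed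
elements: for every `K` there is an `H`-fixed `c` with `ord_A (x - c) ≥ K · ord_A ℓ`
(`exists_fixed_approx`).  Consequently, if `H` is the fixing subgroup of an intermediate field
`C` whose value group is `ℤ γ`, then `ord_A x ∈ ℤ γ` (`ord_of_separated_base`,
`ord_of_separated`).

The proof is weak approximation by hand: `e = (1 + ℓ u ^ M)⁻¹` is `≡ 1` at `A` and `≡ 0` at
the conjugate valuation, and integral at every other one once `M ≫ 0`.
-/

set_option autoImplicit false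

namespace Fermat.Agent.S36.ImmCore

open Fermat.Agent.S05 Fermat.Agent.S05.OrdData

local notation "Qb" => AlgebraicClosure ℚ

section Group

variable {G : Type*} [AddCommGroup G] [LinearOrder G] [IsOrderedAddMonoid G]

lemma aux_le {g t : G} (hg : 0 ≤ g) {K j J : ℕ} (hj : j ≤ J) (ht : -t ≤ j • g) :
    K • g ≤ (K + J) • g + t := by
  have h1 : j • g ≤ J • g := nsmul_le_nsmul_left hg hj
  have h2 : 0 ≤ J • g + t := by
    have h3 : -t ≤ J • g := ht.trans h1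
    have h4 := add_le_add_left h3 t
    rw [neg_add_cancel] at h4
    exact h4
  rw [add_nsmul, add_assoc]
  exact le_add_of_nonneg_right h2

end Group

section Idem

variable (A : ValuationSubring Qb) {ℓ : ℕ}

lemma ord_zero : (ordOfSubring A).ord (0 : Qb) = 0 := by
  simp [ordOfSubring, OfSubring.ordFun]

lemma ne_zero_of_ord_pos {u : Qb} (h : 0 < (ordOfSubring A).ord u) : u ≠ 0 := by
  rintro rfl
  rw [ord_zero] at h
  exact lt_irrefl _ h

lemma ne_zero_of_ord_neg {u : Qb} (h : (ordOfSubring A).ord u < 0) : u ≠ 0 := by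
  rintro rfl
  rw [ord_zero] at h
  exact lt_irrefl _ h

/-- Finite sums of elements of order `≥ g` have order `≥ g`. -/
lemma ge_sum {ι : Type*} (s : Finset ι) (t : ι → Qb) (g : Additive (A.ValueGroup)ˣ)
    (h : ∀ i ∈ s, (ordOfSubring A).Ge (t i) g) : (ordOfSubring A).Ge (∑ i ∈ s, t i) g :=
  Finset.sum_induction t (fun x => (ordOfSubring A).Ge x g) (fun _ _ ha hb => ha.add hb)
    (Ge.zero g) h

/-- The value group of `A` is archimedean over `ord ℓ`. -/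
lemma eventually_le_nsmul (hℓ : ℓ.Prime) (hA : A.LiesOverPrime ℓ) {v : Qb}
    (hv : 0 < (ordOfSubring A).ord v) (B : ℕ) :
    ∀ᶠ M : ℕ in Filter.atTop,
      B • (ordOfSubring A).ord (ℓ : Qb) ≤ M • (ordOfSubring A).ord v := by
  have hv0 : v ≠ 0 := ne_zero_of_ord_pos A hv
  have hint : IsIntegral ℚ v := ((AlgebraicClosure.isAlgebraic ℚ).isAlgebraic v).isIntegral
  obtain ⟨n, hn1, -, m, hnm⟩ := Fermat.Agent.S13.exists_nsmul_ord_eq A ℓ hℓ hA v hv0 (minpoly ℚ v)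
    (minpoly.ne_zero hint) (minpoly.aeval ℚ v)
  have hpos := (Fermat.Agent.S13.ord_prime_pos A ℓ hℓ hA).2
  have hnpos : 0 < n • (ordOfSubring A).ord v := nsmul_pos hv (by omega)
  have hm : 1 ≤ m := by
    by_contra hneg
    have hm0 : m ≤ 0 := by omega
    obtain ⟨k, rfl⟩ : ∃ k : ℕ, m = -(k : ℤ) := ⟨(-m).toNat, by omega⟩
    rw [hnm, neg_zsmul, natCast_zsmul] at hnpos
    have := nsmul_nonneg hpos.le k
    exact absurd hnpos (not_lt.mpr (neg_nonpos.mpr this))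
  have hle : (ordOfSubring A).ord (ℓ : Qb) ≤ n • (ordOfSubring A).ord v := by
    rw [hnm]
    obtain ⟨k, rfl⟩ : ∃ k : ℕ, m = ((k + 1 : ℕ) : ℤ) := ⟨(m - 1).toNat, by omega⟩
    rw [natCast_zsmul, succ_nsmul]
    exact le_add_of_nonneg_left (nsmul_nonneg hpos.le k)
  refine Filter.eventually_atTop.mpr ⟨B * n, fun M hM => ?_⟩
  calc B • (ordOfSubring A).ord (ℓ : Qb) ≤ B • (n • (ordOfSubring A).ord v) :=
        nsmul_le_nsmul_right hle B
    _ = (B * n) • (ordOfSubring A).ord v := (mul_nsmul' _ _ _).symm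
    _ ≤ M • (ordOfSubring A).ord v := nsmul_le_nsmul_left hv.le hM

/-- The approximate idempotent attached to a separator `u`. -/
noncomputable def idem (ℓ : ℕ) (u : Qb) (M : ℕ) : Qb := (1 + (ℓ : Qb) * u ^ M)⁻¹

lemma map_idem (τ : Qb ≃ₐ[ℚ] Qb) (ℓ : ℕ) (u : Qb) (M : ℕ) :
    τ (idem ℓ u M) = idem ℓ (τ u) M := by
  simp [idem, map_inv₀]

/-- If `u` is integral, `1 + ℓ u ^ M` is a unit. -/
lemma one_add_unit (hℓ : ℓ.Prime) (hA : A.LiesOverPrime ℓ) {u : Qb}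
    (hu : (ordOfSubring A).Ge u 0) (M : ℕ) :
    1 + (ℓ : Qb) * u ^ M ≠ 0 ∧ (ordOfSubring A).ord (1 + (ℓ : Qb) * u ^ M) = 0 := by
  obtain ⟨hℓ0, hpos⟩ := Fermat.Agent.S13.ord_prime_pos A ℓ hℓ hA
  have h1 : (ordOfSubring A).Gt ((ℓ : Qb) * u ^ M) 0 :=
    Gt.mul_right0 (gt_of_ne hℓ0 hpos) (hu.pow0 M)
  have h2 := ord_add_eq (V := ordOfSubring A) (x := 1) (y := (ℓ : Qb) * u ^ M) one_ne_zero
    (by rw [ord_one]; exact h1)
  rw [ord_one] at h2
  exact h2

lemma idem_ge_zero (hℓ : ℓ.Prime) (hA : A.LiesOverPrime ℓ) {u : Qb}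
    (hu : (ordOfSubring A).Ge u 0) (M : ℕ) : (ordOfSubring A).Ge (idem ℓ u M) 0 := by
  obtain ⟨h0, h1⟩ := one_add_unit A hℓ hA hu M
  refine ge_of_ne (inv_ne_zero h0) ?_
  rw [idem, ord_inv _ h0, h1, neg_zero]

lemma one_sub_idem_ge (hℓ : ℓ.Prime) (hA : A.LiesOverPrime ℓ) {u : Qb}
    (hu : 0 < (ordOfSubring A).ord u) (M : ℕ) :
    (ordOfSubring A).Ge (1 - idem ℓ u M) (M • (ordOfSubring A).ord u) := by
  have hu0 : u ≠ 0 := ne_zero_of_ord_pos A hu
  have huge : (ordOfSubring A).Ge u 0 := ge_of_ne hu0 hu.le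
  obtain ⟨h0, h1⟩ := one_add_unit A hℓ hA huge M
  obtain ⟨hℓ0, hpos⟩ := Fermat.Agent.S13.ord_prime_pos A ℓ hℓ hA
  have hrw : 1 - idem ℓ u M = ((ℓ : Qb) * u ^ M) * idem ℓ u M := by
    rw [idem]
    field_simp
    ring
  rw [hrw]
  refine Ge.mul_right0 ?_ (idem_ge_zero A hℓ hA huge M)
  exact Ge.mul_left0 (ge_of_ne hℓ0 hpos.le) ((ge_of_ne hu0 le_rfl).pow M)

lemma idem_ge_of_neg (hℓ : ℓ.Prime) (hA : A.LiesOverPrime ℓ) {u : Qb}
    (hu : (ordOfSubring A).ord u < 0) (B M : ℕ)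
    (hM : (B + 2) • (ordOfSubring A).ord (ℓ : Qb) ≤ M • (ordOfSubring A).ord u⁻¹) :
    (ordOfSubring A).Ge (idem ℓ u M) (B • (ordOfSubring A).ord (ℓ : Qb)) := by
  have hu0 : u ≠ 0 := ne_zero_of_ord_neg A hu
  obtain ⟨hℓ0, hpos⟩ := Fermat.Agent.S13.ord_prime_pos A ℓ hℓ hA
  set g := (ordOfSubring A).ord (ℓ : Qb) with hg
  have hw : (ordOfSubring A).Ge (u⁻¹ ^ M) (M • (ordOfSubring A).ord u⁻¹) :=
    (ge_of_ne (inv_ne_zero hu0) le_rfl).pow M
  have h1 : B • g + g ≤ M • (ordOfSubring A).ord u⁻¹ :=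
    calc B • g + g = (B + 1) • g := (succ_nsmul g B).symm
      _ ≤ (B + 2) • g := nsmul_le_nsmul_left hpos.le (by omega)
      _ ≤ _ := hM
  have h2 : g < M • (ordOfSubring A).ord u⁻¹ :=
    calc g = 1 • g := (one_nsmul g).symm
      _ < (B + 2) • g := nsmul_lt_nsmul_left hpos (by omega)
      _ ≤ _ := hM
  have h3 := ord_add_eq' (V := ordOfSubring A) (x := (ℓ : Qb)) (y := u⁻¹ ^ M) hℓ0
    (hw.gt_of_lt h2)
  have hmul : idem ℓ u M * (u⁻¹ ^ M + (ℓ : Qb)) = u⁻¹ ^ M := by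
    have h4 : u⁻¹ ^ M + (ℓ : Qb) = u⁻¹ ^ M * (1 + (ℓ : Qb) * u ^ M) := by
      rw [inv_pow]
      field_simp
    have h5 : 1 + (ℓ : Qb) * u ^ M ≠ 0 := by
      intro h
      rw [h, mul_zero] at h4
      exact h3.1 h4
    rw [h4, idem]
    field_simp
  refine Ge.of_mul_eq h3.1 hmul ?_
  rw [h3.2]
  exact hw.mono h1

lemma eventually_idem_ge_zero (hℓ : ℓ.Prime) (hA : A.LiesOverPrime ℓ) (u : Qb) :
    ∀ᶠ M : ℕ in Filter.atTop, (ordOfSubring A).Ge (idem ℓ u M) 0 := by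
  by_cases hu : (ordOfSubring A).Ge u 0
  · exact Filter.Eventually.of_forall fun M => idem_ge_zero A hℓ hA hu M
  · have hu0 : u ≠ 0 := fun h => hu (Or.inl h)
    have hneg : (ordOfSubring A).ord u < 0 := not_le.mp fun h => hu (Or.inr h)
    have hpos : 0 < (ordOfSubring A).ord u⁻¹ := by
      rw [ord_inv _ hu0]
      exact neg_pos.mpr hneg
    refine (eventually_le_nsmul A hℓ hA hpos (0 + 2)).mono fun M hM => ?_
    have := idem_ge_of_neg A hℓ hA hneg 0 M hM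
    rwa [zero_nsmul] at this

/-- One separator: `e = (1 + ℓ u ^ M)⁻¹` with `M ≫ 0`. -/
lemma exists_idem (hℓ : ℓ.Prime) (hA : A.LiesOverPrime ℓ) (u : Qb)
    (hu : 0 < (ordOfSubring A).ord u) (σ₀ : Qb ≃ₐ[ℚ] Qb)
    (hσ₀ : (ordOfSubring A).ord (σ₀ u) < 0) (T : Finset (Qb ≃ₐ[ℚ] Qb)) (B : ℕ) :
    ∃ M : ℕ, (ordOfSubring A).Ge (1 - idem ℓ u M) (B • (ordOfSubring A).ord (ℓ : Qb)) ∧
      (ordOfSubring A).Ge (σ₀ (idem ℓ u M)) (B • (ordOfSubring A).ord (ℓ : Qb)) ∧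
      ∀ τ ∈ T, (ordOfSubring A).Ge (τ (idem ℓ u M)) 0 := by
  have ev1 := eventually_le_nsmul A hℓ hA hu B
  have hσ0 : σ₀ u ≠ 0 := ne_zero_of_ord_neg A hσ₀
  have hpos : 0 < (ordOfSubring A).ord (σ₀ u)⁻¹ := by
    rw [ord_inv _ hσ0]
    exact neg_pos.mpr hσ₀
  have ev2 := eventually_le_nsmul A hℓ hA hpos (B + 2)
  have ev3 : ∀ᶠ M : ℕ in Filter.atTop, ∀ τ ∈ T, (ordOfSubring A).Ge (idem ℓ (τ u) M) 0 :=
    (Filter.eventually_all_finset T).mpr fun τ _ => eventually_idem_ge_zero A hℓ hA (τ u)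
  obtain ⟨M, h1, h2, h3⟩ := (ev1.and (ev2.and ev3)).exists
  refine ⟨M, (one_sub_idem_ge A hℓ hA hu M).mono h1, ?_, fun τ hτ => ?_⟩
  · rw [map_idem]
    exact idem_ge_of_neg A hℓ hA hσ₀ B M h2
  · rw [map_idem]
    exact h3 τ hτ

/-- Finitely many separators: the product of the approximate idempotents. -/
lemma exists_prod_idem (hℓ : ℓ.Prime) (hA : A.LiesOverPrime ℓ) {ι : Type*} (W : Finset ι)
    (σ : ι → (Qb ≃ₐ[ℚ] Qb)) (u : ι → Qb)
    (hu : ∀ w ∈ W, 0 < (ordOfSubring A).ord (u w))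
    (hσ : ∀ w ∈ W, (ordOfSubring A).ord (σ w (u w)) < 0) (B : ℕ)
    (T : Finset (Qb ≃ₐ[ℚ] Qb)) :
    ∃ y : Qb, (∀ τ : Qb ≃ₐ[ℚ] Qb, (∀ w ∈ W, τ (u w) = u w) → τ y = y) ∧
      (ordOfSubring A).Ge (1 - y) (B • (ordOfSubring A).ord (ℓ : Qb)) ∧
      (∀ w ∈ W, (ordOfSubring A).Ge (σ w y) (B • (ordOfSubring A).ord (ℓ : Qb))) ∧
      ∀ τ ∈ T, (ordOfSubring A).Ge (τ y) 0 := by
  classical
  have hpos := (Fermat.Agent.S13.ord_prime_pos A ℓ hℓ hA).2
  have hB0 : (0 : Additive (A.ValueGroup)ˣ) ≤ B • (ordOfSubring A).ord (ℓ : Qb) :=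
    nsmul_nonneg hpos.le B
  induction W using Finset.induction_on generalizing T with
  | empty =>
    refine ⟨1, fun τ _ => map_one τ, ?_, fun w hw => absurd hw (Finset.notMem_empty w),
      fun τ _ => ?_⟩
    · rw [sub_self]
      exact Ge.zero _
    · rw [map_one]
      exact Ge.one
  | insert a W' ha ih =>
    obtain ⟨y, hfix, h1, hW, hT⟩ := ih (fun w hw => hu w (Finset.mem_insert_of_mem hw))
      (fun w hw => hσ w (Finset.mem_insert_of_mem hw)) (insert (σ a) T)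
    obtain ⟨M, e1, e2, e3⟩ := exists_idem A hℓ hA (u a) (hu a (Finset.mem_insert_self a W'))
      (σ a) (hσ a (Finset.mem_insert_self a W')) (T ∪ W'.image σ) B
    have hy0 : (ordOfSubring A).Ge y 0 := by
      have : y = 1 - (1 - y) := by ring
      rw [this]
      exact Ge.one.sub (h1.mono hB0)
    refine ⟨y * idem ℓ (u a) M, ?_, ?_, ?_, ?_⟩
    · intro τ hτ
      rw [map_mul, hfix τ (fun w hw => hτ w (Finset.mem_insert_of_mem hw)), map_idem,
        hτ a (Finset.mem_insert_self a W')]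
    · have : 1 - y * idem ℓ (u a) M = (1 - y) + y * (1 - idem ℓ (u a) M) := by ring
      rw [this]
      exact h1.add (Ge.mul_left0 hy0 e1)
    · intro w hw
      rw [map_mul]
      rcases Finset.mem_insert.mp hw with rfl | hw'
      · exact Ge.mul_left0 (hT _ (Finset.mem_insert_self _ T)) e2
      · exact Ge.mul_right0 (hW w hw')
          (e3 _ (Finset.mem_union_right _ (Finset.mem_image_of_mem σ hw')))
    · intro τ hτ
      rw [map_mul]
      exact Ge.mul0 (hT τ (Finset.mem_insert_of_mem hτ)) (e3 τ (Finset.mem_union_left _ hτ))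

end Idem

section Main

variable (A : ValuationSubring Qb) {ℓ : ℕ}

/-- **(IC-1)** If every `H`-conjugate of `x` different from `x` is separated from `x` at `A`,
then `x` is approximated to any precision by `H`-fixed elements. -/
theorem exists_fixed_approx (hℓ : ℓ.Prime) (hA : A.LiesOverPrime ℓ)
    (H : Subgroup (Qb ≃ₐ[ℚ] Qb)) (x : Qb)
    (hsep : ∀ σ ∈ H, σ x ≠ x → ∃ u : Qb, (∀ τ ∈ H, τ x = x → τ u = u) ∧
      0 < (ordOfSubring A).ord u ∧ (ordOfSubring A).ord (σ u) < 0) (K : ℕ) :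
    ∃ c : Qb, (∀ τ ∈ H, τ c = c) ∧
      (ordOfSubring A).Ge (x - c) (K • (ordOfSubring A).ord (ℓ : Qb)) := by
  classical
  by_cases hx0 : x = 0
  · refine ⟨0, fun τ _ => map_zero τ, ?_⟩
    rw [hx0, sub_zero]
    exact Ge.zero _
  have hpos := (Fermat.Agent.S13.ord_prime_pos A ℓ hℓ hA).2
  have hint : IsIntegral ℚ x := ((AlgebraicClosure.isAlgebraic ℚ).isAlgebraic x).isIntegral
  -- the orbit of `x`
  let O : Finset Qb :=
    ((minpoly ℚ x).aroots Qb).toFinset.filter (fun z => ∃ σ ∈ H, σ x = z)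
  have hO : ∀ z, z ∈ O ↔ ∃ σ ∈ H, σ x = z := by
    intro z
    simp only [O, Finset.mem_filter, Multiset.mem_toFinset, Polynomial.mem_aroots]
    constructor
    · exact fun h => h.2
    · rintro ⟨σ, hσ, rfl⟩
      refine ⟨⟨minpoly.ne_zero hint, ?_⟩, σ, hσ, rfl⟩
      rw [Polynomial.aeval_algHom_apply, minpoly.aeval, map_zero]
  have hxO : x ∈ O := (hO x).mpr ⟨1, H.one_mem, rfl⟩
  have hτO : ∀ τ ∈ H, ∀ z ∈ O, τ z ∈ O := by
    intro τ hτ z hz
    obtain ⟨σ, hσ, rfl⟩ := (hO z).mp hz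
    exact (hO _).mpr ⟨τ * σ, H.mul_mem hτ hσ, rfl⟩
  have hOex : ∀ z, z ∈ O → ∃ σ : Qb ≃ₐ[ℚ] Qb, σ ∈ H ∧ σ x = z := fun z hz => (hO z).mp hz
  choose! rep hrepH hrepx using hOex
  have hzne : ∀ z ∈ O, z ≠ 0 := by
    intro z hz h
    rw [← hrepx z hz] at h
    exact hx0 ((map_eq_zero_iff _ (rep z).injective).mp h)
  -- separators
  have hsep' : ∀ z, z ∈ O.erase x → ∃ u : Qb, (∀ τ ∈ H, τ x = x → τ u = u) ∧
      0 < (ordOfSubring A).ord u ∧ (ordOfSubring A).ord (rep z u) < 0 := by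
    intro z hz
    obtain ⟨hzx, hzO⟩ := Finset.mem_erase.mp hz
    exact hsep (rep z) (hrepH z hzO) (by rw [hrepx z hzO]; exact hzx)
  choose! u hufix hupos huneg using hsep'
  -- bounds
  have hjex : ∀ z, z ∈ O → ∃ j : ℕ, (ordOfSubring A).ord z⁻¹ ≤ j • (ordOfSubring A).ord (ℓ : Qb) :=
    fun z hz => Fermat.Agent.S18.BaseDVR.exists_ord_le A hℓ hA z⁻¹ (inv_ne_zero (hzne z hz))
  choose! j hj using hjex
  obtain ⟨y, hyfix, hy1, hyW, -⟩ := exists_prod_idem A hℓ hA (O.erase x) rep u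
    (fun w hw => hupos w hw) (fun w hw => huneg w hw) (K + ∑ z ∈ O, j z) ∅
  have hyfix' : ∀ τ ∈ H, τ x = x → τ y = y := fun τ hτ hτx =>
    hyfix τ (fun w hw => hufix w hw τ hτ hτx)
  have hbound : ∀ z ∈ O, K • (ordOfSubring A).ord (ℓ : Qb) ≤
      (K + ∑ z ∈ O, j z) • (ordOfSubring A).ord (ℓ : Qb) + (ordOfSubring A).ord z := by
    intro z hz
    refine aux_le hpos.le (Finset.single_le_sum (fun _ _ => Nat.zero_le _) hz) ?_
    rw [← ord_inv _ (hzne z hz)]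
    exact hj z hz
  refine ⟨∑ z ∈ O, rep z (y * x), ?_, ?_⟩
  · intro τ hτ
    rw [map_sum]
    have key : ∀ z ∈ O, τ (rep z (y * x)) = rep (τ z) (y * x) := by
      intro z hz
      have hτz : τ z ∈ O := hτO τ hτ z hz
      have hsH : (rep (τ z))⁻¹ * (τ * rep z) ∈ H :=
        H.mul_mem (H.inv_mem (hrepH _ hτz)) (H.mul_mem hτ (hrepH z hz))
      have hsx : ((rep (τ z))⁻¹ * (τ * rep z)) x = x := by
        apply (rep (τ z)).injective
        rw [← AlgEquiv.mul_apply, mul_inv_cancel_left, AlgEquiv.mul_apply, hrepx z hz,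
          hrepx _ hτz]
      have hsyx : ((rep (τ z))⁻¹ * (τ * rep z)) (y * x) = y * x := by
        rw [map_mul, hyfix' _ hsH hsx, hsx]
      calc τ (rep z (y * x)) = (rep (τ z) * ((rep (τ z))⁻¹ * (τ * rep z))) (y * x) := by
            rw [mul_inv_cancel_left, AlgEquiv.mul_apply]
        _ = rep (τ z) (y * x) := by rw [AlgEquiv.mul_apply, hsyx]
    rw [Finset.sum_congr rfl key]
    refine Finset.sum_nbij' (fun z => τ z) (fun z => τ⁻¹ z) (fun z hz => hτO τ hτ z hz)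
      (fun z hz => hτO τ⁻¹ (H.inv_mem hτ) z hz) (fun z _ => ?_) (fun z _ => ?_) (fun z _ => rfl)
    · rw [← AlgEquiv.mul_apply, inv_mul_cancel, AlgEquiv.one_apply]
    · rw [← AlgEquiv.mul_apply, mul_inv_cancel, AlgEquiv.one_apply]
  · rw [← Finset.add_sum_erase O _ hxO]
    have h0 : rep x (y * x) = y * x := by
      rw [map_mul, hyfix' _ (hrepH x hxO) (hrepx x hxO), hrepx x hxO]
    have h1 : ∀ z ∈ O.erase x, rep z (y * x) = rep z y * z := fun z hz => by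
      rw [map_mul, hrepx z (Finset.mem_of_mem_erase hz)]
    have h2 : x - (rep x (y * x) + ∑ z ∈ O.erase x, rep z (y * x)) =
        (1 - y) * x - ∑ z ∈ O.erase x, rep z y * z := by
      rw [h0, Finset.sum_congr rfl h1]
      ring
    rw [h2]
    refine Ge.sub ?_ (ge_sum A _ _ _ fun z hz => ?_)
    · exact (hy1.mul (ge_of_ne hx0 le_rfl)).mono (hbound x hxO)
    · have hzO := Finset.mem_of_mem_erase hz
      exact ((hyW z hz).mul (ge_of_ne (hzne z hzO) le_rfl)).mono (hbound z hzO)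

/-- **(IC-2)** If every conjugate of `x` over an intermediate field `C` is separated from `x`
at `A`, and the value group of `C` is `ℤ γ`, then `ord_A x ∈ ℤ γ`. -/
theorem ord_of_separated_base (hℓ : ℓ.Prime) (hA : A.LiesOverPrime ℓ)
    (C : IntermediateField ℚ Qb) (γ : Additive (A.ValueGroup)ˣ)
    (hC : ∀ c : Qb, c ∈ C → c ≠ 0 → ∃ m : ℤ, (ordOfSubring A).ord c = m • γ)
    (x : Qb) (hx : x ≠ 0)
    (hsep : ∀ σ ∈ C.fixingSubgroup, σ x ≠ x → ∃ u : Qb,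
      (∀ τ ∈ C.fixingSubgroup, τ x = x → τ u = u) ∧
      0 < (ordOfSubring A).ord u ∧ (ordOfSubring A).ord (σ u) < 0) :
    ∃ m : ℤ, (ordOfSubring A).ord x = m • γ := by
  obtain ⟨j, hj⟩ := Fermat.Agent.S18.BaseDVR.exists_ord_le A hℓ hA x hx
  obtain ⟨c, hcfix, hc⟩ := exists_fixed_approx A hℓ hA C.fixingSubgroup x hsep (j + 1)
  have hpos := (Fermat.Agent.S13.ord_prime_pos A ℓ hℓ hA).2
  have hlt : (ordOfSubring A).ord x < (j + 1) • (ordOfSubring A).ord (ℓ : Qb) :=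
    lt_of_le_of_lt hj (nsmul_lt_nsmul_left hpos (by omega))
  have h := ord_sub_eq (V := ordOfSubring A) hx (hc.gt_of_lt hlt)
  rw [sub_sub_cancel] at h
  have hcC : c ∈ C := by
    have : Algebra.IsAlgebraic ℚ Qb := AlgebraicClosure.isAlgebraic ℚ
    have : IsAlgClosure ℚ Qb := ⟨inferInstance, inferInstance⟩
    have : IsGalois ℚ Qb := IsAlgClosure.isGalois ℚ Qb
    rw [← InfiniteGalois.fixedField_fixingSubgroup C, IntermediateField.mem_fixedField_iff]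
    exact fun τ hτ => hcfix τ hτ
  obtain ⟨m, hm⟩ := hC c hcC h.1
  exact ⟨m, by rw [← h.2, hm]⟩

/-- **(IC-3)** The case `C = ℚ(μ_n : ℓ ∤ n)`: separated conjugates ⟹ `ord_A x ∈ ℤ · ord_A ℓ`. -/
theorem ord_of_separated (hℓ : ℓ.Prime) (hA : A.LiesOverPrime ℓ) (x : Qb) (hx : x ≠ 0)
    (hsep : ∀ σ ∈ (Fermat.Agent.S18.BaseDVR.cycloField ℓ).fixingSubgroup, σ x ≠ x → ∃ u : Qb,
      (∀ τ ∈ (Fermat.Agent.S18.BaseDVR.cycloField ℓ).fixingSubgroup, τ x = x → τ u = u) ∧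
      0 < (ordOfSubring A).ord u ∧ (ordOfSubring A).ord (σ u) < 0) :
    ∃ k : ℤ, (ordOfSubring A).ord x = k • (ordOfSubring A).ord (ℓ : Qb) :=
  ord_of_separated_base A hℓ hA (Fermat.Agent.S18.BaseDVR.cycloField ℓ) _
    (fun c hc hc0 => Fermat.Agent.S18.BaseDVR.ord_cycloField A hℓ hA c hc hc0) x hx hsep

/-- **(IC-4)** glue: elements of `C(x)` are fixed by the stabiliser of `x` in `G_C`. -/
theorem fixed_of_mem_adjoin (C : IntermediateField ℚ Qb) (x u : Qb)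
    (hu : u ∈ IntermediateField.adjoin ℚ ((C : Set Qb) ∪ {x})) (τ : Qb ≃ₐ[ℚ] Qb)
    (hτ : τ ∈ C.fixingSubgroup) (hx : τ x = x) : τ u = u := by
  have hle : IntermediateField.adjoin ℚ ((C : Set Qb) ∪ {x}) ≤
      IntermediateField.fixedField (Subgroup.zpowers τ) := by
    rw [IntermediateField.adjoin_le_iff]
    rintro z (hz | hz)
    · rw [SetLike.mem_coe, IntermediateField.mem_fixedField_iff]
      rintro _ ⟨n, rfl⟩
      have h1 : τ ^ n ∈ C.fixingSubgroup := Subgroup.zpow_mem _ hτ n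
      exact (IntermediateField.mem_fixingSubgroup_iff C (τ ^ n)).mp h1 z hz
    · rw [Set.mem_singleton_iff] at hz
      subst hz
      rw [SetLike.mem_coe, IntermediateField.mem_fixedField_iff]
      rintro _ ⟨n, rfl⟩
      have h2 : τ ^ n ∈ MulAction.stabilizer (Qb ≃ₐ[ℚ] Qb) z :=
        Subgroup.zpow_mem _ (MulAction.mem_stabilizer_iff.mpr hx) n
      exact MulAction.mem_stabilizer_iff.mp h2
  have := (IntermediateField.mem_fixedField_iff _ u).mp (hle hu) τ (Subgroup.mem_zpowers τ)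
  exact this

end Main

end Fermat.Agent.S36.ImmCore
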