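/-
S36 (wave 8), K2, package (V): Gauss-integrality at level `M q²` from the three expansions.

`F = FF L (M q²)`, `K₁ = FF L (M q)`, `E : VDefs.Exp3 M q w₁ ζ` the two further expansions,
`hcyc : VDefs.CycData W q W' ζ` the cyclotomic package.

* `isIntegralElem_mul_of_coeff_int` : a root `x` of a monic polynomial whose lower coefficients
  become integral after multiplication by `φ s` has `φ s * x` integral;
* `tw_mem_contentRing`, `mem_contentRing_of_coeffMap`, `mem_contentRing_of_qExpand` :
  the twist preserves the content ring; reflection of content-integrality along coefficient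
  extension and along `Q ↦ Q ^ d`;
* `exists_isIntegralElem_of_three` : **(V2 ⇐)**, multiplier form;
* `inC_of_three` : **(V2 ⇐)** in the currency of `S18.Endgame`;
* `gaussOne_of_three` : **(V3)**.
-/
import Mathlib
import Fermat.Agent.S36.VDefs
import Fermat.Agent.S36.Conj3
import Fermat.Agent.S36.CycLemmas
import Fermat.Agent.S36.Exp3Lemmas
import Fermat.Agent.S34.KummerStep
import Fermat.Agent.S35.EsSeries

set_option autoImplicit false
set_option linter.unusedSectionVars false
set_option linter.unusedVariables false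
set_option linter.style.haveILetI false

noncomputable section

namespace Fermat.Agent.S36.InC3

open ModularCurve Polynomial Fermat.Agent.S18 Fermat.Agent.S18.Gauss Fermat.Agent.S28
open Fermat.Agent.S24 Fermat.Agent.S36.VDefs Fermat.Agent.S34.KummerStep
open Fermat.Agent.S35.EsSeries

/-! ### Generic algebra -/

/-- If `x` is a root of a monic polynomial `p` over `B` whose lower coefficients become integral
over `A` after multiplication by `φ s`, then `φ s * x` is integral over `A`. -/
theorem isIntegralElem_mul_of_coeff_int {A B : Type*} [CommRing A] [CommRing B] (φ : A →+* B)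
    (x : B) (p : B[X]) (hp : p.Monic) (hx : p.eval x = 0) (s : A)
    (hs : ∀ k, k < p.natDegree → φ.IsIntegralElem (φ s * p.coeff k)) :
    φ.IsIntegralElem (φ s * x) := by
  by_cases hdeg : p.natDegree = 0
  · have h1 : p = 1 := (Polynomial.Monic.natDegree_eq_zero hp).mp hdeg
    rw [h1, eval_one] at hx
    have h2 : φ s * x = 0 := by rw [← mul_one (φ s * x), hx, mul_zero]
    rw [h2]
    exact φ.isIntegralElem_zero
  · letI : Algebra A B := φ.toAlgebra
    have hmonic : (scaleRoots p (φ s)).Monic := (monic_scaleRoots_iff (φ s)).mpr hp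
    have hnat : (scaleRoots p (φ s)).natDegree ≠ 0 := by
      rw [natDegree_scaleRoots]
      exact hdeg
    have hroot : eval (φ s * x) (scaleRoots p (φ s)) = 0 := by
      have h := scaleRoots_eval₂_eq_zero (RingHom.id B) (p := p) (r := x) (s := φ s)
        (by rw [eval₂_id]; exact hx)
      rw [eval₂_id] at h
      exact h
    have hsint : IsIntegral A (φ s) := isIntegral_algebraMap (x := s)
    have hcoeff : ∀ i, IsIntegral A ((scaleRoots p (φ s)).coeff i) := by
      intro i
      rw [coeff_scaleRoots]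
      rcases lt_trichotomy i p.natDegree with hi | hi | hi
      · obtain ⟨m, hm⟩ : ∃ m, p.natDegree - i = m + 1 := ⟨p.natDegree - i - 1, by omega⟩
        have h3 : p.coeff i * φ s ^ (p.natDegree - i) = (φ s * p.coeff i) * φ s ^ m := by
          rw [hm, pow_succ]
          ring
        rw [h3]
        exact IsIntegral.mul (hs i hi) (IsIntegral.pow hsint m)
      · rw [hi, Nat.sub_self, pow_zero, mul_one, hp.coeff_natDegree]
        exact isIntegral_one
      · rw [coeff_eq_zero_of_natDegree_lt hi, zero_mul]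
        exact isIntegral_zero
    have hx0 : IsIntegral A (eval (φ s * x) (scaleRoots p (φ s))) := by
      rw [hroot]
      exact isIntegral_zero
    exact IsIntegral.of_aeval_monic_of_isIntegral_coeff hmonic hnat hx0 hcoeff

theorem X_sub_C_mem_range {R : Type*} [CommRing R] (S : Subring R) {a : R} (ha : a ∈ S) :
    (X - C a : R[X]) ∈ (Polynomial.mapRingHom S.subtype).range :=
  ⟨X - C ⟨a, ha⟩, by simp⟩

theorem coeff_mem_of_mem_range {R : Type*} [CommRing R] (S : Subring R) {p : R[X]}
    (hp : p ∈ (Polynomial.mapRingHom S.subtype).range) (i : ℕ) : p.coeff i ∈ S := by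
  obtain ⟨p', rfl⟩ := hp
  rw [coe_mapRingHom, coeff_map]
  exact (p'.coeff i).2

/-! ### Content rings: twist and reflection -/

section Content

variable {L : Type*} [Field L] (W : ValuationSubring L)

/-- the twist by a root of unity preserves the content ring -/
theorem tw_mem_contentRing (ζ : Lˣ) {q : ℕ} (hq : 0 < q) (hζ : ζ ^ q = 1)
    {f : LaurentSeries L} (hf : f ∈ contentRing W) : tw ζ f ∈ contentRing W := by
  obtain ⟨x, y, hy, h⟩ := hf
  have hL : ∀ z : LaurentSeries W,
      toL W (tw (rootUnit (W := W) ζ hq hζ) z) = tw ζ (toL W z) := by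
    intro z
    show coeffMap W.subtype (tw (rootUnit (W := W) ζ hq hζ) z) = tw ζ (toL W z)
    rw [coeffMap_tw]
    rfl
  refine ⟨tw (rootUnit (W := W) ζ hq hζ) x, tw (rootUnit (W := W) ζ hq hζ) y, ?_, ?_⟩
  · show coeffMap (IsLocalRing.residue W) (tw (rootUnit (W := W) ζ hq hζ) y) ≠ 0
    rw [coeffMap_tw]
    intro h0
    apply hy
    apply tw_injective (Units.map ((IsLocalRing.residue W : ↥W →+* IsLocalRing.ResidueField W) :
      ↥W →* IsLocalRing.ResidueField W) (rootUnit (W := W) ζ hq hζ))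
    rw [map_zero]
    exact h0
  · rw [hL, hL, ← map_mul, h]

/-- reflection of content-integrality along a coefficient extension -/
theorem mem_contentRing_of_coeffMap {L₀ : Type*} [Field L₀] (τ : L₀ →+* L)
    (W₀ : ValuationSubring L₀) [IsDiscreteValuationRing W₀]
    (hW : ∀ c : L₀, c ∈ W₀ ↔ τ c ∈ W) {f : LaurentSeries L₀} (hf : f ∈ fracInt W₀)
    (h : coeffMap τ f ∈ contentRing W) : f ∈ contentRing W₀ := by
  by_contra hnot
  obtain ⟨hinv, hred⟩ := inv_mem_contentRing_of_not_mem W₀ hf hnot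
  have hf0 : f ≠ 0 := fun h0 => hnot (by rw [h0]; exact zero_mem _)
  have h1 := Fermat.Agent.S37.LevelChange.coeffMap_mem_contentRing τ W₀ W hW hinv
  have h2 := Fermat.Agent.S37.LevelChange.red_coeffMap τ W₀ W hW hinv
  rw [hred, map_zero] at h2
  have h3 : (⟨coeffMap τ f, h⟩ : contentRing W) * ⟨coeffMap τ f⁻¹, h1⟩ = 1 :=
    Subtype.ext (by
      show coeffMap τ f * coeffMap τ f⁻¹ = 1
      rw [← map_mul, mul_inv_cancel₀ hf0, map_one])
  have h4 := congrArg (red W) h3
  rw [map_mul, h2, mul_zero, map_one] at h4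
  exact zero_ne_one h4

/-- reflection of content-integrality along `Q ↦ Q ^ d` -/
theorem mem_contentRing_of_qExpand [IsDiscreteValuationRing W] (d : ℕ) [NeZero d]
    {f : LaurentSeries L} (hf : f ∈ fracInt W) (h : qExpand L d f ∈ contentRing W) :
    f ∈ contentRing W := by
  by_contra hnot
  obtain ⟨hinv, hred⟩ := inv_mem_contentRing_of_not_mem W hf hnot
  have hf0 : f ≠ 0 := fun h0 => hnot (by rw [h0]; exact zero_mem _)
  have h1 := qExpand_mem_contentRing W d hinv
  have h2 := red_qExpand W d hinv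
  rw [hred, map_zero] at h2
  have h3 : (⟨qExpand L d f, h⟩ : contentRing W) * ⟨qExpand L d f⁻¹, h1⟩ = 1 :=
    Subtype.ext (by
      show qExpand L d f * qExpand L d f⁻¹ = 1
      rw [← map_mul, mul_inv_cancel₀ hf0, map_one])
  have h4 := congrArg (red W) h3
  rw [map_mul, h2, mul_zero, map_one] at h4
  exact zero_ne_one h4

end Content

/-! ### (V2 ⇐) and (V3) -/

variable {L : Type} [Field L] [Algebra ℚ L] (W : ValuationSubring L) [IsDiscreteValuationRing W]
  (M q : ℕ) [NeZero M] [NeZero q] [Fact q.Prime]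
  (w₁ : FF L (M * q) →ₐ[L] FF L (M * q))
  {L' : Type} [Field L'] [Algebra L L'] (W' : ValuationSubring L') [IsDiscreteValuationRing W']
  (ζ : L'ˣ)

/-- the evaluation maps at `j` are compatible with `α₂` -/
theorem alpha_comp_evF :
    ((heckeAlphaBar L (M * q) q : FF L (M * q) →ₐ[L] FF L (M * q * q)) :
      FF L (M * q) →+* FF L (M * q * q)).comp (PGGlue.evF W (M * q)) =
      PGGlue.evF W (M * q * q) := by
  apply Polynomial.ringHom_ext
  · intro c
    rw [RingHom.comp_apply, PGGlue.evF, PGGlue.evF, Polynomial.coe_eval₂RingHom,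
      Polynomial.coe_eval₂RingHom, Polynomial.eval₂_C, Polynomial.eval₂_C, RingHom.comp_apply,
      RingHom.comp_apply]
    exact (heckeAlphaBar L (M * q) q).commutes _
  · rw [RingHom.comp_apply, PGGlue.evF, PGGlue.evF, Polynomial.coe_eval₂RingHom,
      Polynomial.coe_eval₂RingHom, Polynomial.eval₂_X, Polynomial.eval₂_X]
    exact Subtype.ext (by rw [RingHom.coe_coe, coe_heckeAlphaBar, coe_jBC, coe_jBC])

variable [CharP (IsLocalRing.ResidueField W) q]

set_option maxHeartbeats 800000 in
/-- **(V2 ⇐)**, multiplier form: an element of `F = FF L (M q²)` whose three expansions lie in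
the content rings becomes integral over `W[j]` after multiplication by `S(j)`, `S` a polynomial
over `W` with nonzero reduction. -/
theorem exists_isIntegralElem_of_three (hqM : ¬ q ∣ M)
    (hwα : w₁.comp (heckeAlphaBar L M q) = heckeBetaBar L M q)
    (hwβ : w₁.comp (heckeBetaBar L M q) = heckeAlphaBar L M q) (ι₀ : L' →+* ℂ)
    (hcyc : CycData W q W' ζ) (E : Exp3 M q w₁ ζ) (x : FF L (M * q * q))
    (h₁ : (x : LaurentSeries L) ∈ contentRing W) (h₂ : E.phi0 x ∈ contentRing W)
    (h₃ : E.psi x ∈ contentRing W') :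
    ∃ S : (↥W)[X], S.map (IsLocalRing.residue W) ≠ 0 ∧
      (PGGlue.evF W (M * q * q)).IsIntegralElem (PGGlue.evF W (M * q * q) S * x) := by
  classical
  have hq : q.Prime := Fact.out
  have hζq : ζ ^ q = 1 := Fermat.Agent.S36.CycLemmas.zeta_pow W q W' ζ hcyc
  have hWW' : ∀ c : L, c ∈ W ↔ algebraMap L L' c ∈ W' := fun c => (hcyc.comap c).symm
  -- the automorphisms `σ_k`
  have hgal : ∀ k : ℕ, ∃ σ : L' ≃ₐ[L] L', 1 ≤ k → k < q →
      σ (ζ : L') = (ζ : L') ^ k ∧ ∀ x ∈ W', σ x ∈ W' := by
    intro k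
    by_cases hk : 1 ≤ k ∧ k < q
    · obtain ⟨σ, h1, h2⟩ := hcyc.gal k (Nat.not_dvd_of_pos_of_lt hk.1 hk.2)
      exact ⟨σ, fun _ _ => ⟨h1, h2⟩⟩
    · exact ⟨AlgEquiv.refl, fun h1 h2 => absurd ⟨h1, h2⟩ hk⟩
  choose σ hσ using hgal
  obtain ⟨P, hPm, hPx, hP1, hP2⟩ := Fermat.Agent.S36.Conj3.exists_poly_alpha M q w₁ ζ hqM hwα hwβ
    ι₀ hcyc.prim E σ (fun k h1 h2 => (hσ k h1 h2).1) x
  -- the roots lie in the content ring of `W'`
  have hr1 : coeffMap (algebraMap L L') (x : LaurentSeries L) ∈ contentRing W' :=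
    Fermat.Agent.S37.LevelChange.coeffMap_mem_contentRing (algebraMap L L') W W' hWW' h₁
  have hr2 : ∀ k ∈ Finset.Ico 1 q,
      coeffMap ((σ k : L' ≃ₐ[L] L') : L' →+* L') (E.psi x) ∈ contentRing W' := by
    intro k hk
    obtain ⟨hk1, hk2⟩ := Finset.mem_Ico.mp hk
    exact Fermat.Agent.S36.CycLemmas.coeffMap_mem_of_gal W q W' ζ hcyc (σ k) k
      (hσ k hk1 hk2).1 (hσ k hk1 hk2).2 _ h₃
  have hr3 : ∀ b ∈ Finset.range q,
      tw (ζ ^ b) (coeffMap (algebraMap L L') (E.phi0 x)) ∈ contentRing W' := by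
    intro b _
    refine tw_mem_contentRing W' (ζ ^ b) hq.pos ?_
      (Fermat.Agent.S37.LevelChange.coeffMap_mem_contentRing (algebraMap L L') W W' hWW' h₂)
    rw [← pow_mul, mul_comm, pow_mul, hζq, one_pow]
  -- the coefficients of `P` are content-integral at both expansions of level `M q`
  have hc1 : ∀ i : ℕ, ((P.coeff i : FF L (M * q)) : LaurentSeries L) ∈ contentRing W := by
    intro i
    refine mem_contentRing_of_coeffMap W' (algebraMap L L') W hWW'
      (Fermat.Agent.S34.TwoGauss.coe_mem_fracInt W (M * q) (P.coeff i)) ?_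
    have hmem : P.map ((Fermat.Agent.S36.Conj3.cL :
        LaurentSeries L →+* LaurentSeries L').comp (Fermat.Agent.S36.Conj3.coeH (M * q))) ∈
        (Polynomial.mapRingHom (contentRing W').subtype).range := by
      rw [hP1]
      exact Subring.mul_mem _ (X_sub_C_mem_range _ hr1)
        (Subring.prod_mem _ fun k hk => X_sub_C_mem_range _ (hr2 k hk))
    have h5 := coeff_mem_of_mem_range _ hmem i
    rw [coeff_map] at h5
    exact h5
  have hc2 : ∀ i : ℕ, ((w₁ (P.coeff i) : FF L (M * q)) : LaurentSeries L) ∈ contentRing W := by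
    intro i
    have hfrac := Fermat.Agent.S34.TwoGauss.coe_mem_fracInt W (M * q) (w₁ (P.coeff i))
    refine mem_contentRing_of_qExpand W q hfrac ?_
    refine mem_contentRing_of_coeffMap W' (algebraMap L L') W hWW'
      (Fermat.Agent.S36.Exp3Lemmas.qExpand_mem_fracInt W q hfrac) ?_
    have hmem : P.map ((Fermat.Agent.S36.Conj3.cL :
        LaurentSeries L →+* LaurentSeries L').comp ((qExpand L q).comp
          ((Fermat.Agent.S36.Conj3.coeH (M * q)).comp
            (w₁ : FF L (M * q) →+* FF L (M * q))))) ∈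
        (Polynomial.mapRingHom (contentRing W').subtype).range := by
      rw [hP2]
      exact Subring.prod_mem _ fun b hb => X_sub_C_mem_range _ (hr3 b hb)
    have h5 := coeff_mem_of_mem_range _ hmem i
    rw [coeff_map] at h5
    exact h5
  -- the multipliers at level `M q`
  have hS : ∀ i : ℕ, ∃ S : (↥W)[X], S.map (IsLocalRing.residue W) ≠ 0 ∧
      (PGGlue.evF W (M * q)).IsIntegralElem (PGGlue.evF W (M * q) S * P.coeff i) := fun i =>
    Fermat.Agent.S34.TwoGauss.exists_isIntegralElem_of_mem_both W M q w₁ hqM hwα hwβ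
      (P.coeff i) (hc1 i) (hc2 i)
  choose S hS0 hSint using hS
  refine ⟨∏ k ∈ Finset.range P.natDegree, S k, ?_, ?_⟩
  · rw [Polynomial.map_prod]
    exact Finset.prod_ne_zero_iff.mpr fun k _ => hS0 k
  · have hmonic : (P.map ((heckeAlphaBar L (M * q) q : FF L (M * q) →ₐ[L] FF L (M * q * q)) :
        FF L (M * q) →+* FF L (M * q * q))).Monic := hPm.map _
    have hroot : (P.map ((heckeAlphaBar L (M * q) q : FF L (M * q) →ₐ[L] FF L (M * q * q)) :
        FF L (M * q) →+* FF L (M * q * q))).eval x = 0 := by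
      rw [Polynomial.eval_map]
      exact hPx
    refine isIntegralElem_mul_of_coeff_int (PGGlue.evF W (M * q * q)) x _ hmonic hroot _ ?_
    intro k hk
    have hk' : k ∈ Finset.range P.natDegree := by
      rw [Finset.mem_range]
      exact lt_of_lt_of_le hk (Polynomial.natDegree_map_le)
    have e1 : ∀ T : (↥W)[X], PGGlue.evF W (M * q * q) T =
        heckeAlphaBar L (M * q) q (PGGlue.evF W (M * q) T) := by
      intro T
      rw [← alpha_comp_evF W M q]
      rfl
    have e2 : PGGlue.evF W (M * q * q) (∏ k ∈ Finset.range P.natDegree, S k) *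
        (P.map ((heckeAlphaBar L (M * q) q : FF L (M * q) →ₐ[L] FF L (M * q * q)) :
          FF L (M * q) →+* FF L (M * q * q))).coeff k =
        PGGlue.evF W (M * q * q) (∏ i ∈ (Finset.range P.natDegree).erase k, S i) *
          heckeAlphaBar L (M * q) q (PGGlue.evF W (M * q) (S k) * P.coeff k) := by
      rw [Polynomial.coeff_map, ← Finset.mul_prod_erase _ _ hk', map_mul, e1 (S k), map_mul]
      show _ * _ * heckeAlphaBar L (M * q) q (P.coeff k) = _
      ring
    rw [e2]
    refine RingHom.IsIntegralElem.mul _ (RingHom.isIntegralElem_map _) ?_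
    have h6 := RingHom.IsIntegralElem.map (hSint k)
      ((heckeAlphaBar L (M * q) q : FF L (M * q) →ₐ[L] FF L (M * q * q)) :
        FF L (M * q) →+* FF L (M * q * q))
    rw [alpha_comp_evF W M q] at h6
    exact h6

variable [Algebra ↥W (FF L (M * q * q))] [IsScalarTower ↥W L (FF L (M * q * q))]

/-- **(V2 ⇐)** in the currency of `S18.Endgame`: Gauss-integrality over `W[j]` at level `M q²`
follows from content-integrality of the three expansions. -/
theorem inC_of_three (hqM : ¬ q ∣ M)
    (hwα : w₁.comp (heckeAlphaBar L M q) = heckeBetaBar L M q)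
    (hwβ : w₁.comp (heckeBetaBar L M q) = heckeAlphaBar L M q) (ι₀ : L' →+* ℂ)
    (hcyc : CycData W q W' ζ) (E : Exp3 M q w₁ ζ) {π : ↥W} (hπ : Irreducible π)
    (x : FF L (M * q * q))
    (h₁ : (x : LaurentSeries L) ∈ contentRing W) (h₂ : E.phi0 x ∈ contentRing W)
    (h₃ : E.psi x ∈ contentRing W') :
    Endgame.InC π (jBC L (M * q * q)) x := by
  obtain ⟨S, hS, hint⟩ := exists_isIntegralElem_of_three W M q w₁ W' ζ hqM hwα hwβ ι₀ hcyc E x
    h₁ h₂ h₃
  refine ⟨S, Fermat.Agent.S34.TwoGauss.not_C_dvd_of_map_ne_zero W hπ.not_isUnit hS, ?_⟩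
  show (Endgame.ev ↥W (jBC L (M * q * q))).IsIntegralElem
    (Endgame.ev ↥W (jBC L (M * q * q)) S * x)
  rw [Fermat.Agent.S34.TwoGauss.ev_eq_evF W (M * q) q]
  exact hint

/-- **(V3)** the strong congruence `w ≡ 1 mod π` on the three expansions gives `GaussOne`. -/
theorem gaussOne_of_three (hqM : ¬ q ∣ M)
    (hwα : w₁.comp (heckeAlphaBar L M q) = heckeBetaBar L M q)
    (hwβ : w₁.comp (heckeBetaBar L M q) = heckeAlphaBar L M q) (ι₀ : L' →+* ℂ)
    (hcyc : CycData W q W' ζ) (E : Exp3 M q w₁ ζ) {π : ↥W} (hπ : Irreducible π)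
    (w : FF L (M * q * q)) (g₁ g₂ : LaurentSeries L) (g₃ : LaurentSeries L')
    (hg₁ : g₁ ∈ contentRing W) (hg₂ : g₂ ∈ contentRing W) (hg₃ : g₃ ∈ contentRing W')
    (h₁ : (w : LaurentSeries L) - 1 = HahnSeries.C ((π : W) : L) * g₁)
    (h₂ : E.phi0 w - 1 = HahnSeries.C ((π : W) : L) * g₂)
    (h₃ : E.psi w - 1 = HahnSeries.C (algebraMap L L' ((π : W) : L)) * g₃) :
    GaussOne π (jBC L (M * q * q)) w := by
  have hπ0 : ((π : W) : L) ≠ 0 := fun h0 => hπ.ne_zero (Subtype.ext h0)
  set π' : FF L (M * q * q) := algebraMap L (FF L (M * q * q)) ((π : W) : L) with hπ'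
  have hπ'0 : π' ≠ 0 := (_root_.map_ne_zero (algebraMap L (FF L (M * q * q)))).mpr hπ0
  set c : FF L (M * q * q) := (w - 1) / π' with hc
  have hwc : w - 1 = π' * c := by rw [hc, mul_div_cancel₀ _ hπ'0]
  have hC0 : (HahnSeries.C ((π : W) : L) : LaurentSeries L) ≠ 0 :=
    (_root_.map_ne_zero (HahnSeries.C : L →+* LaurentSeries L)).mpr hπ0
  have hC0' : (HahnSeries.C (algebraMap L L' ((π : W) : L)) : LaurentSeries L') ≠ 0 :=
    (_root_.map_ne_zero (HahnSeries.C : L' →+* LaurentSeries L')).mpr
      ((_root_.map_ne_zero (algebraMap L L')).mpr hπ0)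
  -- the three expansions of `c`
  have e1 : ((c : FF L (M * q * q)) : LaurentSeries L) = g₁ := by
    have h := congrArg (fun z : FF L (M * q * q) => (z : LaurentSeries L)) hwc
    have h' : (w : LaurentSeries L) - 1 =
        algebraMap L (LaurentSeries L) ((π : W) : L) * (c : LaurentSeries L) := h
    rw [Fermat.Agent.S28.Content.algebraMap_eq_C_of_field, h₁] at h'
    exact (mul_left_cancel₀ hC0 h').symm
  have e2 : E.phi0 c = g₂ := by
    have h := congrArg E.phi0 hwc
    rw [map_sub, map_one, map_mul, hπ', Fermat.Agent.S36.Exp3Lemmas.phi0_algebraMap, h₂] at h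
    exact (mul_left_cancel₀ hC0 h).symm
  have e3 : E.psi c = g₃ := by
    have h := congrArg E.psi hwc
    rw [map_sub, map_one, map_mul, hπ', Fermat.Agent.S36.Exp3Lemmas.psi_algebraMap, h₃] at h
    exact (mul_left_cancel₀ hC0' h).symm
  obtain ⟨S, hS, hint⟩ := exists_isIntegralElem_of_three W M q w₁ W' ζ hqM hwα hwβ ι₀ hcyc E c
    (by rw [e1]; exact hg₁) (by rw [e2]; exact hg₂) (by rw [e3]; exact hg₃)
  refine ⟨S, Fermat.Agent.S34.TwoGauss.not_C_dvd_of_map_ne_zero W hπ.not_isUnit hS,
    PGGlue.evF W (M * q * q) S * c, ?_, ?_⟩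
  · refine (Endgame.isInt_iff_isIntegral_adjoin (Y := FF L (M * q * q)) (jBC L (M * q * q))
      (PGGlue.evF W (M * q * q) S * c)).mp ?_
    show (Endgame.ev ↥W (jBC L (M * q * q))).IsIntegralElem _
    rw [Fermat.Agent.S34.TwoGauss.ev_eq_evF W (M * q) q]
    exact hint
  · have h7 : aeval (jBC L (M * q * q)) S = PGGlue.evF W (M * q * q) S := by
      rw [← Endgame.ev_apply, Fermat.Agent.S34.TwoGauss.ev_eq_evF W (M * q) q]
    have h8 : algebraMap ↥W (FF L (M * q * q)) π = π' := by
      rw [IsScalarTower.algebraMap_apply ↥W L (FF L (M * q * q))]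
      rfl
    rw [h7, h8, hwc]
    ring

end Fermat.Agent.S36.InC3
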