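/-
S36 (wave 8), package (V): the uniformiser of the middle valuation at level `M q²`.

For `E : VDefs.Exp3 M q w₁ ζ` the middle expansion of
`tmid = α₂ j − β₂ (β₁ j) = j − j″` is `j(Q) − j(ζ Q) = (1 − ζ) · dq ζ j`, and the difference
quotient `dq ζ j` is a unit of the content ring of any valuation ring of residue characteristic
`q` (its reduction `dq 1 j = Q · dj/dQ` has `Q⁻¹`-coefficient `−1`).

* `psi_j`, `psi_jpp`, `phi0_j`, `phi0_jpp` : the expansions of `j` and `j″`;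
* `psi_tmid` : `E.psi tmid = C (1 − ζ) * dq ζ (jS L')`;
* `isU_dq`, `inv_dq_mem`, `dq_one_jS_ne_zero`.
-/
import Mathlib
import Fermat.Agent.S36.VDefs
import Fermat.Agent.S36.CuspSeries
import Fermat.Agent.S35.EsSeries

set_option autoImplicit false
set_option linter.unusedSectionVars false
set_option linter.unusedVariables false

noncomputable section

namespace Fermat.Agent.S36.MidUnif

open ModularCurve Fermat.Agent.S18.Gauss Fermat.Agent.S28 Fermat.Agent.S35.EsSeries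
open Fermat.Agent.S24 Fermat.Agent.S36.VDefs Fermat.Agent.S36.CuspSeries

/-! ### The difference quotient of `j` is a content unit -/

section Series

theorem gsum_one_neg_one (R : Type*) [CommRing R] : gsum (1 : Rˣ) (-1) = -1 := by
  show -((((1 : Rˣ)⁻¹ : Rˣ) : R) ^ (0 + 1) * ∑ i ∈ Finset.range (0 + 1), ((1 : Rˣ) : R) ^ i) = -1
  simp

/-- `dq 1 j = Q · dj/dQ` is nonzero over any nontrivial ring -/
theorem dq_one_jS_ne_zero (κ : Type*) [CommRing κ] [Nontrivial κ] :
    dq (1 : κˣ) (jS κ) ≠ 0 := by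
  intro h
  have h1 := congrArg (fun z : LaurentSeries κ => z.coeff (-1)) h
  simp only [dq_coeff, HahnSeries.coeff_zero] at h1
  rw [gsum_one_neg_one, jS_coeff_neg_one, mul_one] at h1
  exact one_ne_zero (neg_eq_zero.mp h1)

variable {L : Type*} [Field L] (W : ValuationSubring L)

/-- `dq ζ j` is a unit of the content ring, with reduction `dq 1 j` -/
theorem isU_dq (ζ : Lˣ) {q : ℕ} [hq : Fact q.Prime] [CharP (IsLocalRing.ResidueField W) q]
    (hζ : ζ ^ q = 1) :
    IsU W (dq ζ (jS L)) (dq 1 (jS (IsLocalRing.ResidueField W))) := by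
  have hL : toL W (dq (rootUnit (W := W) ζ hq.out.pos hζ) (jS W)) = dq ζ (jS L) := by
    show coeffMap W.subtype (dq (rootUnit (W := W) ζ hq.out.pos hζ) (jS W)) = dq ζ (jS L)
    rw [coeffMap_dq, coeffMap_jS]
    rfl
  have hK : toK W (dq (rootUnit (W := W) ζ hq.out.pos hζ) (jS W)) =
      dq 1 (jS (IsLocalRing.ResidueField W)) := by
    show coeffMap (IsLocalRing.residue W) (dq (rootUnit (W := W) ζ hq.out.pos hζ) (jS W)) =
      dq 1 (jS (IsLocalRing.ResidueField W))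
    rw [coeffMap_dq, coeffMap_jS]
    have e : Units.map ((IsLocalRing.residue W : ↥W →+* IsLocalRing.ResidueField W) :
        ↥W →* IsLocalRing.ResidueField W) (rootUnit (W := W) ζ hq.out.pos hζ) = 1 :=
      map_residue_rootUnit ζ hζ
    rw [e]
  have hmem : dq ζ (jS L) ∈ contentRing W := by
    rw [← hL]
    exact toL_mem_contentRing W _
  refine ⟨hmem, ?_, dq_one_jS_ne_zero _⟩
  have h1 := red_toL W (dq (rootUnit (W := W) ζ hq.out.pos hζ) (jS W))
  rw [hK] at h1
  rw [← h1]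
  congr 1
  exact Subtype.ext hL.symm

/-- the inverse of `dq ζ j` lies in the content ring -/
theorem inv_dq_mem (ζ : Lˣ) {q : ℕ} [hq : Fact q.Prime] [CharP (IsLocalRing.ResidueField W) q]
    (hζ : ζ ^ q = 1) : (dq ζ (jS L))⁻¹ ∈ contentRing W := by
  obtain ⟨hu, h1, h2⟩ := isU_dq W ζ hζ
  exact inv_mem_contentRing W hu (by rw [h1]; exact h2)

end Series

/-! ### The expansions of `j`, `j″` and of the middle uniformiser -/

variable {L : Type} [Field L] [Algebra ℚ L] (M q : ℕ) [NeZero M] [NeZero q]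
  (w₁ : FF L (M * q) →ₐ[L] FF L (M * q))
  {L' : Type} [Field L'] [Algebra L L'] (ζ : L'ˣ)

theorem coe_jBC_eq_jS (N : ℕ) [NeZero N] : ((jBC L N : FF L N) : LaurentSeries L) = jS L := by
  rw [coe_jBC, Fermat.Agent.S18.Gauss.coeffEmb_jq, jS_eq_jqModC]

variable (L) in
/-- the middle uniformiser `j − j″ = α₂ j − β₂ (β₁ j)` -/
def tmid : FF L (M * q * q) :=
  heckeAlphaBar L (M * q) q (jBC L (M * q)) -
    heckeBetaBar L (M * q) q (heckeBetaBar L M q (jBC L M))

theorem alpha_jBC : heckeAlphaBar L (M * q) q (jBC L (M * q)) = jBC L (M * q * q) :=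
  Subtype.ext (by rw [coe_heckeAlphaBar, coe_jBC, coe_jBC])

theorem tmid_eq : tmid L M q =
    jBC L (M * q * q) - heckeBetaBar L (M * q) q (heckeBetaBar L M q (jBC L M)) := by
  rw [tmid, alpha_jBC]

variable {M q w₁ ζ}

/-- `psi j = j(Q)` -/
theorem psi_j (E : Exp3 M q w₁ ζ) : E.psi (jBC L (M * q * q)) = jS L' := by
  rw [← alpha_jBC, E.psi_alpha, coe_jBC_eq_jS, coeffMap_jS]

/-- `psi j″ = j(ζ Q)` -/
theorem psi_jpp (hwβ : w₁.comp (heckeBetaBar L M q) = heckeAlphaBar L M q)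
    (E : Exp3 M q w₁ ζ) :
    E.psi (heckeBetaBar L (M * q) q (heckeBetaBar L M q (jBC L M))) = tw ζ (jS L') := by
  have h1 : w₁ (heckeBetaBar L M q (jBC L M)) = heckeAlphaBar L M q (jBC L M) :=
    AlgHom.congr_fun hwβ _
  rw [E.psi_beta, h1, coe_heckeAlphaBar, coe_jBC_eq_jS, coeffMap_jS]

/-- `psi (j − j″) = (1 − ζ) · dq ζ j` -/
theorem psi_tmid (hwβ : w₁.comp (heckeBetaBar L M q) = heckeAlphaBar L M q)
    (E : Exp3 M q w₁ ζ) :
    E.psi (tmid L M q) = HahnSeries.C (1 - (ζ : L')) * dq ζ (jS L') := by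
  rw [tmid_eq, map_sub, psi_j E, psi_jpp hwβ E]
  have h := tw_sub_self ζ (jS L')
  have h2 : jS L' - tw ζ (jS L') = -(tw ζ (jS L') - jS L') := by ring
  rw [h2, h, ← neg_mul, ← map_neg, neg_sub]

/-- `phi0 j″ = j(Q)` -/
theorem phi0_jpp (hwβ : w₁.comp (heckeBetaBar L M q) = heckeAlphaBar L M q)
    (E : Exp3 M q w₁ ζ) :
    E.phi0 (heckeBetaBar L (M * q) q (heckeBetaBar L M q (jBC L M))) = jS L := by
  have h1 : w₁ (heckeBetaBar L M q (jBC L M)) = heckeAlphaBar L M q (jBC L M) :=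
    AlgHom.congr_fun hwβ _
  rw [E.phi0_beta, h1, coe_heckeAlphaBar, coe_jBC_eq_jS]

/-- `phi0 j = j(Q^(q²))` -/
theorem phi0_j (hwα : w₁.comp (heckeAlphaBar L M q) = heckeBetaBar L M q)
    (E : Exp3 M q w₁ ζ) :
    E.phi0 (jBC L (M * q * q)) = qExpand L q (qExpand L q (jS L)) := by
  have h0 : jBC L (M * q) = heckeAlphaBar L M q (jBC L M) :=
    Subtype.ext (by rw [coe_heckeAlphaBar, coe_jBC, coe_jBC])
  have h1 : w₁ (heckeAlphaBar L M q (jBC L M)) = heckeBetaBar L M q (jBC L M) :=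
    AlgHom.congr_fun hwα _
  rw [← alpha_jBC, E.phi0_alpha, h0, h1, coe_heckeBetaBar, coe_jBC_eq_jS]

end Fermat.Agent.S36.MidUnif
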