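/-
S36 (wave 8), K2, package (V): **(V2)** Gauss-integrality over `W[j]` at level `M q²` is tested
on the three expansions — the direction `⇒` and the full equivalence.

* `three_of_isIntegralElem` : multiplier form of `(V2 ⇒)`;
* `three_of_inC` : `(V2 ⇒)` in the currency of `S18.Endgame`;
* `inC_iff` : **(V2)**, the statement of the (V) contract.
-/
import Mathlib
import Fermat.Agent.S36.InC3
import Fermat.Agent.S36.MidUnif

set_option autoImplicit false
set_option linter.unusedSectionVars false
set_option linter.unusedVariables false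
set_option linter.style.haveILetI false

noncomputable section

namespace Fermat.Agent.S36.InC3Iff

open ModularCurve Polynomial Fermat.Agent.S18 Fermat.Agent.S18.Gauss Fermat.Agent.S28
open Fermat.Agent.S24 Fermat.Agent.S36.VDefs Fermat.Agent.S34.KummerStep
open Fermat.Agent.S35.EsSeries

/-- integral elements along any ring homomorphism whose image is content-integral are
content-integral -/
theorem mem_contentRing_of_isIntegralElem_gen {L : Type*} [Field L] (W : ValuationSubring L)
    [IsDiscreteValuationRing W] {A F : Type*} [CommRing A] [Field F]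
    (φ : F →+* LaurentSeries L) (hφ : ∀ x, φ x ∈ fracInt W) (ev : A →+* F)
    (hev : ∀ P, φ (ev P) ∈ contentRing W) {y : F} (hy : ev.IsIntegralElem y) :
    φ y ∈ contentRing W := by
  obtain ⟨P, hP, hroot⟩ := hy
  refine mem_contentRing_of_monic_root W (hφ y)
    (P.map ((φ.comp ev).codRestrict (contentRing W) hev)) (hP.map _) ?_
  have hcomp : (contentRing W).subtype.comp ((φ.comp ev).codRestrict (contentRing W) hev) =
      φ.comp ev := RingHom.ext fun _ => rfl
  rw [Polynomial.eval₂_map, hcomp, ← Polynomial.hom_eval₂, hroot, map_zero]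

variable {L : Type} [Field L] [Algebra ℚ L] (W : ValuationSubring L) [IsDiscreteValuationRing W]
  (M q : ℕ) [NeZero M] [NeZero q] [Fact q.Prime]
  (w₁ : FF L (M * q) →ₐ[L] FF L (M * q))
  {L' : Type} [Field L'] [Algebra L L'] (W' : ValuationSubring L') [IsDiscreteValuationRing W']
  (ζ : L'ˣ)

/-- the expansion at the cusp `0` of `P(j)` -/
theorem phi0_comp_evF (hwα : w₁.comp (heckeAlphaBar L M q) = heckeBetaBar L M q)
    (E : Exp3 M q w₁ ζ) :
    E.phi0.comp (PGGlue.evF W (M * q * q)) =
      (qExpand L q).comp ((qExpand L q).comp (PGGlue.evL W)) := by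
  apply Polynomial.ringHom_ext
  · intro a
    rw [RingHom.comp_apply, RingHom.comp_apply, RingHom.comp_apply, PGGlue.evF_C,
      Fermat.Agent.S36.Exp3Lemmas.phi0_algebraMap, PGGlue.evL,
      Polynomial.coe_eval₂RingHom, Polynomial.eval₂_C, constL_apply, qExpand_C, qExpand_C]
  · rw [RingHom.comp_apply, RingHom.comp_apply, RingHom.comp_apply, PGGlue.evF, PGGlue.evL,
      Polynomial.coe_eval₂RingHom, Polynomial.coe_eval₂RingHom, Polynomial.eval₂_X,
      Polynomial.eval₂_X, Fermat.Agent.S36.MidUnif.phi0_j hwα E, jS_eq_jqModC]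

/-- the middle expansion of `P(j)` -/
theorem psi_comp_evF (E : Exp3 M q w₁ ζ) :
    E.psi.comp (PGGlue.evF W (M * q * q)) =
      (coeffMap (algebraMap L L')).comp (PGGlue.evL W) := by
  apply Polynomial.ringHom_ext
  · intro a
    rw [RingHom.comp_apply, RingHom.comp_apply, PGGlue.evF_C,
      Fermat.Agent.S36.Exp3Lemmas.psi_algebraMap, PGGlue.evL,
      Polynomial.coe_eval₂RingHom, Polynomial.eval₂_C, constL_apply,
      Fermat.Agent.S28.Descent.coeffMap_C]
  · rw [RingHom.comp_apply, RingHom.comp_apply, PGGlue.evF, PGGlue.evL,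
      Polynomial.coe_eval₂RingHom, Polynomial.coe_eval₂RingHom, Polynomial.eval₂_X,
      Polynomial.eval₂_X, Fermat.Agent.S36.MidUnif.psi_j E, ← jS_eq_jqModC, coeffMap_jS]

variable [CharP (IsLocalRing.ResidueField W) q]

/-- **(V2 ⇒)**, multiplier form: a Gauss-integral element of `F = FF L (M q²)` has its three
expansions in the content rings. -/
theorem three_of_isIntegralElem
    (hwα : w₁.comp (heckeAlphaBar L M q) = heckeBetaBar L M q)
    (hcyc : CycData W q W' ζ) (E : Exp3 M q w₁ ζ) (x : FF L (M * q * q)) (S : (↥W)[X])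
    (hS : S.map (IsLocalRing.residue W) ≠ 0)
    (hint : (PGGlue.evF W (M * q * q)).IsIntegralElem (PGGlue.evF W (M * q * q) S * x)) :
    (x : LaurentSeries L) ∈ contentRing W ∧ E.phi0 x ∈ contentRing W ∧
      E.psi x ∈ contentRing W' := by
  have hq : q.Prime := Fact.out
  haveI : CharP (IsLocalRing.ResidueField W') q :=
    Fermat.Agent.S36.CycLemmas.charP_residueField W q W' ζ hcyc
  have hWW' : ∀ c : L, c ∈ W ↔ algebraMap L L' c ∈ W' := fun c => (hcyc.comap c).symm
  obtain ⟨hS0, hSinv⟩ := Fermat.Agent.S34.TwoGauss.evL_inv_mem W S hS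
  have hev1 : ∀ P, algebraMap (FF L (M * q * q)) (LaurentSeries L)
      (PGGlue.evF W (M * q * q) P) = PGGlue.evL W P := fun P =>
    congrArg (fun f : (↥W)[X] →+* LaurentSeries L => f P)
      (PGGlue.algebraMap_comp_evF W (M * q * q))
  have hev2 : ∀ P, E.phi0 (PGGlue.evF W (M * q * q) P) =
      qExpand L q (qExpand L q (PGGlue.evL W P)) := fun P =>
    congrArg (fun f : (↥W)[X] →+* LaurentSeries L => f P) (phi0_comp_evF W M q w₁ ζ hwα E)
  have hev3 : ∀ P, E.psi (PGGlue.evF W (M * q * q) P) =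
      coeffMap (algebraMap L L') (PGGlue.evL W P) := fun P =>
    congrArg (fun f : (↥W)[X] →+* LaurentSeries L' => f P) (psi_comp_evF W M q w₁ ζ E)
  refine ⟨?_, ?_, ?_⟩
  · have h1 := mem_contentRing_of_isIntegralElem_gen W
      (algebraMap (FF L (M * q * q)) (LaurentSeries L))
      (fun y => Fermat.Agent.S34.TwoGauss.coe_mem_fracInt W (M * q * q) y)
      (PGGlue.evF W (M * q * q))
      (fun P => by rw [hev1]; exact PGGlue.evL_mem_contentRing W P) hint
    rw [map_mul, hev1] at h1
    have h2 : (x : LaurentSeries L) = (PGGlue.evL W S)⁻¹ *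
        (PGGlue.evL W S * algebraMap (FF L (M * q * q)) (LaurentSeries L) x) := by
      rw [← mul_assoc, inv_mul_cancel₀ hS0, one_mul]
      rfl
    rw [h2]
    exact mul_mem hSinv h1
  · have h1 := mem_contentRing_of_isIntegralElem_gen W E.phi0
      (fun y => Fermat.Agent.S36.Exp3Lemmas.phi0_mem_fracInt W M q w₁ ζ E y)
      (PGGlue.evF W (M * q * q))
      (fun P => by
        rw [hev2]
        exact qExpand_mem_contentRing W q
          (qExpand_mem_contentRing W q (PGGlue.evL_mem_contentRing W P))) hint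
    rw [map_mul, hev2] at h1
    have hq0 : qExpand L q (qExpand L q (PGGlue.evL W S)) ≠ 0 :=
      (_root_.map_ne_zero _).mpr ((_root_.map_ne_zero _).mpr hS0)
    have h2 : E.phi0 x = (qExpand L q (qExpand L q (PGGlue.evL W S)))⁻¹ *
        (qExpand L q (qExpand L q (PGGlue.evL W S)) * E.phi0 x) := by
      rw [← mul_assoc, inv_mul_cancel₀ hq0, one_mul]
    rw [h2]
    refine mul_mem ?_ h1
    rw [← map_inv₀, ← map_inv₀]
    exact qExpand_mem_contentRing W q (qExpand_mem_contentRing W q hSinv)
  · have h1 := mem_contentRing_of_isIntegralElem_gen W' E.psi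
      (fun y => Fermat.Agent.S36.Exp3Lemmas.psi_mem_fracInt W M q w₁ W' ζ hWW'
        hcyc.prim.pow_eq_one E y)
      (PGGlue.evF W (M * q * q))
      (fun P => by
        rw [hev3]
        exact Fermat.Agent.S37.LevelChange.coeffMap_mem_contentRing (algebraMap L L') W W' hWW'
          (PGGlue.evL_mem_contentRing W P)) hint
    rw [map_mul, hev3] at h1
    have hq0 : coeffMap (algebraMap L L') (PGGlue.evL W S) ≠ 0 :=
      (_root_.map_ne_zero _).mpr hS0
    have h2 : E.psi x = (coeffMap (algebraMap L L') (PGGlue.evL W S))⁻¹ *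
        (coeffMap (algebraMap L L') (PGGlue.evL W S) * E.psi x) := by
      rw [← mul_assoc, inv_mul_cancel₀ hq0, one_mul]
    rw [h2]
    refine mul_mem ?_ h1
    rw [← map_inv₀]
    exact Fermat.Agent.S37.LevelChange.coeffMap_mem_contentRing (algebraMap L L') W W' hWW'
      hSinv

variable [Algebra ↥W (FF L (M * q * q))] [IsScalarTower ↥W L (FF L (M * q * q))]

/-- **(V2 ⇒)** in the currency of `S18.Endgame`. -/
theorem three_of_inC (hwα : w₁.comp (heckeAlphaBar L M q) = heckeBetaBar L M q)
    (hcyc : CycData W q W' ζ) (E : Exp3 M q w₁ ζ) {π : ↥W} (hπ : Irreducible π)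
    (x : FF L (M * q * q)) (h : Endgame.InC π (jBC L (M * q * q)) x) :
    (x : LaurentSeries L) ∈ contentRing W ∧ E.phi0 x ∈ contentRing W ∧
      E.psi x ∈ contentRing W' := by
  obtain ⟨S, hS, hint⟩ := h
  refine three_of_isIntegralElem W M q w₁ W' ζ hwα hcyc E x S
    (Fermat.Agent.S34.TwoGauss.map_ne_zero_of_not_C_dvd W hπ hS) ?_
  have h1 : (Endgame.ev ↥W (jBC L (M * q * q))).IsIntegralElem
      (Endgame.ev ↥W (jBC L (M * q * q)) S * x) := hint
  rw [Fermat.Agent.S34.TwoGauss.ev_eq_evF W (M * q) q] at h1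
  exact h1

/-- **(V2)** Gauss-integrality over `W[j]` at level `M q²` is tested on the three expansions. -/
theorem inC_iff (hqM : ¬ q ∣ M) (hwα : w₁.comp (heckeAlphaBar L M q) = heckeBetaBar L M q)
    (hwβ : w₁.comp (heckeBetaBar L M q) = heckeAlphaBar L M q) (ι₀ : L' →+* ℂ)
    (hcyc : CycData W q W' ζ) (E : Exp3 M q w₁ ζ) {π : ↥W} (hπ : Irreducible π)
    (x : FF L (M * q * q)) :
    Endgame.InC π (jBC L (M * q * q)) x ↔
      (x : LaurentSeries L) ∈ contentRing W ∧ E.phi0 x ∈ contentRing W ∧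
        E.psi x ∈ contentRing W' :=
  ⟨three_of_inC W M q w₁ W' ζ hwα hcyc E hπ x, fun h =>
    Fermat.Agent.S36.InC3.inC_of_three W M q w₁ W' ζ hqM hwα hwβ ι₀ hcyc E hπ x h.1 h.2.1 h.2.2⟩

end Fermat.Agent.S36.InC3Iff
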