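import Mathlib
import Fermat.Agent.Common.Frobenius

/-!
# S36 (DESC-U, step (ii)): transitivity of closed subgroups of `Gal(ℚ̄/ℚ)` on valuation subrings

Let `H` be a closed subgroup of `Gal(ℚ̄/ℚ)` and let `A`, `A'` be valuation subrings of `ℚ̄` lying
over primes.  If every `H`-fixed element of `A` lies in `A'`, then `A' = h • A` for some `h ∈ H`
(`exists_smul_eq`).  Consequence (`exists_separator`): if `x` is fixed by every element of `H`
stabilising `A`, then for every `σ ∈ H` with `σ x ≠ x` there is `u`, fixed by the stabiliser of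
`x` in `H`, with `u` in the maximal ideal of `A` and `σ u ∉ A`.
-/

set_option autoImplicit false

open scoped Pointwise

namespace Fermat.Agent.S36.ValTrans

open Fermat.Agent.Common

local notation "Qb" => AlgebraicClosure ℚ
local notation "GQ" => (AlgebraicClosure ℚ ≃ₐ[ℚ] AlgebraicClosure ℚ)

/-- An algebraic integer is outside the prime cut out by `A` iff it is a unit of `A`. -/
theorem not_mem_primeOf_iff (A : ValuationSubring Qb) (b : Zb) :
    b ∉ primeOf A ↔ (b : Qb) ≠ 0 ∧ (b : Qb)⁻¹ ∈ A := by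
  rw [mem_primeOf, not_lt]
  constructor
  · intro h
    have hb0 : (b : Qb) ≠ 0 := by
      intro h0
      rw [h0, map_zero] at h
      exact not_le.mpr zero_lt_one h
    refine ⟨hb0, ?_⟩
    rw [← A.valuation_le_one_iff, map_inv₀]
    exact inv_le_one_of_one_le₀ h
  · rintro ⟨hb0, hinv⟩
    rw [← A.valuation_le_one_iff, map_inv₀] at hinv
    have hv : A.valuation (b : Qb) ≠ 0 := (Valuation.ne_zero_iff _).mpr hb0
    exact (inv_le_one₀ (zero_lt_iff.mpr hv)).mp hinv

/-- Elements of a valuation subring over a prime are the fractions of algebraic integers with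
denominator outside the prime. -/
theorem mem_iff_exists (A : ValuationSubring Qb) (ℓ : ℕ) (hℓ : ℓ.Prime)
    (hA : A.LiesOverPrime ℓ) (x : Qb) :
    x ∈ A ↔ ∃ b s : Zb, s ∉ primeOf A ∧ x * (s : Qb) = (b : Qb) := by
  constructor
  · intro hx
    obtain ⟨b, s, hs, hxs⟩ := exists_mul_eq A ℓ hℓ hA hx
    refine ⟨b, s, ?_, hxs⟩
    rw [mem_primeOf, hs]
    exact lt_irrefl _
  · rintro ⟨b, s, hs, hxs⟩
    obtain ⟨hs0, hsinv⟩ := (not_mem_primeOf_iff A s).mp hs
    have hb : (b : Qb) ∈ A := (A.valuation_le_one_iff _).mp (valuation_le_one_of_isIntegral A b.2)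
    have hx : x = (b : Qb) * (s : Qb)⁻¹ := by
      rw [← hxs, mul_assoc, mul_inv_cancel₀ hs0, mul_one]
    rw [hx]
    exact A.mul_mem _ _ hb hsinv

/-- A translate of a valuation subring over `ℓ` lies over `ℓ`. -/
theorem liesOverPrime_smul (A : ValuationSubring Qb) (ℓ : ℕ) (hA : A.LiesOverPrime ℓ) (g : GQ) :
    (g • A).LiesOverPrime ℓ := by
  have h : (ℓ : Qb) ∈ A.nonunits := hA
  show (ℓ : Qb) ∈ (g • A).nonunits
  rw [ValuationSubring.mem_nonunits_iff_or] at h ⊢
  rcases h with h | h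
  · exact Or.inl h
  · refine Or.inr fun hmem => h ?_
    rw [ValuationSubring.mem_pointwise_smul_iff_inv_smul_mem] at hmem
    have h1 : g⁻¹ • ((ℓ : Qb)⁻¹) = (ℓ : Qb)⁻¹ := by
      show g⁻¹ ((ℓ : Qb)⁻¹) = (ℓ : Qb)⁻¹
      rw [map_inv₀, map_natCast]
    rwa [h1] at hmem

/-- **Transitivity.** A closed subgroup `H` of the absolute Galois group acts transitively on
the valuation subrings (over primes) with a given restriction to the fixed field of `H`; it is
enough to assume one inclusion of the restrictions. -/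
theorem exists_smul_eq (A A' : ValuationSubring Qb) (ℓ ℓ' : ℕ) (hℓ : ℓ.Prime)
    (hA : A.LiesOverPrime ℓ) (hℓ' : ℓ'.Prime) (hA' : A'.LiesOverPrime ℓ')
    (H : Subgroup GQ) (hH : IsClosed (H : Set GQ))
    (hle : ∀ x : Qb, (∀ g ∈ H, g x = x) → x ∈ A → x ∈ A') :
    ∃ g ∈ H, g • A = A' := by
  have hGal := isGalois_Qb
  have hInt := isIntegral_Qb
  have hprime := primeOf_isPrime A
  have hprime' := primeOf_isPrime A'
  let _ : TopologicalSpace Zb := ⊥
  have : DiscreteTopology Zb := ⟨rfl⟩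
  have hcont : ContinuousSMul GQ Zb :=
    continuousSMul_iff_stabilizer_isOpen.mpr stabilizer_Zb_isOpen
  have : CompactSpace H := isCompact_iff_compactSpace.mp hH.isCompact
  have : TotallyDisconnectedSpace H := Subtype.totallyDisconnectedSpace
  have : ContinuousSMul H Zb := by
    rw [continuousSMul_iff_stabilizer_isOpen]
    intro b
    have h1 := stabilizer_Zb_isOpen b
    have h2 : (MulAction.stabilizer H b : Set H) =
        Subtype.val ⁻¹' (MulAction.stabilizer GQ b : Set GQ) := by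
      ext g
      simp only [SetLike.mem_coe, MulAction.mem_stabilizer_iff, Set.mem_preimage]
      rfl
    rw [h2]
    exact h1.preimage continuous_subtype_val
  have hcomm : SMulCommClass H (FixedPoints.subring Zb H) Zb :=
    instSMulCommClassSubtypeMemSubringSubring Zb H
  have hinv : Algebra.IsInvariant (FixedPoints.subring Zb H) Zb H :=
    ⟨fun b hb => ⟨⟨b, hb⟩, rfl⟩⟩
  have hfix : ∀ a : FixedPoints.subring Zb H, ∀ h ∈ H, h • (a : Zb) = a :=
    fun a h hh => a.2 ⟨h, hh⟩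
  -- the prime of `A'` restricted to the fixed ring is contained in that of `A`
  have hsub : (primeOf A').under (FixedPoints.subring Zb H) ≤
      (primeOf A).under (FixedPoints.subring Zb H) := by
    intro a ha
    show (a : Zb) ∈ primeOf A
    have ha' : (a : Zb) ∈ primeOf A' := ha
    by_contra hcon
    obtain ⟨h0, hinvA⟩ := (not_mem_primeOf_iff A (a : Zb)).mp hcon
    have hfixinv : ∀ g ∈ H, g (((a : Zb) : Qb)⁻¹) = ((a : Zb) : Qb)⁻¹ := by
      intro g hg
      rw [map_inv₀]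
      congr 1
      exact congrArg Subtype.val (hfix a g hg)
    have hinvA' := hle _ hfixinv hinvA
    exact (not_mem_primeOf_iff A' (a : Zb)).mpr ⟨h0, hinvA'⟩ ha'
  -- maximality of the restricted prime of `A'`
  have hmaxZ : ((primeOf A').under ℤ).IsMaximal := by
    have h1 := (primeOf_liesOver A' ℓ' hℓ' hA').over
    rw [← h1]
    exact PrincipalIdealRing.isMaximal_of_irreducible
      (Nat.prime_iff_prime_int.mp hℓ').irreducible
  have hintR : Algebra.IsIntegral ℤ (FixedPoints.subring Zb H) := by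
    refine ⟨fun r => ?_⟩
    have h1 : IsIntegral ℤ (((r : Zb) : Qb)) := (r : Zb).2
    have hinj : Function.Injective
        ((Zb.val : Zb →+* Qb).comp (FixedPoints.subring Zb H).subtype) :=
      fun x y hxy => Subtype.ext (Subtype.ext hxy)
    exact (isIntegral_algHom_iff
      ((Zb.val.comp ((FixedPoints.subring Zb H).subtype.toIntAlgHom)) :
        FixedPoints.subring Zb H →ₐ[ℤ] Qb) hinj).mp h1
  have hprimeR : ((primeOf A').under (FixedPoints.subring Zb H)).IsPrime :=
    Ideal.IsPrime.under _ _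
  have hmaxR : ((primeOf A').under (FixedPoints.subring Zb H)).IsMaximal := by
    apply Ideal.isMaximal_of_isIntegral_of_isMaximal_comap (R := ℤ)
    have h2 : ((primeOf A').under (FixedPoints.subring Zb H)).comap
        (algebraMap ℤ (FixedPoints.subring Zb H)) = (primeOf A').under ℤ := by
      ext n
      simp only [Ideal.mem_comap, Ideal.under]
      rfl
    rw [h2]
    exact hmaxZ
  have hne : (primeOf A).under (FixedPoints.subring Zb H) ≠ ⊤ :=
    (Ideal.IsPrime.under (FixedPoints.subring Zb H) (primeOf A)).ne_top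
  have hPQ : (primeOf A).under (FixedPoints.subring Zb H) =
      (primeOf A').under (FixedPoints.subring Zb H) := (hmaxR.eq_of_le hne hsub).symm
  obtain ⟨h, hh⟩ := Algebra.IsInvariant.exists_smul_of_under_eq_of_profinite
    (A := FixedPoints.subring Zb H) (G := H) (primeOf A) (primeOf A') hPQ
  refine ⟨(h : GQ), h.2, ?_⟩
  have hmemP : ∀ s : Zb, s ∈ primeOf A' ↔ (h : GQ)⁻¹ • s ∈ primeOf A := by
    intro s
    rw [hh]
    exact Ideal.mem_pointwise_smul_iff_inv_smul_mem
  have hval : ∀ (g : GQ) (b : Zb), ((g • b : Zb) : Qb) = g (b : Qb) := fun g b => rfl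
  ext x
  rw [ValuationSubring.mem_pointwise_smul_iff_inv_smul_mem, mem_iff_exists A ℓ hℓ hA,
    mem_iff_exists A' ℓ' hℓ' hA']
  constructor
  · rintro ⟨b, s, hs, hxs⟩
    refine ⟨(h : GQ) • b, (h : GQ) • s, ?_, ?_⟩
    · rw [hmemP, inv_smul_smul]
      exact hs
    · rw [hval, hval, ← hxs, map_mul]
      congr 1
      show x = (h : GQ) ((h : GQ)⁻¹ x)
      exact (AlgEquiv.apply_symm_apply (h : GQ) x).symm
  · rintro ⟨b, s, hs, hxs⟩
    refine ⟨(h : GQ)⁻¹ • b, (h : GQ)⁻¹ • s, ?_, ?_⟩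
    · rw [← hmemP]
      exact hs
    · rw [hval, hval, ← hxs, map_mul]
      rfl

/-- **Separators.** Let `x` be fixed by every element of the closed subgroup `H` stabilising
`A`.  For `σ ∈ H` with `σ x ≠ x` there is `u`, fixed by the stabiliser of `x` in `H`, which lies
in the maximal ideal of `A` while `σ u ∉ A`. -/
theorem exists_separator (A : ValuationSubring Qb) (ℓ : ℕ) (hℓ : ℓ.Prime)
    (hA : A.LiesOverPrime ℓ) (H : Subgroup GQ) (hH : IsClosed (H : Set GQ)) (x : Qb)
    (hx : ∀ τ ∈ H, τ • A = A → τ x = x) (σ : GQ) (hσ : σ ∈ H) (hσx : σ x ≠ x) :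
    ∃ u : Qb, (∀ τ ∈ H, τ x = x → τ u = u) ∧ u ∈ A.nonunits ∧ σ u ∉ A := by
  have hInt := isIntegral_Qb
  -- the stabiliser of `x` in `H`
  let Hx : Subgroup GQ := H ⊓ MulAction.stabilizer GQ x
  have hHx : IsClosed (Hx : Set GQ) := by
    have h1 : IsClosed ((MulAction.stabilizer GQ x : Subgroup GQ) : Set GQ) :=
      Subgroup.isClosed_of_isOpen _ (stabilizer_isOpen_of_isIntegral (K := ℚ) (L := Qb) x)
    have h2 : (Hx : Set GQ) = (H : Set GQ) ∩ (MulAction.stabilizer GQ x : Set GQ) := rfl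
    rw [h2]
    exact hH.inter h1
  have hmemHx : ∀ τ : GQ, τ ∈ Hx ↔ τ ∈ H ∧ τ x = x := fun τ => Iff.rfl
  let A' : ValuationSubring Qb := σ⁻¹ • A
  have hA' : A'.LiesOverPrime ℓ := liesOverPrime_smul A ℓ hA σ⁻¹
  have hmemA' : ∀ z : Qb, z ∈ A' ↔ σ z ∈ A := by
    intro z
    show z ∈ σ⁻¹ • A ↔ σ z ∈ A
    rw [ValuationSubring.mem_pointwise_smul_iff_inv_smul_mem, inv_inv]
    rfl
  -- `A` is not contained in `A'` on the fixed field of `Hx`
  have h1 : ¬ ∀ z : Qb, (∀ g ∈ Hx, g z = z) → z ∈ A → z ∈ A' := by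
    intro hcon
    obtain ⟨τ, hτ, hτA⟩ := exists_smul_eq A A' ℓ ℓ hℓ hA hℓ hA' Hx hHx hcon
    obtain ⟨hτH, hτx⟩ := (hmemHx τ).mp hτ
    have h2 : (σ * τ) • A = A := by
      rw [mul_smul, hτA]
      show σ • σ⁻¹ • A = A
      rw [smul_inv_smul]
    have h3 := hx (σ * τ) (H.mul_mem hσ hτH) h2
    apply hσx
    have h4 : (σ * τ) x = σ (τ x) := rfl
    rw [h4, hτx] at h3
    exact h3
  -- `A'` is not contained in `A` on the fixed field of `Hx`
  have h2 : ¬ ∀ z : Qb, (∀ g ∈ Hx, g z = z) → z ∈ A' → z ∈ A := by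
    intro hcon
    obtain ⟨τ, hτ, hτA⟩ := exists_smul_eq A' A ℓ ℓ hℓ hA' hℓ hA Hx hHx hcon
    obtain ⟨hτH, hτx⟩ := (hmemHx τ).mp hτ
    have h3 : (τ * σ⁻¹) • A = A := by
      rw [mul_smul]
      exact hτA
    have h4 := hx (τ * σ⁻¹) (H.mul_mem hτH (H.inv_mem hσ)) h3
    apply hσx
    have h5 : (τ * σ⁻¹) x = τ (σ⁻¹ x) := rfl
    rw [h5] at h4
    -- `τ (σ⁻¹ x) = x` and `τ x = x` give `σ⁻¹ x = x`
    have h6 : σ⁻¹ x = x := τ.injective (h4.trans hτx.symm)
    have h7 : σ (σ⁻¹ x) = x := AlgEquiv.apply_symm_apply σ x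
    rw [h6] at h7
    exact h7
  push Not at h1 h2
  obtain ⟨a, haf, haA, haA'⟩ := h1
  obtain ⟨b, hbf, hbA', hbA⟩ := h2
  have ha0 : a ≠ 0 := fun h => haA' (h ▸ A'.zero_mem)
  have hb0 : b ≠ 0 := fun h => hbA (h ▸ A.zero_mem)
  have hbinv : b⁻¹ ∈ A := (A.mem_or_inv_mem b).resolve_left hbA
  have hainv : a⁻¹ ∈ A' := (A'.mem_or_inv_mem a).resolve_left haA'
  refine ⟨a * b⁻¹, ?_, ?_, ?_⟩
  · intro τ hτ hτx
    have hτHx : τ ∈ Hx := (hmemHx τ).mpr ⟨hτ, hτx⟩
    rw [map_mul, map_inv₀, haf τ hτHx, hbf τ hτHx]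
  · rw [ValuationSubring.mem_nonunits_iff_or]
    refine Or.inr fun hmem => hbA ?_
    -- `(a b⁻¹)⁻¹ ∈ A` and `a ∈ A` give `b ∈ A`
    have h3 : b = (a * b⁻¹)⁻¹ * a := by
      field_simp
    rw [h3]
    exact A.mul_mem _ _ hmem haA
  · intro hmem
    rw [← hmemA'] at hmem
    apply haA'
    have h3 : a = a * b⁻¹ * b := by
      field_simp
    rw [h3]
    exact A'.mul_mem _ _ hmem hbA'

end Fermat.Agent.S36.ValTrans
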