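import Mathlib
import Fermat.Agent.S13.Global
import Fermat.Agent.S34.GalLevel
import Fermat.Agent.S36.ValTrans

/-!
# S36 (DESC-U, step (i)): inertia = decomposition group ∩ `Gal(ℚ̄ / ℚ(μ_n : ℓ ∤ n))`

For a valuation subring `A` of `ℚ̄` over `ℓ` and `C = ℚ(μ_n : ℓ ∤ n)` (`BaseDVR.cycloField ℓ`):
an automorphism stabilising `A` and fixing `C` pointwise lies in the inertia group of `A`
(every residue class of `A` is represented in `C`), and conversely inertia fixes `C`.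
-/

set_option autoImplicit false

open scoped Pointwise

namespace Fermat.Agent.S36.InertiaCyclo

open Fermat.Agent.Common Fermat.Agent.S18 Fermat.Agent.S13

local notation "Qb" => AlgebraicClosure ℚ
local notation "GQ" => (AlgebraicClosure ℚ ≃ₐ[ℚ] AlgebraicClosure ℚ)

variable (A : ValuationSubring Qb) {ℓ : ℕ}

/-- An automorphism stabilising `A` maps the maximal ideal of `A` into itself. -/
theorem map_mem_nonunits {τ : GQ} (hτA : τ • A = A) {z : Qb} (hz : z ∈ A.nonunits) :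
    τ z ∈ A.nonunits := by
  rw [ValuationSubring.mem_nonunits_iff_or] at hz ⊢
  rcases hz with hz | hz
  · left
    rw [hz, map_zero]
  · right
    intro hmem
    apply hz
    rw [← map_inv₀] at hmem
    have h1 : τ z⁻¹ ∈ τ • A := by rw [hτA]; exact hmem
    rw [ValuationSubring.mem_pointwise_smul_iff_inv_smul_mem] at h1
    have h2 : τ⁻¹ • τ z⁻¹ = z⁻¹ := by
      show τ.symm (τ z⁻¹) = z⁻¹
      exact τ.symm_apply_apply _
    rwa [h2] at h1

/-- **(i)** `D_A ∩ Gal(ℚ̄/C) ⊆ I_A`. -/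
theorem mem_inertia_of_fix_cyclo (hℓ : ℓ.Prime) (hA : A.LiesOverPrime ℓ) (τ : GQ)
    (hτA : τ • A = A) (hτ : ∀ c ∈ BaseDVR.cycloField ℓ, τ c = c) :
    τ ∈ A.inertiaSubgroupIn ℚ := by
  apply Global.mem_inertiaSubgroupIn A ℓ hℓ hA τ
  intro b
  have hbA : (b : Qb) ∈ A :=
    (A.valuation_le_one_iff _).mp (valuation_le_one_of_isIntegral A b.2)
  obtain ⟨c, hcC, hcA, hbc⟩ := BaseDVR.exists_cyclo_congr A hℓ hA (b : Qb) hbA
  have h1 : τ (b : Qb) - (b : Qb) = τ ((b : Qb) - c) - ((b : Qb) - c) := by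
    rw [map_sub, hτ c hcC]
    ring
  rw [h1]
  have h2 : A.valuation (τ ((b : Qb) - c)) < 1 :=
    (A.mem_nonunits_iff).mp (map_mem_nonunits A hτA hbc)
  have h3 : A.valuation ((b : Qb) - c) < 1 := (A.mem_nonunits_iff).mp hbc
  exact lt_of_le_of_lt (A.valuation.map_sub _ _) (max_lt h2 h3)

/-- Inertia fixes `C = ℚ(μ_n : ℓ ∤ n)` pointwise. -/
theorem inertia_fix_cycloField (hℓ : ℓ.Prime) (hA : A.LiesOverPrime ℓ) {σ : GQ}
    (hσ : σ ∈ A.inertiaSubgroupIn ℚ) {x : Qb} (hx : x ∈ BaseDVR.cycloField ℓ) : σ x = x := by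
  rw [BaseDVR.cycloField] at hx
  induction hx using IntermediateField.adjoin_induction with
  | mem y hy => exact Fermat.Agent.S34.GalLevel.inertia_fix_root A hℓ hA hσ hy
  | algebraMap r => exact σ.commutes r
  | add y z _ _ hy hz => rw [map_add, hy, hz]
  | inv y _ hy => rw [map_inv₀, hy]
  | mul y z _ _ hy hz => rw [map_mul, hy, hz]

/-- Inertia stabilises `A`. -/
theorem inertia_smul_eq {σ : GQ} (hσ : σ ∈ A.inertiaSubgroupIn ℚ) : σ • A = A := by
  have h := Fermat.Agent.S37.GaloisValue.mem_decompositionSubgroup_of_mem_inertia hσ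
  exact MulAction.mem_stabilizer_iff.mp h

/-- `I_A = D_A ∩ Gal(ℚ̄/C)`. -/
theorem mem_inertia_iff (hℓ : ℓ.Prime) (hA : A.LiesOverPrime ℓ) (τ : GQ) :
    τ ∈ A.inertiaSubgroupIn ℚ ↔
      τ • A = A ∧ τ ∈ (BaseDVR.cycloField ℓ).fixingSubgroup := by
  constructor
  · intro h
    refine ⟨inertia_smul_eq A h, ?_⟩
    rw [IntermediateField.mem_fixingSubgroup_iff]
    intro x hx
    exact inertia_fix_cycloField A hℓ hA h hx
  · rintro ⟨h1, h2⟩
    rw [IntermediateField.mem_fixingSubgroup_iff] at h2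
    exact mem_inertia_of_fix_cyclo A hℓ hA τ h1 h2

/-- An element fixed by inertia is fixed by `D_A ∩ Gal(ℚ̄/C)` (the hypothesis shape of
`ValTrans.exists_separator` for `H = Gal(ℚ̄/C)`). -/
theorem fixed_of_inertia_fixed (hℓ : ℓ.Prime) (hA : A.LiesOverPrime ℓ) (x : Qb)
    (hx : ∀ τ ∈ A.inertiaSubgroupIn ℚ, τ x = x) :
    ∀ τ ∈ (BaseDVR.cycloField ℓ).fixingSubgroup, τ • A = A → τ x = x :=
  fun τ hτ hτA => hx τ ((mem_inertia_iff A hℓ hA τ).mpr ⟨hτA, hτ⟩)

/-- `Gal(ℚ̄/C)` is closed. -/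
theorem isClosed_fixingSubgroup_cyclo (ℓ : ℕ) :
    IsClosed (((BaseDVR.cycloField ℓ).fixingSubgroup : Subgroup GQ) : Set GQ) := by
  have := isGalois_Qb
  exact InfiniteGalois.fixingSubgroup_isClosed _

/-- The fixed field of `Gal(ℚ̄/C)` is `C`. -/
theorem mem_cycloField_of_fixed (ℓ : ℕ) (c : Qb)
    (hc : ∀ τ ∈ ((BaseDVR.cycloField ℓ).fixingSubgroup : Subgroup GQ), τ c = c) :
    c ∈ BaseDVR.cycloField ℓ := by
  have := isGalois_Qb
  rw [← InfiniteGalois.fixedField_fixingSubgroup (BaseDVR.cycloField ℓ),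
    IntermediateField.mem_fixedField_iff]
  exact hc

/-- **Separators for inertia-fixed elements**, membership form: for `x` fixed by the inertia
group of `A` and `σ ∈ Gal(ℚ̄/C)` moving `x`, there is `u ∈ C(x)` (fixed by the stabiliser of `x`
in `Gal(ℚ̄/C)`) in the maximal ideal of `A` with `σ u ∉ A`. -/
theorem exists_separator_mem (hℓ : ℓ.Prime) (hA : A.LiesOverPrime ℓ) (x : Qb)
    (hx : ∀ τ ∈ A.inertiaSubgroupIn ℚ, τ x = x) :
    ∀ σ ∈ ((BaseDVR.cycloField ℓ).fixingSubgroup : Subgroup GQ), σ x ≠ x →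
      ∃ u : Qb, (∀ τ ∈ ((BaseDVR.cycloField ℓ).fixingSubgroup : Subgroup GQ), τ x = x → τ u = u) ∧
        u ∈ A.nonunits ∧ σ u ∉ A :=
  fun σ hσ hσx => Fermat.Agent.S36.ValTrans.exists_separator A ℓ hℓ hA _
    (isClosed_fixingSubgroup_cyclo ℓ) x (fixed_of_inertia_fixed A hℓ hA x hx) σ hσ hσx

/-- **Separators for inertia-fixed elements**, `ord` form (the hypothesis `hsep` of
`ImmCore.ord_of_separated`). -/
theorem exists_separator_ord (hℓ : ℓ.Prime) (hA : A.LiesOverPrime ℓ) (x : Qb)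
    (hx : ∀ τ ∈ A.inertiaSubgroupIn ℚ, τ x = x) :
    ∀ σ ∈ ((BaseDVR.cycloField ℓ).fixingSubgroup : Subgroup GQ), σ x ≠ x →
      ∃ u : Qb, (∀ τ ∈ ((BaseDVR.cycloField ℓ).fixingSubgroup : Subgroup GQ), τ x = x → τ u = u) ∧
        0 < (Fermat.Agent.S05.ordOfSubring A).ord u ∧
        (Fermat.Agent.S05.ordOfSubring A).ord (σ u) < 0 := by
  intro σ hσ hσx
  obtain ⟨u, hfix, hu, hσu⟩ := exists_separator_mem A hℓ hA x hx σ hσ hσx
  have hσu0 : σ u ≠ 0 := fun h => hσu (h ▸ A.zero_mem)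
  have hu0 : u ≠ 0 := fun h => hσu0 (by rw [h, map_zero])
  refine ⟨u, hfix, ?_, ?_⟩
  · exact ((Fermat.Agent.S05.ordOfSubring_gt_iff A u).mpr hu).resolve_left hu0
  · by_contra hcon
    exact hσu ((Fermat.Agent.S05.ordOfSubring_ge_iff A (σ u)).mp (Or.inr (not_lt.mp hcon)))

end Fermat.Agent.S36.InertiaCyclo
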