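import Mathlib
import Fermat.Agent.S34.Hartogs

/-!
# S36 (R-ord), package (O4): the ordinary points of the middle component, abstractly

Pure commutative algebra (Mathlib + the algebraic Hartogs lemma of S34).  Setting: `B` is the
chart of level `M' q²` (a Noetherian integrally closed domain), `R` the chart of level `M' q`,
`a b : R →+* B` the two pull-backs (`α^*` and `β^* ∘ w`), `𝔭` the vertical prime of the middle
component (multiplicity `e = q - 1`), `𝔫` a closed point lying on `𝔭` only.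

* `eq_of_coord` (L1): two homomorphisms into a Noetherian local ring that agree on local
  generators `π, s` of a point and modulo the maximal ideal (separable residue extension) are
  equal (induction modulo powers of the maximal ideal and Krull's intersection theorem).
* `exists_mul_sub_mem_of_coord`, `sub_mem_of_coord` (L1'): the same modulo an ideal `J ≤ 𝔫`
  (resp. a prime `𝔮 ≤ 𝔫`) of `B`: `a ≡ b` modulo `J B_𝔫` as soon as `a s ≡ b s` modulo `J`.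
* `mid_ord_of_uniformiser`, `mid_ord` (O4-abs): `t := b s - a s` generates `𝔭 B_𝔫` and
  `π = unit · t ^ e` in `B_𝔫`, for ANY local parameter `s` of the lower level at `a⁻¹(𝔫)`,
  provided `b y₀ - a y₀` is a uniformiser at `𝔭` for ONE `y₀` (e.g. `j'' - j`) and no horizontal
  prime `𝔮 ⊆ 𝔫` has `a ≡ b` modulo `𝔮` (`hNC`).
* `hsep_of_pow`: the separability hypothesis from an algebraic residue field.
* `different_mem_of_sub_mem`, `hNC_of_different` (L2): `hNC` from the absence of horizontal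
  ramification of the lower level over the common coefficient ring (`a θ`, `b θ` are two distinct
  roots of the same polynomial, so a coincidence modulo `𝔮` puts the element different in `𝔮`).
-/

set_option autoImplicit false

namespace Fermat.Agent.S36.MidOrd

open IsLocalRing Polynomial

/-- **Coordinate injectivity (L1).**  Two ring homomorphisms `φ₁ φ₂ : R →+* D` into a Noetherian
local ring that are local at an ideal `ν = (π, s)` (locally), agree on `π` and `s`, agree modulo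
the maximal ideal of `D`, and such that every element of `R` is a simple root modulo `ν` of an
integer polynomial (separable residue field extension), are equal. -/
theorem eq_of_coord {R D : Type*} [CommRing R] [CommRing D] [IsNoetherianRing D] [IsLocalRing D]
    (φ₁ φ₂ : R →+* D) (ν : Ideal R)
    (hunit : ∀ d, d ∉ ν → IsUnit (φ₁ d))
    (hν : ∀ y ∈ ν, φ₂ y ∈ maximalIdeal D)
    (hcong : ∀ y, φ₁ y - φ₂ y ∈ maximalIdeal D)
    (π s : R) (hπν : π ∈ ν) (hsν : s ∈ ν) (hπ : φ₁ π = φ₂ π) (hs : φ₁ s = φ₂ s)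
    (hgen : ∀ y ∈ ν, ∃ d, d ∉ ν ∧ ∃ y₁ y₂, d * y = π * y₁ + s * y₂)
    (hsep : ∀ y : R, ∃ m : Polynomial ℤ, aeval y m ∈ ν ∧ aeval y (derivative m) ∉ ν) :
    φ₁ = φ₂ := by
  classical
  set 𝔪 := maximalIdeal D with h𝔪
  -- the main claim, by induction on `N`
  have claim : ∀ N : ℕ, ∀ y : R, φ₁ y - φ₂ y ∈ 𝔪 ^ (N + 1) := by
    intro N
    induction N with
    | zero => intro y; simpa using hcong y
    | succ N ih =>
      -- step (i): elements of `ν`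
      have step1 : ∀ y ∈ ν, φ₁ y - φ₂ y ∈ 𝔪 ^ (N + 1 + 1) := by
        intro y hy
        obtain ⟨d, hd, y₁, y₂, hdy⟩ := hgen y hy
        have h1 : φ₁ (d * y) - φ₂ (d * y) ∈ 𝔪 ^ (N + 1 + 1) := by
          rw [hdy]
          have e1 : φ₁ (π * y₁ + s * y₂) - φ₂ (π * y₁ + s * y₂)
              = φ₂ π * (φ₁ y₁ - φ₂ y₁) + φ₂ s * (φ₁ y₂ - φ₂ y₂) := by
            simp only [map_add, map_mul, hπ, hs]; ring
          rw [e1, pow_succ']
          exact Ideal.add_mem _ (Ideal.mul_mem_mul (hν π hπν) (ih y₁))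
            (Ideal.mul_mem_mul (hν s hsν) (ih y₂))
        have h2 : (φ₁ d - φ₂ d) * φ₂ y ∈ 𝔪 ^ (N + 1 + 1) := by
          rw [pow_succ]
          exact Ideal.mul_mem_mul (ih d) (hν y hy)
        have h3 : φ₁ d * (φ₁ y - φ₂ y) ∈ 𝔪 ^ (N + 1 + 1) := by
          have e3 : φ₁ d * (φ₁ y - φ₂ y)
              = (φ₁ (d * y) - φ₂ (d * y)) - (φ₁ d - φ₂ d) * φ₂ y := by
            simp only [map_mul]; ring
          rw [e3]
          exact Ideal.sub_mem _ h1 h2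
        exact (Ideal.unit_mul_mem_iff_mem _ (hunit d hd)).mp h3
      -- step (ii): all elements
      intro y
      obtain ⟨m, hm, hm'⟩ := hsep y
      set δ := φ₁ y - φ₂ y with hδ
      set M : Polynomial D := m.map (algebraMap ℤ D) with hM
      have hφ₁ : ∀ p : Polynomial ℤ, φ₁ (aeval y p) = (p.map (algebraMap ℤ D)).eval (φ₁ y) := by
        intro p
        rw [Polynomial.eval_map_algebraMap]
        exact (Polynomial.aeval_algHom_apply φ₁.toIntAlgHom y p).symm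
      have hφ₂ : ∀ p : Polynomial ℤ, φ₂ (aeval y p) = (p.map (algebraMap ℤ D)).eval (φ₂ y) := by
        intro p
        rw [Polynomial.eval_map_algebraMap]
        exact (Polynomial.aeval_algHom_apply φ₂.toIntAlgHom y p).symm
      obtain ⟨k, hk⟩ := Polynomial.binomExpansion M (φ₁ y) (-δ)
      have e2 : φ₁ y + -δ = φ₂ y := by rw [hδ]; ring
      rw [e2] at hk
      have hder : M.derivative.eval (φ₁ y) = φ₁ (aeval y (derivative m)) := by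
        rw [hφ₁, hM, Polynomial.derivative_map]
      have key : φ₁ (aeval y m) - φ₂ (aeval y m)
          = (φ₁ (aeval y (derivative m)) - k * δ) * δ := by
        rw [hφ₁ m, hφ₂ m, ← hM, hk, hder]; ring
      have hu : IsUnit (φ₁ (aeval y (derivative m)) - k * δ) := by
        by_contra hnu
        have h4 : φ₁ (aeval y (derivative m)) - k * δ ∈ 𝔪 := (mem_maximalIdeal _).mpr hnu
        have h5 : k * δ ∈ 𝔪 := Ideal.mul_mem_left _ _ (hcong y)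
        have h6 : φ₁ (aeval y (derivative m)) ∈ 𝔪 := by
          have := Ideal.add_mem _ h4 h5
          simpa using this
        exact (mem_maximalIdeal _).mp h6 (hunit _ hm')
      have h7 := step1 _ hm
      rw [key] at h7
      exact (Ideal.unit_mul_mem_iff_mem _ hu).mp h7
  -- Krull's intersection theorem
  ext y
  have hbot : φ₁ y - φ₂ y ∈ (⨅ i : ℕ, 𝔪 ^ i : Ideal D) := by
    rw [Ideal.mem_iInf]
    intro i
    cases i with
    | zero => simp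
    | succ N => exact claim N y
  rw [Ideal.iInf_pow_eq_bot_of_isLocalRing 𝔪 (Ideal.IsPrime.ne_top inferInstance)] at hbot
  exact sub_eq_zero.mp hbot

/-- **Coordinate injectivity, ideal form (L1').**  `a b : R →+* B`, `𝔫` a prime of the
Noetherian ring `B`, `J ≤ 𝔫` an ideal.  If `a ≡ b` modulo `𝔫`, the ideal `a⁻¹(𝔫)` is locally
generated by `π, s` with `a π ≡ b π` and `a s ≡ b s` modulo `J`, and the residue extension is
separable, then `a ≡ b` modulo `J B_𝔫`. -/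
theorem exists_mul_sub_mem_of_coord {R B : Type*} [CommRing R] [CommRing B] [IsNoetherianRing B]
    (a b : R →+* B) (J 𝔫 : Ideal B) [h𝔫 : 𝔫.IsPrime] (hJ𝔫 : J ≤ 𝔫)
    (hcong : ∀ y, a y - b y ∈ 𝔫)
    (π s : R) (hπ𝔫 : a π ∈ 𝔫) (hs𝔫 : a s ∈ 𝔫) (hπ : a π - b π ∈ J) (hs : a s - b s ∈ J)
    (hgen : ∀ y, a y ∈ 𝔫 → ∃ d, a d ∉ 𝔫 ∧ ∃ y₁ y₂, d * y = π * y₁ + s * y₂)
    (hsep : ∀ y : R, ∃ m : Polynomial ℤ, a (aeval y m) ∈ 𝔫 ∧ a (aeval y (derivative m)) ∉ 𝔫)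
    (y : R) : ∃ d, d ∉ 𝔫 ∧ d * (a y - b y) ∈ J := by
  classical
  let L := Localization.AtPrime 𝔫
  let I : Ideal L := J.map (algebraMap B L)
  have hIle : I ≤ maximalIdeal L := by
    rw [← IsLocalization.AtPrime.map_eq_maximalIdeal 𝔫 L]
    exact Ideal.map_mono hJ𝔫
  have hItop : I ≠ ⊤ := fun h => (Ideal.IsPrime.ne_top (inferInstance : (maximalIdeal L).IsPrime))
    (top_le_iff.mp (h ▸ hIle))
  have : Nontrivial (L ⧸ I) := Ideal.Quotient.nontrivial_iff.mpr hItop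
  have : IsLocalRing (L ⧸ I) :=
    IsLocalRing.of_surjective' (Ideal.Quotient.mk I) Ideal.Quotient.mk_surjective
  have : IsLocalHom (Ideal.Quotient.mk I) := by
    apply isLocalHom_of_le_jacobson_bot
    rw [IsLocalRing.jacobson_eq_maximalIdeal (⊥ : Ideal L) bot_ne_top]
    exact hIle
  let ψ : B →+* L ⧸ I := (Ideal.Quotient.mk I).comp (algebraMap B L)
  have hψ0 : ∀ x : B, x ∈ J → ψ x = 0 := fun x h =>
    Ideal.Quotient.eq_zero_iff_mem.mpr (Ideal.mem_map_of_mem _ h)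
  have hψ0' : ∀ x : B, ψ x = 0 → ∃ d, d ∉ 𝔫 ∧ d * x ∈ J := by
    intro x h
    have h1 : algebraMap B L x ∈ I := Ideal.Quotient.eq_zero_iff_mem.mp h
    rw [IsLocalization.mem_map_algebraMap_iff 𝔫.primeCompl L] at h1
    obtain ⟨⟨j, m⟩, hjm⟩ := h1
    rw [← map_mul] at hjm
    obtain ⟨c, hc⟩ := (IsLocalization.eq_iff_exists 𝔫.primeCompl L).mp hjm
    refine ⟨c * m, (c * m).2, ?_⟩
    have hc' : (c : B) * (x * (m : B)) = (c : B) * (j : B) := hc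
    have h2 : (c : B) * (m : B) * x = (c : B) * (j : B) := by
      rw [← hc']; ring
    rw [h2]
    exact J.mul_mem_left _ j.2
  have hψm : ∀ x : B, x ∈ 𝔫 → ψ x ∈ maximalIdeal (L ⧸ I) := by
    intro x hx
    have h1 : algebraMap B L x ∈ maximalIdeal L :=
      (IsLocalization.AtPrime.to_map_mem_maximal_iff L 𝔫 x).mpr hx
    exact _root_.map_nonunit (Ideal.Quotient.mk I) _ h1
  have hψu : ∀ x : B, x ∉ 𝔫 → IsUnit (ψ x) := by
    intro x hx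
    have h1 : IsUnit (algebraMap B L x) :=
      (IsLocalization.AtPrime.isUnit_to_map_iff L 𝔫 x).mpr hx
    exact h1.map (Ideal.Quotient.mk I)
  have hb𝔫 : ∀ z, a z ∈ 𝔫 → b z ∈ 𝔫 := by
    intro z hz
    have := Ideal.sub_mem _ hz (hcong z)
    simpa using this
  have main : (ψ.comp a) = (ψ.comp b) := by
    refine eq_of_coord (ψ.comp a) (ψ.comp b) (𝔫.comap a) ?_ ?_ ?_ π s hπ𝔫 hs𝔫 ?_ ?_ ?_ ?_
    · intro d hd
      exact hψu _ hd
    · intro z hz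
      exact hψm _ (hb𝔫 z hz)
    · intro z
      have : ψ (a z - b z) ∈ maximalIdeal (L ⧸ I) := hψm _ (hcong z)
      simpa using this
    · have := hψ0 _ hπ
      simpa [sub_eq_zero] using this
    · have := hψ0 _ hs
      simpa [sub_eq_zero] using this
    · intro z hz
      obtain ⟨d, hd, y₁, y₂, h⟩ := hgen z hz
      exact ⟨d, hd, y₁, y₂, h⟩
    · intro z
      obtain ⟨m, hm, hm'⟩ := hsep z
      exact ⟨m, hm, hm'⟩
  have h3 : ψ (a y - b y) = 0 := by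
    have := congrArg (fun f => f y) main
    simp only [RingHom.comp_apply] at this
    rw [map_sub, this, sub_self]
  exact hψ0' _ h3

/-- **Coordinate injectivity, prime form.**  As `exists_mul_sub_mem_of_coord`, for a prime
`𝔮 ≤ 𝔫`: then `a ≡ b` modulo `𝔮`. -/
theorem sub_mem_of_coord {R B : Type*} [CommRing R] [CommRing B] [IsNoetherianRing B]
    (a b : R →+* B) (𝔮 𝔫 : Ideal B) [h𝔮 : 𝔮.IsPrime] [h𝔫 : 𝔫.IsPrime] (h𝔮𝔫 : 𝔮 ≤ 𝔫)
    (hcong : ∀ y, a y - b y ∈ 𝔫)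
    (π s : R) (hπ𝔫 : a π ∈ 𝔫) (hs𝔫 : a s ∈ 𝔫) (hπ : a π - b π ∈ 𝔮) (hs : a s - b s ∈ 𝔮)
    (hgen : ∀ y, a y ∈ 𝔫 → ∃ d, a d ∉ 𝔫 ∧ ∃ y₁ y₂, d * y = π * y₁ + s * y₂)
    (hsep : ∀ y : R, ∃ m : Polynomial ℤ, a (aeval y m) ∈ 𝔫 ∧ a (aeval y (derivative m)) ∉ 𝔫)
    (y : R) : a y - b y ∈ 𝔮 := by
  obtain ⟨d, hd, hdy⟩ :=
    exists_mul_sub_mem_of_coord a b 𝔮 𝔫 h𝔮𝔫 hcong π s hπ𝔫 hs𝔫 hπ hs hgen hsep y
  exact (h𝔮.mem_or_mem hdy).resolve_left (fun h => hd (h𝔮𝔫 h))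

/-- **Ordinary points of the middle component (O4-abs).**

`B` a Noetherian integrally closed domain (the chart of level `M' q²`), `a b : R →+* B` the two
pull-backs from the chart `R` of level `M' q` (`α^*` and `β^* ∘ w`), `𝔫` a prime (closed point)
through which passes exactly one vertical prime `𝔭` (the middle component).  Assume:

* `t` is a uniformiser at `𝔭` (`h2a`) and `π ∼ t ^ e` at `𝔭` (`h2b`);
* `t ∣ b s - a s`, where `π, s` generate `a⁻¹(𝔫)` locally (`hgen`);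
* `a ≡ b` modulo `𝔫` and the residue extension is separable (`hcong`, `hsep`);
* no horizontal prime `𝔮 ⊆ 𝔫` satisfies `a ≡ b` modulo `𝔮` (`hNC`, the characteristic-zero
  input: the two level-`M' q` structures of a cyclic `q²`-isogeny are never isomorphic at a
  non-elliptic point).

Then `𝔭 B_𝔫 = (t)` and `π = unit · t ^ e` in `B_𝔫`. -/
theorem mid_ord_of_uniformiser {R B : Type*} [CommRing R] [CommRing B] [IsDomain B] [IsNoetherianRing B]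
    [IsIntegrallyClosed B]
    (a b : R →+* B) (𝔭 𝔫 : Ideal B) [h𝔭 : 𝔭.IsPrime] [h𝔫 : 𝔫.IsPrime] (h𝔭𝔫 : 𝔭 ≤ 𝔫)
    (π s : R) (t : B) (e : ℕ)
    (hπ0 : a π ≠ 0) (hπab : a π = b π) (hπ𝔭 : a π ∈ 𝔭)
    (h1 : ∀ 𝔭' ∈ (Ideal.span {a π} : Ideal B).minimalPrimes, 𝔭' ≤ 𝔫 → 𝔭' = 𝔭)
    (ht𝔭 : t ∈ 𝔭)
    (h2a : ∀ x ∈ 𝔭, ∃ c, c ∉ 𝔭 ∧ t ∣ c * x)
    (h2b : ∃ u v, u ∉ 𝔭 ∧ v ∉ 𝔭 ∧ u * t ^ e = v * a π)
    (hts : t ∣ b s - a s) (hs𝔫 : a s ∈ 𝔫)
    (hgen : ∀ y, a y ∈ 𝔫 → ∃ d, a d ∉ 𝔫 ∧ ∃ y₁ y₂, d * y = π * y₁ + s * y₂)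
    (hcong : ∀ y, a y - b y ∈ 𝔫)
    (hsep : ∀ y : R, ∃ m : Polynomial ℤ, a (aeval y m) ∈ 𝔫 ∧ a (aeval y (derivative m)) ∉ 𝔫)
    (hNC : ∀ 𝔮 : Ideal B, 𝔮.IsPrime → 𝔮 ≤ 𝔫 → a π ∉ 𝔮 → ∃ θ, a θ - b θ ∉ 𝔮) :
    (∀ x ∈ 𝔭, ∃ d, d ∉ 𝔫 ∧ t ∣ d * x) ∧ (∃ u v, u ∉ 𝔫 ∧ v ∉ 𝔫 ∧ u * t ^ e = v * a π) := by
  classical
  obtain ⟨u₀, v₀, hu₀, hv₀, huv⟩ := h2b
  have hv₀0 : v₀ ≠ 0 := fun h => hv₀ (h ▸ 𝔭.zero_mem)
  have hu₀0 : u₀ ≠ 0 := fun h => hu₀ (h ▸ 𝔭.zero_mem)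
  have ht0 : t ≠ 0 := by
    rintro rfl
    by_cases he : e = 0
    · subst he
      -- `u₀ = v₀ * a π ∈ 𝔭`
      apply hu₀
      have : u₀ = v₀ * a π := by simpa using huv
      rw [this]; exact 𝔭.mul_mem_left _ hπ𝔭
    · rw [zero_pow he, mul_zero] at huv
      exact (mul_ne_zero hv₀0 hπ0) huv.symm
  -- Step A: a prime `𝔮 ≤ 𝔫` containing `t` contains `π`
  have hA : ∀ 𝔮 : Ideal B, 𝔮.IsPrime → 𝔮 ≤ 𝔫 → t ∈ 𝔮 → a π ∈ 𝔮 := by
    intro 𝔮 h𝔮 h𝔮𝔫 ht𝔮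
    by_contra hπ𝔮
    obtain ⟨θ, hθ⟩ := hNC 𝔮 h𝔮 h𝔮𝔫 hπ𝔮
    apply hθ
    have hs𝔮 : a s - b s ∈ 𝔮 := by
      have h1 : b s - a s ∈ 𝔮 := Ideal.mem_of_dvd _ hts ht𝔮
      have := 𝔮.neg_mem h1
      simpa using this
    have hπ𝔮' : a π - b π ∈ 𝔮 := by rw [hπab, sub_self]; exact 𝔮.zero_mem
    exact sub_mem_of_coord a b 𝔮 𝔫 h𝔮𝔫 hcong π s (h𝔭𝔫 hπ𝔭) hs𝔫 hπ𝔮' hs𝔮 hgen hsep θ
  -- Step A': a prime `𝔮 ≤ 𝔫` containing `t` or `π` contains `𝔭`
  have hB : ∀ 𝔮 : Ideal B, 𝔮.IsPrime → 𝔮 ≤ 𝔫 → (t ∈ 𝔮 ∨ a π ∈ 𝔮) → 𝔭 ≤ 𝔮 := by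
    intro 𝔮 h𝔮 h𝔮𝔫 hor
    have hπ𝔮 : a π ∈ 𝔮 := hor.elim (hA 𝔮 h𝔮 h𝔮𝔫) id
    obtain ⟨𝔭', h𝔭', hle⟩ := Ideal.exists_minimalPrimes_le
      (I := Ideal.span {a π}) (J := 𝔮) ((Ideal.span_singleton_le_iff_mem _).mpr hπ𝔮)
    rw [← h1 𝔭' h𝔭' (hle.trans h𝔮𝔫)]
    exact hle
  -- the localisation
  let L := Localization.AtPrime 𝔫
  have hinj : Function.Injective (algebraMap B L) :=
    IsLocalization.injective L (Ideal.primeCompl_le_nonZeroDivisors 𝔫)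
  have : IsDomain L := IsLocalization.isDomain_localization (Ideal.primeCompl_le_nonZeroDivisors 𝔫)
  have : IsNoetherianRing L := IsLocalization.isNoetherianRing 𝔫.primeCompl L inferInstance
  have : IsIntegrallyClosed L :=
    isIntegrallyClosed_of_isLocalization L 𝔫.primeCompl (Ideal.primeCompl_le_nonZeroDivisors 𝔫)
  let P : Ideal L := 𝔭.map (algebraMap B L)
  have hdisj : Disjoint (𝔫.primeCompl : Set B) 𝔭 := by
    rw [Set.disjoint_left]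
    intro z hz hz𝔭
    exact hz (h𝔭𝔫 hz𝔭)
  have hPprime : P.IsPrime := IsLocalization.isPrime_of_isPrime_disjoint 𝔫.primeCompl L 𝔭 h𝔭 hdisj
  have hPcomap : ∀ x : B, algebraMap B L x ∈ P → x ∈ 𝔭 := by
    intro x hx
    have h2 : x ∈ (Ideal.map (algebraMap B L) 𝔭).under B := hx
    rwa [IsLocalization.under_map_of_isPrime_disjoint 𝔫.primeCompl L h𝔭 hdisj] at h2
  -- primes of `L` containing `t` or `π` contain `P`
  have hB' : ∀ 𝔮' : Ideal L, 𝔮'.IsPrime →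
      (algebraMap B L t ∈ 𝔮' ∨ algebraMap B L (a π) ∈ 𝔮') → P ≤ 𝔮' := by
    intro 𝔮' h𝔮' hor
    rw [Ideal.map_le_iff_le_comap]
    have hprime : (𝔮'.comap (algebraMap B L)).IsPrime := Ideal.comap_isPrime _ _
    refine hB _ hprime ?_ hor
    intro x hx
    have h3 : algebraMap B L x ∈ maximalIdeal L := IsLocalRing.le_maximalIdeal h𝔮'.ne_top hx
    exact (IsLocalization.AtPrime.to_map_mem_maximal_iff L 𝔫 x).mp h3
  have ht' : algebraMap B L t ∈ P := Ideal.mem_map_of_mem _ ht𝔭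
  have hπ' : algebraMap B L (a π) ∈ P := Ideal.mem_map_of_mem _ hπ𝔭
  have ht'0 : algebraMap B L t ≠ 0 := fun h => ht0 (hinj (by rw [h, map_zero]))
  have hπ'0 : algebraMap B L (a π) ≠ 0 := fun h => hπ0 (hinj (by rw [h, map_zero]))
  -- minimal primes over `(t)`, `(t ^ e)`, `(π)` in `L` are equal to `P`
  have hmin_t : ∀ 𝔮' ∈ (Ideal.span {algebraMap B L t} : Ideal L).minimalPrimes, 𝔮' = P := by
    intro 𝔮' h𝔮'
    have h4 : algebraMap B L t ∈ 𝔮' := h𝔮'.1.2 (Ideal.mem_span_singleton_self _)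
    have h5 : P ≤ 𝔮' := hB' 𝔮' h𝔮'.1.1 (Or.inl h4)
    exact le_antisymm (h𝔮'.2 ⟨hPprime, (Ideal.span_singleton_le_iff_mem _).mpr ht'⟩ h5) h5
  have hmin_te : ∀ 𝔮' ∈ (Ideal.span {algebraMap B L t ^ e} : Ideal L).minimalPrimes, 𝔮' = P := by
    intro 𝔮' h𝔮'
    have h4 : algebraMap B L t ^ e ∈ 𝔮' := h𝔮'.1.2 (Ideal.mem_span_singleton_self _)
    have h4' : algebraMap B L t ∈ 𝔮' := h𝔮'.1.1.mem_of_pow_mem e h4
    have he : e ≠ 0 := by
      rintro rfl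
      rw [pow_zero] at h4
      exact h𝔮'.1.1.ne_top ((Ideal.eq_top_iff_one _).mpr h4)
    have h5 : P ≤ 𝔮' := hB' 𝔮' h𝔮'.1.1 (Or.inl h4')
    exact le_antisymm (h𝔮'.2 ⟨hPprime, (Ideal.span_singleton_le_iff_mem _).mpr
      (Ideal.pow_mem_of_mem _ ht' e (Nat.pos_of_ne_zero he))⟩ h5) h5
  have hmin_π : ∀ 𝔮' ∈ (Ideal.span {algebraMap B L (a π)} : Ideal L).minimalPrimes, 𝔮' = P := by
    intro 𝔮' h𝔮'
    have h4 : algebraMap B L (a π) ∈ 𝔮' := h𝔮'.1.2 (Ideal.mem_span_singleton_self _)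
    have h5 : P ≤ 𝔮' := hB' 𝔮' h𝔮'.1.1 (Or.inr h4)
    exact le_antisymm (h𝔮'.2 ⟨hPprime, (Ideal.span_singleton_le_iff_mem _).mpr hπ'⟩ h5) h5
  refine ⟨?_, ?_⟩
  · -- (C1)
    intro x hx
    have hdvd : algebraMap B L t ∣ algebraMap B L x := by
      refine Fermat.Agent.S34.Hartogs.dvd_of_forall_minimalPrimes _ _ ht'0 ?_
      intro 𝔮' h𝔮'
      rw [hmin_t 𝔮' h𝔮']
      obtain ⟨c, hc, hdc⟩ := h2a x hx
      refine ⟨algebraMap B L c, fun h => hc (hPcomap c h), ?_⟩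
      rw [← map_mul]
      exact map_dvd (algebraMap B L) hdc
    obtain ⟨z, hz⟩ := hdvd
    obtain ⟨⟨z₀, d⟩, hzd⟩ := IsLocalization.surj 𝔫.primeCompl z
    refine ⟨d, d.2, ⟨z₀, ?_⟩⟩
    apply hinj
    rw [map_mul, map_mul, hz, ← hzd]
    ring
  · -- (C2)
    have hdvd1 : algebraMap B L t ^ e ∣ algebraMap B L (a π) := by
      refine Fermat.Agent.S34.Hartogs.dvd_of_forall_minimalPrimes _ _ (pow_ne_zero e ht'0) ?_
      intro 𝔮' h𝔮'
      rw [hmin_te 𝔮' h𝔮']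
      refine ⟨algebraMap B L v₀, fun h => hv₀ (hPcomap v₀ h), ⟨algebraMap B L u₀, ?_⟩⟩
      rw [← map_mul, ← map_pow, ← map_mul, ← huv, mul_comm]
    have hdvd2 : algebraMap B L (a π) ∣ algebraMap B L t ^ e := by
      refine Fermat.Agent.S34.Hartogs.dvd_of_forall_minimalPrimes _ _ hπ'0 ?_
      intro 𝔮' h𝔮'
      rw [hmin_π 𝔮' h𝔮']
      refine ⟨algebraMap B L u₀, fun h => hu₀ (hPcomap u₀ h), ⟨algebraMap B L v₀, ?_⟩⟩
      rw [← map_pow, ← map_mul, ← map_mul, huv, mul_comm]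
    obtain ⟨z₁, hz₁⟩ := hdvd1
    obtain ⟨z₂, hz₂⟩ := hdvd2
    have hz12 : z₁ * z₂ = 1 := by
      have h6 : algebraMap B L t ^ e * (z₁ * z₂) = algebraMap B L t ^ e * 1 := by
        rw [mul_one, ← mul_assoc, ← hz₁, ← hz₂]
      exact mul_left_cancel₀ (pow_ne_zero e ht'0) h6
    have hz₁u : IsUnit z₁ := IsUnit.of_mul_eq_one _ hz12
    obtain ⟨⟨z₀, d⟩, hzd⟩ := IsLocalization.surj 𝔫.primeCompl z₁
    have hz₀u : IsUnit (algebraMap B L z₀) := by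
      rw [← hzd]
      exact hz₁u.mul ((IsLocalization.AtPrime.isUnit_to_map_iff L 𝔫 _).mpr d.2)
    have hz₀ : z₀ ∉ 𝔫 := fun h =>
      (IsLocalization.AtPrime.isUnit_to_map_iff L 𝔫 z₀).mp hz₀u h
    refine ⟨z₀, d, hz₀, d.2, ?_⟩
    apply hinj
    rw [map_mul, map_mul, map_pow, hz₁, ← hzd]
    ring

/-- **Ordinary points of the middle component (O4-abs), final form.**

As `mid_ord_of_uniformiser`, but the local parameter `s` of the lower level at `a⁻¹(𝔫)` is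
ARBITRARY (`hgen`), and the uniformiser hypothesis is made for `b y₀ - a y₀` for ONE element
`y₀` of the lower level (e.g. `y₀ = j`, `b y₀ - a y₀ = j'' - j`).  Conclusion: `t := b s - a s`
generates `𝔭 B_𝔫` and `π = unit · t ^ e` in `B_𝔫`. -/
theorem mid_ord {R B : Type*} [CommRing R] [CommRing B] [IsDomain B] [IsNoetherianRing B]
    [IsIntegrallyClosed B]
    (a b : R →+* B) (𝔭 𝔫 : Ideal B) [h𝔭 : 𝔭.IsPrime] [h𝔫 : 𝔫.IsPrime] (h𝔭𝔫 : 𝔭 ≤ 𝔫)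
    (π s y₀ : R) (e : ℕ)
    (hπ0 : a π ≠ 0) (hπab : a π = b π) (hπ𝔭 : a π ∈ 𝔭)
    (h1 : ∀ 𝔭' ∈ (Ideal.span {a π} : Ideal B).minimalPrimes, 𝔭' ≤ 𝔫 → 𝔭' = 𝔭)
    (hs𝔭 : b s - a s ∈ 𝔭)
    (h2a : ∀ x ∈ 𝔭, ∃ c, c ∉ 𝔭 ∧ b y₀ - a y₀ ∣ c * x)
    (h2b : ∃ u v, u ∉ 𝔭 ∧ v ∉ 𝔭 ∧ u * (b y₀ - a y₀) ^ e = v * a π)
    (hs𝔫 : a s ∈ 𝔫)
    (hgen : ∀ y, a y ∈ 𝔫 → ∃ d, a d ∉ 𝔫 ∧ ∃ y₁ y₂, d * y = π * y₁ + s * y₂)
    (hcong : ∀ y, a y - b y ∈ 𝔫)
    (hsep : ∀ y : R, ∃ m : Polynomial ℤ, a (aeval y m) ∈ 𝔫 ∧ a (aeval y (derivative m)) ∉ 𝔫)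
    (hNC : ∀ 𝔮 : Ideal B, 𝔮.IsPrime → 𝔮 ≤ 𝔫 → a π ∉ 𝔮 → ∃ θ, a θ - b θ ∉ 𝔮) :
    (∀ x ∈ 𝔭, ∃ d, d ∉ 𝔫 ∧ b s - a s ∣ d * x) ∧
      (∃ u v, u ∉ 𝔫 ∧ v ∉ 𝔫 ∧ u * (b s - a s) ^ e = v * a π) := by
  classical
  set t := b s - a s with ht
  set t₀ := b y₀ - a y₀ with ht₀
  obtain ⟨u₀, v₀, hu₀, hv₀, huv⟩ := h2b
  have hv₀0 : v₀ ≠ 0 := fun h => hv₀ (h ▸ 𝔭.zero_mem)
  have ht₀0 : t₀ ≠ 0 := by
    intro h0
    by_cases he : e = 0
    · subst he
      apply hu₀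
      have : u₀ = v₀ * a π := by simpa using huv
      rw [this]; exact 𝔭.mul_mem_left _ hπ𝔭
    · rw [h0, zero_pow he, mul_zero] at huv
      exact (mul_ne_zero hv₀0 hπ0) huv.symm
  -- `t ∣ d * t₀` with `d ∉ 𝔫`
  obtain ⟨d, hd, hdt⟩ := exists_mul_sub_mem_of_coord a b (Ideal.span {t}) 𝔫
    ((Ideal.span_singleton_le_iff_mem _).mpr (h𝔭𝔫 hs𝔭)) hcong π s (h𝔭𝔫 hπ𝔭) hs𝔫
    (by rw [hπab, sub_self]; exact Ideal.zero_mem _)
    (by
      rw [Ideal.mem_span_singleton]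
      exact ⟨-1, by rw [ht]; ring⟩) hgen hsep y₀
  rw [Ideal.mem_span_singleton] at hdt
  obtain ⟨z', hz'⟩ := hdt
  -- normalise: `d * t₀ = t * z`
  obtain ⟨z, hz⟩ : ∃ z, d * t₀ = t * z := ⟨-z', by rw [ht₀]; linear_combination (-1 : B) * hz'⟩
  have hd𝔭 : d ∉ 𝔭 := fun h => hd (h𝔭𝔫 h)
  -- `z ∉ 𝔭`
  have hz𝔭 : z ∉ 𝔭 := by
    intro hz𝔭
    obtain ⟨c, hc, w', hw'⟩ := h2a t hs𝔭
    have h3 : t₀ * (d * c) = t₀ * (w' * z) := by
      linear_combination c * hz + z * hw'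
    have h4 : d * c = w' * z := mul_left_cancel₀ ht₀0 h3
    have h5 : d * c ∈ 𝔭 := by rw [h4]; exact 𝔭.mul_mem_left _ hz𝔭
    exact (h𝔭.mem_or_mem h5).elim hd𝔭 hc
  refine mid_ord_of_uniformiser a b 𝔭 𝔫 h𝔭𝔫 π s t e hπ0 hπab hπ𝔭 h1 hs𝔭 ?_ ?_
    (dvd_refl _) hs𝔫 hgen hcong hsep hNC
  · intro x hx
    obtain ⟨c, hc, w, hw⟩ := h2a x hx
    refine ⟨d * c, fun h => (h𝔭.mem_or_mem h).elim hd𝔭 hc, ⟨z * w, ?_⟩⟩
    linear_combination d * hw + w * hz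
  · refine ⟨u₀ * z ^ e, d ^ e * v₀, ?_, ?_, ?_⟩
    · intro h
      exact (h𝔭.mem_or_mem h).elim hu₀ (fun h' => hz𝔭 (h𝔭.mem_of_pow_mem e h'))
    · intro h
      exact (h𝔭.mem_or_mem h).elim (fun h' => hd𝔭 (h𝔭.mem_of_pow_mem e h')) hv₀
    · have h6 : (d * t₀) ^ e = (t * z) ^ e := by rw [hz]
      rw [mul_pow, mul_pow] at h6
      linear_combination (-u₀) * h6 + d ^ e * huv

/-- **Separability hypothesis from an algebraic residue field.**  If `q ∈ 𝔫` and every element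
of `R` satisfies `(a y) ^ (q ^ r) ≡ a y` modulo `𝔫` for some `r ≥ 1` (residue field algebraic
over `𝔽_q`), then the hypothesis `hsep` of `mid_ord` holds. -/
theorem hsep_of_pow {R B : Type*} [CommRing R] [CommRing B] (a : R →+* B) (𝔫 : Ideal B)
    (h𝔫 : 𝔫 ≠ ⊤) (q : ℕ) (hq : (q : B) ∈ 𝔫)
    (hpow : ∀ y : R, ∃ r : ℕ, 0 < r ∧ a y ^ (q ^ r) - a y ∈ 𝔫) :
    ∀ y : R, ∃ m : Polynomial ℤ, a (aeval y m) ∈ 𝔫 ∧ a (aeval y (derivative m)) ∉ 𝔫 := by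
  intro y
  obtain ⟨r, hr, hy⟩ := hpow y
  refine ⟨X ^ (q ^ r) - X, ?_, ?_⟩
  · simpa using hy
  · intro h
    apply h𝔫
    rw [Ideal.eq_top_iff_one]
    have h1 : a (aeval y (derivative (X ^ (q ^ r) - X : Polynomial ℤ)))
        = (q : B) * ((q : B) ^ (r - 1) * a y ^ (q ^ r - 1)) - 1 := by
      have hqr : ((q ^ r : ℕ) : B) = (q : B) * (q : B) ^ (r - 1) := by
        rw [Nat.cast_pow, ← pow_succ']
        congr 1
        omega
      simp only [derivative_X_pow, derivative_X, map_sub, map_mul, map_pow,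
        aeval_X, map_one, map_natCast]
      rw [hqr]; ring
    rw [h1] at h
    have h2 : (q : B) * ((q : B) ^ (r - 1) * a y ^ (q ^ r - 1)) ∈ 𝔫 := 𝔫.mul_mem_right _ hq
    have := 𝔫.sub_mem h2 h
    simpa using this

/-- **Coincidence forces the element different into the prime (L2).**  `c : A' →+* R` the
common coefficient ring (`a ∘ c = b ∘ c`), `Ψ` a polynomial over `A'` with root `θ ∈ R`.  If
`a θ ≠ b θ` in the domain `B` and `a θ ≡ b θ` modulo an ideal `𝔮`, then `a (Ψ'(θ)) ∈ 𝔮`. -/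
theorem different_mem_of_sub_mem {A' R B : Type*} [CommRing A'] [CommRing R] [CommRing B]
    [IsDomain B] (c : A' →+* R) (a b : R →+* B) (hab : ∀ z, a (c z) = b (c z))
    (θ : R) (Ψ : Polynomial A') (hΨ : (Ψ.map c).eval θ = 0) (hne : a θ ≠ b θ)
    (𝔮 : Ideal B) (h : a θ - b θ ∈ 𝔮) : a ((derivative (Ψ.map c)).eval θ) ∈ 𝔮 := by
  classical
  set P : Polynomial B := Ψ.map (a.comp c) with hP
  have hPa : P = (Ψ.map c).map a := by rw [hP, Polynomial.map_map]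
  have hPb : P = (Ψ.map c).map b := by
    rw [hP, Polynomial.map_map]
    congr 1
    ext z
    exact hab z
  have hrootA : P.eval (a θ) = 0 := by
    rw [hPa, Polynomial.eval_map_apply, hΨ, map_zero]
  have hrootB : P.eval (b θ) = 0 := by
    rw [hPb, Polynomial.eval_map_apply, hΨ, map_zero]
  -- `P = (X - C (a θ)) * P₁`
  obtain ⟨P₁, hP₁⟩ : ∃ P₁ : Polynomial B, P = (X - C (a θ)) * P₁ :=
    Polynomial.dvd_iff_isRoot.mpr hrootA
  have h1 : P₁.eval (b θ) = 0 := by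
    have h2 : (b θ - a θ) * P₁.eval (b θ) = 0 := by
      have := hrootB
      rw [hP₁] at this
      simpa using this
    rcases mul_eq_zero.mp h2 with h3 | h3
    · exact absurd (sub_eq_zero.mp h3).symm hne
    · exact h3
  have h4 : (derivative P).eval (a θ) = P₁.eval (a θ) := by
    rw [hP₁]
    simp [derivative_mul]
  have h5 : a ((derivative (Ψ.map c)).eval θ) = P₁.eval (a θ) := by
    have h7 : (derivative ((Ψ.map c).map a)).eval (a θ) = a ((derivative (Ψ.map c)).eval θ) := by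
      rw [Polynomial.derivative_map, Polynomial.eval_map_apply]
    rw [← h4, hPa, h7]
  rw [h5]
  have h6 : P₁.eval (a θ) - P₁.eval (b θ) ∈ 𝔮 :=
    Ideal.mem_of_dvd _ (Polynomial.sub_dvd_eval_sub (a θ) (b θ) P₁) h
  rwa [h1, sub_zero] at h6

/-- **The hypothesis `hNC` of `mid_ord` from the level below (L2').**  If some `θ ∈ R` with
`a θ ≠ b θ` is a root of a polynomial `Ψ` over the common coefficient ring whose derivative at
`θ` lies in no prime `𝔮₁` of `R` with `𝔮₁ ⊆ a⁻¹(𝔫)`, `π ∉ 𝔮₁` (no horizontal ramification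
through the point, the characteristic-zero contract), then `hNC` holds. -/
theorem hNC_of_different {A' R B : Type*} [CommRing A'] [CommRing R] [CommRing B]
    [IsDomain B] (c : A' →+* R) (a b : R →+* B) (hab : ∀ z, a (c z) = b (c z))
    (𝔫 : Ideal B) (π θ : R) (Ψ : Polynomial A') (hΨ : (Ψ.map c).eval θ = 0) (hne : a θ ≠ b θ)
    (hunr : ∀ 𝔮₁ : Ideal R, 𝔮₁.IsPrime → 𝔮₁ ≤ 𝔫.comap a → π ∉ 𝔮₁ →
      (derivative (Ψ.map c)).eval θ ∉ 𝔮₁) :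
    ∀ 𝔮 : Ideal B, 𝔮.IsPrime → 𝔮 ≤ 𝔫 → a π ∉ 𝔮 → ∃ θ', a θ' - b θ' ∉ 𝔮 := by
  intro 𝔮 h𝔮 h𝔮𝔫 hπ
  refine ⟨θ, fun h => ?_⟩
  have h1 := different_mem_of_sub_mem c a b hab θ Ψ hΨ hne 𝔮 h
  exact hunr (𝔮.comap a) (Ideal.comap_isPrime _ _) (Ideal.comap_mono h𝔮𝔫) hπ h1

end Fermat.Agent.S36.MidOrd
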