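import Mathlib
import Fermat.Agent.S36.PrincipalOfPIR
import Fermat.Agent.S36.MidOrd

/-!
# S36 (R-ord), package (O4): horizontal primes through an ordinary point of the middle component
are principal

* `pir_of_branch`: `B` a Noetherian domain, `𝔭 ≤ 𝔫` primes with `𝔭 B_𝔫 = (t)`; if the residue
  ring `B / 𝔭` is generically generated at `𝔫` by the image of a ring `R` (residue degree one,
  `hf1`) whose image is locally generated at `𝔫` by one element `a s` modulo `𝔭` (`hgen`), then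
  `B_𝔫 / (t)` is a principal ideal ring (a discrete valuation ring with uniformiser `a s`).
* `hor_principal_of_pir`: if `B_𝔫 / (t)` is a principal ideal ring, every prime `𝔮 ≤ 𝔫` not
  containing `t` is principal in `B_𝔫` (elementwise form `∃ x ∈ 𝔮, ∃ d ∉ 𝔫, ∀ y ∈ 𝔮, x ∣ d * y`).
* `mid_ord_hor`: the contract `HorPrincipal` (K4 of the ledger) at an ordinary point of the middle
  component, from the hypotheses of `MidOrd.mid_ord` and residue degree one.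
-/

set_option autoImplicit false

namespace Fermat.Agent.S36.MidOrdHor

open IsLocalRing Polynomial

/-- **The branch is a discrete valuation ring.**  See the module docstring. -/
theorem pir_of_branch {R B : Type*} [CommRing R] [CommRing B] [IsDomain B] [IsNoetherianRing B]
    (a : R →+* B) (𝔭 𝔫 : Ideal B) [h𝔭 : 𝔭.IsPrime] [h𝔫 : 𝔫.IsPrime] (h𝔭𝔫 : 𝔭 ≤ 𝔫)
    (s : R) (t : B) (ht𝔭 : t ∈ 𝔭)
    (hC1 : ∀ x ∈ 𝔭, ∃ d, d ∉ 𝔫 ∧ t ∣ d * x)
    (hs𝔫 : a s ∈ 𝔫) (hs𝔭 : a s ∉ 𝔭)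
    (hgen : ∀ y, a y ∈ 𝔫 → ∃ d y₂, a d ∉ 𝔫 ∧ a d * a y - a s * a y₂ ∈ 𝔭)
    (hf1 : ∀ x : B, ∃ y₁ y₂ : R, a y₂ ∉ 𝔭 ∧ x * a y₂ - a y₁ ∈ 𝔭) :
    IsPrincipalIdealRing
      (Localization.AtPrime 𝔫 ⧸ Ideal.span {algebraMap B (Localization.AtPrime 𝔫) t}) := by
  classical
  let L := Localization.AtPrime 𝔫
  have : IsNoetherianRing L := IsLocalization.isNoetherianRing 𝔫.primeCompl L inferInstance
  have hdisj : Disjoint (𝔫.primeCompl : Set B) 𝔭 := by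
    rw [Set.disjoint_left]
    intro z hz hz𝔭
    exact hz (h𝔭𝔫 hz𝔭)
  have hunitL : ∀ d : B, d ∉ 𝔫 → IsUnit (algebraMap B L d) := fun d hd =>
    (IsLocalization.AtPrime.isUnit_to_map_iff L 𝔫 d).mpr hd
  -- `(t) = 𝔭 L`
  have hI : (Ideal.span {algebraMap B L t} : Ideal L) = 𝔭.map (algebraMap B L) := by
    apply le_antisymm
    · rw [Ideal.span_singleton_le_iff_mem]
      exact Ideal.mem_map_of_mem _ ht𝔭
    · rw [Ideal.map_le_iff_le_comap]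
      intro x hx
      obtain ⟨d, hd, hdvd⟩ := hC1 x hx
      rw [Ideal.mem_comap, Ideal.mem_span_singleton]
      have h1 : algebraMap B L t ∣ algebraMap B L d * algebraMap B L x := by
        rw [← map_mul]; exact map_dvd _ hdvd
      exact ((hunitL d hd).dvd_mul_left).mp h1
  have hIprime : (Ideal.span {algebraMap B L t} : Ideal L).IsPrime := by
    rw [hI]
    exact IsLocalization.isPrime_of_isPrime_disjoint 𝔫.primeCompl L 𝔭 h𝔭 hdisj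
  set I : Ideal L := Ideal.span {algebraMap B L t} with hIdef
  have hIle : I ≤ maximalIdeal L := IsLocalRing.le_maximalIdeal hIprime.ne_top
  have : Nontrivial (L ⧸ I) := Ideal.Quotient.nontrivial_iff.mpr hIprime.ne_top
  have : IsLocalRing (L ⧸ I) :=
    IsLocalRing.of_surjective' (Ideal.Quotient.mk I) Ideal.Quotient.mk_surjective
  have : IsLocalHom (Ideal.Quotient.mk I) := by
    apply isLocalHom_of_le_jacobson_bot
    rw [IsLocalRing.jacobson_eq_maximalIdeal (⊥ : Ideal L) bot_ne_top]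
    exact hIle
  let ρ : B →+* L ⧸ I := (Ideal.Quotient.mk I).comp (algebraMap B L)
  have hρ0 : ∀ x : B, ρ x = 0 ↔ x ∈ 𝔭 := by
    intro x
    constructor
    · intro h
      have h1 : algebraMap B L x ∈ I := Ideal.Quotient.eq_zero_iff_mem.mp h
      rw [hI] at h1
      have h2 : x ∈ (Ideal.map (algebraMap B L) 𝔭).under B := h1
      rwa [IsLocalization.under_map_of_isPrime_disjoint 𝔫.primeCompl L h𝔭 hdisj] at h2
    · intro h
      refine Ideal.Quotient.eq_zero_iff_mem.mpr ?_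
      rw [hI]
      exact Ideal.mem_map_of_mem _ h
  have hρu : ∀ x : B, x ∉ 𝔫 → IsUnit (ρ x) := fun x hx =>
    (hunitL x hx).map (Ideal.Quotient.mk I)
  have hρm : ∀ x : B, x ∈ 𝔫 → ρ x ∈ maximalIdeal (L ⧸ I) := by
    intro x hx
    have h1 : algebraMap B L x ∈ maximalIdeal L :=
      (IsLocalization.AtPrime.to_map_mem_maximal_iff L 𝔫 x).mpr hx
    exact _root_.map_nonunit (Ideal.Quotient.mk I) _ h1
  have hρsurj : ∀ z : L ⧸ I, ∃ x d : B, d ∉ 𝔫 ∧ z * ρ d = ρ x := by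
    intro z
    obtain ⟨l, rfl⟩ := Ideal.Quotient.mk_surjective z
    obtain ⟨⟨x, d⟩, hxd⟩ := IsLocalization.surj 𝔫.primeCompl l
    refine ⟨x, d, d.2, ?_⟩
    change Ideal.Quotient.mk I l * Ideal.Quotient.mk I (algebraMap B L d)
      = Ideal.Quotient.mk I (algebraMap B L x)
    rw [← map_mul, hxd]
  set σ : L ⧸ I := ρ (a s) with hσ
  have hσ0 : σ ≠ 0 := fun h => hs𝔭 ((hρ0 _).mp h)
  have hσm : σ ∈ maximalIdeal (L ⧸ I) := hρm _ hs𝔫
  set 𝔪' := maximalIdeal (L ⧸ I) with h𝔪'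
  -- every nonzero element of the image of `a` is a power of `σ` times a unit
  have hK : ∀ N : ℕ, ∀ y : R, ρ (a y) ∉ 𝔪' ^ N →
      ∃ (k : ℕ) (u : L ⧸ I), IsUnit u ∧ ρ (a y) = σ ^ k * u := by
    intro N
    induction N with
    | zero =>
      intro y hy
      exact absurd (by simp) hy
    | succ N ih =>
      intro y hy
      by_cases hy𝔫 : a y ∈ 𝔫
      · obtain ⟨d, y₂, hd, hdy⟩ := hgen y hy𝔫
        have h1 : ρ (a d) * ρ (a y) = σ * ρ (a y₂) := by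
          have := (hρ0 _).mpr hdy
          rw [map_sub, map_mul, map_mul, sub_eq_zero] at this
          exact this
        have hdu : IsUnit (ρ (a d)) := hρu _ hd
        have h2 : ρ (a y₂) ∉ 𝔪' ^ N := by
          intro h3
          apply hy
          have h4 : ρ (a d) * ρ (a y) ∈ 𝔪' ^ (N + 1) := by
            rw [h1, pow_succ']
            exact Ideal.mul_mem_mul hσm h3
          exact (Ideal.unit_mul_mem_iff_mem _ hdu).mp h4
        obtain ⟨k, u, hu, hku⟩ := ih y₂ h2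
        obtain ⟨v, hv⟩ := hdu
        refine ⟨k + 1, u * (↑v⁻¹ : L ⧸ I), hu.mul (Units.isUnit _), ?_⟩
        have h5 : ρ (a y) = (↑v⁻¹ : L ⧸ I) * (ρ (a d) * ρ (a y)) := by
          rw [← hv, ← mul_assoc, Units.inv_mul, one_mul]
        rw [h5, h1, hku]
        ring
      · exact ⟨0, ρ (a y), hρu _ hy𝔫, by simp⟩
  have hK' : ∀ y : R, ρ (a y) ≠ 0 →
      ∃ (k : ℕ) (u : L ⧸ I), IsUnit u ∧ ρ (a y) = σ ^ k * u := by
    intro y hy
    by_contra hcon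
    apply hy
    have hbot : ρ (a y) ∈ (⨅ i : ℕ, 𝔪' ^ i : Ideal (L ⧸ I)) := by
      rw [Ideal.mem_iInf]
      intro N
      by_contra hN
      exact hcon (hK N y hN)
    rw [Ideal.iInf_pow_eq_bot_of_isLocalRing 𝔪' (Ideal.IsPrime.ne_top inferInstance)] at hbot
    exact hbot
  -- the maximal ideal is generated by `σ`
  have hmax : 𝔪' = Ideal.span {σ} := by
    apply le_antisymm
    · intro z hz
      rw [Ideal.mem_span_singleton]
      obtain ⟨x, d, hd, hzd⟩ := hρsurj z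
      obtain ⟨v, hv⟩ := hρu d hd
      have hz' : z = ρ x * (↑v⁻¹ : L ⧸ I) := by
        rw [← hzd, ← hv, mul_assoc, Units.mul_inv, mul_one]
      obtain ⟨y₁, y₂, hy₂, hxy⟩ := hf1 x
      have h1 : ρ x * ρ (a y₂) = ρ (a y₁) := by
        have := (hρ0 _).mpr hxy
        rw [map_sub, map_mul, sub_eq_zero] at this
        exact this
      have hy₂0 : ρ (a y₂) ≠ 0 := fun h => hy₂ ((hρ0 _).mp h)
      by_cases hy₁0 : ρ (a y₁) = 0
      · rw [hy₁0] at h1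
        have hx0 : ρ x = 0 := (mul_eq_zero.mp h1).resolve_right hy₂0
        rw [hz', hx0, zero_mul]
        exact dvd_zero _
      · obtain ⟨k₁, u₁, hu₁, hk₁⟩ := hK' y₁ hy₁0
        obtain ⟨k₂, u₂, hu₂, hk₂⟩ := hK' y₂ hy₂0
        rw [hk₁, hk₂] at h1
        obtain ⟨w₂, hw₂⟩ := hu₂
        rcases lt_or_ge k₂ k₁ with hlt | hge
        · -- `ρ x ∈ (σ)`
          obtain ⟨m, rfl⟩ : ∃ m, k₁ = k₂ + (m + 1) := ⟨k₁ - k₂ - 1, by omega⟩
          have h2 : σ ^ k₂ * (ρ x * u₂) = σ ^ k₂ * (σ ^ (m + 1) * u₁) := by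
            rw [pow_add] at h1
            linear_combination h1
          have h3 : ρ x * u₂ = σ ^ (m + 1) * u₁ := mul_left_cancel₀ (pow_ne_zero _ hσ0) h2
          have h4 : ρ x = σ * (σ ^ m * u₁ * (↑w₂⁻¹ : L ⧸ I)) := by
            have : ρ x = (ρ x * u₂) * (↑w₂⁻¹ : L ⧸ I) := by
              rw [← hw₂, mul_assoc, Units.mul_inv, mul_one]
            rw [this, h3, pow_succ]; ring
          rw [hz', h4]
          exact ⟨σ ^ m * u₁ * (↑w₂⁻¹ : L ⧸ I) * (↑v⁻¹ : L ⧸ I), by ring⟩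
        · -- `ρ x` is a unit: contradiction
          exfalso
          obtain ⟨m, rfl⟩ : ∃ m, k₂ = k₁ + m := ⟨k₂ - k₁, by omega⟩
          have h2 : σ ^ k₁ * (ρ x * (σ ^ m * u₂)) = σ ^ k₁ * u₁ := by
            rw [pow_add] at h1
            linear_combination h1
          have h3 : ρ x * (σ ^ m * u₂) = u₁ := mul_left_cancel₀ (pow_ne_zero _ hσ0) h2
          have hxu : IsUnit (ρ x) := isUnit_of_mul_isUnit_left (h3 ▸ hu₁)
          have hzu : IsUnit z := by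
            rw [hz']; exact hxu.mul (Units.isUnit _)
          exact (mem_maximalIdeal _).mp hz hzu
    · rw [Ideal.span_singleton_le_iff_mem]
      exact hσm
  have hprinc : (maximalIdeal (L ⧸ I)).IsPrincipal := ⟨⟨σ, by rw [← h𝔪', hmax]⟩⟩
  exact ((tfae_of_isNoetherianRing_of_isLocalRing_of_isDomain (L ⧸ I)).out 0 4).mpr hprinc

/-- A uniform multiplier on a finite set: if every `y ∈ S` has a multiplier `d ∉ 𝔫` with
`x ∣ d * y`, one multiplier works for all of `S`. -/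
theorem exists_uniform_multiplier {B : Type*} [CommRing B] (𝔫 : Ideal B) [h𝔫 : 𝔫.IsPrime] (x : B)
    (S : Finset B) (h : ∀ y ∈ S, ∃ d, d ∉ 𝔫 ∧ x ∣ d * y) :
    ∃ d, d ∉ 𝔫 ∧ ∀ y ∈ S, x ∣ d * y := by
  classical
  induction S using Finset.induction_on with
  | empty => exact ⟨1, fun h1 => h𝔫.ne_top ((Ideal.eq_top_iff_one _).mpr h1), by simp⟩
  | insert y₀ S _ ih =>
    obtain ⟨d₁, hd₁, h₁⟩ := ih (fun y hy => h y (Finset.mem_insert_of_mem hy))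
    obtain ⟨d₀, hd₀, h₀⟩ := h y₀ (Finset.mem_insert_self _ _)
    refine ⟨d₀ * d₁, fun hmem => (h𝔫.mem_or_mem hmem).elim hd₀ hd₁, ?_⟩
    intro y hy
    rcases Finset.mem_insert.mp hy with rfl | hyS
    · have : d₀ * d₁ * y = d₁ * (d₀ * y) := by ring
      rw [this]; exact Dvd.dvd.mul_left h₀ _
    · have : d₀ * d₁ * y = d₀ * (d₁ * y) := by ring
      rw [this]; exact Dvd.dvd.mul_left (h₁ y hyS) _

/-- **Horizontal primes are principal.**  If `B_𝔫 / (t)` is a principal ideal ring, every prime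
`𝔮 ≤ 𝔫` of the Noetherian domain `B` not containing `t` is principal in `B_𝔫`. -/
theorem hor_principal_of_pir {B : Type*} [CommRing B] [IsDomain B] [IsNoetherianRing B]
    (𝔫 : Ideal B) [h𝔫 : 𝔫.IsPrime] (t : B) (ht𝔫 : t ∈ 𝔫)
    (hpir : IsPrincipalIdealRing
      (Localization.AtPrime 𝔫 ⧸ Ideal.span {algebraMap B (Localization.AtPrime 𝔫) t}))
    (𝔮 : Ideal B) [h𝔮 : 𝔮.IsPrime] (h𝔮𝔫 : 𝔮 ≤ 𝔫) (ht𝔮 : t ∉ 𝔮) :
    ∃ x ∈ 𝔮, ∃ d, d ∉ 𝔫 ∧ ∀ y ∈ 𝔮, x ∣ d * y := by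
  classical
  let L := Localization.AtPrime 𝔫
  have : IsNoetherianRing L := IsLocalization.isNoetherianRing 𝔫.primeCompl L inferInstance
  have hinj : Function.Injective (algebraMap B L) :=
    IsLocalization.injective L (Ideal.primeCompl_le_nonZeroDivisors 𝔫)
  have hdisj : Disjoint (𝔫.primeCompl : Set B) 𝔮 := by
    rw [Set.disjoint_left]
    intro z hz hz𝔮
    exact hz (h𝔮𝔫 hz𝔮)
  let P : Ideal L := 𝔮.map (algebraMap B L)
  have hPprime : P.IsPrime := IsLocalization.isPrime_of_isPrime_disjoint 𝔫.primeCompl L 𝔮 h𝔮 hdisj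
  have hPcomap : ∀ x : B, algebraMap B L x ∈ P → x ∈ 𝔮 := by
    intro x hx
    have h2 : x ∈ (Ideal.map (algebraMap B L) 𝔮).under B := hx
    rwa [IsLocalization.under_map_of_isPrime_disjoint 𝔫.primeCompl L h𝔮 hdisj] at h2
  have htm : algebraMap B L t ∈ maximalIdeal L :=
    (IsLocalization.AtPrime.to_map_mem_maximal_iff L 𝔫 t).mpr ht𝔫
  obtain ⟨g, hgP, hPg⟩ := Fermat.Agent.S36.PrincipalOfPIR.prime_principal_of_quotient_pir
    (algebraMap B L t) htm hpir P (fun h => ht𝔮 (hPcomap t h))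
  -- `g = x₀ / d₀` with `x₀ ∈ 𝔮`
  have hgP' := hgP
  rw [IsLocalization.mem_map_algebraMap_iff 𝔫.primeCompl L] at hgP'
  obtain ⟨⟨x₀, d₀⟩, hg⟩ := hgP'
  have hg' : g * algebraMap B L (d₀ : B) = algebraMap B L (x₀ : B) := hg
  refine ⟨x₀, x₀.2, ?_⟩
  -- pointwise multipliers
  have hpt : ∀ y ∈ 𝔮, ∃ d, d ∉ 𝔫 ∧ (x₀ : B) ∣ d * y := by
    intro y hy
    have hyP : algebraMap B L y ∈ P := Ideal.mem_map_of_mem _ hy
    rw [hPg, Ideal.mem_span_singleton] at hyP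
    obtain ⟨r, hr⟩ := hyP
    obtain ⟨⟨r₀, d₁⟩, hrd⟩ := IsLocalization.surj 𝔫.primeCompl r
    have hrd' : r * algebraMap B L (d₁ : B) = algebraMap B L r₀ := hrd
    refine ⟨d₀ * d₁, (d₀ * d₁).2, ⟨r₀, ?_⟩⟩
    apply hinj
    rw [map_mul, map_mul, map_mul, hr, ← hg', ← hrd']
    ring
  -- a uniform multiplier on a finite generating set
  obtain ⟨S, hS⟩ : (𝔮 : Ideal B).FG := IsNoetherian.noetherian 𝔮
  obtain ⟨d, hd, hdS⟩ := exists_uniform_multiplier 𝔫 (x₀ : B) S (fun y hy =>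
    hpt y (hS ▸ Ideal.subset_span hy))
  refine ⟨d, hd, ?_⟩
  intro y hy
  rw [← hS] at hy
  induction hy using Submodule.span_induction with
  | mem y hy => exact hdS y hy
  | zero => simp
  | add y₁ y₂ _ _ h₁ h₂ =>
    rw [mul_add]; exact dvd_add h₁ h₂
  | smul c y _ h =>
    have : d * (c • y) = c * (d * y) := by rw [smul_eq_mul]; ring
    rw [this]; exact Dvd.dvd.mul_left h _

/-- **K4 (`HorPrincipal`) at an ordinary point of the middle component.**  Under the hypotheses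
of `MidOrd.mid_ord` and residue degree one of the middle component over the level below (`hf1`),
with `a s` not in the vertical prime (`hs𝔭'`): every horizontal prime `𝔮 ≤ 𝔫` is principal in
`B_𝔫`. -/
theorem mid_ord_hor {R B : Type*} [CommRing R] [CommRing B] [IsDomain B] [IsNoetherianRing B]
    [IsIntegrallyClosed B]
    (a b : R →+* B) (𝔭 𝔫 : Ideal B) [h𝔭 : 𝔭.IsPrime] [h𝔫 : 𝔫.IsPrime] (h𝔭𝔫 : 𝔭 ≤ 𝔫)
    (π s y₀ : R) (e : ℕ)
    (hπ0 : a π ≠ 0) (hπab : a π = b π) (hπ𝔭 : a π ∈ 𝔭)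
    (h1 : ∀ 𝔭' ∈ (Ideal.span {a π} : Ideal B).minimalPrimes, 𝔭' ≤ 𝔫 → 𝔭' = 𝔭)
    (hs𝔭 : b s - a s ∈ 𝔭)
    (h2a : ∀ x ∈ 𝔭, ∃ c, c ∉ 𝔭 ∧ b y₀ - a y₀ ∣ c * x)
    (h2b : ∃ u v, u ∉ 𝔭 ∧ v ∉ 𝔭 ∧ u * (b y₀ - a y₀) ^ e = v * a π)
    (hs𝔫 : a s ∈ 𝔫)
    (hgen : ∀ y, a y ∈ 𝔫 → ∃ d, a d ∉ 𝔫 ∧ ∃ y₁ y₂, d * y = π * y₁ + s * y₂)
    (hcong : ∀ y, a y - b y ∈ 𝔫)
    (hsep : ∀ y : R, ∃ m : Polynomial ℤ, a (aeval y m) ∈ 𝔫 ∧ a (aeval y (derivative m)) ∉ 𝔫)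
    (hNC : ∀ 𝔮 : Ideal B, 𝔮.IsPrime → 𝔮 ≤ 𝔫 → a π ∉ 𝔮 → ∃ θ, a θ - b θ ∉ 𝔮)
    (hs𝔭' : a s ∉ 𝔭)
    (hf1 : ∀ x : B, ∃ y₁ y₂ : R, a y₂ ∉ 𝔭 ∧ x * a y₂ - a y₁ ∈ 𝔭) :
    IsPrincipalIdealRing (Localization.AtPrime 𝔫 ⧸
        Ideal.span {algebraMap B (Localization.AtPrime 𝔫) (b s - a s)}) ∧
      ∀ 𝔮 : Ideal B, 𝔮.IsPrime → 𝔮 ≤ 𝔫 → a π ∉ 𝔮 →
        ∃ x ∈ 𝔮, ∃ d, d ∉ 𝔫 ∧ ∀ y ∈ 𝔮, x ∣ d * y := by
  classical
  obtain ⟨hC1, -⟩ := Fermat.Agent.S36.MidOrd.mid_ord a b 𝔭 𝔫 h𝔭𝔫 π s y₀ e hπ0 hπab hπ𝔭 h1 hs𝔭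
    h2a h2b hs𝔫 hgen hcong hsep hNC
  have hpir := pir_of_branch a 𝔭 𝔫 h𝔭𝔫 s (b s - a s) hs𝔭 hC1 hs𝔫 hs𝔭' (by
    intro y hy
    obtain ⟨d, hd, y₁, y₂, hdy⟩ := hgen y hy
    refine ⟨d, y₂, hd, ?_⟩
    have h3 : a d * a y - a s * a y₂ = a π * a y₁ := by
      rw [← map_mul, hdy, map_add, map_mul, map_mul]; ring
    rw [h3]
    exact 𝔭.mul_mem_right _ hπ𝔭) hf1
  refine ⟨hpir, ?_⟩
  intro 𝔮 h𝔮 h𝔮𝔫 hπ𝔮
  have ht𝔮 : b s - a s ∉ 𝔮 := by
    intro ht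
    obtain ⟨θ, hθ⟩ := hNC 𝔮 h𝔮 h𝔮𝔫 hπ𝔮
    apply hθ
    have hs𝔮 : a s - b s ∈ 𝔮 := by
      have := 𝔮.neg_mem ht
      simpa using this
    have hπ𝔮' : a π - b π ∈ 𝔮 := by rw [hπab, sub_self]; exact 𝔮.zero_mem
    exact Fermat.Agent.S36.MidOrd.sub_mem_of_coord a b 𝔮 𝔫 h𝔮𝔫 hcong π s (h𝔭𝔫 hπ𝔭) hs𝔫 hπ𝔮' hs𝔮
      hgen hsep θ
  exact hor_principal_of_pir 𝔫 (b s - a s) (h𝔭𝔫 hs𝔭) hpir 𝔮 h𝔮𝔫 ht𝔮

/-- **Bridge from the localised form of a smooth point** (the shape of the smooth alternative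
of `S35.NodePtsInst.node_pts_fin`) **to the elementwise hypothesis `hgen`.** -/
theorem hgen_of_maximalIdeal {R : Type*} [CommRing R] (ν : Ideal R) [hν : ν.IsPrime]
    (Rν : Type*) [CommRing Rν] [Algebra R Rν] [IsLocalization.AtPrime Rν ν] [IsLocalRing Rν]
    (π s : R)
    (h : maximalIdeal Rν = Ideal.span {algebraMap R Rν π, algebraMap R Rν s}) :
    ∀ y ∈ ν, ∃ d, d ∉ ν ∧ ∃ y₁ y₂, d * y = π * y₁ + s * y₂ := by
  intro y hy
  have h1 : algebraMap R Rν y ∈ maximalIdeal Rν :=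
    (IsLocalization.AtPrime.to_map_mem_maximal_iff Rν ν y).mpr hy
  rw [h, Ideal.mem_span_pair] at h1
  obtain ⟨r₁, r₂, hr⟩ := h1
  obtain ⟨⟨n₁, d₁⟩, h₁⟩ := IsLocalization.surj ν.primeCompl r₁
  obtain ⟨⟨n₂, d₂⟩, h₂⟩ := IsLocalization.surj ν.primeCompl r₂
  have h₁' : r₁ * algebraMap R Rν (d₁ : R) = algebraMap R Rν n₁ := h₁
  have h₂' : r₂ * algebraMap R Rν (d₂ : R) = algebraMap R Rν n₂ := h₂
  have h3 : algebraMap R Rν ((d₁ : R) * (d₂ : R) * y)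
      = algebraMap R Rν (π * (n₁ * d₂) + s * (n₂ * d₁)) := by
    simp only [map_mul, map_add]
    rw [← hr, ← h₁', ← h₂']
    ring
  obtain ⟨c, hc⟩ := (IsLocalization.eq_iff_exists ν.primeCompl Rν).mp h3
  refine ⟨c * d₁ * d₂, (c * d₁ * d₂).2, (c : R) * (n₁ * d₂), (c : R) * (n₂ * d₁), ?_⟩
  linear_combination hc

end Fermat.Agent.S36.MidOrdHor
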