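import Mathlib
import Fermat.Agent.S36.NExt

/-!
# S36 package (V), counting tool, part 2 (NExtNorm): discrete structure and norms

In the setting of `Fermat.Agent.S36.NExt.Hyp` (a discrete valuation ring `O` with fraction field
`K` and uniformiser `π`, a finite separable extension `E / K`, the valuation subrings `V i` of
`E` above `O` with uniformisers `t i`, ramification indices `e i` and residue degrees `m i`):

* every nonzero element of `E` is `t i ^ k * unit` at `V i` (`Hyp.exists_zpow_unit`);
* the norm of an element which is a unit at all `V i` is a unit of `O` (`Hyp.norm_unit`);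
* `N(x) = π ^ (∑ i, m i * k i) * unit` if `x = t i ^ k i * unit` at `V i`
  (`Hyp.norm_eq_pow_mul_unit`, characteristic zero);
* for one valuation with `e = 1`, `[E : K] = q` the residue characteristic and radicial residue
  extension, `N(x) ≡ x ^ q` (`Hyp.norm_sub_pow_mem_nonunits`).
-/

set_option autoImplicit false

namespace Fermat.Agent.S36.NExtNorm

open IsLocalRing Fermat.Agent.S34.TwoExt Fermat.Agent.S36.NExt

section Val

variable {E : Type*} [Field E]

/-- The non-units of a valuation subring are stable under multiplication by its elements. -/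
lemma mul_mem_nonunits' (V : ValuationSubring E) {a x : E} (ha : a ∈ V)
    (hx : x ∈ V.nonunits) : a * x ∈ V.nonunits := by
  rw [ValuationSubring.mem_nonunits_iff, map_mul]
  calc V.valuation a * V.valuation x ≤ 1 * V.valuation x :=
        mul_le_mul_left ((V.valuation_le_one_iff _).2 ha) _
    _ = V.valuation x := one_mul _
    _ < 1 := (V.mem_nonunits_iff).1 hx

/-- An element of `V` whose inverse is not in `V` is a non-unit. -/
lemma mem_nonunits_of_inv_notMem (V : ValuationSubring E) {y : E} (hy : y⁻¹ ∉ V) :
    y ∈ V.nonunits := by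
  rw [V.mem_nonunits_iff]
  by_contra hlt
  rw [not_lt] at hlt
  apply hy
  rw [← V.valuation_le_one_iff, map_inv₀]
  exact inv_le_one_of_one_le₀ hlt

/-- Elements of valuation one are units of `V`. -/
lemma mem_and_inv_mem_of_valuation_eq_one (V : ValuationSubring E) {u : E}
    (h : V.valuation u = 1) : u ∈ V ∧ u⁻¹ ∈ V := by
  refine ⟨(V.valuation_le_one_iff _).1 h.le, ?_⟩
  rw [← V.valuation_le_one_iff, map_inv₀, h, inv_one]

/-- Nonzero units of `V` have valuation one. -/
lemma valuation_eq_one_of_mem_of_inv_mem (V : ValuationSubring E) {u : E} (hu0 : u ≠ 0)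
    (h1 : u ∈ V) (h2 : u⁻¹ ∈ V) : V.valuation u = 1 := by
  rw [← V.valuation_le_one_iff] at h1 h2
  rw [map_inv₀] at h2
  refine le_antisymm h1 ?_
  have h0 : V.valuation u ≠ 0 := (Valuation.ne_zero_iff _).2 hu0
  exact (inv_le_one₀ (zero_lt_iff.2 h0)).1 h2

end Val

section Main

variable {O : Type*} (K : Type*) {E : Type*} [CommRing O] [IsDomain O] [IsDiscreteValuationRing O]
  [Field K] [Field E] [Algebra O K] [IsFractionRing O K] [Algebra K E] [Algebra O E]
  [IsScalarTower O K E]

omit [Field K] [Algebra O K] [IsFractionRing O K] [Algebra K E] [IsScalarTower O K E] in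
/-- The trivial family `{1}` is residually independent at every valuation subring above `O`:
the `indep` field of `NExt.Hyp` for `m i = 1`, `b i = fun _ => 1`. -/
theorem indep_one {π : O} (hπ : Irreducible π) (V : ValuationSubring E)
    (hV : ∀ a : O, algebraMap O E a ∈ V) (hinv : (algebraMap O E π)⁻¹ ∉ V) (c : Fin 1 → O)
    (hc : (∑ j, algebraMap O E (c j) * (fun _ : Fin 1 => (1 : E)) j) ∈ V.nonunits) :
    ∀ j, c j ∈ maximalIdeal O := by
  intro j
  rw [Fin.sum_univ_one, mul_one] at hc
  have h0 : c 0 ∈ (centre V (closure_le V hV)).under O := by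
    rw [Ideal.mem_comap, mem_centre_iff]
    exact (V.mem_nonunits_iff).1 hc
  rw [centre_under hπ V hV hinv] at h0
  rwa [Subsingleton.elim j 0]

omit [Field K] [Algebra O K] [IsFractionRing O K] [Algebra K E] [IsScalarTower O K E] in
/-- An element of `O` which is a non-unit of `V` lies in the maximal ideal of `O`. -/
theorem mem_maximalIdeal_of_mem_nonunits {π : O} (hπ : Irreducible π) (V : ValuationSubring E)
    (hV : ∀ a : O, algebraMap O E a ∈ V) (hinv : (algebraMap O E π)⁻¹ ∉ V) {a : O}
    (ha : algebraMap O E a ∈ V.nonunits) : a ∈ maximalIdeal O := by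
  have h0 : a ∈ (centre V (closure_le V hV)).under O := by
    rw [Ideal.mem_comap, mem_centre_iff]
    exact (V.mem_nonunits_iff).1 ha
  rwa [centre_under hπ V hV hinv] at h0

omit [Field K] [Algebra O K] [IsFractionRing O K] [Algebra K E] [IsScalarTower O K E] in
/-- Elements of the maximal ideal of `O` are non-units of `V`. -/
theorem mem_nonunits_of_mem_maximalIdeal {π : O} (hπ : Irreducible π) (V : ValuationSubring E)
    (hV : ∀ a : O, algebraMap O E a ∈ V) (hinv : (algebraMap O E π)⁻¹ ∉ V) {a : O}
    (ha : a ∈ maximalIdeal O) : algebraMap O E a ∈ V.nonunits := by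
  have h0 : a ∈ (centre V (closure_le V hV)).under O := by
    rw [centre_under hπ V hV hinv]; exact ha
  rw [Ideal.mem_comap, mem_centre_iff] at h0
  exact (V.mem_nonunits_iff).2 h0

omit [IsDomain O] [IsDiscreteValuationRing O] [Field K] [Algebra O K] [IsFractionRing O K]
  [Algebra K E] [IsScalarTower O K E] in
/-- Elements of the `n`-th power of the centre of `V` are divisible by `t ^ n` in `V`, for a
uniformiser `t` of `V`. -/
theorem exists_eq_pow_mul_of_mem_pow (V : ValuationSubring E)
    (hV : ∀ a : O, algebraMap O E a ∈ V) {t : E}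
    (huni : ∀ x ∈ V.nonunits, ∃ y ∈ V, x = t * y) (n : ℕ) (c : integralClosure O E)
    (hc : c ∈ centre V (closure_le V hV) ^ n) :
    ∃ y ∈ V, algebraMap (integralClosure O E) E c = t ^ n * y := by
  induction n generalizing c with
  | zero => exact ⟨_, closure_le V hV c, by rw [pow_zero, one_mul]⟩
  | succ n ih =>
    rw [pow_succ] at hc
    refine Submodule.mul_induction_on hc ?_ ?_
    · intro a ha b hb
      obtain ⟨y, hy, hay⟩ := ih a ha
      have hbn : algebraMap (integralClosure O E) E b ∈ V.nonunits :=
        (V.mem_nonunits_iff).2 ((mem_centre_iff V _ b).1 hb)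
      obtain ⟨z, hz, hbz⟩ := huni _ hbn
      exact ⟨y * z, V.mul_mem _ _ hy hz, by rw [map_mul, hay, hbz]; ring⟩
    · rintro a b ⟨y, hy, hay⟩ ⟨z, hz, hbz⟩
      exact ⟨y + z, V.add_mem _ _ hy hz, by rw [map_add, hay, hbz]; ring⟩

section Count

variable [FiniteDimensional K E] [Algebra.IsSeparable K E]
include K

/-- **Discreteness**: every nonzero element of `V` is `t ^ n * unit`, for a uniformiser `t`. -/
theorem exists_pow_unit_of_mem {π : O} (hπ : Irreducible π) (V : ValuationSubring E)
    (hV : ∀ a : O, algebraMap O E a ∈ V) (hinv : (algebraMap O E π)⁻¹ ∉ V) {t : E}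
    (ht : t ∈ V.nonunits) (huni : ∀ x ∈ V.nonunits, ∃ y ∈ V, x = t * y) {x : E} (hx : x ∈ V)
    (hx0 : x ≠ 0) : ∃ (n : ℕ) (u : E), u ∈ V ∧ u⁻¹ ∈ V ∧ x = t ^ n * u := by
  classical
  have hD : IsDedekindDomain (integralClosure O E) := integralClosure.isDedekindDomain O K E
  have hF : IsFractionRing (integralClosure O E) E :=
    IsIntegralClosure.isFractionRing_of_finite_extension O K E (integralClosure O E)
  set P := centre V (closure_le V hV) with hP
  have hb : P ≠ ⊥ := centre_ne_bot hπ V hV hinv
  obtain ⟨a, s, hs, hxs⟩ := exists_mul_eq V (closure_le V hV) hb hx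
  have hs1 := valuation_eq_one_of_notMem V (closure_le V hV) hs
  have hsE : algebraMap (integralClosure O E) E s ≠ 0 := by
    intro h0
    rw [h0, map_zero] at hs1
    exact zero_ne_one hs1
  have ha0 : a ≠ 0 := by
    rintro rfl
    rw [map_zero] at hxs
    rcases mul_eq_zero.1 hxs with h | h
    · exact hx0 h
    · exact hsE h
  have hK : ⨅ n, P ^ n = ⊥ :=
    Ideal.iInf_pow_eq_bot_of_isDomain P (Ideal.IsPrime.ne_top inferInstance)
  have hex : ∃ n, a ∉ P ^ n := by
    by_contra hall
    push Not at hall
    apply ha0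
    have : a ∈ ⨅ n, P ^ n := by rw [Submodule.mem_iInf]; exact hall
    rwa [hK, Ideal.mem_bot] at this
  have hn : a ∉ P ^ Nat.find hex := Nat.find_spec hex
  have hn0 : Nat.find hex ≠ 0 := by
    intro h0
    rw [h0, pow_zero, Ideal.one_eq_top] at hn
    exact hn Submodule.mem_top
  obtain ⟨k, hk⟩ := Nat.exists_eq_succ_of_ne_zero hn0
  have hak : a ∈ P ^ k := by
    by_contra hc
    exact Nat.find_min hex (by omega : k < Nat.find hex) hc
  obtain ⟨y, hy, hay⟩ := exists_eq_pow_mul_of_mem_pow V hV huni k a hak
  have hyu : y⁻¹ ∈ V := by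
    by_contra hyi
    obtain ⟨y', hy', rfl⟩ := huni y (mem_nonunits_of_inv_notMem V hyi)
    apply hn
    rw [hk]
    exact mem_pow_of_eq K hπ V hV hinv ht hy' a (by rw [hay, Nat.succ_eq_add_one]; ring)
  have hsu : (algebraMap (integralClosure O E) E s)⁻¹ ∈ V :=
    (mem_and_inv_mem_of_valuation_eq_one V hs1).2
  refine ⟨k, y * (algebraMap (integralClosure O E) E s)⁻¹, V.mul_mem _ _ hy hsu, ?_, ?_⟩
  · rw [mul_inv, inv_inv]
    exact V.mul_mem _ _ hyu (closure_le V hV s)
  · rw [← mul_assoc, ← hay, ← hxs, mul_assoc, mul_inv_cancel₀ hsE, mul_one]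

/-- **Discreteness**: every nonzero element of `E` is `t ^ k * unit` (`k : ℤ`), for a uniformiser
`t` of `V`. -/
theorem exists_zpow_unit_of_uniformiser {π : O} (hπ : Irreducible π) (V : ValuationSubring E)
    (hV : ∀ a : O, algebraMap O E a ∈ V) (hinv : (algebraMap O E π)⁻¹ ∉ V) {t : E}
    (ht : t ∈ V.nonunits) (huni : ∀ x ∈ V.nonunits, ∃ y ∈ V, x = t * y) {x : E}
    (hx0 : x ≠ 0) : ∃ (k : ℤ) (u : E), u ∈ V ∧ u⁻¹ ∈ V ∧ x = t ^ k * u := by
  rcases V.mem_or_inv_mem x with hx | hx
  · obtain ⟨n, u, hu, hu', rfl⟩ := exists_pow_unit_of_mem K hπ V hV hinv ht huni hx hx0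
    exact ⟨n, u, hu, hu', by rw [zpow_natCast]⟩
  · obtain ⟨n, u, hu, hu', hxu⟩ :=
      exists_pow_unit_of_mem K hπ V hV hinv ht huni hx (inv_ne_zero hx0)
    refine ⟨-n, u⁻¹, hu', by rwa [inv_inv], ?_⟩
    rw [zpow_neg, zpow_natCast, ← mul_inv, ← hxu, inv_inv]

variable {ι : Type*} [Fintype ι] {π : O} {V : ι → ValuationSubring E} {e : ι → ℕ}
  {t : ι → E} {m : ι → ℕ} {b : ∀ i, Fin (m i) → E}

/-- **Discreteness** in the setting of `NExt.Hyp`: every nonzero element of `E` is
`t i ^ k * unit` at `V i`. -/
theorem _root_.Fermat.Agent.S36.NExt.Hyp.exists_zpow_unit (h : Hyp K π V e t m b) (i : ι)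
    {x : E} (hx0 : x ≠ 0) : ∃ (k : ℤ) (u : E), u ∈ V i ∧ u⁻¹ ∈ V i ∧ x = t i ^ k * u :=
  exists_zpow_unit_of_uniformiser K h.irreducible (V i) (h.le i) (h.inv_notMem i)
    (h.mem_nonunits i) (fun _ hx => h.exists_eq_mul K i hx) hx0

/-- The valuation form of discreteness: the valuation of a nonzero element is an integral
power of the valuation of `t i`. -/
theorem _root_.Fermat.Agent.S36.NExt.Hyp.exists_valuation_eq_zpow (h : Hyp K π V e t m b)
    (i : ι) {x : E} (hx0 : x ≠ 0) :
    ∃ k : ℤ, (V i).valuation x = (V i).valuation (t i) ^ k := by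
  obtain ⟨k, u, hu, hu', rfl⟩ := h.exists_zpow_unit K i hx0
  have hu0 : u ≠ 0 := right_ne_zero_of_mul hx0
  exact ⟨k, by rw [map_mul, map_zpow₀, valuation_eq_one_of_mem_of_inv_mem (V i) hu0 hu hu',
    mul_one]⟩

/-- The norm of an element which is a unit at every `V i` is a unit of `O`. -/
theorem _root_.Fermat.Agent.S36.NExt.Hyp.norm_unit (h : Hyp K π V e t m b) {x : E}
    (hx : ∀ i, (V i).valuation x = 1) :
    ∃ w : Oˣ, Algebra.norm K x = algebraMap O K (w : O) := by
  have hx1 : IsIntegral O x :=
    (h.isIntegral_iff K x).2 fun i => (mem_and_inv_mem_of_valuation_eq_one (V i) (hx i)).1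
  have hx2 : IsIntegral O x⁻¹ :=
    (h.isIntegral_iff K x⁻¹).2 fun i => (mem_and_inv_mem_of_valuation_eq_one (V i) (hx i)).2
  obtain ⟨a, ha⟩ := IsIntegrallyClosed.isIntegral_iff.1 (Algebra.isIntegral_norm K hx1)
  obtain ⟨a', ha'⟩ := IsIntegrallyClosed.isIntegral_iff.1 (Algebra.isIntegral_norm K hx2)
  have hι : Nonempty ι := by
    by_contra hne
    rw [not_nonempty_iff] at hne
    have h1 := h.finrank_eq K
    rw [Finset.univ_eq_empty, Finset.sum_empty] at h1
    have h2 : 0 < Module.finrank K E := Module.finrank_pos
    omega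
  obtain ⟨i₀⟩ := hι
  have hx0 : x ≠ 0 := by
    rintro rfl
    have := hx i₀
    rw [map_zero] at this
    exact zero_ne_one this
  have hmul : a * a' = 1 := by
    apply IsFractionRing.injective O K
    rw [map_mul, ha, ha', ← map_mul, mul_inv_cancel₀ hx0, map_one, map_one]
  exact ⟨⟨a, a', hmul, by rw [mul_comm]; exact hmul⟩, ha.symm⟩

/-- The integral norm computes the field norm on the integral closure. -/
theorem algebraMap_norm_closure (ξ : integralClosure O E) :
    algebraMap O K (Algebra.norm O ξ) = Algebra.norm K (algebraMap (integralClosure O E) E ξ) := by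
  have hfin : Module.Finite O (integralClosure O E) :=
    IsIntegralClosure.finite O K E (integralClosure O E)
  have hfaith : FaithfulSMul O E := by
    rw [faithfulSMul_iff_algebraMap_injective, IsScalarTower.algebraMap_eq O K E]
    exact (algebraMap K E).injective.comp (IsFractionRing.injective O K)
  have htf : Module.IsTorsionFree O E := inferInstance
  have htfC : Module.IsTorsionFree O (integralClosure O E) := IsIntegralClosure.isTorsionFree O E
  have hfree : Module.Free O (integralClosure O E) :=
    IsIntegralClosure.module_free O K E (integralClosure O E)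
  have hD : IsDedekindDomain (integralClosure O E) := integralClosure.isDedekindDomain O K E
  rw [← Algebra.intNorm_eq_norm, Algebra.algebraMap_intNorm (L := E)]

/-- **Norm residue formula, radicial case.** One valuation `V i` above `O`, unramified
(`e i = 1`), `[E : K] = q` the residue characteristic, and `q`-th powers of elements of `V i`
are congruent to elements of `O`: then `N(x) ≡ x ^ q` modulo the non-units of `V i`. -/
theorem _root_.Fermat.Agent.S36.NExt.Hyp.norm_sub_pow_mem_nonunits (h : Hyp K π V e t m b)
    (i : ι) (hi : ∀ j, j = i) (he : e i = 1) {q : ℕ} (hq : q.Prime)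
    (hqO : (q : O) ∈ maximalIdeal O) (hdeg : Module.finrank K E = q)
    (hrad : ∀ y ∈ V i, ∃ c : O, y ^ q - algebraMap O E c ∈ (V i).nonunits) {x : E}
    (hx : x ∈ V i) : algebraMap K E (Algebra.norm K x) - x ^ q ∈ (V i).nonunits := by
  classical
  have hfin : Module.Finite O (integralClosure O E) :=
    IsIntegralClosure.finite O K E (integralClosure O E)
  have hfaith : FaithfulSMul O E := by
    rw [faithfulSMul_iff_algebraMap_injective, IsScalarTower.algebraMap_eq O K E]
    exact (algebraMap K E).injective.comp (IsFractionRing.injective O K)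
  have htf : Module.IsTorsionFree O E := inferInstance
  have htfC : Module.IsTorsionFree O (integralClosure O E) := IsIntegralClosure.isTorsionFree O E
  have hfree : Module.Free O (integralClosure O E) :=
    IsIntegralClosure.module_free O K E (integralClosure O E)
  have hrank : Module.finrank O (integralClosure O E) = Module.finrank K E :=
    IsIntegralClosure.rank O K E (integralClosure O E)
  have hπ0 : algebraMap O E π ≠ 0 := by
    intro h0
    exact h.inv_notMem i (by rw [h0, inv_zero]; exact (V i).zero_mem)
  -- `x` and `(x ^ q - c) / π` are integral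
  have hxint : IsIntegral O x := (h.isIntegral_iff K x).2 fun j => by rw [hi j]; exact hx
  obtain ⟨c, hc⟩ := hrad x hx
  have hρint : IsIntegral O ((x ^ q - algebraMap O E c) / algebraMap O E π) := by
    refine (h.isIntegral_iff K _).2 fun j => ?_
    rw [hi j]
    have := h.pow_div_mem K i hc (n := 1) he.le
    rwa [pow_one] at this
  set ξ : integralClosure O E := ⟨x, hxint⟩ with hξ
  set ρ : integralClosure O E := ⟨_, hρint⟩ with hρ
  have hξρ : ξ ^ q = algebraMap O (integralClosure O E) c +
      algebraMap O (integralClosure O E) π * ρ := by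
    apply Subtype.ext
    change x ^ q = algebraMap O E c + algebraMap O E π *
      ((x ^ q - algebraMap O E c) / algebraMap O E π)
    field_simp
    ring
  -- the regular representation
  let B := Module.Free.chooseBasis O (integralClosure O E)
  have hcard : Fintype.card (Module.Free.ChooseBasisIndex O (integralClosure O E)) = q := by
    rw [← Module.finrank_eq_card_chooseBasisIndex, hrank, hdeg]
  have hdet : Algebra.norm O ξ = (Algebra.leftMulMatrix B ξ).det :=
    Algebra.norm_eq_matrix_det B ξ
  have hpow : (Algebra.leftMulMatrix B ξ) ^ q =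
      algebraMap O _ c + algebraMap O _ π * Algebra.leftMulMatrix B ρ := by
    rw [← map_pow, hξρ, map_add, map_mul, AlgHom.commutes, AlgHom.commutes]
  -- reduce modulo the maximal ideal
  let R := (IsLocalRing.residue O).mapMatrix
    (m := Module.Free.ChooseBasisIndex O (integralClosure O E))
  have hπres : IsLocalRing.residue O π = 0 := by
    rw [IsLocalRing.residue_eq_zero_iff, h.irreducible.maximalIdeal_eq]
    exact Ideal.mem_span_singleton_self π
  have hRpow : (R (Algebra.leftMulMatrix B ξ)) ^ q =
      (IsLocalRing.residue O c) • (1 : Matrix _ _ (IsLocalRing.ResidueField O)) := by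
    rw [← map_pow, hpow, map_add, map_mul]
    have h1 : R (algebraMap O _ π) = 0 := by
      ext a a'
      rw [RingHom.mapMatrix_apply, Matrix.map_apply, Matrix.algebraMap_matrix_apply,
        Matrix.zero_apply]
      split_ifs
      · exact hπres
      · exact map_zero _
    have h2 : R (algebraMap O _ c) =
        (IsLocalRing.residue O c) • (1 : Matrix _ _ (IsLocalRing.ResidueField O)) := by
      ext a a'
      rw [RingHom.mapMatrix_apply, Matrix.map_apply, Matrix.algebraMap_matrix_apply,
        Matrix.smul_apply, Matrix.one_apply, smul_eq_mul]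
      split_ifs
      · rw [mul_one]; rfl
      · rw [mul_zero]; exact map_zero _
    rw [h1, h2, zero_mul, add_zero]
  have hdetR : (IsLocalRing.residue O (Algebra.norm O ξ)) ^ q = (IsLocalRing.residue O c) ^ q := by
    have h3 : (R (Algebra.leftMulMatrix B ξ)).det = IsLocalRing.residue O (Algebra.norm O ξ) := by
      rw [hdet]
      exact (RingHom.map_det _ _).symm
    rw [← h3, ← Matrix.det_pow, hRpow, Matrix.det_smul, Matrix.det_one, mul_one, hcard]
  -- characteristic `q`
  have hchar : CharP (IsLocalRing.ResidueField O) q := by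
    rw [CharP.charP_iff_prime_eq_zero hq]
    have : ((q : O) : O) ∈ maximalIdeal O := hqO
    rw [← IsLocalRing.residue_eq_zero_iff] at this
    simpa using this
  have hfact : Fact q.Prime := ⟨hq⟩
  have hres : IsLocalRing.residue O (Algebra.norm O ξ) = IsLocalRing.residue O c := by
    have h4 : (IsLocalRing.residue O (Algebra.norm O ξ) - IsLocalRing.residue O c) ^ q = 0 := by
      rw [sub_pow_char, hdetR, sub_self]
    exact sub_eq_zero.1 (pow_eq_zero_iff hq.ne_zero |>.1 h4)
  have hmem : Algebra.norm O ξ - c ∈ maximalIdeal O := by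
    rw [← IsLocalRing.residue_eq_zero_iff, map_sub, hres, sub_self]
  have hN : algebraMap K E (Algebra.norm K x) = algebraMap O E (Algebra.norm O ξ) := by
    rw [IsScalarTower.algebraMap_apply O K E, algebraMap_norm_closure K ξ]
    rfl
  have e1 : algebraMap K E (Algebra.norm K x) - x ^ q =
      algebraMap O E (Algebra.norm O ξ - c) - (x ^ q - algebraMap O E c) := by
    rw [hN, map_sub]; ring
  rw [e1]
  exact sub_mem (mem_nonunits_of_mem_maximalIdeal h.irreducible (V i) (h.le i) (h.inv_notMem i)
    hmem) hc

omit [IsDomain O] [IsDiscreteValuationRing O] [IsFractionRing O K] [Algebra K E] [Algebra O E]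
  [IsScalarTower O K E] [FiniteDimensional K E] [Algebra.IsSeparable K E] [Field E] in
/-- Integral powers of units of `O` in `K`. -/
lemma algebraMap_units_zpow (u : Oˣ) (k : ℤ) :
    algebraMap O K ((u ^ k : Oˣ) : O) = (algebraMap O K (u : O)) ^ k := by
  have h1 := congrArg Units.val (map_zpow (Units.map (algebraMap O K : O →* K)) u k)
  rw [Units.val_zpow_eq_zpow_val] at h1
  exact h1

/-- **A local uniformiser**: an integral element which is `t i * unit` at `V i`, a unit at the
other `V j`, and whose norm is `π ^ m i * unit`. -/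
theorem _root_.Fermat.Agent.S36.NExt.Hyp.exists_local_uniformiser [CharZero K]
    (h : Hyp K π V e t m b) (i : ι) :
    ∃ τ : E, IsIntegral O τ ∧ (V i).valuation τ = (V i).valuation (t i) ∧
      (∀ j, j ≠ i → (V j).valuation τ = 1) ∧
      ∃ w : Oˣ, Algebra.norm K τ = algebraMap O K π ^ m i * algebraMap O K (w : O) := by
  classical
  have hD : IsDedekindDomain (integralClosure O E) := integralClosure.isDedekindDomain O K E
  have hF : IsFractionRing (integralClosure O E) E :=
    IsIntegralClosure.isFractionRing_of_finite_extension O K E (integralClosure O E)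
  have hfin : Module.Finite O (integralClosure O E) :=
    IsIntegralClosure.finite O K E (integralClosure O E)
  have hfaith : FaithfulSMul O E := by
    rw [faithfulSMul_iff_algebraMap_injective, IsScalarTower.algebraMap_eq O K E]
    exact (algebraMap K E).injective.comp (IsFractionRing.injective O K)
  have htf : Module.IsTorsionFree O E := inferInstance
  have htfC : Module.IsTorsionFree O (integralClosure O E) := IsIntegralClosure.isTorsionFree O E
  have hcz : CharZero O := (algebraMap O K).charZero
  have hczF : CharZero (FractionRing O) :=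
    charZero_of_injective_algebraMap (IsFractionRing.injective O (FractionRing O))
  set P : ι → Ideal (integralClosure O E) := fun j => centre (V j) (closure_le (V j) (h.le j))
    with hP
  have hb : ∀ j, P j ≠ ⊥ := fun j => centre_ne_bot h.irreducible (V j) (h.le j) (h.inv_notMem j)
  have hm : ∀ j, (P j).IsMaximal := fun j => Ideal.IsPrime.isMaximal inferInstance (hb j)
  have hl : ∀ j, (P j).LiesOver (maximalIdeal O) := fun j =>
    ⟨(centre_under h.irreducible (V j) (h.le j) (h.inv_notMem j)).symm⟩
  have hPinj : Function.Injective P := fun j j' hjj =>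
    h.injective (eq_of_centre_eq K h.irreducible (V j) (V j') (h.le j) (h.inv_notMem j) (h.le j')
      (h.inv_notMem j') hjj)
  obtain ⟨a, ha1, ha2⟩ := Ideal.exists_mem_pow_notMem_pow_succ (P i) (hb i)
    (Ideal.IsPrime.ne_top inferInstance) 1
  rw [pow_one] at ha1
  obtain ⟨y, hy⟩ := IsDedekindDomain.exists_forall_sub_mem_ideal (s := Finset.univ) P
    (fun j => if j = i then 2 else 1) (fun j _ => Ideal.prime_of_isPrime (hb j) inferInstance)
    (fun j _ j' _ hjj heq => hjj (hPinj heq))
    (fun j => if (j : ι) = i then a else 1)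
  have hyi : y - a ∈ P i ^ 2 := by
    have := hy i (Finset.mem_univ i)
    simpa using this
  have hyj : ∀ j, j ≠ i → y - 1 ∈ P j := by
    intro j hj
    have := hy j (Finset.mem_univ j)
    simpa [hj] using this
  have hyP : y ∈ P i := by
    have h1 : y - a ∈ P i := Ideal.pow_le_self two_ne_zero hyi
    have : y = (y - a) + a := by ring
    rw [this]
    exact (P i).add_mem h1 ha1
  have hyP2 : y ∉ P i ^ 2 := by
    intro hc
    apply ha2
    have : a = y - (y - a) := by ring
    rw [this]
    exact (P i ^ 2).sub_mem hc hyi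
  have hyPj : ∀ j, j ≠ i → y ∉ P j := by
    intro j hj hc
    have h1 : (1 : integralClosure O E) ∈ P j := by
      have : (1 : integralClosure O E) = y - (y - 1) := by ring
      rw [this]
      exact (P j).sub_mem hc (hyj j hj)
    exact (Ideal.ne_top_iff_one _).1 (Ideal.IsPrime.ne_top inferInstance) h1
  have hy0 : algebraMap (integralClosure O E) E y ≠ 0 := by
    intro h0
    apply hyP2
    have : y = 0 := by
      apply IsFractionRing.injective (integralClosure O E) E
      rw [h0, map_zero]
    rw [this]
    exact zero_mem _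
  refine ⟨algebraMap (integralClosure O E) E y, y.2, ?_, ?_, ?_⟩
  · -- the valuation at `V i`
    have hyn : algebraMap (integralClosure O E) E y ∈ (V i).nonunits :=
      ((V i).mem_nonunits_iff).2 ((mem_centre_iff (V i) _ y).1 hyP)
    obtain ⟨z, hz, hyz⟩ := h.exists_eq_mul K i hyn
    have hz0 : z ≠ 0 := by
      rintro rfl
      rw [mul_zero] at hyz
      exact hy0 hyz
    have hzu : z⁻¹ ∈ V i := by
      by_contra hzi
      obtain ⟨z', hz', rfl⟩ := h.exists_eq_mul K i (mem_nonunits_of_inv_notMem (V i) hzi)
      apply hyP2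
      exact mem_pow_of_eq K h.irreducible (V i) (h.le i) (h.inv_notMem i) (h.mem_nonunits i) hz' y
        (by rw [hyz]; ring)
    rw [hyz, map_mul, valuation_eq_one_of_mem_of_inv_mem (V i) hz0 hz hzu, mul_one]
  · intro j hj
    exact valuation_eq_one_of_notMem (V j) (closure_le (V j) (h.le j)) (hyPj j hj)
  · -- the norm
    have hspan : Ideal.span {y} = P i := by
      obtain ⟨J, hJ⟩ := Ideal.dvd_span_singleton.2 hyP
      have hJtop : J = ⊤ := by
        by_contra hJne
        obtain ⟨M, hM, hJM⟩ := Ideal.exists_le_maximal J hJne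
        have hMu : (M.under O).IsMaximal :=
          Ideal.isMaximal_comap_of_isIntegral_of_isMaximal (R := O) M
        have hMp : M.under O = maximalIdeal O := IsLocalRing.eq_maximalIdeal hMu
        obtain ⟨j, hj⟩ := h.core.2.2.2 M hM.isPrime hMp
        have hyM : y ∈ P i * M := by
          have : y ∈ Ideal.span {y} := Ideal.mem_span_singleton_self y
          rw [hJ] at this
          exact Ideal.mul_mono_right hJM this
        by_cases hji : j = i
        · apply hyP2
          rw [pow_two]
          rw [hj, hji] at hyM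
          exact hyM
        · have h2 : y ∈ M := Ideal.mul_le_left (mul_comm (P i) M ▸ hyM)
          rw [hj] at h2
          exact hyPj j hji h2
      rw [hJ, hJtop, Ideal.mul_top]
    have hrel : Ideal.span {Algebra.intNorm O (integralClosure O E) y} =
        Ideal.span {π ^ m i} := by
      rw [← Ideal.relNorm_singleton, hspan,
        Ideal.relNorm_eq_pow_of_isMaximal (P i) (maximalIdeal O), h.core.2.1 i,
        h.irreducible.maximalIdeal_eq, Ideal.span_singleton_pow]
    obtain ⟨w, hw⟩ := Ideal.span_singleton_eq_span_singleton.1 hrel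
    refine ⟨w⁻¹, ?_⟩
    rw [← Algebra.algebraMap_intNorm (A := O) (K := K) (L := E) (B := integralClosure O E) y,
      ← map_pow, ← map_mul, ← hw, mul_assoc, Units.mul_inv, mul_one]

/-- **Valuation of the norm.** If `x` has order `k i` at `V i` for every `i` (its valuation
is the `k i`-th power of that of the uniformiser `t i`), then
`N(x) = π ^ (∑ i, m i * k i) * unit`. -/
theorem _root_.Fermat.Agent.S36.NExt.Hyp.norm_eq_pow_mul_unit [CharZero K]
    (h : Hyp K π V e t m b) {x : E} (k : ι → ℤ)
    (hk : ∀ i, (V i).valuation x = (V i).valuation (t i) ^ k i) :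
    ∃ w : Oˣ, Algebra.norm K x =
      algebraMap O K π ^ (∑ i, (m i : ℤ) * k i) * algebraMap O K (w : O) := by
  classical
  have hπK : algebraMap O K π ≠ 0 := by
    intro h0
    exact h.irreducible.ne_zero (IsFractionRing.injective O K (by rw [h0, map_zero]))
  choose τ hτint hτi hτj hτN using fun i => h.exists_local_uniformiser K i
  have ht0 : ∀ i, (V i).valuation (t i) ≠ 0 := by
    intro i h0
    obtain ⟨u, hu, hu', hπu⟩ := h.exists_unit_ram K i
    have h1 : (V i).valuation (algebraMap O E π) = 0 := by
      rw [hπu, map_mul, map_pow, h0, zero_pow (by have := h.one_le_e K i; omega), zero_mul]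
    rw [Valuation.zero_iff] at h1
    exact h.inv_notMem i (by rw [h1, inv_zero]; exact (V i).zero_mem)
  have hτ0 : ∀ i, τ i ≠ 0 := by
    intro i h0
    have := hτi i
    rw [h0, map_zero] at this
    exact ht0 i this.symm
  -- the norm as a monoid-with-zero homomorphism
  let N₀ : E →*₀ K :=
    { toFun := Algebra.norm K
      map_zero' := Algebra.norm_zero
      map_one' := map_one _
      map_mul' := map_mul _ }
  have hN₀ : ∀ z, N₀ z = Algebra.norm K z := fun _ => rfl
  -- the unit part
  set y : E := x * ∏ i, (τ i) ^ (-(k i)) with hy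
  have hyv : ∀ j, (V j).valuation y = 1 := by
    intro j
    rw [hy, map_mul, map_prod, hk j]
    rw [Finset.prod_eq_single j]
    · rw [map_zpow₀, hτi j, ← zpow_add₀ (ht0 j), add_neg_cancel, zpow_zero]
    · intro i _ hij
      rw [map_zpow₀, hτj i j (Ne.symm hij), one_zpow]
    · intro hj
      exact absurd (Finset.mem_univ j) hj
  obtain ⟨wy, hwy⟩ := h.norm_unit K hyv
  have hxy : x = y * ∏ i, (τ i) ^ (k i) := by
    rw [hy, mul_assoc, ← Finset.prod_mul_distrib]
    have : ∀ i ∈ Finset.univ, τ i ^ (-(k i)) * τ i ^ (k i) = 1 := by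
      intro i _
      rw [← zpow_add₀ (hτ0 i), neg_add_cancel, zpow_zero]
    rw [Finset.prod_eq_one this, mul_one]
  -- the product of the norms of the local uniformisers
  have hprod : ∀ s : Finset ι, ∃ w : Oˣ, ∏ i ∈ s, Algebra.norm K (τ i) ^ (k i) =
      algebraMap O K π ^ (∑ i ∈ s, (m i : ℤ) * k i) * algebraMap O K (w : O) := by
    intro s
    induction s using Finset.induction_on with
    | empty => exact ⟨1, by simp⟩
    | insert a s ha ih =>
      obtain ⟨w, hw⟩ := ih
      obtain ⟨wa, hwa⟩ := hτN a
      refine ⟨wa ^ (k a) * w, ?_⟩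
      rw [Finset.prod_insert ha, Finset.sum_insert ha, hw, hwa, mul_zpow, ← zpow_natCast,
        ← zpow_mul, zpow_add₀ hπK, Units.val_mul, map_mul, algebraMap_units_zpow]
      ring
  obtain ⟨w, hw⟩ := hprod Finset.univ
  have hz : ∀ i, Algebra.norm K (τ i ^ k i) = Algebra.norm K (τ i) ^ k i :=
    fun i => map_zpow₀ N₀ (τ i) (k i)
  refine ⟨wy * w, ?_⟩
  rw [hxy, map_mul, map_prod]
  simp only [hz]
  rw [hwy, hw, Units.val_mul, map_mul]
  ring

end Count

end Main

end Fermat.Agent.S36.NExtNorm
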