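import Mathlib
import Fermat.Agent.S34.ResField
import Fermat.Agent.S36.NExtNorm
import Fermat.Agent.S36.DegreeDvd
import Fermat.Agent.S34.CompF1
import Fermat.Agent.S36.Exp3Lemmas

/-!
# S36 package (V): the counting instances at level `N * ℓ`, `ℓ ∣ N` — the side with one valuation

For a prime `ℓ ∣ N`, the function field `FF L (N * ℓ)` has degree `ℓ` over `β(FF L N)`.
Above the Gauss valuation ring `gaussVS W N` of level `N` (acting through `β`) there is exactly
one valuation subring of `FF L (N * ℓ)`, the Gauss valuation ring `gaussVS W (N * ℓ)`; it is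
unramified, of residue degree `ℓ`, and `1, j, …, j^(ℓ-1)` is a basis of its residue field.
(`NExt.Hyp` with a one-element index type.)
-/

set_option autoImplicit false
set_option linter.style.haveILetI false

namespace Fermat.Agent.S36.NExtInst

open ModularCurve AlgebraicCurve Fermat.Agent.S18 Fermat.Agent.S18.Gauss Fermat.Agent.S24
open Fermat.Agent.S34 Fermat.Agent.S34.ResField Fermat.Agent.S36.NExt Fermat.Agent.S36.NExtNorm

variable {L : Type*} [Field L] [Algebra ℚ L] (W : ValuationSubring L) [IsDiscreteValuationRing W]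

section Beta

variable (N ℓ : ℕ) [NeZero N] [NeZero ℓ]

/-- Residual independence of `1, j, …, j^(ℓ-1)` at the Gauss valuation of level `N * ℓ` over the
Gauss valuation ring of level `N` acting through `β`. -/
theorem indep_beta (c : Fin ℓ → gaussVS W N)
    (hc : (∑ i, heckeBetaBar L N ℓ (c i : FF L N) * heckeAlphaBar L N ℓ (jBC L N) ^ (i : ℕ)) ∈
      (gaussVS W (N * ℓ)).nonunits) (i : Fin ℓ) :
    c i ∈ IsLocalRing.maximalIdeal (gaussVS W N) := by
  have hj : ((jBC L N : FF L N) : LaurentSeries L) = jqModC L := coe_jBC_eq L N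
  have hjmem : jqModC L ∈ contentRing W := jq_mem_contentRing W
  have hsc : ((∑ i, heckeBetaBar L N ℓ (c i : FF L N) *
      heckeAlphaBar L N ℓ (jBC L N) ^ (i : ℕ) : FF L (N * ℓ)) : LaurentSeries L) =
      ∑ i, qExpand L ℓ ((c i : FF L N) : LaurentSeries L) * jqModC L ^ (i : ℕ) := by
    rw [← hj]
    simp only [AddSubmonoidClass.coe_finsetSum, MulMemClass.coe_mul,
      SubmonoidClass.coe_pow, coe_heckeBetaBar, coe_heckeAlphaBar]
  have hterm : ∀ i : Fin ℓ, qExpand L ℓ ((c i : FF L N) : LaurentSeries L) ∈ contentRing W :=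
    fun i => qExpand_mem_contentRing W ℓ (c i).2
  have hsmem : ((∑ i, heckeBetaBar L N ℓ (c i : FF L N) *
      heckeAlphaBar L N ℓ (jBC L N) ^ (i : ℕ) : FF L (N * ℓ)) : LaurentSeries L) ∈
      contentRing W := by
    rw [hsc]
    exact sum_mem fun i _ => mul_mem (hterm i) (pow_mem hjmem _)
  have hred := (mem_nonunits_gaussVS W hsmem).1 hc
  have e : (⟨_, hsmem⟩ : contentRing W) =
      ∑ i, (⟨qExpand L ℓ ((c i : FF L N) : LaurentSeries L), hterm i⟩ : contentRing W) *
        ⟨jqModC L, hjmem⟩ ^ (i : ℕ) := by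
    apply Subtype.ext
    rw [hsc]
    simp only [AddSubmonoidClass.coe_finsetSum, MulMemClass.coe_mul, SubmonoidClass.coe_pow]
  rw [e, map_sum] at hred
  have hred' : ∑ i : Fin ℓ, qExpand (IsLocalRing.ResidueField W) ℓ
      (red W ⟨((c i : FF L N) : LaurentSeries L), (c i).2⟩) *
      jqModC (IsLocalRing.ResidueField W) ^ (i : ℕ) = 0 := by
    rw [← hred]
    refine Finset.sum_congr rfl fun i _ => ?_
    rw [map_mul, map_pow, red_jq, red_qExpand W ℓ (c i).2]
  have hzero := eq_zero_of_sum_qExpand_mul_pow ℓ _ hred'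
  rw [ValuationSubring.valuation_lt_one_iff, ← ValuationSubring.mem_nonunits_iff,
    mem_nonunits_gaussVS W (c i).2]
  exact hzero i

variable {W}

/-- The uniformiser of `W` is a non-unit of the Gauss valuation ring (any level). -/
theorem algebraMap_unif_mem_nonunits (N' : ℕ) {ϖ : W} (hϖ : Irreducible ϖ) :
    algebraMap L (FF L N') ((ϖ : W) : L) ∈ (gaussVS W N').nonunits := by
  rw [mem_nonunits_iff_inv_notMem _ (algebraMap_unif_ne_zero (L := L) N' hϖ)]
  exact algebraMap_inv_notMem N' hϖ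

/-- **The counting hypotheses (`NExt.Hyp`) through `β`, `ℓ ∣ N`**: above the Gauss valuation
ring of level `N` there is the single valuation ring `gaussVS W (N * ℓ)`, with `e = 1` and
residue degree `ℓ`. -/
theorem hyp_beta (ι₀ : L →+* ℂ) (hℓ : ℓ.Prime) (hℓN : ℓ ∣ N) {ϖ : W} (hϖ : Irreducible ϖ) :
    letI := algebraAlong (heckeBetaBar L N ℓ)
    letI : Algebra (gaussVS W N) (FF L (N * ℓ)) :=
      ((algebraMap (FF L N) (FF L (N * ℓ))).comp (algebraMap (gaussVS W N) (FF L N))).toAlgebra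
    NExt.Hyp (FF L N) (const N ϖ : gaussVS W N) (fun _ : Unit => gaussVS W (N * ℓ))
      (fun _ => 1) (fun _ => algebraMap L (FF L (N * ℓ)) ((ϖ : W) : L)) (fun _ => ℓ)
      (fun _ r => heckeAlphaBar L N ℓ (jBC L N) ^ (r : ℕ)) := by
  letI := algebraAlong (heckeBetaBar L N ℓ)
  letI : Algebra (gaussVS W N) (FF L (N * ℓ)) :=
    ((algebraMap (FF L N) (FF L (N * ℓ))).comp (algebraMap (gaussVS W N) (FF L N))).toAlgebra
  have hmap : ∀ a : gaussVS W N, algebraMap (gaussVS W N) (FF L (N * ℓ)) a =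
      heckeBetaBar L N ℓ (a : FF L N) := fun a => rfl
  have hπ : algebraMap (gaussVS W N) (FF L (N * ℓ)) (const N ϖ) =
      algebraMap L (FF L (N * ℓ)) ((ϖ : W) : L) := by
    rw [hmap, coe_const]; exact (heckeBetaBar L N ℓ).commutes _
  have hj : ((jBC L N : FF L N) : LaurentSeries L) = jqModC L := coe_jBC_eq L N
  have hjmem : jqModC L ∈ contentRing W := jq_mem_contentRing W
  refine
    { irreducible := irreducible_const N hϖ
      le := ?_
      inv_notMem := ?_
      injective := Function.injective_of_subsingleton _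
      mem_nonunits := fun _ => algebraMap_unif_mem_nonunits (N * ℓ) hϖ
      ram := ?_
      mem := ?_
      indep := ?_
      finrank_le := ?_ }
  · intro _ a
    rw [hmap, mem_gaussVS, coe_heckeBetaBar]
    exact qExpand_mem_contentRing W ℓ a.2
  · intro _
    rw [hπ]
    exact algebraMap_inv_notMem (N * ℓ) hϖ
  · intro _
    exact ⟨1, (gaussVS W (N * ℓ)).one_mem, by rw [hπ, pow_one, mul_one]⟩
  · intro _ r
    show ((heckeAlphaBar L N ℓ (jBC L N) ^ (r : ℕ) : FF L (N * ℓ)) : LaurentSeries L) ∈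
      contentRing W
    show ((heckeAlphaBar L N ℓ (jBC L N) : FF L (N * ℓ)) : LaurentSeries L) ^ (r : ℕ) ∈
      contentRing W
    rw [coe_heckeAlphaBar, hj]
    exact pow_mem hjmem _
  · intro _ c hc i
    exact indep_beta W N ℓ c hc i
  · rw [Finset.univ_unique, Finset.sum_singleton, one_mul]
    exact (Fermat.Agent.S36.DegreeDvd.finrank_beta_of_dvd L ι₀ N ℓ hℓ hℓN).2.le

variable (W)

/-- **Residue basis through `β`** (`ℓ ∣ N`): every Gauss-integral function of level `N * ℓ` is,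
modulo the maximal ideal, a combination of `1, j, …, j^(ℓ-1)` with coefficients `β c`, `c`
Gauss-integral of level `N`. -/
theorem exists_sub_sum_beta (ι₀ : L →+* ℂ) (hℓ : ℓ.Prime) (hℓN : ℓ ∣ N) {x : FF L (N * ℓ)}
    (hx : x ∈ gaussVS W (N * ℓ)) :
    ∃ c : Fin ℓ → gaussVS W N,
      x - ∑ r, heckeBetaBar L N ℓ (c r : FF L N) * heckeAlphaBar L N ℓ (jBC L N) ^ (r : ℕ) ∈
        (gaussVS W (N * ℓ)).nonunits := by
  obtain ⟨ϖ, hϖ⟩ := IsDiscreteValuationRing.exists_irreducible W
  have H := hyp_beta N ℓ ι₀ hℓ hℓN hϖ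
  letI := algebraAlong (heckeBetaBar L N ℓ)
  letI : Algebra (gaussVS W N) (FF L (N * ℓ)) :=
    ((algebraMap (FF L N) (FF L (N * ℓ))).comp (algebraMap (gaussVS W N) (FF L N))).toAlgebra
  haveI : IsScalarTower (gaussVS W N) (FF L N) (FF L (N * ℓ)) :=
    IsScalarTower.of_algebraMap_eq (fun _ => rfl)
  haveI : FiniteDimensional (FF L N) (FF L (N * ℓ)) :=
    (Fermat.Agent.S36.DegreeDvd.finrank_beta_of_dvd L ι₀ N ℓ hℓ hℓN).1
  haveI : CharZero L := charZero_of_injective_algebraMap (algebraMap ℚ L).injective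
  haveI : CharZero (FF L N) := charZero_of_injective_algebraMap (algebraMap L (FF L N)).injective
  haveI : Algebra.IsSeparable (FF L N) (FF L (N * ℓ)) := inferInstance
  exact H.exists_sub_sum_mem_nonunits (FF L N) () hx

/-- **Uniqueness through `β`** (`ℓ ∣ N`): the Gauss valuation ring of level `N * ℓ` is the only
valuation subring of `FF L (N * ℓ)` that contains `β (gaussVS W N)` and in which the uniformiser
of `W` is not invertible. -/
theorem eq_gaussVS_of_beta (ι₀ : L →+* ℂ) (hℓ : ℓ.Prime) (hℓN : ℓ ∣ N) {ϖ : W}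
    (hϖ : Irreducible ϖ) (V' : ValuationSubring (FF L (N * ℓ)))
    (hV : ∀ a : gaussVS W N, heckeBetaBar L N ℓ (a : FF L N) ∈ V')
    (hinv : (algebraMap L (FF L (N * ℓ)) ((ϖ : W) : L))⁻¹ ∉ V') :
    V' = gaussVS W (N * ℓ) := by
  have H := hyp_beta N ℓ ι₀ hℓ hℓN hϖ
  letI := algebraAlong (heckeBetaBar L N ℓ)
  letI : Algebra (gaussVS W N) (FF L (N * ℓ)) :=
    ((algebraMap (FF L N) (FF L (N * ℓ))).comp (algebraMap (gaussVS W N) (FF L N))).toAlgebra
  haveI : IsScalarTower (gaussVS W N) (FF L N) (FF L (N * ℓ)) :=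
    IsScalarTower.of_algebraMap_eq (fun _ => rfl)
  haveI : FiniteDimensional (FF L N) (FF L (N * ℓ)) :=
    (Fermat.Agent.S36.DegreeDvd.finrank_beta_of_dvd L ι₀ N ℓ hℓ hℓN).1
  haveI : CharZero L := charZero_of_injective_algebraMap (algebraMap ℚ L).injective
  haveI : CharZero (FF L N) := charZero_of_injective_algebraMap (algebraMap L (FF L N)).injective
  haveI : Algebra.IsSeparable (FF L N) (FF L (N * ℓ)) := inferInstance
  have hπ : algebraMap (gaussVS W N) (FF L (N * ℓ)) (const N ϖ) =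
      algebraMap L (FF L (N * ℓ)) ((ϖ : W) : L) := by
    show heckeBetaBar L N ℓ ((const N ϖ : gaussVS W N) : FF L N) = _
    rw [coe_const]; exact (heckeBetaBar L N ℓ).commutes _
  obtain ⟨_, h⟩ := H.exists_eq (FF L N) V' hV (by rw [hπ]; exact hinv)
  exact h

/-- **Integrality through `β`** (`ℓ ∣ N`): a function of level `N * ℓ` is Gauss-integral iff it
is integral over `β (gaussVS W N)`. -/
theorem mem_gaussVS_iff_isIntegralElem_beta (ι₀ : L →+* ℂ) (hℓ : ℓ.Prime) (hℓN : ℓ ∣ N)
    (x : FF L (N * ℓ)) :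
    x ∈ gaussVS W (N * ℓ) ↔
      ∃ P : Polynomial (gaussVS W N), P.Monic ∧
        P.eval₂ (((heckeBetaBar L N ℓ : FF L N →ₐ[L] FF L (N * ℓ)) :
          FF L N →+* FF L (N * ℓ)).comp (gaussVS W N).subtype) x = 0 := by
  obtain ⟨ϖ, hϖ⟩ := IsDiscreteValuationRing.exists_irreducible W
  have H := hyp_beta N ℓ ι₀ hℓ hℓN hϖ
  letI := algebraAlong (heckeBetaBar L N ℓ)
  letI : Algebra (gaussVS W N) (FF L (N * ℓ)) :=
    ((algebraMap (FF L N) (FF L (N * ℓ))).comp (algebraMap (gaussVS W N) (FF L N))).toAlgebra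
  haveI : IsScalarTower (gaussVS W N) (FF L N) (FF L (N * ℓ)) :=
    IsScalarTower.of_algebraMap_eq (fun _ => rfl)
  haveI : FiniteDimensional (FF L N) (FF L (N * ℓ)) :=
    (Fermat.Agent.S36.DegreeDvd.finrank_beta_of_dvd L ι₀ N ℓ hℓ hℓN).1
  haveI : CharZero L := charZero_of_injective_algebraMap (algebraMap ℚ L).injective
  haveI : CharZero (FF L N) := charZero_of_injective_algebraMap (algebraMap L (FF L N)).injective
  haveI : Algebra.IsSeparable (FF L N) (FF L (N * ℓ)) := inferInstance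
  have h := H.isIntegral_iff (FF L N) x
  constructor
  · intro hx
    exact h.2 (fun _ => hx)
  · intro hx
    exact h.1 hx ()

end Beta

/-! ### (F1) at level `M q²`: the residue field of the Gauss valuation is that of level `M` -/

section F1sq

variable (M q : ℕ) [NeZero M] [NeZero q]

/-- **`f(v_∞ | v_{Mq}) = 1` at level `M q²`.** Every Gauss-integral function of level `M q²` has
the same reduction as a Gauss-integral function of level `M q`. -/
theorem exists_red_eq_sq_mid (ι₀ : L →+* ℂ) [hq : Fact q.Prime] (hqM : ¬ q ∣ M)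
    [CharP (IsLocalRing.ResidueField W) q] (x : FF L (M * q * q))
    (hx : (x : LaurentSeries L) ∈ contentRing W) :
    ∃ (y : FF L (M * q)) (hy : (y : LaurentSeries L) ∈ contentRing W),
      red W ⟨x, hx⟩ = red W ⟨y, hy⟩ := by
  obtain ⟨c, hc⟩ := exists_sub_sum_beta W (M * q) q ι₀ hq.out (dvd_mul_left q M) (x := x) hx
  -- replace the coefficients by functions of level `M`
  choose y hy hyr using fun r : Fin q =>
    exists_red_eq W M q ι₀ hqM (c r : FF L (M * q)) (c r).2
  have hj : ((jBC L (M * q) : FF L (M * q)) : LaurentSeries L) = jqModC L := coe_jBC_eq L (M * q)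
  have hjmem : jqModC L ∈ contentRing W := jq_mem_contentRing W
  have hcq : ∀ r : Fin q, qExpand L q (((c r : gaussVS W (M * q)) : FF L (M * q)) :
      LaurentSeries L) ∈ contentRing W := fun r => qExpand_mem_contentRing W q (c r).2
  have hyq : ∀ r : Fin q, qExpand L q ((y r : FF L M) : LaurentSeries L) ∈ contentRing W :=
    fun r => qExpand_mem_contentRing W q (hy r)
  -- the sum `s = ∑ β₂ (c r) * (α₂ j) ^ r`
  have hsc : ((∑ r, heckeBetaBar L (M * q) q (c r : FF L (M * q)) *
      heckeAlphaBar L (M * q) q (jBC L (M * q)) ^ (r : ℕ) : FF L (M * q * q)) :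
      LaurentSeries L) =
      ∑ r, qExpand L q (((c r : gaussVS W (M * q)) : FF L (M * q)) : LaurentSeries L) *
        jqModC L ^ (r : ℕ) := by
    rw [← hj]
    simp only [AddSubmonoidClass.coe_finsetSum, MulMemClass.coe_mul,
      SubmonoidClass.coe_pow, coe_heckeBetaBar, coe_heckeAlphaBar]
  have hsmem : ((∑ r, heckeBetaBar L (M * q) q (c r : FF L (M * q)) *
      heckeAlphaBar L (M * q) q (jBC L (M * q)) ^ (r : ℕ) : FF L (M * q * q)) :
      LaurentSeries L) ∈ contentRing W := by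
    rw [hsc]
    exact sum_mem fun r _ => mul_mem (hcq r) (pow_mem hjmem _)
  -- the candidate `z = ∑ β₁ (y r) * j ^ r` of level `M q`
  have hzc : ((∑ r, heckeBetaBar L M q (y r) * jBC L (M * q) ^ (r : ℕ) : FF L (M * q)) :
      LaurentSeries L) =
      ∑ r, qExpand L q ((y r : FF L M) : LaurentSeries L) * jqModC L ^ (r : ℕ) := by
    rw [← hj]
    simp only [AddSubmonoidClass.coe_finsetSum, MulMemClass.coe_mul,
      SubmonoidClass.coe_pow, coe_heckeBetaBar]
  have hzmem : ((∑ r, heckeBetaBar L M q (y r) * jBC L (M * q) ^ (r : ℕ) : FF L (M * q)) :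
      LaurentSeries L) ∈ contentRing W := by
    rw [hzc]
    exact sum_mem fun r _ => mul_mem (hyq r) (pow_mem hjmem _)
  refine ⟨∑ r, heckeBetaBar L M q (y r) * jBC L (M * q) ^ (r : ℕ), hzmem, ?_⟩
  -- `red x = red s`
  have hsub : ((x - ∑ r, heckeBetaBar L (M * q) q (c r : FF L (M * q)) *
      heckeAlphaBar L (M * q) q (jBC L (M * q)) ^ (r : ℕ) : FF L (M * q * q)) :
      LaurentSeries L) ∈ contentRing W := sub_mem hx hsmem
  have hred := (mem_nonunits_gaussVS W hsub).1 hc
  have e : (⟨_, hsub⟩ : contentRing W) = ⟨(x : LaurentSeries L), hx⟩ - ⟨_, hsmem⟩ := rfl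
  rw [e, map_sub, sub_eq_zero] at hred
  rw [hred]
  -- both reductions are `∑ qExpand q (red ·) * j̄ ^ r`
  have e1 : (⟨_, hsmem⟩ : contentRing W) =
      ∑ r, (⟨qExpand L q (((c r : gaussVS W (M * q)) : FF L (M * q)) : LaurentSeries L),
        hcq r⟩ : contentRing W) * ⟨jqModC L, hjmem⟩ ^ (r : ℕ) := by
    apply Subtype.ext
    rw [hsc]
    simp only [AddSubmonoidClass.coe_finsetSum, MulMemClass.coe_mul, SubmonoidClass.coe_pow]
  have e2 : (⟨_, hzmem⟩ : contentRing W) =
      ∑ r, (⟨qExpand L q ((y r : FF L M) : LaurentSeries L), hyq r⟩ : contentRing W) *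
        ⟨jqModC L, hjmem⟩ ^ (r : ℕ) := by
    apply Subtype.ext
    rw [hzc]
    simp only [AddSubmonoidClass.coe_finsetSum, MulMemClass.coe_mul, SubmonoidClass.coe_pow]
  rw [e1, e2, map_sum, map_sum]
  refine Finset.sum_congr rfl fun r _ => ?_
  rw [map_mul, map_mul, red_qExpand W q (c r).2, red_qExpand W q (hy r), hyr r]

/-- **`f(v_∞ | v_M) = 1` at level `M q²`.** Every Gauss-integral function of level `M q²` has
the same reduction as a Gauss-integral function of level `M`. -/
theorem exists_red_eq_sq (ι₀ : L →+* ℂ) [hq : Fact q.Prime] (hqM : ¬ q ∣ M)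
    [CharP (IsLocalRing.ResidueField W) q] (x : FF L (M * q * q))
    (hx : (x : LaurentSeries L) ∈ contentRing W) :
    ∃ (y : FF L M) (hy : (y : LaurentSeries L) ∈ contentRing W),
      red W ⟨x, hx⟩ = red W ⟨y, hy⟩ := by
  obtain ⟨z, hz, h1⟩ := exists_red_eq_sq_mid W M q ι₀ hqM x hx
  obtain ⟨y, hy, h2⟩ := exists_red_eq W M q ι₀ hqM z hz
  exact ⟨y, hy, h1.trans h2⟩

/-- **(F1) at level `M q²`**: the reduction of a Gauss-integral function of level `M q²` lies
in the function field `F_κ(M)` of level `M` over the residue field. -/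
theorem red_mem_fullC_sq (ι₀ : L →+* ℂ) [hq : Fact q.Prime] (hqM : ¬ q ∣ M)
    [CharP (IsLocalRing.ResidueField W) q] (x : FF L (M * q * q))
    (hx : (x : LaurentSeries L) ∈ contentRing W) :
    red W ⟨x, hx⟩ ∈ modularFunctionFieldFullC (IsLocalRing.ResidueField W) M := by
  obtain ⟨y, hy, h⟩ := exists_red_eq_sq W M q ι₀ hqM x hx
  rw [h]
  exact red_mem_fullC W M q hqM y.2 hy

/-- `exists_red_eq_sq` at a level `ι : L →+* ℚ̄`. -/
theorem exists_red_eq_sq_of_bar (ι : L →+* AlgebraicClosure ℚ) [hq : Fact q.Prime]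
    (hqM : ¬ q ∣ M) [CharP (IsLocalRing.ResidueField W) q] (x : FF L (M * q * q))
    (hx : (x : LaurentSeries L) ∈ contentRing W) :
    ∃ (y : FF L M) (hy : (y : LaurentSeries L) ∈ contentRing W),
      red W ⟨x, hx⟩ = red W ⟨y, hy⟩ :=
  exists_red_eq_sq W M q (Fermat.Agent.S34.DegreeL.toComplex L ι) hqM x hx

/-- **(F1) at level `M q²`** at a level `ι : L →+* ℚ̄`. -/
theorem red_mem_fullC_sq_of_bar (ι : L →+* AlgebraicClosure ℚ) [hq : Fact q.Prime]
    (hqM : ¬ q ∣ M) [CharP (IsLocalRing.ResidueField W) q] (x : FF L (M * q * q))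
    (hx : (x : LaurentSeries L) ∈ contentRing W) :
    red W ⟨x, hx⟩ ∈ modularFunctionFieldFullC (IsLocalRing.ResidueField W) M :=
  red_mem_fullC_sq W M q (Fermat.Agent.S34.DegreeL.toComplex L ι) hqM x hx

end F1sq

/-! ### The chart form: reductions of the finite chart of level `M q²` -/

section IntSq

variable {L : Type} [Field L] [Algebra ℚ L] (ι : L →+* AlgebraicClosure ℚ)
  (W : ValuationSubring L) [IsDiscreteValuationRing ↥W]
  [IsAlgClosed (IsLocalRing.ResidueField ↥W)]
  (M q : ℕ) [NeZero M] [NeZero q] [CharP (IsLocalRing.ResidueField ↥W) q]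

/-- **`res_∞ (B_{M q²}) ⊆ red (B_M)`**: the reduction of a function of level `M q²` integral
over `W[j]` is the reduction of a function of level `M` integral over `W[j]` (the twin of
`S34.CompF1.exists_red_eq_of_F1` two levels up). -/
theorem exists_red_eq_of_int_sq (hq : q.Prime) (hqM : ¬ q ∣ M)
    (hroots : ∀ x : AlgebraicClosure ℚ, (∃ n : ℕ, ¬ q ∣ n ∧ x ^ n = 1) → ∃ b : L, ι b = x)
    (x : FF L (M * q * q)) (hx : (evF W (M * q * q)).IsIntegralElem x) :
    ∃ y : FF L M, (evF W M).IsIntegralElem y ∧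
      ∃ (hxW : (x : LaurentSeries L) ∈ contentRing W)
        (hyW : (y : LaurentSeries L) ∈ contentRing W), red W ⟨x, hxW⟩ = red W ⟨y, hyW⟩ := by
  haveI : Fact q.Prime := ⟨hq⟩
  have hxW := Fermat.Agent.S34.FrobPartner.mem_contentRing_of_int W (M * q * q) hx
  have hint := Fermat.Agent.S34.CompF1.red_isIntegralElem W (M * q * q) hxW hx
  obtain ⟨y, hy, hyW, hyr⟩ := Fermat.Agent.S34.BaseLift.exists_int_of_mem_fullC M ι W hq hqM
    hroots (red_mem_fullC_sq_of_bar W M q ι hqM x hxW) hint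
  exact ⟨y, hy, hxW, hyW, hyr.symm⟩

omit [IsDiscreteValuationRing ↥W] [IsAlgClosed (IsLocalRing.ResidueField ↥W)]
  [CharP (IsLocalRing.ResidueField ↥W) q] in
/-- **An Atkin–Lehner automorphism of level `M q²` (`j ↦ j(Q^(q²))`) preserves the finite
chart** `W[j]`. -/
theorem isIntegralElem_atkinLehnerSq (hq : q.Prime)
    (W₂ : FF L (M * q * q) ≃ₐ[L] FF L (M * q * q))
    (hW₂ : W₂ (jBC L (M * q * q)) = heckeBetaBar L (M * q) q (heckeBetaBar L M q (jBC L M)))
    {x : FF L (M * q * q)} (hx : (evF W (M * q * q)).IsIntegralElem x) :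
    (evF W (M * q * q)).IsIntegralElem (W₂ x) := by
  have h := Fermat.Agent.S34.BetaInt.isIntegralElem_map_comp (evF W (M * q * q))
    (W₂ : FF L (M * q * q) →ₐ[L] FF L (M * q * q)).toRingHom hx
  refine Fermat.Agent.S34.BetaInt.isIntegralElem_trans _ _ ?_ _ h
  intro p
  induction p using Polynomial.induction_on with
  | C a =>
    have e : ((W₂ : FF L (M * q * q) →ₐ[L] FF L (M * q * q)).toRingHom.comp
        (evF W (M * q * q))) (Polynomial.C a) = evF W (M * q * q) (Polynomial.C a) := by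
      rw [RingHom.comp_apply, evF_C]
      exact AlgHom.commutes _ _
    rw [e]
    exact RingHom.isIntegralElem_map _
  | add p q hp hq =>
    rw [map_add]
    exact RingHom.IsIntegralElem.add _ hp hq
  | monomial n a ih =>
    rw [pow_succ, ← mul_assoc, map_mul]
    refine RingHom.IsIntegralElem.mul _ ih ?_
    rw [RingHom.comp_apply, evF_X]
    have e : (W₂ : FF L (M * q * q) →ₐ[L] FF L (M * q * q)).toRingHom (jBC L (M * q * q)) =
        heckeBetaBar L (M * q) q (heckeBetaBar L M q (jBC L M)) := hW₂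
    rw [e]
    exact Fermat.Agent.S34.BetaInt.isIntegralElem_beta W (M * q) q hq
      (Fermat.Agent.S34.BetaInt.isIntegralElem_beta_j W M q hq)

/-- **`res_0 (B_{M q²}) ⊆ red (B_M)`**, `res_0 = res_∞ ∘ W₂` (the branch at the cusp `0`; by
`phi0_eq_coe_atkinLehnerSq` below `coe ∘ W₂` is the expansion `Exp3.phi0`). -/
theorem exists_red_eq_of_int_sq_w (hq : q.Prime) (hqM : ¬ q ∣ M)
    (hroots : ∀ x : AlgebraicClosure ℚ, (∃ n : ℕ, ¬ q ∣ n ∧ x ^ n = 1) → ∃ b : L, ι b = x)
    (W₂ : FF L (M * q * q) ≃ₐ[L] FF L (M * q * q))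
    (hW₂ : W₂ (jBC L (M * q * q)) = heckeBetaBar L (M * q) q (heckeBetaBar L M q (jBC L M)))
    (x : FF L (M * q * q)) (hx : (evF W (M * q * q)).IsIntegralElem x) :
    ∃ y : FF L M, (evF W M).IsIntegralElem y ∧
      ∃ (hxW : ((W₂ x : FF L (M * q * q)) : LaurentSeries L) ∈ contentRing W)
        (hyW : (y : LaurentSeries L) ∈ contentRing W), red W ⟨_, hxW⟩ = red W ⟨y, hyW⟩ :=
  exists_red_eq_of_int_sq ι W M q hq hqM hroots (W₂ x)
    (isIntegralElem_atkinLehnerSq W M q hq W₂ hW₂ hx)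

end IntSq

/-! ### The expansion at the cusp `0` is `coe ∘ W₂` -/

section Phi0

variable {L : Type} [Field L] [Algebra ℚ L] (M q : ℕ) [NeZero M] [NeZero q]
  (w₁ : FF L (M * q) →ₐ[L] FF L (M * q)) {L' : Type} [Field L'] [Algebra L L'] (ζ : L'ˣ)

/-- The expansion `phi0` of `VDefs.Exp3` at the cusp `0` is the `q`-expansion composed with the
Atkin–Lehner involution `W₂` of level `M q²` (`W₂ ∘ α₂ = β₂ ∘ w₁`, `W₂ ∘ β₂ = α₂ ∘ w₁`, as
delivered by `AtkinSq.exists_atkinLehnerSq_of_emb`). -/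
theorem phi0_eq_coe_atkinLehnerSq (hq : q.Prime) (E : Fermat.Agent.S36.VDefs.Exp3 M q w₁ ζ)
    (W₂ : FF L (M * q * q) ≃ₐ[L] FF L (M * q * q))
    (hα : ∀ y : FF L (M * q), W₂ (heckeAlphaBar L (M * q) q y) = heckeBetaBar L (M * q) q (w₁ y))
    (hβ : ∀ y : FF L (M * q), W₂ (heckeBetaBar L (M * q) q y) = heckeAlphaBar L (M * q) q (w₁ y))
    (x : FF L (M * q * q)) :
    E.phi0 x = ((W₂ x : FF L (M * q * q)) : LaurentSeries L) := by
  have key : x ∈ RingHom.eqLocusField E.phi0
      ((algebraMap (FF L (M * q * q)) (LaurentSeries L)).comp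
        (W₂ : FF L (M * q * q) →+* FF L (M * q * q))) := by
    refine Fermat.Agent.S36.Exp3Lemmas.forall_mem_of_alpha_beta M q hq _ ?_ ?_ x
    · intro b
      show E.phi0 (heckeAlphaBar L (M * q) q b) =
        ((W₂ (heckeAlphaBar L (M * q) q b) : FF L (M * q * q)) : LaurentSeries L)
      rw [E.phi0_alpha, hα, coe_heckeBetaBar]
    · intro b
      show E.phi0 (heckeBetaBar L (M * q) q b) =
        ((W₂ (heckeBetaBar L (M * q) q b) : FF L (M * q * q)) : LaurentSeries L)
      rw [E.phi0_beta, hβ, coe_heckeAlphaBar]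
  exact key

end Phi0

end Fermat.Agent.S36.NExtInst
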