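import Mathlib
import Fermat.Agent.S36.NExtInst

/-!
# S36 package (V): the β-side counting instance in raw `contentRing` / `rd` currency

Restatements of `NExtInst.exists_sub_sum_beta` and `NExtInst.mem_gaussVS_iff_isIntegralElem_beta`
without valuation subrings (level `N * ℓ` over level `N` through `β`, `ℓ ∣ N` prime):

* `exists_rd_sub_sum_beta` : a Gauss-integral `x` is, modulo the uniformiser, a combination
  `∑ r < ℓ, β (c r) * j ^ r` with Gauss-integral `c r` of level `N`;
* `exists_monic_beta` : a Gauss-integral `x` is a root of a monic polynomial over `β (FF L N)`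
  with Gauss-integral coefficients;
* `mem_contentRing_of_monic_beta` : the converse.
-/

set_option autoImplicit false
set_option linter.style.haveILetI false

namespace Fermat.Agent.S36.NExtInstB

open ModularCurve AlgebraicCurve Fermat.Agent.S18 Fermat.Agent.S18.Gauss Fermat.Agent.S24
open Fermat.Agent.S34 Fermat.Agent.S34.ResField Fermat.Agent.S34.TwoGauss
open Fermat.Agent.S36.NExtInst

variable {L : Type*} [Field L] [Algebra ℚ L] (W : ValuationSubring L) [IsDiscreteValuationRing W]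
  (N ℓ : ℕ) [NeZero N] [NeZero ℓ]

/-- **Residue basis through `β`, raw form.** -/
theorem exists_rd_sub_sum_beta (ι₀ : L →+* ℂ) (hℓ : ℓ.Prime) (hℓN : ℓ ∣ N) (x : FF L (N * ℓ))
    (hx : (x : LaurentSeries L) ∈ contentRing W) :
    ∃ c : Fin ℓ → FF L N, (∀ r, ((c r : FF L N) : LaurentSeries L) ∈ contentRing W) ∧
      ((x - ∑ r, heckeBetaBar L N ℓ (c r) * jBC L (N * ℓ) ^ (r : ℕ) : FF L (N * ℓ)) :
        LaurentSeries L) ∈ contentRing W ∧
      rd W ((x - ∑ r, heckeBetaBar L N ℓ (c r) * jBC L (N * ℓ) ^ (r : ℕ) : FF L (N * ℓ)) :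
        LaurentSeries L) = 0 := by
  obtain ⟨c, hc⟩ := exists_sub_sum_beta W N ℓ ι₀ hℓ hℓN (x := x) hx
  rw [Fermat.Agent.S34.CompF1.alpha_jBC N ℓ] at hc
  have hmem : ((x - ∑ r, heckeBetaBar L N ℓ ((c r : gaussVS W N) : FF L N) *
      jBC L (N * ℓ) ^ (r : ℕ) : FF L (N * ℓ)) : LaurentSeries L) ∈ contentRing W := by
    have h1 : (gaussVS W (N * ℓ)).valuation (x - ∑ r, heckeBetaBar L N ℓ
        ((c r : gaussVS W N) : FF L N) * jBC L (N * ℓ) ^ (r : ℕ)) < 1 :=
      (ValuationSubring.mem_nonunits_iff _).mp hc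
    exact ((gaussVS W (N * ℓ)).valuation_le_one_iff _).mp h1.le
  refine ⟨fun r => (c r : FF L N), fun r => (c r).2, hmem, ?_⟩
  rw [rd_of_mem W hmem]
  exact (mem_nonunits_gaussVS W hmem).1 hc

/-- **Integrality through `β`, raw form**: a Gauss-integral function of level `N * ℓ` is a root
of a monic polynomial over `β (FF L N)` with Gauss-integral coefficients. -/
theorem exists_monic_beta (ι₀ : L →+* ℂ) (hℓ : ℓ.Prime) (hℓN : ℓ ∣ N) (x : FF L (N * ℓ))
    (hx : (x : LaurentSeries L) ∈ contentRing W) :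
    ∃ P : Polynomial (FF L N), P.Monic ∧
      (∀ i, ((P.coeff i : FF L N) : LaurentSeries L) ∈ contentRing W) ∧
      P.eval₂ (heckeBetaBar L N ℓ).toRingHom x = 0 := by
  obtain ⟨P, hP, hroot⟩ := (mem_gaussVS_iff_isIntegralElem_beta W N ℓ ι₀ hℓ hℓN x).1 hx
  refine ⟨P.map (gaussVS W N).subtype, hP.map _, fun i => ?_, ?_⟩
  · rw [Polynomial.coeff_map]
    exact (P.coeff i).2
  · rw [Polynomial.eval₂_map]
    exact hroot

/-- The converse: a root of a monic polynomial over `β (FF L N)` with Gauss-integral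
coefficients is Gauss-integral. -/
theorem mem_contentRing_of_monic_beta (ι₀ : L →+* ℂ) (hℓ : ℓ.Prime) (hℓN : ℓ ∣ N)
    (x : FF L (N * ℓ)) (P : Polynomial (FF L N)) (hP : P.Monic)
    (hcoeff : ∀ i, ((P.coeff i : FF L N) : LaurentSeries L) ∈ contentRing W)
    (hroot : P.eval₂ (heckeBetaBar L N ℓ).toRingHom x = 0) :
    (x : LaurentSeries L) ∈ contentRing W := by
  refine (mem_gaussVS_iff_isIntegralElem_beta W N ℓ ι₀ hℓ hℓN x).2 ?_
  obtain ⟨Q, hQ⟩ : ∃ Q : Polynomial (gaussVS W N), Q.map (gaussVS W N).subtype = P := by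
    have : P ∈ Polynomial.lifts (gaussVS W N).subtype := by
      rw [Polynomial.lifts_iff_coeff_lifts]
      intro i
      exact ⟨⟨P.coeff i, hcoeff i⟩, rfl⟩
    exact this
  refine ⟨Q, ?_, ?_⟩
  · have hinj : Function.Injective (gaussVS W N).subtype := Subtype.val_injective
    exact Polynomial.monic_of_injective hinj (by rw [hQ]; exact hP)
  · rw [← hQ, Polynomial.eval₂_map] at hroot
    exact hroot

end Fermat.Agent.S36.NExtInstB
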