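import Mathlib
import Fermat.Agent.S36.NodeThick
import Fermat.Agent.S36.ChartSquare

/-!
# S36: the `θ`-trick on the finite chart of level `M q` (standalone chart facts)

`BM → B` the finite charts of levels `M`, `M q` (algebra structure inducing `α`), `W` an
unramified DVR level with residue characteristic `q ∤ M`, `w` an Atkin–Lehner automorphism,
`𝔭₂ = ker (rd ∘ coe ∘ w)` the second branch.  For ANY `θ : B` with `θ ↦ β j` put
`Δ = aeval θ (derivative (minpoly BM θ))` (the different of `β j` over the level-`M` chart).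

* `exists_theta` : such a `θ` exists;
* `theta_chart` : `θ` is integral over `BM` with minimal polynomial of degree `q + 1`,
  `Δ ∈ 𝔭₂`, `Δ` has second Gauss valuation exactly one in the form
  `x * Δ = π * b → x ∉ 𝔭₂ → b ∉ 𝔭₂`, `β j` generates, and `Δ ↦ P'(β j)` for every monic
  equation `P` of degree `q + 1` of `β j` over `α (FF L M)`.
-/

set_option autoImplicit false
set_option linter.unusedSectionVars false
set_option linter.style.haveILetI false

noncomputable section

namespace Fermat.Agent.S36.NodeTheta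

open ModularCurve Polynomial AlgebraicCurve Fermat.Agent.S18 Fermat.Agent.S18.Gauss
  Fermat.Agent.S24 Fermat.Agent.S34.TwoGauss IsLocalRing

local notation "Qb" => AlgebraicClosure ℚ

variable {L : Type} [Field L] [Algebra ℚ L] (ι : L →+* Qb) (W : ValuationSubring L)
  [IsDiscreteValuationRing ↥W] (M q : ℕ) [NeZero M] [NeZero q]
  [CharP (IsLocalRing.ResidueField ↥W) q]
  [Algebra (↥W)[X] (FF L M)] (halgM : algebraMap (↥W)[X] (FF L M) = evF W M)
  (BM : Type*) [CommRing BM] [Algebra (↥W)[X] BM] [Algebra BM (FF L M)]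
  [IsScalarTower (↥W)[X] BM (FF L M)] [IsIntegralClosure BM (↥W)[X] (FF L M)]
  [Algebra (↥W)[X] (FF L (M * q))] (halg : algebraMap (↥W)[X] (FF L (M * q)) = evF W (M * q))
  (B : Type*) [CommRing B] [Algebra (↥W)[X] B] [Algebra B (FF L (M * q))]
  [IsScalarTower (↥W)[X] B (FF L (M * q))] [IsIntegralClosure B (↥W)[X] (FF L (M * q))]
  [Algebra BM B]
  (hα : ∀ c : BM, algebraMap B (FF L (M * q)) (algebraMap BM B c) =
    heckeAlphaBar L M q (algebraMap BM (FF L M) c))

omit [IsDiscreteValuationRing ↥W] in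
include halg in
/-- `β j` lies in the finite chart of level `M q` -/
theorem exists_theta (hq : q.Prime) :
    ∃ θ : B, algebraMap B (FF L (M * q)) θ = heckeBetaBar L M q (jBC L M) :=
  Fermat.Agent.S34.CompInst.exists_algebraMap_eq W (M * q) halg B
    (Fermat.Agent.S34.BetaInt.isIntegralElem_beta_j (L := L) W (M := M) (ℓ := q) hq)

include ι halgM halg hα in
/-- **The `θ`-trick on the chart.** -/
theorem theta_chart (hq : q.Prime) (hqM : ¬ q ∣ M) {π : ↥W} (hπ : Irreducible π)
    (hunr : ∃ u : (↥W)ˣ, ((q : ℕ) : ↥W) = π * u)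
    (w : FF L (M * q) ≃ₐ[L] FF L (M * q))
    (hwα : (w : FF L (M * q) →ₐ[L] FF L (M * q)).comp (heckeAlphaBar L M q) =
      heckeBetaBar L M q)
    (hwβ : (w : FF L (M * q) →ₐ[L] FF L (M * q)).comp (heckeBetaBar L M q) =
      heckeAlphaBar L M q)
    (θ : B) (hθ : algebraMap B (FF L (M * q)) θ = heckeBetaBar L M q (jBC L M)) :
    IsIntegral BM θ ∧ (minpoly BM θ).natDegree = q + 1 ∧
    aeval θ (derivative (minpoly BM θ)) ∈ NodeBranch.branch₂ W M q halg B hq w hwα ∧
    (∀ x b : B, x * aeval θ (derivative (minpoly BM θ)) = algebraMap (↥W)[X] B (C π) * b →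
      x ∉ NodeBranch.branch₂ W M q halg B hq w hwα →
      b ∉ NodeBranch.branch₂ W M q halg B hq w hwα) ∧
    (∀ P : (FF L M)[X], P.Monic → P.natDegree = q + 1 →
      P.eval₂ (heckeAlphaBar L M q).toRingHom (heckeBetaBar L M q (jBC L M)) = 0 →
      algebraMap B (FF L (M * q)) (aeval θ (derivative (minpoly BM θ))) =
        P.derivative.eval₂ (heckeAlphaBar L M q).toRingHom (heckeBetaBar L M q (jBC L M))) := by
  classical
  haveI : Fact q.Prime := ⟨hq⟩
  -- (Θ)
  obtain ⟨P, hPm, hPdeg, hPint, hProot, h, hh, hder, hrdh⟩ :=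
    ThetaInst.exists_theta_poly W M q hq hqM ι hπ hunr w hwα hwβ
  obtain ⟨P₀, θ', hP₀m, hP₀deg, hP₀map, hθ', hθroot, hgB⟩ :=
    NodeThick.exists_theta_chart W M q halgM BM halg B hα hq P hPm hPint hProot
  have hBinj : Function.Injective (algebraMap B (FF L (M * q))) :=
    IsIntegralClosure.algebraMap_injective B (↥W)[X] (FF L (M * q))
  obtain rfl : θ = θ' := hBinj (hθ.trans hθ'.symm)
  refine ChartSquare.with_chart ι W M q halgM BM halg B hα hq hqM ?_
  intro _ _ _ _ _ _ _ _ _ _ _ _ _ _ _ _ _ halgK hrank _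
  obtain ⟨hgen, hmindeg⟩ := NodeThick.beta_j_gen W M q hq hqM ι hπ hunr w hwα hwβ halgK
  have halgK' : algebraMap (FF L M) (FF L (M * q)) = (heckeAlphaBar L M q).toRingHom :=
    RingHom.ext halgK
  have hyint : IsIntegral (FF L M) (heckeBetaBar L M q (jBC L M)) :=
    ⟨P, hPm, by rw [halgK']; exact hProot⟩
  have huniq : ∀ G : (FF L M)[X], G.Monic → G.natDegree = q + 1 →
      G.eval₂ (heckeAlphaBar L M q).toRingHom (heckeBetaBar L M q (jBC L M)) = 0 →
      G = minpoly (FF L M) (heckeBetaBar L M q (jBC L M)) := by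
    intro G hGm hGdeg hGroot
    have hdvd : minpoly (FF L M) (heckeBetaBar L M q (jBC L M)) ∣ G :=
      minpoly.dvd _ _ (by rw [aeval_def, halgK']; exact hGroot)
    exact Polynomial.eq_of_monic_of_dvd_of_natDegree_le (minpoly.monic hyint) hGm hdvd
      (by rw [hGdeg, hmindeg])
  -- the minimal polynomial of `θ` over `BM`
  have hθgen : Algebra.adjoin (FF L M) {algebraMap B (FF L (M * q)) θ} = ⊤ := by
    rw [hθ]
    exact hgen
  have hroot' : aeval θ P₀ = 0 := by
    rw [aeval_def]
    exact hθroot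
  have hmin : minpoly BM θ = P₀ :=
    EulerDvd.minpoly_eq_of_natDegree (A := BM) (B := B) (K := FF L M) (L := FF L (M * q)) θ hθgen
      P₀ hP₀m hroot' (by rw [hP₀deg, hPdeg, hrank])
  have hΔ : aeval θ (derivative (minpoly BM θ)) = (derivative P₀).eval₂ (algebraMap BM B) θ := by
    rw [hmin, aeval_def]
  rw [hΔ]
  have hCπ : rd W (HahnSeries.C ((π : ↥W) : L)) = 0 := by
    rw [rd_C, residue_unif W hπ, map_zero]
  refine ⟨⟨P₀, hP₀m, hθroot⟩, by rw [hmin, hP₀deg, hPdeg], ?_, ?_, ?_⟩
  · rw [NodeBranch.mem_branch₂, hgB, hder, rd_mul W (C_mem_contentRing W π) hh, hCπ, zero_mul]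
  · intro x b hE hx2
    rw [NodeBranch.mem_branch₂]
    have e0 : algebraMap (FF L (M * q)) (LaurentSeries L) (w (algebraMap B (FF L (M * q)) x)) *
        algebraMap (FF L (M * q)) (LaurentSeries L) (w (algebraMap B (FF L (M * q))
          ((derivative P₀).eval₂ (algebraMap BM B) θ))) =
        algebraMap (FF L (M * q)) (LaurentSeries L) (w (algebraMap B (FF L (M * q))
          (algebraMap (↥W)[X] B (C π)))) *
        algebraMap (FF L (M * q)) (LaurentSeries L) (w (algebraMap B (FF L (M * q)) b)) := by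
      rw [← map_mul, ← map_mul, ← map_mul, ← map_mul, ← map_mul, ← map_mul, hE]
    have e1 : ((w (algebraMap B (FF L (M * q)) x) : FF L (M * q)) : LaurentSeries L) *
        ((w (algebraMap B (FF L (M * q)) ((derivative P₀).eval₂ (algebraMap BM B) θ)) :
          FF L (M * q)) : LaurentSeries L) =
        ((w (algebraMap B (FF L (M * q)) (algebraMap (↥W)[X] B (C π))) :
          FF L (M * q)) : LaurentSeries L) *
        ((w (algebraMap B (FF L (M * q)) b) : FF L (M * q)) : LaurentSeries L) := e0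
    rw [hgB, hder, NodeBranch.algebraMap_pi W M q halg B π, AlgEquiv.commutes,
      Fermat.Agent.S37.GaussPrime.coe_unif π] at e1
    have hCπ0 : (HahnSeries.C ((π : ↥W) : L) : LaurentSeries L) ≠ 0 := by
      intro h0
      have h1 : ((π : ↥W) : L) = 0 := HahnSeries.C_injective (Γ := ℤ) (by rw [h0, map_zero])
      exact hπ.ne_zero (Subtype.ext h1)
    have e2 : ((w (algebraMap B (FF L (M * q)) b) : FF L (M * q)) : LaurentSeries L) =
        ((w (algebraMap B (FF L (M * q)) x) : FF L (M * q)) : LaurentSeries L) * h := by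
      apply mul_left_cancel₀ hCπ0
      rw [← e1]
      ring
    have hmX : ((w (algebraMap B (FF L (M * q)) x) : FF L (M * q)) : LaurentSeries L) ∈
        contentRing W := NodeBranch.mem₂ W M q halg B hq w hwα x
    rw [e2, rd_mul W hmX hh]
    exact mul_ne_zero
      (fun h0 => hx2 ((NodeBranch.mem_branch₂ W M q halg B hq w hwα x).mpr h0)) hrdh
  · intro G hGm hGdeg hGroot
    rw [hgB, (huniq G hGm hGdeg hGroot).trans (huniq P hPm hPdeg hProot).symm]

end Fermat.Agent.S36.NodeTheta
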