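import Mathlib
import Fermat.Agent.S36.ThetaGauss

/-!
# S36 (R-ss): the hypothesis `hΘ1` of `NodeThick.node_thick_one`, in its literal binder shape

`theta_first_literal` : there is a monic `P` of degree `q + 1` over `FF L M` with root `β(j)`
(through `α`) such that the FIRST Gauss reduction of `P'(β j)` is nonzero.
(Restatement of `ThetaGauss.exists_theta_chart`, coercion form.)
-/

set_option autoImplicit false
set_option linter.unusedSectionVars false

noncomputable section

namespace Fermat.Agent.S36.ThetaFirstOf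

open ModularCurve Polynomial AlgebraicCurve Fermat.Agent.S18 Fermat.Agent.S18.Gauss
  Fermat.Agent.S24 Fermat.Agent.S34.TwoGauss

local notation "Qb" => AlgebraicClosure ℚ

variable {L : Type} [Field L] [Algebra ℚ L] (W : ValuationSubring L) (M q : ℕ) [NeZero M]
  [NeZero q] [IsDiscreteValuationRing ↥W] [CharP (IsLocalRing.ResidueField ↥W) q]

/-- **`hΘ1`** (literal binder of `NodeThick.node_thick_one`). -/
theorem theta_first_literal (hq : q.Prime) (hqM : ¬ q ∣ M) (ι : L →+* Qb)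
    {π : ↥W} (hπ : Irreducible π) (hunr : ∃ u : (↥W)ˣ, ((q : ℕ) : ↥W) = π * u)
    (w : FF L (M * q) ≃ₐ[L] FF L (M * q))
    (hwα : (w : FF L (M * q) →ₐ[L] FF L (M * q)).comp (heckeAlphaBar L M q) =
      heckeBetaBar L M q)
    (hwβ : (w : FF L (M * q) →ₐ[L] FF L (M * q)).comp (heckeBetaBar L M q) =
      heckeAlphaBar L M q) :
    ∃ P : (FF L M)[X], P.Monic ∧ P.natDegree = q + 1 ∧
      P.eval₂ (heckeAlphaBar L M q).toRingHom (heckeBetaBar L M q (jBC L M)) = 0 ∧
      rd W ((P.derivative.eval₂ (heckeAlphaBar L M q).toRingHom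
        (heckeBetaBar L M q (jBC L M)) : FF L (M * q)) : LaurentSeries L) ≠ 0 := by
  obtain ⟨P, hPm, hdeg, -, hroot, h1, -, -⟩ :=
    Fermat.Agent.S36.ThetaGauss.exists_theta_chart M q W hq hqM ι hπ hunr w hwα hwβ
  rw [Fermat.Agent.S36.ThetaGauss.algebraMap_FF_apply] at h1
  exact ⟨P, hPm, hdeg, hroot, h1⟩

/-- the full package in coercion form: the SAME `P` has both Gauss valuations controlled. -/
theorem theta_both_literal (hq : q.Prime) (hqM : ¬ q ∣ M) (ι : L →+* Qb)
    {π : ↥W} (hπ : Irreducible π) (hunr : ∃ u : (↥W)ˣ, ((q : ℕ) : ↥W) = π * u)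
    (w : FF L (M * q) ≃ₐ[L] FF L (M * q))
    (hwα : (w : FF L (M * q) →ₐ[L] FF L (M * q)).comp (heckeAlphaBar L M q) =
      heckeBetaBar L M q)
    (hwβ : (w : FF L (M * q) →ₐ[L] FF L (M * q)).comp (heckeBetaBar L M q) =
      heckeAlphaBar L M q) :
    ∃ P : (FF L M)[X], P.Monic ∧ P.natDegree = q + 1 ∧
      (∀ i, (evF W M).IsIntegralElem (P.coeff i)) ∧
      P.eval₂ (heckeAlphaBar L M q).toRingHom (heckeBetaBar L M q (jBC L M)) = 0 ∧
      rd W ((P.derivative.eval₂ (heckeAlphaBar L M q).toRingHom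
        (heckeBetaBar L M q (jBC L M)) : FF L (M * q)) : LaurentSeries L) ≠ 0 ∧
      rd W ((w (P.derivative.eval₂ (heckeAlphaBar L M q).toRingHom
        (heckeBetaBar L M q (jBC L M))) : FF L (M * q)) : LaurentSeries L) = 0 := by
  obtain ⟨P, hPm, hdeg, hint, hroot, h1, h2, -⟩ :=
    Fermat.Agent.S36.ThetaGauss.exists_theta_chart M q W hq hqM ι hπ hunr w hwα hwβ
  rw [Fermat.Agent.S36.ThetaGauss.algebraMap_FF_apply] at h1 h2
  exact ⟨P, hPm, hdeg, hint, hroot, h1, h2⟩

end Fermat.Agent.S36.ThetaFirstOf
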