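import Mathlib
import Fermat.Agent.S36.NodeThick
import Fermat.Agent.S36.ThetaFirstOf

/-!
# S36 (R-ss): thickness one at the nodes of the finite chart of level `M q`, closed form

`NodeThick.node_thick_one` with its hypothesis `hΘ1` discharged by
`ThetaFirstOf.theta_first_literal`: at an auxiliary, Frobenius-stable, unramified level both
branches are locally principal at every maximal ideal containing both of them.
-/

set_option autoImplicit false
set_option linter.unusedSectionVars false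
set_option linter.style.haveILetI false

noncomputable section

namespace Fermat.Agent.S36.NodeThickOf

open ModularCurve Polynomial AlgebraicCurve Fermat.Agent.S18 Fermat.Agent.S18.Gauss
  Fermat.Agent.S24 Fermat.Agent.S34.TwoGauss

local notation "Qb" => AlgebraicClosure ℚ

variable (A : ValuationSubring Qb) {L : Type} [Field L] [Algebra ℚ L] (ι : L →+* Qb)
  (M q : ℕ) [NeZero M] [NeZero q]

/-- **Thickness one at a node of the finite chart of level `M q`** (no residual hypothesis). -/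
theorem node_thick (hq : q.Prime) (hqM : ¬ q ∣ M) (S : Finset Qb)
    (hlev : Fermat.Agent.S37.LevelChange.IsLevel A q S ι)
    (hstab : Fermat.Agent.S36.FrobLevel.FrobStable A q ι)
    (π : ↥(A.comap ι)) (hπ : Irreducible π)
    (hunr : ∃ u : (↥(A.comap ι))ˣ, ((q : ℕ) : ↥(A.comap ι)) = π * u)
    {r : ℕ} (hr : r.Prime) (hr12 : r % 12 = 11) (hrM : r ∣ M)
    (w : FF L (M * q) ≃ₐ[L] FF L (M * q))
    (hwα : (w : FF L (M * q) →ₐ[L] FF L (M * q)).comp (heckeAlphaBar L M q) =
      heckeBetaBar L M q)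
    (hwβ : (w : FF L (M * q) →ₐ[L] FF L (M * q)).comp (heckeBetaBar L M q) =
      heckeAlphaBar L M q)
    [Algebra (↥(A.comap ι))[X] (FF L M)]
    (halgM : algebraMap (↥(A.comap ι))[X] (FF L M) = evF (A.comap ι) M)
    (BM : Type) [CommRing BM] [Algebra (↥(A.comap ι))[X] BM] [Algebra BM (FF L M)]
    [IsScalarTower (↥(A.comap ι))[X] BM (FF L M)]
    [IsIntegralClosure BM (↥(A.comap ι))[X] (FF L M)]
    [Algebra (↥(A.comap ι))[X] (FF L (M * q))]
    (halg : algebraMap (↥(A.comap ι))[X] (FF L (M * q)) = evF (A.comap ι) (M * q))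
    (B : Type) [CommRing B] [Algebra (↥(A.comap ι))[X] B] [Algebra B (FF L (M * q))]
    [IsScalarTower (↥(A.comap ι))[X] B (FF L (M * q))]
    [IsIntegralClosure B (↥(A.comap ι))[X] (FF L (M * q))]
    (𝔫 : Ideal B) [𝔫.IsMaximal]
    (hk₁ : ∀ b : B, rd (A.comap ι)
      ((algebraMap B (FF L (M * q)) b : FF L (M * q)) : LaurentSeries L) = 0 → b ∈ 𝔫)
    (hk₂ : ∀ b : B, rd (A.comap ι)
      ((w (algebraMap B (FF L (M * q)) b) : FF L (M * q)) : LaurentSeries L) = 0 → b ∈ 𝔫) :
    (∃ z₀ : B, rd (A.comap ι)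
        ((algebraMap B (FF L (M * q)) z₀ : FF L (M * q)) : LaurentSeries L) = 0 ∧
      ∃ s, s ∉ 𝔫 ∧ ∀ b : B, rd (A.comap ι)
        ((algebraMap B (FF L (M * q)) b : FF L (M * q)) : LaurentSeries L) = 0 → z₀ ∣ s * b) ∧
    (∃ y₀ : B, rd (A.comap ι)
        ((w (algebraMap B (FF L (M * q)) y₀) : FF L (M * q)) : LaurentSeries L) = 0 ∧
      ∃ s, s ∉ 𝔫 ∧ ∀ b : B, rd (A.comap ι)
        ((w (algebraMap B (FF L (M * q)) b) : FF L (M * q)) : LaurentSeries L) = 0 →
          y₀ ∣ s * b) := by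
  have hlev' := hlev
  obtain ⟨-, -, hdvr, -, -, hchar, -, -⟩ := hlev'
  haveI := hdvr
  haveI := hchar
  exact Fermat.Agent.S36.NodeThick.node_thick_one A ι M q hq hqM S hlev hstab π hπ hunr hr hr12
    hrM w hwα hwβ halgM BM halg B 𝔫 hk₁ hk₂
    (Fermat.Agent.S36.ThetaFirstOf.theta_first_literal (A.comap ι) M q hq hqM ι hπ hunr w
      hwα hwβ)

end Fermat.Agent.S36.NodeThickOf
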