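import Mathlib
import Fermat.Agent.S36.OrdGlue

/-!
# S36 (R-ord), step (J2), abstract carriers: level `M q²` from the two-point data at level `M q`

`horPrincipal_of_data`: the contract K4 (`HorPrincipal`) at every maximal ideal of the chart `B`
of level `M q²` over a point `ν` of the chart `B₁` of level `M q`, from the output of
`OrdGlue1.exists_twoPoint_data`:

* a local generator `h` of `B₁` over the chart `R₀` of level `M` (`s • b ∈ R₀[h]`), a monic
  `m : R₀[X]` of degree `q + 1` with root `h`;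
* over `(B₁)_ν`: `𝔪 = (π₁, u)`, `(π₁)` prime and
  `m / (X - h) = (X - c) (X - d) ^ (q - 1) + π₁ G₁`, `c - d` and `G₁(d)` units.

The charts are abstract carriers embedded in the function fields (`φ₀`, `φ₁`, `φ`), the
structure maps being `heckeAlphaBar L M q` (`R₀ → B₁`) and `heckeBetaBar L (M q) q` (`B₁ → B`);
the root at level `M q²` is `y₀ = α₂ (w h)`.
-/

set_option autoImplicit false
set_option linter.style.haveILetI false

namespace Fermat.Agent.S36.OrdData2

open ModularCurve AlgebraicCurve Polynomial Fermat.Agent.S24 IsLocalRing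

/-- the second generator of the maximal ideal may be taken in the chart -/
theorem exists_span_pair_eq {B₁ : Type*} [CommRing B₁] (ν : Ideal B₁) [ν.IsPrime]
    (π u : Localization.AtPrime ν) :
    ∃ u₀ : B₁, (Ideal.span {π, u} : Ideal (Localization.AtPrime ν)) =
      Ideal.span {π, algebraMap B₁ (Localization.AtPrime ν) u₀} := by
  obtain ⟨⟨u₀, t⟩, hut⟩ := IsLocalization.surj ν.primeCompl u
  have hut' : u * algebraMap B₁ (Localization.AtPrime ν) (t : B₁) =
      algebraMap B₁ (Localization.AtPrime ν) u₀ := hut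
  have htu : IsUnit (algebraMap B₁ (Localization.AtPrime ν) (t : B₁)) :=
    IsLocalization.map_units (Localization.AtPrime ν) t
  refine ⟨u₀, le_antisymm ?_ ?_⟩
  · rw [Ideal.span_le]
    rintro x (rfl | rfl)
    · exact Ideal.subset_span (Set.mem_insert _ _)
    · obtain ⟨v, hv⟩ := htu
      have h1 : x = algebraMap B₁ (Localization.AtPrime ν) u₀ * ((v⁻¹ : (Localization.AtPrime ν)ˣ) :
          Localization.AtPrime ν) := by
        rw [← hut', ← hv, mul_assoc, Units.mul_inv, mul_one]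
      rw [h1]
      exact Ideal.mul_mem_right _ _ (Ideal.subset_span (Set.mem_insert_of_mem _ rfl))
  · rw [Ideal.span_le]
    rintro x (rfl | rfl)
    · exact Ideal.subset_span (Set.mem_insert _ _)
    · rw [← hut']
      exact Ideal.mul_mem_right _ _ (Ideal.subset_span (Set.mem_insert_of_mem _ rfl))

section Main

variable {L : Type*} [Field L] [Algebra ℚ L]

variable {R₀ B₁ B : Type*} [CommRing R₀] [CommRing B₁] [IsDomain B₁] [IsNoetherianRing B₁]
  [IsIntegrallyClosed B₁] [CommRing B] [IsDomain B] [IsNoetherianRing B] [Algebra R₀ B₁]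
  [Algebra B₁ B] [Algebra.IsIntegral B₁ B]

/-- **(J2), abstract carriers.**  K4 at every maximal ideal of `B` over `ν`, from the two-point
data of `OrdGlue1.exists_twoPoint_data`. -/
theorem horPrincipal_of_data (ι : L →+* AlgebraicClosure ℚ) (M q : ℕ) [NeZero M] [NeZero q]
    (hq : q.Prime) (w : FF L (M * q) →ₐ[L] FF L (M * q))
    (hwα : w.comp (heckeAlphaBar L M q) = heckeBetaBar L M q)
    (hwβ : w.comp (heckeBetaBar L M q) = heckeAlphaBar L M q)
    (φ₀ : R₀ →+* FF L M) (hφ₀ : Function.Injective φ₀)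
    (φ₁ : B₁ →+* FF L (M * q)) (hφ₁ : Function.Injective φ₁)
    (φ : B →+* FF L (M * q * q)) (hφ : Function.Injective φ)
    (hα : ∀ r : R₀, φ₁ (algebraMap R₀ B₁ r) = heckeAlphaBar L M q (φ₀ r))
    (hβ : ∀ b : B₁, φ (algebraMap B₁ B b) = heckeBetaBar L (M * q) q (φ₁ b))
    (hfr₁ : ∀ g : FF L (M * q), ∃ b₁ b₂ : B₁, b₂ ≠ 0 ∧ g * φ₁ b₂ = φ₁ b₁)
    (ν : Ideal B₁) [hν : ν.IsPrime] (π₁ : B₁)
    (h : B₁) (s : R₀) (hs : s ≠ 0) (hsgen : ∀ b : B₁, s • b ∈ Algebra.adjoin R₀ {h})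
    (bj : B₁) (hbj : φ₁ bj = heckeBetaBar L M q (jBC L M))
    (m : R₀[X]) (hm : m.Monic) (hdeg : m.natDegree = q + 1) (hroot : aeval h m = 0)
    (u c d : Localization.AtPrime ν) (G₁ : (Localization.AtPrime ν)[X])
    (hmax : maximalIdeal (Localization.AtPrime ν) =
      Ideal.span {algebraMap B₁ (Localization.AtPrime ν) π₁, u})
    (hπ : (Ideal.span {algebraMap B₁ (Localization.AtPrime ν) π₁} :
      Ideal (Localization.AtPrime ν)).IsPrime)
    (hH : ((m.map (algebraMap R₀ B₁)) /ₘ (X - C h)).map (algebraMap B₁ (Localization.AtPrime ν)) =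
      (X - C c) * (X - C d) ^ (q - 1) + C (algebraMap B₁ (Localization.AtPrime ν) π₁) * G₁)
    (hcd : IsUnit (c - d)) (hG₁ : IsUnit (G₁.eval d))
    (y₀ : B) (hy₀ : φ y₀ = heckeAlphaBar L (M * q) q (w (φ₁ h)))
    (𝔫 : Ideal B) [h𝔫 : 𝔫.IsMaximal] (h𝔫ν : 𝔫.comap (algebraMap B₁ B) = ν)
    (𝔮 : Ideal B) [h𝔮 : 𝔮.IsPrime] (h𝔮𝔫 : 𝔮 ≤ 𝔫) (hπ𝔮 : algebraMap B₁ B π₁ ∉ 𝔮) :
    ∃ x ∈ 𝔮, ∃ d, d ∉ 𝔫 ∧ ∀ y ∈ 𝔮, x ∣ d * y := by
  classical
  let R := Localization.AtPrime ν
  obtain ⟨u₀, hu₀⟩ := exists_span_pair_eq ν (algebraMap B₁ R π₁) u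
  have hmax' : maximalIdeal R = Ideal.span {algebraMap B₁ R π₁, algebraMap B₁ R u₀} := by
    rw [hmax, hu₀]
  -- the polynomial at level `M q`
  have hmB : (m.map (algebraMap R₀ B₁)).Monic := hm.map _
  have hmBdeg : (m.map (algebraMap R₀ B₁)).natDegree = q + 1 := by
    rw [hm.natDegree_map, hdeg]
  set H₀ : B₁[X] := (m.map (algebraMap R₀ B₁)) /ₘ (X - C h) with hH₀
  have hH₀monic : H₀.Monic := by
    have hle : (X - C h).degree ≤ (m.map (algebraMap R₀ B₁)).degree := by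
      rw [degree_X_sub_C, degree_eq_natDegree hmB.ne_zero, hmBdeg]
      exact_mod_cast Nat.succ_le_succ (Nat.zero_le q)
    have h1 := leadingCoeff_divByMonic_of_monic (monic_X_sub_C h) hle
    rw [Monic, h1]
    exact hmB
  have hH₀deg : H₀.natDegree = q := by
    rw [hH₀, natDegree_divByMonic _ (monic_X_sub_C h), natDegree_X_sub_C, hmBdeg]
    rfl
  set H : R[X] := H₀.map (algebraMap B₁ R) with hHdef
  have hHmonic : H.Monic := hH₀monic.map _
  have hHdeg : H.natDegree = q := by rw [hHdef, hH₀monic.natDegree_map, hH₀deg]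
  -- the embedding of `R` into the function field
  have hunits : ∀ t : ν.primeCompl, IsUnit (φ₁ (t : B₁)) := by
    intro t
    refine isUnit_iff_ne_zero.mpr (fun h0 => t.2 ?_)
    have : (t : B₁) = 0 := hφ₁ (by rw [h0, map_zero])
    rw [this]
    exact ν.zero_mem
  let ρ₁ : R →+* FF L (M * q) := IsLocalization.lift (M := ν.primeCompl) (g := φ₁) hunits
  have hρ₁ : ∀ b : B₁, ρ₁ (algebraMap B₁ R b) = φ₁ b := fun b => IsLocalization.lift_eq hunits b
  -- field-level data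
  set m₀ : (FF L M)[X] := m.map φ₀ with hm₀
  have hm₀monic : m₀.Monic := hm.map φ₀
  have hm₀deg : m₀.natDegree = q + 1 := by rw [hm₀, hm.natDegree_map, hdeg]
  have hroot₀ : m₀.eval₂ (heckeAlphaBar L M q).toRingHom (φ₁ h) = 0 := by
    have h1 := OrdGlue.map_aeval_eq (heckeAlphaBar L M q).toRingHom φ₀ φ₁ hα h m
    rw [hroot, map_zero] at h1
    exact h1.symm
  have hgen : ∃ Q : (FF L M)[X],
      heckeBetaBar L M q (jBC L M) = Q.eval₂ (heckeAlphaBar L M q).toRingHom (φ₁ h) := by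
    have hs' : φ₀ s ≠ 0 := fun h0 => hs (hφ₀ (by rw [h0, map_zero]))
    obtain ⟨Q, hQ⟩ := OrdGlue.hgen_of_adjoin (heckeAlphaBar L M q).toRingHom φ₀ φ₁ hα h s hs' bj
      (hsgen bj)
    exact ⟨Q, by rw [← hbj]; exact hQ⟩
  have hHmap : H.map ρ₁ = (m₀.map (heckeAlphaBar L M q).toRingHom) /ₘ (X - C (φ₁ h)) := by
    have h1 : (algebraMap B₁ R).comp (algebraMap R₀ B₁) = algebraMap R₀ R :=
      (IsScalarTower.algebraMap_eq R₀ B₁ R).symm
    have h2 : ρ₁.comp (algebraMap B₁ R) = φ₁ := RingHom.ext hρ₁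
    rw [hHdef, Polynomial.map_map, h2, hH₀, Polynomial.map_divByMonic φ₁ (monic_X_sub_C h),
      Polynomial.map_sub, Polynomial.map_X, Polynomial.map_C, Polynomial.map_map, hm₀,
      Polynomial.map_map]
    congr 2
    ext r
    simp only [RingHom.comp_apply]
    rw [hα]
    rfl
  have hyF : (H.map ρ₁).eval₂ (heckeBetaBar L (M * q) q).toRingHom (φ y₀) = 0 := by
    rw [hHmap, hy₀]
    exact OrdField2.eval₂_divByMonic_alpha_w M q w hq.two_le hwα hwβ m₀ (φ₁ h) hroot₀ hgen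
  have hdegF : ∀ Q : (FF L (M * q))[X], Q ≠ 0 →
      Q.eval₂ (heckeBetaBar L (M * q) q).toRingHom (φ y₀) = 0 → H.natDegree ≤ Q.natDegree := by
    intro Q hQ0 hQ
    letI := algebraAlong (heckeBetaBar L (M * q) q)
    have hmin := OrdField2.minpoly_alpha_w M q w ι hq hwα hwβ m₀ hm₀monic hm₀deg (φ₁ h) hroot₀ hgen
    have hd := (OrdField2.monic_divByMonic_of_natDegree
      (m₀.map (heckeAlphaBar L M q).toRingHom) (φ₁ h) (hm₀monic.map _)
      (by rw [(hm₀monic).natDegree_map, hm₀deg])).2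
    have hkill : aeval (heckeAlphaBar L (M * q) q (w (φ₁ h))) Q = 0 := by
      rw [← hy₀]
      exact hQ
    have hdvd := minpoly.dvd (FF L (M * q)) (heckeAlphaBar L (M * q) q (w (φ₁ h))) hkill
    have h1 := Polynomial.natDegree_le_of_dvd hdvd hQ0
    rw [hmin, hd] at h1
    rw [hHdeg]
    exact h1
  have hgenF : ∀ x : FF L (M * q * q), ∃ Q : (FF L (M * q))[X],
      Q.eval₂ (heckeBetaBar L (M * q) q).toRingHom (φ y₀) = x := by
    intro x
    rw [hy₀]
    exact OrdField2.exists_eval₂_eq_alpha_w M q w ι hq hwα hwβ (φ₁ h) hgen x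
  have hinj : Function.Injective (algebraMap B₁ B) := by
    intro x y hxy
    apply hφ₁
    apply (heckeBetaBar L (M * q) q).toRingHom.injective
    show heckeBetaBar L (M * q) q (φ₁ x) = heckeBetaBar L (M * q) q (φ₁ y)
    rw [← hβ, ← hβ, hxy]
  have he : q - 1 ≠ 0 := by have := hq.two_le; omega
  exact OrdLevel2F.horPrincipal_of_twoPoint_field hinj ν π₁ u₀ hmax' hπ c d H G₁
    (q - 1) he hH hHmonic hcd hG₁ φ₁ hφ₁ φ hφ (heckeBetaBar L (M * q) q).toRingHom
    (fun b => (hβ b).symm) hfr₁ ρ₁ hρ₁ y₀ hyF hdegF hgenF 𝔫 h𝔫ν 𝔮 h𝔮𝔫 hπ𝔮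

end Main

end Fermat.Agent.S36.OrdData2
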