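import Mathlib
import Fermat.Agent.S36.FrobLevel
import Fermat.Agent.S36.OrdFacts0

/-!
# S36 (R-ord), `hdich` of `OrdInst2.ord_inst2_of_facts` / `OrdGlue1.exists_twoPoint_data`

The dichotomy at the closed points of the special fibre of the finite chart `B₁` of level `M q`
(`FrobLevel.finite_dich_frob`), in the literal binder shape of the `hdich` hypothesis of
`OrdInst2.ord_inst2_of_facts`: the local ring is `Localization.AtPrime ν'` and the uniformiser is
`algebraMap BM B₁ π₀`, `π₀ := algebraMap W[X] BM (C π)`, for the chart `BM` of level `M` with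
`BM → B₁` induced by `α`.

* `hdich_of_tower` : any `BM` with a tower `W[X] → BM → B₁`;
* `hdich` : `(hα : algebraMap BM B₁ = NodeOverInst.alphaHom …)` (the block of `OrdFacts0`);
* `hdich_of_spec` : `(hα : ∀ c, algebraMap B₁ Y (algebraMap BM B₁ c) = α (algebraMap BM K c))`
  (the binder of `OrdInst2.ord_inst2_of_facts`).
-/

set_option autoImplicit false
set_option linter.unusedSectionVars false
set_option linter.style.haveILetI false

noncomputable section

namespace Fermat.Agent.S36.OrdDich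

open Polynomial ModularCurve AlgebraicCurve Fermat.Agent.S18 Fermat.Agent.S18.Gauss
  Fermat.Agent.S37 Fermat.Agent.S34 IsLocalRing

local notation "Qb" => AlgebraicClosure ℚ

section Main

variable (A : ValuationSubring Qb) {L : Type} [Field L] [Algebra ℚ L] (ι : L →+* Qb)
  (M q : ℕ) [NeZero M] [NeZero q]

/-- **(hdich), tower form.** -/
theorem hdich_of_tower (hq : q.Prime) (hqM : ¬ q ∣ M) (S : Finset Qb)
    (hlev : Fermat.Agent.S37.LevelChange.IsLevel A q S ι)
    (hstab : FrobLevel.FrobStable A q ι)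
    (π : ↥(A.comap ι)) (hπ : Irreducible π)
    (BM : Type*) [CommRing BM] [Algebra (↥(A.comap ι))[X] BM]
    [Algebra (↥(A.comap ι))[X] (S24.FF L (M * q))]
    (halg : algebraMap (↥(A.comap ι))[X] (S24.FF L (M * q)) = evF (A.comap ι) (M * q))
    (B₁ : Type*) [CommRing B₁] [Algebra (↥(A.comap ι))[X] B₁] [Algebra B₁ (S24.FF L (M * q))]
    [IsScalarTower (↥(A.comap ι))[X] B₁ (S24.FF L (M * q))]
    [IsIntegralClosure B₁ (↥(A.comap ι))[X] (S24.FF L (M * q))]
    [Algebra BM B₁] [IsScalarTower (↥(A.comap ι))[X] BM B₁]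
    (ν' : Ideal B₁) [ν'.IsMaximal]
    (hπν : algebraMap BM B₁ (algebraMap (↥(A.comap ι))[X] BM (C π)) ∈ ν') :
    (∃ u ∈ ν', maximalIdeal (Localization.AtPrime ν') =
      Ideal.span {algebraMap B₁ (Localization.AtPrime ν')
          (algebraMap BM B₁ (algebraMap (↥(A.comap ι))[X] BM (C π))),
        algebraMap B₁ (Localization.AtPrime ν') u}) ∨
    (∃ X ∈ ν', ∃ Y ∈ ν', algebraMap BM B₁ (algebraMap (↥(A.comap ι))[X] BM (C π)) ∣ X * Y ∧
      maximalIdeal (Localization.AtPrime ν') =
      Ideal.span {algebraMap B₁ (Localization.AtPrime ν')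
          (algebraMap BM B₁ (algebraMap (↥(A.comap ι))[X] BM (C π))),
        algebraMap B₁ (Localization.AtPrime ν') X, algebraMap B₁ (Localization.AtPrime ν') Y}) := by
  have hπ₀ : algebraMap BM B₁ (algebraMap (↥(A.comap ι))[X] BM (C π)) =
      algebraMap (↥(A.comap ι))[X] B₁ (C π) :=
    (IsScalarTower.algebraMap_apply (↥(A.comap ι))[X] BM B₁ (C π)).symm
  rw [hπ₀] at hπν ⊢
  exact FrobLevel.finite_dich_frob A ι M q hq hqM S hlev hstab π hπ halg B₁ ν' hπν
    (Localization.AtPrime ν')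

/-- **(hdich)** on the S34 carriers, `BM → B₁` induced by `α` (the block of `OrdFacts0`): the
literal `hdich` binder of `OrdInst2.ord_inst2_of_facts` with
`π₀ := algebraMap W[X] BM (C π)`. -/
theorem hdich (hq : q.Prime) (hqM : ¬ q ∣ M) (S : Finset Qb)
    (hlev : Fermat.Agent.S37.LevelChange.IsLevel A q S ι)
    (hstab : FrobLevel.FrobStable A q ι)
    (π : ↥(A.comap ι)) (hπ : Irreducible π)
    [Algebra (↥(A.comap ι))[X] (S24.FF L M)]
    (halgM : algebraMap (↥(A.comap ι))[X] (S24.FF L M) = evF (A.comap ι) M)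
    (BM : Type*) [CommRing BM] [Algebra (↥(A.comap ι))[X] BM] [Algebra BM (S24.FF L M)]
    [IsScalarTower (↥(A.comap ι))[X] BM (S24.FF L M)]
    [IsIntegralClosure BM (↥(A.comap ι))[X] (S24.FF L M)]
    [Algebra (↥(A.comap ι))[X] (S24.FF L (M * q))]
    (halg : algebraMap (↥(A.comap ι))[X] (S24.FF L (M * q)) = evF (A.comap ι) (M * q))
    (B₁ : Type*) [CommRing B₁] [Algebra (↥(A.comap ι))[X] B₁] [Algebra B₁ (S24.FF L (M * q))]
    [IsScalarTower (↥(A.comap ι))[X] B₁ (S24.FF L (M * q))]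
    [IsIntegralClosure B₁ (↥(A.comap ι))[X] (S24.FF L (M * q))]
    [Algebra BM B₁]
    (hα : algebraMap BM B₁ = NodeOverInst.alphaHom (A.comap ι) M q halgM BM halg B₁) :
    ∀ (ν' : Ideal B₁) [ν'.IsMaximal],
      algebraMap BM B₁ (algebraMap (↥(A.comap ι))[X] BM (C π)) ∈ ν' →
      (∃ u ∈ ν', maximalIdeal (Localization.AtPrime ν') =
        Ideal.span {algebraMap B₁ (Localization.AtPrime ν')
            (algebraMap BM B₁ (algebraMap (↥(A.comap ι))[X] BM (C π))),
          algebraMap B₁ (Localization.AtPrime ν') u}) ∨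
      (∃ X ∈ ν', ∃ Y ∈ ν', algebraMap BM B₁ (algebraMap (↥(A.comap ι))[X] BM (C π)) ∣ X * Y ∧
        maximalIdeal (Localization.AtPrime ν') =
        Ideal.span {algebraMap B₁ (Localization.AtPrime ν')
            (algebraMap BM B₁ (algebraMap (↥(A.comap ι))[X] BM (C π))),
          algebraMap B₁ (Localization.AtPrime ν') X,
          algebraMap B₁ (Localization.AtPrime ν') Y}) := by
  intro ν' _ hπν
  haveI : IsDiscreteValuationRing ↥(A.comap ι) := hlev.2.2.1
  haveI : IsScalarTower (↥(A.comap ι))[X] BM B₁ :=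
    OrdFacts0.isScalarTower_alpha (A.comap ι) M q halgM BM halg B₁ hα
  exact hdich_of_tower A ι M q hq hqM S hlev hstab π hπ BM halg B₁ ν' hπν

/-- **(hdich)**, with `hα` in the pointwise form of `OrdInst2.ord_inst2_of_facts`. -/
theorem hdich_of_spec (hq : q.Prime) (hqM : ¬ q ∣ M) (S : Finset Qb)
    (hlev : Fermat.Agent.S37.LevelChange.IsLevel A q S ι)
    (hstab : FrobLevel.FrobStable A q ι)
    (π : ↥(A.comap ι)) (hπ : Irreducible π)
    [Algebra (↥(A.comap ι))[X] (S24.FF L M)]
    (halgM : algebraMap (↥(A.comap ι))[X] (S24.FF L M) = evF (A.comap ι) M)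
    (BM : Type*) [CommRing BM] [Algebra (↥(A.comap ι))[X] BM] [Algebra BM (S24.FF L M)]
    [IsScalarTower (↥(A.comap ι))[X] BM (S24.FF L M)]
    [IsIntegralClosure BM (↥(A.comap ι))[X] (S24.FF L M)]
    [Algebra (↥(A.comap ι))[X] (S24.FF L (M * q))]
    (halg : algebraMap (↥(A.comap ι))[X] (S24.FF L (M * q)) = evF (A.comap ι) (M * q))
    (B₁ : Type*) [CommRing B₁] [Algebra (↥(A.comap ι))[X] B₁] [Algebra B₁ (S24.FF L (M * q))]
    [IsScalarTower (↥(A.comap ι))[X] B₁ (S24.FF L (M * q))]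
    [IsIntegralClosure B₁ (↥(A.comap ι))[X] (S24.FF L (M * q))]
    [Algebra BM B₁]
    (hα : ∀ c : BM, algebraMap B₁ (S24.FF L (M * q)) (algebraMap BM B₁ c) =
      heckeAlphaBar L M q (algebraMap BM (S24.FF L M) c)) :
    ∀ (ν' : Ideal B₁) [ν'.IsMaximal],
      algebraMap BM B₁ (algebraMap (↥(A.comap ι))[X] BM (C π)) ∈ ν' →
      (∃ u ∈ ν', maximalIdeal (Localization.AtPrime ν') =
        Ideal.span {algebraMap B₁ (Localization.AtPrime ν')
            (algebraMap BM B₁ (algebraMap (↥(A.comap ι))[X] BM (C π))),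
          algebraMap B₁ (Localization.AtPrime ν') u}) ∨
      (∃ X ∈ ν', ∃ Y ∈ ν', algebraMap BM B₁ (algebraMap (↥(A.comap ι))[X] BM (C π)) ∣ X * Y ∧
        maximalIdeal (Localization.AtPrime ν') =
        Ideal.span {algebraMap B₁ (Localization.AtPrime ν')
            (algebraMap BM B₁ (algebraMap (↥(A.comap ι))[X] BM (C π))),
          algebraMap B₁ (Localization.AtPrime ν') X,
          algebraMap B₁ (Localization.AtPrime ν') Y}) := by
  have hα' : algebraMap BM B₁ = NodeOverInst.alphaHom (A.comap ι) M q halgM BM halg B₁ := by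
    apply RingHom.ext
    intro c
    apply IsIntegralClosure.algebraMap_injective B₁ (↥(A.comap ι))[X] (S24.FF L (M * q))
    rw [hα c, NodeOverInst.alphaHom_spec]
  exact hdich A ι M q hq hqM S hlev hstab π hπ halgM BM halg B₁ hα'

end Main

end Fermat.Agent.S36.OrdDich
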