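import Mathlib
import Fermat.Agent.S36.NodeBranch
import Fermat.Agent.S36.FrobLevel

/-!
# S36 (R-ord): the hypothesis `hdich` of `OrdInst2.ord_inst2_of_facts` at a Frobenius-stable level

Second-opinion hedge (helper10) of the `hdich` binder of `OrdGlue1.exists_twoPoint_data` /
`OrdInst2.ord_inst2_of_facts`, in its LITERAL shape (`π₀ := algebraMap W[X] BM (C π)`, local ring
`Localization.AtPrime ν'`), from `FrobLevel.finite_dich_frob` and `NodeBranch.algebraMap_poly`.
-/

set_option autoImplicit false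
set_option linter.unusedSectionVars false

noncomputable section

namespace Fermat.Agent.S36.OrdDich2

open Polynomial ModularCurve AlgebraicCurve Fermat.Agent.S18 Fermat.Agent.S18.Gauss
  Fermat.Agent.S24 Fermat.Agent.S37 IsLocalRing

local notation "Qb" => AlgebraicClosure ℚ

/-- **`hdich`**: every maximal ideal `ν' ∋ π` of the chart of level `M q` is a smooth point
(`𝔪 = (π, u)`) or a node (`𝔪 = (π, X, Y)`, `π ∣ X Y`), in the local ring
`Localization.AtPrime ν'`; `π` spelled through `BM` as in `OrdInst2.ord_inst2_of_facts`. -/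
theorem hdich (A : ValuationSubring Qb) {L : Type} [Field L] [Algebra ℚ L] (ι : L →+* Qb)
    (M q : ℕ) [NeZero M] [NeZero q] (hq : q.Prime) (hqM : ¬ q ∣ M) (S : Finset Qb)
    (hlev : LevelChange.IsLevel A q S ι) (hstab : FrobLevel.FrobStable A q ι)
    (π : ↥(A.comap ι)) (hπ : Irreducible π)
    [Algebra (↥(A.comap ι))[X] (FF L M)]
    (halgM : algebraMap (↥(A.comap ι))[X] (FF L M) = evF (A.comap ι) M)
    (BM : Type*) [CommRing BM] [Algebra (↥(A.comap ι))[X] BM] [Algebra BM (FF L M)]
    [IsScalarTower (↥(A.comap ι))[X] BM (FF L M)]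
    [Algebra (↥(A.comap ι))[X] (FF L (M * q))]
    (halg : algebraMap (↥(A.comap ι))[X] (FF L (M * q)) = evF (A.comap ι) (M * q))
    (B₁ : Type*) [CommRing B₁] [Algebra (↥(A.comap ι))[X] B₁] [Algebra B₁ (FF L (M * q))]
    [IsScalarTower (↥(A.comap ι))[X] B₁ (FF L (M * q))]
    [IsIntegralClosure B₁ (↥(A.comap ι))[X] (FF L (M * q))]
    [Algebra BM B₁]
    (hα : ∀ c : BM, algebraMap B₁ (FF L (M * q)) (algebraMap BM B₁ c) =
      heckeAlphaBar L M q (algebraMap BM (FF L M) c)) :
    ∀ (ν' : Ideal B₁) [ν'.IsMaximal],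
      algebraMap BM B₁ (algebraMap (↥(A.comap ι))[X] BM (C π)) ∈ ν' →
      (∃ u ∈ ν', maximalIdeal (Localization.AtPrime ν') =
        Ideal.span {algebraMap B₁ (Localization.AtPrime ν')
            (algebraMap BM B₁ (algebraMap (↥(A.comap ι))[X] BM (C π))),
          algebraMap B₁ (Localization.AtPrime ν') u}) ∨
      (∃ X ∈ ν', ∃ Y ∈ ν',
        algebraMap BM B₁ (algebraMap (↥(A.comap ι))[X] BM (C π)) ∣ X * Y ∧
        maximalIdeal (Localization.AtPrime ν') =
          Ideal.span {algebraMap B₁ (Localization.AtPrime ν')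
              (algebraMap BM B₁ (algebraMap (↥(A.comap ι))[X] BM (C π))),
            algebraMap B₁ (Localization.AtPrime ν') X,
            algebraMap B₁ (Localization.AtPrime ν') Y}) := by
  intro ν' _ hπν'
  rw [NodeBranch.algebraMap_poly (A.comap ι) M q halgM BM halg B₁ hα] at hπν' ⊢
  exact FrobLevel.finite_dich_frob A ι M q hq hqM S hlev hstab π hπ halg B₁ ν' hπν'
    (Localization.AtPrime ν')

end Fermat.Agent.S36.OrdDich2
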