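import Mathlib
import Fermat.Agent.S36.EulerDvd

/-!
# S36 (R-ord): Euler divisibility at the chart, with a denominator

`A` an integrally closed domain with fraction field `K`, `L / K` finite separable, `B ⊆ L` a
domain over `A` with fraction field `L`.  If `X ∈ B` generates `B` over `A` up to the denominator
`s ∈ A` (`s • b ∈ A[X]` for all `b ∈ B` — the output of `MonoFibre.exists_generator`), then

* `K(X) = L` and `minpoly A X` has degree `[L : K]`;
* for every integral `θ ∈ B` with `K(θ) = L`:  `P_X'(X) ∣ s * f_θ'(θ)` in `B`.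

(`s • A[θ] ⊆ A[X]` gives `A[X]^∨ ⊆ s⁻¹ A[θ]^∨` for the trace duals, which are `P_X'(X)⁻¹ A[X]`
and `f_θ'(θ)⁻¹ A[θ]`.)  No semilocal ring is needed.
-/

set_option autoImplicit false
set_option linter.unusedSectionVars false

namespace Fermat.Agent.S36.OrdEulerDen

open Polynomial Algebra IntermediateField

section Field

variable {A K L : Type*} [CommRing A] [IsDomain A] [IsIntegrallyClosed A]
  [Field K] [Field L] [Algebra A K] [IsFractionRing A K] [Algebra K L] [Algebra A L]
  [IsScalarTower A K L] [FiniteDimensional K L] [Algebra.IsSeparable K L]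

/-- Field form: if `s • A[θ] ⊆ A[x]` and both `x`, `θ` generate `L` over `K`, then
`s • f_θ'(θ) = P_x'(x) * c` with `c ∈ A[θ]`. -/
theorem euler_dvd_field_smul (x θ : L) (hx : Algebra.adjoin K {x} = ⊤)
    (hθ : Algebra.adjoin K {θ} = ⊤) (hxint : IsIntegral A x) (hθint : IsIntegral A θ) (s : A)
    (hs : ∀ y ∈ Algebra.adjoin A {θ}, s • y ∈ Algebra.adjoin A {x}) :
    ∃ c ∈ Algebra.adjoin A {θ},
      s • aeval θ (derivative (minpoly K θ)) = aeval x (derivative (minpoly K x)) * c := by
  set Dx : L := aeval x (derivative (minpoly K x)) with hDx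
  set Dθ : L := aeval θ (derivative (minpoly K θ)) with hDθ
  have hDx0 : Dx ≠ 0 := EulerDvd.aeval_derivative_minpoly_ne_zero x
  have hDθ0 : Dθ ≠ 0 := EulerDvd.aeval_derivative_minpoly_ne_zero θ
  have hdualx := traceForm_dualSubmodule_adjoin A K hx hxint
  have hdualθ := traceForm_dualSubmodule_adjoin A K hθ hθint
  have h1 : Dx⁻¹ ∈ (Algebra.traceForm K L).dualSubmodule
      (Subalgebra.toSubmodule (Algebra.adjoin A {x})) := by
    rw [hdualx, Submodule.mem_smul_pointwise_iff_exists]
    exact ⟨1, (Algebra.adjoin A {x}).one_mem, by rw [smul_eq_mul, mul_one]⟩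
  have h2 : s • Dx⁻¹ ∈ (Algebra.traceForm K L).dualSubmodule
      (Subalgebra.toSubmodule (Algebra.adjoin A {θ})) := by
    rw [LinearMap.BilinForm.mem_dualSubmodule] at h1 ⊢
    intro y hy
    have h3 := h1 (s • y) (hs y hy)
    have e : (Algebra.traceForm K L) (s • Dx⁻¹) y = (Algebra.traceForm K L) Dx⁻¹ (s • y) := by
      rw [Algebra.traceForm_apply, Algebra.traceForm_apply, smul_mul_assoc, mul_smul_comm]
    rw [e]
    exact h3
  rw [hdualθ, Submodule.mem_smul_pointwise_iff_exists] at h2
  obtain ⟨c, hc, hceq⟩ := h2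
  refine ⟨c, hc, ?_⟩
  rw [smul_eq_mul] at hceq
  -- `Dθ⁻¹ * c = s • Dx⁻¹`
  have hc' : c = Dθ * (s • Dx⁻¹) := (inv_mul_eq_iff_eq_mul₀ hDθ0).mp hceq
  rw [hc', mul_smul_comm, mul_smul_comm, mul_comm Dθ, ← mul_assoc, mul_inv_cancel₀ hDx0, one_mul]

end Field

section Ring

variable {A B K L : Type*} [CommRing A] [IsDomain A] [IsIntegrallyClosed A]
  [CommRing B] [IsDomain B] [Algebra A B]
  [Field K] [Field L] [Algebra A K] [IsFractionRing A K]
  [Algebra B L] [IsFractionRing B L] [Algebra K L] [Algebra A L]
  [IsScalarTower A K L] [IsScalarTower A B L]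
  [FiniteDimensional K L] [Algebra.IsSeparable K L]

/-- If `s • B ⊆ A[X]` with `s ≠ 0`, then `L = K(x)`. -/
theorem adjoin_field_eq_top_of_smul (X : B) (s : A) (hs0 : s ≠ 0)
    (hs : ∀ b : B, s • b ∈ Algebra.adjoin A {X}) :
    Algebra.adjoin K {algebraMap B L X} = ⊤ := by
  set x : L := algebraMap B L X with hx
  have hxint : IsIntegral K x := Algebra.IsIntegral.isIntegral x
  rw [← IntermediateField.adjoin_simple_toSubalgebra_of_isAlgebraic hxint.isAlgebraic,
    _root_.eq_top_iff]
  intro l _
  obtain ⟨b, t, ht, rfl⟩ := IsFractionRing.div_surjective (A := B) l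
  have hsK : algebraMap A K s ≠ 0 := by
    intro h0
    exact hs0 (IsFractionRing.injective A K (by rw [h0, map_zero]))
  have hmem : ∀ b : B, algebraMap B L b ∈ K⟮x⟯ := by
    intro b
    have hb : algebraMap B L (s • b) ∈ Algebra.adjoin A {x} :=
      EulerDvd.algebraMap_mem_adjoin X (s • b) (hs b)
    have hle : Algebra.adjoin A {x} ≤ (K⟮x⟯.toSubalgebra).restrictScalars A := by
      refine Algebra.adjoin_le ?_
      rw [Set.singleton_subset_iff]
      exact IntermediateField.mem_adjoin_simple_self K x
    have h1 : algebraMap B L (s • b) ∈ K⟮x⟯ := hle hb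
    have h2 : algebraMap B L (s • b) = algebraMap K L (algebraMap A K s) * algebraMap B L b := by
      rw [Algebra.smul_def, map_mul, ← IsScalarTower.algebraMap_apply A B L,
        IsScalarTower.algebraMap_apply A K L]
    rw [h2] at h1
    have h3 : algebraMap K L (algebraMap A K s) ∈ K⟮x⟯ := K⟮x⟯.algebraMap_mem _
    have h4 : algebraMap K L (algebraMap A K s) ≠ 0 := by
      intro h0
      exact hsK ((algebraMap K L).injective (by rw [h0, map_zero]))
    have h5 := K⟮x⟯.mul_mem (K⟮x⟯.inv_mem h3) h1
    rwa [← mul_assoc, inv_mul_cancel₀ h4, one_mul] at h5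
  rw [IntermediateField.mem_toSubalgebra]
  exact K⟮x⟯.div_mem (hmem b) (hmem t)

/-- The degree of the minimal polynomial of a local generator. -/
theorem natDegree_minpoly_of_smul (X : B) (hXint : IsIntegral A X) (s : A) (hs0 : s ≠ 0)
    (hs : ∀ b : B, s • b ∈ Algebra.adjoin A {X}) :
    (minpoly A X).natDegree = Module.finrank K L := by
  have hx : Algebra.adjoin K {algebraMap B L X} = ⊤ :=
    adjoin_field_eq_top_of_smul X s hs0 hs
  set x : L := algebraMap B L X with hxdef
  have hxint : IsIntegral K x := Algebra.IsIntegral.isIntegral x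
  have hfr : minpoly K x = (minpoly A X).map (algebraMap A K) :=
    minpoly.isIntegrallyClosed_eq_field_fractions K L hXint
  have hdegK : (minpoly K x).natDegree = Module.finrank K L := by
    have h1 := (Algebra.adjoin.powerBasis' hxint).finrank
    rw [Algebra.adjoin.powerBasis'_dim] at h1
    rw [← h1, hx]
    exact (Subalgebra.topEquiv (R := K) (A := L)).toLinearEquiv.finrank_eq
  rw [← hdegK, hfr, (minpoly.monic hXint).natDegree_map]

/-- **Euler divisibility at the chart** (minimal polynomials). -/
theorem euler_dvd_smul (X θ : B) (hXint : IsIntegral A X) (hθint : IsIntegral A θ)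
    (hθ : Algebra.adjoin K {algebraMap B L θ} = ⊤) (s : A) (hs0 : s ≠ 0)
    (hs : ∀ b : B, s • b ∈ Algebra.adjoin A {X}) :
    aeval X (derivative (minpoly A X)) ∣ algebraMap A B s * aeval θ (derivative (minpoly A θ)) := by
  set x : L := algebraMap B L X with hxdef
  set t : L := algebraMap B L θ with htdef
  have hinj : Function.Injective (algebraMap B L) := IsFractionRing.injective B L
  have hx : Algebra.adjoin K {x} = ⊤ := adjoin_field_eq_top_of_smul X s hs0 hs
  have hxint : IsIntegral A x := hXint.map (IsScalarTower.toAlgHom A B L)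
  have htint : IsIntegral A t := hθint.map (IsScalarTower.toAlgHom A B L)
  have hst : ∀ y ∈ Algebra.adjoin A {t}, s • y ∈ Algebra.adjoin A {x} := by
    intro y hy
    obtain ⟨y', rfl⟩ := EulerDvd.exists_algebraMap_eq_of_mem_adjoin θ y hy
    have h1 : s • algebraMap B L y' = algebraMap B L (s • y') := by
      rw [Algebra.smul_def, Algebra.smul_def, map_mul, ← IsScalarTower.algebraMap_apply A B L]
    rw [h1]
    exact EulerDvd.algebraMap_mem_adjoin X (s • y') (hs y')
  obtain ⟨c, hc, hceq⟩ := euler_dvd_field_smul (A := A) (K := K) x t hx hθ hxint htint s hst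
  obtain ⟨c', rfl⟩ := EulerDvd.exists_algebraMap_eq_of_mem_adjoin θ c hc
  have hfrx : minpoly K x = (minpoly A X).map (algebraMap A K) :=
    minpoly.isIntegrallyClosed_eq_field_fractions K L hXint
  have hfrt : minpoly K t = (minpoly A θ).map (algebraMap A K) :=
    minpoly.isIntegrallyClosed_eq_field_fractions K L hθint
  have e1 : aeval x (derivative (minpoly K x)) =
      algebraMap B L (aeval X (derivative (minpoly A X))) := by
    rw [hfrx, derivative_map, aeval_map_algebraMap, hxdef, aeval_algebraMap_apply]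
  have e2 : aeval t (derivative (minpoly K t)) =
      algebraMap B L (aeval θ (derivative (minpoly A θ))) := by
    rw [hfrt, derivative_map, aeval_map_algebraMap, htdef, aeval_algebraMap_apply]
  rw [e1, e2, ← map_mul, Algebra.smul_def, IsScalarTower.algebraMap_apply A B L, ← map_mul]
    at hceq
  exact ⟨c', hinj hceq⟩

/-- **Euler divisibility at the chart**, the polynomial of `θ` given explicitly (monic, of degree
`[L : K]`, vanishing at `θ`). -/
theorem euler_dvd_smul_of_monic (X θ : B) (hXint : IsIntegral A X)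
    (f : A[X]) (hf : f.Monic) (hfθ : aeval θ f = 0) (hfdeg : f.natDegree = Module.finrank K L)
    (hθ : Algebra.adjoin K {algebraMap B L θ} = ⊤) (s : A) (hs0 : s ≠ 0)
    (hs : ∀ b : B, s • b ∈ Algebra.adjoin A {X}) :
    aeval X (derivative (minpoly A X)) ∣ algebraMap A B s * aeval θ (derivative f) := by
  have h2 : minpoly A θ = f := EulerDvd.minpoly_eq_of_natDegree θ hθ f hf hfθ hfdeg
  have := euler_dvd_smul (K := K) (L := L) X θ hXint ⟨f, hf, hfθ⟩ hθ s hs0 hs
  rwa [h2] at this

end Ring

end Fermat.Agent.S36.OrdEulerDen
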