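import Mathlib
import Fermat.Agent.S36.NodeOverInst
import Fermat.Agent.S36.NodeBranch
import Fermat.Agent.S36.FrobLevel

/-!
# S36 (R-ord), (J3): chart-level modular facts at level `M q` (the `𝔭`-facts)

`BM`, `B` carriers of the finite charts of levels `M`, `M q` over a DVR level `W`
(`X ↦ j`), `BM → B` inducing `α = heckeAlphaBar`, `w` an Atkin–Lehner automorphism,
`𝔭₁ = NodeBranch.branch₁`, `𝔭₂ = NodeBranch.branch₂` the two branches of the special fibre
of `B`, `π₀ = algebraMap W[X] BM (C π)`.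

* `HasMaps` : the package of reduction maps `s₁, s₂ : B → E`, `p₂ : BM → E` onto the special
  fibre `E = BM ⧸ (π₀)` of level `M` (a one-dimensional non-field domain) with kernels `𝔭₁`, `𝔭₂`,
  `s₁ ∘ α = mk`, `s₂ ∘ α = p₂ ^ q`, and the Kronecker lifts;
* `hasMaps_chart` (raw inputs), `hasMaps_level` (Frobenius-stable level `W = A.comap ι`);
* the hypotheses of `OrdGlue2.exists_ord_data` / `OrdInst2.ord_inst2_of_facts` in their literal
  shapes (`B₀ := BM`, `𝔭ᵢ := NodeBranch.branchᵢ`): `hπ₁`, `hπ₂`, `hS1`, `hne`, `huniq₂`, `h𝔭₁`,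
  `hK` (from `h : HasMaps …`) and `hdich` (Frobenius-stable level);
* underlying facts: `dvd_of_mem_branch₁`, `dvd_of_mem_branch₂` (`α c ∈ 𝔭ᵢ → π₀ ∣ c`),
  `le_of_comap_le₁/₂`, `eq_of_comap_eq₁/₂` (ideals over `𝔭ᵢ` are determined by their contraction
  to `BM`), `exists_sub_mem_branch₁` (`∀ b, ∃ c, b - α c ∈ 𝔭₁`), `exists_pow_sub_mem_branch₂`
  (`∀ b, ∃ c, b ^ q - α c ∈ 𝔭₂`), `exists_pow_sub_mem` (`∀ c, ∃ b, α c - b ^ q ∈ 𝔭₂`),
  `not_le_branch₁/₂` (the branches are not maximal), `comap_branch₂_le`, `branch_le_or`.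

(The facts not mentioning the branches — finiteness, residue fields, `hdeg` — are in
`OrdFacts0`.)
-/

set_option autoImplicit false
set_option linter.unusedSectionVars false
set_option linter.style.haveILetI false

noncomputable section

namespace Fermat.Agent.S36.OrdFacts1

open Polynomial ModularCurve Fermat.Agent.S18 Fermat.Agent.S18.Gauss Fermat.Agent.S37
  IsLocalRing Fermat.Agent.S34 Fermat.Agent.S36

local notation "Qb" => AlgebraicClosure ℚ
local notation "FF" => Fermat.Agent.S24.FF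

/-! ### Abstract lemmas (Mathlib only) -/

section Abs

variable {BM B E : Type*} [CommRing BM] [CommRing B] [CommRing E] [IsDomain E] [Algebra BM B]
  (p p₂ : BM →+* E) (s₁ s₂ : B →+* E) (π₀ : BM) (q : ℕ)

/-- two surjections of `BM` onto a one-dimensional non-field domain with comparable kernels have
the same kernel -/
theorem abs_ker_le (hdim : ∀ I : Ideal E, I.IsPrime → I ≠ ⊥ → I.IsMaximal) (hE : ¬ IsField E)
    (hp : Function.Surjective p) (hp₂ : Function.Surjective p₂)
    (hle : RingHom.ker p ≤ RingHom.ker p₂) : RingHom.ker p₂ ≤ RingHom.ker p := by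
  by_contra hne
  obtain ⟨c, hc2, hc1⟩ := Set.not_subset.mp hne
  haveI : (RingHom.ker p₂).IsPrime := RingHom.ker_isPrime p₂
  have hprime : (Ideal.map p (RingHom.ker p₂)).IsPrime :=
    Ideal.map_isPrime_of_surjective hp hle
  have hne0 : Ideal.map p (RingHom.ker p₂) ≠ ⊥ := by
    intro h0
    have h1 : p c ∈ Ideal.map p (RingHom.ker p₂) := Ideal.mem_map_of_mem p hc2
    rw [h0, Ideal.mem_bot] at h1
    exact hc1 (RingHom.mem_ker.mpr h1)
  have hmax := hdim _ hprime hne0
  have hcomap : Ideal.comap p (Ideal.map p (RingHom.ker p₂)) = RingHom.ker p₂ := by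
    rw [Ideal.comap_map_of_surjective p hp]
    exact sup_eq_left.mpr (by rw [← RingHom.ker_eq_comap_bot]; exact hle)
  have hmax2 : (RingHom.ker p₂).IsMaximal := by
    rw [← hcomap]
    exact Ideal.comap_isMaximal_of_surjective p hp (K := Ideal.map p (RingHom.ker p₂))
  have hf : IsField (BM ⧸ RingHom.ker p₂) :=
    (Ideal.Quotient.maximal_ideal_iff_isField_quotient _).mp hmax2
  exact hE ((RingHom.quotientKerEquivOfSurjective hp₂).symm.toMulEquiv.isField hf)

/-- (F3), second branch, abstractly -/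
theorem abs_dvd₂ (hdim : ∀ I : Ideal E, I.IsPrime → I ≠ ⊥ → I.IsMaximal) (hE : ¬ IsField E)
    (hp : Function.Surjective p) (hp₂ : Function.Surjective p₂)
    (hpker : ∀ c : BM, p c = 0 → π₀ ∣ c) (hp₂π : p₂ π₀ = 0)
    (h₂ : ∀ c : BM, s₂ (algebraMap BM B c) = p₂ c ^ q) (c : BM)
    (hc : s₂ (algebraMap BM B c) = 0) : π₀ ∣ c := by
  have h0 : p₂ c = 0 := by
    rw [h₂] at hc
    by_cases hq0 : q = 0
    · subst hq0
      rw [pow_zero] at hc
      exact absurd hc one_ne_zero
    · exact (pow_eq_zero_iff hq0).mp hc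
  have hle : RingHom.ker p ≤ RingHom.ker p₂ := by
    intro x hx
    obtain ⟨y, rfl⟩ := hpker x (RingHom.mem_ker.mp hx)
    rw [RingHom.mem_ker, map_mul, hp₂π, zero_mul]
  exact hpker c (RingHom.mem_ker.mp (abs_ker_le p p₂ hdim hE hp hp₂ hle (RingHom.mem_ker.mpr h0)))

/-- (F4), first branch, abstractly -/
theorem abs_le_of_comap_le₁ (hp : Function.Surjective p)
    (h₁ : ∀ c : BM, s₁ (algebraMap BM B c) = p c) (Q Q' : Ideal B)
    (hQ : RingHom.ker s₁ ≤ Q) (hQ' : RingHom.ker s₁ ≤ Q')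
    (hc : Q.comap (algebraMap BM B) ≤ Q'.comap (algebraMap BM B)) : Q ≤ Q' := by
  intro b hb
  obtain ⟨c, hc'⟩ := hp (s₁ b)
  have hk : b - algebraMap BM B c ∈ RingHom.ker s₁ := by
    rw [RingHom.mem_ker, map_sub, h₁, hc', sub_self]
  have h1 : algebraMap BM B c ∈ Q := by
    have := Q.sub_mem hb (hQ hk)
    rwa [sub_sub_cancel] at this
  have h2 : algebraMap BM B c ∈ Q' := hc h1
  have := Q'.add_mem (hQ' hk) h2
  rwa [sub_add_cancel] at this

/-- (F4), second branch, abstractly -/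
theorem abs_le_of_comap_le₂ (hq0 : q ≠ 0) (hp₂ : Function.Surjective p₂)
    (h₂ : ∀ c : BM, s₂ (algebraMap BM B c) = p₂ c ^ q) (Q Q' : Ideal B) [Q'.IsPrime]
    (hQ : RingHom.ker s₂ ≤ Q) (hQ' : RingHom.ker s₂ ≤ Q')
    (hc : Q.comap (algebraMap BM B) ≤ Q'.comap (algebraMap BM B)) : Q ≤ Q' := by
  intro b hb
  obtain ⟨c, hc'⟩ := hp₂ (s₂ b)
  have hk : b ^ q - algebraMap BM B c ∈ RingHom.ker s₂ := by
    rw [RingHom.mem_ker, map_sub, h₂, hc', map_pow, sub_self]
  have h1 : algebraMap BM B c ∈ Q := by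
    have := Q.sub_mem (Q.pow_mem_of_mem hb q (Nat.pos_of_ne_zero hq0)) (hQ hk)
    rwa [sub_sub_cancel] at this
  have h2 : algebraMap BM B c ∈ Q' := hc h1
  have h3 : b ^ q ∈ Q' := by
    have := Q'.add_mem (hQ' hk) h2
    rwa [sub_add_cancel] at this
  exact Ideal.IsPrime.mem_of_pow_mem inferInstance q h3

/-- (F8), abstractly: the kernel of a surjection onto a non-field contains no maximal ideal -/
theorem abs_not_le (hE : ¬ IsField E) (s : B →+* E) (hs : Function.Surjective s)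
    (ν : Ideal B) [hν : ν.IsMaximal] : ¬ ν ≤ RingHom.ker s := by
  intro hle
  have heq : ν = RingHom.ker s := hν.eq_of_le (RingHom.ker_ne_top s) hle
  have hf : IsField (B ⧸ RingHom.ker s) :=
    (Ideal.Quotient.maximal_ideal_iff_isField_quotient _).mp (heq ▸ hν)
  exact hE ((RingHom.quotientKerEquivOfSurjective hs).symm.toMulEquiv.isField hf)

end Abs


/-! ### The package of reduction maps -/

section Chart

variable {L : Type} [Field L] [Algebra ℚ L] (W : ValuationSubring L)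
  [IsDiscreteValuationRing ↥W] (M q : ℕ) [NeZero M] [NeZero q] (π : ↥W)
  [Algebra (↥W)[X] (FF L M)] (halgM : algebraMap (↥W)[X] (FF L M) = evF W M)
  (BM : Type) [CommRing BM] [Algebra (↥W)[X] BM] [Algebra BM (FF L M)]
  [IsScalarTower (↥W)[X] BM (FF L M)] [IsIntegralClosure BM (↥W)[X] (FF L M)]
  [Algebra (↥W)[X] (FF L (M * q))] (halg : algebraMap (↥W)[X] (FF L (M * q)) = evF W (M * q))
  (B : Type*) [CommRing B] [Algebra (↥W)[X] B] [Algebra B (FF L (M * q))]
  [IsScalarTower (↥W)[X] B (FF L (M * q))] [IsIntegralClosure B (↥W)[X] (FF L (M * q))]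
  [Algebra BM B]
  (hq : q.Prime) (w : FF L (M * q) ≃ₐ[L] FF L (M * q))
  (hwα : (w : FF L (M * q) →ₐ[L] FF L (M * q)).comp (heckeAlphaBar L M q) = heckeBetaBar L M q)

/-- **The package of reduction maps** of the finite charts of levels `M`, `M q`: the special
fibre `E = BM ⧸ (π)` of level `M` is a one-dimensional domain, not a field; `s₁, s₂ : B → E`
have kernels the two branches; `s₁ ∘ α = mk`, `s₂ ∘ α = p₂ ^ q` with `p₂ : BM → E` onto;
Kronecker lifts. -/
def HasMaps : Prop :=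
  (Ideal.span {algebraMap (↥W)[X] BM (C π)}).IsPrime ∧
  ¬ IsField (BM ⧸ Ideal.span {algebraMap (↥W)[X] BM (C π)}) ∧
  (∀ I : Ideal (BM ⧸ Ideal.span {algebraMap (↥W)[X] BM (C π)}),
    I.IsPrime → I ≠ ⊥ → I.IsMaximal) ∧
  ∃ (p₂ : BM →+* BM ⧸ Ideal.span {algebraMap (↥W)[X] BM (C π)})
    (s₁ s₂ : B →+* BM ⧸ Ideal.span {algebraMap (↥W)[X] BM (C π)}),
    Function.Surjective p₂ ∧
    (∀ b : B, s₁ b = 0 ↔ b ∈ NodeBranch.branch₁ W M q halg B) ∧
    (∀ b : B, s₂ b = 0 ↔ b ∈ NodeBranch.branch₂ W M q halg B hq w hwα) ∧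
    (∀ c : BM, s₁ (algebraMap BM B c) =
      Ideal.Quotient.mk (Ideal.span {algebraMap (↥W)[X] BM (C π)}) c) ∧
    (∀ c : BM, s₂ (algebraMap BM B c) = p₂ c ^ q) ∧
    (∀ e : BM ⧸ Ideal.span {algebraMap (↥W)[X] BM (C π)},
      ∃ b : B, s₂ b = e ∧ ∃ e', s₁ b = e' ^ q)

set_option maxHeartbeats 1600000 in
include halgM in
/-- **`HasMaps` from raw inputs** (the inputs of `NodeOverInst.node_mono_chart`, minus (S1),
(F1) and the integrality of `q`-expansions, which hold at every DVR level). -/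
theorem hasMaps_chart (ι : L →+* Qb) [IsAlgClosed (IsLocalRing.ResidueField ↥W)]
    [CharP (IsLocalRing.ResidueField ↥W) q] (hqM : ¬ q ∣ M)
    (hroots : ∀ x : Qb, (∃ n : ℕ, ¬ q ∣ n ∧ x ^ n = 1) → ∃ b : L, ι b = x)
    (hπ : Irreducible π)
    (hwβ : (w : FF L (M * q) →ₐ[L] FF L (M * q)).comp (heckeBetaBar L M q) =
      heckeAlphaBar L M q)
    (ς : FF L M →+* FF L M)
    (hςint : ∀ y : FF L M, (evF W M).IsIntegralElem y → (evF W M).IsIntegralElem (ς y))
    (hςsurj : ∀ y : FF L M, (evF W M).IsIntegralElem y →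
      ∃ y' : FF L M, (evF W M).IsIntegralElem y' ∧ ς y' = y)
    (hςK : ∀ b : FF L M, (evF W M).IsIntegralElem b →
      ∀ (h1 : ((heckeBetaBar L M q b : FF L (M * q)) : LaurentSeries L) ∈ contentRing W)
        (h2 : ((ς b : FF L M) : LaurentSeries L) ∈ contentRing W),
        red W ⟨_, h1⟩ = red W ⟨_, h2⟩ ^ q)
    (hα : ∀ c : BM, algebraMap B (FF L (M * q)) (algebraMap BM B c) =
      heckeAlphaBar L M q (algebraMap BM (FF L M) c)) :
    HasMaps W M q π BM halg B hq w hwα := by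
  have hInt : ∀ x : FF L (M * q), (evF W (M * q)).IsIntegralElem x →
      (x : LaurentSeries L) ∈ contentRing W := fun x hx =>
    FrobPartner.mem_contentRing_of_int W (M * q) hx
  have hF1 : ∀ (x : FF L (M * q)) (hx : (x : LaurentSeries L) ∈ contentRing W),
      red W ⟨x, hx⟩ ∈ modularFunctionFieldFullC (IsLocalRing.ResidueField ↥W) M := fun x hx =>
    FinDichLevel.f1_level ι W M q hq hqM x hx
  classical
  haveI : Fact q.Prime := ⟨hq⟩
  have hBinj : Function.Injective (algebraMap B (FF L (M * q))) :=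
    IsIntegralClosure.algebraMap_injective B (↥W)[X] (FF L (M * q))
  haveI : IsDomain B := hBinj.isDomain _
  have hBint := CompInst.isIntegralElem_algebraMap W (M * q) halg B
  have hBMint := CompInst.isIntegralElem_algebraMap W M halgM BM
  have hwInt : ∀ x : FF L (M * q), (evF W (M * q)).IsIntegralElem x →
      (evF W (M * q)).IsIntegralElem (w x) := fun x hx =>
    CompInst.isIntegralElem_atkin W M q hq w hwα hx
  have hwα' : ∀ y, w (heckeAlphaBar L M q y) = heckeBetaBar L M q y := fun y =>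
    congrArg (fun f => f y) hwα
  have hwβ' : ∀ y, w (heckeBetaBar L M q y) = heckeAlphaBar L M q y := fun y =>
    congrArg (fun f => f y) hwβ
  -- the two reduction maps of `B`
  have hmem₁ : ∀ b : B, ((algebraMap (FF L (M * q)) (LaurentSeries L)).comp
      (algebraMap B (FF L (M * q)))) b ∈ contentRing W := fun b =>
    hInt _ (hBint b)
  have hmem₂ : ∀ b : B, ((algebraMap (FF L (M * q)) (LaurentSeries L)).comp
      ((w : FF L (M * q) →ₐ[L] FF L (M * q)).toRingHom.comp
      (algebraMap B (FF L (M * q))))) b ∈ contentRing W := fun b =>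
    hInt _ (hwInt _ (hBint b))
  let r₁ : B →+* LaurentSeries (IsLocalRing.ResidueField ↥W) :=
    (red W).comp (((algebraMap (FF L (M * q)) (LaurentSeries L)).comp
      (algebraMap B (FF L (M * q)))).codRestrict (contentRing W) hmem₁)
  let r₂ : B →+* LaurentSeries (IsLocalRing.ResidueField ↥W) :=
    (red W).comp (((algebraMap (FF L (M * q)) (LaurentSeries L)).comp
      ((w : FF L (M * q) →ₐ[L] FF L (M * q)).toRingHom.comp
      (algebraMap B (FF L (M * q))))).codRestrict (contentRing W) hmem₂)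
  have hr₁def : ∀ (b : B) (h : ((algebraMap B (FF L (M * q)) b :
      FF L (M * q)) : LaurentSeries L) ∈ contentRing W),
      r₁ b = red W ⟨_, h⟩ := fun b h => rfl
  have hr₂def : ∀ (b : B) (h : ((w (algebraMap B (FF L (M * q)) b) :
      FF L (M * q)) : LaurentSeries L) ∈ contentRing W),
      r₂ b = red W ⟨_, h⟩ := fun b h => rfl
  -- the special fibre of the finite chart of level `M`
  haveI : IsDedekindDomain (BM ⧸ Ideal.span {algebraMap (↥W)[X] BM (C π)}) :=
    ChartInstSplit.finite_chart_dedekind M hq hqM ι W hroots π hπ halgM BM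
  have hmemM : ∀ c : BM, ((algebraMap BM (FF L M) c :
      FF L M) : LaurentSeries L) ∈ contentRing W := fun c =>
    GaussRed.mem_contentRing_fin W M q BM hqM halgM c
  let ρM : BM →+* LaurentSeries (IsLocalRing.ResidueField ↥W) :=
    (red W).comp (((algebraMap (FF L M) (LaurentSeries L)).comp
      (algebraMap BM (FF L M))).codRestrict (contentRing W) hmemM)
  have hρM : ∀ (c : BM) (h : ((algebraMap BM (FF L M) c :
      FF L M) : LaurentSeries L) ∈ contentRing W),
      ρM c = red W ⟨_, h⟩ := fun c h => rfl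
  have hρπ : ∀ c : BM, ρM c = 0 ↔ algebraMap (↥W)[X] BM (C π) ∣ c :=
    fun c => (GaussRed.dvd_iff_red_fin W M q BM hqM hπ halgM c).symm
  let ε : (BM ⧸ Ideal.span {algebraMap (↥W)[X] BM (C π)}) →+*
      LaurentSeries (IsLocalRing.ResidueField ↥W) :=
    Ideal.Quotient.lift _ ρM (fun c hc => (hρπ c).mpr (Ideal.mem_span_singleton.mp hc))
  have hε : Function.Injective ε := by
    rw [injective_iff_map_eq_zero]
    intro c hc
    obtain ⟨c, rfl⟩ := Ideal.Quotient.mk_surjective c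
    rw [Ideal.Quotient.lift_mk] at hc
    exact Ideal.Quotient.eq_zero_iff_mem.mpr (Ideal.mem_span_singleton.mpr ((hρπ c).mp hc))
  have hεmk : ∀ (c : BM) (h : ((algebraMap BM (FF L M) c :
      FF L M) : LaurentSeries L) ∈ contentRing W),
      ε (Ideal.Quotient.mk _ c) = red W ⟨_, h⟩ := fun c h => rfl
  have hlift : ∀ (x : FF L (M * q)) (hx : (evF W (M * q)).IsIntegralElem x)
      (h : (x : LaurentSeries L) ∈ contentRing W),
      ∃ e, red W ⟨_, h⟩ = ε e := by
    intro x hx h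
    have hint := CompInst.redJ_isIntegralElem W (M * q) hx h
    obtain ⟨x', hx'I, hx'W, hx'⟩ :=
      BaseLift.exists_int_of_mem_fullC M ι W hq hqM hroots (hF1 x h) hint
    obtain ⟨c, rfl⟩ := CompInst.exists_algebraMap_eq W M halgM BM hx'I
    exact ⟨Ideal.Quotient.mk _ c, by rw [hεmk c hx'W, hx']⟩
  have red_congr : ∀ (f g : LaurentSeries L) (hf : f ∈ contentRing W) (hg : g ∈ contentRing W),
      f = g → red W ⟨f, hf⟩ = red W ⟨g, hg⟩ := by
    intro f g hf hg h
    subst h
    rfl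
  have hr₁ : ∀ b, ∃ e, r₁ b = ε e := fun b => hlift _ (hBint b) (hmem₁ b)
  have hr₂ : ∀ b, ∃ e, r₂ b = ε e := fun b => hlift _ (hwInt _ (hBint b)) (hmem₂ b)
  have hπF : algebraMap B (FF L (M * q)) (algebraMap (↥W)[X] B (C π)) =
      algebraMap L (FF L (M * q)) ((π : W) : L) := by
    rw [← IsScalarTower.algebraMap_apply, halg, evF_C]
  have hπ₁ : r₁ (algebraMap (↥W)[X] B (C π)) = 0 := by
    rw [hr₁def _ (hmem₁ _), ← red_C_unif W hπ]
    apply red_congr
    rw [hπF]
    exact GaussPrime.coe_unif π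
  have hπ₂ : r₂ (algebraMap (↥W)[X] B (C π)) = 0 := by
    rw [hr₂def _ (hmem₂ _), ← red_C_unif W hπ]
    apply red_congr
    rw [hπF, AlgEquiv.commutes]
    exact GaussPrime.coe_unif π
  -- `α` on polynomials
  have hαW : ∀ S : (↥W)[X], algebraMap BM B (algebraMap (↥W)[X] BM S) = algebraMap (↥W)[X] B S := by
    intro S
    apply hBinj
    rw [hα, ← IsScalarTower.algebraMap_apply (↥W)[X] BM (FF L M),
      ← IsScalarTower.algebraMap_apply (↥W)[X] B (FF L (M * q)), halgM, halg]
    apply Subtype.ext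
    rw [coe_heckeAlphaBar, coe_evF, coe_evF]
  haveI : IsScalarTower (↥W)[X] BM B := IsScalarTower.of_algebraMap_eq (fun S => (hαW S).symm)
  haveI : Module.Finite (↥W)[X] B := (GaussNoeth.noeth_fin W (M * q) halg B).2
  haveI : Module.Finite BM B := Module.Finite.of_restrictScalars_finite (↥W)[X] BM B
  -- the second reduction of level `M` (Kronecker)
  have hmemI : ∀ y : FF L M, (evF W M).IsIntegralElem y →
      (y : LaurentSeries L) ∈ contentRing W := by
    intro y hy
    obtain ⟨c, rfl⟩ := CompInst.exists_algebraMap_eq W M halgM BM hy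
    exact hmemM c
  have hmemς : ∀ c : BM, ((algebraMap (FF L M) (LaurentSeries L)).comp
      (ς.comp (algebraMap BM (FF L M)))) c ∈ contentRing W := fun c =>
    hmemI _ (hςint _ (hBMint c))
  let ρς : BM →+* LaurentSeries (IsLocalRing.ResidueField ↥W) :=
    (red W).comp (((algebraMap (FF L M) (LaurentSeries L)).comp
      (ς.comp (algebraMap BM (FF L M)))).codRestrict (contentRing W) hmemς)
  have hρςdef : ∀ (c : BM) (h : ((ς (algebraMap BM (FF L M) c) :
      FF L M) : LaurentSeries L) ∈ contentRing W),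
      ρς c = red W ⟨_, h⟩ := fun c h => rfl
  have hρς : ∀ c, ∃ e, ρς c = ε e := by
    intro c
    obtain ⟨c', hc'⟩ := CompInst.exists_algebraMap_eq W M halgM BM (hςint _ (hBMint c))
    refine ⟨Ideal.Quotient.mk _ c', ?_⟩
    rw [hεmk c' (hmemM c'), hρςdef c (hmemς c)]
    apply red_congr
    rw [hc']
  -- the four maps
  set s₁ := CompPts.factor r₁ ε hε hr₁ with hs₁def
  set s₂ := CompPts.factor r₂ ε hε hr₂ with hs₂def
  set p₂ := CompPts.factor ρς ε hε hρς with hp₂def
  have hp : Function.Surjective (Ideal.Quotient.mk (Ideal.span {algebraMap (↥W)[X] BM (C π)})) :=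
    Ideal.Quotient.mk_surjective
  have hpker : ∀ c : BM, Ideal.Quotient.mk (Ideal.span {algebraMap (↥W)[X] BM (C π)}) c = 0 →
      algebraMap (↥W)[X] BM (C π) ∣ c := fun c hc =>
    Ideal.mem_span_singleton.mp (Ideal.Quotient.eq_zero_iff_mem.mp hc)
  have hp₂ : Function.Surjective p₂ := by
    intro e
    obtain ⟨c, rfl⟩ := Ideal.Quotient.mk_surjective e
    obtain ⟨y', hy'I, hy'⟩ := hςsurj _ (hBMint c)
    obtain ⟨c', rfl⟩ := CompInst.exists_algebraMap_eq W M halgM BM hy'I
    refine ⟨c', ?_⟩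
    rw [hp₂def, CompPts.factor_eq_iff, hεmk c (hmemM c), hρςdef c' (hmemς c')]
    apply red_congr
    rw [hy']
  have h₁ : ∀ c : BM, s₁ (algebraMap BM B c) =
      Ideal.Quotient.mk (Ideal.span {algebraMap (↥W)[X] BM (C π)}) c := by
    intro c
    rw [hs₁def, CompPts.factor_eq_iff, hr₁def _ (hmem₁ _), hεmk c (hmemM c)]
    apply red_congr
    rw [hα, coe_heckeAlphaBar]
  have h₂ : ∀ c : BM, s₂ (algebraMap BM B c) = p₂ c ^ q := by
    intro c
    rw [hs₂def, CompPts.factor_eq_iff, map_pow, hp₂def, CompPts.factor_spec,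
      hr₂def _ (hmem₂ _), hρςdef c (hmemς c)]
    have h1 : ((heckeBetaBar L M q (algebraMap BM (FF L M) c) :
        FF L (M * q)) : LaurentSeries L) ∈ contentRing W := by
      have h := hmem₂ (algebraMap BM B c)
      rw [RingHom.comp_apply, RingHom.comp_apply, hα] at h
      have e : (w : FF L (M * q) →ₐ[L]
          FF L (M * q)).toRingHom
          (heckeAlphaBar L M q (algebraMap BM (FF L M) c)) =
          heckeBetaBar L M q (algebraMap BM (FF L M) c) := hwα' _
      rw [e] at h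
      exact h
    rw [← hςK _ (hBMint c) h1 (hmemς c)]
    apply red_congr
    rw [hα, hwα']
  have hB : ∀ e, ∃ b, s₂ b = e ∧ ∃ e', s₁ b = e' ^ q := by
    intro e
    obtain ⟨c, rfl⟩ := Ideal.Quotient.mk_surjective e
    have hyI : (evF W M).IsIntegralElem (algebraMap BM (FF L M) c) := hBMint c
    obtain ⟨b, hb⟩ := CompInst.exists_algebraMap_eq W (M * q) halg B
      (BetaInt.isIntegralElem_beta W M q hq hyI)
    refine ⟨b, ?_, p₂ c, ?_⟩
    · rw [hs₂def, CompPts.factor_eq_iff, hr₂def b (hmem₂ b), hεmk c (hmemM c)]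
      apply red_congr
      rw [hb, hwβ', coe_heckeAlphaBar]
    · rw [hs₁def, CompPts.factor_eq_iff, map_pow, hp₂def, CompPts.factor_spec,
        hr₁def b (hmem₁ b), hρςdef c (hmemς c)]
      have h1 : ((heckeBetaBar L M q (algebraMap BM (FF L M) c) :
          FF L (M * q)) : LaurentSeries L) ∈ contentRing W := by
        have h := hmem₁ b
        rw [RingHom.comp_apply, hb] at h
        exact h
      rw [← hςK _ hyI h1 (hmemς c)]
      apply red_congr
      rw [hb]
  -- the special fibre is not a field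
  have hE : ¬ IsField (BM ⧸ Ideal.span {algebraMap (↥W)[X] BM (C π)}) := by
    intro hf
    haveI : Algebra.IsIntegral (↥W)[X] BM :=
      IsIntegralClosure.isIntegral_algebra (↥W)[X] (FF L M)
    have hφ : ((Ideal.Quotient.mk (Ideal.span {algebraMap (↥W)[X] BM (C π)})).comp
        (algebraMap (↥W)[X] BM)).IsIntegral :=
      RingHom.IsIntegral.trans _ _ (algebraMap_isIntegral_iff.mpr inferInstance)
        (RingHom.isIntegral_of_surjective _ Ideal.Quotient.mk_surjective)
    have hεφ : ∀ S : (↥W)[X], ε ((Ideal.Quotient.mk (Ideal.span {algebraMap (↥W)[X] BM (C π)}))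
        (algebraMap (↥W)[X] BM S)) = redJ W S := by
      intro S
      rw [hεmk _ (hmemM _)]
      apply red_congr
      rw [← IsScalarTower.algebraMap_apply (↥W)[X] BM (FF L M), halgM, coe_evF]
    -- the class of `j` is nonzero
    have hj0 : (Ideal.Quotient.mk (Ideal.span {algebraMap (↥W)[X] BM (C π)}))
        (algebraMap (↥W)[X] BM X) ≠ 0 := by
      intro h0
      have h1 := hεφ X
      rw [h0, map_zero] at h1
      have h2 := (redJ_eq_zero_iff W X).mp h1.symm
      rw [Polynomial.map_X] at h2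
      exact X_ne_zero h2
    obtain ⟨e, he⟩ := hf.mul_inv_cancel hj0
    -- `e` is a polynomial in the class of `j`
    have hloc : IsLocalHom (RingHom.kerLift ((Ideal.Quotient.mk
        (Ideal.span {algebraMap (↥W)[X] BM (C π)})).comp (algebraMap (↥W)[X] BM))) :=
      RingHom.IsIntegral.isLocalHom
        (RingHom.IsIntegral.tower_top (Ideal.Quotient.mk _) _ (by
          have e1 : (RingHom.kerLift ((Ideal.Quotient.mk
              (Ideal.span {algebraMap (↥W)[X] BM (C π)})).comp (algebraMap (↥W)[X] BM))).comp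
              (Ideal.Quotient.mk _) = (Ideal.Quotient.mk
              (Ideal.span {algebraMap (↥W)[X] BM (C π)})).comp (algebraMap (↥W)[X] BM) := by
            ext x <;> rfl
          rw [e1]
          exact hφ))
        (RingHom.kerLift_injective _)
    have hu : IsUnit (Ideal.Quotient.mk (RingHom.ker ((Ideal.Quotient.mk
        (Ideal.span {algebraMap (↥W)[X] BM (C π)})).comp (algebraMap (↥W)[X] BM))) X) := by
      apply hloc.map_nonunit
      rw [RingHom.kerLift_mk]
      exact IsUnit.of_mul_eq_one _ he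
    obtain ⟨v, hv⟩ := hu.exists_right_inv
    obtain ⟨S, rfl⟩ := Ideal.Quotient.mk_surjective v
    rw [← map_mul, ← map_one (Ideal.Quotient.mk _), Ideal.Quotient.eq, RingHom.mem_ker] at hv
    have h3 := hεφ (X * S - 1)
    rw [RingHom.comp_apply] at hv
    rw [hv, map_zero] at h3
    have h4 := (redJ_eq_zero_iff W (X * S - 1)).mp h3.symm
    rw [Polynomial.map_sub, Polynomial.map_mul, Polynomial.map_X, Polynomial.map_one,
      sub_eq_zero] at h4
    exact Polynomial.not_isUnit_X (IsUnit.of_mul_eq_one _ h4)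
  have hprime : (Ideal.span {algebraMap (↥W)[X] BM (C π)}).IsPrime :=
    (Ideal.Quotient.isDomain_iff_prime _).mp inferInstance
  refine ⟨hprime, hE, fun I hI hI0 => hI.isMaximal hI0, p₂, s₁, s₂, hp₂, ?_, ?_, h₁, h₂, hB⟩
  · intro b
    have hm : ((algebraMap B (FF L (M * q)) b : FF L (M * q)) : LaurentSeries L) ∈
        contentRing W := hmem₁ b
    rw [NodeBranch.mem_branch₁, TwoGauss.rd_of_mem W hm, ← hr₁def b hm]
    exact CompPts.factor_eq_zero_iff r₁ ε hε hr₁ b
  · intro b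
    have hm : ((w (algebraMap B (FF L (M * q)) b) : FF L (M * q)) : LaurentSeries L) ∈
        contentRing W := hmem₂ b
    rw [NodeBranch.mem_branch₂, TwoGauss.rd_of_mem W hm, ← hr₂def b hm]
    exact CompPts.factor_eq_zero_iff r₂ ε hε hr₂ b

end Chart


/-! ### `HasMaps` at a Frobenius-stable level -/

section Level

variable (A : ValuationSubring Qb) {L : Type} [Field L] [Algebra ℚ L] (ι : L →+* Qb)
  (M q : ℕ) [NeZero M] [NeZero q]

/-- **`HasMaps` at a Frobenius-stable level** `W = A.comap ι` (the instance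
`IsDiscreteValuationRing ↥(A.comap ι)` is the one contained in `hlev`). -/
theorem hasMaps_level [IsDiscreteValuationRing ↥(A.comap ι)] (hq : q.Prime) (hqM : ¬ q ∣ M)
    (S : Finset Qb) (hlev : Fermat.Agent.S37.LevelChange.IsLevel A q S ι)
    (hstab : Fermat.Agent.S36.FrobLevel.FrobStable A q ι)
    (π : ↥(A.comap ι)) (hπ : Irreducible π)
    (w : FF L (M * q) ≃ₐ[L] FF L (M * q))
    (hwα : (w : FF L (M * q) →ₐ[L] FF L (M * q)).comp (heckeAlphaBar L M q) =
      heckeBetaBar L M q)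
    (hwβ : (w : FF L (M * q) →ₐ[L] FF L (M * q)).comp (heckeBetaBar L M q) =
      heckeAlphaBar L M q)
    [Algebra (↥(A.comap ι))[X] (FF L M)]
    (halgM : algebraMap (↥(A.comap ι))[X] (FF L M) = evF (A.comap ι) M)
    (BM : Type) [CommRing BM] [Algebra (↥(A.comap ι))[X] BM] [Algebra BM (FF L M)]
    [IsScalarTower (↥(A.comap ι))[X] BM (FF L M)]
    [IsIntegralClosure BM (↥(A.comap ι))[X] (FF L M)]
    [Algebra (↥(A.comap ι))[X] (FF L (M * q))]
    (halg : algebraMap (↥(A.comap ι))[X] (FF L (M * q)) = evF (A.comap ι) (M * q))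
    (B : Type*) [CommRing B] [Algebra (↥(A.comap ι))[X] B] [Algebra B (FF L (M * q))]
    [IsScalarTower (↥(A.comap ι))[X] B (FF L (M * q))]
    [IsIntegralClosure B (↥(A.comap ι))[X] (FF L (M * q))]
    [Algebra BM B]
    (hα : ∀ c : BM, algebraMap B (FF L (M * q)) (algebraMap BM B c) =
      heckeAlphaBar L M q (algebraMap BM (FF L M) c)) :
    HasMaps (A.comap ι) M q π BM halg B hq w hwα := by
  obtain ⟨-, hroots, -, halgc, -, hchar, -, -⟩ := hlev
  haveI := halgc
  haveI := hchar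
  haveI : Fact q.Prime := ⟨hq⟩
  obtain ⟨σ, hσ, s, hs⟩ := hstab
  refine hasMaps_chart (A.comap ι) M q π halgM BM halg B hq w hwα ι hqM hroots hπ hwβ
    (FrobPartner.frobHom s M)
    (fun y hy => FrobPartner.frobHom_int A ι s hs M hσ.mem_decompositionSubgroup hy)
    (fun y hy => ⟨CoeffAut.act M s y, CoeffAut.isIntegralElem_evF_act (A.comap ι) M s
      (GalLevel.mem_comap_iff_of_mem_decomposition A ι s hs hσ.mem_decompositionSubgroup) hy,
      ?_⟩)
    (fun b hb h1 h2 => FrobPartner.red_beta_eq_frobHom_pow A ι s hs q M hσ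
      (FrobPartner.mem_contentRing_of_int (A.comap ι) M hb) h1 h2)
    hα
  rw [FrobPartner.frobHom_apply, ← CoeffAut.act_symm_apply, RingEquiv.symm_apply_apply]

end Level


/-! ### The facts -/

section Facts

variable {L : Type} [Field L] [Algebra ℚ L] {W : ValuationSubring L}
  [IsDiscreteValuationRing ↥W] {M q : ℕ} [NeZero M] [NeZero q] {π : ↥W}
  [Algebra (↥W)[X] (FF L M)] (halgM : algebraMap (↥W)[X] (FF L M) = evF W M)
  {BM : Type} [CommRing BM] [Algebra (↥W)[X] BM] [Algebra BM (FF L M)]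
  [IsScalarTower (↥W)[X] BM (FF L M)] [IsIntegralClosure BM (↥W)[X] (FF L M)]
  [Algebra (↥W)[X] (FF L (M * q))] {halg : algebraMap (↥W)[X] (FF L (M * q)) = evF W (M * q)}
  {B : Type*} [CommRing B] [Algebra (↥W)[X] B] [Algebra B (FF L (M * q))]
  [IsScalarTower (↥W)[X] B (FF L (M * q))] [IsIntegralClosure B (↥W)[X] (FF L (M * q))]
  [Algebra BM B]
  {hq : q.Prime} {w : FF L (M * q) ≃ₐ[L] FF L (M * q)}
  {hwα : (w : FF L (M * q) →ₐ[L] FF L (M * q)).comp (heckeAlphaBar L M q) = heckeBetaBar L M q}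
  (h : HasMaps W M q π BM halg B hq w hwα)
  (hα : ∀ c : BM, algebraMap B (FF L (M * q)) (algebraMap BM B c) =
    heckeAlphaBar L M q (algebraMap BM (FF L M) c))

include h in
/-- **(F3), first branch**: `α c ∈ 𝔭₁ → π ∣ c`. -/
theorem dvd_of_mem_branch₁ (c : BM)
    (hc : algebraMap BM B c ∈ NodeBranch.branch₁ W M q halg B) :
    algebraMap (↥W)[X] BM (C π) ∣ c := by
  obtain ⟨-, -, -, p₂, s₁, s₂, -, hs₁, -, h₁, -, -⟩ := h
  have h0 := (hs₁ _).mpr hc
  rw [h₁] at h0
  exact Ideal.mem_span_singleton.mp (Ideal.Quotient.eq_zero_iff_mem.mp h0)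

include halgM h hα in
/-- **(F3), second branch**: `α c ∈ 𝔭₂ → π ∣ c`. -/
theorem dvd_of_mem_branch₂ (hπ : Irreducible π) (c : BM)
    (hc : algebraMap BM B c ∈ NodeBranch.branch₂ W M q halg B hq w hwα) :
    algebraMap (↥W)[X] BM (C π) ∣ c := by
  obtain ⟨hprime, hE, hdim, p₂, s₁, s₂, hp₂, -, hs₂, -, h₂, -⟩ := h
  haveI := hprime
  have hπ2 : p₂ (algebraMap (↥W)[X] BM (C π)) = 0 := by
    have h0 : s₂ (algebraMap BM B (algebraMap (↥W)[X] BM (C π))) = 0 := by
      rw [hs₂, NodeBranch.algebraMap_poly W M q halgM BM halg B hα]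
      exact NodeBranch.pi_mem_branch₂ W M q halg B hq w hwα hπ
    rw [h₂] at h0
    exact (pow_eq_zero_iff hq.ne_zero).mp h0
  exact abs_dvd₂ (Ideal.Quotient.mk (Ideal.span {algebraMap (↥W)[X] BM (C π)})) p₂ s₂
    (algebraMap (↥W)[X] BM (C π)) q hdim hE Ideal.Quotient.mk_surjective hp₂
    (fun c hc => Ideal.mem_span_singleton.mp (Ideal.Quotient.eq_zero_iff_mem.mp hc)) hπ2 h₂ c
    ((hs₂ _).mpr hc)

include h in
/-- every `b : B` is congruent modulo `𝔭₁` to an element of `BM` -/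
theorem exists_sub_mem_branch₁ (b : B) :
    ∃ c : BM, b - algebraMap BM B c ∈ NodeBranch.branch₁ W M q halg B := by
  obtain ⟨-, -, -, p₂, s₁, s₂, -, hs₁, -, h₁, -, -⟩ := h
  obtain ⟨c, hc⟩ := Ideal.Quotient.mk_surjective (s₁ b)
  exact ⟨c, (hs₁ _).mp (by rw [map_sub, h₁, hc, sub_self])⟩

include h in
/-- the `q`-th power of every `b : B` is congruent modulo `𝔭₂` to an element of `BM` -/
theorem exists_pow_sub_mem_branch₂ (b : B) :
    ∃ c : BM, b ^ q - algebraMap BM B c ∈ NodeBranch.branch₂ W M q halg B hq w hwα := by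
  obtain ⟨-, -, -, p₂, s₁, s₂, hp₂, -, hs₂, -, h₂, -⟩ := h
  obtain ⟨c, hc⟩ := hp₂ (s₂ b)
  exact ⟨c, (hs₂ _).mp (by rw [map_sub, h₂, hc, map_pow, sub_self])⟩

include h in
/-- **(F6), Kronecker on the second branch**: every element of `BM` is a `q`-th power modulo
`𝔭₂`. -/
theorem exists_pow_sub_mem (c : BM) :
    ∃ b : B, algebraMap BM B c - b ^ q ∈ NodeBranch.branch₂ W M q halg B hq w hwα := by
  obtain ⟨-, -, -, p₂, s₁, s₂, -, -, hs₂, -, h₂, hB⟩ := h
  obtain ⟨b, hb, -⟩ := hB (p₂ c)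
  exact ⟨b, (hs₂ _).mp (by rw [map_sub, h₂, map_pow, hb, sub_self])⟩

include h in
/-- **(F4), first branch** (one inclusion). -/
theorem le_of_comap_le₁ (Q Q' : Ideal B) (hQ : NodeBranch.branch₁ W M q halg B ≤ Q)
    (hQ' : NodeBranch.branch₁ W M q halg B ≤ Q')
    (hc : Q.comap (algebraMap BM B) ≤ Q'.comap (algebraMap BM B)) : Q ≤ Q' := by
  obtain ⟨hprime, -, -, p₂, s₁, s₂, -, hs₁, -, h₁, -, -⟩ := h
  haveI := hprime
  have hk : RingHom.ker s₁ = NodeBranch.branch₁ W M q halg B := by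
    ext b
    rw [RingHom.mem_ker, hs₁]
  exact abs_le_of_comap_le₁ (Ideal.Quotient.mk (Ideal.span {algebraMap (↥W)[X] BM (C π)})) s₁
    Ideal.Quotient.mk_surjective h₁ Q Q' (hk ▸ hQ) (hk ▸ hQ') hc

include h in
/-- **(F4), first branch**: ideals of `B` containing `𝔭₁` with the same contraction to `BM`
are equal. -/
theorem eq_of_comap_eq₁ (Q Q' : Ideal B) (hQ : NodeBranch.branch₁ W M q halg B ≤ Q)
    (hQ' : NodeBranch.branch₁ W M q halg B ≤ Q')
    (hc : Q.comap (algebraMap BM B) = Q'.comap (algebraMap BM B)) : Q = Q' :=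
  le_antisymm (le_of_comap_le₁ h Q Q' hQ hQ' hc.le) (le_of_comap_le₁ h Q' Q hQ' hQ hc.ge)

include h in
/-- **(F4), second branch** (one inclusion). -/
theorem le_of_comap_le₂ (Q Q' : Ideal B) [Q'.IsPrime]
    (hQ : NodeBranch.branch₂ W M q halg B hq w hwα ≤ Q)
    (hQ' : NodeBranch.branch₂ W M q halg B hq w hwα ≤ Q')
    (hc : Q.comap (algebraMap BM B) ≤ Q'.comap (algebraMap BM B)) : Q ≤ Q' := by
  obtain ⟨hprime, -, -, p₂, s₁, s₂, hp₂, -, hs₂, -, h₂, -⟩ := h
  haveI := hprime
  have hk : RingHom.ker s₂ = NodeBranch.branch₂ W M q halg B hq w hwα := by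
    ext b
    rw [RingHom.mem_ker, hs₂]
  exact abs_le_of_comap_le₂ p₂ s₂ q hq.ne_zero hp₂ h₂ Q Q' (hk ▸ hQ) (hk ▸ hQ') hc

include h in
/-- **(F4), second branch**: primes of `B` containing `𝔭₂` with the same contraction to `BM`
are equal. -/
theorem eq_of_comap_eq₂ (Q Q' : Ideal B) [Q.IsPrime] [Q'.IsPrime]
    (hQ : NodeBranch.branch₂ W M q halg B hq w hwα ≤ Q)
    (hQ' : NodeBranch.branch₂ W M q halg B hq w hwα ≤ Q')
    (hc : Q.comap (algebraMap BM B) = Q'.comap (algebraMap BM B)) : Q = Q' :=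
  le_antisymm (le_of_comap_le₂ h Q Q' hQ hQ' hc.le) (le_of_comap_le₂ h Q' Q hQ' hQ hc.ge)

include h in
/-- **(F8), first branch**: `𝔭₁` contains no maximal ideal (it is not maximal). -/
theorem not_le_branch₁ (ν : Ideal B) [ν.IsMaximal] :
    ¬ ν ≤ NodeBranch.branch₁ W M q halg B := by
  obtain ⟨hprime, hE, -, p₂, s₁, s₂, -, hs₁, -, h₁, -, -⟩ := h
  haveI := hprime
  have hk : RingHom.ker s₁ = NodeBranch.branch₁ W M q halg B := by
    ext b
    rw [RingHom.mem_ker, hs₁]
  have hsurj : Function.Surjective s₁ := by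
    intro e
    obtain ⟨c, rfl⟩ := Ideal.Quotient.mk_surjective e
    exact ⟨algebraMap BM B c, h₁ c⟩
  rw [← hk]
  exact abs_not_le hE s₁ hsurj ν

include h in
/-- **(F8), second branch**: `𝔭₂` contains no maximal ideal (it is not maximal). -/
theorem not_le_branch₂ (ν : Ideal B) [ν.IsMaximal] :
    ¬ ν ≤ NodeBranch.branch₂ W M q halg B hq w hwα := by
  obtain ⟨hprime, hE, -, p₂, s₁, s₂, -, -, hs₂, -, -, hB⟩ := h
  haveI := hprime
  have hk : RingHom.ker s₂ = NodeBranch.branch₂ W M q halg B hq w hwα := by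
    ext b
    rw [RingHom.mem_ker, hs₂]
  have hsurj : Function.Surjective s₂ := by
    intro e
    obtain ⟨b, hb, -⟩ := hB e
    exact ⟨b, hb⟩
  rw [← hk]
  exact abs_not_le hE s₂ hsurj ν

include halgM hα in
/-- `hπ₁` of `OrdGlue2.exists_ord_data`: `α π₀ ∈ 𝔭₁`. -/
theorem hπ₁ (hπ : Irreducible π) :
    algebraMap BM B (algebraMap (↥W)[X] BM (C π)) ∈ NodeBranch.branch₁ W M q halg B := by
  rw [NodeBranch.algebraMap_poly W M q halgM BM halg B hα]
  exact NodeBranch.pi_mem_branch₁ W M q halg B hπ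

include halgM hα in
/-- `hπ₂` of `OrdGlue2.exists_ord_data`: `α π₀ ∈ 𝔭₂`. -/
theorem hπ₂ (hπ : Irreducible π) :
    algebraMap BM B (algebraMap (↥W)[X] BM (C π)) ∈
      NodeBranch.branch₂ W M q halg B hq w hwα := by
  rw [NodeBranch.algebraMap_poly W M q halgM BM halg B hα]
  exact NodeBranch.pi_mem_branch₂ W M q halg B hq w hwα hπ

include halgM hα in
/-- `hS1` of `OrdGlue2.exists_ord_data`: `𝔭₁ ⊓ 𝔭₂ ≤ (α π₀)` (`NodeBranch.branch_inf`). -/
theorem hS1 (ι : L →+* Qb) [Fact q.Prime] [CharP (IsLocalRing.ResidueField ↥W) q]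
    (hqM : ¬ q ∣ M) (hπ : Irreducible π)
    (hwβ : (w : FF L (M * q) →ₐ[L] FF L (M * q)).comp (heckeBetaBar L M q) =
      heckeAlphaBar L M q) :
    NodeBranch.branch₁ W M q halg B ⊓ NodeBranch.branch₂ W M q halg B hq w hwα ≤
      Ideal.span {algebraMap BM B (algebraMap (↥W)[X] BM (C π))} := by
  rw [NodeBranch.algebraMap_poly W M q halgM BM halg B hα]
  exact (NodeBranch.branch_inf W M q halg B hq w hwα ι hqM hπ hwβ).le

include halgM hα in
/-- a prime ideal of `B` containing `α π₀` contains one of the two branches -/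
theorem branch_le_or (ι : L →+* Qb) [Fact q.Prime] [CharP (IsLocalRing.ResidueField ↥W) q]
    (hqM : ¬ q ∣ M) (hπ : Irreducible π)
    (hwβ : (w : FF L (M * q) →ₐ[L] FF L (M * q)).comp (heckeBetaBar L M q) =
      heckeAlphaBar L M q) (Q : Ideal B) [Q.IsPrime]
    (hQ : algebraMap BM B (algebraMap (↥W)[X] BM (C π)) ∈ Q) :
    NodeBranch.branch₁ W M q halg B ≤ Q ∨ NodeBranch.branch₂ W M q halg B hq w hwα ≤ Q := by
  have h1 : NodeBranch.branch₁ W M q halg B ⊓ NodeBranch.branch₂ W M q halg B hq w hwα ≤ Q :=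
    (hS1 halgM hα ι hqM hπ hwβ).trans ((Ideal.span_singleton_le_iff_mem Q).mpr hQ)
  exact (Ideal.IsPrime.inf_le inferInstance).mp h1

include h in
/-- `hne` of `OrdGlue2.exists_ord_data`. -/
theorem hne (ν : Ideal B) [ν.IsMaximal] : ¬ ν ≤ NodeBranch.branch₂ W M q halg B hq w hwα :=
  not_le_branch₂ h ν

include h in
/-- `huniq₂` of `OrdGlue2.exists_ord_data`. -/
theorem huniq₂ (ν : Ideal B) [ν.IsPrime] (hν₂ : NodeBranch.branch₂ W M q halg B hq w hwα ≤ ν) :
    ∀ ν' : Ideal B, ν'.IsPrime → NodeBranch.branch₂ W M q halg B hq w hwα ≤ ν' →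
      ν'.comap (algebraMap BM B) = ν.comap (algebraMap BM B) → ν' = ν := by
  intro ν' hν' h2 hc
  haveI := hν'
  exact eq_of_comap_eq₂ h ν' ν h2 hν₂ hc

include h in
/-- `h𝔭₁` of `OrdGlue2.exists_ord_data`: `𝔭₁ ∩ BM = (π₀)` lies in every ideal containing
`α π₀`. -/
theorem h𝔭₁ (ν : Ideal B) (hπν : algebraMap BM B (algebraMap (↥W)[X] BM (C π)) ∈ ν) :
    (NodeBranch.branch₁ W M q halg B).comap (algebraMap BM B) ≤ ν.comap (algebraMap BM B) := by
  intro c hc
  obtain ⟨d, rfl⟩ := dvd_of_mem_branch₁ h c (Ideal.mem_comap.mp hc)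
  rw [Ideal.mem_comap, map_mul]
  exact ν.mul_mem_right _ hπν

include halgM h hα in
/-- the contraction of `𝔭₂` to `BM` is `(π₀)` too -/
theorem comap_branch₂_le (hπ : Irreducible π) (ν : Ideal B)
    (hπν : algebraMap BM B (algebraMap (↥W)[X] BM (C π)) ∈ ν) :
    (NodeBranch.branch₂ W M q halg B hq w hwα).comap (algebraMap BM B) ≤
      ν.comap (algebraMap BM B) := by
  intro c hc
  obtain ⟨d, rfl⟩ := dvd_of_mem_branch₂ halgM h hα hπ c (Ideal.mem_comap.mp hc)
  rw [Ideal.mem_comap, map_mul]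
  exact ν.mul_mem_right _ hπν

include h in
/-- `hK` of `OrdGlue2.exists_ord_data`. -/
theorem hK : ∀ c : BM, ∃ b : B,
    algebraMap BM B c - b ^ q ∈ NodeBranch.branch₂ W M q halg B hq w hwα :=
  fun c => exists_pow_sub_mem h c

end Facts


/-! ### (DICH₁) in the shape of `OrdGlue2.exists_ord_data` -/

section Dich

variable (A : ValuationSubring Qb) {L : Type} [Field L] [Algebra ℚ L] (ι : L →+* Qb)
  (M q : ℕ) [NeZero M] [NeZero q]

/-- `hdich` of `OrdGlue2.exists_ord_data` at a Frobenius-stable level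
(`FrobLevel.finite_dich_frob` at `Localization.AtPrime ν'`, with `π` written `α π₀`). -/
theorem hdich (hq : q.Prime) (hqM : ¬ q ∣ M) (S : Finset Qb)
    (hlev : Fermat.Agent.S37.LevelChange.IsLevel A q S ι)
    (hstab : Fermat.Agent.S36.FrobLevel.FrobStable A q ι)
    (π : ↥(A.comap ι)) (hπ : Irreducible π)
    [Algebra (↥(A.comap ι))[X] (FF L M)]
    (halgM : algebraMap (↥(A.comap ι))[X] (FF L M) = evF (A.comap ι) M)
    (BM : Type*) [CommRing BM] [Algebra (↥(A.comap ι))[X] BM] [Algebra BM (FF L M)]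
    [IsScalarTower (↥(A.comap ι))[X] BM (FF L M)]
    [Algebra (↥(A.comap ι))[X] (FF L (M * q))]
    (halg : algebraMap (↥(A.comap ι))[X] (FF L (M * q)) = evF (A.comap ι) (M * q))
    (B : Type*) [CommRing B] [Algebra (↥(A.comap ι))[X] B] [Algebra B (FF L (M * q))]
    [IsScalarTower (↥(A.comap ι))[X] B (FF L (M * q))]
    [IsIntegralClosure B (↥(A.comap ι))[X] (FF L (M * q))]
    [Algebra BM B]
    (hα : ∀ c : BM, algebraMap B (FF L (M * q)) (algebraMap BM B c) =
      heckeAlphaBar L M q (algebraMap BM (FF L M) c)) :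
    ∀ (ν' : Ideal B) [ν'.IsMaximal],
      algebraMap BM B (algebraMap (↥(A.comap ι))[X] BM (C π)) ∈ ν' →
      (∃ u ∈ ν', maximalIdeal (Localization.AtPrime ν') =
        Ideal.span {algebraMap B (Localization.AtPrime ν')
            (algebraMap BM B (algebraMap (↥(A.comap ι))[X] BM (C π))),
          algebraMap B (Localization.AtPrime ν') u}) ∨
      (∃ X ∈ ν', ∃ Y ∈ ν', algebraMap BM B (algebraMap (↥(A.comap ι))[X] BM (C π)) ∣ X * Y ∧
        maximalIdeal (Localization.AtPrime ν') =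
          Ideal.span {algebraMap B (Localization.AtPrime ν')
              (algebraMap BM B (algebraMap (↥(A.comap ι))[X] BM (C π))),
            algebraMap B (Localization.AtPrime ν') X,
            algebraMap B (Localization.AtPrime ν') Y}) := by
  intro ν' _ hπν'
  rw [NodeBranch.algebraMap_poly (A.comap ι) M q halgM BM halg B hα] at hπν' ⊢
  exact FrobLevel.finite_dich_frob A ι M q hq hqM S hlev hstab π hπ halg B ν' hπν'
    (Localization.AtPrime ν')

end Dich

end Fermat.Agent.S36.OrdFacts1
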