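import Mathlib
import Fermat.Agent.S34.KLocInst
import Fermat.Agent.S34.CompInst
import Fermat.Agent.S34.BetaInt
import Fermat.Agent.S34.CuspEq
import Fermat.Agent.S36.OrdData2
import Fermat.Agent.S36.OrdGlue1

/-!
# S36 (R-ord), step (J2): the level `M q²` instance on the S34 carriers

`BM`, `B₁`, `B₂` are carriers of the finite charts of levels `M`, `M q`, `M q²` (integral closures
of `W[X]`, `X ↦ j`, in the function fields; e.g. the literal chart of `RegDefs.Reg36₁` through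
`S34.BridgeChart.isIntegralClosure_chart₁`).  The algebra structures `BM → B₁` and `B₁ → B₂` are
instance binders, specified by `hα` (it is `heckeAlphaBar L M q`) and `hβ` (it is
`heckeBetaBar L (M q) q`): call the theorem after
`letI := (NodeOverInst.alphaHom …).toAlgebra`, `letI := (betaHom …).toAlgebra`.

* `isIntegral_beta` : `B₂` is integral over `B₁` along `β` (`j` is integral over `W[β j]`);
* `ord_inst2` : the contract K4 (`HorPrincipal`) at every maximal ideal `𝔫` of `B₂` with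
  `𝔫.comap β = ν`, from the two-point data of `OrdGlue1.exists_twoPoint_data` at `ν`;
* `ord_inst2_hom` : the same with `β : B₁ →+* B₂` an explicit ring homomorphism;
* `ord_inst2_of_facts` : the same from the chart-level facts at level `M q` (the hypotheses of
  `OrdGlue1.exists_twoPoint_data`): part (II) of the (R-ord) plan in one call.
-/

set_option autoImplicit false
set_option linter.style.haveILetI false
set_option linter.unusedSectionVars false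

namespace Fermat.Agent.S36.OrdInst2

open Polynomial ModularCurve AlgebraicCurve IsLocalRing Fermat.Agent.S18 Fermat.Agent.S18.Gauss
  Fermat.Agent.S34

local notation "Qb" => AlgebraicClosure ℚ

section Int

variable {L : Type} [Field L] [Algebra ℚ L] (W : ValuationSubring L) (N ℓ : ℕ) [NeZero N]
  [NeZero ℓ]
  [Algebra (↥W)[X] (Fermat.Agent.S24.FF L N)]
  (halg₁ : algebraMap (↥W)[X] (Fermat.Agent.S24.FF L N) = evF W N)
  (B₁ : Type*) [CommRing B₁] [Algebra (↥W)[X] B₁] [Algebra B₁ (Fermat.Agent.S24.FF L N)]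
  [IsScalarTower (↥W)[X] B₁ (Fermat.Agent.S24.FF L N)]
  [IsIntegralClosure B₁ (↥W)[X] (Fermat.Agent.S24.FF L N)]
  [Algebra (↥W)[X] (Fermat.Agent.S24.FF L (N * ℓ))]
  (halg₂ : algebraMap (↥W)[X] (Fermat.Agent.S24.FF L (N * ℓ)) = evF W (N * ℓ))
  (B₂ : Type*) [CommRing B₂] [Algebra (↥W)[X] B₂] [Algebra B₂ (Fermat.Agent.S24.FF L (N * ℓ))]
  [IsScalarTower (↥W)[X] B₂ (Fermat.Agent.S24.FF L (N * ℓ))]
  [IsIntegralClosure B₂ (↥W)[X] (Fermat.Agent.S24.FF L (N * ℓ))]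

include halg₁ halg₂ in
/-- every integral function of level `N ℓ` is integral over `β(B₁)` -/
theorem isIntegralElem_beta_comp (hℓ : ℓ.Prime) (x : Fermat.Agent.S24.FF L (N * ℓ))
    (hx : (evF W (N * ℓ)).IsIntegralElem x) :
    ((heckeBetaBar L N ℓ).toRingHom.comp
      (algebraMap B₁ (Fermat.Agent.S24.FF L N))).IsIntegralElem x := by
  set ψ : B₁ →+* Fermat.Agent.S24.FF L (N * ℓ) :=
    (heckeBetaBar L N ℓ).toRingHom.comp (algebraMap B₁ (Fermat.Agent.S24.FF L N)) with hψ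
  have hcomp : ψ.comp (algebraMap (↥W)[X] B₁) = CuspEq.evBeta W N ℓ := by
    rw [hψ, RingHom.comp_assoc, ← IsScalarTower.algebraMap_eq, halg₁]
    rfl
  refine BetaInt.isIntegralElem_trans ψ (evF W (N * ℓ)) ?_ x hx
  intro p
  induction p using Polynomial.induction_on with
  | C a =>
    have h2 : ψ (algebraMap (↥W)[X] B₁ (C a)) = CuspEq.evBeta W N ℓ (C a) := by
      rw [← hcomp]
      rfl
    have h1 : evF W (N * ℓ) (C a) = ψ (algebraMap (↥W)[X] B₁ (C a)) := by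
      rw [h2, CuspEq.evBeta_C, evF_C]
    rw [h1]
    exact RingHom.isIntegralElem_map _
  | add p q hp hq =>
    rw [map_add]
    exact RingHom.IsIntegralElem.add _ hp hq
  | monomial n a ih =>
    rw [pow_succ, ← mul_assoc, map_mul]
    refine RingHom.IsIntegralElem.mul _ ih ?_
    rw [evF_X]
    obtain ⟨P, hP, hPx⟩ := CuspEq.isIntegralElem_j_beta W N ℓ hℓ
    refine ⟨P.map (algebraMap (↥W)[X] B₁), hP.map _, ?_⟩
    rw [eval₂_map, hcomp]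
    exact hPx

include halg₁ halg₂ in
/-- **`B₂` is integral over `B₁` along `β`.** -/
theorem isIntegral_beta (hℓ : ℓ.Prime) [Algebra B₁ B₂]
    (hβ : ∀ b : B₁, algebraMap B₂ (Fermat.Agent.S24.FF L (N * ℓ)) (algebraMap B₁ B₂ b) =
      heckeBetaBar L N ℓ (algebraMap B₁ (Fermat.Agent.S24.FF L N) b)) :
    Algebra.IsIntegral B₁ B₂ := by
  refine ⟨fun b => ?_⟩
  obtain ⟨P, hP, hPx⟩ := isIntegralElem_beta_comp W N ℓ halg₁ B₁ halg₂ hℓ _
    (CompInst.isIntegralElem_algebraMap W (N * ℓ) halg₂ B₂ b)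
  refine ⟨P, hP, ?_⟩
  apply IsIntegralClosure.algebraMap_injective B₂ (↥W)[X] (Fermat.Agent.S24.FF L (N * ℓ))
  rw [map_zero, Polynomial.hom_eval₂]
  have h1 : (algebraMap B₂ (Fermat.Agent.S24.FF L (N * ℓ))).comp (algebraMap B₁ B₂) =
      (heckeBetaBar L N ℓ).toRingHom.comp (algebraMap B₁ (Fermat.Agent.S24.FF L N)) :=
    RingHom.ext hβ
  rw [h1]
  exact hPx

end Int

section Main

variable {L : Type} [Field L] [Algebra ℚ L] (ι : L →+* Qb) (W : ValuationSubring L)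
  [IsDiscreteValuationRing W] (M q : ℕ) [NeZero M] [NeZero q]
  [Algebra (↥W)[X] (Fermat.Agent.S24.FF L M)]
  (halgM : algebraMap (↥W)[X] (Fermat.Agent.S24.FF L M) = evF W M)
  (BM : Type*) [CommRing BM] [Algebra (↥W)[X] BM] [Algebra BM (Fermat.Agent.S24.FF L M)]
  [IsScalarTower (↥W)[X] BM (Fermat.Agent.S24.FF L M)]
  [IsIntegralClosure BM (↥W)[X] (Fermat.Agent.S24.FF L M)]
  [Algebra (↥W)[X] (Fermat.Agent.S24.FF L (M * q))]
  (halg₁ : algebraMap (↥W)[X] (Fermat.Agent.S24.FF L (M * q)) = evF W (M * q))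
  (B₁ : Type*) [CommRing B₁] [Algebra (↥W)[X] B₁] [Algebra B₁ (Fermat.Agent.S24.FF L (M * q))]
  [IsScalarTower (↥W)[X] B₁ (Fermat.Agent.S24.FF L (M * q))]
  [IsIntegralClosure B₁ (↥W)[X] (Fermat.Agent.S24.FF L (M * q))]
  [Algebra (↥W)[X] (Fermat.Agent.S24.FF L (M * q * q))]
  (halg₂ : algebraMap (↥W)[X] (Fermat.Agent.S24.FF L (M * q * q)) = evF W (M * q * q))
  (B₂ : Type*) [CommRing B₂] [Algebra (↥W)[X] B₂]
  [Algebra B₂ (Fermat.Agent.S24.FF L (M * q * q))]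
  [IsScalarTower (↥W)[X] B₂ (Fermat.Agent.S24.FF L (M * q * q))]
  [IsIntegralClosure B₂ (↥W)[X] (Fermat.Agent.S24.FF L (M * q * q))]

include ι halgM halg₁ halg₂ in
/-- **(J2): K4 at every maximal ideal of the chart of level `M q²` over `ν`**, from the two-point
data at `ν` (the output of `OrdGlue1.exists_twoPoint_data`), on the S34 carriers. -/
theorem ord_inst2 (hq : q.Prime)
    (w : Fermat.Agent.S24.FF L (M * q) ≃ₐ[L] Fermat.Agent.S24.FF L (M * q))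
    (hwα : (w : Fermat.Agent.S24.FF L (M * q) →ₐ[L] Fermat.Agent.S24.FF L (M * q)).comp
      (heckeAlphaBar L M q) = heckeBetaBar L M q)
    (hwβ : (w : Fermat.Agent.S24.FF L (M * q) →ₐ[L] Fermat.Agent.S24.FF L (M * q)).comp
      (heckeBetaBar L M q) = heckeAlphaBar L M q)
    [Algebra BM B₁]
    (hα : ∀ c : BM, algebraMap B₁ (Fermat.Agent.S24.FF L (M * q)) (algebraMap BM B₁ c) =
      heckeAlphaBar L M q (algebraMap BM (Fermat.Agent.S24.FF L M) c))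
    [Algebra B₁ B₂]
    (hβ : ∀ b : B₁, algebraMap B₂ (Fermat.Agent.S24.FF L (M * q * q)) (algebraMap B₁ B₂ b) =
      heckeBetaBar L (M * q) q (algebraMap B₁ (Fermat.Agent.S24.FF L (M * q)) b))
    (ν : Ideal B₁) [hν : ν.IsPrime] (π₁ : B₁)
    (h : B₁) (s : BM) (hs : s ≠ 0) (hsgen : ∀ b : B₁, s • b ∈ Algebra.adjoin BM {h})
    (m : BM[X]) (hm : m.Monic) (hdeg : m.natDegree = q + 1) (hroot : aeval h m = 0)
    (u c d : Localization.AtPrime ν) (G₁ : (Localization.AtPrime ν)[X])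
    (hmax : maximalIdeal (Localization.AtPrime ν) =
      Ideal.span {algebraMap B₁ (Localization.AtPrime ν) π₁, u})
    (hπ : (Ideal.span {algebraMap B₁ (Localization.AtPrime ν) π₁} :
      Ideal (Localization.AtPrime ν)).IsPrime)
    (hH : ((m.map (algebraMap BM B₁)) /ₘ (X - C h)).map (algebraMap B₁ (Localization.AtPrime ν)) =
      (X - C c) * (X - C d) ^ (q - 1) + C (algebraMap B₁ (Localization.AtPrime ν) π₁) * G₁)
    (hcd : IsUnit (c - d)) (hG₁ : IsUnit (G₁.eval d))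
    (𝔫 : Ideal B₂) [h𝔫 : 𝔫.IsMaximal] (h𝔫ν : 𝔫.comap (algebraMap B₁ B₂) = ν)
    (𝔮 : Ideal B₂) [h𝔮 : 𝔮.IsPrime] (h𝔮𝔫 : 𝔮 ≤ 𝔫) (hπ𝔮 : algebraMap B₁ B₂ π₁ ∉ 𝔮) :
    ∃ x ∈ 𝔮, ∃ d, d ∉ 𝔫 ∧ ∀ y ∈ 𝔮, x ∣ d * y := by
  haveI : IsDomain B₁ := KLocInst.isDomain_fin W (M * q) B₁
  haveI : IsNoetherianRing B₁ := KLocInst.isNoetherianRing_fin W (M * q) halg₁ B₁
  haveI : IsFractionRing B₁ (Fermat.Agent.S24.FF L (M * q)) :=
    KLocInst.isFractionRing_fin W (M * q) halg₁ B₁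
  haveI : IsIntegrallyClosed B₁ := KLocInst.isIntegrallyClosed_fin W (M * q) halg₁ B₁
  haveI : IsDomain B₂ := KLocInst.isDomain_fin W (M * q * q) B₂
  haveI : IsNoetherianRing B₂ := KLocInst.isNoetherianRing_fin W (M * q * q) halg₂ B₂
  haveI : Algebra.IsIntegral B₁ B₂ := isIntegral_beta W (M * q) q halg₁ B₁ halg₂ B₂ hq hβ
  have hφ₀ : Function.Injective (algebraMap BM (Fermat.Agent.S24.FF L M)) :=
    IsIntegralClosure.algebraMap_injective BM (↥W)[X] (Fermat.Agent.S24.FF L M)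
  have hφ₁ : Function.Injective (algebraMap B₁ (Fermat.Agent.S24.FF L (M * q))) :=
    IsIntegralClosure.algebraMap_injective B₁ (↥W)[X] (Fermat.Agent.S24.FF L (M * q))
  have hφ : Function.Injective (algebraMap B₂ (Fermat.Agent.S24.FF L (M * q * q))) :=
    IsIntegralClosure.algebraMap_injective B₂ (↥W)[X] (Fermat.Agent.S24.FF L (M * q * q))
  have hfr₁ : ∀ g : Fermat.Agent.S24.FF L (M * q), ∃ b₁ b₂ : B₁, b₂ ≠ 0 ∧
      g * algebraMap B₁ (Fermat.Agent.S24.FF L (M * q)) b₂ =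
        algebraMap B₁ (Fermat.Agent.S24.FF L (M * q)) b₁ := by
    intro g
    obtain ⟨⟨b₁, b₂⟩, hb⟩ := IsLocalization.surj (nonZeroDivisors B₁) g
    exact ⟨b₁, b₂, nonZeroDivisors.ne_zero b₂.2, hb⟩
  -- `β₁ j` lies in the chart of level `M q`
  obtain ⟨bj, hbj⟩ := CompInst.exists_algebraMap_eq W (M * q) halg₁ B₁
    (BetaInt.isIntegralElem_beta_j W M q hq)
  -- the root `α₂ (w h)` lies in the chart of level `M q²`
  obtain ⟨y₀, hy₀⟩ := CompInst.exists_algebraMap_eq W (M * q * q) halg₂ B₂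
    (BetaInt.isIntegralElem_alpha W (M * q) q
      (CompInst.isIntegralElem_atkin W M q hq w hwα
        (CompInst.isIntegralElem_algebraMap W (M * q) halg₁ B₁ h)))
  exact OrdData2.horPrincipal_of_data ι M q hq
    (w : Fermat.Agent.S24.FF L (M * q) →ₐ[L] Fermat.Agent.S24.FF L (M * q)) hwα hwβ
    (algebraMap BM (Fermat.Agent.S24.FF L M)) hφ₀
    (algebraMap B₁ (Fermat.Agent.S24.FF L (M * q))) hφ₁
    (algebraMap B₂ (Fermat.Agent.S24.FF L (M * q * q))) hφ hα hβ hfr₁ ν π₁ h s hs hsgen bj hbj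
    m hm hdeg hroot u c d G₁ hmax hπ hH hcd hG₁ y₀ hy₀ 𝔫 h𝔫ν 𝔮 h𝔮𝔫 hπ𝔮

include ι halgM halg₁ halg₂ in
/-- `ord_inst2` with the map `β : B₁ → B₂` as an explicit ring homomorphism. -/
theorem ord_inst2_hom (hq : q.Prime)
    (w : Fermat.Agent.S24.FF L (M * q) ≃ₐ[L] Fermat.Agent.S24.FF L (M * q))
    (hwα : (w : Fermat.Agent.S24.FF L (M * q) →ₐ[L] Fermat.Agent.S24.FF L (M * q)).comp
      (heckeAlphaBar L M q) = heckeBetaBar L M q)
    (hwβ : (w : Fermat.Agent.S24.FF L (M * q) →ₐ[L] Fermat.Agent.S24.FF L (M * q)).comp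
      (heckeBetaBar L M q) = heckeAlphaBar L M q)
    [Algebra BM B₁]
    (hα : ∀ c : BM, algebraMap B₁ (Fermat.Agent.S24.FF L (M * q)) (algebraMap BM B₁ c) =
      heckeAlphaBar L M q (algebraMap BM (Fermat.Agent.S24.FF L M) c))
    (ψβ : B₁ →+* B₂)
    (hβ : ∀ b : B₁, algebraMap B₂ (Fermat.Agent.S24.FF L (M * q * q)) (ψβ b) =
      heckeBetaBar L (M * q) q (algebraMap B₁ (Fermat.Agent.S24.FF L (M * q)) b))
    (ν : Ideal B₁) [hν : ν.IsPrime] (π₁ : B₁)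
    (h : B₁) (s : BM) (hs : s ≠ 0) (hsgen : ∀ b : B₁, s • b ∈ Algebra.adjoin BM {h})
    (m : BM[X]) (hm : m.Monic) (hdeg : m.natDegree = q + 1) (hroot : aeval h m = 0)
    (u c d : Localization.AtPrime ν) (G₁ : (Localization.AtPrime ν)[X])
    (hmax : maximalIdeal (Localization.AtPrime ν) =
      Ideal.span {algebraMap B₁ (Localization.AtPrime ν) π₁, u})
    (hπ : (Ideal.span {algebraMap B₁ (Localization.AtPrime ν) π₁} :
      Ideal (Localization.AtPrime ν)).IsPrime)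
    (hH : ((m.map (algebraMap BM B₁)) /ₘ (X - C h)).map (algebraMap B₁ (Localization.AtPrime ν)) =
      (X - C c) * (X - C d) ^ (q - 1) + C (algebraMap B₁ (Localization.AtPrime ν) π₁) * G₁)
    (hcd : IsUnit (c - d)) (hG₁ : IsUnit (G₁.eval d))
    (𝔫 : Ideal B₂) [h𝔫 : 𝔫.IsMaximal] (h𝔫ν : 𝔫.comap ψβ = ν)
    (𝔮 : Ideal B₂) [h𝔮 : 𝔮.IsPrime] (h𝔮𝔫 : 𝔮 ≤ 𝔫) (hπ𝔮 : ψβ π₁ ∉ 𝔮) :
    ∃ x ∈ 𝔮, ∃ d, d ∉ 𝔫 ∧ ∀ y ∈ 𝔮, x ∣ d * y := by
  letI : Algebra B₁ B₂ := ψβ.toAlgebra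
  exact ord_inst2 ι W M q halgM BM halg₁ B₁ halg₂ B₂ hq w hwα hwβ hα hβ ν π₁ h s hs hsgen m hm
    hdeg hroot u c d G₁ hmax hπ hH hcd hG₁ 𝔫 h𝔫ν 𝔮 h𝔮𝔫 hπ𝔮

include ι halgM halg₁ halg₂ in
/-- **(II) of the (R-ord) plan in one call**: the chart-level facts at level `M q` (the
hypotheses of `OrdGlue1.exists_twoPoint_data`, with `B₀ := BM`, `B := B₁`) give K4 at every
maximal ideal `𝔫` of the chart of level `M q²` with `𝔫.comap β = ν`. -/
theorem ord_inst2_of_facts (hq : q.Prime)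
    (w : Fermat.Agent.S24.FF L (M * q) ≃ₐ[L] Fermat.Agent.S24.FF L (M * q))
    (hwα : (w : Fermat.Agent.S24.FF L (M * q) →ₐ[L] Fermat.Agent.S24.FF L (M * q)).comp
      (heckeAlphaBar L M q) = heckeBetaBar L M q)
    (hwβ : (w : Fermat.Agent.S24.FF L (M * q) →ₐ[L] Fermat.Agent.S24.FF L (M * q)).comp
      (heckeBetaBar L M q) = heckeAlphaBar L M q)
    [Algebra BM B₁] [Module.Finite BM B₁]
    (hα : ∀ c : BM, algebraMap B₁ (Fermat.Agent.S24.FF L (M * q)) (algebraMap BM B₁ c) =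
      heckeAlphaBar L M q (algebraMap BM (Fermat.Agent.S24.FF L M) c))
    (ψβ : B₁ →+* B₂)
    (hβ : ∀ b : B₁, algebraMap B₂ (Fermat.Agent.S24.FF L (M * q * q)) (ψβ b) =
      heckeBetaBar L (M * q) q (algebraMap B₁ (Fermat.Agent.S24.FF L (M * q)) b))
    (π₀ : BM) (hπ0 : algebraMap BM B₁ π₀ ≠ 0)
    (hqπ : algebraMap BM B₁ π₀ ∣ (q : B₁))
    (𝔭₁ 𝔭₂ : Ideal B₁) [𝔭₁.IsPrime] [𝔭₂.IsPrime]
    (hπ₁ : algebraMap BM B₁ π₀ ∈ 𝔭₁) (hπ₂ : algebraMap BM B₁ π₀ ∈ 𝔭₂)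
    (hS1 : 𝔭₁ ⊓ 𝔭₂ ≤ Ideal.span {algebraMap BM B₁ π₀})
    (ν : Ideal B₁) [ν.IsMaximal] (hν₂ : 𝔭₂ ≤ ν) (hν₁ : ¬ 𝔭₁ ≤ ν) (hne : ¬ ν ≤ 𝔭₂)
    [Infinite (BM ⧸ ν.comap (algebraMap BM B₁))]
    (hres : ∀ ν' : Ideal B₁, ν'.IsMaximal → algebraMap BM B₁ π₀ ∈ ν' →
      ∀ b : B₁, ∃ c : BM, b - algebraMap BM B₁ c ∈ ν')
    (hdich : ∀ (ν' : Ideal B₁) [ν'.IsMaximal], algebraMap BM B₁ π₀ ∈ ν' →
      (∃ u ∈ ν', maximalIdeal (Localization.AtPrime ν') =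
        Ideal.span {algebraMap B₁ (Localization.AtPrime ν') (algebraMap BM B₁ π₀),
          algebraMap B₁ (Localization.AtPrime ν') u}) ∨
      (∃ X ∈ ν', ∃ Y ∈ ν', algebraMap BM B₁ π₀ ∣ X * Y ∧ maximalIdeal (Localization.AtPrime ν') =
        Ideal.span {algebraMap B₁ (Localization.AtPrime ν') (algebraMap BM B₁ π₀),
          algebraMap B₁ (Localization.AtPrime ν') X, algebraMap B₁ (Localization.AtPrime ν') Y}))
    (huniq₂ : ∀ ν' : Ideal B₁, ν'.IsPrime → 𝔭₂ ≤ ν' →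
      ν'.comap (algebraMap BM B₁) = ν.comap (algebraMap BM B₁) → ν' = ν)
    (h𝔭₁ : 𝔭₁.comap (algebraMap BM B₁) ≤ ν.comap (algebraMap BM B₁))
    (hK : ∀ c : BM, ∃ b : B₁, algebraMap BM B₁ c - b ^ q ∈ 𝔭₂)
    (hdeg : ∀ h : B₁, (∃ s : BM, s ∉ ν.comap (algebraMap BM B₁) ∧
      ∀ b : B₁, s • b ∈ Algebra.adjoin BM {h}) → (minpoly BM h).natDegree = q + 1)
    (Δ : B₁) (hΔ₂ : Δ ∈ 𝔭₂)
    (hΔ : ∀ x b : B₁, x * Δ = algebraMap BM B₁ π₀ * b → x ∉ 𝔭₂ → b ∉ 𝔭₂)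
    (hEuler : ∀ h : B₁, (∃ s : BM, s ∉ ν.comap (algebraMap BM B₁) ∧
      ∀ b : B₁, s • b ∈ Algebra.adjoin BM {h}) →
      ∃ s : BM, s ∉ ν.comap (algebraMap BM B₁) ∧
        aeval h (derivative (minpoly BM h)) ∣ algebraMap BM B₁ s * Δ)
    (hT3 : ∀ h : B₁, (∃ s : BM, s ∉ ν.comap (algebraMap BM B₁) ∧
      ∀ b : B₁, s • b ∈ Algebra.adjoin BM {h}) →
      ∀ 𝔥 ∈ (Ideal.span {aeval h (derivative (minpoly BM h))} : Ideal B₁).minimalPrimes,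
        𝔥 ≤ ν → algebraMap BM B₁ π₀ ∈ 𝔥)
    (𝔫 : Ideal B₂) [h𝔫 : 𝔫.IsMaximal] (h𝔫ν : 𝔫.comap ψβ = ν)
    (𝔮 : Ideal B₂) [h𝔮 : 𝔮.IsPrime] (h𝔮𝔫 : 𝔮 ≤ 𝔫) (hπ𝔮 : ψβ (algebraMap BM B₁ π₀) ∉ 𝔮) :
    ∃ x ∈ 𝔮, ∃ d, d ∉ 𝔫 ∧ ∀ y ∈ 𝔮, x ∣ d * y := by
  haveI : IsDomain B₁ := KLocInst.isDomain_fin W (M * q) B₁
  haveI : IsNoetherianRing B₁ := KLocInst.isNoetherianRing_fin W (M * q) halg₁ B₁
  obtain ⟨h, ⟨s, hsP, hsgen⟩, hmonic, hdegm, hroot, -, u, c, d, G₁, hmax, hπ, hH, hcd, hG₁⟩ :=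
    OrdGlue1.exists_twoPoint_data q hq π₀ hπ0 hqπ 𝔭₁ 𝔭₂ hπ₁ hπ₂ hS1 ν hν₂ hν₁ hne hres hdich
      huniq₂ h𝔭₁ hK hdeg Δ hΔ₂ hΔ hEuler hT3
  have hs : s ≠ 0 := fun h0 => hsP (h0 ▸ Ideal.zero_mem _)
  exact ord_inst2_hom ι W M q halgM BM halg₁ B₁ halg₂ B₂ hq w hwα hwβ hα ψβ hβ ν
    (algebraMap BM B₁ π₀) h s hs hsgen (minpoly BM h) hmonic hdegm hroot u c d G₁ hmax hπ hH hcd
    hG₁ 𝔫 h𝔫ν 𝔮 h𝔮𝔫 hπ𝔮

end Main

end Fermat.Agent.S36.OrdInst2
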