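import Mathlib
import Fermat.Agent.S36.OrdT3

/-!
# S36, (R-ord): `hT3` in the chart form of `OrdGlue2.exists_ord_data`

The hypothesis `hT3` of `Fermat.Agent.S36.OrdGlue2.exists_ord_data` /
`OrdGlue1.exists_twoPoint_data` at an auxiliary level (`r` prime, `r % 12 = 11`, `r ∣ M`,
`r ∣ N`), on the charts `R₀ ⊆ B` of level `M`, `N`: for every local generator `h` of `B` over
`R₀` at `P = ν ∩ R₀` (`s • B ⊆ R₀[h]`, `s ∉ P`) every prime of `B` minimal over
`(minpoly R₀ h)'(h)` and contained in `ν` contains `ϖ`.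

* `natDegree_minpoly_le_finrank` : `(minpoly R₀ h).natDegree ≤ [FF L N : FF L M]`;
* `hT3_chart` : the statement, binder-for-binder the `hT3` of `exists_ord_data`;
* `hT3_chart_prime` : the same for every prime `𝔥 ≤ ν` containing the different (not only the
  minimal ones).
-/

set_option autoImplicit false
set_option linter.unusedSectionVars false
set_option linter.style.haveILetI false

namespace Fermat.Agent.S36.OrdT3Chart

open Polynomial AlgebraicCurve ModularCurve
open Fermat.Agent.S24 Fermat.Agent.S18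

/-- the degree of the minimal polynomial over an integrally closed domain is at most the degree
of the field extension -/
theorem natDegree_minpoly_le_finrank {R₀ B K F : Type*} [CommRing R₀] [IsDomain R₀]
    [IsIntegrallyClosed R₀] [CommRing B] [IsDomain B] [Algebra R₀ B] [Field K] [Algebra R₀ K]
    [IsFractionRing R₀ K] [Field F] [Algebra B F] [Algebra K F] [Algebra R₀ F]
    [IsScalarTower R₀ K F] [IsScalarTower R₀ B F] [FiniteDimensional K F] (h : B)
    (hint : IsIntegral R₀ h) : (minpoly R₀ h).natDegree ≤ Module.finrank K F := by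
  have h1 : minpoly K (algebraMap B F h) = (minpoly R₀ h).map (algebraMap R₀ K) :=
    minpoly.isIntegrallyClosed_eq_field_fractions K F hint
  have h2 : (minpoly K (algebraMap B F h)).natDegree ≤ Module.finrank K F :=
    minpoly.natDegree_le _
  have h3 : ((minpoly R₀ h).map (algebraMap R₀ K)).natDegree = (minpoly R₀ h).natDegree :=
    (minpoly.monic hint).natDegree_map (algebraMap R₀ K)
  rw [← h3, ← h1]
  exact h2

section Core

variable {L : Type} [Field L] [Algebra ℚ L] (ι : L →+* AlgebraicClosure ℚ) (M N : ℕ) [NeZero M]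
  [NeZero N]

include ι in
/-- **`hT3`, chart form, every prime.**  For a local generator `h` of `B` over `R₀` at
`P = ν ∩ R₀`, every prime `𝔥 ≤ ν` of `B` containing `(minpoly R₀ h)'(h)` contains `ϖ`. -/
theorem hT3_chart_prime {r : ℕ} (hr : r.Prime) (hr12 : r % 12 = 11) (hrM : r ∣ M)
    (hrN : r ∣ N) [Algebra (FF L M) (FF L N)] [IsScalarTower L (FF L M) (FF L N)]
    [FiniteDimensional (FF L M) (FF L N)]
    (hjα : algebraMap (FF L M) (FF L N) (jBC L M) = jBC L N)
    {R₀ : Type*} [CommRing R₀] [IsDomain R₀] [IsNoetherianRing R₀] [IsIntegrallyClosed R₀]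
    [Algebra R₀ (FF L M)] [IsFractionRing R₀ (FF L M)] [Algebra R₀ (FF L N)]
    [IsScalarTower R₀ (FF L M) (FF L N)]
    {B : Type*} [CommRing B] [IsDomain B] [IsIntegrallyClosed B] [Algebra R₀ B]
    [Algebra.IsIntegral R₀ B] [Algebra B (FF L N)] [IsFractionRing B (FF L N)]
    [IsScalarTower R₀ B (FF L N)]
    (ϖ : R₀)
    (hL : ∀ c : L, ∃ (k : ℕ) (r₀ : R₀),
      algebraMap R₀ (FF L M) ϖ ^ k * algebraMap L (FF L M) c = algebraMap R₀ (FF L M) r₀)
    (jK : R₀) (hjK : algebraMap R₀ (FF L N) jK = jBC L N)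
    (ν : Ideal B) (h : B)
    (hgen : ∃ s : R₀, s ∉ ν.comap (algebraMap R₀ B) ∧
      ∀ b : B, s • b ∈ Algebra.adjoin R₀ {h})
    (𝔥 : Ideal B) [𝔥.IsPrime] (hD : aeval h (derivative (minpoly R₀ h)) ∈ 𝔥) (hle : 𝔥 ≤ ν) :
    algebraMap R₀ B ϖ ∈ 𝔥 := by
  by_contra hϖ
  have hint : IsIntegral R₀ h := Algebra.IsIntegral.isIntegral h
  exact OrdT3.different_notMem_aux ι M N hr hr12 hrM hrN hjα ϖ hL jK hjK
    (ν.comap (algebraMap R₀ B)) h hgen (minpoly R₀ h) (minpoly.monic hint)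
    (natDegree_minpoly_le_finrank (K := FF L M) (F := FF L N) h hint) (minpoly.aeval R₀ h)
    𝔥 (Ideal.comap_mono hle) hϖ hD

include ι in
/-- **`hT3` of `OrdGlue2.exists_ord_data` at an auxiliary level** (`B₀ := R₀`,
`π₀ := ϖ`). -/
theorem hT3_chart {r : ℕ} (hr : r.Prime) (hr12 : r % 12 = 11) (hrM : r ∣ M)
    (hrN : r ∣ N) [Algebra (FF L M) (FF L N)] [IsScalarTower L (FF L M) (FF L N)]
    [FiniteDimensional (FF L M) (FF L N)]
    (hjα : algebraMap (FF L M) (FF L N) (jBC L M) = jBC L N)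
    {R₀ : Type*} [CommRing R₀] [IsDomain R₀] [IsNoetherianRing R₀] [IsIntegrallyClosed R₀]
    [Algebra R₀ (FF L M)] [IsFractionRing R₀ (FF L M)] [Algebra R₀ (FF L N)]
    [IsScalarTower R₀ (FF L M) (FF L N)]
    {B : Type*} [CommRing B] [IsDomain B] [IsIntegrallyClosed B] [Algebra R₀ B]
    [Algebra.IsIntegral R₀ B] [Algebra B (FF L N)] [IsFractionRing B (FF L N)]
    [IsScalarTower R₀ B (FF L N)]
    (ϖ : R₀)
    (hL : ∀ c : L, ∃ (k : ℕ) (r₀ : R₀),
      algebraMap R₀ (FF L M) ϖ ^ k * algebraMap L (FF L M) c = algebraMap R₀ (FF L M) r₀)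
    (jK : R₀) (hjK : algebraMap R₀ (FF L N) jK = jBC L N)
    (ν : Ideal B) :
    ∀ h : B, (∃ s : R₀, s ∉ ν.comap (algebraMap R₀ B) ∧
      ∀ b : B, s • b ∈ Algebra.adjoin R₀ {h}) →
      ∀ 𝔥 ∈ (Ideal.span {aeval h (derivative (minpoly R₀ h))} : Ideal B).minimalPrimes,
        𝔥 ≤ ν → algebraMap R₀ B ϖ ∈ 𝔥 := by
  intro h hgen 𝔥 h𝔥 hle
  haveI : 𝔥.IsPrime := h𝔥.1.1
  exact hT3_chart_prime ι M N hr hr12 hrM hrN hjα ϖ hL jK hjK ν h hgen 𝔥
    (h𝔥.1.2 (Ideal.subset_span rfl)) hle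

end Core

end Fermat.Agent.S36.OrdT3Chart
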