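import Mathlib
import Fermat.Agent.S36.ThetaInst
import Fermat.Agent.S36.NodeBranch
import Fermat.Agent.S34.KLocInst
import Fermat.Agent.S36.OrdEuler

/-!
# S36 (R-ord)/(R-ss): the `θ`-input at the finite chart of level `M q`

* `theta_minpoly` : `ThetaInst.exists_theta_poly` for THE minimal polynomial of `β j` over
  `α (FF L M)`: it has degree `q + 1`, integral coefficients, and `w (P'(β j))` has `q`-expansion
  `π · h` with `rd h ≠ 0`;
* `adjoin_beta_j_eq_top` : `β j` generates `FF L (M q)` over `α (FF L M)`;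
* `exists_theta_chart` : on chart carriers `BM → B` (levels `M`, `M q`): `θ ∈ B` with image
  `β j`, integral over `BM`, `minpoly BM θ` of degree `q + 1`, and the element
  `Δ = (minpoly BM θ)'(θ)` lies in the second branch `𝔭₂ = ker (rd ∘ coe ∘ w)` with
  `x Δ = π b`, `x ∉ 𝔭₂` ⟹ `b ∉ 𝔭₂` (the second Gauss valuation of `Δ` is exactly one);
* `exists_theta_euler` : the same `Δ` together with the Euler divisibility
  `m_h'(h) ∣ s · Δ` (`s ∉ P`) for every local generator `h` of `B` over `BM` at a prime `P`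
  (`OrdEuler.euler_dvd_chart`): the hypotheses `Δ`, `hΔ₂`, `hΔ`, `hEuler` of
  `OrdGlue1.exists_twoPoint_data` / `OrdInst2.ord_inst2_of_facts`;
* `isIntegral_alpha` : `B` is integral over `BM` along `α`.
-/

set_option autoImplicit false
set_option linter.unusedSectionVars false
set_option linter.style.haveILetI false

noncomputable section

namespace Fermat.Agent.S36.ThetaEuler

open ModularCurve Polynomial AlgebraicCurve Fermat.Agent.S18 Fermat.Agent.S18.Gauss
  Fermat.Agent.S24 Fermat.Agent.S34.TwoGauss Fermat.Agent.S36.ThetaSeries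
  Fermat.Agent.S36.ThetaTrick

local notation "Qb" => AlgebraicClosure ℚ

section Generic

/-- the minimal polynomial of an element which is integral over a subring: degree divides the
degree of the extension, coefficients integral -/
theorem minpoly_data {R K F : Type*} [CommRing R] [Field K] [Field F] (e : R →+* K)
    [Algebra K F] [FiniteDimensional K F] (n : ℕ) (hrank : Module.finrank K F = n) (y : F)
    (hy : ∃ Q : R[X], Q.Monic ∧ Q.eval₂ ((algebraMap K F).comp e) y = 0) :
    (minpoly K y).Monic ∧ (minpoly K y).natDegree ≤ n ∧ (minpoly K y).natDegree ∣ n ∧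
      (∀ i, e.IsIntegralElem ((minpoly K y).coeff i)) ∧
      (minpoly K y).eval₂ (algebraMap K F) y = 0 := by
  classical
  have hyint : IsIntegral K y := Algebra.IsIntegral.isIntegral y
  have hPm : (minpoly K y).Monic := minpoly.monic hyint
  refine ⟨hPm, ?_, ?_, ?_, ?_⟩
  · rw [← hrank]
    exact minpoly.natDegree_le y
  · have h1 := IntermediateField.adjoin.finrank hyint
    have h2 := Module.finrank_mul_finrank K (IntermediateField.adjoin K {y}) F
    rw [h1, hrank] at h2
    exact Dvd.intro _ h2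
  · letI algR : Algebra R K := e.toAlgebra
    obtain ⟨Q, hQ, hQroot⟩ := hy
    have hdvd : minpoly K y ∣ Q.map (algebraMap R K) := by
      apply minpoly.dvd
      rw [aeval_def, eval₂_map]
      exact hQroot
    have hl := integralClosure.mem_lifts_of_monic_of_dvd_map K hQ hPm hdvd
    rw [lifts_iff_coeff_lifts] at hl
    intro i
    obtain ⟨c, hc⟩ := hl i
    have hci : IsIntegral R ((minpoly K y).coeff i) := by
      rw [← hc]
      exact c.2
    exact hci
  · have h := minpoly.aeval K y
    rw [aeval_def] at h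
    exact h

end Generic

section Field

variable {L : Type} [Field L] [Algebra ℚ L] (W : ValuationSubring L) (M q : ℕ) [NeZero M]
  [NeZero q] [IsDiscreteValuationRing ↥W] [CharP (IsLocalRing.ResidueField ↥W) q]

set_option maxHeartbeats 1600000 in
/-- **The `θ`-trick for the minimal polynomial of `β j` over `α (FF L M)`.** -/
theorem theta_minpoly (hq : q.Prime) (hqM : ¬ q ∣ M) (ι : L →+* Qb)
    {π : ↥W} (hπ : Irreducible π) (hunr : ∃ u : (↥W)ˣ, ((q : ℕ) : ↥W) = π * u)
    (w : FF L (M * q) ≃ₐ[L] FF L (M * q))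
    (hwα : (w : FF L (M * q) →ₐ[L] FF L (M * q)).comp (heckeAlphaBar L M q) =
      heckeBetaBar L M q)
    (hwβ : (w : FF L (M * q) →ₐ[L] FF L (M * q)).comp (heckeBetaBar L M q) =
      heckeAlphaBar L M q) :
    letI := algebraAlong (heckeAlphaBar L M q)
    (minpoly (FF L M) (heckeBetaBar L M q (jBC L M))).natDegree = q + 1 ∧
      (∀ i, (evF W M).IsIntegralElem
        ((minpoly (FF L M) (heckeBetaBar L M q (jBC L M))).coeff i)) ∧
      ∃ h, h ∈ contentRing W ∧
        ((w ((minpoly (FF L M) (heckeBetaBar L M q (jBC L M))).derivative.eval₂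
          (heckeAlphaBar L M q).toRingHom (heckeBetaBar L M q (jBC L M))) : FF L (M * q)) :
            LaurentSeries L) = HahnSeries.C ((π : ↥W) : L) * h ∧
        rd W h ≠ 0 := by
  classical
  letI := algebraAlong (heckeAlphaBar L M q)
  haveI : Fact q.Prime := ⟨hq⟩
  obtain ⟨hfin, hrank⟩ := Fermat.Agent.S34.DegreeL.finrank_alpha_of_bar L ι M q hq hqM
  haveI := hfin
  set y : FF L (M * q) := heckeBetaBar L M q (jBC L M) with hy
  have hyQ : ∃ Q : ((↥W)[X])[X], Q.Monic ∧
      Q.eval₂ ((algebraMap (FF L M) (FF L (M * q))).comp (evF W M)) y = 0 := by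
    obtain ⟨Q, hQ, hQroot⟩ := Fermat.Agent.S34.BetaInt.isIntegralElem_beta_j (L := L) W
      (M := M) (ℓ := q) hq
    refine ⟨Q, hQ, ?_⟩
    have e : (algebraMap (FF L M) (FF L (M * q))).comp (evF W M) = evF W (M * q) :=
      Fermat.Agent.S34.BetaInt.alpha_comp_evF (L := L) W (M := M) (ℓ := q)
    rw [e]
    exact hQroot
  obtain ⟨hPm, hdegle, hdegdvd, hint, hroot⟩ := minpoly_data (evF W M) (q + 1) hrank y hyQ
  set P : (FF L M)[X] := minpoly (FF L M) y with hP
  have hroot' : P.eval₂ (heckeAlphaBar L M q).toRingHom y = 0 := hroot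
  -- the series polynomial
  set c : FF L M →+* LaurentSeries L := algebraMap (FF L M) (LaurentSeries L) with hc
  set c' : FF L (M * q) →+* LaurentSeries L := algebraMap (FF L (M * q)) (LaurentSeries L)
    with hc'
  have hcinj : Function.Injective c := (algebraMap (FF L M) (LaurentSeries L)).injective
  set Ps : (LaurentSeries L)[X] := P.map c with hPs
  have hPsm : Ps.Monic := hPm.map c
  have hPsdeg : Ps.natDegree = P.natDegree := natDegree_map_eq_of_injective hcinj P
  have hPsc : ∀ i, Ps.coeff i ∈ contentRing W := by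
    intro i
    rw [hPs, coeff_map]
    exact Fermat.Agent.S34.FrobPartner.mem_contentRing_of_int W M (hint i)
  have hwy : w y = jBC L (M * q) := by
    have h1 : w (heckeBetaBar L M q (jBC L M)) = heckeAlphaBar L M q (jBC L M) :=
      congrArg (fun f => f (jBC L M)) hwβ
    rw [hy, h1]
    exact Fermat.Agent.S34.CompInst.alpha_jBC M q
  have hc'β : c'.comp (((w : FF L (M * q) →ₐ[L] FF L (M * q)).toRingHom).comp
      (heckeAlphaBar L M q).toRingHom) = (qExpand L q).comp c := by
    apply RingHom.ext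
    intro x
    have h1 : w (heckeAlphaBar L M q x) = heckeBetaBar L M q x :=
      congrArg (fun f => f x) hwα
    show ((w (heckeAlphaBar L M q x) : FF L (M * q)) : LaurentSeries L) =
      qExpand L q ((x : FF L M) : LaurentSeries L)
    rw [h1, coe_heckeBetaBar]
  have hc'j : c' (jBC L (M * q)) = jqModC L := coe_jBC_eq L (M * q)
  -- transport of evaluations
  have htrans : ∀ G : (FF L M)[X],
      c' (w (G.eval₂ (heckeAlphaBar L M q).toRingHom y)) =
        ((G.map c).map (qExpand L q)).eval (jqModC L) := by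
    intro G
    have h1 := Polynomial.hom_eval₂ G (heckeAlphaBar L M q).toRingHom
      (c'.comp ((w : FF L (M * q) →ₐ[L] FF L (M * q)).toRingHom)) y
    rw [RingHom.comp_assoc, hc'β] at h1
    have h2 : (c'.comp ((w : FF L (M * q) →ₐ[L] FF L (M * q)).toRingHom)) y = jqModC L := by
      show c' (w y) = jqModC L
      rw [hwy, hc'j]
    rw [h2] at h1
    rw [eval_map, eval₂_map]
    exact h1
  have hroots : (Ps.map (qExpand L q)).eval (jqModC L) = 0 := by
    rw [hPs, ← htrans P, hroot', map_zero, map_zero]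
  have hθ : th (IsLocalRing.ResidueField ↥W) (rd W (jqModC L)) ≠ 0 := by
    rw [rd_jq]
    exact ThetaInst.th_jq_ne_zero _
  obtain ⟨hdeg2, h, hh, hder, hrd⟩ := theta_trick W q hπ hunr Ps hPsm (by rw [hPsdeg]; exact hdegle)
    hPsc (jqModC L) (jq_mem_contentRing W) hθ hroots
  have hdeg : P.natDegree = q + 1 := by
    rw [hPsdeg] at hdeg2
    rcases hdeg2 with h0 | h0
    · exfalso
      rw [h0] at hdegdvd
      have h1 : q ∣ 1 := (Nat.dvd_add_right (dvd_refl q)).mp hdegdvd
      exact hq.one_lt.ne' (Nat.dvd_one.mp h1)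
    · exact h0
  refine ⟨hdeg, hint, h, hh, ?_, hrd⟩
  have h3 := htrans P.derivative
  rw [derivative_map, derivative_map] at hder
  rw [← hder]
  exact h3

/-- **`β j` generates `FF L (M q)` over `α (FF L M)`.** -/
theorem adjoin_beta_j_eq_top (hq : q.Prime) (hqM : ¬ q ∣ M) (ι : L →+* Qb)
    {π : ↥W} (hπ : Irreducible π) (hunr : ∃ u : (↥W)ˣ, ((q : ℕ) : ↥W) = π * u)
    (w : FF L (M * q) ≃ₐ[L] FF L (M * q))
    (hwα : (w : FF L (M * q) →ₐ[L] FF L (M * q)).comp (heckeAlphaBar L M q) =
      heckeBetaBar L M q)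
    (hwβ : (w : FF L (M * q) →ₐ[L] FF L (M * q)).comp (heckeBetaBar L M q) =
      heckeAlphaBar L M q) :
    letI := algebraAlong (heckeAlphaBar L M q)
    Algebra.adjoin (FF L M) {heckeBetaBar L M q (jBC L M)} = ⊤ := by
  letI := algebraAlong (heckeAlphaBar L M q)
  obtain ⟨hfin, hrank⟩ := Fermat.Agent.S34.DegreeL.finrank_alpha_of_bar L ι M q hq hqM
  haveI := hfin
  obtain ⟨hdeg, -, -⟩ := theta_minpoly W M q hq hqM ι hπ hunr w hwα hwβ
  have hint : IsIntegral (FF L M) (heckeBetaBar L M q (jBC L M)) :=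
    Algebra.IsIntegral.isIntegral _
  have htop : IntermediateField.adjoin (FF L M) {heckeBetaBar L M q (jBC L M)} = ⊤ := by
    rw [Field.primitive_element_iff_minpoly_natDegree_eq, hdeg, hrank]
  have h1 := IntermediateField.adjoin_simple_toSubalgebra_of_isAlgebraic hint.isAlgebraic
  rw [htop] at h1
  rw [← h1]
  rfl

end Field

section Chart

variable {L : Type} [Field L] [Algebra ℚ L] (W : ValuationSubring L)
  [IsDiscreteValuationRing ↥W] (M q : ℕ) [NeZero M] [NeZero q]
  [CharP (IsLocalRing.ResidueField ↥W) q]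
  [Algebra (↥W)[X] (FF L M)] (halgM : algebraMap (↥W)[X] (FF L M) = evF W M)
  (BM : Type*) [CommRing BM] [Algebra (↥W)[X] BM] [Algebra BM (FF L M)]
  [IsScalarTower (↥W)[X] BM (FF L M)] [IsIntegralClosure BM (↥W)[X] (FF L M)]
  [Algebra (↥W)[X] (FF L (M * q))] (halg : algebraMap (↥W)[X] (FF L (M * q)) = evF W (M * q))
  (B : Type*) [CommRing B] [Algebra (↥W)[X] B] [Algebra B (FF L (M * q))]
  [IsScalarTower (↥W)[X] B (FF L (M * q))] [IsIntegralClosure B (↥W)[X] (FF L (M * q))]

include halgM halg in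
/-- the chart maps commute with `α`, in the function field -/
theorem algebraMap_alpha_chart [Algebra BM B]
    (hα : ∀ c : BM, algebraMap B (FF L (M * q)) (algebraMap BM B c) =
      heckeAlphaBar L M q (algebraMap BM (FF L M) c)) (p : (↥W)[X]) :
    algebraMap B (FF L (M * q)) (algebraMap BM B (algebraMap (↥W)[X] BM p)) =
      evF W (M * q) p := by
  rw [hα, ← IsScalarTower.algebraMap_apply (↥W)[X] BM (FF L M), halgM]
  have e := Fermat.Agent.S34.BetaInt.alpha_comp_evF (L := L) W (M := M) (ℓ := q)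
  exact congrArg (fun f : (↥W)[X] →+* FF L (M * q) => f p) e

include halgM halg in
/-- **`B` is integral over `BM` along `α`.** -/
theorem isIntegral_alpha [Algebra BM B]
    (hα : ∀ c : BM, algebraMap B (FF L (M * q)) (algebraMap BM B c) =
      heckeAlphaBar L M q (algebraMap BM (FF L M) c)) (b : B) : IsIntegral BM b := by
  obtain ⟨P, hP, hPx⟩ := Fermat.Agent.S34.CompInst.isIntegralElem_algebraMap W (M * q) halg B b
  refine ⟨P.map (algebraMap (↥W)[X] BM), hP.map _, ?_⟩
  apply IsIntegralClosure.algebraMap_injective B (↥W)[X] (FF L (M * q))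
  rw [map_zero, Polynomial.hom_eval₂, eval₂_map]
  have h1 : ((algebraMap B (FF L (M * q))).comp (algebraMap BM B)).comp (algebraMap (↥W)[X] BM) =
      evF W (M * q) := RingHom.ext (algebraMap_alpha_chart W M q halgM BM halg B hα)
  rw [h1]
  exact hPx

include halgM in
/-- **The `θ`-input at the chart.** -/
theorem exists_theta_chart (hq : q.Prime) (hqM : ¬ q ∣ M) (ι : L →+* Qb)
    {π : ↥W} (hπ : Irreducible π) (hunr : ∃ u : (↥W)ˣ, ((q : ℕ) : ↥W) = π * u)
    (w : FF L (M * q) ≃ₐ[L] FF L (M * q))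
    (hwα : (w : FF L (M * q) →ₐ[L] FF L (M * q)).comp (heckeAlphaBar L M q) =
      heckeBetaBar L M q)
    (hwβ : (w : FF L (M * q) →ₐ[L] FF L (M * q)).comp (heckeBetaBar L M q) =
      heckeAlphaBar L M q)
    [Algebra BM B]
    (hα : ∀ c : BM, algebraMap B (FF L (M * q)) (algebraMap BM B c) =
      heckeAlphaBar L M q (algebraMap BM (FF L M) c)) :
    ∃ θ : B, algebraMap B (FF L (M * q)) θ = heckeBetaBar L M q (jBC L M) ∧ IsIntegral BM θ ∧
      (minpoly BM θ).natDegree = q + 1 ∧
      aeval θ (derivative (minpoly BM θ)) ∈ NodeBranch.branch₂ W M q halg B hq w hwα ∧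
      ∀ x b : B, x * aeval θ (derivative (minpoly BM θ)) =
          algebraMap BM B (algebraMap (↥W)[X] BM (C π)) * b →
        x ∉ NodeBranch.branch₂ W M q halg B hq w hwα →
        b ∉ NodeBranch.branch₂ W M q halg B hq w hwα := by
  classical
  haveI : IsDomain BM := Fermat.Agent.S34.KLocInst.isDomain_fin W M BM
  haveI : IsFractionRing BM (FF L M) := Fermat.Agent.S34.KLocInst.isFractionRing_fin W M halgM BM
  haveI : IsIntegrallyClosed BM := Fermat.Agent.S34.KLocInst.isIntegrallyClosed_fin W M halgM BM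
  haveI : IsDomain B := Fermat.Agent.S34.KLocInst.isDomain_fin W (M * q) B
  obtain ⟨θ, hθ⟩ := Fermat.Agent.S34.CompInst.exists_algebraMap_eq W (M * q) halg B
    (Fermat.Agent.S34.BetaInt.isIntegralElem_beta_j (L := L) W (M := M) (ℓ := q) hq)
  have hθint : IsIntegral BM θ := isIntegral_alpha W M q halgM BM halg B hα θ
  letI := algebraAlong (heckeAlphaBar L M q)
  letI algBMF : Algebra BM (FF L (M * q)) :=
    ((algebraMap B (FF L (M * q))).comp (algebraMap BM B)).toAlgebra
  haveI : IsScalarTower BM B (FF L (M * q)) := IsScalarTower.of_algebraMap_eq (fun _ => rfl)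
  haveI : IsScalarTower BM (FF L M) (FF L (M * q)) :=
    IsScalarTower.of_algebraMap_eq (fun c => hα c)
  have hmin : minpoly (FF L M) (algebraMap B (FF L (M * q)) θ) =
      (minpoly BM θ).map (algebraMap BM (FF L M)) :=
    minpoly.isIntegrallyClosed_eq_field_fractions (FF L M) (FF L (M * q)) hθint
  rw [hθ] at hmin
  obtain ⟨hdeg, -, h, hh, hser, hrd⟩ := theta_minpoly W M q hq hqM ι hπ hunr w hwα hwβ
  set Δ : B := aeval θ (derivative (minpoly BM θ)) with hΔ
  have hΔF : algebraMap B (FF L (M * q)) Δ =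
      (minpoly (FF L M) (heckeBetaBar L M q (jBC L M))).derivative.eval₂
        (heckeAlphaBar L M q).toRingHom (heckeBetaBar L M q (jBC L M)) := by
    rw [hΔ, aeval_def, Polynomial.hom_eval₂, hmin, derivative_map, eval₂_map, hθ]
    congr 1
    exact RingHom.ext hα
  set c' : FF L (M * q) →+* LaurentSeries L := algebraMap (FF L (M * q)) (LaurentSeries L)
    with hc'
  set ρ : B →+* LaurentSeries L := c'.comp
    ((w : FF L (M * q) →ₐ[L] FF L (M * q)).toRingHom.comp (algebraMap B (FF L (M * q)))) with hρ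
  have hρmem : ∀ b : B, ρ b ∈ contentRing W := NodeBranch.mem₂ W M q halg B hq w hwα
  have hbr : ∀ b : B, b ∈ NodeBranch.branch₂ W M q halg B hq w hwα ↔ rd W (ρ b) = 0 :=
    fun b => NodeBranch.mem_branch₂ W M q halg B hq w hwα b
  have hρΔ : ρ Δ = HahnSeries.C ((π : ↥W) : L) * h := by
    show c' (w (algebraMap B (FF L (M * q)) Δ)) = _
    rw [hΔF]
    exact hser
  have hCπ : (HahnSeries.C ((π : ↥W) : L) : LaurentSeries L) ≠ 0 := by
    intro h0
    have h1 : ((π : ↥W) : L) = 0 := by
      have := congrArg (fun f : LaurentSeries L => f.coeff 0) h0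
      simpa using this
    exact hπ.ne_zero (Subtype.ext h1)
  have hρπ : ρ (algebraMap BM B (algebraMap (↥W)[X] BM (C π))) = HahnSeries.C ((π : ↥W) : L) := by
    show c' (w (algebraMap B (FF L (M * q)) (algebraMap BM B (algebraMap (↥W)[X] BM (C π))))) = _
    rw [algebraMap_alpha_chart W M q halgM BM halg B hα, evF_C, AlgEquiv.commutes]
    exact Fermat.Agent.S37.GaussPrime.coe_unif (W := W) (N := M * q) π
  refine ⟨θ, hθ, hθint, ?_, ?_, ?_⟩
  · have h1 := congrArg natDegree hmin
    rw [hdeg, (minpoly.monic hθint).natDegree_map] at h1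
    exact h1.symm
  · rw [hbr, hρΔ, rd_mul W (C_mem_contentRing W π) hh, rd_of_mem W (C_mem_contentRing W π),
      red_C_unif W hπ, zero_mul]
  · intro x b hxb hx hb
    apply hx
    rw [hbr] at hb ⊢
    have h1 := congrArg ρ hxb
    rw [map_mul, map_mul, hρΔ, hρπ] at h1
    have h2 : ρ b = ρ x * h := by
      have h3 : HahnSeries.C ((π : ↥W) : L) * (ρ x * h) = HahnSeries.C ((π : ↥W) : L) * ρ b := by
        rw [← h1]
        ring
      exact (mul_left_cancel₀ hCπ h3).symm
    rw [h2, rd_mul W (hρmem x) hh] at hb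
    rcases mul_eq_zero.mp hb with h4 | h4
    · exact h4
    · exact absurd h4 hrd

include halgM in
/-- **The `θ`-input and the Euler divisibility at the chart, in one package**: an element `Δ` of
the second branch of exact second Gauss valuation one which is divisible, up to a denominator
`s ∉ P`, by the different `m_h'(h)` of every local generator `h` of `B` over `BM` at `P`. -/
theorem exists_theta_euler (hq : q.Prime) (hqM : ¬ q ∣ M) (ι : L →+* Qb)
    {π : ↥W} (hπ : Irreducible π) (hunr : ∃ u : (↥W)ˣ, ((q : ℕ) : ↥W) = π * u)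
    (w : FF L (M * q) ≃ₐ[L] FF L (M * q))
    (hwα : (w : FF L (M * q) →ₐ[L] FF L (M * q)).comp (heckeAlphaBar L M q) =
      heckeBetaBar L M q)
    (hwβ : (w : FF L (M * q) →ₐ[L] FF L (M * q)).comp (heckeBetaBar L M q) =
      heckeAlphaBar L M q)
    [Algebra BM B]
    (hα : ∀ c : BM, algebraMap B (FF L (M * q)) (algebraMap BM B c) =
      heckeAlphaBar L M q (algebraMap BM (FF L M) c)) :
    ∃ Δ : B, Δ ∈ NodeBranch.branch₂ W M q halg B hq w hwα ∧
      (∀ x b : B, x * Δ = algebraMap BM B (algebraMap (↥W)[X] BM (C π)) * b →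
        x ∉ NodeBranch.branch₂ W M q halg B hq w hwα →
        b ∉ NodeBranch.branch₂ W M q halg B hq w hwα) ∧
      ∀ (P : Ideal BM) [P.IsPrime] (h : B),
        (∃ s : BM, s ∉ P ∧ ∀ b : B, s • b ∈ Algebra.adjoin BM {h}) →
        ∃ s : BM, s ∉ P ∧ aeval h (derivative (minpoly BM h)) ∣ algebraMap BM B s * Δ := by
  classical
  obtain ⟨θ, hθ, hθint, -, hΔ₂, hΔ⟩ :=
    exists_theta_chart W M q halgM BM halg B hq hqM ι hπ hunr w hwα hwβ hα
  refine ⟨aeval θ (derivative (minpoly BM θ)), hΔ₂, hΔ, ?_⟩
  intro P _ h hgen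
  haveI : IsDomain BM := Fermat.Agent.S34.KLocInst.isDomain_fin W M BM
  haveI : IsFractionRing BM (FF L M) := Fermat.Agent.S34.KLocInst.isFractionRing_fin W M halgM BM
  haveI : IsIntegrallyClosed BM := Fermat.Agent.S34.KLocInst.isIntegrallyClosed_fin W M halgM BM
  haveI : IsDomain B := Fermat.Agent.S34.KLocInst.isDomain_fin W (M * q) B
  haveI : IsFractionRing B (FF L (M * q)) :=
    Fermat.Agent.S34.KLocInst.isFractionRing_fin W (M * q) halg B
  letI := algebraAlong (heckeAlphaBar L M q)
  letI algBMF : Algebra BM (FF L (M * q)) :=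
    ((algebraMap B (FF L (M * q))).comp (algebraMap BM B)).toAlgebra
  haveI : IsScalarTower BM B (FF L (M * q)) := IsScalarTower.of_algebraMap_eq (fun _ => rfl)
  haveI : IsScalarTower BM (FF L M) (FF L (M * q)) :=
    IsScalarTower.of_algebraMap_eq (fun c => hα c)
  obtain ⟨hfin, -⟩ := Fermat.Agent.S34.DegreeL.finrank_alpha_of_bar L ι M q hq hqM
  haveI : FiniteDimensional (FF L M) (FF L (M * q)) := hfin
  haveI : CharZero L := algebraRat.charZero L
  haveI : CharZero (FF L M) :=
    charZero_of_injective_algebraMap (algebraMap L (FF L M)).injective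
  haveI : Algebra.IsSeparable (FF L M) (FF L (M * q)) := inferInstance
  have hθgen : Algebra.adjoin (FF L M) {algebraMap B (FF L (M * q)) θ} = ⊤ := by
    rw [hθ]
    exact adjoin_beta_j_eq_top W M q hq hqM ι hπ hunr w hwα hwβ
  exact OrdEuler.euler_dvd_chart (K₀ := FF L M) (K₁ := FF L (M * q)) P h θ
    (isIntegral_alpha W M q halgM BM halg B hα h) hθint hgen hθgen

end Chart

end Fermat.Agent.S36.ThetaEuler
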