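import Mathlib
import Fermat.Agent.S36.OrdInst2
import Fermat.Agent.S36.ThetaEuler
import Fermat.Agent.S36.OrdFacts0
import Fermat.Agent.S36.NodeBranch
import Fermat.Agent.S36.OrdT3Chart

/-!
# S36 (R-ord), clause (II): the composition on the S34 carriers (hedge for `OrdK4`)

`BM`, `B₁`, `B₂` the finite charts of levels `M`, `M q`, `M q²` (S34 carriers), `BM → B₁` the
algebra structure `NodeOverInst.alphaHom`, `ψβ : B₁ → B₂` any ring homomorphism inducing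
`heckeBetaBar`, `𝔭ᵢ = NodeBranch.branchᵢ`, `ν` a maximal ideal of `B₁` with `𝔭₂ ≤ ν`, `¬ 𝔭₁ ≤ ν`.

* `ord_k4_of_pieces` : K4 at every maximal `𝔫` of `B₂` with `𝔫.comap ψβ = ν` from the five chart
  facts `hne`, `hdich`, `huniq₂`, `h𝔭₁`, `hK` and `hT3`, in the literal binder shapes of
  `OrdInst2.ord_inst2_of_facts`; all other inputs are discharged from `OrdFacts0`, `NodeBranch`,
  `ThetaEuler`;
* `hT3_carrier` : `hT3` at an auxiliary level (`OrdT3Chart.hT3_chart` on the S34 carriers);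
* `ord_k4_of_five` : the same from the five facts only.
-/

set_option autoImplicit false
set_option linter.style.haveILetI false
set_option linter.unusedSectionVars false

namespace Fermat.Agent.S36.OrdK4H

open Polynomial ModularCurve AlgebraicCurve IsLocalRing Fermat.Agent.S18 Fermat.Agent.S18.Gauss
  Fermat.Agent.S34

local notation "Qb" => AlgebraicClosure ℚ
local notation "FF" => Fermat.Agent.S24.FF

section Main

variable {L : Type} [Field L] [Algebra ℚ L] (ι : L →+* Qb) (W : ValuationSubring L)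
  [IsDiscreteValuationRing ↥W] [IsAlgClosed (ResidueField ↥W)] (M q : ℕ) [NeZero M] [NeZero q]
  [CharP (ResidueField ↥W) q]
  [Algebra (↥W)[X] (FF L M)]
  (halgM : algebraMap (↥W)[X] (FF L M) = evF W M)
  (BM : Type*) [CommRing BM] [Algebra (↥W)[X] BM] [Algebra BM (FF L M)]
  [IsScalarTower (↥W)[X] BM (FF L M)]
  [IsIntegralClosure BM (↥W)[X] (FF L M)]
  [Algebra (↥W)[X] (FF L (M * q))]
  (halg₁ : algebraMap (↥W)[X] (FF L (M * q)) = evF W (M * q))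
  (B₁ : Type*) [CommRing B₁] [Algebra (↥W)[X] B₁] [Algebra B₁ (FF L (M * q))]
  [IsScalarTower (↥W)[X] B₁ (FF L (M * q))]
  [IsIntegralClosure B₁ (↥W)[X] (FF L (M * q))]
  [Algebra (↥W)[X] (FF L (M * q * q))]
  (halg₂ : algebraMap (↥W)[X] (FF L (M * q * q)) = evF W (M * q * q))
  (B₂ : Type*) [CommRing B₂] [Algebra (↥W)[X] B₂]
  [Algebra B₂ (FF L (M * q * q))]
  [IsScalarTower (↥W)[X] B₂ (FF L (M * q * q))]
  [IsIntegralClosure B₂ (↥W)[X] (FF L (M * q * q))]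


include ι halgM halg₁ in
/-- **(hT3) on the S34 carriers**: the different of a local generator lies in no horizontal
prime through `ν`, at an auxiliary level (`r ∣ M`, `r ≡ 11 mod 12`). -/
theorem hT3_carrier (hq : q.Prime) (hqM : ¬ q ∣ M)
    {π : ↥W} (hπ : Irreducible π) {r : ℕ} (hr : r.Prime) (hr12 : r % 12 = 11) (hrM : r ∣ M)
    [Algebra BM B₁]
    (hα : ∀ c : BM, algebraMap B₁ (FF L (M * q)) (algebraMap BM B₁ c) =
      heckeAlphaBar L M q (algebraMap BM (FF L M) c))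
    (ν : Ideal B₁) :
    ∀ h : B₁, (∃ s : BM, s ∉ ν.comap (algebraMap BM B₁) ∧
      ∀ b : B₁, s • b ∈ Algebra.adjoin BM {h}) →
      ∀ 𝔥 ∈ (Ideal.span {aeval h (derivative (minpoly BM h))} : Ideal B₁).minimalPrimes,
        𝔥 ≤ ν → algebraMap BM B₁ (algebraMap (↥W)[X] BM (C π)) ∈ 𝔥 := by
  haveI : IsDomain BM := KLocInst.isDomain_fin W M BM
  haveI : IsNoetherianRing BM := KLocInst.isNoetherianRing_fin W M halgM BM
  haveI : IsFractionRing BM (FF L M) := KLocInst.isFractionRing_fin W M halgM BM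
  haveI : IsIntegrallyClosed BM := KLocInst.isIntegrallyClosed_fin W M halgM BM
  haveI : IsDomain B₁ := KLocInst.isDomain_fin W (M * q) B₁
  haveI : IsFractionRing B₁ (FF L (M * q)) := KLocInst.isFractionRing_fin W (M * q) halg₁ B₁
  haveI : IsIntegrallyClosed B₁ := KLocInst.isIntegrallyClosed_fin W (M * q) halg₁ B₁
  haveI : Algebra.IsIntegral BM B₁ :=
    ⟨ThetaEuler.isIntegral_alpha W M q halgM BM halg₁ B₁ hα⟩
  letI := algebraAlong (heckeAlphaBar L M q)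
  haveI : IsScalarTower L (FF L M) (FF L (M * q)) := isScalarTower_along (heckeAlphaBar L M q)
  letI algBMF : Algebra BM (FF L (M * q)) :=
    ((algebraMap B₁ (FF L (M * q))).comp (algebraMap BM B₁)).toAlgebra
  haveI : IsScalarTower BM B₁ (FF L (M * q)) := IsScalarTower.of_algebraMap_eq (fun _ => rfl)
  haveI : IsScalarTower BM (FF L M) (FF L (M * q)) :=
    IsScalarTower.of_algebraMap_eq (fun c => hα c)
  obtain ⟨hfin, -⟩ := DegreeL.finrank_alpha_of_bar L ι M q hq hqM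
  haveI : FiniteDimensional (FF L M) (FF L (M * q)) := hfin
  have hC : ∀ a : ↥W, algebraMap BM (FF L M) (algebraMap (↥W)[X] BM (C a)) =
      algebraMap L (FF L M) (a : L) := by
    intro a
    rw [← IsScalarTower.algebraMap_apply (↥W)[X] BM (FF L M), halgM, evF_C]
  have hL : ∀ c : L, ∃ (k : ℕ) (r₀ : BM),
      algebraMap BM (FF L M) (algebraMap (↥W)[X] BM (C π)) ^ k * algebraMap L (FF L M) c =
        algebraMap BM (FF L M) r₀ := by
    intro c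
    rcases W.mem_or_inv_mem c with hc | hc
    · exact ⟨0, algebraMap (↥W)[X] BM (C ⟨c, hc⟩), by rw [pow_zero, one_mul, hC]⟩
    · by_cases hc0 : c = 0
      · exact ⟨0, 0, by rw [hc0, map_zero, mul_zero, map_zero]⟩
      have hne : (⟨c⁻¹, hc⟩ : W) ≠ 0 := by
        intro h0
        exact inv_ne_zero hc0 (congrArg Subtype.val h0)
      obtain ⟨k, u, hu⟩ := IsDiscreteValuationRing.eq_unit_mul_pow_irreducible hne hπ
      refine ⟨k, algebraMap (↥W)[X] BM (C ((u⁻¹ : (↥W)ˣ) : ↥W)), ?_⟩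
      rw [hC, hC, ← map_pow, ← map_mul]
      congr 1
      have h1 : (c⁻¹ : L) = ((u : ↥W) : L) * ((π : ↥W) : L) ^ k := by
        have := congrArg Subtype.val hu
        simpa using this
      have h2 : ((u : ↥W) : L) * (((u⁻¹ : (↥W)ˣ) : ↥W) : L) = 1 := by
        have h := congrArg (fun x : ↥W => (x : L)) (Units.mul_inv u)
        simpa only [MulMemClass.coe_mul, OneMemClass.coe_one] using h
      have hπ0 : ((π : ↥W) : L) ≠ 0 := fun h0 => hπ.ne_zero (Subtype.ext h0)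
      have h3 : c = (((u : ↥W) : L) * ((π : ↥W) : L) ^ k)⁻¹ := by rw [← h1, inv_inv]
      rw [h3, mul_inv_rev, ← mul_assoc, mul_inv_cancel₀ (pow_ne_zero k hπ0), one_mul]
      exact inv_eq_of_mul_eq_one_right h2
  have hjK : algebraMap BM (FF L (M * q)) (algebraMap (↥W)[X] BM X) = Fermat.Agent.S24.jBC L (M * q) := by
    show algebraMap B₁ (FF L (M * q)) (algebraMap BM B₁ (algebraMap (↥W)[X] BM X)) = _
    rw [hα, ← IsScalarTower.algebraMap_apply (↥W)[X] BM (FF L M), halgM, evF_X]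
    exact CompInst.alpha_jBC M q
  exact OrdT3Chart.hT3_chart ι M (M * q) hr hr12 hrM (Dvd.dvd.mul_right hrM q)
    (CompInst.alpha_jBC M q) (algebraMap (↥W)[X] BM (C π)) hL (algebraMap (↥W)[X] BM X) hjK ν

include ι halgM halg₁ halg₂ in
/-- clause (II) from the five chart facts which involve the vertical components -/
theorem ord_k4_of_pieces (hq : q.Prime) (hqM : ¬ q ∣ M)
    {π : ↥W} (hπ : Irreducible π) (hunr : ∃ u : (↥W)ˣ, ((q : ℕ) : ↥W) = π * u)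
    (w : FF L (M * q) ≃ₐ[L] FF L (M * q))
    (hwα : (w : FF L (M * q) →ₐ[L] FF L (M * q)).comp (heckeAlphaBar L M q) =
      heckeBetaBar L M q)
    (hwβ : (w : FF L (M * q) →ₐ[L] FF L (M * q)).comp (heckeBetaBar L M q) =
      heckeAlphaBar L M q)
    [Algebra BM B₁] (hα : algebraMap BM B₁ = NodeOverInst.alphaHom W M q halgM BM halg₁ B₁)
    (ψβ : B₁ →+* B₂)
    (hβ : ∀ b : B₁, algebraMap B₂ (FF L (M * q * q)) (ψβ b) =
      heckeBetaBar L (M * q) q (algebraMap B₁ (FF L (M * q)) b))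
    (ν : Ideal B₁) [ν.IsMaximal]
    (hν₂ : NodeBranch.branch₂ W M q halg₁ B₁ hq w hwα ≤ ν)
    (hν₁ : ¬ NodeBranch.branch₁ W M q halg₁ B₁ ≤ ν)
    (hne : ¬ ν ≤ NodeBranch.branch₂ W M q halg₁ B₁ hq w hwα)
    (hdich : ∀ (ν' : Ideal B₁) [ν'.IsMaximal],
      algebraMap BM B₁ (algebraMap (↥W)[X] BM (C π)) ∈ ν' →
      (∃ u ∈ ν', maximalIdeal (Localization.AtPrime ν') =
        Ideal.span {algebraMap B₁ (Localization.AtPrime ν')
            (algebraMap BM B₁ (algebraMap (↥W)[X] BM (C π))),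
          algebraMap B₁ (Localization.AtPrime ν') u}) ∨
      (∃ X ∈ ν', ∃ Y ∈ ν', algebraMap BM B₁ (algebraMap (↥W)[X] BM (C π)) ∣ X * Y ∧
        maximalIdeal (Localization.AtPrime ν') =
        Ideal.span {algebraMap B₁ (Localization.AtPrime ν')
            (algebraMap BM B₁ (algebraMap (↥W)[X] BM (C π))),
          algebraMap B₁ (Localization.AtPrime ν') X, algebraMap B₁ (Localization.AtPrime ν') Y}))
    (huniq₂ : ∀ ν' : Ideal B₁, ν'.IsPrime → NodeBranch.branch₂ W M q halg₁ B₁ hq w hwα ≤ ν' →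
      ν'.comap (algebraMap BM B₁) = ν.comap (algebraMap BM B₁) → ν' = ν)
    (h𝔭₁ : (NodeBranch.branch₁ W M q halg₁ B₁).comap (algebraMap BM B₁) ≤
      ν.comap (algebraMap BM B₁))
    (hK : ∀ c : BM, ∃ b : B₁, algebraMap BM B₁ c - b ^ q ∈
      NodeBranch.branch₂ W M q halg₁ B₁ hq w hwα)
    (hT3 : ∀ h : B₁, (∃ s : BM, s ∉ ν.comap (algebraMap BM B₁) ∧
      ∀ b : B₁, s • b ∈ Algebra.adjoin BM {h}) →
      ∀ 𝔥 ∈ (Ideal.span {aeval h (derivative (minpoly BM h))} : Ideal B₁).minimalPrimes,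
        𝔥 ≤ ν → algebraMap BM B₁ (algebraMap (↥W)[X] BM (C π)) ∈ 𝔥)
    (𝔫 : Ideal B₂) [h𝔫 : 𝔫.IsMaximal] (h𝔫ν : 𝔫.comap ψβ = ν)
    (𝔮 : Ideal B₂) [h𝔮 : 𝔮.IsPrime] (h𝔮𝔫 : 𝔮 ≤ 𝔫)
    (hπ𝔮 : ψβ (algebraMap BM B₁ (algebraMap (↥W)[X] BM (C π))) ∉ 𝔮) :
    ∃ x ∈ 𝔮, ∃ d, d ∉ 𝔫 ∧ ∀ y ∈ 𝔮, x ∣ d * y := by
  haveI : Fact q.Prime := ⟨hq⟩
  haveI : Module.Finite BM B₁ := OrdFacts0.moduleFinite_alpha W M q halgM BM halg₁ B₁ hα
  have hαspec : ∀ c : BM, algebraMap B₁ (FF L (M * q)) (algebraMap BM B₁ c) =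
      heckeAlphaBar L M q (algebraMap BM (FF L M) c) := by
    intro c
    rw [hα]
    exact NodeOverInst.alphaHom_spec W M q halgM BM halg₁ B₁ c
  have hππ : algebraMap BM B₁ (algebraMap (↥W)[X] BM (C π)) = algebraMap (↥W)[X] B₁ (C π) :=
    OrdFacts0.algebraMap_algebraMap W M q halgM BM halg₁ B₁ hα (C π)
  have hπ₁ : algebraMap BM B₁ (algebraMap (↥W)[X] BM (C π)) ∈ NodeBranch.branch₁ W M q halg₁ B₁ := by
    rw [hππ]
    exact NodeBranch.pi_mem_branch₁ W M q halg₁ B₁ hπ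
  have hπ₂ : algebraMap BM B₁ (algebraMap (↥W)[X] BM (C π)) ∈
      NodeBranch.branch₂ W M q halg₁ B₁ hq w hwα := by
    rw [hππ]
    exact NodeBranch.pi_mem_branch₂ W M q halg₁ B₁ hq w hwα hπ
  have hS1 : NodeBranch.branch₁ W M q halg₁ B₁ ⊓ NodeBranch.branch₂ W M q halg₁ B₁ hq w hwα ≤
      Ideal.span {algebraMap BM B₁ (algebraMap (↥W)[X] BM (C π))} := by
    rw [hππ]
    exact (NodeBranch.branch_inf W M q halg₁ B₁ hq w hwα ι hqM hπ hwβ).le
  obtain ⟨Δ, hΔ₂, hΔ, hEu⟩ :=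
    ThetaEuler.exists_theta_euler W M q halgM BM halg₁ B₁ hq hqM ι hπ hunr w hwα hwβ hαspec
  haveI : Infinite (BM ⧸ ν.comap (algebraMap BM B₁)) :=
    OrdFacts0.infinite_quot_comap W M q halgM BM halg₁ B₁ hα hπ ν (hν₂ hπ₂)
  exact OrdInst2.ord_inst2_of_facts ι W M q halgM BM halg₁ B₁ halg₂ B₂ hq w hwα hwβ hαspec ψβ hβ
    (algebraMap (↥W)[X] BM (C π)) (OrdFacts0.pi_ne_zero W M q halgM BM halg₁ B₁ hα hπ)
    (OrdFacts0.pi_dvd_q W M q halgM BM halg₁ B₁ hα hunr)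
    (NodeBranch.branch₁ W M q halg₁ B₁) (NodeBranch.branch₂ W M q halg₁ B₁ hq w hwα) hπ₁ hπ₂ hS1
    ν hν₂ hν₁ hne
    (fun ν' hν' hπν' b => OrdFacts0.hres W M q halgM BM halg₁ B₁ hα hπ ν' hν' hπν' b)
    hdich huniq₂ h𝔭₁ hK
    (OrdFacts0.hdeg_of_comap W M q halgM BM halg₁ B₁ hα ι hq hqM ν) Δ hΔ₂ hΔ
    (fun h hg => hEu _ h hg) hT3 𝔫 h𝔫ν 𝔮 h𝔮𝔫 hπ𝔮

include ι halgM halg₁ halg₂ in
/-- **Clause (II) at an auxiliary level from the five chart facts `hne`, `hdich`, `huniq₂`,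
`h𝔭₁`, `hK`** (everything else discharged from main). -/
theorem ord_k4_of_five (hq : q.Prime) (hqM : ¬ q ∣ M)
    {π : ↥W} (hπ : Irreducible π) (hunr : ∃ u : (↥W)ˣ, ((q : ℕ) : ↥W) = π * u)
    {r : ℕ} (hr : r.Prime) (hr12 : r % 12 = 11) (hrM : r ∣ M)
    (w : FF L (M * q) ≃ₐ[L] FF L (M * q))
    (hwα : (w : FF L (M * q) →ₐ[L] FF L (M * q)).comp (heckeAlphaBar L M q) =
      heckeBetaBar L M q)
    (hwβ : (w : FF L (M * q) →ₐ[L] FF L (M * q)).comp (heckeBetaBar L M q) =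
      heckeAlphaBar L M q)
    [Algebra BM B₁] (hα : algebraMap BM B₁ = NodeOverInst.alphaHom W M q halgM BM halg₁ B₁)
    (ψβ : B₁ →+* B₂)
    (hβ : ∀ b : B₁, algebraMap B₂ (FF L (M * q * q)) (ψβ b) =
      heckeBetaBar L (M * q) q (algebraMap B₁ (FF L (M * q)) b))
    (ν : Ideal B₁) [ν.IsMaximal]
    (hν₂ : NodeBranch.branch₂ W M q halg₁ B₁ hq w hwα ≤ ν)
    (hν₁ : ¬ NodeBranch.branch₁ W M q halg₁ B₁ ≤ ν)
    (hne : ¬ ν ≤ NodeBranch.branch₂ W M q halg₁ B₁ hq w hwα)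
    (hdich : ∀ (ν' : Ideal B₁) [ν'.IsMaximal],
      algebraMap BM B₁ (algebraMap (↥W)[X] BM (C π)) ∈ ν' →
      (∃ u ∈ ν', maximalIdeal (Localization.AtPrime ν') =
        Ideal.span {algebraMap B₁ (Localization.AtPrime ν')
            (algebraMap BM B₁ (algebraMap (↥W)[X] BM (C π))),
          algebraMap B₁ (Localization.AtPrime ν') u}) ∨
      (∃ X ∈ ν', ∃ Y ∈ ν', algebraMap BM B₁ (algebraMap (↥W)[X] BM (C π)) ∣ X * Y ∧
        maximalIdeal (Localization.AtPrime ν') =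
        Ideal.span {algebraMap B₁ (Localization.AtPrime ν')
            (algebraMap BM B₁ (algebraMap (↥W)[X] BM (C π))),
          algebraMap B₁ (Localization.AtPrime ν') X, algebraMap B₁ (Localization.AtPrime ν') Y}))
    (huniq₂ : ∀ ν' : Ideal B₁, ν'.IsPrime → NodeBranch.branch₂ W M q halg₁ B₁ hq w hwα ≤ ν' →
      ν'.comap (algebraMap BM B₁) = ν.comap (algebraMap BM B₁) → ν' = ν)
    (h𝔭₁ : (NodeBranch.branch₁ W M q halg₁ B₁).comap (algebraMap BM B₁) ≤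
      ν.comap (algebraMap BM B₁))
    (hK : ∀ c : BM, ∃ b : B₁, algebraMap BM B₁ c - b ^ q ∈
      NodeBranch.branch₂ W M q halg₁ B₁ hq w hwα)
    (𝔫 : Ideal B₂) [h𝔫 : 𝔫.IsMaximal] (h𝔫ν : 𝔫.comap ψβ = ν)
    (𝔮 : Ideal B₂) [h𝔮 : 𝔮.IsPrime] (h𝔮𝔫 : 𝔮 ≤ 𝔫)
    (hπ𝔮 : ψβ (algebraMap BM B₁ (algebraMap (↥W)[X] BM (C π))) ∉ 𝔮) :
    ∃ x ∈ 𝔮, ∃ d, d ∉ 𝔫 ∧ ∀ y ∈ 𝔮, x ∣ d * y := by
  have hαspec : ∀ c : BM, algebraMap B₁ (FF L (M * q)) (algebraMap BM B₁ c) =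
      heckeAlphaBar L M q (algebraMap BM (FF L M) c) := by
    intro c
    rw [hα]
    exact NodeOverInst.alphaHom_spec W M q halgM BM halg₁ B₁ c
  exact ord_k4_of_pieces ι W M q halgM BM halg₁ B₁ halg₂ B₂ hq hqM hπ hunr w hwα hwβ hα ψβ hβ ν
    hν₂ hν₁ hne hdich huniq₂ h𝔭₁ hK
    (hT3_carrier ι W M q halgM BM halg₁ B₁ hq hqM hπ hr hr12 hrM hαspec ν) 𝔫 h𝔫ν 𝔮 h𝔮𝔫 hπ𝔮

end Main

end Fermat.Agent.S36.OrdK4H
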