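import Mathlib
import Fermat.Agent.S36.OrdLevel2

/-!
# S36 (R-ord), step (J1): the two-point lemma on the chart of level `M q²`, chart-level data

`ψ : B₁ → B₂` an injective integral ring homomorphism of domains (the chart of level `M q` inside
the chart of level `M q²` through a degeneracy map), `ν` a maximal ideal of `B₁`, `R` any
localisation of `B₁` at `ν` with `𝔪_R = (π₁, u)`, `(π₁)` prime (a smooth point).  `H₀ ∈ B₁[X]` is a
monic polynomial whose image in `R[X]` has the two-point shape `(X - c)(X - d)^e + π₁ G₁`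
(`c - d` and `G₁(d)` units), `y ∈ B₂` is a root of `ψ(H₀)` such that `H₀` has minimal degree among
the nonzero polynomials over `B₁` killing `y`, and every element of `B₂` has a nonzero
`B₁`-multiple in `ψ(B₁)[y]`.  Then the contract K4 (`HorPrincipal`) holds at every maximal ideal
of `B₂` over `ν`.

The statement `ord_level2` is binder-for-binder the step (J1) of the (R-ord) plan; the proof runs
the lemmas `OrdLevel2.exists_aeval_eq`, `OrdLevel2.exists_pir_quot` for an arbitrary localisation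
`R` and clears denominators for the degree hypothesis.
-/

set_option autoImplicit false
set_option linter.style.haveILetI false

namespace Fermat.Agent.S36.OrdLevel2J

open IsLocalRing Polynomial

/-- **(J1)** K4 (`HorPrincipal`) at the points of the chart of level `M q²` over a smooth point of
the chart of level `M q`, from two-point data. -/
theorem ord_level2 {B₁ B₂ : Type*} [CommRing B₁] [IsDomain B₁] [CommRing B₂] [IsDomain B₂]
    [IsNoetherianRing B₂] [IsIntegrallyClosed B₂] (ψ : B₁ →+* B₂)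
    (hψinj : Function.Injective ψ) (hψ : ψ.IsIntegral) (ν : Ideal B₁) [ν.IsMaximal]
    (R : Type*) [CommRing R] [IsDomain R] [IsLocalRing R] [IsNoetherianRing R]
    [IsIntegrallyClosed R] [Algebra B₁ R] [IsLocalization.AtPrime R ν] (π₁ : B₁) (u c d : R)
    (hm : maximalIdeal R = Ideal.span {algebraMap B₁ R π₁, u})
    (hπ : (Ideal.span {algebraMap B₁ R π₁} : Ideal R).IsPrime) (H₀ : B₁[X]) (hmonic : H₀.Monic)
    (G₁ : R[X]) (e : ℕ) (he : e ≠ 0)
    (hH : H₀.map (algebraMap B₁ R) = (X - C c) * (X - C d) ^ e + C (algebraMap B₁ R π₁) * G₁)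
    (hcd : IsUnit (c - d)) (hG₁ : IsUnit (G₁.eval d)) (y : B₂) (hy : H₀.eval₂ ψ y = 0)
    (hdeg : ∀ G : B₁[X], G ≠ 0 → G.eval₂ ψ y = 0 → H₀.natDegree ≤ G.natDegree)
    (hspan : ∀ b : B₂, ∃ r : B₁, r ≠ 0 ∧ ∃ G : B₁[X], ψ r * b = G.eval₂ ψ y)
    (𝔫 : Ideal B₂) [𝔫.IsMaximal] (h𝔫 : 𝔫.comap ψ = ν) (𝔮 : Ideal B₂) [𝔮.IsPrime] (h𝔮 : 𝔮 ≤ 𝔫)
    (hπ𝔮 : ψ π₁ ∉ 𝔮) : ∃ x ∈ 𝔮, ∃ d' : B₂, d' ∉ 𝔫 ∧ ∀ z ∈ 𝔮, x ∣ d' * z := by
  classical
  letI : Algebra B₁ B₂ := ψ.toAlgebra
  have hψalg : algebraMap B₁ B₂ = ψ := rfl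
  haveI : Algebra.IsIntegral B₁ B₂ := ⟨hψ⟩
  have hνprime : ν.IsPrime := inferInstance
  let T : Submonoid B₂ := Algebra.algebraMapSubmonoid B₂ ν.primeCompl
  let A := Localization T
  letI : Algebra R A := localizationAlgebra ν.primeCompl B₂
  haveI : IsScalarTower B₁ R A := isScalarTower_localizationAlgebra ν.primeCompl B₂
  -- instances on `A`
  have hT : T ≤ nonZeroDivisors B₂ := by
    rintro _ ⟨s, hs, rfl⟩
    refine mem_nonZeroDivisors_of_ne_zero ?_
    intro h0
    have hs0 : s = 0 := hψinj (by rw [← hψalg, h0, map_zero])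
    exact hs (hs0 ▸ ν.zero_mem)
  haveI : IsDomain A := IsLocalization.isDomain_localization hT
  have hinjBA : Function.Injective (algebraMap B₂ A) := IsLocalization.injective A hT
  have hinjRA : Function.Injective (algebraMap R A) :=
    localizationAlgebra_injective R A hψinj
  haveI : Algebra.IsIntegral R A :=
    ⟨isIntegral_localization (R := B₁) (S := B₂) (M := ν.primeCompl) (Rₘ := R) (Sₘ := A)⟩
  have hinjB₁R : Function.Injective (algebraMap B₁ R) :=
    IsLocalization.injective R (Ideal.primeCompl_le_nonZeroDivisors ν)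
  set y' : A := algebraMap B₂ A y with hy'def
  set π : R := algebraMap B₁ R π₁ with hπdef
  set H : R[X] := H₀.map (algebraMap B₁ R) with hHdef
  have hHmonic : H.Monic := hmonic.map _
  have hHdeg : H.natDegree = H₀.natDegree := hmonic.natDegree_map _
  -- evaluation of a chart polynomial at `y'`
  have heval : ∀ G : B₁[X], aeval y' (G.map (algebraMap B₁ R)) = algebraMap B₂ A (G.eval₂ ψ y) := by
    intro G
    rw [Polynomial.aeval_map_algebraMap, hy'def, Polynomial.aeval_algebraMap_apply, aeval_def,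
      hψalg]
  have hyH : aeval y' H = 0 := by
    rw [hHdef, heval, hy, map_zero]
  -- the degree hypothesis over `R`
  have hdegR : H.natDegree ≤ (minpoly R y').natDegree := by
    have hint : IsIntegral R y' := Algebra.IsIntegral.isIntegral y'
    set μ := minpoly R y' with hμ
    have hμ0 : μ ≠ 0 := minpoly.ne_zero hint
    set G := IsLocalization.integerNormalization ν.primeCompl μ with hG
    have hG0 : G ≠ 0 := by
      intro h0
      exact hμ0 ((IsLocalization.integerNormalization_eq_zero_iff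
        (Ideal.primeCompl_le_nonZeroDivisors ν) μ).1 h0)
    obtain ⟨b, hb, hGb⟩ := IsLocalization.integerNormalization_spec ν.primeCompl μ
    have hGy : G.eval₂ ψ y = 0 := by
      apply hinjBA
      rw [← heval, hGb, map_zero, ← IsScalarTower.algebraMap_smul R b μ, map_smul, hμ,
        minpoly.aeval, smul_zero]
    have h1 : H₀.natDegree ≤ G.natDegree := hdeg G hG0 hGy
    have h2 : G.natDegree ≤ μ.natDegree := by
      rw [Polynomial.natDegree_le_iff_coeff_eq_zero]
      intro N hN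
      by_contra hne
      have h3 : N ∈ μ.support :=
        IsLocalization.integerNormalization_support ν.primeCompl μ (Polynomial.mem_support_iff.2 hne)
      exact (Polynomial.mem_support_iff.1 h3) (Polynomial.coeff_eq_zero_of_natDegree_lt hN)
    rw [hHdeg]
    exact h1.trans h2
  -- `Frac A = Frac R (y')`
  have hfracA : ∀ a : A, ∃ r : R, r ≠ 0 ∧ algebraMap R A r * a ∈ Algebra.adjoin R {y'} := by
    intro a
    obtain ⟨⟨x, t⟩, hxt⟩ := IsLocalization.surj T a
    have hxt' : a * algebraMap B₂ A (t : B₂) = algebraMap B₂ A x := hxt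
    obtain ⟨t₁, ht₁, ht₁'⟩ := t.2
    obtain ⟨r₁, hr₁, G₀, hG₀⟩ := hspan x
    refine ⟨algebraMap B₁ R (r₁ * t₁), ?_, ?_⟩
    · intro h0
      have h1 : r₁ * t₁ = 0 := hinjB₁R (by rw [h0, map_zero])
      rcases mul_eq_zero.mp h1 with h2 | h2
      · exact hr₁ h2
      · exact ht₁ (h2 ▸ ν.zero_mem)
    · have h3 : algebraMap R A (algebraMap B₁ R (r₁ * t₁)) * a
          = aeval y' (G₀.map (algebraMap B₁ R)) := by
        rw [heval, ← hG₀, ← IsScalarTower.algebraMap_apply B₁ R A,
          IsScalarTower.algebraMap_apply B₁ B₂ A, map_mul, map_mul, map_mul, ht₁', hψalg,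
          mul_assoc, mul_comm (algebraMap B₂ A (t : B₂)) a, hxt']
      rw [h3]
      exact aeval_mem_adjoin_singleton R y'
  -- `A = R[y']`
  have hgen : ∀ a : A, ∃ G : R[X], aeval y' G = a :=
    OrdLevel2.exists_aeval_eq hinjRA π u c d hm hπ H G₁ e he hH hHmonic hcd hG₁ y' hyH hdegR
      hfracA
  have htf : Module.IsTorsionFree R A :=
    (Module.isTorsionFree_iff_algebraMap_injective (R := R) (A := A)).mpr hinjRA
  have hpres : ∀ G : R[X], aeval y' G = 0 → H ∣ G :=
    TwoPoint.hpres_of_natDegree_le H hHmonic y' hyH hdegR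
  -- the point `𝔑` of `A`
  have h𝔫max : 𝔫.IsMaximal := inferInstance
  have h𝔫prime : 𝔫.IsPrime := h𝔫max.isPrime
  have hdisjT : Disjoint (T : Set B₂) (𝔫 : Set B₂) := by
    rw [Set.disjoint_left]
    rintro _ ⟨s, hs, rfl⟩ hmem
    have h1 : s ∈ 𝔫.comap ψ := hmem
    rw [h𝔫] at h1
    exact hs h1
  let 𝔑 : Ideal A := 𝔫.map (algebraMap B₂ A)
  have h𝔑max : 𝔑.IsMaximal := OrdLevel2.map_isMaximal_of_disjoint T A 𝔫 hdisjT
  have h𝔑prime : 𝔑.IsPrime := h𝔑max.isPrime
  have hcomap : 𝔑.comap (algebraMap B₂ A) = 𝔫 :=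
    IsLocalization.under_map_of_isPrime_disjoint T A h𝔫prime hdisjT
  let L := Localization.AtPrime 𝔑
  have hloc₀ : IsLocalization.AtPrime L (𝔑.comap (algebraMap B₂ A)) :=
    IsLocalization.isLocalization_isLocalization_atPrime_isLocalization T L 𝔑
  have hloc : IsLocalization.AtPrime L 𝔫 := by
    convert hloc₀ using 2
    all_goals exact hcomap.symm
  obtain ⟨t, htm, htpir, htdvd⟩ := OrdLevel2.exists_pir_quot π u c d hm hπ H G₁ e he hH hHmonic
    hcd hG₁ y' hyH hgen hpres 𝔑 L
  have hdisj𝔮 : Disjoint (𝔫.primeCompl : Set B₂) (𝔮 : Set B₂) := by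
    rw [Set.disjoint_left]
    intro z hz hz𝔮
    exact hz (h𝔮 hz𝔮)
  refine Fermat.Agent.S36.OrdPoint.horPrincipal_of_quotient_pir 𝔫 L t htm 𝔮 h𝔮 ?_
  intro ht𝔮
  apply hπ𝔮
  have h1 : algebraMap A L (algebraMap R A π) ∈ 𝔮.map (algebraMap B₂ L) :=
    Ideal.mem_of_dvd _ htdvd ht𝔮
  have h2 : algebraMap A L (algebraMap R A π) = algebraMap B₂ L (algebraMap B₁ B₂ π₁) := by
    rw [hπdef, ← IsScalarTower.algebraMap_apply B₁ R A, IsScalarTower.algebraMap_apply B₁ B₂ A,
      ← IsScalarTower.algebraMap_apply B₂ A L]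
  rw [h2] at h1
  have h3 : algebraMap B₁ B₂ π₁ ∈ (Ideal.map (algebraMap B₂ L) 𝔮).under B₂ := h1
  rwa [IsLocalization.under_map_of_isPrime_disjoint 𝔫.primeCompl L inferInstance hdisj𝔮] at h3

end Fermat.Agent.S36.OrdLevel2J
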