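import Mathlib
import Fermat.Agent.S36.OrdT3Chart
import Fermat.Agent.S36.NodeCarrier
import Fermat.Agent.S34.BetaInt

/-!
# S36, (R-ord): `hT3` on the S34 carriers of levels `M`, `M q`

The hypothesis `hT3` of `OrdInst2.ord_inst2_of_facts` / `OrdGlue1.exists_twoPoint_data` /
`OrdGlue2.exists_ord_data`, on the carriers `BM`, `B₁` of the finite charts of levels `M`, `M q`
(integral closures of `W[X]`, `X ↦ j`, in the function fields), the algebra structure `BM → B₁`
being an instance binder specified by `hα` (it induces `heckeAlphaBar L M q`), at an auxiliary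
level (`r` prime, `r % 12 = 11`, `r ∣ M`), `π₀ := algebraMap W[X] BM (C π)` for an irreducible
`π` of the discrete valuation ring `W`.  No other hypothesis.

* `algebraMap_algebraMap`, `isScalarTower_chart`, `isIntegral_chart` : `W[X] → BM → B₁` is a
  tower and `B₁` is integral over `BM` (from `hα` alone);
* `hT3_inst` : the statement (every prime of `B₁` minimal over `(minpoly BM h)'(h)` and
  contained in `ν` contains `π`, for every local generator `h` of `B₁` over `BM` at `ν ∩ BM`);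
* `hT3_inst_prime` : the same for every prime `𝔥 ≤ ν` containing the different.
-/

set_option autoImplicit false
set_option linter.unusedSectionVars false
set_option linter.style.haveILetI false

namespace Fermat.Agent.S36.OrdT3Inst

open Polynomial ModularCurve AlgebraicCurve Fermat.Agent.S18 Fermat.Agent.S18.Gauss
  Fermat.Agent.S34

local notation "Qb" => AlgebraicClosure ℚ
local notation "FF" => Fermat.Agent.S24.FF

section Main

variable {L : Type} [Field L] [Algebra ℚ L] (ι : L →+* Qb) (W : ValuationSubring L)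
  [IsDiscreteValuationRing ↥W] (M q : ℕ) [NeZero M] [NeZero q]
  [Algebra (↥W)[X] (FF L M)] (halgM : algebraMap (↥W)[X] (FF L M) = evF W M)
  (BM : Type*) [CommRing BM] [Algebra (↥W)[X] BM] [Algebra BM (FF L M)]
  [IsScalarTower (↥W)[X] BM (FF L M)] [IsIntegralClosure BM (↥W)[X] (FF L M)]
  [Algebra (↥W)[X] (FF L (M * q))] (halg₁ : algebraMap (↥W)[X] (FF L (M * q)) = evF W (M * q))
  (B₁ : Type*) [CommRing B₁] [Algebra (↥W)[X] B₁] [Algebra B₁ (FF L (M * q))]
  [IsScalarTower (↥W)[X] B₁ (FF L (M * q))] [IsIntegralClosure B₁ (↥W)[X] (FF L (M * q))]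
  [Algebra BM B₁]
  (hα : ∀ c : BM, algebraMap B₁ (FF L (M * q)) (algebraMap BM B₁ c) =
    heckeAlphaBar L M q (algebraMap BM (FF L M) c))

omit [IsDiscreteValuationRing ↥W] [IsIntegralClosure BM (↥W)[X] (FF L M)] in
include halgM halg₁ hα in
/-- the chart maps commute with `α` -/
theorem algebraMap_algebraMap (p : (↥W)[X]) :
    algebraMap BM B₁ (algebraMap (↥W)[X] BM p) = algebraMap (↥W)[X] B₁ p := by
  apply IsIntegralClosure.algebraMap_injective B₁ (↥W)[X] (FF L (M * q))
  rw [hα, ← IsScalarTower.algebraMap_apply (↥W)[X] BM (FF L M),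
    ← IsScalarTower.algebraMap_apply (↥W)[X] B₁ (FF L (M * q)), halgM, halg₁,
    ← BetaInt.alpha_comp_evF W M q]
  rfl

omit [IsDiscreteValuationRing ↥W] [IsIntegralClosure BM (↥W)[X] (FF L M)] in
include halgM halg₁ hα in
/-- `W[X] → BM → B₁` is a tower -/
theorem isScalarTower_chart : IsScalarTower (↥W)[X] BM B₁ :=
  IsScalarTower.of_algebraMap_eq
    (fun p => (algebraMap_algebraMap W M q halgM BM halg₁ B₁ hα p).symm)

omit [IsDiscreteValuationRing ↥W] [IsIntegralClosure BM (↥W)[X] (FF L M)] in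
include halgM halg₁ hα in
/-- `B₁` is integral over `BM` -/
theorem isIntegral_chart : Algebra.IsIntegral BM B₁ := by
  haveI := isScalarTower_chart W M q halgM BM halg₁ B₁ hα
  refine ⟨fun b => ?_⟩
  have hb : IsIntegral (↥W)[X] b := IsIntegralClosure.isIntegral (↥W)[X] (FF L (M * q)) b
  exact hb.tower_top

include ι halgM halg₁ hα in
/-- **`hT3` on the S34 carriers, all primes**: at an auxiliary level, for a local generator `h`
of `B₁` over `BM` at `ν ∩ BM`, every prime `𝔥 ≤ ν` of `B₁` containing `(minpoly BM h)'(h)`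
contains `π`. -/
theorem hT3_inst_prime (hq : q.Prime) (hqM : ¬ q ∣ M) {r : ℕ} (hr : r.Prime)
    (hr12 : r % 12 = 11) (hrM : r ∣ M) {π : W} (hπ : Irreducible π) (ν : Ideal B₁) (h : B₁)
    (hgen : ∃ s : BM, s ∉ ν.comap (algebraMap BM B₁) ∧
      ∀ b : B₁, s • b ∈ Algebra.adjoin BM {h})
    (𝔥 : Ideal B₁) [𝔥.IsPrime] (hD : aeval h (derivative (minpoly BM h)) ∈ 𝔥) (hle : 𝔥 ≤ ν) :
    algebraMap BM B₁ (algebraMap (↥W)[X] BM (C π)) ∈ 𝔥 := by
  letI iK : Algebra (FF L M) (FF L (M * q)) := algebraAlong (heckeAlphaBar L M q)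
  haveI tK : IsScalarTower L (FF L M) (FF L (M * q)) := isScalarTower_along (heckeAlphaBar L M q)
  obtain ⟨hfin, -⟩ := DegreeL.finrank_alpha_of_bar L ι M q hq hqM
  haveI : FiniteDimensional (FF L M) (FF L (M * q)) := hfin
  haveI := KLocInst.isDomain_fin W M BM
  haveI := KLocInst.isNoetherianRing_fin W M halgM BM
  haveI := KLocInst.isFractionRing_fin W M halgM BM
  haveI := KLocInst.isIntegrallyClosed_fin W M halgM BM
  haveI := KLocInst.isDomain_fin W (M * q) B₁
  haveI := KLocInst.isFractionRing_fin W (M * q) halg₁ B₁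
  haveI := KLocInst.isIntegrallyClosed_fin W (M * q) halg₁ B₁
  letI iBF : Algebra BM (FF L (M * q)) :=
    ((algebraMap (FF L M) (FF L (M * q))).comp (algebraMap BM (FF L M))).toAlgebra
  haveI t1 : IsScalarTower BM (FF L M) (FF L (M * q)) :=
    IsScalarTower.of_algebraMap_eq (fun _ => rfl)
  haveI t2 : IsScalarTower BM B₁ (FF L (M * q)) :=
    IsScalarTower.of_algebraMap_eq (fun c => (hα c).symm)
  haveI := isIntegral_chart W M q halgM BM halg₁ B₁ hα
  have hjα : algebraMap (FF L M) (FF L (M * q)) (Fermat.Agent.S24.jBC L M) =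
      Fermat.Agent.S24.jBC L (M * q) := CompInst.alpha_jBC M q
  have hL : ∀ c : L, ∃ (k : ℕ) (r₀ : BM),
      algebraMap BM (FF L M) (algebraMap (↥W)[X] BM (C π)) ^ k * algebraMap L (FF L M) c =
        algebraMap BM (FF L M) r₀ := by
    intro c
    obtain ⟨k, r₀, h0⟩ := NodeCarrier.hL_of_chart W M halgM BM BM hπ c
    exact ⟨k, r₀, h0⟩
  have hjK : algebraMap BM (FF L (M * q)) (algebraMap (↥W)[X] BM X) =
      Fermat.Agent.S24.jBC L (M * q) := by
    have h0 := NodeCarrier.algebraMap_X_top W M q halgM BM BM (fun _ => rfl)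
    exact h0
  exact OrdT3Chart.hT3_chart_prime ι M (M * q) hr hr12 hrM (Dvd.dvd.mul_right hrM q) hjα
    (algebraMap (↥W)[X] BM (C π)) hL (algebraMap (↥W)[X] BM X) hjK ν h hgen 𝔥 hD hle

include ι halgM halg₁ hα in
/-- **`hT3` of `OrdInst2.ord_inst2_of_facts` / `OrdGlue1.exists_twoPoint_data` /
`OrdGlue2.exists_ord_data` on the S34 carriers** (`B₀ := BM`, `B := B₁`,
`π₀ := algebraMap W[X] BM (C π)`), at an auxiliary level. -/
theorem hT3_inst (hq : q.Prime) (hqM : ¬ q ∣ M) {r : ℕ} (hr : r.Prime)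
    (hr12 : r % 12 = 11) (hrM : r ∣ M) {π : W} (hπ : Irreducible π) (ν : Ideal B₁) :
    ∀ h : B₁, (∃ s : BM, s ∉ ν.comap (algebraMap BM B₁) ∧
      ∀ b : B₁, s • b ∈ Algebra.adjoin BM {h}) →
      ∀ 𝔥 ∈ (Ideal.span {aeval h (derivative (minpoly BM h))} : Ideal B₁).minimalPrimes,
        𝔥 ≤ ν → algebraMap BM B₁ (algebraMap (↥W)[X] BM (C π)) ∈ 𝔥 := by
  intro h hgen 𝔥 h𝔥 hle
  haveI : 𝔥.IsPrime := h𝔥.1.1
  exact hT3_inst_prime ι W M q halgM BM halg₁ B₁ hα hq hqM hr hr12 hrM hπ ν h hgen 𝔥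
    (h𝔥.1.2 (Ideal.subset_span rfl)) hle

end Main

end Fermat.Agent.S36.OrdT3Inst
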