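import Mathlib
import Fermat.Agent.S36.NodeTheta
import Fermat.Agent.S36.BetaGen
import Fermat.Agent.S36.OrdEuler
import Fermat.Agent.S36.OrdT3Chart

/-!
# S36 (R-ord): the `θ`-block of `OrdInst2.ord_inst2_of_facts` on the S34 carriers

`BM → B` the finite charts of levels `M`, `M q` (S34 style), with the algebra structure induced
by `α` (`hα : algebraMap BM B = NodeOverInst.alphaHom …`, the block of `OrdFacts0`), at an
unramified DVR level with an auxiliary prime `r ∣ M`, `r ≡ 11 mod 12`.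

* `theta_block` : there is `Δ : B` (the different of `β j` over the level-`M` chart) with
  `Δ ∈ 𝔭₂`, `hΔ`, and for EVERY prime `ν` of `B` the hypotheses `hEuler`, `hT3` of
  `OrdInst2.ord_inst2_of_facts` / `OrdGlue1.exists_twoPoint_data`, in their literal binder shapes
  (`π₀ := algebraMap W[X] BM (C π)`, `𝔭₂ := NodeBranch.branch₂ W M q halg B hq w hwα`).
-/

set_option autoImplicit false
set_option linter.unusedSectionVars false
set_option linter.style.haveILetI false

noncomputable section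

namespace Fermat.Agent.S36.OrdThetaBlock

open ModularCurve Polynomial AlgebraicCurve Fermat.Agent.S18 Fermat.Agent.S18.Gauss
  Fermat.Agent.S24 Fermat.Agent.S34 IsLocalRing

local notation "Qb" => AlgebraicClosure ℚ

variable {L : Type} [Field L] [Algebra ℚ L] (W : ValuationSubring L)
  [IsDiscreteValuationRing ↥W] (M q : ℕ) [NeZero M] [NeZero q]
  [CharP (IsLocalRing.ResidueField ↥W) q]
  [Algebra (↥W)[X] (FF L M)] (halgM : algebraMap (↥W)[X] (FF L M) = evF W M)
  (BM : Type*) [CommRing BM] [Algebra (↥W)[X] BM] [Algebra BM (FF L M)]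
  [IsScalarTower (↥W)[X] BM (FF L M)] [IsIntegralClosure BM (↥W)[X] (FF L M)]
  [Algebra (↥W)[X] (FF L (M * q))] (halg : algebraMap (↥W)[X] (FF L (M * q)) = evF W (M * q))
  (B : Type*) [CommRing B] [Algebra (↥W)[X] B] [Algebra B (FF L (M * q))]
  [IsScalarTower (↥W)[X] B (FF L (M * q))] [IsIntegralClosure B (↥W)[X] (FF L (M * q))]
  [Algebra BM B]
  (hα : algebraMap BM B = NodeOverInst.alphaHom W M q halgM BM halg B)

include hα in
/-- **The `θ`-block of `OrdInst2.ord_inst2_of_facts`**: `Δ`, `hΔ₂`, `hΔ`, and `hEuler`, `hT3` at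
every prime `ν` of the chart of level `M q`. -/
theorem theta_block (ι : L →+* Qb) (hq : q.Prime) (hqM : ¬ q ∣ M) {π : ↥W} (hπ : Irreducible π)
    (hunr : ∃ u : (↥W)ˣ, ((q : ℕ) : ↥W) = π * u)
    {r : ℕ} (hr : r.Prime) (hr12 : r % 12 = 11) (hrM : r ∣ M)
    (w : FF L (M * q) ≃ₐ[L] FF L (M * q))
    (hwα : (w : FF L (M * q) →ₐ[L] FF L (M * q)).comp (heckeAlphaBar L M q) =
      heckeBetaBar L M q)
    (hwβ : (w : FF L (M * q) →ₐ[L] FF L (M * q)).comp (heckeBetaBar L M q) =
      heckeAlphaBar L M q) :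
    ∃ Δ : B, Δ ∈ NodeBranch.branch₂ W M q halg B hq w hwα ∧
      (∀ x b : B, x * Δ = algebraMap BM B (algebraMap (↥W)[X] BM (C π)) * b →
        x ∉ NodeBranch.branch₂ W M q halg B hq w hwα →
        b ∉ NodeBranch.branch₂ W M q halg B hq w hwα) ∧
      ∀ (ν : Ideal B) [ν.IsPrime],
        (∀ h : B, (∃ s : BM, s ∉ ν.comap (algebraMap BM B) ∧
            ∀ b : B, s • b ∈ Algebra.adjoin BM {h}) →
          ∃ s : BM, s ∉ ν.comap (algebraMap BM B) ∧
            aeval h (derivative (minpoly BM h)) ∣ algebraMap BM B s * Δ) ∧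
        (∀ h : B, (∃ s : BM, s ∉ ν.comap (algebraMap BM B) ∧
            ∀ b : B, s • b ∈ Algebra.adjoin BM {h}) →
          ∀ 𝔥 ∈ (Ideal.span {aeval h (derivative (minpoly BM h))} : Ideal B).minimalPrimes,
            𝔥 ≤ ν → algebraMap BM B (algebraMap (↥W)[X] BM (C π)) ∈ 𝔥) := by
  classical
  have hα' : ∀ c : BM, algebraMap B (FF L (M * q)) (algebraMap BM B c) =
      heckeAlphaBar L M q (algebraMap BM (FF L M) c) := fun c => by
    rw [hα]
    exact NodeOverInst.alphaHom_spec W M q halgM BM halg B c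
  obtain ⟨θ, hθ⟩ := NodeTheta.exists_theta W M q halg B hq
  obtain ⟨hθint, -, hΔ₂, hΔ, -⟩ := NodeTheta.theta_chart ι W M q halgM BM halg B hα' hq hqM hπ
    hunr w hwα hwβ θ hθ
  refine ChartSquare.with_chart ι W M q halgM BM halg B hα' hq hqM ?_
  intro _ _ _ _ _ _ _ _ _ _ _ _ _ _ _ _ _ halgK hrank hinj
  have hπeq : algebraMap BM B (algebraMap (↥W)[X] BM (C π)) = algebraMap (↥W)[X] B (C π) :=
    (IsScalarTower.algebraMap_apply (↥W)[X] BM B (C π)).symm
  have hjα : algebraMap (FF L M) (FF L (M * q)) (jBC L M) = jBC L (M * q) := by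
    rw [halgK]
    exact CompInst.alpha_jBC M q
  have hθgen : Algebra.adjoin (FF L M) {algebraMap B (FF L (M * q)) θ} = ⊤ := by
    rw [hθ]
    exact BetaGen.adjoin_beta_j_eq_top W M q hq hqM ι hπ hunr w hwα hwβ halgK
  refine ⟨aeval θ (derivative (minpoly BM θ)), hΔ₂, ?_, ?_⟩
  · intro x b hxb
    rw [hπeq] at hxb
    exact hΔ x b hxb
  · intro ν _
    refine ⟨?_, ?_⟩
    · intro h hgen
      exact OrdEuler.euler_dvd_chart (K₀ := FF L M) (K₁ := FF L (M * q))
        (ν.comap (algebraMap BM B)) h θ (Algebra.IsIntegral.isIntegral h) hθint hgen hθgen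
    · exact OrdT3Chart.hT3_chart ι M (M * q) hr hr12 hrM (Dvd.dvd.mul_right hrM q) hjα
        (algebraMap (↥W)[X] BM (C π)) (ChartSquare.hL_chart W M halgM BM hπ)
        (algebraMap (↥W)[X] BM X) (ChartSquare.algebraMap_X_top W M q halgM BM halgK) ν

end Fermat.Agent.S36.OrdThetaBlock
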