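import Mathlib
import Fermat.Agent.S36.ThetaEuler
import Fermat.Agent.S36.OrdT3Inst

/-!
# S36, (R-ord): the `θ`-block of `OrdInst2.ord_inst2_of_facts` on the S34 carriers, in one call

`theta_block` : on the carriers `BM`, `B₁` of the finite charts of levels `M`, `M q` (algebra
structure `BM → B₁` an instance binder specified by `hα`), at an unramified level with an
auxiliary prime (`r` prime, `r % 12 = 11`, `r ∣ M`), for every prime `ν` of `B₁`: there is
`Δ : B₁` with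

* `Δ ∈ 𝔭₂` (`hΔ₂`), `𝔭₂ := NodeBranch.branch₂ W M q halg₁ B₁ hq w hwα`;
* `x * Δ = π * b → x ∉ 𝔭₂ → b ∉ 𝔭₂` (`hΔ`);
* the Euler divisibility `m_h'(h) ∣ s * Δ`, `s ∉ ν ∩ BM`, for every local generator `h` of `B₁`
  over `BM` at `ν ∩ BM` (`hEuler`);
* every prime of `B₁` minimal over `m_h'(h)` and contained in `ν` contains `π` (`hT3`);

in the literal binder shapes of `OrdInst2.ord_inst2_of_facts` / `OrdGlue1.exists_twoPoint_data`
(`π₀ := algebraMap W[X] BM (C π)`).  It is the conjunction of `ThetaEuler.exists_theta_euler`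
and `OrdT3Inst.hT3_inst`.
-/

set_option autoImplicit false
set_option linter.unusedSectionVars false
set_option linter.style.haveILetI false

namespace Fermat.Agent.S36.OrdThetaInst

open Polynomial ModularCurve AlgebraicCurve Fermat.Agent.S18 Fermat.Agent.S18.Gauss
  Fermat.Agent.S34

local notation "Qb" => AlgebraicClosure ℚ
local notation "FF" => Fermat.Agent.S24.FF

section Main

variable {L : Type} [Field L] [Algebra ℚ L] (ι : L →+* Qb) (W : ValuationSubring L)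
  [IsDiscreteValuationRing ↥W] (M q : ℕ) [NeZero M] [NeZero q]
  [CharP (IsLocalRing.ResidueField ↥W) q]
  [Algebra (↥W)[X] (FF L M)] (halgM : algebraMap (↥W)[X] (FF L M) = evF W M)
  (BM : Type*) [CommRing BM] [Algebra (↥W)[X] BM] [Algebra BM (FF L M)]
  [IsScalarTower (↥W)[X] BM (FF L M)] [IsIntegralClosure BM (↥W)[X] (FF L M)]
  [Algebra (↥W)[X] (FF L (M * q))] (halg₁ : algebraMap (↥W)[X] (FF L (M * q)) = evF W (M * q))
  (B₁ : Type*) [CommRing B₁] [Algebra (↥W)[X] B₁] [Algebra B₁ (FF L (M * q))]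
  [IsScalarTower (↥W)[X] B₁ (FF L (M * q))] [IsIntegralClosure B₁ (↥W)[X] (FF L (M * q))]

include ι halgM in
/-- **The `θ`-block (`Δ`, `hΔ₂`, `hΔ`, `hEuler`, `hT3`) of `OrdInst2.ord_inst2_of_facts` on the
S34 carriers, with no residual hypothesis.** -/
theorem theta_block (hq : q.Prime) (hqM : ¬ q ∣ M) {r : ℕ} (hr : r.Prime)
    (hr12 : r % 12 = 11) (hrM : r ∣ M)
    {π : ↥W} (hπ : Irreducible π) (hunr : ∃ u : (↥W)ˣ, ((q : ℕ) : ↥W) = π * u)
    (w : FF L (M * q) ≃ₐ[L] FF L (M * q))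
    (hwα : (w : FF L (M * q) →ₐ[L] FF L (M * q)).comp (heckeAlphaBar L M q) =
      heckeBetaBar L M q)
    (hwβ : (w : FF L (M * q) →ₐ[L] FF L (M * q)).comp (heckeBetaBar L M q) =
      heckeAlphaBar L M q)
    [Algebra BM B₁]
    (hα : ∀ c : BM, algebraMap B₁ (FF L (M * q)) (algebraMap BM B₁ c) =
      heckeAlphaBar L M q (algebraMap BM (FF L M) c))
    (ν : Ideal B₁) [ν.IsPrime] :
    ∃ Δ : B₁, Δ ∈ NodeBranch.branch₂ W M q halg₁ B₁ hq w hwα ∧
      (∀ x b : B₁, x * Δ = algebraMap BM B₁ (algebraMap (↥W)[X] BM (C π)) * b →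
        x ∉ NodeBranch.branch₂ W M q halg₁ B₁ hq w hwα →
        b ∉ NodeBranch.branch₂ W M q halg₁ B₁ hq w hwα) ∧
      (∀ h : B₁, (∃ s : BM, s ∉ ν.comap (algebraMap BM B₁) ∧
        ∀ b : B₁, s • b ∈ Algebra.adjoin BM {h}) →
        ∃ s : BM, s ∉ ν.comap (algebraMap BM B₁) ∧
          aeval h (derivative (minpoly BM h)) ∣ algebraMap BM B₁ s * Δ) ∧
      (∀ h : B₁, (∃ s : BM, s ∉ ν.comap (algebraMap BM B₁) ∧
        ∀ b : B₁, s • b ∈ Algebra.adjoin BM {h}) →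
        ∀ 𝔥 ∈ (Ideal.span {aeval h (derivative (minpoly BM h))} : Ideal B₁).minimalPrimes,
          𝔥 ≤ ν → algebraMap BM B₁ (algebraMap (↥W)[X] BM (C π)) ∈ 𝔥) := by
  obtain ⟨Δ, hΔ₂, hΔ, hEu⟩ :=
    ThetaEuler.exists_theta_euler W M q halgM BM halg₁ B₁ hq hqM ι hπ hunr w hwα hwβ hα
  exact ⟨Δ, hΔ₂, hΔ, fun h hg => hEu (ν.comap (algebraMap BM B₁)) h hg,
    OrdT3Inst.hT3_inst ι W M q halgM BM halg₁ B₁ hα hq hqM hr hr12 hrM hπ ν⟩

end Main

end Fermat.Agent.S36.OrdThetaInst
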