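import Mathlib
import Fermat.Agent.S35.SmoothGenInst
import Fermat.Agent.S36.FrobLevel

/-!
# S36: `S35.SmoothGenInst.finite_node_or_good` at a Frobenius-stable level

Twin of `S35.SmoothGenInst.finite_node_or_good` with the hypothesis
`FrobLevel.FrobStable A q ι` (some Frobenius lift at `A` restricts to `L`) in place of
`GalLevel.IsStable ι` (and without `hA`).
-/

set_option autoImplicit false
set_option linter.unusedSectionVars false
set_option linter.style.haveILetI false

noncomputable section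

namespace Fermat.Agent.S36.SmoothGenInstF

open Polynomial ModularCurve Fermat.Agent.S18 Fermat.Agent.S18.Gauss Fermat.Agent.S24
  IsLocalRing

local notation "Qb" => AlgebraicClosure ℚ

/-- **Node or good parameter on the finite chart of level `M q` at a Frobenius-stable level.**
For every carrier `B` of the finite chart over `W = A.comap ι`, every Atkin–Lehner automorphism
`w` and every maximal ideal `𝔫 ∋ ϖ` of `B`: EITHER `𝔫` is a node (it contains the kernels of
both reduction maps `red ∘ coe`, `red ∘ coe ∘ w`), OR `𝔪_{B_𝔫} = (ϖ, u)` for some `u ∈ 𝔫` such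
that `u⁻¹` and `w(u)⁻¹` have `W`-integral `q`-expansions. -/
theorem finite_node_or_good_frob (A : ValuationSubring Qb) {L : Type} [Field L] [Algebra ℚ L]
    (ι : L →+* Qb) (M q : ℕ) [NeZero M] [NeZero q] (hq : q.Prime) (hqM : ¬ q ∣ M)
    (S : Finset Qb) (hlev : Fermat.Agent.S37.LevelChange.IsLevel A q S ι)
    (hstab : Fermat.Agent.S36.FrobLevel.FrobStable A q ι)
    (π : ↥(A.comap ι)) (hπ : Irreducible π)
    (w : FF L (M * q) ≃ₐ[L] FF L (M * q))
    (hwα : (w : FF L (M * q) →ₐ[L] FF L (M * q)).comp (heckeAlphaBar L M q) =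
      heckeBetaBar L M q)
    (hwβ : (w : FF L (M * q) →ₐ[L] FF L (M * q)).comp (heckeBetaBar L M q) =
      heckeAlphaBar L M q)
    [Algebra (↥(A.comap ι))[X] (FF L (M * q))]
    (halg : algebraMap (↥(A.comap ι))[X] (FF L (M * q)) = evF (A.comap ι) (M * q))
    (B : Type*) [CommRing B] [Algebra (↥(A.comap ι))[X] B] [Algebra B (FF L (M * q))]
    [IsScalarTower (↥(A.comap ι))[X] B (FF L (M * q))]
    [IsIntegralClosure B (↥(A.comap ι))[X] (FF L (M * q))]
    (𝔫 : Ideal B) [𝔫.IsMaximal] (hπ𝔫 : algebraMap (↥(A.comap ι))[X] B (C π) ∈ 𝔫)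
    (R : Type*) [CommRing R] [Algebra B R] [IsLocalization.AtPrime R 𝔫] [IsLocalRing R] :
    ((∀ (b : B) (h : ((algebraMap B (FF L (M * q)) b : FF L (M * q)) : LaurentSeries L) ∈
          contentRing (A.comap ι)), red (A.comap ι) ⟨_, h⟩ = 0 → b ∈ 𝔫) ∧
      (∀ (b : B) (h : ((w (algebraMap B (FF L (M * q)) b) : FF L (M * q)) : LaurentSeries L) ∈
          contentRing (A.comap ι)), red (A.comap ι) ⟨_, h⟩ = 0 → b ∈ 𝔫)) ∨
    ∃ u ∈ 𝔫, maximalIdeal R =
        Ideal.span {algebraMap B R (algebraMap (↥(A.comap ι))[X] B (C π)), algebraMap B R u} ∧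
      (((algebraMap B (FF L (M * q)) u)⁻¹ : FF L (M * q)) : LaurentSeries L) ∈
        contentRing (A.comap ι) ∧
      (((w (algebraMap B (FF L (M * q)) u))⁻¹ : FF L (M * q)) : LaurentSeries L) ∈
        contentRing (A.comap ι) := by
  have hdich := Fermat.Agent.S36.FrobLevel.finite_dich_frob A ι M q hq hqM S hlev hstab π hπ
    halg B 𝔫 hπ𝔫 R
  obtain ⟨-, -, hdvr, -, -, hchar, -, -⟩ := hlev
  haveI := hdvr
  haveI := hchar
  haveI : Fact q.Prime := ⟨hq⟩
  exact Fermat.Agent.S35.SmoothGenInst.node_or_good_of_dich (A.comap ι) M q B hq π hπ w hwα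
    (fun x hint h1 h2 hr1 hr2 =>
      Fermat.Agent.S34.FinDich.s1_fin_level ι (A.comap ι) M q hqM hπ w hwα hwβ x hint h1 h2
        hr1 hr2)
    halg 𝔫 hπ𝔫 R hdich

end Fermat.Agent.S36.SmoothGenInstF
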