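/-
S36 (wave 8), slice (R-ss), abstract part at level `M'q²`.

* `pullback_generator` : `φ : R₁ → B` integral, `B` a noetherian integrally closed local domain,
  `(z)` a prime of `R₁` above which every prime is maximal (`R₁ ⧸ (z)` is a DVR), `𝔓` the ONLY
  prime of `B` over `(z)`, and `φ z` generates `𝔓` locally at `𝔓` (ramification index one).
  Then `𝔓 = (φ z)`.  (Application: `𝔓 = 𝔭_∞`, `φ = β^*`, `z` the generator of the branch `𝔭₁`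
  of the level-`M'q` node given by `ThickOne.thick_one`.)
* `ss_level2` : if moreover `B ⧸ 𝔓` is a principal ideal ring (the branch is a DVR), then
  `φ z` is a prime element, `B` is a unique factorisation domain and every prime ideal of `B`
  not containing `φ z` is principal (helper20's `PrincipalOfPIR`).

Pure commutative algebra (Mathlib + `S36.ThickOne` + `S36.PrincipalOfPIR`).
-/
import Mathlib
import Fermat.Agent.S36.ThickOne
import Fermat.Agent.S36.PrincipalOfPIR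

set_option autoImplicit false

namespace Fermat.Agent.S36.SsLevel2

open Ideal IsLocalRing

variable {R₁ B : Type*} [CommRing R₁] [CommRing B] [IsDomain B] [IsNoetherianRing B]
  [IsIntegrallyClosed B] [IsLocalRing B]

/-- **Pull-back of a principal branch along a finite map with `e = 1` and a single point in the
fibre.** -/
theorem pullback_generator (φ : R₁ →+* B) (hφ : φ.IsIntegral) (z : R₁) (𝔓 : Ideal B)
    [𝔓.IsPrime] (hz0 : φ z ≠ 0) (hz𝔓 : φ z ∈ 𝔓)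
    (hab : ∀ 𝔞 : Ideal R₁, 𝔞.IsPrime → z ∈ 𝔞 → 𝔞 = Ideal.span {z} ∨ 𝔞.IsMaximal)
    (huniq : ∀ 𝔮 : Ideal B, 𝔮.IsPrime → 𝔮.comap φ = Ideal.span {z} → 𝔮 = 𝔓)
    (hloc : ∃ s : B, s ∉ 𝔓 ∧ ∀ a ∈ 𝔓, φ z ∣ s * a) :
    𝔓 = Ideal.span {φ z} := by
  refine Fermat.Agent.S36.ThickOne.eq_span_of_unique_minimal 𝔓 (φ z) hz0 hz𝔓 ?_ hloc
  intro 𝔮 h𝔮
  have h𝔮p : 𝔮.IsPrime := h𝔮.1.1
  have hz𝔮 : z ∈ 𝔮.comap φ := by
    rw [Ideal.mem_comap]
    exact h𝔮.1.2 (Ideal.subset_span rfl)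
  rcases hab (𝔮.comap φ) (Ideal.comap_isPrime φ 𝔮) hz𝔮 with h | h
  · exact huniq 𝔮 h𝔮p h
  · have hmax : 𝔮.IsMaximal := Ideal.isMaximal_of_isIntegral_of_isMaximal_comap' φ hφ 𝔮 h
    have h𝔮eq : 𝔮 = maximalIdeal B := IsLocalRing.eq_maximalIdeal hmax
    have h𝔓le : 𝔓 ≤ 𝔮 := h𝔮eq ▸ IsLocalRing.le_maximalIdeal (Ideal.IsPrime.ne_top inferInstance)
    have hspan : Ideal.span {φ z} ≤ 𝔓 := by
      rw [Ideal.span_le, Set.singleton_subset_iff]; exact hz𝔓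
    exact le_antisymm (h𝔮.2 ⟨inferInstance, hspan⟩ h𝔓le) h𝔓le

omit [IsDomain B] [IsNoetherianRing B] [IsIntegrallyClosed B] [IsLocalRing B] in
/-- A variant of the local-generation hypothesis: it is enough that `φ z` divides `s * ϖ` for
some `s ∉ 𝔓` and that `ϖ` generates `𝔓` locally (`∃ s' ∉ 𝔓, ∀ a ∈ 𝔓, ϖ ∣ s' * a`). -/
theorem hloc_of_dvd (𝔓 : Ideal B) [𝔓.IsPrime] (x ϖ : B)
    (h1 : ∃ s : B, s ∉ 𝔓 ∧ x ∣ s * ϖ) (h2 : ∃ s' : B, s' ∉ 𝔓 ∧ ∀ a ∈ 𝔓, ϖ ∣ s' * a) :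
    ∃ s : B, s ∉ 𝔓 ∧ ∀ a ∈ 𝔓, x ∣ s * a := by
  obtain ⟨s, hs, e, he⟩ := h1
  obtain ⟨s', hs', h⟩ := h2
  refine ⟨s * s', ?_, fun a ha => ?_⟩
  · intro hmem
    rcases Ideal.IsPrime.mem_or_mem inferInstance hmem with h' | h'
    · exact hs h'
    · exact hs' h'
  · obtain ⟨c, hc⟩ := h a ha
    refine ⟨e * c, ?_⟩
    rw [mul_assoc, hc, ← mul_assoc, he]
    ring

/-- **Level `M'q²` at a supersingular point, abstract form.**  With the hypotheses of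
`pullback_generator` and `B ⧸ 𝔓` a principal ideal ring: `𝔓 = (φ z)`, `φ z` is prime, `B` is a
UFD, and every prime of `B` not containing `φ z` is principal. -/
theorem ss_level2 (φ : R₁ →+* B) (hφ : φ.IsIntegral) (z : R₁) (𝔓 : Ideal B)
    [𝔓.IsPrime] (hz0 : φ z ≠ 0) (hz𝔓 : φ z ∈ 𝔓)
    (hab : ∀ 𝔞 : Ideal R₁, 𝔞.IsPrime → z ∈ 𝔞 → 𝔞 = Ideal.span {z} ∨ 𝔞.IsMaximal)
    (huniq : ∀ 𝔮 : Ideal B, 𝔮.IsPrime → 𝔮.comap φ = Ideal.span {z} → 𝔮 = 𝔓)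
    (hloc : ∃ s : B, s ∉ 𝔓 ∧ ∀ a ∈ 𝔓, φ z ∣ s * a)
    (hpir : IsPrincipalIdealRing (B ⧸ 𝔓)) :
    𝔓 = Ideal.span {φ z} ∧ Prime (φ z) ∧ UniqueFactorizationMonoid B ∧
      ∀ P : Ideal B, P.IsPrime → φ z ∉ P → ∃ g ∈ P, P = Ideal.span {g} := by
  have h𝔓 : 𝔓 = Ideal.span {φ z} := pullback_generator φ hφ z 𝔓 hz0 hz𝔓 hab huniq hloc
  have hprime : Prime (φ z) := by
    rw [← Ideal.span_singleton_prime hz0, ← h𝔓]
    infer_instance
  have hmem : φ z ∈ maximalIdeal B := by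
    rw [IsLocalRing.mem_maximalIdeal, mem_nonunits_iff]
    exact hprime.not_isUnit
  have hpir' : IsPrincipalIdealRing (B ⧸ Ideal.span {φ z}) :=
    IsPrincipalIdealRing.of_surjective (Ideal.quotEquivOfEq h𝔓).toRingHom
      (Ideal.quotEquivOfEq h𝔓).surjective
  refine ⟨h𝔓, hprime, ?_, ?_⟩
  · exact Fermat.Agent.S36.PrincipalOfPIR.ufd_of_quotient_pir (φ z) hmem hprime hpir'
  · intro P hP hzP
    exact Fermat.Agent.S36.PrincipalOfPIR.prime_principal_of_quotient_pir (φ z) hmem hpir' P hzP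

end Fermat.Agent.S36.SsLevel2
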