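import Mathlib
import Fermat.Agent.S36.VDefs
import Fermat.Agent.S36.CycLemmas
import Fermat.Agent.S36.Exp3Lemmas
import Fermat.Agent.S36.InC3
import Fermat.Agent.S34.KummerStep
import Fermat.Agent.S34.TwoGauss
import Fermat.Agent.S18.PGGlue

/-!
# S36 (K2, package (V)): (V2 ⇒) — Gauss-integral elements have integral expansions

`F = FF L (M q²)`, `E : VDefs.Exp3 M q w₁ ζ`, `hcyc : VDefs.CycData W q W' ζ`.

* `mem_contentRing_of_isIntegralElem_mul` : generic — if `φ : F → K((Q))` sends `T(j)` to
  `Θ (T(j_q))` for a ring homomorphism `Θ` preserving content rings, and lands in `fracInt`, then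
  `φ x` is content-integral as soon as `T(j) x` is integral over `W[j]` for some `T` with nonzero
  reduction;
* `three_of_isIntegralElem_mul` : the three expansions, multiplier form;
* `three_of_inC` : **(V2 ⇒)** in the currency of `S18.Endgame`;
* `inC_iff` : **(V2)** (with `InC3.inC_of_three`).
-/

set_option autoImplicit false
set_option linter.unusedSectionVars false
set_option linter.unusedVariables false
set_option linter.style.haveILetI false

noncomputable section

namespace Fermat.Agent.S36.ThreeOfInC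

open ModularCurve Polynomial Fermat.Agent.S18 Fermat.Agent.S18.Gauss Fermat.Agent.S28
open Fermat.Agent.S24 Fermat.Agent.S36.VDefs Fermat.Agent.S34.KummerStep

section Generic

variable {L : Type*} [Field L] (W : ValuationSubring L) [IsDiscreteValuationRing W]

/-- `T(j_q)` is a unit of the content ring when `T` has nonzero reduction -/
theorem evL_inv_mem (T : (↥W)[X]) (hT : T.map (IsLocalRing.residue W) ≠ 0) :
    (PGGlue.evL W T)⁻¹ ∈ contentRing W := by
  have hmem : PGGlue.evL W T ∈ contentRing W := PGGlue.evL_mem_contentRing W T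
  refine inv_mem_contentRing W hmem ?_
  intro h0
  apply hT
  exact (red_eval₂_jq_eq_zero_iff W T).mp h0

/-- generic form of (V2 ⇒) for one expansion -/
theorem mem_contentRing_of_isIntegralElem_mul {K : Type*} [Field K] (V : ValuationSubring K)
    [IsDiscreteValuationRing V] {F : Type*} [Field F] (ev : (↥W)[X] →+* F)
    (φ : F →+* LaurentSeries K) (Θ : LaurentSeries L →+* LaurentSeries K)
    (hΘ : ∀ u ∈ contentRing W, Θ u ∈ contentRing V)
    (hφ : ∀ T : (↥W)[X], φ (ev T) = Θ (PGGlue.evL W T))
    (hfrac : ∀ x : F, φ x ∈ fracInt V)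
    (x : F) (p : (↥W)[X]) (hp : p.map (IsLocalRing.residue W) ≠ 0)
    (hint : ev.IsIntegralElem (ev p * x)) : φ x ∈ contentRing V := by
  obtain ⟨P, hPm, hP⟩ := hint
  -- `φ (ev p * x)` is content-integral
  let ρ : (↥W)[X] →+* contentRing V :=
    (φ.comp ev).codRestrict (contentRing V) (fun T => by
      rw [RingHom.comp_apply, hφ]
      exact hΘ _ (PGGlue.evL_mem_contentRing W T))
  have hy : φ (ev p * x) ∈ contentRing V := by
    refine mem_contentRing_of_monic_root V (hfrac _) (P.map ρ) (hPm.map ρ) ?_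
    rw [eval₂_map]
    have hcomp : (contentRing V).subtype.comp ρ = φ.comp ev := rfl
    rw [hcomp, ← hom_eval₂, hP, map_zero]
  -- divide by the content unit `φ (ev p)`
  have hinv : (PGGlue.evL W p)⁻¹ ∈ contentRing W := evL_inv_mem W p hp
  have hne : PGGlue.evL W p ≠ 0 := by
    intro h0
    apply hp
    have hmem : PGGlue.evL W p ∈ contentRing W := PGGlue.evL_mem_contentRing W p
    have h1 : red W ⟨PGGlue.evL W p, hmem⟩ = 0 := by
      have : (⟨PGGlue.evL W p, hmem⟩ : contentRing W) = 0 := Subtype.ext h0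
      rw [this, map_zero]
    exact (red_eval₂_jq_eq_zero_iff W p).mp h1
  have hφp : φ (ev p) ≠ 0 := by
    rw [hφ]
    exact (map_ne_zero Θ).mpr hne
  have hx : φ x = φ (ev p * x) * Θ ((PGGlue.evL W p)⁻¹) := by
    rw [map_mul, map_inv₀, ← hφ]
    field_simp
  rw [hx]
  exact (contentRing V).mul_mem hy (hΘ _ hinv)

end Generic

variable {L : Type} [Field L] [Algebra ℚ L] (W : ValuationSubring L) [IsDiscreteValuationRing W]
  (M q : ℕ) [NeZero M] [NeZero q] [Fact q.Prime]
  (w₁ : FF L (M * q) →ₐ[L] FF L (M * q))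
  {L' : Type} [Field L'] [Algebra L L'] (W' : ValuationSubring L') [IsDiscreteValuationRing W']
  (ζ : L'ˣ)

/-- `α` is compatible with the evaluation maps at `j`, at every level -/
theorem alpha_evF (N ℓ : ℕ) [NeZero N] [NeZero ℓ] (T : (↥W)[X]) :
    heckeAlphaBar L N ℓ (PGGlue.evF W N T) = PGGlue.evF W (N * ℓ) T := by
  apply Subtype.ext
  rw [coe_heckeAlphaBar, PGGlue.coe_evF, PGGlue.coe_evF]

variable [CharP (IsLocalRing.ResidueField W) q]

/-- **(V2 ⇒)**, multiplier form: if `S(j) x` is integral over `W[j]` for some `S` with nonzero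
reduction, the three expansions of `x` lie in the content rings. -/
theorem three_of_isIntegralElem_mul
    (hwα : w₁.comp (heckeAlphaBar L M q) = heckeBetaBar L M q)
    (hcyc : CycData W q W' ζ) (E : Exp3 M q w₁ ζ) (x : FF L (M * q * q))
    (S : (↥W)[X]) (hS : S.map (IsLocalRing.residue W) ≠ 0)
    (hint : (PGGlue.evF W (M * q * q)).IsIntegralElem (PGGlue.evF W (M * q * q) S * x)) :
    (x : LaurentSeries L) ∈ contentRing W ∧ E.phi0 x ∈ contentRing W ∧
      E.psi x ∈ contentRing W' := by
  have hq : q.Prime := Fact.out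
  have hWW' : ∀ c : L, c ∈ W ↔ algebraMap L L' c ∈ W' := fun c => (hcyc.comap c).symm
  haveI : CharP (IsLocalRing.ResidueField W') q :=
    Fermat.Agent.S36.CycLemmas.charP_residueField W q W' ζ hcyc
  have hζq : (ζ : L') ^ q = 1 := hcyc.prim.pow_eq_one
  refine ⟨?_, ?_, ?_⟩
  · -- the expansion at infinity
    exact mem_contentRing_of_isIntegralElem_mul W W (PGGlue.evF W (M * q * q))
      (algebraMap (FF L (M * q * q)) (LaurentSeries L)) (RingHom.id _) (fun u hu => hu)
      (fun T => PGGlue.coe_evF W (M * q * q) T)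
      (fun y => Fermat.Agent.S34.TwoGauss.coe_mem_fracInt W (M * q * q) y) x S hS hint
  · -- the expansion at zero
    refine mem_contentRing_of_isIntegralElem_mul W W (PGGlue.evF W (M * q * q)) E.phi0
      ((qExpand L q).comp (qExpand L q))
      (fun u hu => qExpand_mem_contentRing W q (qExpand_mem_contentRing W q hu))
      (fun T => ?_)
      (fun y => Fermat.Agent.S36.Exp3Lemmas.phi0_mem_fracInt W M q w₁ ζ E y) x S hS hint
    rw [← alpha_evF W (M * q) q T, E.phi0_alpha, ← alpha_evF W M q T]
    have h1 : w₁ (heckeAlphaBar L M q (PGGlue.evF W M T)) =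
        heckeBetaBar L M q (PGGlue.evF W M T) := by
      rw [← hwα]; rfl
    rw [h1, coe_heckeBetaBar, PGGlue.coe_evF]
    rfl
  · -- the middle expansion
    refine mem_contentRing_of_isIntegralElem_mul W W' (PGGlue.evF W (M * q * q)) E.psi
      (coeffMap (algebraMap L L'))
      (fun u hu => Fermat.Agent.S37.LevelChange.coeffMap_mem_contentRing (algebraMap L L') W W'
        hWW' hu)
      (fun T => ?_)
      (fun y => Fermat.Agent.S36.Exp3Lemmas.psi_mem_fracInt W M q w₁ W' ζ hWW' hζq E y) x S hS
      hint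
    rw [← alpha_evF W (M * q) q T, E.psi_alpha, PGGlue.coe_evF]

variable [Algebra ↥W (FF L (M * q * q))] [IsScalarTower ↥W L (FF L (M * q * q))]

/-- **(V2 ⇒)** in the currency of `S18.Endgame`: Gauss-integral elements of level `M q²` have
content-integral expansions at the three cusps. -/
theorem three_of_inC (hwα : w₁.comp (heckeAlphaBar L M q) = heckeBetaBar L M q)
    (hcyc : CycData W q W' ζ) (E : Exp3 M q w₁ ζ) {π : ↥W} (hπ : Irreducible π)
    (x : FF L (M * q * q)) (h : Endgame.InC π (jBC L (M * q * q)) x) :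
    (x : LaurentSeries L) ∈ contentRing W ∧ E.phi0 x ∈ contentRing W ∧
      E.psi x ∈ contentRing W' := by
  obtain ⟨p, hp, hint⟩ := h
  have hp' : p.map (IsLocalRing.residue W) ≠ 0 := by
    intro h0
    apply hp
    rw [C_dvd_iff_dvd_coeff]
    intro i
    have h1 : IsLocalRing.residue W (p.coeff i) = 0 := by
      have := congrArg (fun r => r.coeff i) h0
      simpa [coeff_map] using this
    obtain ⟨y, hy⟩ := (residue_eq_zero_iff_unif W hπ (p.coeff i)).mp h1
    exact ⟨y, hy⟩
  have hint' : (PGGlue.evF W (M * q * q)).IsIntegralElem (PGGlue.evF W (M * q * q) p * x) := by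
    have h2 : (Endgame.ev ↥W (jBC L (M * q * q))).IsIntegralElem
        (Endgame.ev ↥W (jBC L (M * q * q)) p * x) := hint
    rw [Fermat.Agent.S34.TwoGauss.ev_eq_evF W (M * q) q] at h2
    exact h2
  exact three_of_isIntegralElem_mul W M q w₁ W' ζ hwα hcyc E x p hp' hint'

/-- **(V2)** Gauss-integrality over `W[j]` at level `M q²` is tested on the three expansions. -/
theorem inC_iff (hqM : ¬ q ∣ M) (hwα : w₁.comp (heckeAlphaBar L M q) = heckeBetaBar L M q)
    (hwβ : w₁.comp (heckeBetaBar L M q) = heckeAlphaBar L M q) (ι₀ : L' →+* ℂ)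
    (hcyc : CycData W q W' ζ) (E : Exp3 M q w₁ ζ) {π : ↥W} (hπ : Irreducible π)
    (x : FF L (M * q * q)) :
    Endgame.InC π (jBC L (M * q * q)) x ↔
      (x : LaurentSeries L) ∈ contentRing W ∧ E.phi0 x ∈ contentRing W ∧
        E.psi x ∈ contentRing W' :=
  ⟨three_of_inC W M q w₁ W' ζ hwα hcyc E hπ x, fun h =>
    Fermat.Agent.S36.InC3.inC_of_three W M q w₁ W' ζ hqM hwα hwβ ι₀ hcyc E hπ x h.1 h.2.1 h.2.2⟩

end Fermat.Agent.S36.ThreeOfInC
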