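/-
S36 (wave 8): wiring of the top of the geometric side.

`fixedNewBoundAll_of_opRel` : the contract `Contract.FixedNewBoundAll p` consumed by the forms
side (`S36Of.s36_of_fixedNewBound`) follows from the operator relation `FixTop.OpRel (M' * q) q p`
at every level `M' q²` (`q` prime, `q ∤ M'`, `q ≠ p`).
-/
import Mathlib
import Fermat.Agent.S36.Contract
import Fermat.Agent.S36.FixTop

set_option autoImplicit false

namespace Fermat.Agent.S36.TopWire

/-- **The geometric contract from the operator relation at all levels `M' q²`.** -/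
theorem fixedNewBoundAll_of_opRel (p : ℕ) (hp : p ≠ 0)
    (h : ∀ (M' q : ℕ) [NeZero M'] [NeZero q], q.Prime → ¬ q ∣ M' → q ≠ p →
      Fermat.Agent.S36.FixTop.OpRel (M' * q) q p) :
    Fermat.Agent.S36.Contract.FixedNewBoundAll p := by
  intro M' q _ _ hq hqM hqp
  exact Fermat.Agent.S36.FixTop.fixedNewBound_of_opRel hp hq.one_lt (h M' q hq hqM hqp)

end Fermat.Agent.S36.TopWire
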