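import Mathlib
import Fermat.Agent.S36.UnramLevel
import Fermat.Agent.S34.GalLevel

/-!
# S36 (DESC): unramified levels stable under the decomposition group

The unramified level `ℚ(μ_n (q ∤ n), S)` of `UnramLevel.exists_unram_level` is in general not
Galois over `ℚ`.  Here we enlarge the finite `I_A`-fixed set `S` to the (finite) set `S'` of all
`I_A`-fixed Galois conjugates of elements of `S`.  Since the decomposition group `D_A` normalises
the inertia group `I_A`, the set `S'` is `D_A`-stable, hence so is the level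
`L = ℚ(μ_n (q ∤ n), S')`: **every element of `D_A` — in particular every Frobenius element at
`A` — restricts to an automorphism of `L`**, and `L` is still unramified.

* `conj_mem_inertia`          : `ρ⁻¹ τ ρ ∈ I_A` for `ρ ∈ D_A`, `τ ∈ I_A`;
* `exists_stable_finset`      : the set `S'`;
* `exists_unram_decomp_level` : the level, with the restriction of every `σ ∈ D_A`;
* `exists_unram_frob_level`   : the same with one (and every) Frobenius element at `A`.
-/

set_option autoImplicit false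

namespace Fermat.Agent.S36.UnramFrob

open Fermat.Agent.S18 Fermat.Agent.S37 Fermat.Agent.S34

noncomputable section

local notation "Qb" => AlgebraicClosure ℚ
local notation "GQ" => (AlgebraicClosure ℚ ≃ₐ[ℚ] AlgebraicClosure ℚ)

/-- The decomposition group normalises the inertia group. -/
theorem conj_mem_inertia (A : ValuationSubring Qb) {ρ τ : GQ}
    (hρ : ρ ∈ A.decompositionSubgroup ℚ) (hτ : τ ∈ A.inertiaSubgroupIn ℚ) :
    ρ⁻¹ * τ * ρ ∈ A.inertiaSubgroupIn ℚ := by
  obtain ⟨t, ht, rfl⟩ := hτ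
  have hn : (A.inertiaSubgroup ℚ).Normal := by
    unfold ValuationSubring.inertiaSubgroup
    infer_instance
  have h1 := hn.conj_mem t ht (⟨ρ, hρ⟩⁻¹ : A.decompositionSubgroup ℚ)
  refine ⟨(⟨ρ, hρ⟩⁻¹ : A.decompositionSubgroup ℚ) * t * (⟨ρ, hρ⟩⁻¹ : A.decompositionSubgroup ℚ)⁻¹,
    h1, ?_⟩
  simp

/-- A finite `I_A`-fixed set is contained in a finite `I_A`-fixed set which is stable under the
decomposition group. -/
theorem exists_stable_finset (A : ValuationSubring Qb) (S : Finset Qb)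
    (hS : ∀ a ∈ S, ∀ τ ∈ A.inertiaSubgroupIn ℚ, τ a = a) :
    ∃ S' : Finset Qb, S ⊆ S' ∧ (∀ a ∈ S', ∀ τ ∈ A.inertiaSubgroupIn ℚ, τ a = a) ∧
      ∀ ρ ∈ A.decompositionSubgroup ℚ, ∀ a ∈ S', ρ a ∈ S' := by
  classical
  refine ⟨(GalLevel.conj S).filter (fun x => ∀ τ ∈ A.inertiaSubgroupIn ℚ, τ x = x), ?_, ?_, ?_⟩
  · intro a ha
    exact Finset.mem_filter.mpr ⟨GalLevel.subset_conj S ha, hS a ha⟩
  · intro a ha
    exact (Finset.mem_filter.mp ha).2
  · intro ρ hρ a ha
    obtain ⟨ha1, ha2⟩ := Finset.mem_filter.mp ha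
    refine Finset.mem_filter.mpr ⟨GalLevel.map_mem_conj ρ ha1, fun τ hτ => ?_⟩
    have h1 := ha2 _ (conj_mem_inertia A hρ hτ)
    have h2 : (ρ⁻¹ * τ * ρ) a = ρ⁻¹ (τ (ρ a)) := rfl
    rw [h2] at h1
    have h3 := congrArg ρ h1
    have h4 : ρ (ρ⁻¹ (τ (ρ a))) = τ (ρ a) := ρ.apply_symm_apply _
    rw [h4] at h3
    exact h3

/-- **Unramified level stable under the decomposition group.**  For a finite set `S ⊆ ℚ̄` fixed
by the inertia group of `A` there is a level `(L, ι)` containing `S`, fixed pointwise by the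
inertia group, at which `q` is a uniformiser of `A ∩ L`, and to which every element of the
decomposition group of `A` restricts. -/
theorem exists_unram_decomp_level (A : ValuationSubring Qb) (q : ℕ) (hq : q.Prime)
    (hA : A.LiesOverPrime q) (S : Finset Qb)
    (hS : ∀ a ∈ S, ∀ τ ∈ A.inertiaSubgroupIn ℚ, τ a = a) :
    ∃ (L : Type) (_ : Field L) (_ : Algebra ℚ L) (ι : L →+* Qb),
      LevelChange.IsLevel A q S ι ∧ Irreducible ((q : ℕ) : ↥(A.comap ι)) ∧
      (∀ ϖ : ↥(A.comap ι), (ϖ : L) = (q : L) → Irreducible ϖ) ∧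
      (∀ τ ∈ A.inertiaSubgroupIn ℚ, ∀ c : L, τ (ι c) = ι c) ∧
      ∀ σ ∈ A.decompositionSubgroup ℚ, ∃ s : L ≃+* L, ∀ c : L, ι (s c) = σ (ι c) := by
  obtain ⟨S', hSS', hS', hstab⟩ := exists_stable_finset A S hS
  obtain ⟨h1, h2, h3⟩ := Fermat.Agent.S36.UnramLevel.exists_unram_level_base A hq hA S' hS'
  refine ⟨↥(BaseDVR.baseField q (S' : Set Qb)), inferInstance, inferInstance,
    algebraMap ↥(BaseDVR.baseField q (S' : Set Qb)) Qb, GalLevel.isLevel_mono h1 hSS', h2,
    fun ϖ hϖ => ?_, h3, fun σ hσ => ?_⟩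
  · have e : ϖ = ((q : ℕ) : ↥(A.comap (algebraMap ↥(BaseDVR.baseField q (S' : Set Qb)) Qb))) :=
      Subtype.ext hϖ
    rw [e]
    exact h2
  · have hσ' : σ.symm ∈ A.decompositionSubgroup ℚ := (A.decompositionSubgroup ℚ).inv_mem hσ
    exact ⟨GalLevel.restrict _ σ
        (fun x hx => GalLevel.map_mem_baseField q _ σ
          (fun y hy => Finset.mem_coe.mpr (hstab σ hσ y (Finset.mem_coe.mp hy))) hx)
        (fun x hx => GalLevel.map_mem_baseField q _ σ.symm
          (fun y hy => Finset.mem_coe.mpr (hstab σ.symm hσ' y (Finset.mem_coe.mp hy))) hx),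
      fun c => rfl⟩

/-- **Unramified Frobenius-stable level.**  As `exists_unram_decomp_level`, with the restriction
of every Frobenius element at `A`, and the existence of one. -/
theorem exists_unram_frob_level (A : ValuationSubring Qb) (q : ℕ) (hq : q.Prime)
    (hA : A.LiesOverPrime q) (S : Finset Qb)
    (hS : ∀ a ∈ S, ∀ τ ∈ A.inertiaSubgroupIn ℚ, τ a = a) :
    ∃ (L : Type) (_ : Field L) (_ : Algebra ℚ L) (ι : L →+* Qb),
      LevelChange.IsLevel A q S ι ∧ Irreducible ((q : ℕ) : ↥(A.comap ι)) ∧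
      (∀ ϖ : ↥(A.comap ι), (ϖ : L) = (q : L) → Irreducible ϖ) ∧
      (∀ τ ∈ A.inertiaSubgroupIn ℚ, ∀ c : L, τ (ι c) = ι c) ∧
      (∀ σ : GQ, A.IsFrobeniusAt σ q → ∃ s : L ≃+* L, ∀ c : L, ι (s c) = σ (ι c)) ∧
      ∃ σ : GQ, A.IsFrobeniusAt σ q ∧ ∃ s : L ≃+* L, ∀ c : L, ι (s c) = σ (ι c) := by
  obtain ⟨L, iF, iA, ι, h1, h2, h3, h4, h5⟩ := exists_unram_decomp_level A q hq hA S hS
  obtain ⟨σ, hσ⟩ := GalLevel.exists_frobenius A hq hA
  exact ⟨L, iF, iA, ι, h1, h2, h3, h4,
    fun σ' hσ' => h5 σ' hσ'.mem_decompositionSubgroup,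
    σ, hσ, h5 σ hσ.mem_decompositionSubgroup⟩

end

end Fermat.Agent.S36.UnramFrob
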