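import Mathlib
import Fermat.Agent.S36.Cover36
import Fermat.Agent.S36.VDefs
import Fermat.Agent.S36.CycLemmas
import Fermat.Agent.S35.EsSeries
import Fermat.Agent.S37.LevelChange

/-!
# S36 (K4, vertical inputs): divisibility by `q` in the chart of level `M q²` is tested on the
three expansions

`W` a discrete valuation ring of `L` with uniformiser `q`, `F = FF L (M q²)`,
`B = integralClosure W[j] F`, `E : Exp3 M q w₁ ζ`.  From K2's (V2 ⇒) and (V3) (hypotheses `hV2`,
`hV3`, exactly the shapes of `Cover36Of`):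

* `dvd_of_three` : **`x ∈ B` is divisible by `q` in `B` as soon as its three expansions are
  divisible by `q`** (`q B = 𝔓_∞ ∩ 𝔓_0 ∩ 𝔓_mid^{(q-1)}`; the level-`q²` analogue of
  `𝔭₁ ⊓ 𝔭₂ = (q)`);
* `mult_beta`  : if `b ∈ B` vanishes on `C_∞` (`coe b ∈ q · contentRing W`) and `s` of level
  `M q` vanishes on the second branch (`coe (w₁ s) ∈ q · contentRing W`), then `q ∣ β₂ s * b`
  in `B` (“`𝔓_∞` is the only prime over `𝔭₁` along `β₂`, with multiplicity one”);
* `mult_alpha` : the mirror: `phi0 b ∈ q · contentRing W`, `coe s ∈ q · contentRing W` imply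
  `q ∣ α₂ s * b` in `B`.
-/

set_option autoImplicit false
set_option linter.unusedSectionVars false
set_option linter.unusedVariables false
set_option linter.style.haveILetI false

noncomputable section

namespace Fermat.Agent.S36.Vert3

open ModularCurve Polynomial Fermat.Agent.S18 Fermat.Agent.S18.Gauss Fermat.Agent.S28
open Fermat.Agent.S24 Fermat.Agent.S36.VDefs Fermat.Agent.S34.KummerStep
open Fermat.Agent.S35.EsSeries

section Tw

variable {L : Type*} [Field L] (W : ValuationSubring L)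

/-- the twist by a root of unity preserves the Gauss valuation ring -/
theorem tw_mem_contentRing (ζ : Lˣ) {q : ℕ} (hq : 0 < q) (hζ : ζ ^ q = 1) {u : LaurentSeries L}
    (hu : u ∈ contentRing W) : tw ζ u ∈ contentRing W := by
  obtain ⟨x, y, hy, hxy⟩ := id hu
  have hL : ∀ z : LaurentSeries W,
      toL W (tw (rootUnit (W := W) ζ hq hζ) z) = tw ζ (toL W z) := by
    intro z
    show coeffMap W.subtype (tw (rootUnit (W := W) ζ hq hζ) z) = tw ζ (toL W z)
    rw [coeffMap_tw]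
    rfl
  have hK : ∀ z : LaurentSeries W,
      toK W (tw (rootUnit (W := W) ζ hq hζ) z) =
        tw (Units.map ((IsLocalRing.residue W : ↥W →+* IsLocalRing.ResidueField W) :
          ↥W →* IsLocalRing.ResidueField W) (rootUnit (W := W) ζ hq hζ)) (toK W z) := by
    intro z
    show coeffMap (IsLocalRing.residue W) (tw (rootUnit (W := W) ζ hq hζ) z) = _
    rw [coeffMap_tw]
    rfl
  refine ⟨tw (rootUnit (W := W) ζ hq hζ) x, tw (rootUnit (W := W) ζ hq hζ) y, ?_, ?_⟩
  · rw [hK]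
    intro h0
    apply hy
    have h1 := congrArg (tw (Units.map ((IsLocalRing.residue W : ↥W →+*
      IsLocalRing.ResidueField W) : ↥W →* IsLocalRing.ResidueField W)
        (rootUnit (W := W) ζ hq hζ))⁻¹) h0
    rw [← tw_mul, inv_mul_cancel, tw_one, map_zero] at h1
    exact h1
  · rw [hL, hL, ← map_mul, hxy]

end Tw

variable {L : Type} [Field L] [Algebra ℚ L] (W : ValuationSubring L) [IsDiscreteValuationRing W]
  (M q : ℕ) [NeZero M] [NeZero q] [Fact q.Prime]
  (w₁ : FF L (M * q) →ₐ[L] FF L (M * q))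
  {L' : Type} [Field L'] [Algebra L L'] (W' : ValuationSubring L') [IsDiscreteValuationRing W']
  (ζ : L'ˣ)

variable [CharP (IsLocalRing.ResidueField W) q]
  [Algebra ↥W (FF L (M * q * q))] [IsScalarTower ↥W L (FF L (M * q * q))]

/-- **Divisibility by `q` on the chart of level `M q²` is tested on the three expansions.** -/
theorem dvd_of_three (E : Exp3 M q w₁ ζ) (hirr : Irreducible ((q : ℕ) : ↥W))
    (hj : Transcendental ↥W (jBC L (M * q * q)))
    (hV3 : ∀ (w : FF L (M * q * q)) (g₁ g₂ : LaurentSeries L) (g₃ : LaurentSeries L'),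
      g₁ ∈ contentRing W → g₂ ∈ contentRing W → g₃ ∈ contentRing W' →
      (w : LaurentSeries L) - 1 = HahnSeries.C ((((q : ℕ) : ↥W) : ↥W) : L) * g₁ →
      E.phi0 w - 1 = HahnSeries.C ((((q : ℕ) : ↥W) : ↥W) : L) * g₂ →
      E.psi w - 1 = HahnSeries.C (algebraMap L L' ((((q : ℕ) : ↥W) : ↥W) : L)) * g₃ →
      GaussOne ((q : ℕ) : ↥W) (jBC L (M * q * q)) w)
    (x : FF L (M * q * q))
    (hx : IsIntegral (Algebra.adjoin ↥W {jBC L (M * q * q)}) x)
    (g₁ g₂ : LaurentSeries L) (g₃ : LaurentSeries L')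
    (hg₁ : g₁ ∈ contentRing W) (hg₂ : g₂ ∈ contentRing W) (hg₃ : g₃ ∈ contentRing W')
    (h₁ : (x : LaurentSeries L) = HahnSeries.C ((((q : ℕ) : ↥W) : ↥W) : L) * g₁)
    (h₂ : E.phi0 x = HahnSeries.C ((((q : ℕ) : ↥W) : ↥W) : L) * g₂)
    (h₃ : E.psi x = HahnSeries.C (algebraMap L L' ((((q : ℕ) : ↥W) : ↥W) : L)) * g₃) :
    ∃ c : FF L (M * q * q), IsIntegral (Algebra.adjoin ↥W {jBC L (M * q * q)}) c ∧
      x = algebraMap ↥W (FF L (M * q * q)) ((q : ℕ) : ↥W) * c := by
  have hq : q.Prime := Fact.out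
  haveI : CharZero L := algebraRat.charZero L
  haveI : CharZero (FF L (M * q * q)) :=
    charZero_of_injective_algebraMap (algebraMap L (FF L (M * q * q))).injective
  have hπ : Prime ((q : ℕ) : ↥W) := hirr.prime
  have hπF : algebraMap ↥W (FF L (M * q * q)) ((q : ℕ) : ↥W) ≠ 0 := by
    rw [map_natCast]
    exact Nat.cast_ne_zero.mpr hq.ne_zero
  refine Fermat.Agent.S36.Cover36.exists_eq_mul_of_gaussOne hπ hπF hj hx
    (hV3 (1 + x) g₁ g₂ g₃ hg₁ hg₂ hg₃ ?_ ?_ ?_)
  · rw [← h₁]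
    show (1 : LaurentSeries L) + (x : LaurentSeries L) - 1 = _
    ring
  · rw [← h₂, map_add, map_one, add_sub_cancel_left]
  · rw [← h₃, map_add, map_one, add_sub_cancel_left]

/-- **Vertical multiplicity along `β₂`.**  If `b` (in the chart ring of level `M q²`) vanishes
on `C_∞` and `s` (of level `M q`, with `β₂ s` in the chart ring) vanishes on the second branch
of level `M q`, then `β₂ s * b` is divisible by `q` in the chart ring. -/
theorem mult_beta (hcyc : CycData W q W' ζ) (E : Exp3 M q w₁ ζ)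
    (hirr : Irreducible ((q : ℕ) : ↥W))
    (hj : Transcendental ↥W (jBC L (M * q * q)))
    (hV2 : ∀ x : FF L (M * q * q),
      Endgame.InC ((q : ℕ) : ↥W) (jBC L (M * q * q)) x →
        (x : LaurentSeries L) ∈ contentRing W ∧ E.phi0 x ∈ contentRing W ∧
          E.psi x ∈ contentRing W')
    (hV3 : ∀ (w : FF L (M * q * q)) (g₁ g₂ : LaurentSeries L) (g₃ : LaurentSeries L'),
      g₁ ∈ contentRing W → g₂ ∈ contentRing W → g₃ ∈ contentRing W' →
      (w : LaurentSeries L) - 1 = HahnSeries.C ((((q : ℕ) : ↥W) : ↥W) : L) * g₁ →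
      E.phi0 w - 1 = HahnSeries.C ((((q : ℕ) : ↥W) : ↥W) : L) * g₂ →
      E.psi w - 1 = HahnSeries.C (algebraMap L L' ((((q : ℕ) : ↥W) : ↥W) : L)) * g₃ →
      GaussOne ((q : ℕ) : ↥W) (jBC L (M * q * q)) w)
    (b : FF L (M * q * q)) (hb : IsIntegral (Algebra.adjoin ↥W {jBC L (M * q * q)}) b)
    (hbinf : ∃ g ∈ contentRing W, (b : LaurentSeries L) =
      HahnSeries.C ((((q : ℕ) : ↥W) : ↥W) : L) * g)
    (s : FF L (M * q))
    (hs : IsIntegral (Algebra.adjoin ↥W {jBC L (M * q * q)}) (heckeBetaBar L (M * q) q s))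
    (hs₂ : ∃ g ∈ contentRing W, ((w₁ s : FF L (M * q)) : LaurentSeries L) =
      HahnSeries.C ((((q : ℕ) : ↥W) : ↥W) : L) * g) :
    ∃ c : FF L (M * q * q), IsIntegral (Algebra.adjoin ↥W {jBC L (M * q * q)}) c ∧
      heckeBetaBar L (M * q) q s * b =
        algebraMap ↥W (FF L (M * q * q)) ((q : ℕ) : ↥W) * c := by
  have hq : q.Prime := Fact.out
  have hπ : Prime ((q : ℕ) : ↥W) := hirr.prime
  have hint : ∀ x : FF L (M * q * q), IsIntegral (Algebra.adjoin ↥W {jBC L (M * q * q)}) x →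
      (x : LaurentSeries L) ∈ contentRing W ∧ E.phi0 x ∈ contentRing W ∧
        E.psi x ∈ contentRing W' := fun x hx =>
    hV2 _ (Endgame.InC.of_isInt hπ
      ((Endgame.isInt_iff_isIntegral_adjoin (Y := FF L (M * q * q)) (jBC L (M * q * q)) x).mpr hx))
  obtain ⟨hb1, hb2, hb3⟩ := hint b hb
  obtain ⟨hs1, hs2, hs3⟩ := hint _ hs
  obtain ⟨g, hg, hbg⟩ := hbinf
  obtain ⟨g', hg', hsg⟩ := hs₂
  have hW : ∀ c : L, c ∈ W ↔ algebraMap L L' c ∈ W' := fun c => (hcyc.comap c).symm
  have hgm : coeffMap (algebraMap L L') g' ∈ contentRing W' :=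
    Fermat.Agent.S37.LevelChange.coeffMap_mem_contentRing (algebraMap L L') W W' hW hg'
  have htw : tw ζ (coeffMap (algebraMap L L') g') ∈ contentRing W' :=
    tw_mem_contentRing W' ζ hq.pos (Fermat.Agent.S36.CycLemmas.zeta_pow W q W' ζ hcyc) hgm
  refine dvd_of_three W M q w₁ W' ζ E hirr hj hV3 _ (hs.mul hb)
    (((heckeBetaBar L (M * q) q s : FF L (M * q * q)) : LaurentSeries L) * g)
    (g' * E.phi0 b) (tw ζ (coeffMap (algebraMap L L') g') * E.psi b)
    ((contentRing W).mul_mem hs1 hg) ((contentRing W).mul_mem hg' hb2)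
    ((contentRing W').mul_mem htw hb3) ?_ ?_ ?_
  · show ((heckeBetaBar L (M * q) q s : FF L (M * q * q)) : LaurentSeries L) *
      (b : LaurentSeries L) = _
    rw [hbg]
    ring
  · rw [map_mul, E.phi0_beta, hsg]
    ring
  · rw [map_mul, E.psi_beta, hsg, map_mul, Fermat.Agent.S28.Content.coeffMap_C, map_mul, tw_C']
    ring

/-- **Vertical multiplicity along `α₂`** (mirror of `mult_beta`).  If `b` vanishes on `C_0`
(`E.phi0 b ∈ q · contentRing W`) and `s` of level `M q` vanishes on the first branch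
(`coe s ∈ q · contentRing W`), then `α₂ s * b` is divisible by `q` in the chart ring. -/
theorem mult_alpha (hcyc : CycData W q W' ζ) (E : Exp3 M q w₁ ζ)
    (hirr : Irreducible ((q : ℕ) : ↥W))
    (hj : Transcendental ↥W (jBC L (M * q * q)))
    (hV2 : ∀ x : FF L (M * q * q),
      Endgame.InC ((q : ℕ) : ↥W) (jBC L (M * q * q)) x →
        (x : LaurentSeries L) ∈ contentRing W ∧ E.phi0 x ∈ contentRing W ∧
          E.psi x ∈ contentRing W')
    (hV3 : ∀ (w : FF L (M * q * q)) (g₁ g₂ : LaurentSeries L) (g₃ : LaurentSeries L'),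
      g₁ ∈ contentRing W → g₂ ∈ contentRing W → g₃ ∈ contentRing W' →
      (w : LaurentSeries L) - 1 = HahnSeries.C ((((q : ℕ) : ↥W) : ↥W) : L) * g₁ →
      E.phi0 w - 1 = HahnSeries.C ((((q : ℕ) : ↥W) : ↥W) : L) * g₂ →
      E.psi w - 1 = HahnSeries.C (algebraMap L L' ((((q : ℕ) : ↥W) : ↥W) : L)) * g₃ →
      GaussOne ((q : ℕ) : ↥W) (jBC L (M * q * q)) w)
    (b : FF L (M * q * q)) (hb : IsIntegral (Algebra.adjoin ↥W {jBC L (M * q * q)}) b)
    (hb0 : ∃ g ∈ contentRing W, E.phi0 b = HahnSeries.C ((((q : ℕ) : ↥W) : ↥W) : L) * g)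
    (s : FF L (M * q))
    (hs : IsIntegral (Algebra.adjoin ↥W {jBC L (M * q * q)}) (heckeAlphaBar L (M * q) q s))
    (hs₁ : ∃ g ∈ contentRing W, (s : LaurentSeries L) =
      HahnSeries.C ((((q : ℕ) : ↥W) : ↥W) : L) * g) :
    ∃ c : FF L (M * q * q), IsIntegral (Algebra.adjoin ↥W {jBC L (M * q * q)}) c ∧
      heckeAlphaBar L (M * q) q s * b =
        algebraMap ↥W (FF L (M * q * q)) ((q : ℕ) : ↥W) * c := by
  have hq : q.Prime := Fact.out
  have hπ : Prime ((q : ℕ) : ↥W) := hirr.prime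
  have hint : ∀ x : FF L (M * q * q), IsIntegral (Algebra.adjoin ↥W {jBC L (M * q * q)}) x →
      (x : LaurentSeries L) ∈ contentRing W ∧ E.phi0 x ∈ contentRing W ∧
        E.psi x ∈ contentRing W' := fun x hx =>
    hV2 _ (Endgame.InC.of_isInt hπ
      ((Endgame.isInt_iff_isIntegral_adjoin (Y := FF L (M * q * q)) (jBC L (M * q * q)) x).mpr hx))
  obtain ⟨hb1, hb2, hb3⟩ := hint b hb
  obtain ⟨hs1, hs2, hs3⟩ := hint _ hs
  obtain ⟨g, hg, hbg⟩ := hb0
  obtain ⟨g', hg', hsg⟩ := hs₁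
  have hW : ∀ c : L, c ∈ W ↔ algebraMap L L' c ∈ W' := fun c => (hcyc.comap c).symm
  have hgm : coeffMap (algebraMap L L') g' ∈ contentRing W' :=
    Fermat.Agent.S37.LevelChange.coeffMap_mem_contentRing (algebraMap L L') W W' hW hg'
  refine dvd_of_three W M q w₁ W' ζ E hirr hj hV3 _ (hs.mul hb)
    (g' * (b : LaurentSeries L))
    (E.phi0 (heckeAlphaBar L (M * q) q s) * g) (coeffMap (algebraMap L L') g' * E.psi b)
    ((contentRing W).mul_mem hg' hb1) ((contentRing W).mul_mem hs2 hg)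
    ((contentRing W').mul_mem hgm hb3) ?_ ?_ ?_
  · show ((heckeAlphaBar L (M * q) q s : FF L (M * q * q)) : LaurentSeries L) *
      (b : LaurentSeries L) = _
    rw [coe_heckeAlphaBar, hsg]
    ring
  · rw [map_mul, hbg]
    ring
  · rw [map_mul, E.psi_alpha, hsg, map_mul, Fermat.Agent.S28.Content.coeffMap_C]
    ring

end Fermat.Agent.S36.Vert3
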