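import Mathlib
import Fermat.Agent.S36.Vert3
import Fermat.Agent.S36.Cover36Of
import Fermat.Agent.S36.ThreeOfInC
import Fermat.Agent.S36.InC3
import Fermat.Agent.S36.CycData
import Fermat.Agent.S36.Exp3Exists
import Fermat.Agent.S36.NExtInst
import Fermat.Agent.S36.GaussInt
import Fermat.Agent.S34.GLevel
import Fermat.Agent.S34.DegreeL

/-!
# S36 (K4, vertical inputs): the level forms, with no hypothesis left

`A` a place of `ℚ̄` over `q`, `(L, ι)` an UNRAMIFIED level (`LevelChange.IsLevel A q S ι`,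
`Irreducible ((q : ℕ) : ↥(A.comap ι))`), `W = A.comap ι`, `q ∤ M`, `w₁` an Atkin–Lehner
automorphism of `FF L (M q)`, `R = W[j]`, `F = FF L (M q²)`.  The cyclotomic package
(`CycData.exists_cycData`), the expansions (`Exp3Exists.exists_exp3`), (V2 ⇒)
(`ThreeOfInC.three_of_inC`) and (V3) (`InC3.gaussOne_of_three`) are plugged into `Vert3` and
`Cover36Of`:

* `mult_beta_level`  : `b` integral over `R` with `coe b ≡ 0 mod q`, `s` of level `M q` with
  `β₂ s` integral over `R` and `coe (w₁ s) ≡ 0 mod q`  ⟹  `β₂ s * b ∈ q · (integral closure)`;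
* `mult_alpha_level` : the mirror, with `coe (W₂ b) ≡ 0 mod q` (`W₂` an Atkin–Lehner
  automorphism of level `M q²`) and `coe s ≡ 0 mod q`;
* `cover36_level`    : every prime `𝔫 ∋ q` of the chart ring contains `α₂ 𝔭₁` or `β₂ 𝔭₂`.
-/

set_option autoImplicit false
set_option linter.unusedSectionVars false
set_option linter.unusedVariables false
set_option linter.style.haveILetI false

noncomputable section

namespace Fermat.Agent.S36.Vert3Inst

open ModularCurve Polynomial Fermat.Agent.S18 Fermat.Agent.S18.Gauss Fermat.Agent.S28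
open Fermat.Agent.S24 Fermat.Agent.S36.VDefs Fermat.Agent.S34.KummerStep Fermat.Agent.S37

local notation "Qb" => AlgebraicClosure ℚ

variable (A : ValuationSubring Qb) {L : Type} [Field L] [Algebra ℚ L] (ι : L →+* Qb)
  (M q : ℕ) [NeZero M] [NeZero q]

set_option maxHeartbeats 1600000 in
set_option synthInstance.maxHeartbeats 400000 in
/-- **The K2 package at an unramified level**, in the hypothesis shapes of `Vert3` and
`Cover36Of`. -/
theorem exists_package (hq : q.Prime) (hqM : ¬ q ∣ M) (S : Finset Qb)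
    (hlev : LevelChange.IsLevel A q S ι) (hirr : Irreducible ((q : ℕ) : ↥(A.comap ι)))
    (w₁ : FF L (M * q) →ₐ[L] FF L (M * q))
    (hwα : w₁.comp (heckeAlphaBar L M q) = heckeBetaBar L M q)
    (hwβ : w₁.comp (heckeBetaBar L M q) = heckeAlphaBar L M q) :
    ∃ (L' : Type) (_ : Field L') (_ : Algebra L L') (W' : ValuationSubring L')
      (_ : IsDiscreteValuationRing W') (ζ : L'ˣ) (E : Exp3 M q w₁ ζ),
      CycData (A.comap ι) q W' ζ ∧
      Transcendental ↥(A.comap ι) (jBC L (M * q * q)) ∧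
      (∀ x : FF L (M * q * q),
        Endgame.InC ((q : ℕ) : ↥(A.comap ι)) (jBC L (M * q * q)) x →
          (x : LaurentSeries L) ∈ contentRing (A.comap ι) ∧ E.phi0 x ∈ contentRing (A.comap ι) ∧
            E.psi x ∈ contentRing W') ∧
      (∀ (w : FF L (M * q * q)) (g₁ g₂ : LaurentSeries L) (g₃ : LaurentSeries L'),
        g₁ ∈ contentRing (A.comap ι) → g₂ ∈ contentRing (A.comap ι) → g₃ ∈ contentRing W' →
        (w : LaurentSeries L) - 1 =
          HahnSeries.C ((((q : ℕ) : ↥(A.comap ι)) : ↥(A.comap ι)) : L) * g₁ →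
        E.phi0 w - 1 = HahnSeries.C ((((q : ℕ) : ↥(A.comap ι)) : ↥(A.comap ι)) : L) * g₂ →
        E.psi w - 1 = HahnSeries.C (algebraMap L L'
          ((((q : ℕ) : ↥(A.comap ι)) : ↥(A.comap ι)) : L)) * g₃ →
        GaussOne ((q : ℕ) : ↥(A.comap ι)) (jBC L (M * q * q)) w) := by
  haveI : IsDiscreteValuationRing ↥(A.comap ι) := hlev.2.2.1
  haveI : CharP (IsLocalRing.ResidueField ↥(A.comap ι)) q := hlev.2.2.2.2.2.1
  haveI : Fact q.Prime := ⟨hq⟩
  haveI : IsScalarTower ↥(A.comap ι) L (FF L (M * q * q)) :=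
    Fermat.Agent.S34.GLevel.isScalarTower_FF (M * q * q) (A.comap ι)
  obtain ⟨L', iF, iA, ι', ζ, hι', hdvr', hcyc⟩ :=
    Fermat.Agent.S36.CycData.exists_cycData A q ι hirr
  obtain ⟨ι₁⟩ := Fermat.Agent.S34.DegreeL.nonempty_bar_to_complex
  obtain ⟨E⟩ := Fermat.Agent.S36.Exp3Exists.exists_exp3 M q w₁ ζ hqM hwα hwβ (ι₁.comp ι')
    hcyc.prim
  refine ⟨L', iF, iA, A.comap ι', hdvr', ζ, E, hcyc,
    Fermat.Agent.S36.GaussInt.transcendental_jBC ι (A.comap ι) (M * q * q), ?_, ?_⟩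
  · intro x hx
    exact Fermat.Agent.S36.ThreeOfInC.three_of_inC (A.comap ι) M q w₁ (A.comap ι') ζ hwα hcyc E
      hirr x hx
  · intro w g₁ g₂ g₃ hg₁ hg₂ hg₃ h₁ h₂ h₃
    exact Fermat.Agent.S36.InC3.gaussOne_of_three (A.comap ι) M q w₁ (A.comap ι') ζ hqM hwα hwβ
      (ι₁.comp ι') hcyc E hirr w g₁ g₂ g₃ hg₁ hg₂ hg₃ h₁ h₂ h₃

set_option maxHeartbeats 1600000 in
set_option synthInstance.maxHeartbeats 400000 in
/-- **Vertical multiplicity along `β₂` at an unramified level.** -/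
theorem mult_beta_level (hq : q.Prime) (hqM : ¬ q ∣ M) (S : Finset Qb)
    (hlev : LevelChange.IsLevel A q S ι) (hirr : Irreducible ((q : ℕ) : ↥(A.comap ι)))
    (w₁ : FF L (M * q) →ₐ[L] FF L (M * q))
    (hwα : w₁.comp (heckeAlphaBar L M q) = heckeBetaBar L M q)
    (hwβ : w₁.comp (heckeBetaBar L M q) = heckeAlphaBar L M q)
    (b : FF L (M * q * q))
    (hb : IsIntegral (Algebra.adjoin ↥(A.comap ι) {jBC L (M * q * q)}) b)
    (hbinf : ∃ g ∈ contentRing (A.comap ι), (b : LaurentSeries L) =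
      HahnSeries.C ((q : ℕ) : L) * g)
    (s : FF L (M * q))
    (hs : IsIntegral (Algebra.adjoin ↥(A.comap ι) {jBC L (M * q * q)})
      (heckeBetaBar L (M * q) q s))
    (hs₂ : ∃ g ∈ contentRing (A.comap ι), ((w₁ s : FF L (M * q)) : LaurentSeries L) =
      HahnSeries.C ((q : ℕ) : L) * g) :
    ∃ c : FF L (M * q * q), IsIntegral (Algebra.adjoin ↥(A.comap ι) {jBC L (M * q * q)}) c ∧
      heckeBetaBar L (M * q) q s * b =
        algebraMap ↥(A.comap ι) (FF L (M * q * q)) ((q : ℕ) : ↥(A.comap ι)) * c := by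
  obtain ⟨L', iF, iA, W', hdvr', ζ, E, hcyc, hj, hV2, hV3⟩ :=
    exists_package A ι M q hq hqM S hlev hirr w₁ hwα hwβ
  haveI : IsDiscreteValuationRing ↥(A.comap ι) := hlev.2.2.1
  haveI : CharP (IsLocalRing.ResidueField ↥(A.comap ι)) q := hlev.2.2.2.2.2.1
  haveI : Fact q.Prime := ⟨hq⟩
  haveI : IsScalarTower ↥(A.comap ι) L (FF L (M * q * q)) :=
    Fermat.Agent.S34.GLevel.isScalarTower_FF (M * q * q) (A.comap ι)
  exact Fermat.Agent.S36.Vert3.mult_beta (A.comap ι) M q w₁ W' ζ hcyc E hirr hj hV2 hV3 b hb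
    hbinf s hs hs₂

set_option maxHeartbeats 1600000 in
set_option synthInstance.maxHeartbeats 400000 in
/-- **Vertical multiplicity along `α₂` at an unramified level** (`W₂` an Atkin–Lehner
automorphism of level `M q²`). -/
theorem mult_alpha_level (hq : q.Prime) (hqM : ¬ q ∣ M) (S : Finset Qb)
    (hlev : LevelChange.IsLevel A q S ι) (hirr : Irreducible ((q : ℕ) : ↥(A.comap ι)))
    (w₁ : FF L (M * q) →ₐ[L] FF L (M * q))
    (hwα : w₁.comp (heckeAlphaBar L M q) = heckeBetaBar L M q)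
    (hwβ : w₁.comp (heckeBetaBar L M q) = heckeAlphaBar L M q)
    (W₂ : FF L (M * q * q) ≃ₐ[L] FF L (M * q * q))
    (hα : ∀ y : FF L (M * q), W₂ (heckeAlphaBar L (M * q) q y) = heckeBetaBar L (M * q) q (w₁ y))
    (hβ : ∀ y : FF L (M * q), W₂ (heckeBetaBar L (M * q) q y) = heckeAlphaBar L (M * q) q (w₁ y))
    (b : FF L (M * q * q))
    (hb : IsIntegral (Algebra.adjoin ↥(A.comap ι) {jBC L (M * q * q)}) b)
    (hb0 : ∃ g ∈ contentRing (A.comap ι), ((W₂ b : FF L (M * q * q)) : LaurentSeries L) =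
      HahnSeries.C ((q : ℕ) : L) * g)
    (s : FF L (M * q))
    (hs : IsIntegral (Algebra.adjoin ↥(A.comap ι) {jBC L (M * q * q)})
      (heckeAlphaBar L (M * q) q s))
    (hs₁ : ∃ g ∈ contentRing (A.comap ι), (s : LaurentSeries L) =
      HahnSeries.C ((q : ℕ) : L) * g) :
    ∃ c : FF L (M * q * q), IsIntegral (Algebra.adjoin ↥(A.comap ι) {jBC L (M * q * q)}) c ∧
      heckeAlphaBar L (M * q) q s * b =
        algebraMap ↥(A.comap ι) (FF L (M * q * q)) ((q : ℕ) : ↥(A.comap ι)) * c := by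
  obtain ⟨L', iF, iA, W', hdvr', ζ, E, hcyc, hj, hV2, hV3⟩ :=
    exists_package A ι M q hq hqM S hlev hirr w₁ hwα hwβ
  haveI : IsDiscreteValuationRing ↥(A.comap ι) := hlev.2.2.1
  haveI : CharP (IsLocalRing.ResidueField ↥(A.comap ι)) q := hlev.2.2.2.2.2.1
  haveI : Fact q.Prime := ⟨hq⟩
  haveI : IsScalarTower ↥(A.comap ι) L (FF L (M * q * q)) :=
    Fermat.Agent.S34.GLevel.isScalarTower_FF (M * q * q) (A.comap ι)
  refine Fermat.Agent.S36.Vert3.mult_alpha (A.comap ι) M q w₁ W' ζ hcyc E hirr hj hV2 hV3 b hb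
    ?_ s hs hs₁
  obtain ⟨g, hg, hbg⟩ := hb0
  exact ⟨g, hg, by
    rw [Fermat.Agent.S36.NExtInst.phi0_eq_coe_atkinLehnerSq M q w₁ ζ hq E W₂ hα hβ b]; exact hbg⟩

set_option maxHeartbeats 1600000 in
set_option synthInstance.maxHeartbeats 400000 in
/-- **(Cover36) at an unramified level**: every prime `𝔫 ∋ q` of the finite chart of level
`M q²` contains `α₂ 𝔭₁` or `β₂ 𝔭₂`. -/
theorem cover36_level (hq : q.Prime) (hqM : ¬ q ∣ M) (S : Finset Qb)
    (hlev : LevelChange.IsLevel A q S ι) (hirr : Irreducible ((q : ℕ) : ↥(A.comap ι)))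
    (w₁ : FF L (M * q) →ₐ[L] FF L (M * q))
    (hwα : w₁.comp (heckeAlphaBar L M q) = heckeBetaBar L M q)
    (hwβ : w₁.comp (heckeBetaBar L M q) = heckeAlphaBar L M q)
    (𝔫 : Ideal (integralClosure (Algebra.adjoin ↥(A.comap ι) {jBC L (M * q * q)})
      (FF L (M * q * q)))) [𝔫.IsPrime]
    (hπ𝔫 : ∀ r : integralClosure (Algebra.adjoin ↥(A.comap ι) {jBC L (M * q * q)})
        (FF L (M * q * q)),
      (r : FF L (M * q * q)) =
        algebraMap ↥(A.comap ι) (FF L (M * q * q)) ((q : ℕ) : ↥(A.comap ι)) → r ∈ 𝔫) :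
    (∀ (y : FF L (M * q))
        (b : integralClosure (Algebra.adjoin ↥(A.comap ι) {jBC L (M * q * q)})
          (FF L (M * q * q))),
        (b : FF L (M * q * q)) = heckeAlphaBar L (M * q) q y →
        ∀ h : (y : LaurentSeries L) ∈ contentRing (A.comap ι),
          red (A.comap ι) ⟨_, h⟩ = 0 → b ∈ 𝔫) ∨
    (∀ (y : FF L (M * q))
        (b : integralClosure (Algebra.adjoin ↥(A.comap ι) {jBC L (M * q * q)})
          (FF L (M * q * q))),
        (b : FF L (M * q * q)) = heckeBetaBar L (M * q) q y →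
        ∀ h : ((w₁ y : FF L (M * q)) : LaurentSeries L) ∈ contentRing (A.comap ι),
          red (A.comap ι) ⟨_, h⟩ = 0 → b ∈ 𝔫) := by
  obtain ⟨L', iF, iA, W', hdvr', ζ, E, hcyc, hj, hV2, hV3⟩ :=
    exists_package A ι M q hq hqM S hlev hirr w₁ hwα hwβ
  haveI : IsDiscreteValuationRing ↥(A.comap ι) := hlev.2.2.1
  haveI : CharP (IsLocalRing.ResidueField ↥(A.comap ι)) q := hlev.2.2.2.2.2.1
  haveI : Fact q.Prime := ⟨hq⟩
  haveI : IsScalarTower ↥(A.comap ι) L (FF L (M * q * q)) :=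
    Fermat.Agent.S34.GLevel.isScalarTower_FF (M * q * q) (A.comap ι)
  exact Fermat.Agent.S36.Cover36Of.cover36 (A.comap ι) M q w₁ W' ζ hcyc E hirr hj hV2 hV3 𝔫 hπ𝔫

end Fermat.Agent.S36.Vert3Inst
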