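import Mathlib
import Fermat.Agent.S34.Hartogs
import Fermat.Agent.S34.IntAt

/-!
# S36 (wave 8), contract K3 (b): the vertical primes of a chart are the centres of the
valuations above the Gauss valuation

`A` an integrally closed domain (in the application `W[j]` or `W[1/j]`), `π ∈ A` a prime element,
`E` a field containing `A`, `B = integralClosure A E` the chart ring (noetherian, integrally
closed, with fraction field `E`).  `O : ι → ValuationSubring E` a finite family of valuation
subrings containing `B` in which `π` is not invertible, such that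

* `he` : `x ^ e ∈ π O i` for every nonunit `x` of `O i` (ramification index at most `e`);
* `hC` : every `c ∈ ⋂ O i` is integral over the Gauss ring `A_(π)`: `s * c` is integral over `A`
  for some `s ∈ A`, `π ∤ s`.

Then

* `not_mem_of_not_dvd` (going down): a prime of `B` minimal over `(π)` contains no `s ∈ A`,
  `π ∤ s`;
* `dvd_pow_of_forall_mem_nonunits` : `y ∈ B` nonunit in all `O i` implies `π ∣ y ^ e` in `B`;
* `exists_centre_eq` : every prime of `B` minimal over `(π)` is the centre of some `O i`;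
* `regularAt_of_forall_mem`, `exists_isIntegral_mul_of_vert` : **integrality at a point**:
  `x ∈ ⋂ O i` regular at every horizontal prime through `𝔫` has `d * x` integral over `A` for
  some `d ∉ 𝔫`.
-/

set_option autoImplicit false
set_option linter.style.haveILetI false

namespace Fermat.Agent.S36.VertCentre

open Fermat.Agent.S34 Fermat.Agent.S34.IntAt

variable {A E : Type*} [CommRing A] [IsDomain A] [IsIntegrallyClosed A] [Field E] [Algebra A E]
  [FaithfulSMul A E]


/-- **Going down.**  A prime of the chart ring minimal over `(π)` lies over `(π)`: it contains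
no `s ∈ A` with `π ∤ s`. -/
theorem not_mem_of_not_dvd {π : A} (hπ : Prime π) (𝔭 : Ideal ↥(integralClosure A E))
    (h𝔭 : 𝔭 ∈ (Ideal.span {algebraMap A ↥(integralClosure A E) π} : Ideal ↥(integralClosure A E)).minimalPrimes) {s : A} (hs : ¬ π ∣ s) :
    algebraMap A ↥(integralClosure A E) s ∉ 𝔭 := by
  haveI h𝔭prime : 𝔭.IsPrime := h𝔭.1.1
  have hinj : Function.Injective (algebraMap A ↥(integralClosure A E)) := by
    intro a b hab
    apply FaithfulSMul.algebraMap_injective A E
    have := congrArg (algebraMap ↥(integralClosure A E) E) hab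
    rwa [← IsScalarTower.algebraMap_apply, ← IsScalarTower.algebraMap_apply] at this
  haveI : FaithfulSMul A ↥(integralClosure A E) := (faithfulSMul_iff_algebraMap_injective A ↥(integralClosure A E)).mpr hinj
  haveI hprime : (Ideal.span {π} : Ideal A).IsPrime :=
    (Ideal.span_singleton_prime hπ.ne_zero).mpr hπ
  haveI : 𝔭.LiesOver (𝔭.under A) := ⟨rfl⟩
  have hle : (Ideal.span {π} : Ideal A) ≤ 𝔭.under A := by
    rw [Ideal.span_singleton_le_iff_mem, Ideal.under_def, Ideal.mem_comap]
    exact h𝔭.1.2 (Ideal.mem_span_singleton_self _)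
  obtain ⟨P, hP𝔭, hPprime, hPover⟩ :=
    Ideal.exists_ideal_le_liesOver_of_le (p := Ideal.span {π}) (q := 𝔭.under A) 𝔭 hle
  have hπP : algebraMap A ↥(integralClosure A E) π ∈ P := by
    have h1 : π ∈ P.under A := by
      rw [← hPover.over]; exact Ideal.mem_span_singleton_self π
    exact h1
  have h𝔭P : 𝔭 ≤ P :=
    h𝔭.2 ⟨hPprime, (Ideal.span_singleton_le_iff_mem _).mpr hπP⟩ hP𝔭
  intro hs𝔭
  have hsP : s ∈ P.under A := h𝔭P hs𝔭
  rw [← hPover.over, Ideal.mem_span_singleton] at hsP
  exact hs hsP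

variable [IsNoetherianRing ↥(integralClosure A E)] [IsIntegrallyClosed ↥(integralClosure A E)]

/-- `y ∈ B` with `y ^ e / π ∈ ⋂ O i` is such that `π ∣ y ^ e` in `B`. -/
theorem dvd_pow_of_forall_mem_nonunits {π : A} (hπ : Prime π) {ι : Type*}
    (O : ι → ValuationSubring E) (e : ℕ)
    (he : ∀ i, ∀ x ∈ (O i).nonunits, ∃ c ∈ O i, x ^ e = algebraMap A E π * c)
    (hC : ∀ c : E, (∀ i, c ∈ O i) → ∃ s : A, ¬ π ∣ s ∧ IsIntegral A (algebraMap A E s * c))
    (y : ↥(integralClosure A E)) (hy : ∀ i, (y : E) ∈ (O i).nonunits) :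
    algebraMap A ↥(integralClosure A E) π ∣ y ^ e := by
  have hπE : algebraMap A E π ≠ 0 := by
    rw [Ne, map_eq_zero_iff _ (FaithfulSMul.algebraMap_injective A E)]
    exact hπ.ne_zero
  have hπB : algebraMap A ↥(integralClosure A E) π ≠ 0 := by
    intro h0
    apply hπE
    have := congrArg (algebraMap ↥(integralClosure A E) E) h0
    rwa [← IsScalarTower.algebraMap_apply, map_zero] at this
  -- `c := y ^ e / π` lies in all `O i`
  have hc : ∀ i, (y : E) ^ e / algebraMap A E π ∈ O i := by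
    intro i
    obtain ⟨c, hcO, hceq⟩ := he i _ (hy i)
    rw [hceq, mul_div_cancel_left₀ _ hπE]
    exact hcO
  obtain ⟨s, hs, hint⟩ := hC _ hc
  refine Hartogs.dvd_of_forall_minimalPrimes _ _ hπB fun 𝔭 h𝔭 => ?_
  refine ⟨algebraMap A ↥(integralClosure A E) s, not_mem_of_not_dvd hπ 𝔭 h𝔭 hs, ?_⟩
  refine ⟨⟨_, hint⟩, Subtype.ext ?_⟩
  show algebraMap A E s * (y : E) ^ e
    = algebraMap A E π * (algebraMap A E s * ((y : E) ^ e / algebraMap A E π))
  field_simp

/-- the centre on `B` of a valuation subring containing `B` -/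
def centre (V : ValuationSubring E) (hV : ∀ b : ↥(integralClosure A E), (b : E) ∈ V) : Ideal ↥(integralClosure A E) :=
  (IsLocalRing.maximalIdeal V).comap
    ((algebraMap ↥(integralClosure A E) E).codRestrict V.toSubring hV)

omit [IsDomain A] [IsIntegrallyClosed A] [FaithfulSMul A E] [IsNoetherianRing ↥(integralClosure A E)]
  [IsIntegrallyClosed ↥(integralClosure A E)] in
theorem mem_centre_iff (V : ValuationSubring E) (hV : ∀ b : ↥(integralClosure A E), (b : E) ∈ V) (y : ↥(integralClosure A E)) :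
    y ∈ centre V hV ↔ (y : E) ∈ V.nonunits := by
  unfold centre
  rw [Ideal.mem_comap, IsLocalRing.mem_maximalIdeal, mem_nonunits_iff,
    ValuationSubring.mem_nonunits_iff_exists_mem_maximalIdeal]
  constructor
  · intro h
    exact ⟨hV y, by rwa [IsLocalRing.mem_maximalIdeal, mem_nonunits_iff]⟩
  · rintro ⟨h1, h2⟩
    rwa [IsLocalRing.mem_maximalIdeal, mem_nonunits_iff] at h2

omit [IsDomain A] [IsIntegrallyClosed A] [FaithfulSMul A E] [IsNoetherianRing ↥(integralClosure A E)]
  [IsIntegrallyClosed ↥(integralClosure A E)] in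
theorem centre_isPrime (V : ValuationSubring E) (hV : ∀ b : ↥(integralClosure A E), (b : E) ∈ V) :
    (centre V hV).IsPrime :=
  Ideal.comap_isPrime _ _

/-- **K3 (b).**  Every prime of the chart ring minimal over `(π)` is the centre of one of the
valuation subrings `O i`. -/
theorem exists_centre_eq {π : A} (hπ : Prime π) {ι : Type*} [Finite ι]
    (O : ι → ValuationSubring E) (hO : ∀ i, ∀ b : ↥(integralClosure A E), (b : E) ∈ O i)
    (hπO : ∀ i, algebraMap A E π ∈ (O i).nonunits) (e : ℕ)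
    (he : ∀ i, ∀ x ∈ (O i).nonunits, ∃ c ∈ O i, x ^ e = algebraMap A E π * c)
    (hC : ∀ c : E, (∀ i, c ∈ O i) → ∃ s : A, ¬ π ∣ s ∧ IsIntegral A (algebraMap A E s * c))
    (𝔭 : Ideal ↥(integralClosure A E)) (h𝔭 : 𝔭 ∈ (Ideal.span {algebraMap A ↥(integralClosure A E) π} : Ideal ↥(integralClosure A E)).minimalPrimes) :
    ∃ i, ∀ y : ↥(integralClosure A E), algebraMap ↥(integralClosure A E) E y ∈ (O i).nonunits ↔ y ∈ 𝔭 := by
  classical
  haveI := Fintype.ofFinite ι
  haveI h𝔭prime : 𝔭.IsPrime := h𝔭.1.1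
  have hinf : (Finset.univ : Finset ι).inf (fun i => centre (O i) (hO i)) ≤ 𝔭 := by
    intro y hy
    rw [Submodule.mem_finsetInf] at hy
    have hy' : ∀ i, (y : E) ∈ (O i).nonunits := fun i =>
      (mem_centre_iff (O i) (hO i) y).mp (hy i (Finset.mem_univ i))
    have hdvd := dvd_pow_of_forall_mem_nonunits hπ O e he hC y hy'
    have hmem : y ^ e ∈ 𝔭 := by
      obtain ⟨z, hz⟩ := hdvd
      rw [hz]
      exact Ideal.mul_mem_right _ _ (h𝔭.1.2 (Ideal.mem_span_singleton_self _))
    exact h𝔭prime.mem_of_pow_mem e hmem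
  obtain ⟨i, -, hi⟩ := (Ideal.IsPrime.inf_le' h𝔭prime).mp hinf
  haveI := centre_isPrime (O i) (hO i)
  have hπi : algebraMap A ↥(integralClosure A E) π ∈ centre (O i) (hO i) := by
    rw [mem_centre_iff]
    exact hπO i
  have heq : 𝔭 = centre (O i) (hO i) :=
    le_antisymm (h𝔭.2 ⟨inferInstance, (Ideal.span_singleton_le_iff_mem _).mpr hπi⟩ hi) hi
  refine ⟨i, fun y => ?_⟩
  rw [heq, mem_centre_iff]
  rfl

variable [IsFractionRing ↥(integralClosure A E) E]

/-- an element of `⋂ O i` is regular (in the sense of `S34.IntAt`) at every vertical prime -/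
theorem regularAt_of_forall_mem {π : A} (hπ : Prime π) {ι : Type*} [Finite ι]
    (O : ι → ValuationSubring E) (hO : ∀ i, ∀ b : ↥(integralClosure A E), (b : E) ∈ O i)
    (hπO : ∀ i, algebraMap A E π ∈ (O i).nonunits) (e : ℕ)
    (he : ∀ i, ∀ x ∈ (O i).nonunits, ∃ c ∈ O i, x ^ e = algebraMap A E π * c)
    (hC : ∀ c : E, (∀ i, c ∈ O i) → ∃ s : A, ¬ π ∣ s ∧ IsIntegral A (algebraMap A E s * c))
    (𝔭 : Ideal ↥(integralClosure A E)) (h𝔭 : 𝔭 ∈ (Ideal.span {algebraMap A ↥(integralClosure A E) π} : Ideal ↥(integralClosure A E)).minimalPrimes)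
    (x : E) (hx : ∀ i, x ∈ O i) : RegularAt 𝔭 x := by
  obtain ⟨i, hi⟩ := exists_centre_eq hπ O hO hπO e he hC 𝔭 h𝔭
  exact RegularAt.of_valuationSubring (O i) hi (hx i)

/-- **Integrality at a point of a chart, three-valuation form.**  `x ∈ ⋂ O i` which is regular
at every nonzero prime `𝔮 ≤ 𝔫` not containing `π` has `d * x` integral over `A` for some
`d ∉ 𝔫`. -/
theorem exists_isIntegral_mul_of_vert {π : A} (hπ : Prime π) {ι : Type*} [Finite ι]
    (O : ι → ValuationSubring E) (hO : ∀ i, ∀ b : ↥(integralClosure A E), (b : E) ∈ O i)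
    (hπO : ∀ i, algebraMap A E π ∈ (O i).nonunits) (e : ℕ)
    (he : ∀ i, ∀ x ∈ (O i).nonunits, ∃ c ∈ O i, x ^ e = algebraMap A E π * c)
    (hC : ∀ c : E, (∀ i, c ∈ O i) → ∃ s : A, ¬ π ∣ s ∧ IsIntegral A (algebraMap A E s * c))
    (𝔫 : Ideal ↥(integralClosure A E)) [𝔫.IsPrime] (x : E) (hx : ∀ i, x ∈ O i)
    (hH : ∀ 𝔮 : Ideal ↥(integralClosure A E), 𝔮.IsPrime → 𝔮 ≠ ⊥ → algebraMap A ↥(integralClosure A E) π ∉ 𝔮 → 𝔮 ≤ 𝔫 → RegularAt 𝔮 x) :
    ∃ d : ↥(integralClosure A E), d ∉ 𝔫 ∧ IsIntegral A ((d : E) * x) := by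
  have hπB : algebraMap A ↥(integralClosure A E) π ≠ 0 := by
    intro h0
    have h1 : algebraMap A E π = 0 := by
      have := congrArg (algebraMap ↥(integralClosure A E) E) h0
      rwa [← IsScalarTower.algebraMap_apply, map_zero] at this
    rw [map_eq_zero_iff _ (FaithfulSMul.algebraMap_injective A E)] at h1
    exact hπ.ne_zero h1
  obtain ⟨d, hd, t, ht⟩ := exists_notMem_mul_eq_of_forall (algebraMap A ↥(integralClosure A E) π) hπB 𝔫 x
    (fun 𝔭 h𝔭 _ => regularAt_of_forall_mem hπ O hO hπO e he hC 𝔭 h𝔭 x hx) hH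
  refine ⟨d, hd, ?_⟩
  have h1 : (d : E) * x = (t : E) := ht.symm
  rw [h1]
  exact t.2

end Fermat.Agent.S36.VertCentre
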