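/-
S36 (wave 8), K4 support: the vertical table of the charts of level `M q²`.

`F = FF L (M q²)`, three expansion maps `coe : F → L((Q))`, `E.phi0 : F → L((Q))`,
`E.psi : F → L'((Q))` (`VDefs.Exp3`), content rings of `W` (for `coe`, `phi0`) and of `W'` (for
`psi`, uniformiser `1 - ζ`, `VDefs.CycData`).  The criterion (V2⇐) "the three expansions are
integral ⇒ Gauss-integral" enters as a hypothesis `hV2`.

* `tw_mem_contentRing`, `rd_coeffMap`, `rd_coeffMap_eq_zero_iff`, `rd_qExpand_eq_zero_iff`,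
  `rd_tw_eq_zero_iff` : operations on series and reductions.
* `mem_three_of_isIntegralElem`, `mem_three_of_isIntegralElem_inv` : functions integral over
  `W[j]` (resp. `W[1/j]`) have their three expansions in the content rings.
* `exists_isIntegral_eq_mul`, `dvd_mul_pow_mul` (and the `_inv` twins on the chart `W[1/j]`) :
  **the product relation** `𝔭_∞ · 𝔭_mid ^ (q - 1) · 𝔭_0 ⊆ (π)` on the charts.
* the comap table of the three reductions under `α₂ = heckeAlphaBar L (M q) q` and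
  `β₂ = heckeBetaBar L (M q) q`, and the witnesses `b₀`, `w₁ b₀`.
-/
import Mathlib
import Fermat.Agent.S36.VDefs
import Fermat.Agent.S36.CycLemmas
import Fermat.Agent.S36.Exp3Lemmas
import Fermat.Agent.S34.Bridge
import Fermat.Agent.S34.TwoGauss
import Fermat.Agent.S34.CompF1
import Fermat.Agent.S36.InC3

set_option autoImplicit false
set_option linter.unusedSectionVars false
set_option linter.unusedVariables false
set_option linter.style.haveILetI false

noncomputable section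

namespace Fermat.Agent.S36.VertInst

open ModularCurve Polynomial Fermat.Agent.S18 Fermat.Agent.S18.Gauss Fermat.Agent.S28
open Fermat.Agent.S24 Fermat.Agent.S36.VDefs Fermat.Agent.S34.TwoGauss Fermat.Agent.S35.EsSeries
open Fermat.Agent.S37.LevelChange

/-! ### Operations on series and reductions -/

section Series

variable {L : Type*} [Field L] (W : ValuationSubring L)

/-- The twist by a root of unity of order the residue characteristic preserves the content ring
and does not change reductions. -/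
theorem tw_mem_contentRing (ζ : Lˣ) {q : ℕ} [hq : Fact q.Prime]
    [CharP (IsLocalRing.ResidueField W) q] (hζ : ζ ^ q = 1) {u : LaurentSeries L}
    (hu : u ∈ contentRing W) : tw ζ u ∈ contentRing W ∧ rd W (tw ζ u) = rd W u := by
  obtain ⟨x, y, hy, hxy⟩ := id hu
  have hL : ∀ z : LaurentSeries W,
      toL W (tw (rootUnit (W := W) ζ hq.out.pos hζ) z) = tw ζ (toL W z) := by
    intro z
    show coeffMap W.subtype (tw (rootUnit (W := W) ζ hq.out.pos hζ) z) = tw ζ (toL W z)
    rw [coeffMap_tw]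
    rfl
  have hK : ∀ z : LaurentSeries W,
      toK W (tw (rootUnit (W := W) ζ hq.out.pos hζ) z) = toK W z := by
    intro z
    show coeffMap (IsLocalRing.residue W) (tw (rootUnit (W := W) ζ hq.out.pos hζ) z) = toK W z
    rw [coeffMap_tw]
    have e : Units.map ((IsLocalRing.residue W : ↥W →+* IsLocalRing.ResidueField W) :
        ↥W →* IsLocalRing.ResidueField W) (rootUnit (W := W) ζ hq.out.pos hζ) = 1 :=
      map_residue_rootUnit ζ hζ
    rw [e, tw_one]
    rfl
  have hy' : toK W (tw (rootUnit (W := W) ζ hq.out.pos hζ) y) ≠ 0 := by rw [hK]; exact hy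
  have hxy' : tw ζ u * toL W (tw (rootUnit (W := W) ζ hq.out.pos hζ) y) =
      toL W (tw (rootUnit (W := W) ζ hq.out.pos hζ) x) := by
    rw [hL, hL, ← map_mul, hxy]
  have hmem : tw ζ u ∈ contentRing W := ⟨_, _, hy', hxy'⟩
  refine ⟨hmem, ?_⟩
  rw [rd_of_mem W hmem, rd_of_mem W hu, red_mk_eq W hmem hy' hxy', hK, hK,
    ← red_mk_eq W hu hy hxy]

theorem rd_tw_eq_zero_iff (ζ : Lˣ) {q : ℕ} [hq : Fact q.Prime]
    [CharP (IsLocalRing.ResidueField W) q] (hζ : ζ ^ q = 1) {u : LaurentSeries L}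
    (hu : u ∈ contentRing W) : rd W (tw ζ u) = 0 ↔ rd W u = 0 := by
  rw [(tw_mem_contentRing W ζ hζ hu).2]

theorem rd_qExpand_eq_zero_iff (d : ℕ) [NeZero d] {f : LaurentSeries L}
    (hf : f ∈ contentRing W) : rd W (qExpand L d f) = 0 ↔ rd W f = 0 := by
  rw [rd_qExpand W d hf]
  constructor
  · intro h
    exact qExpand_injective d (by rw [h, map_zero])
  · intro h
    rw [h, map_zero]

variable {L₀ : Type*} [Field L₀] (τ : L₀ →+* L) (W₀ : ValuationSubring L₀)
  (hW : ∀ c : L₀, c ∈ W₀ ↔ τ c ∈ W)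

include hW in
/-- reduction commutes with coefficient extension -/
theorem rd_coeffMap {f : LaurentSeries L₀} (hf : f ∈ contentRing W₀) :
    rd W (coeffMap τ f) = coeffMap (resMap τ W₀ W hW) (rd W₀ f) := by
  rw [rd_of_mem W (coeffMap_mem_contentRing τ W₀ W hW hf), rd_of_mem W₀ hf,
    red_coeffMap τ W₀ W hW hf]

include hW in
theorem rd_coeffMap_eq_zero_iff {f : LaurentSeries L₀} (hf : f ∈ contentRing W₀) :
    rd W (coeffMap τ f) = 0 ↔ rd W₀ f = 0 := by
  rw [rd_coeffMap W τ W₀ hW hf]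
  constructor
  · intro h
    apply Fermat.Agent.S28.Tower.coeffMap_injective (resMap τ W₀ W hW)
    rw [map_zero]
    exact h
  · intro h
    rw [h, map_zero]

/-- integral elements along a ring homomorphism into a Gauss valuation ring lie in it -/
theorem mem_contentRing_of_isIntegralElem' [IsDiscreteValuationRing W] {R F : Type*}
    [CommRing R] [Field F] (φ : F →+* LaurentSeries L) (hφ : ∀ x, φ x ∈ fracInt W)
    (ev : R →+* F) (hev : ∀ P, φ (ev P) ∈ contentRing W) {y : F} (hy : ev.IsIntegralElem y) :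
    φ y ∈ contentRing W := by
  obtain ⟨P, hP, hroot⟩ := hy
  refine mem_contentRing_of_monic_root W (hφ y)
    (P.map ((φ.comp ev).codRestrict (contentRing W) hev)) (hP.map _) ?_
  have hcomp : (contentRing W).subtype.comp ((φ.comp ev).codRestrict (contentRing W) hev) =
      φ.comp ev := RingHom.ext fun _ => rfl
  rw [Polynomial.eval₂_map, hcomp, ← Polynomial.hom_eval₂, hroot, map_zero]

/-- polynomial expressions in an element with integral expansion have integral expansion -/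
theorem map_ev_mem {W₁ : Type*} [CommRing W₁] {F : Type*} [Field F]
    (φ : F →+* LaurentSeries L) (ev : W₁[X] →+* F)
    (hC : ∀ a : W₁, φ (ev (C a)) ∈ contentRing W) (hX : φ (ev X) ∈ contentRing W)
    (P : W₁[X]) : φ (ev P) ∈ contentRing W := by
  induction P using Polynomial.induction_on with
  | C a => exact hC a
  | add p q hp hq =>
    rw [map_add, map_add]
    exact add_mem hp hq
  | monomial n a ih =>
    rw [pow_succ, ← mul_assoc, map_mul, map_mul]
    exact mul_mem ih hX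

end Series

/-! ### The three expansions on the charts of level `M q²` -/

section Level

variable {L : Type} [Field L] [Algebra ℚ L] (W : ValuationSubring L) [IsDiscreteValuationRing W]
  (M q : ℕ) [NeZero M] [NeZero q] [Fact q.Prime] [CharP (IsLocalRing.ResidueField W) q]
  {L' : Type} [Field L'] [Algebra L L'] (W' : ValuationSubring L') [IsDiscreteValuationRing W']
  (ζ : L'ˣ)
  (w₁ : FF L (M * q) →ₐ[L] FF L (M * q))

/-- `j` of level `M q²` is the image of `j` of level `M q` under `α₂`. -/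
theorem jBC_eq_alpha : jBC L (M * q * q) = heckeAlphaBar L (M * q) q (jBC L (M * q)) :=
  (Fermat.Agent.S34.CompF1.alpha_jBC (M * q) q).symm

/-- the expansion of `w₁ j` at level `M q` -/
theorem coe_w_jBC (hwα : w₁.comp (heckeAlphaBar L M q) = heckeBetaBar L M q) :
    ((w₁ (jBC L (M * q)) : FF L (M * q)) : LaurentSeries L) = qExpand L q (jqModC L) := by
  have h := phi2_alpha w₁ hwα (jBC L M)
  rw [phiM_jBC, Fermat.Agent.S34.CompF1.alpha_jBC M q] at h
  exact h

/-- the expansion of `j` at the cusp `0` is `j(Q^{q²})` -/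
theorem phi0_jBC (hwα : w₁.comp (heckeAlphaBar L M q) = heckeBetaBar L M q)
    (E : Exp3 M q w₁ ζ) :
    E.phi0 (jBC L (M * q * q)) = qExpand L q (qExpand L q (jqModC L)) := by
  rw [jBC_eq_alpha, E.phi0_alpha, coe_w_jBC M q w₁ hwα]

/-- the middle expansion of `j` is `j(Q)` -/
theorem psi_jBC (E : Exp3 M q w₁ ζ) :
    E.psi (jBC L (M * q * q)) = coeffMap (algebraMap L L') (jqModC L) := by
  rw [jBC_eq_alpha, E.psi_alpha, coe_jBC_eq]

theorem phi0_ev_mem (hwα : w₁.comp (heckeAlphaBar L M q) = heckeBetaBar L M q)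
    (E : Exp3 M q w₁ ζ) (P : (↥W)[X]) :
    E.phi0 (evF W (M * q * q) P) ∈ contentRing W ∧
      E.phi0 (evFinf W (M * q * q) P) ∈ contentRing W := by
  constructor
  · refine map_ev_mem W E.phi0 (evF W (M * q * q)) (fun a => ?_) ?_ P
    · rw [evF_C, Exp3Lemmas.phi0_algebraMap]
      exact C_mem_contentRing W a
    · rw [evF_X, phi0_jBC M q ζ w₁ hwα E]
      exact qExpand_mem_contentRing W q (jqd_mem_contentRing W q)
  · refine map_ev_mem W E.phi0 (evFinf W (M * q * q)) (fun a => ?_) ?_ P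
    · rw [evFinf_C, Exp3Lemmas.phi0_algebraMap]
      exact C_mem_contentRing W a
    · rw [evFinf_X, map_inv₀, phi0_jBC M q ζ w₁ hwα E, ← map_inv₀, ← map_inv₀]
      exact qExpand_mem_contentRing W q (qExpand_mem_contentRing W q (jInv_mem_contentRing W))

theorem psi_ev_mem (hcyc : CycData W q W' ζ) (E : Exp3 M q w₁ ζ) (P : (↥W)[X]) :
    E.psi (evF W (M * q * q) P) ∈ contentRing W' ∧
      E.psi (evFinf W (M * q * q) P) ∈ contentRing W' := by
  have hWW' : ∀ c : L, c ∈ W ↔ algebraMap L L' c ∈ W' := fun c => (hcyc.comap c).symm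
  constructor
  · refine map_ev_mem W' E.psi (evF W (M * q * q)) (fun a => ?_) ?_ P
    · rw [evF_C, Exp3Lemmas.psi_algebraMap]
      exact C_mem_contentRing W' ⟨algebraMap L L' (a : L), (hWW' _).mp a.2⟩
    · rw [evF_X, psi_jBC M q ζ w₁ E]
      exact coeffMap_mem_contentRing (algebraMap L L') W W' hWW' (jq_mem_contentRing W)
  · refine map_ev_mem W' E.psi (evFinf W (M * q * q)) (fun a => ?_) ?_ P
    · rw [evFinf_C, Exp3Lemmas.psi_algebraMap]
      exact C_mem_contentRing W' ⟨algebraMap L L' (a : L), (hWW' _).mp a.2⟩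
    · rw [evFinf_X, map_inv₀, psi_jBC M q ζ w₁ E, ← map_inv₀]
      exact coeffMap_mem_contentRing (algebraMap L L') W W' hWW' (jInv_mem_contentRing W)

omit [IsDiscreteValuationRing W] in
theorem coe_algebraMap_const (N : ℕ) [NeZero N] (c : L) :
    ((algebraMap L (FF L N) c : FF L N) : LaurentSeries L) = HahnSeries.C c := by
  rw [← Fermat.Agent.S28.Content.algebraMap_eq_C_of_field]
  rfl

theorem coe_ev_mem (N : ℕ) [NeZero N] (P : (↥W)[X]) :
    ((evF W N P : FF L N) : LaurentSeries L) ∈ contentRing W ∧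
      ((evFinf W N P : FF L N) : LaurentSeries L) ∈ contentRing W := by
  constructor
  · refine map_ev_mem W (algebraMap (FF L N) (LaurentSeries L)) (evF W N) (fun a => ?_) ?_ P
    · rw [evF_C]
      show ((algebraMap L (FF L N) (a : L) : FF L N) : LaurentSeries L) ∈ contentRing W
      rw [coe_algebraMap_const]
      exact C_mem_contentRing W a
    · rw [evF_X]
      show ((jBC L N : FF L N) : LaurentSeries L) ∈ contentRing W
      rw [coe_jBC_eq]
      exact jq_mem_contentRing W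
  · refine map_ev_mem W (algebraMap (FF L N) (LaurentSeries L)) (evFinf W N) (fun a => ?_) ?_ P
    · rw [evFinf_C]
      show ((algebraMap L (FF L N) (a : L) : FF L N) : LaurentSeries L) ∈ contentRing W
      rw [coe_algebraMap_const]
      exact C_mem_contentRing W a
    · rw [evFinf_X, map_inv₀]
      show ((jBC L N : FF L N) : LaurentSeries L)⁻¹ ∈ contentRing W
      rw [coe_jBC_eq]
      exact jInv_mem_contentRing W

/-- **Integral functions have integral expansions** (finite chart): a function of level `M q²`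
integral over `W[j]` has its three expansions in the content rings. -/
theorem mem_three_of_isIntegralElem (hwα : w₁.comp (heckeAlphaBar L M q) = heckeBetaBar L M q)
    (hcyc : CycData W q W' ζ) (E : Exp3 M q w₁ ζ) {y : FF L (M * q * q)}
    (hy : (evF W (M * q * q)).IsIntegralElem y) :
    (y : LaurentSeries L) ∈ contentRing W ∧ E.phi0 y ∈ contentRing W ∧
      E.psi y ∈ contentRing W' := by
  haveI := CycLemmas.charP_residueField W q W' ζ hcyc
  have hWW' : ∀ c : L, c ∈ W ↔ algebraMap L L' c ∈ W' := fun c => (hcyc.comap c).symm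
  refine ⟨?_, ?_, ?_⟩
  · exact mem_contentRing_of_isIntegralElem' W (algebraMap (FF L (M * q * q)) (LaurentSeries L))
      (fun x => coe_mem_fracInt W (M * q * q) x) (evF W (M * q * q))
      (fun P => (coe_ev_mem W (M * q * q) P).1) hy
  · exact mem_contentRing_of_isIntegralElem' W E.phi0
      (Exp3Lemmas.phi0_mem_fracInt W M q w₁ ζ E) (evF W (M * q * q))
      (fun P => (phi0_ev_mem W M q ζ w₁ hwα E P).1) hy
  · exact mem_contentRing_of_isIntegralElem' W' E.psi
      (Exp3Lemmas.psi_mem_fracInt W M q w₁ W' ζ hWW' hcyc.prim.pow_eq_one E)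
      (evF W (M * q * q)) (fun P => (psi_ev_mem W M q W' ζ w₁ hcyc E P).1) hy

/-- **Integral functions have integral expansions** (chart at infinity). -/
theorem mem_three_of_isIntegralElem_inv
    (hwα : w₁.comp (heckeAlphaBar L M q) = heckeBetaBar L M q)
    (hcyc : CycData W q W' ζ) (E : Exp3 M q w₁ ζ) {y : FF L (M * q * q)}
    (hy : (evFinf W (M * q * q)).IsIntegralElem y) :
    (y : LaurentSeries L) ∈ contentRing W ∧ E.phi0 y ∈ contentRing W ∧
      E.psi y ∈ contentRing W' := by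
  haveI := CycLemmas.charP_residueField W q W' ζ hcyc
  have hWW' : ∀ c : L, c ∈ W ↔ algebraMap L L' c ∈ W' := fun c => (hcyc.comap c).symm
  refine ⟨?_, ?_, ?_⟩
  · exact mem_contentRing_of_isIntegralElem' W (algebraMap (FF L (M * q * q)) (LaurentSeries L))
      (fun x => coe_mem_fracInt W (M * q * q) x) (evFinf W (M * q * q))
      (fun P => (coe_ev_mem W (M * q * q) P).2) hy
  · exact mem_contentRing_of_isIntegralElem' W E.phi0
      (Exp3Lemmas.phi0_mem_fracInt W M q w₁ ζ E) (evFinf W (M * q * q))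
      (fun P => (phi0_ev_mem W M q ζ w₁ hwα E P).2) hy
  · exact mem_contentRing_of_isIntegralElem' W' E.psi
      (Exp3Lemmas.psi_mem_fracInt W M q w₁ W' ζ hWW' hcyc.prim.pow_eq_one E)
      (evFinf W (M * q * q)) (fun P => (psi_ev_mem W M q W' ζ w₁ hcyc E P).2) hy

/-! ### The product relation -/

theorem field_aux₁ {K : Type*} [Field K] {a g y z : K} (ha : a ≠ 0) :
    a * g * y * z * a⁻¹ = g * y * z := by
  field_simp

theorem field_aux₂ {K : Type*} [Field K] {a x y g : K} (ha : a ≠ 0) :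
    x * y * (a * g) * a⁻¹ = x * y * g := by
  field_simp

theorem field_aux₃ {K : Type*} [Field K] {a x t g z : K} (ha : a ≠ 0) :
    x * (a * t * g) * z * a⁻¹ = x * (t * g) * z := by
  field_simp

/-- `(1 - ζ) ^ (q - 1)` is a multiple of every uniformiser of `W` in `W'`. -/
theorem exists_pow_one_sub_eq (hcyc : CycData W q W' ζ) {π : ↥W} (hπ : Irreducible π) :
    ∃ t ∈ W', (1 - (ζ : L')) ^ (q - 1) = algebraMap L L' ((π : ↥W) : L) * t := by
  obtain ⟨u, hu, hu', hq⟩ := CycLemmas.exists_unit_q W q W' ζ hcyc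
  have h1 : ((q : ℕ) : IsLocalRing.ResidueField W) = 0 := CharP.cast_eq_zero _ q
  have h2 : ((q : ℕ) : ↥W) ∈ IsLocalRing.maximalIdeal ↥W := by
    rw [← IsLocalRing.residue_eq_zero_iff, map_natCast]
    exact h1
  rw [hπ.maximalIdeal_eq, Ideal.mem_span_singleton'] at h2
  obtain ⟨a, ha⟩ := h2
  have ha' : ((q : ℕ) : L) = (a : L) * ((π : ↥W) : L) := by
    have := congrArg (Subtype.val : ↥W → L) ha
    simpa using this.symm
  have hu0 : u ≠ 0 := by
    rintro rfl
    rw [mul_zero] at hq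
    have hq0 : ((q : ℕ) : L) = 0 := by
      apply (algebraMap L L').injective
      rw [map_natCast, map_zero]
      exact hq
    have hπ0 : ((π : ↥W) : L) ≠ 0 := fun h0 => hπ.ne_zero (Subtype.ext h0)
    have : CharZero L := algebraRat.charZero L
    exact (Fact.out : q.Prime).ne_zero (Nat.cast_eq_zero.mp hq0)
  refine ⟨algebraMap L L' (a : L) * u⁻¹, W'.mul_mem _ _ ((hcyc.comap _).mpr a.2) hu', ?_⟩
  have h3 : (1 - (ζ : L')) ^ (q - 1) = ((q : ℕ) : L') * u⁻¹ := by
    rw [hq, mul_assoc, mul_inv_cancel₀ hu0, mul_one]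
  rw [h3, ← map_natCast (algebraMap L L'), ha', map_mul]
  ring

/-- **The product relation, in expansion form.**  If the `∞`-expansion of `x` and the
`0`-expansion of `z` are divisible by `π` and the middle expansion of `y` by `1 - ζ`, then the
three expansions of `x y ^ (q-1) z / π` are integral. -/
theorem mem_three_div (hcyc : CycData W q W' ζ) (E : Exp3 M q w₁ ζ) {π : ↥W}
    (hπ : Irreducible π) (x y z : FF L (M * q * q))
    (hx : (x : LaurentSeries L) ∈ contentRing W ∧ E.phi0 x ∈ contentRing W ∧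
      E.psi x ∈ contentRing W')
    (hy : (y : LaurentSeries L) ∈ contentRing W ∧ E.phi0 y ∈ contentRing W ∧
      E.psi y ∈ contentRing W')
    (hz : (z : LaurentSeries L) ∈ contentRing W ∧ E.phi0 z ∈ contentRing W ∧
      E.psi z ∈ contentRing W')
    (hx0 : rd W (x : LaurentSeries L) = 0) (hy0 : rd W' (E.psi y) = 0)
    (hz0 : rd W (E.phi0 z) = 0) :
    ((x * y ^ (q - 1) * z * (algebraMap L (FF L (M * q * q)) ((π : ↥W) : L))⁻¹ :
        FF L (M * q * q)) : LaurentSeries L) ∈ contentRing W ∧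
      E.phi0 (x * y ^ (q - 1) * z * (algebraMap L (FF L (M * q * q)) ((π : ↥W) : L))⁻¹) ∈
        contentRing W ∧
      E.psi (x * y ^ (q - 1) * z * (algebraMap L (FF L (M * q * q)) ((π : ↥W) : L))⁻¹) ∈
        contentRing W' := by
  obtain ⟨hx1, hx2, hx3⟩ := hx
  obtain ⟨hy1, hy2, hy3⟩ := hy
  obtain ⟨hz1, hz2, hz3⟩ := hz
  obtain ⟨g₁, hg₁, e₁⟩ := (rd_eq_zero_iff W hπ hx1).mp hx0
  obtain ⟨g₃, hg₃, e₃⟩ := (rd_eq_zero_iff W hπ hz2).mp hz0
  obtain ⟨g₂, hg₂, e₂⟩ :=
    (rd_eq_zero_iff W' (CycLemmas.irreducible_one_sub W q W' ζ hcyc) hy3).mp hy0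
  obtain ⟨t, ht, hte⟩ := exists_pow_one_sub_eq W q W' ζ hcyc hπ
  have hπ0 : ((π : ↥W) : L) ≠ 0 := fun h0 => hπ.ne_zero (Subtype.ext h0)
  have hCπ : (HahnSeries.C ((π : ↥W) : L) : LaurentSeries L) ≠ 0 := by
    intro h0
    have := congrArg (fun s : LaurentSeries L => s.coeff 0) h0
    simp at this
    exact hπ.ne_zero this
  have hCπ' : (HahnSeries.C (algebraMap L L' ((π : ↥W) : L)) : LaurentSeries L') ≠ 0 := by
    intro h0
    have := congrArg (fun s : LaurentSeries L' => s.coeff 0) h0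
    simp at this
    exact hπ.ne_zero this
  refine ⟨?_, ?_, ?_⟩
  · have e : ((x * y ^ (q - 1) * z * (algebraMap L (FF L (M * q * q)) ((π : ↥W) : L))⁻¹ :
        FF L (M * q * q)) : LaurentSeries L) =
        g₁ * (y : LaurentSeries L) ^ (q - 1) * (z : LaurentSeries L) := by
      have h1 : algebraMap (FF L (M * q * q)) (LaurentSeries L)
          (x * y ^ (q - 1) * z * (algebraMap L (FF L (M * q * q)) ((π : ↥W) : L))⁻¹) =
          algebraMap (FF L (M * q * q)) (LaurentSeries L) x *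
            algebraMap (FF L (M * q * q)) (LaurentSeries L) y ^ (q - 1) *
            algebraMap (FF L (M * q * q)) (LaurentSeries L) z *
            (HahnSeries.C ((π : ↥W) : L))⁻¹ := by
        rw [map_mul, map_mul, map_mul, map_pow, map_inv₀]
        congr 2
        exact coe_algebraMap_const (M * q * q) ((π : ↥W) : L)
      have h2 : algebraMap (FF L (M * q * q)) (LaurentSeries L) x =
          HahnSeries.C ((π : ↥W) : L) * g₁ := e₁
      rw [h2] at h1
      exact h1.trans (field_aux₁ hCπ)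
    rw [e]
    exact mul_mem (mul_mem hg₁ (pow_mem hy1 _)) hz1
  · have e : E.phi0 (x * y ^ (q - 1) * z *
        (algebraMap L (FF L (M * q * q)) ((π : ↥W) : L))⁻¹) =
        E.phi0 x * E.phi0 y ^ (q - 1) * g₃ := by
      rw [map_mul, map_mul, map_mul, map_pow, map_inv₀, Exp3Lemmas.phi0_algebraMap, e₃]
      exact field_aux₂ hCπ
    rw [e]
    exact mul_mem (mul_mem hx2 (pow_mem hy2 _)) hg₃
  · have hC : (HahnSeries.C (1 - (ζ : L')) : LaurentSeries L') ^ (q - 1) =
        HahnSeries.C (algebraMap L L' ((π : ↥W) : L)) * HahnSeries.C t := by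
      rw [← map_pow, hte, map_mul]
    have e : E.psi (x * y ^ (q - 1) * z *
        (algebraMap L (FF L (M * q * q)) ((π : ↥W) : L))⁻¹) =
        E.psi x * (HahnSeries.C t * g₂ ^ (q - 1)) * E.psi z := by
      rw [map_mul, map_mul, map_mul, map_pow, map_inv₀, Exp3Lemmas.psi_algebraMap, e₂, mul_pow,
        hC]
      exact field_aux₃ hCπ'
    rw [e]
    exact mul_mem (mul_mem hx3 (mul_mem (C_mem_contentRing W' ⟨t, ht⟩) (pow_mem hg₂ _))) hz3

/-- `j` is transcendental over `W` (at every level, no embedding into `ℚ̄` needed). -/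
theorem transcendental_jBC_W (N : ℕ) [NeZero N] : Transcendental ↥W (jBC L N) := by
  rw [transcendental_iff_injective]
  intro a b h
  apply evF_injective W N
  have ha : aeval (jBC L N) a = evF W N a := Fermat.Agent.S34.Bridge.aeval_eq_evF W N a
  have hb : aeval (jBC L N) b = evF W N b := Fermat.Agent.S34.Bridge.aeval_eq_evF W N b
  exact ha.symm.trans (h.trans hb)

theorem field_aux₄ {K : Type*} [Field K] {a w : K} (ha : a ≠ 0) : w = a * (w * a⁻¹) := by
  field_simp

/-- **The product relation on the finite chart** (`hprod`), field form: for `x, y, z` integral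
over `W[j]` at level `M q²` with `x ∈ 𝔭_∞` (zero reduction of the `q`-expansion), `y ∈ 𝔭_mid`
(zero reduction of the middle expansion), `z ∈ 𝔭_0` (zero reduction of the expansion at `0`),
the product `x y ^ (q-1) z` is `π` times an element integral over `W[j]`. -/
theorem exists_isIntegral_eq_mul (hqM : ¬ q ∣ M)
    (hwα : w₁.comp (heckeAlphaBar L M q) = heckeBetaBar L M q)
    (hwβ : w₁.comp (heckeBetaBar L M q) = heckeAlphaBar L M q) (ι₀ : L' →+* ℂ)
    (hcyc : CycData W q W' ζ) (E : Exp3 M q w₁ ζ) {π : ↥W} (hπ : Irreducible π)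
    (x y z : FF L (M * q * q))
    (hx : IsIntegral (Algebra.adjoin ↥W {jBC L (M * q * q)}) x)
    (hy : IsIntegral (Algebra.adjoin ↥W {jBC L (M * q * q)}) y)
    (hz : IsIntegral (Algebra.adjoin ↥W {jBC L (M * q * q)}) z)
    (hx0 : rd W (x : LaurentSeries L) = 0) (hy0 : rd W' (E.psi y) = 0)
    (hz0 : rd W (E.phi0 z) = 0) :
    ∃ c : FF L (M * q * q), IsIntegral (Algebra.adjoin ↥W {jBC L (M * q * q)}) c ∧
      x * y ^ (q - 1) * z = algebraMap ↥W (FF L (M * q * q)) π * c := by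
  have h3x := mem_three_of_isIntegralElem W M q W' ζ w₁ hwα hcyc E
    ((Fermat.Agent.S34.Bridge.isIntegral_adjoin_iff W (M * q * q) x).mp hx)
  have h3y := mem_three_of_isIntegralElem W M q W' ζ w₁ hwα hcyc E
    ((Fermat.Agent.S34.Bridge.isIntegral_adjoin_iff W (M * q * q) y).mp hy)
  have h3z := mem_three_of_isIntegralElem W M q W' ζ w₁ hwα hcyc E
    ((Fermat.Agent.S34.Bridge.isIntegral_adjoin_iff W (M * q * q) z).mp hz)
  obtain ⟨c1, c2, c3⟩ := mem_three_div W M q W' ζ w₁ hcyc E hπ x y z h3x h3y h3z hx0 hy0 hz0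
  have hInC : Endgame.InC π (jBC L (M * q * q))
      (x * y ^ (q - 1) * z * (algebraMap L (FF L (M * q * q)) ((π : ↥W) : L))⁻¹) :=
    Fermat.Agent.S36.InC3.inC_of_three W M q w₁ W' ζ hqM hwα hwβ ι₀ hcyc E hπ _ c1 c2 c3
  have hπ0 : algebraMap L (FF L (M * q * q)) ((π : ↥W) : L) ≠ 0 := by
    rw [Ne, map_eq_zero]
    exact fun h0 => hπ.ne_zero (Subtype.ext h0)
  have heq : x * y ^ (q - 1) * z = algebraMap ↥W (FF L (M * q * q)) π *
      (x * y ^ (q - 1) * z * (algebraMap L (FF L (M * q * q)) ((π : ↥W) : L))⁻¹) :=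
    field_aux₄ hπ0
  have hI1 : Endgame.IsInt ↥W (jBC L (M * q * q)) (algebraMap ↥W (FF L (M * q * q)) π *
      (x * y ^ (q - 1) * z * (algebraMap L (FF L (M * q * q)) ((π : ↥W) : L))⁻¹)) := by
    rw [← heq]
    exact (Endgame.isInt_iff_isIntegral_adjoin (W := ↥W) (F := FF L (M * q * q))
      (Y := FF L (M * q * q)) (jBC L (M * q * q)) _).mpr ((hx.mul (hy.pow _)).mul hz)
  have hI : Endgame.IsInt ↥W (jBC L (M * q * q))
      (x * y ^ (q - 1) * z * (algebraMap L (FF L (M * q * q)) ((π : ↥W) : L))⁻¹) :=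
    Endgame.isInt_of_inC hπ.prime (transcendental_jBC_W W (M * q * q)) hI1 hInC
  exact ⟨_, (Endgame.isInt_iff_isIntegral_adjoin (W := ↥W) (F := FF L (M * q * q))
    (Y := FF L (M * q * q)) (jBC L (M * q * q)) _).mp hI, heq⟩

/-- **The product relation on the chart at infinity**, field form. -/
theorem exists_isIntegral_eq_mul_inv (hqM : ¬ q ∣ M)
    (hwα : w₁.comp (heckeAlphaBar L M q) = heckeBetaBar L M q)
    (hwβ : w₁.comp (heckeBetaBar L M q) = heckeAlphaBar L M q) (ι₀ : L' →+* ℂ)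
    (hcyc : CycData W q W' ζ) (E : Exp3 M q w₁ ζ) {π : ↥W} (hπ : Irreducible π)
    (x y z : FF L (M * q * q))
    (hx : IsIntegral (Algebra.adjoin ↥W {(jBC L (M * q * q))⁻¹}) x)
    (hy : IsIntegral (Algebra.adjoin ↥W {(jBC L (M * q * q))⁻¹}) y)
    (hz : IsIntegral (Algebra.adjoin ↥W {(jBC L (M * q * q))⁻¹}) z)
    (hx0 : rd W (x : LaurentSeries L) = 0) (hy0 : rd W' (E.psi y) = 0)
    (hz0 : rd W (E.phi0 z) = 0) :
    ∃ c : FF L (M * q * q), IsIntegral (Algebra.adjoin ↥W {(jBC L (M * q * q))⁻¹}) c ∧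
      x * y ^ (q - 1) * z = algebraMap ↥W (FF L (M * q * q)) π * c := by
  have h3x := mem_three_of_isIntegralElem_inv W M q W' ζ w₁ hwα hcyc E
    ((Fermat.Agent.S34.Bridge.isIntegral_adjoin_inv_iff W (M * q * q) x).mp hx)
  have h3y := mem_three_of_isIntegralElem_inv W M q W' ζ w₁ hwα hcyc E
    ((Fermat.Agent.S34.Bridge.isIntegral_adjoin_inv_iff W (M * q * q) y).mp hy)
  have h3z := mem_three_of_isIntegralElem_inv W M q W' ζ w₁ hwα hcyc E
    ((Fermat.Agent.S34.Bridge.isIntegral_adjoin_inv_iff W (M * q * q) z).mp hz)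
  obtain ⟨c1, c2, c3⟩ := mem_three_div W M q W' ζ w₁ hcyc E hπ x y z h3x h3y h3z hx0 hy0 hz0
  have htr := transcendental_jBC_W W (M * q * q)
  have hj0 : jBC L (M * q * q) ≠ 0 := by
    rintro h0
    exact htr ⟨X, X_ne_zero, by rw [aeval_X, h0]⟩
  have hInC : Endgame.InC π (jBC L (M * q * q))⁻¹
      (x * y ^ (q - 1) * z * (algebraMap L (FF L (M * q * q)) ((π : ↥W) : L))⁻¹) :=
    Endgame.InC.to_inv hj0
      (Fermat.Agent.S36.InC3.inC_of_three W M q w₁ W' ζ hqM hwα hwβ ι₀ hcyc E hπ _ c1 c2 c3)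
  have hπ0 : algebraMap L (FF L (M * q * q)) ((π : ↥W) : L) ≠ 0 := by
    rw [Ne, map_eq_zero]
    exact fun h0 => hπ.ne_zero (Subtype.ext h0)
  have heq : x * y ^ (q - 1) * z = algebraMap ↥W (FF L (M * q * q)) π *
      (x * y ^ (q - 1) * z * (algebraMap L (FF L (M * q * q)) ((π : ↥W) : L))⁻¹) :=
    field_aux₄ hπ0
  have hI1 : Endgame.IsInt ↥W (jBC L (M * q * q))⁻¹ (algebraMap ↥W (FF L (M * q * q)) π *
      (x * y ^ (q - 1) * z * (algebraMap L (FF L (M * q * q)) ((π : ↥W) : L))⁻¹)) := by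
    rw [← heq]
    exact (Endgame.isInt_iff_isIntegral_adjoin (W := ↥W) (F := FF L (M * q * q))
      (Y := FF L (M * q * q)) (jBC L (M * q * q))⁻¹ _).mpr ((hx.mul (hy.pow _)).mul hz)
  have hI : Endgame.IsInt ↥W (jBC L (M * q * q))⁻¹
      (x * y ^ (q - 1) * z * (algebraMap L (FF L (M * q * q)) ((π : ↥W) : L))⁻¹) :=
    Endgame.isInt_of_inC hπ.prime (Endgame.transcendental_inv htr) hI1 hInC
  exact ⟨_, (Endgame.isInt_iff_isIntegral_adjoin (W := ↥W) (F := FF L (M * q * q))
    (Y := FF L (M * q * q)) (jBC L (M * q * q))⁻¹ _).mp hI, heq⟩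

/-- **`hprod` on the finite chart** `B₁ = integralClosure W[j]` of level `M q²` (the carrier of
`RegDefs.Reg36₁`): `𝔭_∞ · 𝔭_mid ^ (q-1) · 𝔭_0 ⊆ (π)`. -/
theorem dvd_mul_pow_mul (hqM : ¬ q ∣ M)
    (hwα : w₁.comp (heckeAlphaBar L M q) = heckeBetaBar L M q)
    (hwβ : w₁.comp (heckeBetaBar L M q) = heckeAlphaBar L M q) (ι₀ : L' →+* ℂ)
    (hcyc : CycData W q W' ζ) (E : Exp3 M q w₁ ζ) {π : ↥W} (hπ : Irreducible π)
    (x y z : ↥(integralClosure (Algebra.adjoin ↥W {jBC L (M * q * q)}) (FF L (M * q * q))))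
    (hx0 : rd W (((x : FF L (M * q * q)) : FF L (M * q * q)) : LaurentSeries L) = 0)
    (hy0 : rd W' (E.psi (y : FF L (M * q * q))) = 0)
    (hz0 : rd W (E.phi0 (z : FF L (M * q * q))) = 0)
    (r : ↥(integralClosure (Algebra.adjoin ↥W {jBC L (M * q * q)}) (FF L (M * q * q))))
    (hr : (r : FF L (M * q * q)) = algebraMap ↥W (FF L (M * q * q)) π) :
    r ∣ x * y ^ (q - 1) * z := by
  obtain ⟨c, hc, heq⟩ := exists_isIntegral_eq_mul W M q W' ζ w₁ hqM hwα hwβ ι₀ hcyc E hπ
    (x : FF L (M * q * q)) y z x.2 y.2 z.2 hx0 hy0 hz0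
  refine ⟨⟨c, hc⟩, Subtype.ext ?_⟩
  show (x : FF L (M * q * q)) * (y : FF L (M * q * q)) ^ (q - 1) * (z : FF L (M * q * q)) =
    (r : FF L (M * q * q)) * c
  rw [hr]
  exact heq

/-- **`hprod` on the chart at infinity** `B₂ = integralClosure W[1/j]` of level `M q²` (the
carrier of `RegDefs.Reg36₂`). -/
theorem dvd_mul_pow_mul_inv (hqM : ¬ q ∣ M)
    (hwα : w₁.comp (heckeAlphaBar L M q) = heckeBetaBar L M q)
    (hwβ : w₁.comp (heckeBetaBar L M q) = heckeAlphaBar L M q) (ι₀ : L' →+* ℂ)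
    (hcyc : CycData W q W' ζ) (E : Exp3 M q w₁ ζ) {π : ↥W} (hπ : Irreducible π)
    (x y z : ↥(integralClosure (Algebra.adjoin ↥W {(jBC L (M * q * q))⁻¹})
      (FF L (M * q * q))))
    (hx0 : rd W (((x : FF L (M * q * q)) : FF L (M * q * q)) : LaurentSeries L) = 0)
    (hy0 : rd W' (E.psi (y : FF L (M * q * q))) = 0)
    (hz0 : rd W (E.phi0 (z : FF L (M * q * q))) = 0)
    (r : ↥(integralClosure (Algebra.adjoin ↥W {(jBC L (M * q * q))⁻¹}) (FF L (M * q * q))))
    (hr : (r : FF L (M * q * q)) = algebraMap ↥W (FF L (M * q * q)) π) :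
    r ∣ x * y ^ (q - 1) * z := by
  obtain ⟨c, hc, heq⟩ := exists_isIntegral_eq_mul_inv W M q W' ζ w₁ hqM hwα hwβ ι₀ hcyc E hπ
    (x : FF L (M * q * q)) y z x.2 y.2 z.2 hx0 hy0 hz0
  refine ⟨⟨c, hc⟩, Subtype.ext ?_⟩
  show (x : FF L (M * q * q)) * (y : FF L (M * q * q)) ^ (q - 1) * (z : FF L (M * q * q)) =
    (r : FF L (M * q * q)) * c
  rw [hr]
  exact heq

/-! ### The comap table

`α₂ = heckeAlphaBar L (M q) q`, `β₂ = heckeBetaBar L (M q) q : FF L (M q) → FF L (M q²)`.  With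
`𝔭₁ = {rd (coe b) = 0}`, `𝔭₂ = {rd (coe (w₁ b)) = 0}` at level `M q` and `𝔭_∞`, `𝔭_mid`, `𝔭_0`
at level `M q²`: under `α₂`, `𝔭_∞, 𝔭_mid ↦ 𝔭₁` and `𝔭_0 ↦ 𝔭₂`; under `β₂`, `𝔭_∞ ↦ 𝔭₁` and
`𝔭_mid, 𝔭_0 ↦ 𝔭₂`.  The same for the valuation rings (membership in the content rings). -/

omit [IsDiscreteValuationRing W] [Fact q.Prime] [CharP (IsLocalRing.ResidueField W) q] in
theorem coe_alpha (b : FF L (M * q)) :
    ((heckeAlphaBar L (M * q) q b : FF L (M * q * q)) : LaurentSeries L) =
      (b : LaurentSeries L) :=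
  coe_heckeAlphaBar (M * q) q b

omit [IsDiscreteValuationRing W] [Fact q.Prime] [CharP (IsLocalRing.ResidueField W) q] in
theorem coe_beta (b : FF L (M * q)) :
    ((heckeBetaBar L (M * q) q b : FF L (M * q * q)) : LaurentSeries L) =
      qExpand L q (b : LaurentSeries L) :=
  coe_heckeBetaBar (M * q) q b

/-- `(α₂, ∞)` -/
theorem rd_coe_alpha (b : FF L (M * q)) :
    rd W ((heckeAlphaBar L (M * q) q b : FF L (M * q * q)) : LaurentSeries L) =
      rd W (b : LaurentSeries L) := by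
  rw [coe_alpha]

/-- `(α₂, mid)`, valuation rings -/
theorem psi_alpha_mem_iff (hcyc : CycData W q W' ζ) (E : Exp3 M q w₁ ζ) (b : FF L (M * q)) :
    E.psi (heckeAlphaBar L (M * q) q b) ∈ contentRing W' ↔
      (b : LaurentSeries L) ∈ contentRing W := by
  have hWW' : ∀ c : L, c ∈ W ↔ algebraMap L L' c ∈ W' := fun c => (hcyc.comap c).symm
  rw [E.psi_alpha]
  exact ⟨fun h => Fermat.Agent.S36.InC3.mem_contentRing_of_coeffMap W' (algebraMap L L') W hWW'
    (coe_mem_fracInt W (M * q) b) h, fun h => coeffMap_mem_contentRing _ W W' hWW' h⟩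

/-- `(α₂, mid)`, reductions -/
theorem rd_psi_alpha_eq_zero_iff (hcyc : CycData W q W' ζ) (E : Exp3 M q w₁ ζ)
    (b : FF L (M * q)) (hb : (b : LaurentSeries L) ∈ contentRing W) :
    rd W' (E.psi (heckeAlphaBar L (M * q) q b)) = 0 ↔ rd W (b : LaurentSeries L) = 0 := by
  rw [E.psi_alpha]
  exact rd_coeffMap_eq_zero_iff W' (algebraMap L L') W (fun c => (hcyc.comap c).symm) hb

/-- `(α₂, 0)`, valuation rings -/
theorem phi0_alpha_mem_iff (E : Exp3 M q w₁ ζ) (b : FF L (M * q)) :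
    E.phi0 (heckeAlphaBar L (M * q) q b) ∈ contentRing W ↔
      ((w₁ b : FF L (M * q)) : LaurentSeries L) ∈ contentRing W := by
  rw [E.phi0_alpha]
  exact ⟨fun h => Fermat.Agent.S36.InC3.mem_contentRing_of_qExpand W q
    (coe_mem_fracInt W (M * q) (w₁ b)) h, fun h => qExpand_mem_contentRing W q h⟩

/-- `(α₂, 0)`, reductions -/
theorem rd_phi0_alpha_eq_zero_iff (E : Exp3 M q w₁ ζ) (b : FF L (M * q))
    (hb : ((w₁ b : FF L (M * q)) : LaurentSeries L) ∈ contentRing W) :
    rd W (E.phi0 (heckeAlphaBar L (M * q) q b)) = 0 ↔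
      rd W ((w₁ b : FF L (M * q)) : LaurentSeries L) = 0 := by
  rw [E.phi0_alpha]
  exact rd_qExpand_eq_zero_iff W q hb

/-- `(β₂, ∞)`, valuation rings -/
theorem coe_beta_mem_iff (b : FF L (M * q)) :
    ((heckeBetaBar L (M * q) q b : FF L (M * q * q)) : LaurentSeries L) ∈ contentRing W ↔
      (b : LaurentSeries L) ∈ contentRing W := by
  rw [coe_beta]
  exact ⟨fun h => Fermat.Agent.S36.InC3.mem_contentRing_of_qExpand W q
    (coe_mem_fracInt W (M * q) b) h, fun h => qExpand_mem_contentRing W q h⟩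

/-- `(β₂, ∞)`, reductions -/
theorem rd_coe_beta_eq_zero_iff (b : FF L (M * q))
    (hb : (b : LaurentSeries L) ∈ contentRing W) :
    rd W ((heckeBetaBar L (M * q) q b : FF L (M * q * q)) : LaurentSeries L) = 0 ↔
      rd W (b : LaurentSeries L) = 0 := by
  rw [coe_beta]
  exact rd_qExpand_eq_zero_iff W q hb

/-- `(β₂, mid)`, valuation rings -/
theorem psi_beta_mem_iff (hcyc : CycData W q W' ζ) (E : Exp3 M q w₁ ζ) (b : FF L (M * q)) :
    E.psi (heckeBetaBar L (M * q) q b) ∈ contentRing W' ↔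
      ((w₁ b : FF L (M * q)) : LaurentSeries L) ∈ contentRing W := by
  haveI := CycLemmas.charP_residueField W q W' ζ hcyc
  have hWW' : ∀ c : L, c ∈ W ↔ algebraMap L L' c ∈ W' := fun c => (hcyc.comap c).symm
  have hζ : ζ ^ q = 1 := CycLemmas.zeta_pow W q W' ζ hcyc
  have hζ' : ζ⁻¹ ^ q = 1 := by rw [inv_pow, hζ, inv_one]
  rw [E.psi_beta]
  constructor
  · intro h
    have h1 := (tw_mem_contentRing W' ζ⁻¹ hζ' h).1
    rw [← tw_mul, inv_mul_cancel, tw_one] at h1
    exact Fermat.Agent.S36.InC3.mem_contentRing_of_coeffMap W' (algebraMap L L') W hWW'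
      (coe_mem_fracInt W (M * q) (w₁ b)) h1
  · intro h
    exact (tw_mem_contentRing W' ζ hζ (coeffMap_mem_contentRing _ W W' hWW' h)).1

/-- `(β₂, mid)`, reductions -/
theorem rd_psi_beta_eq_zero_iff (hcyc : CycData W q W' ζ) (E : Exp3 M q w₁ ζ)
    (b : FF L (M * q)) (hb : ((w₁ b : FF L (M * q)) : LaurentSeries L) ∈ contentRing W) :
    rd W' (E.psi (heckeBetaBar L (M * q) q b)) = 0 ↔
      rd W ((w₁ b : FF L (M * q)) : LaurentSeries L) = 0 := by
  haveI := CycLemmas.charP_residueField W q W' ζ hcyc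
  have hWW' : ∀ c : L, c ∈ W ↔ algebraMap L L' c ∈ W' := fun c => (hcyc.comap c).symm
  rw [E.psi_beta, rd_tw_eq_zero_iff W' ζ (CycLemmas.zeta_pow W q W' ζ hcyc)
    (coeffMap_mem_contentRing _ W W' hWW' hb)]
  exact rd_coeffMap_eq_zero_iff W' (algebraMap L L') W hWW' hb

/-- `(β₂, 0)` -/
theorem rd_phi0_beta (E : Exp3 M q w₁ ζ) (b : FF L (M * q)) :
    rd W (E.phi0 (heckeBetaBar L (M * q) q b)) =
      rd W ((w₁ b : FF L (M * q)) : LaurentSeries L) := by
  rw [E.phi0_beta]

/-! ### Witnesses: the comaps of `𝔭_mid`, `𝔭_0` under `β₂` are not contained in `𝔭₁`, the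
comaps of `𝔭_∞`, `𝔭_mid` under `α₂` are not contained in `𝔭₂` -/

variable (L) in
/-- `b₀ = j(qz)^q - j(z) ∈ 𝔭₂ ∖ 𝔭₁` at level `M q` -/
def b0 : FF L (M * q) := heckeBetaBar L M q (jBC L M) ^ q - jBC L (M * q)

variable (L) in
/-- `b₁ = j(z)^q - j(qz) ∈ 𝔭₁ ∖ 𝔭₂` at level `M q` -/
def b1 : FF L (M * q) := jBC L (M * q) ^ q - heckeBetaBar L M q (jBC L M)

omit [IsDiscreteValuationRing W] [Fact q.Prime] [CharP (IsLocalRing.ResidueField W) q] in
theorem coe_beta_jBC :
    ((heckeBetaBar L M q (jBC L M) : FF L (M * q)) : LaurentSeries L) =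
      qExpand L q (jqModC L) := by
  rw [coe_heckeBetaBar M q, coe_jBC_eq]

omit [IsDiscreteValuationRing W] [Fact q.Prime] [CharP (IsLocalRing.ResidueField W) q] in
theorem coe_w_beta_jBC (hwβ : w₁.comp (heckeBetaBar L M q) = heckeAlphaBar L M q) :
    ((w₁ (heckeBetaBar L M q (jBC L M)) : FF L (M * q)) : LaurentSeries L) = jqModC L := by
  have h := phi2_beta w₁ hwβ (jBC L M)
  rw [phiM_jBC] at h
  exact h

omit [IsDiscreteValuationRing W] [Fact q.Prime] [CharP (IsLocalRing.ResidueField W) q] in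
theorem coe_b0 :
    ((b0 L M q : FF L (M * q)) : LaurentSeries L) =
      qExpand L q (jqModC L) ^ q - jqModC L := by
  show algebraMap (FF L (M * q)) (LaurentSeries L) (b0 L M q) = _
  rw [b0, map_sub, map_pow]
  show ((heckeBetaBar L M q (jBC L M) : FF L (M * q)) : LaurentSeries L) ^ q -
    ((jBC L (M * q) : FF L (M * q)) : LaurentSeries L) = _
  rw [coe_beta_jBC, coe_jBC_eq]

theorem coe_w_b0 (hwα : w₁.comp (heckeAlphaBar L M q) = heckeBetaBar L M q)
    (hwβ : w₁.comp (heckeBetaBar L M q) = heckeAlphaBar L M q) :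
    ((w₁ (b0 L M q) : FF L (M * q)) : LaurentSeries L) =
      jqModC L ^ q - qExpand L q (jqModC L) := by
  show algebraMap (FF L (M * q)) (LaurentSeries L) (w₁ (b0 L M q)) = _
  rw [b0, map_sub, map_pow, map_sub, map_pow]
  show ((w₁ (heckeBetaBar L M q (jBC L M)) : FF L (M * q)) : LaurentSeries L) ^ q -
    ((w₁ (jBC L (M * q)) : FF L (M * q)) : LaurentSeries L) = _
  rw [coe_w_beta_jBC M q w₁ hwβ, coe_w_jBC M q w₁ hwα]

omit [IsDiscreteValuationRing W] [Fact q.Prime] [CharP (IsLocalRing.ResidueField W) q] in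
theorem coe_b1 :
    ((b1 L M q : FF L (M * q)) : LaurentSeries L) =
      jqModC L ^ q - qExpand L q (jqModC L) := by
  show algebraMap (FF L (M * q)) (LaurentSeries L) (b1 L M q) = _
  rw [b1, map_sub, map_pow]
  show ((jBC L (M * q) : FF L (M * q)) : LaurentSeries L) ^ q -
    ((heckeBetaBar L M q (jBC L M) : FF L (M * q)) : LaurentSeries L) = _
  rw [coe_beta_jBC, coe_jBC_eq]

theorem coe_w_b1 (hwα : w₁.comp (heckeAlphaBar L M q) = heckeBetaBar L M q)
    (hwβ : w₁.comp (heckeBetaBar L M q) = heckeAlphaBar L M q) :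
    ((w₁ (b1 L M q) : FF L (M * q)) : LaurentSeries L) =
      qExpand L q (jqModC L) ^ q - jqModC L := by
  show algebraMap (FF L (M * q)) (LaurentSeries L) (w₁ (b1 L M q)) = _
  rw [b1, map_sub, map_pow, map_sub, map_pow]
  show ((w₁ (jBC L (M * q)) : FF L (M * q)) : LaurentSeries L) ^ q -
    ((w₁ (heckeBetaBar L M q (jBC L M)) : FF L (M * q)) : LaurentSeries L) = _
  rw [coe_w_beta_jBC M q w₁ hwβ, coe_w_jBC M q w₁ hwα]

theorem isIntegralElem_pow {R S : Type*} [CommRing R] [CommRing S] (f : R →+* S) {x : S}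
    (hx : f.IsIntegralElem x) (n : ℕ) : f.IsIntegralElem (x ^ n) := by
  induction n with
  | zero => rw [pow_zero]; exact f.isIntegralElem_one
  | succ n ih => rw [pow_succ]; exact RingHom.IsIntegralElem.mul f ih hx

omit [IsDiscreteValuationRing W] [CharP (IsLocalRing.ResidueField W) q] in
theorem b0_isIntegralElem : (evF W (M * q)).IsIntegralElem (b0 L M q) := by
  have h1 : (evF W (M * q)).IsIntegralElem (jBC L (M * q)) := by
    rw [← evF_X W (M * q)]
    exact RingHom.isIntegralElem_map _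
  exact RingHom.IsIntegralElem.sub _ (isIntegralElem_pow _
    (Fermat.Agent.S34.BetaInt.isIntegralElem_beta_j W M q (Fact.out : q.Prime)) q) h1

omit [IsDiscreteValuationRing W] [CharP (IsLocalRing.ResidueField W) q] in
theorem b1_isIntegralElem : (evF W (M * q)).IsIntegralElem (b1 L M q) := by
  have h1 : (evF W (M * q)).IsIntegralElem (jBC L (M * q)) := by
    rw [← evF_X W (M * q)]
    exact RingHom.isIntegralElem_map _
  exact RingHom.IsIntegralElem.sub _ (isIntegralElem_pow _ h1 q)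
    (Fermat.Agent.S34.BetaInt.isIntegralElem_beta_j W M q (Fact.out : q.Prime))

/-- **Witness for `β₂`** (`hmid`, `hzero` of the `C_∞` instance): `b₀` is integral over `W[j]`
at level `M q`, is NOT in `𝔭₁`, and `β₂ b₀ ∈ 𝔭_mid ∩ 𝔭_0`. -/
theorem witness_beta (hwα : w₁.comp (heckeAlphaBar L M q) = heckeBetaBar L M q)
    (hwβ : w₁.comp (heckeBetaBar L M q) = heckeAlphaBar L M q)
    (hcyc : CycData W q W' ζ) (E : Exp3 M q w₁ ζ) :
    (evF W (M * q)).IsIntegralElem (b0 L M q) ∧
      ((b0 L M q : FF L (M * q)) : LaurentSeries L) ∈ contentRing W ∧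
      rd W ((b0 L M q : FF L (M * q)) : LaurentSeries L) ≠ 0 ∧
      rd W' (E.psi (heckeBetaBar L (M * q) q (b0 L M q))) = 0 ∧
      rd W (E.phi0 (heckeBetaBar L (M * q) q (b0 L M q))) = 0 := by
  have hA := seriesA W q
  have hB := seriesB W q
  have hw : ((w₁ (b0 L M q) : FF L (M * q)) : LaurentSeries L) ∈ contentRing W := by
    rw [coe_w_b0 M q w₁ hwα hwβ]; exact hA.1
  have hw0 : rd W ((w₁ (b0 L M q) : FF L (M * q)) : LaurentSeries L) = 0 := by
    rw [coe_w_b0 M q w₁ hwα hwβ]; exact hA.2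
  refine ⟨b0_isIntegralElem W M q, ?_, ?_, ?_, ?_⟩
  · rw [coe_b0]; exact hB.1
  · rw [coe_b0]; exact hB.2
  · exact (rd_psi_beta_eq_zero_iff W M q W' ζ w₁ hcyc E _ hw).mpr hw0
  · rw [rd_phi0_beta]; exact hw0

/-- **Witness for `α₂`** (`hinf`, `hmid` of the mirrored `C_0` instance): `b₁` is integral over
`W[j]` at level `M q`, is NOT in `𝔭₂`, and `α₂ b₁ ∈ 𝔭_∞ ∩ 𝔭_mid`. -/
theorem witness_alpha (hwα : w₁.comp (heckeAlphaBar L M q) = heckeBetaBar L M q)
    (hwβ : w₁.comp (heckeBetaBar L M q) = heckeAlphaBar L M q)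
    (hcyc : CycData W q W' ζ) (E : Exp3 M q w₁ ζ) :
    (evF W (M * q)).IsIntegralElem (b1 L M q) ∧
      ((w₁ (b1 L M q) : FF L (M * q)) : LaurentSeries L) ∈ contentRing W ∧
      rd W ((w₁ (b1 L M q) : FF L (M * q)) : LaurentSeries L) ≠ 0 ∧
      rd W ((heckeAlphaBar L (M * q) q (b1 L M q) : FF L (M * q * q)) : LaurentSeries L) = 0 ∧
      rd W' (E.psi (heckeAlphaBar L (M * q) q (b1 L M q))) = 0 := by
  have hA := seriesA W q
  have hB := seriesB W q
  have h1 : ((b1 L M q : FF L (M * q)) : LaurentSeries L) ∈ contentRing W := by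
    rw [coe_b1]; exact hA.1
  have h10 : rd W ((b1 L M q : FF L (M * q)) : LaurentSeries L) = 0 := by
    rw [coe_b1]; exact hA.2
  refine ⟨b1_isIntegralElem W M q, ?_, ?_, ?_, ?_⟩
  · rw [coe_w_b1 M q w₁ hwα hwβ]; exact hB.1
  · rw [coe_w_b1 M q w₁ hwα hwβ]; exact hB.2
  · rw [rd_coe_alpha]; exact h10
  · exact (rd_psi_alpha_eq_zero_iff W M q W' ζ w₁ hcyc E _ h1).mpr h10

end Level

end Fermat.Agent.S36.VertInst
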